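/-
CFT global part (G0.3), helper3: basic definitions.

The absolute semi-local model: for a number field `F` and a rational prime `ℓ`,
`SemiLocal ℓ F := ℚ_[ℓ] ⊗[ℚ] F` (a finite étale `ℚ_[ℓ]`-algebra, the product of the completions
of `F` at the primes over `ℓ`), its maximal order `SemiLocal.integers ℓ F`
(the integral closure of `ℤ_[ℓ]`), and the group of finite ideles
`FinIdele F := Πʳ ℓ, [(SemiLocal ℓ F)ˣ, (SemiLocal.integers ℓ F)ˣ]`.
Everything is functorial in `F` (ring homomorphisms), in particular Galois groups act.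
-/
import Mathlib

set_option autoImplicit false

open scoped TensorProduct NumberField RestrictedProduct

namespace Fermat.Agent.CFT

/-- The semi-local algebra `ℚ_ℓ ⊗_ℚ F`. -/
abbrev SemiLocal (ℓ : ℕ) [Fact ℓ.Prime] (F : Type*) [Field F] [CharZero F] : Type _ :=
  ℚ_[ℓ] ⊗[ℚ] F

namespace SemiLocal

section basic

variable (ℓ : ℕ) [Fact ℓ.Prime] (F : Type*) [Field F] [CharZero F]

/-- The canonical map `F → ℚ_ℓ ⊗ F`. -/
noncomputable def of : F →ₐ[ℚ] SemiLocal ℓ F := Algebra.TensorProduct.includeRight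

lemma of_apply (x : F) : of ℓ F x = (1 : ℚ_[ℓ]) ⊗ₜ[ℚ] x := rfl

lemma of_injective : Function.Injective (of ℓ F) :=
  Algebra.TensorProduct.includeRight_injective (algebraMap ℚ ℚ_[ℓ]).injective

/-- The maximal order of `ℚ_ℓ ⊗ F`: the integral closure of `ℤ_ℓ`. -/
noncomputable def integers : Subalgebra ℤ_[ℓ] (SemiLocal ℓ F) :=
  integralClosure ℤ_[ℓ] (SemiLocal ℓ F)

lemma mem_integers_iff {x : SemiLocal ℓ F} : x ∈ integers ℓ F ↔ IsIntegral ℤ_[ℓ] x := Iff.rfl

/-- The units of the maximal order, as a subgroup of the units of `ℚ_ℓ ⊗ F`. -/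
noncomputable def unitGroup : Subgroup (SemiLocal ℓ F)ˣ := (integers ℓ F).toSubmonoid.units

lemma mem_unitGroup_iff {x : (SemiLocal ℓ F)ˣ} :
    x ∈ unitGroup ℓ F ↔ IsIntegral ℤ_[ℓ] (x : SemiLocal ℓ F) ∧
      IsIntegral ℤ_[ℓ] ((x⁻¹ : (SemiLocal ℓ F)ˣ) : SemiLocal ℓ F) := by
  rw [unitGroup, Submonoid.mem_units_iff]
  rfl

end basic

section functorial

variable (ℓ : ℕ) [Fact ℓ.Prime] {F F' F'' : Type*} [Field F] [CharZero F] [Field F'] [CharZero F']
  [Field F''] [CharZero F'']

/-- Functoriality of `ℚ_ℓ ⊗ F` in `F`. -/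
noncomputable def map (f : F →+* F') : SemiLocal ℓ F →ₐ[ℚ_[ℓ]] SemiLocal ℓ F' :=
  Algebra.TensorProduct.map (AlgHom.id ℚ_[ℓ] ℚ_[ℓ]) f.toRatAlgHom

@[simp] lemma map_tmul (f : F →+* F') (a : ℚ_[ℓ]) (x : F) :
    map ℓ f (a ⊗ₜ[ℚ] x) = a ⊗ₜ[ℚ] f x := rfl

@[simp] lemma map_of (f : F →+* F') (x : F) : map ℓ f (of ℓ F x) = of ℓ F' (f x) := rfl

lemma map_id : map ℓ (RingHom.id F) = AlgHom.id ℚ_[ℓ] (SemiLocal ℓ F) := by
  apply Algebra.TensorProduct.ext'
  intro a x
  rfl

lemma map_id_apply (x : SemiLocal ℓ F) : map ℓ (RingHom.id F) x = x := by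
  rw [map_id]; rfl

lemma map_comp (g : F' →+* F'') (f : F →+* F') :
    map ℓ (g.comp f) = (map ℓ g).comp (map ℓ f) := by
  apply Algebra.TensorProduct.ext'
  intro a x
  rfl

lemma map_map (g : F' →+* F'') (f : F →+* F') (x : SemiLocal ℓ F) :
    map ℓ g (map ℓ f x) = map ℓ (g.comp f) x := by
  rw [map_comp]; rfl

lemma map_injective (f : F →+* F') : Function.Injective (map ℓ f) := by
  have : Function.Injective (f.toRatAlgHom.toLinearMap) := f.injective
  exact Module.Flat.lTensor_preserves_injective_linearMap (M := ℚ_[ℓ]) f.toRatAlgHom.toLinearMap this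

lemma map_mem_integers (f : F →+* F') {x : SemiLocal ℓ F} (hx : x ∈ integers ℓ F) :
    map ℓ f x ∈ integers ℓ F' := by
  have h : IsIntegral ℤ_[ℓ] x := hx
  exact h.map ((map ℓ f).restrictScalars ℤ_[ℓ])

/-- The ring isomorphism of semi-local algebras induced by a ring isomorphism of fields. -/
noncomputable def mapEquiv (e : F ≃+* F') : SemiLocal ℓ F ≃ₐ[ℚ_[ℓ]] SemiLocal ℓ F' :=
  AlgEquiv.ofAlgHom (map ℓ (e : F →+* F')) (map ℓ (e.symm : F' →+* F))
    (by
      rw [← map_comp]
      have : ((e : F →+* F').comp (e.symm : F' →+* F)) = RingHom.id F' := by ext; simp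
      rw [this, map_id])
    (by
      rw [← map_comp]
      have : ((e.symm : F' →+* F).comp (e : F →+* F')) = RingHom.id F := by ext; simp
      rw [this, map_id])

@[simp] lemma mapEquiv_apply (e : F ≃+* F') (x : SemiLocal ℓ F) :
    mapEquiv ℓ e x = map ℓ (e : F →+* F') x := rfl

lemma mem_integers_map_iff (e : F ≃+* F') {x : SemiLocal ℓ F} :
    map ℓ (e : F →+* F') x ∈ integers ℓ F' ↔ x ∈ integers ℓ F := by
  refine ⟨fun h => ?_, map_mem_integers ℓ _⟩
  have := map_mem_integers ℓ (e.symm : F' →+* F) h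
  rwa [map_map, show ((e.symm : F' →+* F).comp (e : F →+* F')) = RingHom.id F by ext; simp,
    map_id_apply] at this

/-- The induced map on unit groups. -/
noncomputable def unitsMap (f : F →+* F') : (SemiLocal ℓ F)ˣ →* (SemiLocal ℓ F')ˣ :=
  Units.map (map ℓ f : SemiLocal ℓ F →* SemiLocal ℓ F')

@[simp] lemma coe_unitsMap (f : F →+* F') (x : (SemiLocal ℓ F)ˣ) :
    ((unitsMap ℓ f x : (SemiLocal ℓ F')ˣ) : SemiLocal ℓ F') = map ℓ f x := rfl

lemma unitsMap_mem_unitGroup (f : F →+* F') {x : (SemiLocal ℓ F)ˣ} (hx : x ∈ unitGroup ℓ F) :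
    unitsMap ℓ f x ∈ unitGroup ℓ F' := by
  rw [mem_unitGroup_iff] at hx ⊢
  refine ⟨map_mem_integers ℓ f hx.1, ?_⟩
  rw [← map_inv]
  exact map_mem_integers ℓ f hx.2

end functorial

end SemiLocal

end Fermat.Agent.CFT

namespace Fermat.Agent.CFT

/-- Every element of `Nat.Primes` is prime (as a `Fact`, so that `ℚ_[ℓ]` makes sense). -/
instance factPrimesPrime (ℓ : Nat.Primes) : Fact (ℓ : ℕ).Prime := ⟨ℓ.2⟩

namespace SemiLocal

section action

variable (ℓ : ℕ) [Fact ℓ.Prime] {F : Type*} [Field F] [CharZero F]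
  {G : Type*} [Group G] [MulSemiringAction G F]

/-- A group acting on `F` by ring automorphisms acts on `ℚ_ℓ ⊗ F` through the second factor. -/
noncomputable instance mulSemiringAction : MulSemiringAction G (SemiLocal ℓ F) where
  smul g x := map ℓ (MulSemiringAction.toRingHom G F g) x
  one_smul x := by
    change map ℓ (MulSemiringAction.toRingHom G F 1) x = x
    have : MulSemiringAction.toRingHom G F 1 = RingHom.id F := by ext; simp
    rw [this, map_id_apply]
  mul_smul g h x := by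
    change map ℓ (MulSemiringAction.toRingHom G F (g * h)) x =
      map ℓ (MulSemiringAction.toRingHom G F g) (map ℓ (MulSemiringAction.toRingHom G F h) x)
    rw [map_map]
    congr 2
    ext y
    simp [mul_smul]
  smul_zero g := map_zero _
  smul_add g x y := map_add _ x y
  smul_one g := map_one _
  smul_mul g x y := map_mul _ x y

lemma smul_def (g : G) (x : SemiLocal ℓ F) :
    g • x = map ℓ (MulSemiringAction.toRingHom G F g) x := rfl

@[simp] lemma smul_tmul' (g : G) (a : ℚ_[ℓ]) (x : F) :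
    g • (a ⊗ₜ[ℚ] x : SemiLocal ℓ F) = a ⊗ₜ[ℚ] (g • x) := rfl

@[simp] lemma smul_of (g : G) (x : F) : g • of ℓ F x = of ℓ F (g • x) := rfl

lemma smul_algebraMap (g : G) (a : ℚ_[ℓ]) :
    g • (algebraMap ℚ_[ℓ] (SemiLocal ℓ F) a) = algebraMap ℚ_[ℓ] (SemiLocal ℓ F) a := by
  rw [smul_def, AlgHom.commutes]

lemma smul_mem_integers_iff (g : G) {x : SemiLocal ℓ F} :
    g • x ∈ integers ℓ F ↔ x ∈ integers ℓ F :=
  mem_integers_map_iff ℓ (MulSemiringAction.toRingEquiv G F g)

/-- The induced action on the unit group of `ℚ_ℓ ⊗ F`. -/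
noncomputable instance unitsMulDistribMulAction : MulDistribMulAction G (SemiLocal ℓ F)ˣ :=
  Units.mulDistribMulActionRight

@[simp] lemma coe_smul_units (g : G) (x : (SemiLocal ℓ F)ˣ) :
    ((g • x : (SemiLocal ℓ F)ˣ) : SemiLocal ℓ F) = g • (x : SemiLocal ℓ F) := rfl

@[simp] lemma coe_inv_smul_units (g : G) (x : (SemiLocal ℓ F)ˣ) :
    (((g • x)⁻¹ : (SemiLocal ℓ F)ˣ) : SemiLocal ℓ F) =
      g • ((x⁻¹ : (SemiLocal ℓ F)ˣ) : SemiLocal ℓ F) := rfl

lemma smul_units_eq_unitsMap (g : G) (x : (SemiLocal ℓ F)ˣ) :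
    g • x = unitsMap ℓ (MulSemiringAction.toRingHom G F g) x := Units.ext rfl

lemma smul_mem_unitGroup_iff (g : G) {x : (SemiLocal ℓ F)ˣ} :
    g • x ∈ unitGroup ℓ F ↔ x ∈ unitGroup ℓ F := by
  rw [mem_unitGroup_iff, mem_unitGroup_iff, coe_smul_units, coe_inv_smul_units]
  exact and_congr (smul_mem_integers_iff ℓ g) (smul_mem_integers_iff ℓ g)

end action

end SemiLocal

/-! ### Finite ideles -/

/-- The group of finite ideles of the number field `F`: the restricted product over all rational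
primes `ℓ` of the unit groups of `ℚ_ℓ ⊗ F` with respect to the units of the maximal orders. -/
abbrev FinIdele (F : Type*) [Field F] [CharZero F] : Type _ :=
  Πʳ ℓ : Nat.Primes, [(SemiLocal ℓ F)ˣ, (SemiLocal.unitGroup ℓ F : Set (SemiLocal ℓ F)ˣ)]

namespace FinIdele

variable {F F' : Type*} [Field F] [CharZero F] [Field F'] [CharZero F']

noncomputable example : CommGroup (FinIdele F) := inferInstance

/-- Functoriality of finite ideles. -/
noncomputable def map (f : F →+* F') : FinIdele F →* FinIdele F' :=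
  RestrictedProduct.mapAlongMonoidHom (fun ℓ : Nat.Primes => (SemiLocal ℓ F)ˣ)
    (fun ℓ : Nat.Primes => (SemiLocal ℓ F')ˣ) id Filter.tendsto_id
    (fun ℓ => SemiLocal.unitsMap ℓ f)
    (Filter.Eventually.of_forall fun ℓ _ hx => SemiLocal.unitsMap_mem_unitGroup ℓ f hx)

@[simp] lemma map_apply (f : F →+* F') (x : FinIdele F) (ℓ : Nat.Primes) :
    map f x ℓ = SemiLocal.unitsMap ℓ f (x ℓ) := rfl

end FinIdele

namespace SemiLocal

variable (ℓ : ℕ) [Fact ℓ.Prime] {F : Type*} [Field F] [CharZero F]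

lemma of_mem_integers_of_isIntegral {x : F} (hx : IsIntegral ℤ x) : of ℓ F x ∈ integers ℓ F := by
  have h1 : IsIntegral ℤ (of ℓ F x) := hx.map ((of ℓ F).restrictScalars ℤ)
  exact h1.tower_top

/-- If `d • x` is integral over `ℤ` and `ℓ ∤ d`, then `1 ⊗ x` is integral over `ℤ_ℓ`. -/
lemma of_mem_integers_of_not_dvd {x : F} {d : ℤ} (hd : IsIntegral ℤ (d • x)) (hℓ : ¬ (ℓ : ℤ) ∣ d) :
    of ℓ F x ∈ integers ℓ F := by
  have hu : IsUnit (d : ℤ_[ℓ]) := by
    rw [PadicInt.isUnit_iff, PadicInt.norm_intCast_eq_one_iff]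
    exact ((Int.prime_iff_natAbs_prime.mpr
      (by simpa using (Fact.out : ℓ.Prime))).coprime_iff_not_dvd.mpr hℓ).symm
  obtain ⟨u, hu⟩ := hu
  have h1 := of_mem_integers_of_isIntegral ℓ hd
  have h2 : of ℓ F x = (↑(u⁻¹) : ℤ_[ℓ]) • of ℓ F (d • x) := by
    rw [map_zsmul, ← Int.cast_smul_eq_zsmul ℤ_[ℓ], hu.symm, smul_smul, Units.inv_mul, one_smul]
  rw [h2]
  exact Subalgebra.smul_mem _ h1 _

/-- The units of `ℚ_ℓ ⊗ F` coming from `Fˣ`. -/
noncomputable def ofUnits : Fˣ →* (SemiLocal ℓ F)ˣ := Units.map (of ℓ F : F →* SemiLocal ℓ F)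

@[simp] lemma coe_ofUnits (x : Fˣ) : ((ofUnits ℓ x : (SemiLocal ℓ F)ˣ) : SemiLocal ℓ F) = of ℓ F x :=
  rfl

lemma ofUnits_injective : Function.Injective (ofUnits ℓ (F := F)) :=
  Units.map_injective (of_injective ℓ F)

end SemiLocal

lemma finite_setOf_primes_dvd {d : ℤ} (hd : d ≠ 0) : {ℓ : Nat.Primes | ((ℓ : ℕ) : ℤ) ∣ d}.Finite := by
  have hinj : Function.Injective (fun ℓ : Nat.Primes => (ℓ : ℕ)) := fun a b h => Subtype.ext h
  refine ((Set.finite_Iic d.natAbs).preimage hinj.injOn).subset ?_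
  intro ℓ hℓ
  simp only [Set.mem_preimage, Set.mem_Iic]
  exact Nat.le_of_dvd (Int.natAbs_pos.mpr hd) (Int.natCast_dvd.mp hℓ)

lemma eventually_of_mem_integers {F : Type*} [Field F] [CharZero F] [Algebra.IsAlgebraic ℚ F]
    (x : F) : ∀ᶠ ℓ : Nat.Primes in Filter.cofinite, SemiLocal.of ℓ F x ∈ SemiLocal.integers ℓ F := by
  have hx : IsAlgebraic ℤ x :=
    (IsFractionRing.isAlgebraic_iff ℤ ℚ F).mpr (Algebra.IsAlgebraic.isAlgebraic x)
  obtain ⟨d, hd0, hd⟩ := hx.exists_integral_multiple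
  rw [Filter.eventually_cofinite]
  refine (finite_setOf_primes_dvd hd0).subset ?_
  intro ℓ hℓ
  by_contra h
  exact hℓ (SemiLocal.of_mem_integers_of_not_dvd ℓ hd h)

lemma eventually_ofUnits_mem_unitGroup {F : Type*} [Field F] [CharZero F] [Algebra.IsAlgebraic ℚ F]
    (x : Fˣ) : ∀ᶠ ℓ : Nat.Primes in Filter.cofinite,
      SemiLocal.ofUnits ℓ x ∈ SemiLocal.unitGroup ℓ F := by
  filter_upwards [eventually_of_mem_integers (x : F), eventually_of_mem_integers ((x⁻¹ : Fˣ) : F)]
    with ℓ h1 h2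
  rw [SemiLocal.mem_unitGroup_iff]
  exact ⟨h1, by rw [← map_inv]; exact h2⟩

namespace FinIdele

variable {F F' : Type*} [Field F] [CharZero F] [Field F'] [CharZero F']

/-- The diagonal embedding `Fˣ → J_F`. -/
noncomputable def diag (F : Type*) [Field F] [CharZero F] [Algebra.IsAlgebraic ℚ F] :
    Fˣ →* FinIdele F where
  toFun x := ⟨fun ℓ => SemiLocal.ofUnits ℓ x, eventually_ofUnits_mem_unitGroup x⟩
  map_one' := by
    apply RestrictedProduct.ext
    intro ℓ
    exact map_one (SemiLocal.ofUnits (ℓ : ℕ) (F := F))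
  map_mul' x y := by
    apply RestrictedProduct.ext
    intro ℓ
    exact map_mul (SemiLocal.ofUnits (ℓ : ℕ) (F := F)) x y

@[simp] lemma diag_apply [Algebra.IsAlgebraic ℚ F] (x : Fˣ) (ℓ : Nat.Primes) :
    diag F x ℓ = SemiLocal.ofUnits ℓ x := rfl

lemma diag_injective [Algebra.IsAlgebraic ℚ F] : Function.Injective (diag F) := by
  intro x y h
  have := congrArg (fun z : FinIdele F => z ⟨2, Nat.prime_two⟩) h
  exact SemiLocal.ofUnits_injective _ this

lemma map_diag [Algebra.IsAlgebraic ℚ F] [Algebra.IsAlgebraic ℚ F'] (f : F →+* F') (x : Fˣ) :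
    map f (diag F x) = diag F' (Units.map (f : F →* F') x) := by
  ext ℓ
  rfl


section action

variable {G : Type*} [Group G] [MulSemiringAction G F]

/-- A group acting on `F` by ring automorphisms acts on the finite ideles of `F`. -/
noncomputable instance mulDistribMulAction : MulDistribMulAction G (FinIdele F) where
  smul g x := ⟨fun ℓ => g • x ℓ, by
    filter_upwards [x.2] with ℓ h
    exact (SemiLocal.smul_mem_unitGroup_iff (ℓ : ℕ) g).mpr h⟩
  one_smul x := RestrictedProduct.ext _ _ fun ℓ => one_smul G (x ℓ)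
  mul_smul g h x := RestrictedProduct.ext _ _ fun ℓ => mul_smul g h (x ℓ)
  smul_mul g x y := RestrictedProduct.ext _ _ fun ℓ => smul_mul' g (x ℓ) (y ℓ)
  smul_one g := RestrictedProduct.ext _ _ fun ℓ => smul_one g

@[simp] lemma smul_apply (g : G) (x : FinIdele F) (ℓ : Nat.Primes) : (g • x) ℓ = g • x ℓ := rfl

lemma smul_eq_map (g : G) (x : FinIdele F) :
    g • x = map (MulSemiringAction.toRingHom G F g) x :=
  RestrictedProduct.ext _ _ fun ℓ => SemiLocal.smul_units_eq_unitsMap (ℓ : ℕ) g (x ℓ)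

lemma smul_diag [Algebra.IsAlgebraic ℚ F] (g : G) (x : Fˣ) :
    g • diag F x = diag F (Units.map (MulSemiringAction.toRingHom G F g : F →* F) x) := by
  rw [smul_eq_map, map_diag]

end action

end FinIdele

/-! ### The finite idele class group -/

/-- The group of principal ideles. -/
noncomputable def principalIdeles (F : Type*) [Field F] [CharZero F] [Algebra.IsAlgebraic ℚ F] :
    Subgroup (FinIdele F) := (FinIdele.diag F).range

/-- The finite idele class group `J_F / Fˣ`. -/
abbrev FinIdeleClass (F : Type*) [Field F] [CharZero F] [Algebra.IsAlgebraic ℚ F] : Type _ :=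
  FinIdele F ⧸ principalIdeles F

namespace FinIdeleClass

variable {F : Type*} [Field F] [CharZero F] [Algebra.IsAlgebraic ℚ F]

/-- The projection `J_F → C_F`. -/
noncomputable def mk : FinIdele F →* FinIdeleClass F := QuotientGroup.mk' _

lemma mk_surjective : Function.Surjective (mk (F := F)) := QuotientGroup.mk'_surjective _

lemma mk_eq_one_iff {x : FinIdele F} : mk x = 1 ↔ ∃ a : Fˣ, FinIdele.diag F a = x := by
  rw [mk, QuotientGroup.mk'_apply, QuotientGroup.eq_one_iff]
  rfl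

section action

variable {G : Type*} [Group G] [MulSemiringAction G F]

lemma smul_mem_principalIdeles (g : G) {x : FinIdele F} (hx : x ∈ principalIdeles F) :
    g • x ∈ principalIdeles F := by
  obtain ⟨a, rfl⟩ := hx
  rw [FinIdele.smul_diag]
  exact ⟨_, rfl⟩

/-- The induced action on the idele class group. -/
noncomputable instance mulDistribMulAction : MulDistribMulAction G (FinIdeleClass F) where
  smul g := QuotientGroup.map (principalIdeles F) (principalIdeles F)
    (MulDistribMulAction.toMonoidHom (FinIdele F) g)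
    (fun _ hx => Subgroup.mem_comap.mpr (smul_mem_principalIdeles g hx))
  one_smul x := by
    induction x using QuotientGroup.induction_on with
    | H x => exact congrArg _ (one_smul G x)
  mul_smul g h x := by
    induction x using QuotientGroup.induction_on with
    | H x => exact congrArg _ (mul_smul g h x)
  smul_mul g x y := map_mul _ x y
  smul_one g := map_one _

@[simp] lemma smul_mk (g : G) (x : FinIdele F) : g • mk x = mk (g • x) := rfl

end action

end FinIdeleClass

end Fermat.Agent.CFT
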