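/-
CFT global part (G0.1), helper3: places of a number field over a rational prime, in the absolute
semi-local model, and the completions.  Definitions only (+ the most basic API); the structure
theory is in the (G0.1)/(G0.2) packages.
-/
import Fermat.Agent.CFT.Global.Defs_helper3

set_option autoImplicit false

open scoped TensorProduct NumberField RestrictedProduct

namespace Fermat.Agent.CFT

/-- The places of `F` over the rational prime `ℓ`: the maximal ideals of `ℚ_ℓ ⊗ F`. -/
abbrev Place (ℓ : ℕ) [Fact ℓ.Prime] (F : Type*) [Field F] [CharZero F] : Type _ :=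
  MaximalSpectrum (SemiLocal ℓ F)

namespace Place

variable {ℓ : ℕ} [Fact ℓ.Prime] {F : Type*} [Field F] [CharZero F]

/-- The completion of `F` at the place `w`: the residue field of `ℚ_ℓ ⊗ F` at `w`. -/
abbrev Completion (w : Place ℓ F) : Type _ := SemiLocal ℓ F ⧸ w.asIdeal

noncomputable instance (w : Place ℓ F) : Field w.Completion := Ideal.Quotient.field w.asIdeal

noncomputable example (w : Place ℓ F) : Algebra ℚ_[ℓ] w.Completion := inferInstance

/-- The projection `ℚ_ℓ ⊗ F → F_w`. -/
noncomputable def proj (w : Place ℓ F) : SemiLocal ℓ F →ₐ[ℚ_[ℓ]] w.Completion :=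
  Ideal.Quotient.mkₐ ℚ_[ℓ] w.asIdeal

lemma proj_surjective (w : Place ℓ F) : Function.Surjective w.proj :=
  Ideal.Quotient.mkₐ_surjective _ _

/-- The embedding `F → F_w`. -/
noncomputable def embed (w : Place ℓ F) : F →+* w.Completion :=
  (w.proj : SemiLocal ℓ F →+* w.Completion).comp (SemiLocal.of ℓ F : F →+* SemiLocal ℓ F)

instance [Algebra.IsAlgebraic ℚ F] [Module.Finite ℚ F] (w : Place ℓ F) :
    Module.Finite ℚ_[ℓ] w.Completion :=
  Module.Finite.of_surjective w.proj.toLinearMap w.proj_surjective

/-- The valuation ring of the completion `F_w`: the integral closure of `ℤ_ℓ`. -/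
noncomputable abbrev integers (w : Place ℓ F) : Subalgebra ℤ_[ℓ] w.Completion :=
  integralClosure ℤ_[ℓ] w.Completion

/-- The local component at `w` of a unit of `ℚ_ℓ ⊗ F`. -/
noncomputable def unitsProj (w : Place ℓ F) : (SemiLocal ℓ F)ˣ →* w.Completionˣ :=
  Units.map (w.proj : SemiLocal ℓ F →* w.Completion)

end Place

/-- The local component of a finite idele at the place `w` over `ℓ`. -/
noncomputable def FinIdele.comp {F : Type*} [Field F] [CharZero F] (ℓ : Nat.Primes)
    (w : Place ℓ F) : FinIdele F →* w.Completionˣ :=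
  (w.unitsProj).comp (RestrictedProduct.evalMonoidHom _ ℓ)

end Fermat.Agent.CFT
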