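/-
CFT global part (G0.1), helper7: structure of the semi-local algebra `ℚ_ℓ ⊗ F` of a number
field: finite étale over `ℚ_ℓ`, product of the completions, integers and units componentwise.
-/
import Mathlib
import Fermat.Agent.CFT.Global.Places_helper3

set_option autoImplicit false
set_option linter.unusedSectionVars false
set_option linter.style.haveILetI false

open scoped TensorProduct NumberField

namespace Fermat.Agent.CFT

/-- integrality in a finite product is componentwise. -/
theorem isIntegral_pi_iff {ι : Type*} [Finite ι] {R : Type*} [CommRing R] {A : ι → Type*}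
    [∀ i, CommRing (A i)] [∀ i, Algebra R (A i)] (x : Π i, A i) :
    IsIntegral R x ↔ ∀ i, IsIntegral R (x i) := by
  classical
  letI := Fintype.ofFinite ι
  constructor
  · intro h i
    exact h.map (Pi.evalAlgHom R A i)
  · intro h
    choose p hp using h
    refine ⟨∏ i, p i, Polynomial.monic_prod_of_monic _ _ (fun i _ => (hp i).1), ?_⟩
    rw [← Polynomial.aeval_def]
    funext i
    have h1 : (Polynomial.aeval x (∏ j, p j)) i = Polynomial.aeval (x i) (∏ j, p j) := by
      have := Polynomial.aeval_algHom_apply (Pi.evalAlgHom R A i) x (∏ j, p j)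
      simpa using this.symm
    rw [h1, map_prod, Pi.zero_apply]
    apply Finset.prod_eq_zero (Finset.mem_univ i)
    rw [Polynomial.aeval_def]
    exact (hp i).2

namespace SemiLocal

section Structure

variable (ℓ : ℕ) [Fact ℓ.Prime] (F : Type*) [Field F] [NumberField F]

instance isArtinianRing : IsArtinianRing (SemiLocal ℓ F) :=
  IsArtinianRing.of_finite ℚ_[ℓ] (SemiLocal ℓ F)

instance formallyUnramified_rat : Algebra.FormallyUnramified ℚ F :=
  Algebra.FormallyUnramified.of_isSeparable ℚ F

instance formallyUnramified : Algebra.FormallyUnramified ℚ_[ℓ] (SemiLocal ℓ F) :=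
  inferInstanceAs (Algebra.FormallyUnramified ℚ_[ℓ] (ℚ_[ℓ] ⊗[ℚ] F))

instance isReduced : IsReduced (SemiLocal ℓ F) :=
  Algebra.FormallyUnramified.isReduced_of_field ℚ_[ℓ] (SemiLocal ℓ F)

instance finite_place : Finite (Place ℓ F) := inferInstance

theorem finrank_eq : Module.finrank ℚ_[ℓ] (SemiLocal ℓ F) = Module.finrank ℚ F :=
  Module.finrank_baseChange

/-- `ℚ_ℓ ⊗ F` is the product of the completions of `F` at the places over `ℓ`. -/
noncomputable def equivPi : SemiLocal ℓ F ≃ₐ[ℚ_[ℓ]] Π w : Place ℓ F, w.Completion :=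
  AlgEquiv.ofRingEquiv (f := (IsArtinianRing.equivPi (SemiLocal ℓ F)).toRingEquiv)
    (fun _ => rfl)

@[simp] theorem equivPi_apply (x : SemiLocal ℓ F) (w : Place ℓ F) :
    equivPi ℓ F x w = w.proj x := rfl

/-- the unit group of `ℚ_ℓ ⊗ F` is the product of the unit groups of the completions. -/
noncomputable def unitsEquivPi : (SemiLocal ℓ F)ˣ ≃* Π w : Place ℓ F, (w.Completion)ˣ :=
  (Units.mapEquiv (equivPi ℓ F).toMulEquiv).trans MulEquiv.piUnits

@[simp] theorem unitsEquivPi_apply (x : (SemiLocal ℓ F)ˣ) (w : Place ℓ F) :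
    unitsEquivPi ℓ F x w = w.unitsProj x := Units.ext rfl

/-- an element of `ℚ_ℓ ⊗ F` is determined by its components. -/
theorem ext_proj {x y : SemiLocal ℓ F} (h : ∀ w : Place ℓ F, w.proj x = w.proj y) : x = y :=
  (equivPi ℓ F).injective (funext h)

/-- there is an element of `ℚ_ℓ ⊗ F` with prescribed components. -/
theorem exists_proj_eq (c : Π w : Place ℓ F, w.Completion) :
    ∃ x : SemiLocal ℓ F, ∀ w, w.proj x = c w :=
  ⟨(equivPi ℓ F).symm c, fun w => by rw [← equivPi_apply, AlgEquiv.apply_symm_apply]⟩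

theorem exists_unitsProj_eq (c : Π w : Place ℓ F, (w.Completion)ˣ) :
    ∃ x : (SemiLocal ℓ F)ˣ, ∀ w, w.unitsProj x = c w :=
  ⟨(unitsEquivPi ℓ F).symm c, fun w => by
    rw [← unitsEquivPi_apply, MulEquiv.apply_symm_apply]⟩

theorem units_ext_proj {x y : (SemiLocal ℓ F)ˣ} (h : ∀ w : Place ℓ F, w.unitsProj x = w.unitsProj y) :
    x = y :=
  (unitsEquivPi ℓ F).injective (funext fun w => by simpa using h w)

/-- integrality is componentwise. -/
theorem mem_integers_iff_proj {x : SemiLocal ℓ F} :
    x ∈ integers ℓ F ↔ ∀ w : Place ℓ F, w.proj x ∈ w.integers := by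
  have h1 : IsIntegral ℤ_[ℓ] x ↔ IsIntegral ℤ_[ℓ] (equivPi ℓ F x) :=
    (isIntegral_algEquiv ((equivPi ℓ F).restrictScalars ℤ_[ℓ])).symm
  rw [mem_integers_iff, h1, isIntegral_pi_iff]
  rfl

theorem mem_unitGroup_iff_proj {x : (SemiLocal ℓ F)ˣ} :
    x ∈ unitGroup ℓ F ↔ ∀ w : Place ℓ F,
      ((w.unitsProj x : w.Completionˣ) : w.Completion) ∈ w.integers ∧
      (((w.unitsProj x)⁻¹ : w.Completionˣ) : w.Completion) ∈ w.integers := by
  rw [mem_unitGroup_iff, ← mem_integers_iff, ← mem_integers_iff, mem_integers_iff_proj,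
    mem_integers_iff_proj, ← forall_and]
  refine forall_congr' fun w => ?_
  rw [← map_inv]
  rfl

/-- the sum of the local degrees is the global degree. -/
theorem sum_finrank_completion [Fintype (Place ℓ F)] :
    ∑ w : Place ℓ F, Module.finrank ℚ_[ℓ] w.Completion = Module.finrank ℚ F := by
  rw [← finrank_eq ℓ F, (equivPi ℓ F).toLinearEquiv.finrank_eq, Module.finrank_pi_fintype]

end Structure

end SemiLocal

end Fermat.Agent.CFT
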