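/-
CFT global part (T5), helper9: weak approximation in the semi-local model.

* `exists_rat_sub_norm_le`: simultaneous approximation of `ℓ`-adic numbers (`ℓ` in a finite set of
  primes) by a rational number (Chinese remainder theorem);
* `exists_sub_eq_pow_smul`: simultaneous density of `K` in the semi-local algebras `ℚ_ℓ ⊗ K`;
* `SemiLocal.exists_pow_eq_one_add`: `1 + ℓ³ 𝒪 ⊆ ((ℚ_ℓ ⊗ K)^×)^p` (`p`-th powers are open);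
* `exists_ofUnits_eq_mul_pow`: weak approximation modulo `p`-th powers.
-/
import Mathlib
import Fermat.Agent.CFT.Global.G01_helper7_Structure
import Fermat.Agent.CFT.Local.L6_helper7
import Fermat.Agent.CFT.Local.Kummer_helper1

set_option autoImplicit false

open scoped TensorProduct NumberField

namespace Fermat.Agent.CFT

open IsLocalRing

/-- simultaneous approximation of `ℓ`-adic integers by a natural number. -/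
theorem exists_nat_sub_mem_span (S : Finset Nat.Primes)
    (b : ∀ ℓ : Nat.Primes, ℤ_[(ℓ : ℕ)]) (N : ℕ) :
    ∃ z : ℕ, ∀ ℓ ∈ S, (z : ℤ_[(ℓ : ℕ)]) - b ℓ ∈ Ideal.span {((ℓ : ℕ) : ℤ_[(ℓ : ℕ)]) ^ N} := by
  classical
  have hs : ∀ ℓ ∈ S, (fun ℓ : Nat.Primes => (ℓ : ℕ) ^ N) ℓ ≠ 0 := fun ℓ _ =>
    pow_ne_zero _ ℓ.2.ne_zero
  have pp : Set.Pairwise (S : Set Nat.Primes)
      (Function.onFun Nat.Coprime (fun ℓ : Nat.Primes => (ℓ : ℕ) ^ N)) := by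
    intro ℓ _ ℓ' _ hne
    apply Nat.Coprime.pow
    exact (Nat.coprime_primes ℓ.2 ℓ'.2).2 fun h => hne (Subtype.ext h)
  obtain ⟨z, hz⟩ := Nat.chineseRemainderOfFinset (fun ℓ : Nat.Primes => (b ℓ).appr N)
    (fun ℓ : Nat.Primes => (ℓ : ℕ) ^ N) S hs pp
  refine ⟨z, fun ℓ hℓ => ?_⟩
  have h1 := hz ℓ hℓ
  have h2 : ((z : ℤ) : ℤ_[(ℓ : ℕ)]) - (((b ℓ).appr N : ℕ) : ℤ) ∈
      Ideal.span {((ℓ : ℕ) : ℤ_[(ℓ : ℕ)]) ^ N} := by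
    have h3 : (((ℓ : ℕ) ^ N : ℕ) : ℤ) ∣ (z : ℤ) - ((b ℓ).appr N : ℕ) :=
      (Nat.modEq_iff_dvd.1 h1.symm)
    obtain ⟨k, hk⟩ := h3
    rw [← Int.cast_sub, hk, Ideal.mem_span_singleton]
    exact ⟨(k : ℤ_[(ℓ : ℕ)]), by push_cast; ring⟩
  have h4 := PadicInt.appr_spec N (b ℓ)
  have h5 : (z : ℤ_[(ℓ : ℕ)]) - b ℓ =
      (((z : ℤ) : ℤ_[(ℓ : ℕ)]) - (((b ℓ).appr N : ℕ) : ℤ)) - (b ℓ - (b ℓ).appr N) := by
    push_cast; ring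
  rw [h5]
  exact Ideal.sub_mem _ h2 h4

/-- the `ℓ`-adic norm of a product of powers of primes. -/
theorem norm_prod_primes_pow (S : Finset Nat.Primes) (m : ℕ) (ℓ : Nat.Primes) (hℓ : ℓ ∈ S) :
    ‖((∏ ℓ' ∈ S, (ℓ' : ℕ) ^ m : ℕ) : ℚ_[(ℓ : ℕ)])‖ = ((ℓ : ℕ) : ℝ) ^ (-(m : ℤ)) := by
  classical
  rw [← Finset.mul_prod_erase S _ hℓ, Nat.cast_mul, norm_mul, Nat.cast_pow,
    Padic.norm_p_pow]
  have h1 : ‖((∏ ℓ' ∈ S.erase ℓ, (ℓ' : ℕ) ^ m : ℕ) : ℚ_[(ℓ : ℕ)])‖ = 1 := by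
    rw [Padic.norm_natCast_eq_one_iff]
    apply Nat.Coprime.prod_right
    intro ℓ' hℓ'
    apply Nat.Coprime.pow_right
    exact (Nat.coprime_primes ℓ.2 ℓ'.2).2 fun h => (Finset.ne_of_mem_erase hℓ') (Subtype.ext h).symm
  rw [h1, mul_one]

/-- **Simultaneous approximation** of `ℓ`-adic numbers (`ℓ ∈ S`) by a rational number. -/
theorem exists_rat_sub_norm_le (S : Finset Nat.Primes)
    (c : ∀ ℓ : Nat.Primes, ℚ_[(ℓ : ℕ)]) (n : ℕ) :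
    ∃ q : ℚ, ∀ ℓ ∈ S, ‖(q : ℚ_[(ℓ : ℕ)]) - c ℓ‖ ≤ ((ℓ : ℕ) : ℝ) ^ (-(n : ℤ)) := by
  classical
  -- a common bound for the norms
  have hm : ∀ ℓ : Nat.Primes, ∃ m : ℕ, ‖c ℓ‖ ≤ ((ℓ : ℕ) : ℝ) ^ m := fun ℓ => by
    obtain ⟨m, hm⟩ := pow_unbounded_of_one_lt ‖c ℓ‖
      (show (1 : ℝ) < ((ℓ : ℕ) : ℝ) by exact_mod_cast ℓ.2.one_lt)
    exact ⟨m, hm.le⟩
  choose m₀ hm₀ using hm
  set m := ∑ ℓ ∈ S, m₀ ℓ with hmdef
  have hm : ∀ ℓ ∈ S, ‖c ℓ‖ ≤ ((ℓ : ℕ) : ℝ) ^ m := fun ℓ hℓ =>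
    (hm₀ ℓ).trans (pow_le_pow_right₀ (by exact_mod_cast ℓ.2.one_lt.le)
      (Finset.single_le_sum (fun _ _ => Nat.zero_le _) hℓ))
  set D : ℕ := ∏ ℓ' ∈ S, (ℓ' : ℕ) ^ m with hD
  have hD0 : D ≠ 0 := Finset.prod_ne_zero_iff.2 fun ℓ' _ => pow_ne_zero _ ℓ'.2.ne_zero
  have hDn : ∀ ℓ ∈ S, ‖(D : ℚ_[(ℓ : ℕ)])‖ = ((ℓ : ℕ) : ℝ) ^ (-(m : ℤ)) := fun ℓ hℓ =>
    norm_prod_primes_pow S m ℓ hℓ
  have hℓpos : ∀ ℓ : Nat.Primes, (0 : ℝ) < ((ℓ : ℕ) : ℝ) := fun ℓ => by exact_mod_cast ℓ.2.pos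
  -- the integral elements `D * c ℓ`
  have hb : ∀ ℓ : Nat.Primes, ∃ b : ℤ_[(ℓ : ℕ)], ℓ ∈ S → (b : ℚ_[(ℓ : ℕ)]) = D * c ℓ := by
    intro ℓ
    by_cases hℓ : ℓ ∈ S
    · refine ⟨⟨D * c ℓ, ?_⟩, fun _ => rfl⟩
      rw [norm_mul, hDn ℓ hℓ]
      calc ((ℓ : ℕ) : ℝ) ^ (-(m : ℤ)) * ‖c ℓ‖
          ≤ ((ℓ : ℕ) : ℝ) ^ (-(m : ℤ)) * ((ℓ : ℕ) : ℝ) ^ m :=
            mul_le_mul_of_nonneg_left (hm ℓ hℓ) (zpow_nonneg (hℓpos ℓ).le _)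
        _ = 1 := by
            rw [zpow_neg, zpow_natCast, inv_mul_cancel₀ (pow_ne_zero _ (hℓpos ℓ).ne')]
    · exact ⟨0, fun h => absurd h hℓ⟩
  choose b hb using hb
  obtain ⟨z, hz⟩ := exists_nat_sub_mem_span S b (n + m)
  refine ⟨(z : ℚ) / D, fun ℓ hℓ => ?_⟩
  have h1 := (PadicInt.norm_le_pow_iff_mem_span_pow _ _).2 (hz ℓ hℓ)
  have h2 : ‖((z : ℚ_[(ℓ : ℕ)]) - D * c ℓ)‖ ≤ ((ℓ : ℕ) : ℝ) ^ (-((n + m : ℕ) : ℤ)) := by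
    rw [← hb ℓ hℓ]
    have : ((z : ℚ_[(ℓ : ℕ)]) - (b ℓ : ℚ_[(ℓ : ℕ)])) = (((z : ℤ_[(ℓ : ℕ)]) - b ℓ : ℤ_[(ℓ : ℕ)]) :
        ℚ_[(ℓ : ℕ)]) := by push_cast; rfl
    rw [this, ← PadicInt.norm_def]
    exact h1
  have hDne : (D : ℚ_[(ℓ : ℕ)]) ≠ 0 := by exact_mod_cast hD0
  have h3 : ((((z : ℚ) / D : ℚ) : ℚ_[(ℓ : ℕ)])) - c ℓ = ((z : ℚ_[(ℓ : ℕ)]) - D * c ℓ) / D := by
    push_cast
    field_simp
  rw [h3, norm_div, hDn ℓ hℓ, div_le_iff₀ (zpow_pos (hℓpos ℓ) _)]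
  refine h2.trans (le_of_eq ?_)
  rw [← zpow_add₀ (hℓpos ℓ).ne']
  congr 1
  push_cast
  ring

section density

variable (K : Type) [Field K] [NumberField K]

/-- the basis of `ℚ_ℓ ⊗ K` over `ℚ_ℓ` induced by the integral basis of `K`. -/
noncomputable def SemiLocal.intBasis (ℓ : ℕ) [Fact ℓ.Prime] :
    Module.Basis (Module.Free.ChooseBasisIndex ℤ (𝓞 K)) ℚ_[ℓ] (SemiLocal ℓ K) :=
  Algebra.TensorProduct.basis ℚ_[ℓ] (NumberField.integralBasis K)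

theorem SemiLocal.intBasis_apply (ℓ : ℕ) [Fact ℓ.Prime] (i : Module.Free.ChooseBasisIndex ℤ (𝓞 K)) :
    SemiLocal.intBasis K ℓ i = SemiLocal.of ℓ K (NumberField.integralBasis K i) := by
  rw [SemiLocal.intBasis, Algebra.TensorProduct.basis_apply]
  rfl

theorem SemiLocal.intBasis_mem_integers (ℓ : ℕ) [Fact ℓ.Prime]
    (i : Module.Free.ChooseBasisIndex ℤ (𝓞 K)) :
    SemiLocal.intBasis K ℓ i ∈ SemiLocal.integers ℓ K := by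
  rw [SemiLocal.intBasis_apply]
  apply SemiLocal.of_mem_integers_of_isIntegral
  rw [NumberField.integralBasis_apply]
  exact NumberField.RingOfIntegers.isIntegral_coe _

/-- a `ℤ_ℓ`-combination of the integral basis is integral. -/
theorem SemiLocal.sum_smul_intBasis_mem_integers (ℓ : ℕ) [Fact ℓ.Prime]
    (d : Module.Free.ChooseBasisIndex ℤ (𝓞 K) → ℚ_[ℓ]) (hd : ∀ i, ‖d i‖ ≤ 1) :
    ∑ i, d i • SemiLocal.intBasis K ℓ i ∈ SemiLocal.integers ℓ K := by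
  refine Subalgebra.sum_mem _ fun i _ => ?_
  let di : ℤ_[ℓ] := ⟨d i, hd i⟩
  have h1 : d i • SemiLocal.intBasis K ℓ i = di • SemiLocal.intBasis K ℓ i := by
    rw [← algebraMap_smul ℚ_[ℓ] di (SemiLocal.intBasis K ℓ i)]
    rfl
  rw [h1]
  exact Subalgebra.smul_mem _ (SemiLocal.intBasis_mem_integers K ℓ i) _

/-- an element of `ℚ_ℓ` of norm `≤ ℓ^(-n)` is `ℓ^n` times an element of norm `≤ 1`. -/
theorem exists_eq_pow_mul_of_norm_le {ℓ : ℕ} [Fact ℓ.Prime] {c : ℚ_[ℓ]} {n : ℕ}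
    (hc : ‖c‖ ≤ (ℓ : ℝ) ^ (-(n : ℤ))) : ∃ d : ℚ_[ℓ], ‖d‖ ≤ 1 ∧ c = (ℓ : ℚ_[ℓ]) ^ n * d := by
  have hℓ : (ℓ : ℚ_[ℓ]) ≠ 0 := by exact_mod_cast (Fact.out : ℓ.Prime).ne_zero
  have hℓpos : (0 : ℝ) < (ℓ : ℝ) := by exact_mod_cast (Fact.out : ℓ.Prime).pos
  refine ⟨c / (ℓ : ℚ_[ℓ]) ^ n, ?_, by field_simp⟩
  rw [norm_div, Padic.norm_p_pow, div_le_one (zpow_pos hℓpos _)]
  exact hc

/-- **Simultaneous density** of `K` in the semi-local algebras `ℚ_ℓ ⊗ K`, `ℓ ∈ S`. -/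
theorem exists_sub_eq_pow_smul (S : Finset Nat.Primes) (x : ∀ ℓ : Nat.Primes, SemiLocal ℓ K)
    (n : ℕ) : ∃ a : K, ∀ ℓ ∈ S, ∃ y ∈ SemiLocal.integers ℓ K,
      SemiLocal.of ℓ K a - x ℓ = (((ℓ : ℕ) : ℚ_[(ℓ : ℕ)]) ^ n) • y := by
  classical
  have hq : ∀ i : Module.Free.ChooseBasisIndex ℤ (𝓞 K), ∃ q : ℚ, ∀ ℓ ∈ S,
      ‖(q : ℚ_[(ℓ : ℕ)]) - (SemiLocal.intBasis K ℓ).repr (x ℓ) i‖ ≤ ((ℓ : ℕ) : ℝ) ^ (-(n : ℤ)) :=
    fun i => exists_rat_sub_norm_le S (fun ℓ => (SemiLocal.intBasis K ℓ).repr (x ℓ) i) n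
  choose q hq using hq
  refine ⟨∑ i, q i • NumberField.integralBasis K i, fun ℓ hℓ => ?_⟩
  have hd : ∀ i, ∃ d : ℚ_[(ℓ : ℕ)], ‖d‖ ≤ 1 ∧
      (q i : ℚ_[(ℓ : ℕ)]) - (SemiLocal.intBasis K ℓ).repr (x ℓ) i =
        ((ℓ : ℕ) : ℚ_[(ℓ : ℕ)]) ^ n * d := fun i =>
    exists_eq_pow_mul_of_norm_le (hq i ℓ hℓ)
  choose d hd1 hd2 using hd
  refine ⟨∑ i, d i • SemiLocal.intBasis K ℓ i,
    SemiLocal.sum_smul_intBasis_mem_integers K ℓ d hd1, ?_⟩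
  have h1 : SemiLocal.of ℓ K (∑ i, q i • NumberField.integralBasis K i) =
      ∑ i, (q i : ℚ_[(ℓ : ℕ)]) • SemiLocal.intBasis K ℓ i := by
    rw [map_sum]
    refine Finset.sum_congr rfl fun i _ => ?_
    rw [map_smul, SemiLocal.intBasis_apply, ← algebraMap_smul ℚ_[(ℓ : ℕ)] (q i)]
    rfl
  have h2 : x ℓ = ∑ i, (SemiLocal.intBasis K ℓ).repr (x ℓ) i • SemiLocal.intBasis K ℓ i :=
    ((SemiLocal.intBasis K ℓ).sum_repr (x ℓ)).symm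
  rw [h1]
  conv_lhs => rw [h2]
  rw [← Finset.sum_sub_distrib, Finset.smul_sum]
  refine Finset.sum_congr rfl fun i _ => ?_
  rw [← sub_smul, hd2 i, mul_smul]

/-- every element of `ℚ_ℓ ⊗ K` has an integral multiple by a power of `ℓ`. -/
theorem SemiLocal.exists_pow_smul_mem_integers (ℓ : ℕ) [Fact ℓ.Prime] (x : SemiLocal ℓ K) :
    ∃ m : ℕ, ((ℓ : ℚ_[ℓ]) ^ m) • x ∈ SemiLocal.integers ℓ K := by
  classical
  have hℓ1 : (1 : ℝ) < (ℓ : ℝ) := by exact_mod_cast (Fact.out : ℓ.Prime).one_lt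
  have hℓpos : (0 : ℝ) < (ℓ : ℝ) := by linarith
  have hm : ∀ i, ∃ m : ℕ, ‖(SemiLocal.intBasis K ℓ).repr x i‖ ≤ (ℓ : ℝ) ^ m := fun i => by
    obtain ⟨m, hm⟩ := pow_unbounded_of_one_lt ‖(SemiLocal.intBasis K ℓ).repr x i‖ hℓ1
    exact ⟨m, hm.le⟩
  choose m₀ hm₀ using hm
  refine ⟨∑ i, m₀ i, ?_⟩
  have h2 : x = ∑ i, (SemiLocal.intBasis K ℓ).repr x i • SemiLocal.intBasis K ℓ i :=
    ((SemiLocal.intBasis K ℓ).sum_repr x).symm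
  rw [h2, Finset.smul_sum]
  simp only [smul_smul]
  apply SemiLocal.sum_smul_intBasis_mem_integers
  intro i
  rw [norm_mul, Padic.norm_p_pow]
  calc (ℓ : ℝ) ^ (-((∑ i, m₀ i : ℕ) : ℤ)) * ‖(SemiLocal.intBasis K ℓ).repr x i‖
      ≤ (ℓ : ℝ) ^ (-((∑ i, m₀ i : ℕ) : ℤ)) * (ℓ : ℝ) ^ (∑ i, m₀ i) :=
        mul_le_mul_of_nonneg_left ((hm₀ i).trans (pow_le_pow_right₀ hℓ1.le
          (Finset.single_le_sum (fun _ _ => Nat.zero_le _) (Finset.mem_univ i))))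
          (zpow_nonneg hℓpos.le _)
    _ = 1 := by
        rw [zpow_neg, zpow_natCast, inv_mul_cancel₀ (pow_ne_zero _ hℓpos.ne')]

end density

/-- `p^2` divides `ℓ^2` in `ℤ_ℓ` for primes `p`, `ℓ`. -/
theorem exists_sq_mul_eq_sq (ℓ : ℕ) [Fact ℓ.Prime] {p : ℕ} (hp : p.Prime) :
    ∃ e : ℤ_[ℓ], (p : ℤ_[ℓ]) ^ 2 * e = (ℓ : ℤ_[ℓ]) ^ 2 := by
  by_cases h : p = ℓ
  · exact ⟨1, by rw [h, mul_one]⟩
  · have hu : IsUnit (p : ℤ_[ℓ]) := by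
      rw [PadicInt.isUnit_iff, PadicInt.norm_natCast_eq_one_iff]  
      exact (Nat.coprime_primes Fact.out hp).2 (Ne.symm h)
    obtain ⟨u, hu⟩ := hu
    refine ⟨((u⁻¹ : ℤ_[ℓ]ˣ) : ℤ_[ℓ]) ^ 2 * (ℓ : ℤ_[ℓ]) ^ 2, ?_⟩
    rw [← hu, ← mul_assoc, ← mul_pow, Units.mul_inv, one_pow, one_mul]

section powers

variable (K : Type) [Field K] [NumberField K] (ℓ : ℕ) [Fact ℓ.Prime]

theorem Place.natCast_mem_maximalIdeal_integers (w : Place ℓ K) :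
    (ℓ : w.integers) ∈ maximalIdeal w.integers := by
  have h1 : (ℓ : ℤ_[ℓ]) ∈ nonunits ℤ_[ℓ] := PadicInt.p_nonunit
  have h2 := (map_mem_nonunits_iff (algebraMap ℤ_[ℓ] w.integers) (ℓ : ℤ_[ℓ])).2 h1
  rwa [map_natCast] at h2

/-- **`p`-th powers are open in a completion**: every element of `1 + ℓ³ 𝒪_w` is the `p`-th power of
a unit of `𝒪_w`. -/
theorem Place.exists_pow_eq_one_add (w : Place ℓ K) {p : ℕ} (hp : p.Prime) (y : w.integers) :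
    ∃ z : w.integers, IsUnit z ∧ z ^ p = 1 + (ℓ : w.integers) ^ 3 * y := by
  obtain ⟨e, he⟩ := exists_sq_mul_eq_sq ℓ hp
  obtain ⟨z, hz⟩ := LocalKummer.exists_one_add_mul_pow_eq (maximalIdeal w.integers) p
    (Place.natCast_mem_maximalIdeal_integers K ℓ w) (algebraMap ℤ_[ℓ] w.integers e * y)
  refine ⟨1 + (p : w.integers) * (ℓ : w.integers) * z, ?_, ?_⟩
  · have h1 : (p : w.integers) * (ℓ : w.integers) * z ∈ maximalIdeal w.integers :=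
      Ideal.mul_mem_right _ _ (Ideal.mul_mem_left _ _ (Place.natCast_mem_maximalIdeal_integers K ℓ w))
    have h2 := IsLocalRing.isUnit_one_sub_self_of_mem_nonunits _
      ((maximalIdeal w.integers).neg_mem h1)
    rwa [sub_neg_eq_add] at h2
  · rw [hz]
    have h3 : (p : w.integers) ^ 2 * algebraMap ℤ_[ℓ] w.integers e = (ℓ : w.integers) ^ 2 := by
      have := congrArg (algebraMap ℤ_[ℓ] w.integers) he
      simpa using this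
    linear_combination ((ℓ : w.integers) * y) * h3

/-- **`p`-th powers are open in `ℚ_ℓ ⊗ K`**: every element of `1 + ℓ³ 𝒪` is the `p`-th power of a
unit. -/
theorem SemiLocal.exists_pow_eq_one_add {p : ℕ} (hp : p.Prime) (y : SemiLocal ℓ K)
    (hy : y ∈ SemiLocal.integers ℓ K) :
    ∃ z : (SemiLocal ℓ K)ˣ, (z : SemiLocal ℓ K) ^ p = 1 + ((ℓ : ℚ_[ℓ]) ^ 3) • y := by
  have h1 : ∀ w : Place ℓ K, ∃ c : w.Completionˣ,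
      (c : w.Completion) ^ p = 1 + (ℓ : w.Completion) ^ 3 * w.proj y := by
    intro w
    obtain ⟨z, hzu, hz⟩ := Place.exists_pow_eq_one_add K ℓ w hp
      ⟨w.proj y, (SemiLocal.mem_integers_iff_proj ℓ K).1 hy w⟩
    have hz0 : (z : w.Completion) ≠ 0 := by
      intro h0
      have : z = 0 := Subtype.ext h0
      rw [this] at hzu
      exact not_isUnit_zero hzu
    refine ⟨Units.mk0 (z : w.Completion) hz0, ?_⟩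
    have := congrArg (fun t : w.integers => (t : w.Completion)) hz
    simpa using this
  choose c hc using h1
  obtain ⟨z, hz⟩ := SemiLocal.exists_unitsProj_eq ℓ K c
  refine ⟨z, SemiLocal.ext_proj ℓ K fun w => ?_⟩
  have h2 : w.proj (z : SemiLocal ℓ K) = (c w : w.Completion) := congrArg Units.val (hz w)
  rw [map_pow, h2, hc w, map_add, map_one, map_smul, Algebra.smul_def, map_pow, map_natCast]

end powers

section weakApprox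

variable (K : Type) [Field K] [NumberField K]

theorem SemiLocal.pow_smul_mem_integers (ℓ : ℕ) [Fact ℓ.Prime] {y : SemiLocal ℓ K}
    (hy : y ∈ SemiLocal.integers ℓ K) (r : ℕ) :
    ((ℓ : ℚ_[ℓ]) ^ r) • y ∈ SemiLocal.integers ℓ K := by
  have h1 : ((ℓ : ℚ_[ℓ]) ^ r) • y = ((ℓ : ℤ_[ℓ]) ^ r) • y := by
    rw [← algebraMap_smul ℚ_[ℓ] ((ℓ : ℤ_[ℓ]) ^ r) y]
    congr 1
  rw [h1]
  exact Subalgebra.smul_mem _ hy _

/-- **Weak approximation modulo `p`-th powers**: given units `x ℓ` of `ℚ_ℓ ⊗ K` for `ℓ` in a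
finite set `S` of primes, there is `a ∈ K^×` with `a / x ℓ` a `p`-th power for all `ℓ ∈ S`. -/
theorem exists_ofUnits_eq_mul_pow {p : ℕ} (hp : p.Prime) (S : Finset Nat.Primes)
    (x : ∀ ℓ : Nat.Primes, (SemiLocal ℓ K)ˣ) :
    ∃ a : Kˣ, ∀ ℓ ∈ S, ∃ z : (SemiLocal ℓ K)ˣ, SemiLocal.ofUnits ℓ a = x ℓ * z ^ p := by
  classical
  by_cases hS : S.Nonempty
  swap
  · exact ⟨1, fun ℓ hℓ => absurd ⟨ℓ, hℓ⟩ hS⟩
  have hm : ∀ ℓ : Nat.Primes, ∃ m : ℕ,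
      (((ℓ : ℕ) : ℚ_[(ℓ : ℕ)]) ^ m) • (((x ℓ)⁻¹ : (SemiLocal ℓ K)ˣ) : SemiLocal ℓ K) ∈
        SemiLocal.integers ℓ K := fun ℓ => SemiLocal.exists_pow_smul_mem_integers K ℓ _
  choose m₀ hm₀ using hm
  set m := ∑ ℓ ∈ S, m₀ ℓ with hmdef
  have hm : ∀ ℓ ∈ S,
      (((ℓ : ℕ) : ℚ_[(ℓ : ℕ)]) ^ m) • (((x ℓ)⁻¹ : (SemiLocal ℓ K)ˣ) : SemiLocal ℓ K) ∈
        SemiLocal.integers ℓ K := by
    intro ℓ hℓ
    have h1 : m = (m - m₀ ℓ) + m₀ ℓ :=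
      (Nat.sub_add_cancel (Finset.single_le_sum (fun _ _ => Nat.zero_le _) hℓ)).symm
    rw [h1, pow_add, mul_smul]
    exact SemiLocal.pow_smul_mem_integers K ℓ (hm₀ ℓ) _
  obtain ⟨a, ha⟩ := exists_sub_eq_pow_smul K S (fun ℓ => (x ℓ : SemiLocal ℓ K)) (3 + m)
  have key : ∀ ℓ ∈ S, ∃ z : (SemiLocal ℓ K)ˣ,
      SemiLocal.of ℓ K a = (x ℓ : SemiLocal ℓ K) * (z : SemiLocal ℓ K) ^ p := by
    intro ℓ hℓ
    obtain ⟨y, hy, hay⟩ := ha ℓ hℓ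
    obtain ⟨z, hz⟩ := SemiLocal.exists_pow_eq_one_add K ℓ hp _
      (Subalgebra.mul_mem _ (hm ℓ hℓ) hy)
    refine ⟨z, ?_⟩
    rw [hz, mul_add, mul_one, mul_smul_comm, smul_mul_assoc, mul_smul_comm, ← mul_assoc,
      Units.mul_inv, one_mul, smul_smul, ← pow_add, ← hay]
    ring
  obtain ⟨ℓ₀, hℓ₀⟩ := hS
  have ha0 : a ≠ 0 := by
    rintro rfl
    obtain ⟨z, hz⟩ := key ℓ₀ hℓ₀
    rw [map_zero] at hz
    have hu : IsUnit ((x ℓ₀ : SemiLocal ℓ₀ K) * (z : SemiLocal ℓ₀ K) ^ p) :=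
      ((x ℓ₀ * z ^ p : (SemiLocal ℓ₀ K)ˣ)).isUnit
    rw [← hz] at hu
    have : Nontrivial (SemiLocal ℓ₀ K) := (SemiLocal.of_injective ℓ₀ K).nontrivial
    exact not_isUnit_zero hu
  refine ⟨Units.mk0 a ha0, fun ℓ hℓ => ?_⟩
  obtain ⟨z, hz⟩ := key ℓ hℓ
  exact ⟨z, Units.ext hz⟩

end weakApprox

end Fermat.Agent.CFT
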