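import Fermat.Agent.CFT.Global.CycloArtin_lead_Norm
import Fermat.Agent.CFT.Global.T5_helper9_WeakApprox

/-!
# CFT (PT4.d, part 2): units of semi-local algebras, ideles supported at one prime, and
homomorphisms on finite ideles defined by finite products

* `SemiLocal.exists_unit_eq_one_add_smul`, `SemiLocal.exists_ofUnits_mul_eq`
  (`(ℚ_ℓ ⊗ F)ˣ = Fˣ · (units of the maximal order)`);
* `FinIdele.finprodHom`, `FinIdele.single`.
-/

set_option autoImplicit false
set_option linter.unusedSectionVars false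
set_option linter.style.haveILetI false

open scoped TensorProduct NumberField RestrictedProduct
open IsLocalRing

namespace Fermat.Agent.CFT


namespace SemiLocal

section decomposition

variable (ℓ : ℕ) [hℓ : Fact ℓ.Prime] (F : Type) [Field F] [NumberField F]

/-- `1 + ℓ s` is a unit of the maximal order for integral `s`. -/
theorem exists_unit_eq_one_add_smul {s : SemiLocal ℓ F} (hs : s ∈ integers ℓ F) :
    ∃ u : (SemiLocal ℓ F)ˣ, u ∈ unitGroup ℓ F ∧
      (u : SemiLocal ℓ F) = 1 + (ℓ : ℚ_[ℓ]) • s := by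
  classical
  have hw : ∀ w : Place ℓ F, ∃ c : w.Completionˣ, (c : w.Completion) = 1 + (ℓ : ℚ_[ℓ]) • w.proj s ∧
      (c : w.Completion) ∈ w.integers ∧ ((c⁻¹ : w.Completionˣ) : w.Completion) ∈ w.integers := by
    intro w
    have hsw : w.proj s ∈ w.integers := (mem_integers_iff_proj ℓ F).1 hs w
    let sw : w.integers := ⟨w.proj s, hsw⟩
    have hmem : ((ℓ : ℕ) : w.integers) * sw ∈ maximalIdeal w.integers :=
      Ideal.mul_mem_right _ _ w.natCast_mem_maximalIdeal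
    have hu : IsUnit (1 + ((ℓ : ℕ) : w.integers) * sw) := by
      have h1 : (1 + ((ℓ : ℕ) : w.integers) * sw) = 1 - (-(((ℓ : ℕ) : w.integers) * sw)) := by ring
      rw [h1]
      apply IsLocalRing.isUnit_one_sub_self_of_mem_nonunits
      exact (maximalIdeal w.integers).neg_mem hmem
    obtain ⟨v, hv⟩ := hu
    have hval : ((v : w.integers) : w.Completion) = 1 + (ℓ : ℚ_[ℓ]) • w.proj s := by
      rw [hv]
      push_cast
      rw [Algebra.smul_def, map_natCast]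
    refine ⟨Units.map (algebraMap w.integers w.Completion : w.integers →* w.Completion) v, ?_, ?_, ?_⟩
    · exact hval
    · exact (v : w.integers).2
    · rw [← map_inv]
      exact ((v⁻¹ : w.integersˣ) : w.integers).2
  choose c hc1 hc2 hc3 using hw
  obtain ⟨u, hu⟩ := exists_unitsProj_eq ℓ F c
  refine ⟨u, (mem_unitGroup_iff_proj ℓ F).2 fun w => ?_, ext_proj ℓ F fun w => ?_⟩
  · rw [hu w]; exact ⟨hc2 w, hc3 w⟩
  · have : w.proj (u : SemiLocal ℓ F) = ((w.unitsProj u : w.Completionˣ) : w.Completion) := rfl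
    rw [this, hu w, hc1 w, map_add, map_one, map_smul]

/-- Every unit of `ℚ_ℓ ⊗ F` is the product of a global element and a unit of the maximal order. -/
theorem exists_ofUnits_mul_eq (z : (SemiLocal ℓ F)ˣ) :
    ∃ (a : Fˣ) (u : (SemiLocal ℓ F)ˣ), u ∈ unitGroup ℓ F ∧ z = ofUnits ℓ a * u := by
  obtain ⟨k, hk⟩ := SemiLocal.exists_pow_smul_mem_integers F ℓ ((z⁻¹ : (SemiLocal ℓ F)ˣ) : SemiLocal ℓ F)
  obtain ⟨y, t, ht, hz⟩ := exists_of_add_smul ℓ F (z : SemiLocal ℓ F) (k + 1)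
  set s : SemiLocal ℓ F := -((((ℓ : ℚ_[ℓ]) ^ k) • ((z⁻¹ : (SemiLocal ℓ F)ˣ) : SemiLocal ℓ F)) * t) with hs
  have hsint : s ∈ integers ℓ F := Subalgebra.neg_mem _ (Subalgebra.mul_mem _ hk ht)
  obtain ⟨u, hu, hu1⟩ := exists_unit_eq_one_add_smul ℓ F hsint
  have hy : of ℓ F y = (z : SemiLocal ℓ F) * (u : SemiLocal ℓ F) := by
    have h1 : of ℓ F y = (z : SemiLocal ℓ F) - ((ℓ : ℚ_[ℓ]) ^ (k + 1)) • t := by
      rw [hz]; abel
    rw [h1, hu1, hs, mul_add, mul_one, smul_neg, mul_neg, sub_eq_add_neg]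
    congr 2
    rw [pow_succ, mul_smul, smul_mul_assoc, mul_smul_comm, mul_smul_comm, ← mul_assoc,
      Units.mul_inv, one_mul, smul_comm]
  have hy0 : y ≠ 0 := by
    rintro rfl
    rw [map_zero] at hy
    exact (z * u).ne_zero hy.symm
  refine ⟨Units.mk0 y hy0, u⁻¹, (unitGroup ℓ F).inv_mem hu, ?_⟩
  rw [eq_mul_inv_iff_mul_eq]
  apply Units.ext
  rw [Units.val_mul, coe_ofUnits, Units.val_mk0, hy]

end decomposition

end SemiLocal



namespace FinIdele

section finprodHom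

variable {F : Type*} [Field F] [CharZero F] {A : Type*} [CommGroup A]

lemma finite_mulSupport_of_eventually (φ : ∀ ℓ : Nat.Primes, (SemiLocal ℓ F)ˣ →* A)
    (hφ : ∀ᶠ ℓ : Nat.Primes in Filter.cofinite, ∀ u ∈ SemiLocal.unitGroup ℓ F, φ ℓ u = 1)
    (x : FinIdele F) : (Function.mulSupport fun ℓ : Nat.Primes => φ ℓ (x ℓ)).Finite := by
  have h1 := x.2
  rw [Filter.eventually_cofinite] at h1 hφ
  refine (h1.union hφ).subset ?_
  intro ℓ hℓ
  rw [Function.mem_mulSupport] at hℓ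
  by_contra hcon
  rw [Set.mem_union, not_or] at hcon
  simp only [Set.mem_ofPred_eq, not_not] at hcon
  exact hℓ (hcon.2 _ hcon.1)

/-- The homomorphism on finite ideles attached to a family of local homomorphisms almost all of
which are trivial on the units of the maximal orders. -/
noncomputable def finprodHom (φ : ∀ ℓ : Nat.Primes, (SemiLocal ℓ F)ˣ →* A)
    (hφ : ∀ᶠ ℓ : Nat.Primes in Filter.cofinite, ∀ u ∈ SemiLocal.unitGroup ℓ F, φ ℓ u = 1) :
    FinIdele F →* A where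
  toFun x := ∏ᶠ ℓ : Nat.Primes, φ ℓ (x ℓ)
  map_one' := by
    have : ∀ ℓ : Nat.Primes, φ ℓ ((1 : FinIdele F) ℓ) = 1 := fun ℓ => map_one _
    simp only [this, finprod_one]
  map_mul' x y := by
    rw [← finprod_mul_distrib (finite_mulSupport_of_eventually φ hφ x)
      (finite_mulSupport_of_eventually φ hφ y)]
    refine finprod_congr fun ℓ => ?_
    rw [← map_mul]
    rfl

lemma finprodHom_apply (φ : ∀ ℓ : Nat.Primes, (SemiLocal ℓ F)ˣ →* A)
    (hφ : ∀ᶠ ℓ : Nat.Primes in Filter.cofinite, ∀ u ∈ SemiLocal.unitGroup ℓ F, φ ℓ u = 1)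
    (x : FinIdele F) : finprodHom φ hφ x = ∏ᶠ ℓ : Nat.Primes, φ ℓ (x ℓ) := rfl

end finprodHom

section single

variable {F : Type*} [Field F] [CharZero F]

open Classical in
/-- The idele with component `z` at `ℓ` and `1` elsewhere. -/
noncomputable def single (ℓ : Nat.Primes) : (SemiLocal ℓ F)ˣ →* FinIdele F where
  toFun z := ⟨Pi.mulSingle ℓ z, by
    rw [Filter.eventually_cofinite]
    refine (Set.finite_singleton ℓ).subset ?_
    intro ℓ' hℓ'
    rw [Set.mem_singleton_iff]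
    by_contra hne
    apply hℓ'
    rw [Pi.mulSingle_eq_of_ne hne]
    exact (SemiLocal.unitGroup ℓ' F).one_mem⟩
  map_one' := by
    apply RestrictedProduct.ext
    intro ℓ'
    change (Pi.mulSingle ℓ (1 : (SemiLocal ℓ F)ˣ) : ∀ ℓ' : Nat.Primes, (SemiLocal ℓ' F)ˣ) ℓ' = 1
    rw [Pi.mulSingle_one]
    rfl
  map_mul' a b := by
    apply RestrictedProduct.ext
    intro ℓ'
    change (Pi.mulSingle ℓ (a * b) : ∀ ℓ' : Nat.Primes, (SemiLocal ℓ' F)ˣ) ℓ' =
      (Pi.mulSingle ℓ a : ∀ ℓ' : Nat.Primes, (SemiLocal ℓ' F)ˣ) ℓ' *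
        (Pi.mulSingle ℓ b : ∀ ℓ' : Nat.Primes, (SemiLocal ℓ' F)ˣ) ℓ'
    rw [← Pi.mul_apply, ← Pi.mulSingle_mul]

open Classical in
@[simp] lemma single_apply_same (ℓ : Nat.Primes) (z : (SemiLocal ℓ F)ˣ) :
    single (F := F) ℓ z ℓ = z := by
  change (Pi.mulSingle ℓ z : ∀ ℓ' : Nat.Primes, (SemiLocal ℓ' F)ˣ) ℓ = z
  exact @Pi.mulSingle_eq_same Nat.Primes (fun ℓ' : Nat.Primes => (SemiLocal ℓ' F)ˣ) _ _ ℓ z

open Classical in
lemma single_apply_of_ne {ℓ ℓ' : Nat.Primes} (h : ℓ' ≠ ℓ) (z : (SemiLocal ℓ F)ˣ) :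
    single (F := F) ℓ z ℓ' = 1 := by
  change (Pi.mulSingle ℓ z : ∀ ℓ' : Nat.Primes, (SemiLocal ℓ' F)ˣ) ℓ' = 1
  exact @Pi.mulSingle_eq_of_ne Nat.Primes (fun ℓ' : Nat.Primes => (SemiLocal ℓ' F)ˣ) _ _ _ _ h z

lemma finprodHom_single {A : Type*} [CommGroup A]
    (φ : ∀ ℓ : Nat.Primes, (SemiLocal ℓ F)ˣ →* A)
    (hφ : ∀ᶠ ℓ : Nat.Primes in Filter.cofinite, ∀ u ∈ SemiLocal.unitGroup ℓ F, φ ℓ u = 1)
    (ℓ : Nat.Primes) (z : (SemiLocal ℓ F)ˣ) :
    finprodHom φ hφ (single ℓ z) = φ ℓ z := by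
  rw [finprodHom_apply, finprod_eq_single _ ℓ, single_apply_same]
  intro ℓ' hne
  rw [single_apply_of_ne hne, map_one]

end single

end FinIdele


end Fermat.Agent.CFT
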