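/-
CFT global part, helper3: the representations `J_L`, `C_L`, `L^×` of `Gal(L/K)`, the exact sequence
`0 → L^× → J_L → C_L → 0`, and the STATEMENTS (as `Prop`-valued definitions) of the milestone
theorems (T1)–(T5) of the global design, so that the packages can be developed in parallel
against fixed statements.
-/
import Fermat.Agent.CFT.Global.Places_helper3
import Fermat.Agent.CFT.Coh.Cyclic_helper6_Herbrand

set_option autoImplicit false

open scoped TensorProduct NumberField RestrictedProduct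
open CategoryTheory

namespace Fermat.Agent.CFT

open Coh

section reps

variable (K L : Type) [Field K] [Field L] [CharZero L] [Algebra K L]

/-- The finite ideles of `L` as a representation of `Gal(L/K)`. -/
noncomputable def ideleRep : Rep ℤ (L ≃ₐ[K] L) :=
  Rep.ofMulDistribMulAction (L ≃ₐ[K] L) (FinIdele L)

variable [Algebra.IsAlgebraic ℚ L]

/-- The finite idele class group of `L` as a representation of `Gal(L/K)`. -/
noncomputable def ideleClassRep : Rep ℤ (L ≃ₐ[K] L) :=
  Rep.ofMulDistribMulAction (L ≃ₐ[K] L) (FinIdeleClass L)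

/-- The diagonal embedding as a morphism of representations `L^× → J_L`. -/
noncomputable def diagHom : Rep.ofAlgebraAutOnUnits K L ⟶ ideleRep K L :=
  Rep.ofHom
    { toLinearMap := (MonoidHom.toAdditive (FinIdele.diag L)).toIntLinearMap
      isIntertwining' := fun σ => LinearMap.ext fun x => by
        change Additive.ofMul (FinIdele.diag L (σ • x.toMul)) =
          Additive.ofMul (σ • FinIdele.diag L x.toMul)
        rw [FinIdele.smul_diag]
        rfl }

/-- The projection as a morphism of representations `J_L → C_L`. -/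
noncomputable def classHom : ideleRep K L ⟶ ideleClassRep K L :=
  Rep.ofHom
    { toLinearMap := (MonoidHom.toAdditive (FinIdeleClass.mk (F := L))).toIntLinearMap
      isIntertwining' := fun _ => LinearMap.ext fun _ => rfl }


lemma diagHom_injective : Function.Injective (diagHom K L).hom := by
  intro x y h
  have : FinIdele.diag L x.toMul = FinIdele.diag L y.toMul := congrArg Additive.toMul h
  exact congrArg Additive.ofMul (FinIdele.diag_injective this)

lemma classHom_surjective : Function.Surjective (classHom K L).hom := by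
  intro y
  obtain ⟨x, hx⟩ := FinIdeleClass.mk_surjective y.toMul
  exact ⟨Additive.ofMul x, congrArg Additive.ofMul hx⟩

lemma diagHom_classHom_exact : Function.Exact (diagHom K L).hom (classHom K L).hom := by
  intro x
  constructor
  · intro hx
    have h1 : FinIdeleClass.mk x.toMul = 1 := congrArg Additive.toMul hx
    obtain ⟨a, ha⟩ := FinIdeleClass.mk_eq_one_iff.mp h1
    exact ⟨Additive.ofMul a, congrArg Additive.ofMul ha⟩
  · rintro ⟨a, rfl⟩
    have : FinIdeleClass.mk (FinIdele.diag L a.toMul) = 1 :=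
      FinIdeleClass.mk_eq_one_iff.mpr ⟨_, rfl⟩
    exact congrArg Additive.ofMul this

/-- The short exact sequence `0 → L^× → J_L → C_L → 0` of representations of `Gal(L/K)`. -/
theorem exists_ideleShortExact :
    ∃ h : diagHom K L ≫ classHom K L = 0,
      (ShortComplex.mk (diagHom K L) (classHom K L) h).ShortExact :=
  shortExact_mk _ _ (diagHom_injective K L) (classHom_surjective K L) (diagHom_classHom_exact K L)

end reps

/-! ### Norm conditions -/

section norms

variable (K L : Type) [Field K] [CharZero K] [Field L] [CharZero L] [Algebra K L]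
  [FiniteDimensional K L]

/-- The finite idele `x` of `K` is a norm from `J_L` (Galois form of the norm). -/
def IsIdeleNorm (x : FinIdele K) : Prop :=
  ∃ y : FinIdele L, ∏ σ : L ≃ₐ[K] L, σ • y = FinIdele.map (algebraMap K L) x

/-- The unit `b` of `ℚ_ℓ ⊗ K` is a norm from `(ℚ_ℓ ⊗ L)^×` (Galois form of the norm). -/
def IsSemiLocalNorm (ℓ : ℕ) [Fact ℓ.Prime] (b : (SemiLocal ℓ K)ˣ) : Prop :=
  ∃ y : (SemiLocal ℓ L)ˣ, ∏ σ : L ≃ₐ[K] L, σ • y = SemiLocal.unitsMap ℓ (algebraMap K L) b

end norms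

/-! ### The milestone statements -/

section statements

open IsDedekindDomain

/-- The additive valuation of `x ∈ F` at the prime `P` of `𝓞 F` (`0` by convention if `P` is not
a nonzero prime or `x = 0`). -/
noncomputable def ordAt (F : Type) [Field F] [NumberField F] (P : Ideal (𝓞 F)) (x : F) : ℤ :=
  open Classical in
  if h : P.IsPrime ∧ P ≠ ⊥ then
    -(WithZero.log ((⟨P, h.1, h.2⟩ : HeightOneSpectrum (𝓞 F)).valuation F x))
  else 0

/-- (T1) First inequality for cyclic extensions of prime degree `p`. -/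
def FirstInequality (p : ℕ) : Prop :=
  ∀ (K L : Type) [Field K] [NumberField K] [Field L] [NumberField L] [Algebra K L] [IsGalois K L],
    Nat.card (L ≃ₐ[K] L) = p →
    HerbrandFinite (ideleClassRep K L) ∧ herbrand (ideleClassRep K L) = p

/-- (T5) For a cyclic extension of prime degree `p` and every finite set `S₀` of rational primes
there is a rational prime `ℓ ∉ S₀` and a unit of `ℚ_ℓ ⊗ K` which is not a norm from `ℚ_ℓ ⊗ L`
(so some place of `K` over `ℓ` does not split in `L`). -/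
def ExistsNonNorm (p : ℕ) : Prop :=
  ∀ (K L : Type) [Field K] [NumberField K] [Field L] [NumberField L] [Algebra K L] [IsGalois K L],
    Nat.card (L ≃ₐ[K] L) = p → ∀ S₀ : Finset Nat.Primes,
    ∃ ℓ : Nat.Primes, ℓ ∉ S₀ ∧ ∃ b : (SemiLocal ℓ K)ˣ, ¬ IsSemiLocalNorm K L ℓ b

/-- (T2) Second inequality for cyclic extensions of prime degree `p` with `ζ_p` in the base. -/
def SecondInequality (p : ℕ) : Prop :=
  ∀ (K L : Type) [Field K] [NumberField K] [Field L] [NumberField L] [Algebra K L] [IsGalois K L],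
    Nat.card (L ≃ₐ[K] L) = p → (∃ ζ : K, IsPrimitiveRoot ζ p) →
    Finite (TateH0 (ideleClassRep K L)) ∧ Nat.card (TateH0 (ideleClassRep K L)) ≤ p

/-- (T3) The Hasse norm theorem for cyclic extensions of prime degree `p` with `ζ_p` in the
base. -/
def HasseNormTheorem (p : ℕ) : Prop :=
  ∀ (K L : Type) [Field K] [NumberField K] [Field L] [NumberField L] [Algebra K L] [IsGalois K L],
    Nat.card (L ≃ₐ[K] L) = p → (∃ ζ : K, IsPrimitiveRoot ζ p) → ∀ b : Kˣ,
    (∀ ℓ : Nat.Primes, IsSemiLocalNorm K L ℓ (SemiLocal.ofUnits ℓ b)) →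
    ∃ y : Lˣ, ∏ σ : L ≃ₐ[K] L, σ • y = Units.map (algebraMap K L : K →* L) b

/-- (T4) Dictionary: at a rational prime `ℓ` over which `L/K` (Galois) is unramified, `b ∈ K^×` is
a semi-local norm as soon as `Frob^(ord b) = 1` at every prime over `ℓ`. -/
def UnramifiedNormCriterion : Prop :=
  ∀ (K L : Type) [Field K] [NumberField K] [Field L] [NumberField L] [Algebra K L] [IsGalois K L]
    (ℓ : Nat.Primes) (b : Kˣ),
    (∀ Q : Ideal (𝓞 L), Q.IsPrime → ((ℓ : ℕ) : 𝓞 L) ∈ Q →
      (∀ σ : L ≃ₐ[K] L, (∀ x : 𝓞 L, σ • x - x ∈ Q) → σ = 1) ∧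
      ∀ σ : L ≃ₐ[K] L, IsArithFrobAt (𝓞 K) σ Q → σ ^ (ordAt K (Q.under (𝓞 K)) (b : K)) = 1) →
    IsSemiLocalNorm K L ℓ (SemiLocal.ofUnits ℓ b)

/-- (T4') Dictionary: if every prime of `L` over `ℓ` has trivial decomposition group in
`Gal(L/K)`, then every unit of `ℚ_ℓ ⊗ K` is a norm from `ℚ_ℓ ⊗ L`. -/
def SplitNormCriterion : Prop :=
  ∀ (K L : Type) [Field K] [NumberField K] [Field L] [NumberField L] [Algebra K L] [IsGalois K L]
    (ℓ : Nat.Primes),
    (∀ Q : Ideal (𝓞 L), Q.IsPrime → ((ℓ : ℕ) : 𝓞 L) ∈ Q →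
      ∀ σ : L ≃ₐ[K] L, (∀ x : 𝓞 L, x ∈ Q → σ • x ∈ Q) → σ = 1) →
    ∀ b : (SemiLocal ℓ K)ˣ, IsSemiLocalNorm K L ℓ b

/-- (G5c) Norms from `ℚ_p ⊗ ℚ(ζ_{p^(r+1)})` to `ℚ_p` lie in `p^ℤ · (1 + p^(r+1) ℤ_p)`
(Galois-product form of the norm). -/
def CyclotomicNormStatement (p : ℕ) [Fact p.Prime] : Prop :=
  ∀ (r : ℕ) (E : Type) [Field E] [NumberField E] [IsCyclotomicExtension {p ^ (r + 1)} ℚ E]
    (y : (SemiLocal p E)ˣ),
    ∃ (k : ℤ) (u : ℚ_[p]), ‖u - 1‖ ≤ (p : ℝ) ^ (-((r : ℤ) + 1)) ∧
      ∏ τ : E ≃ₐ[ℚ] E, τ • (y : SemiLocal p E) =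
        algebraMap ℚ_[p] (SemiLocal p E) ((p : ℚ_[p]) ^ k * u)

/-- (M1') Artin reciprocity for unramified cyclic extensions of degree `p` of `ℚ(ζ_p)` in which
the primes over `p` split completely: the Artin map is defined on the class group, surjective,
and sends the class of a prime to its Frobenius. -/
def UnramifiedReciprocityPrime (p : ℕ) [Fact p.Prime] : Prop :=
  ∀ (K L : Type) [Field K] [NumberField K] [Field L] [NumberField L] [Algebra K L] [IsGalois K L]
    [IsCyclotomicExtension {p} ℚ K],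
    Nat.card (L ≃ₐ[K] L) = p →
    (∀ Q : Ideal (𝓞 L), Q.IsPrime → Q ≠ ⊥ →
      ∀ σ : L ≃ₐ[K] L, (∀ x : 𝓞 L, σ • x - x ∈ Q) → σ = 1) →
    (∀ Q : Ideal (𝓞 L), Q.IsPrime → (p : 𝓞 L) ∈ Q →
      ∀ σ : L ≃ₐ[K] L, (∀ x : 𝓞 L, x ∈ Q → σ • x ∈ Q) → σ = 1) →
    ∃ Art : ClassGroup (𝓞 K) →* (L ≃ₐ[K] L), Function.Surjective Art ∧
      ∀ (P : Ideal (𝓞 K)) (_ : P.IsPrime) (hP0 : P ≠ ⊥) (Q : Ideal (𝓞 L)), Q.IsPrime →
        Q.under (𝓞 K) = P →
        IsArithFrobAt (𝓞 K) (Art (ClassGroup.mk0 ⟨P, mem_nonZeroDivisors_of_ne_zero hP0⟩)) Q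

end statements

end Fermat.Agent.CFT
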