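/-
CFT global part (G2), helper2: `S`-ideles `J_{F,S}`, `S`-units `F_S`, their Galois module
structures, and the exact sequence `0 → L_S → J_{L,S} → C_L → 0` (for `J_L = L^× J_{L,S}`).
-/
import Fermat.Agent.CFT.Global.Interface_helper3

set_option autoImplicit false

open scoped TensorProduct NumberField RestrictedProduct
open CategoryTheory

namespace Fermat.Agent.CFT

open Coh

section SIdeles

variable (F : Type*) [Field F] [CharZero F]

/-- The `S`-ideles: finite ideles which are units outside the set `S` of rational primes. -/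
def sIdeles (S : Set Nat.Primes) : Subgroup (FinIdele F) where
  carrier := {x | ∀ ℓ : Nat.Primes, ℓ ∉ S → x ℓ ∈ SemiLocal.unitGroup ℓ F}
  mul_mem' := fun hx hy ℓ hℓ => (SemiLocal.unitGroup ℓ F).mul_mem (hx ℓ hℓ) (hy ℓ hℓ)
  one_mem' := fun ℓ _ => (SemiLocal.unitGroup ℓ F).one_mem
  inv_mem' := fun hx ℓ hℓ => (SemiLocal.unitGroup ℓ F).inv_mem (hx ℓ hℓ)

variable {F}

lemma mem_sIdeles_iff {S : Set Nat.Primes} {x : FinIdele F} :
    x ∈ sIdeles F S ↔ ∀ ℓ : Nat.Primes, ℓ ∉ S → x ℓ ∈ SemiLocal.unitGroup ℓ F := Iff.rfl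

lemma sIdeles_mono {S T : Set Nat.Primes} (h : S ⊆ T) : sIdeles F S ≤ sIdeles F T :=
  fun _ hx ℓ hℓ => hx ℓ fun hS => hℓ (h hS)

/-- every finite idele is an `S`-idele for some finite `S` -/
lemma exists_finset_mem_sIdeles (x : FinIdele F) :
    ∃ S : Finset Nat.Primes, x ∈ sIdeles F (S : Set Nat.Primes) := by
  have h : {ℓ : Nat.Primes | ¬ x ℓ ∈ SemiLocal.unitGroup ℓ F}.Finite :=
    Filter.eventually_cofinite.mp x.2
  refine ⟨h.toFinset, fun ℓ hℓ => ?_⟩
  by_contra hx
  apply hℓ
  rw [Finset.mem_coe, Set.Finite.mem_toFinset]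
  exact hx

section action

variable {G : Type*} [Group G] [MulSemiringAction G F]

lemma smul_mem_sIdeles_iff (g : G) {S : Set Nat.Primes} {x : FinIdele F} :
    g • x ∈ sIdeles F S ↔ x ∈ sIdeles F S :=
  forall₂_congr fun ℓ _ => SemiLocal.smul_mem_unitGroup_iff (ℓ : ℕ) g

/-- The Galois action on `S`-ideles. -/
noncomputable instance sIdelesAction (S : Set Nat.Primes) :
    MulDistribMulAction G (sIdeles F S) where
  smul g x := ⟨g • x.1, (smul_mem_sIdeles_iff g).2 x.2⟩
  one_smul x := Subtype.ext (one_smul G x.1)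
  mul_smul g h x := Subtype.ext (mul_smul g h x.1)
  smul_mul g x y := Subtype.ext (smul_mul' g x.1 y.1)
  smul_one g := Subtype.ext (smul_one g)

@[simp] lemma coe_smul_sIdeles (S : Set Nat.Primes) (g : G) (x : sIdeles F S) :
    ((g • x : sIdeles F S) : FinIdele F) = g • (x : FinIdele F) := rfl

end action

variable (F) [Algebra.IsAlgebraic ℚ F]

/-- The `S`-units of `F`. -/
noncomputable def sUnits (S : Set Nat.Primes) : Subgroup Fˣ :=
  (sIdeles F S).comap (FinIdele.diag F)

variable {F}

lemma mem_sUnits_iff {S : Set Nat.Primes} {a : Fˣ} :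
    a ∈ sUnits F S ↔ ∀ ℓ : Nat.Primes, ℓ ∉ S → SemiLocal.ofUnits ℓ a ∈ SemiLocal.unitGroup ℓ F :=
  Iff.rfl

lemma sUnits_mono {S T : Set Nat.Primes} (h : S ⊆ T) : sUnits F S ≤ sUnits F T :=
  Subgroup.comap_mono (sIdeles_mono h)

section action

variable {K : Type*} [Field K] [Algebra K F]

lemma smul_mem_sUnits_iff (g : F ≃ₐ[K] F) {S : Set Nat.Primes} {a : Fˣ} :
    g • a ∈ sUnits F S ↔ a ∈ sUnits F S := by
  have h : FinIdele.diag F (g • a) = g • FinIdele.diag F a := by
    rw [FinIdele.smul_diag]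
    rfl
  change FinIdele.diag F (g • a) ∈ sIdeles F S ↔ FinIdele.diag F a ∈ sIdeles F S
  rw [h, smul_mem_sIdeles_iff]

/-- The Galois action on `S`-units. -/
noncomputable instance sUnitsAction (S : Set Nat.Primes) :
    MulDistribMulAction (F ≃ₐ[K] F) (sUnits F S) where
  smul g x := ⟨g • x.1, (smul_mem_sUnits_iff g).2 x.2⟩
  one_smul x := Subtype.ext (one_smul (F ≃ₐ[K] F) x.1)
  mul_smul g h x := Subtype.ext (mul_smul g h x.1)
  smul_mul g x y := Subtype.ext (smul_mul' g x.1 y.1)
  smul_one g := Subtype.ext (smul_one g)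

@[simp] lemma coe_smul_sUnits (S : Set Nat.Primes) (g : F ≃ₐ[K] F) (x : sUnits F S) :
    ((g • x : sUnits F S) : Fˣ) = g • (x : Fˣ) := rfl

end action

end SIdeles

/-! ### The representations `J_{L,S}`, `L_S` and the exact sequence `0 → L_S → J_{L,S} → C_L → 0` -/

section reps

variable (K L : Type) [Field K] [Field L] [CharZero L] [Algebra K L] (S : Set Nat.Primes)

/-- The `S`-ideles of `L` as a representation of `Gal(L/K)`. -/
noncomputable def sIdeleRep : Rep ℤ (L ≃ₐ[K] L) :=
  Rep.ofMulDistribMulAction (L ≃ₐ[K] L) (sIdeles L S)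

variable [Algebra.IsAlgebraic ℚ L]

/-- The `S`-units of `L` as a representation of `Gal(L/K)`. -/
noncomputable def sUnitRep : Rep ℤ (L ≃ₐ[K] L) :=
  Rep.ofMulDistribMulAction (L ≃ₐ[K] L) (sUnits L S)

/-- the diagonal embedding `L_S → J_{L,S}` as a group homomorphism -/
noncomputable def sDiag : sUnits L S →* sIdeles L S where
  toFun a := ⟨FinIdele.diag L a.1, a.2⟩
  map_one' := Subtype.ext (map_one _)
  map_mul' a b := Subtype.ext (map_mul _ a.1 b.1)

@[simp] lemma coe_sDiag (a : sUnits L S) : ((sDiag L S a : sIdeles L S) : FinIdele L) =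
    FinIdele.diag L a.1 := rfl

/-- The diagonal embedding as a morphism of representations `L_S → J_{L,S}`. -/
noncomputable def sDiagHom : sUnitRep K L S ⟶ sIdeleRep K L S :=
  Rep.ofHom
    { toLinearMap := (MonoidHom.toAdditive (sDiag L S)).toIntLinearMap
      isIntertwining' := fun σ => LinearMap.ext fun x => by
        change Additive.ofMul (sDiag L S (σ • x.toMul)) = Additive.ofMul (σ • sDiag L S x.toMul)
        refine congrArg Additive.ofMul (Subtype.ext ?_)
        rw [coe_sDiag, coe_smul_sIdeles, coe_sDiag, coe_smul_sUnits, FinIdele.smul_diag]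
        rfl }

/-- The projection as a morphism of representations `J_{L,S} → C_L`. -/
noncomputable def sClassHom : sIdeleRep K L S ⟶ ideleClassRep K L :=
  Rep.ofHom
    { toLinearMap := (MonoidHom.toAdditive
        ((FinIdeleClass.mk (F := L)).comp (sIdeles L S).subtype)).toIntLinearMap
      isIntertwining' := fun _ => LinearMap.ext fun _ => rfl }

lemma sDiagHom_injective : Function.Injective (sDiagHom K L S).hom := by
  intro x y h
  have h1 : sDiag L S x.toMul = sDiag L S y.toMul := congrArg Additive.toMul h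
  have h2 : FinIdele.diag L x.toMul.1 = FinIdele.diag L y.toMul.1 := congrArg Subtype.val h1
  exact congrArg Additive.ofMul (Subtype.ext (FinIdele.diag_injective h2))

lemma sDiagHom_sClassHom_exact :
    Function.Exact (sDiagHom K L S).hom (sClassHom K L S).hom := by
  intro x
  constructor
  · intro hx
    have h1 : FinIdeleClass.mk ((Additive.toMul x : sIdeles L S) : FinIdele L) = 1 :=
      congrArg Additive.toMul hx
    obtain ⟨a, ha⟩ := FinIdeleClass.mk_eq_one_iff.mp h1
    have haS : a ∈ sUnits L S := by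
      change FinIdele.diag L a ∈ sIdeles L S
      rw [ha]; exact (Additive.toMul x : sIdeles L S).2
    exact ⟨Additive.ofMul ⟨a, haS⟩, congrArg Additive.ofMul (Subtype.ext ha)⟩
  · rintro ⟨a, rfl⟩
    have : FinIdeleClass.mk (FinIdele.diag L a.toMul.1) = 1 :=
      FinIdeleClass.mk_eq_one_iff.mpr ⟨_, rfl⟩
    exact congrArg Additive.ofMul this

/-- `J_L = L^× · J_{L,S}` -/
def IdelesGeneratedBy : Prop :=
  ∀ x : FinIdele L, ∃ a : Lˣ, FinIdele.diag L a * x ∈ sIdeles L S

variable {L S} in
lemma sClassHom_surjective (hS : IdelesGeneratedBy L S) :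
    Function.Surjective (sClassHom K L S).hom := by
  intro y
  obtain ⟨x, hx⟩ := FinIdeleClass.mk_surjective y.toMul
  obtain ⟨a, ha⟩ := hS x
  refine ⟨Additive.ofMul ⟨_, ha⟩, ?_⟩
  have h1 : FinIdeleClass.mk (FinIdele.diag L a * x) = FinIdeleClass.mk x := by
    rw [map_mul, FinIdeleClass.mk_eq_one_iff.mpr ⟨a, rfl⟩]
    exact one_mul (FinIdeleClass.mk x)
  exact congrArg Additive.ofMul (h1.trans hx)

variable {L S} in
/-- The short exact sequence `0 → L_S → J_{L,S} → C_L → 0` of representations of `Gal(L/K)`. -/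
theorem exists_sShortExact (hS : IdelesGeneratedBy L S) :
    ∃ h : sDiagHom K L S ≫ sClassHom K L S = 0,
      (ShortComplex.mk (sDiagHom K L S) (sClassHom K L S) h).ShortExact :=
  shortExact_mk _ _ (sDiagHom_injective K L S) (sClassHom_surjective K hS)
    (sDiagHom_sClassHom_exact K L S)

end reps

end Fermat.Agent.CFT
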