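import Fermat.Agent.CFT.Global.G04_lead_Density
import Fermat.Agent.CFT.Global.G2_helper2_SIdeles

/-!
# CFT (G0.4), part 2: the valuations of an idele at the primes of `𝓞 F`, and `J_F = F^× J_{F,S}`

* `primeBelow P`, `placeAbove P`: the rational prime and the place attached to a prime `P` of `𝓞 F`;
* `FinIdele.ordP x P`: the valuation of the idele `x` at `P` (a homomorphism in `x`, equal to the
  `P`-adic valuation on principal ideles, zero for almost all `P`);
* `FinIdele.mem_unitGroup_iff_ordP`: `x_ℓ` is a unit of the maximal order iff `ordP x P = 0` for all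
  `P ∣ ℓ`;
* `exists_finset_idelesGeneratedBy` **(G0.3)**: there is a finite set `S` of rational primes with
  `J_F = F^× · J_{F,S}` (finiteness of the class group).
-/

set_option autoImplicit false
set_option linter.style.haveILetI false
set_option linter.unusedSectionVars false

open scoped TensorProduct NumberField nonZeroDivisors
open NumberField
open IsLocalRing IsDedekindDomain

namespace Fermat.Agent.CFT

section count

variable {R K : Type*} [CommRing R] [IsDedekindDomain R] [Field K] [Algebra R K]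
  [IsFractionRing R K] (v : HeightOneSpectrum R)

lemma count_spanSingleton_algebraMap {r : R} (hr : r ≠ 0) :
    FractionalIdeal.count K v (FractionalIdeal.spanSingleton R⁰ (algebraMap R K r)) =
      -(WithZero.log (v.valuation K (algebraMap R K r))) := by
  have h1 : FractionalIdeal.spanSingleton R⁰ (algebraMap R K r) =
      ((Ideal.span {r} : Ideal R) : FractionalIdeal R⁰ K) :=
    (FractionalIdeal.coeIdeal_span_singleton r).symm
  have h2 : (Ideal.span {r} : Ideal R) ≠ 0 := by
    rw [Ne, Submodule.zero_eq_bot, Ideal.span_singleton_eq_bot]; exact hr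
  rw [h1, FractionalIdeal.count_coe K v h2, HeightOneSpectrum.valuation_of_algebraMap,
    HeightOneSpectrum.intValuation_if_neg v hr, WithZero.log_exp, neg_neg]

/-- The multiplicity of a prime in a principal fractional ideal is the valuation. -/
lemma count_spanSingleton {a : K} (ha : a ≠ 0) :
    FractionalIdeal.count K v (FractionalIdeal.spanSingleton R⁰ a) =
      -(WithZero.log (v.valuation K a)) := by
  obtain ⟨n, d, hd, rfl⟩ := IsFractionRing.div_surjective (A := R) a
  have hd0 : d ≠ 0 := nonZeroDivisors.ne_zero hd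
  have hdK : algebraMap R K d ≠ 0 := by
    rwa [Ne, map_eq_zero_iff _ (IsFractionRing.injective R K)]
  have hn0 : n ≠ 0 := by
    rintro rfl; simp at ha
  have hnK : algebraMap R K n ≠ 0 := by
    rwa [Ne, map_eq_zero_iff _ (IsFractionRing.injective R K)]
  have h1 : FractionalIdeal.spanSingleton R⁰ (algebraMap R K n / algebraMap R K d) =
      FractionalIdeal.spanSingleton R⁰ (algebraMap R K n) *
        (FractionalIdeal.spanSingleton R⁰ (algebraMap R K d))⁻¹ := by
    rw [FractionalIdeal.spanSingleton_inv, FractionalIdeal.spanSingleton_mul_spanSingleton,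
      div_eq_mul_inv]
  rw [h1, FractionalIdeal.count_mul K v
      (FractionalIdeal.spanSingleton_ne_zero_iff.2 hnK)
      (inv_ne_zero (FractionalIdeal.spanSingleton_ne_zero_iff.2 hdK)),
    FractionalIdeal.count_inv, count_spanSingleton_algebraMap v hn0,
    count_spanSingleton_algebraMap v hd0, map_div₀,
    WithZero.log_div ((Valuation.ne_zero_iff _).2 hnK) ((Valuation.ne_zero_iff _).2 hdK)]
  ring

end count

section below

variable {F : Type} [Field F] [NumberField F]

/-- Every nonzero prime of `𝓞 F` contains a rational prime. -/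
theorem exists_prime_mem (P : HeightOneSpectrum (𝓞 F)) :
    ∃ ℓ : Nat.Primes, ((ℓ : ℕ) : 𝓞 F) ∈ P.asIdeal := by
  classical
  have hex : ∃ m : ℕ, 0 < m ∧ (m : 𝓞 F) ∈ P.asIdeal := by
    refine ⟨Ideal.absNorm P.asIdeal, Nat.pos_of_ne_zero ?_, Ideal.absNorm_mem _⟩
    rw [Ne, Ideal.absNorm_eq_zero_iff]
    exact P.ne_bot
  have hm := Nat.find_spec hex
  set m := Nat.find hex with hmdef
  have hmin : ∀ k : ℕ, 0 < k → (k : 𝓞 F) ∈ P.asIdeal → m ≤ k :=
    fun k hk hkP => Nat.find_min' hex ⟨hk, hkP⟩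
  have hprime : m.Prime := by
    rw [Nat.prime_def]
    refine ⟨?_, ?_⟩
    · by_contra h
      have h1 := hm.1
      have : m = 1 := by omega
      rw [this, Nat.cast_one] at hm
      exact P.isPrime.ne_top ((Ideal.eq_top_iff_one _).2 hm.2)
    · intro a ha
      obtain ⟨b, hb⟩ := ha
      have hab : ((a : 𝓞 F) * (b : 𝓞 F)) ∈ P.asIdeal := by
        have := hm.2; rw [hb] at this; exact_mod_cast this
      have hpos : 0 < a * b := by rw [← hb]; exact hm.1
      have ha0 : 0 < a := Nat.pos_of_ne_zero (by rintro rfl; simp at hpos)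
      have hb0 : 0 < b := Nat.pos_of_ne_zero (by rintro rfl; simp at hpos)
      rcases P.isPrime.mem_or_mem hab with h | h
      · right
        have := hmin a ha0 h
        have : a ≤ m := Nat.le_of_dvd hm.1 ⟨b, hb⟩
        omega
      · left
        have h1 := hmin b hb0 h
        have h2 : b ≤ m := Nat.le_of_dvd hm.1 ⟨a, by rw [hb, mul_comm]⟩
        have : b = m := by omega
        rw [this] at hb
        have : m * a = m * 1 := by rw [mul_one, mul_comm]; exact hb.symm
        exact Nat.eq_of_mul_eq_mul_left hm.1 this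
  exact ⟨⟨m, hprime⟩, hm.2⟩

/-- A nonzero prime of `𝓞 F` contains only one rational prime. -/
theorem prime_mem_unique (P : HeightOneSpectrum (𝓞 F)) {ℓ ℓ' : Nat.Primes}
    (h : ((ℓ : ℕ) : 𝓞 F) ∈ P.asIdeal) (h' : ((ℓ' : ℕ) : 𝓞 F) ∈ P.asIdeal) : ℓ = ℓ' := by
  by_contra hne
  have hcop : Nat.Coprime (ℓ : ℕ) (ℓ' : ℕ) :=
    (Nat.coprime_primes ℓ.2 ℓ'.2).2 (fun h => hne (Subtype.ext h))
  have hint : IsCoprime ((ℓ : ℕ) : ℤ) ((ℓ' : ℕ) : ℤ) := Nat.isCoprime_iff_coprime.2 hcop
  obtain ⟨a, b, hab⟩ := hint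
  have h1 : ((a * ((ℓ : ℕ) : ℤ) + b * ((ℓ' : ℕ) : ℤ) : ℤ) : 𝓞 F) ∈ P.asIdeal := by
    push_cast
    exact P.asIdeal.add_mem (P.asIdeal.mul_mem_left _ h) (P.asIdeal.mul_mem_left _ h')
  rw [hab, Int.cast_one] at h1
  exact P.isPrime.ne_top ((Ideal.eq_top_iff_one _).2 h1)

end below

namespace FinIdele

variable {F : Type} [Field F] [NumberField F]

/-- The valuation of the idele `x` at the place `w` over `ℓ`. -/
noncomputable def ordAtPlace (x : FinIdele F) (ℓ : Nat.Primes) (w : Place ℓ F) : ℤ :=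
  ord w.integers ((w.unitsProj (x ℓ) : w.Completionˣ) : w.Completion)

lemma ordAtPlace_mul (x y : FinIdele F) (ℓ : Nat.Primes) (w : Place ℓ F) :
    (x * y).ordAtPlace ℓ w = x.ordAtPlace ℓ w + y.ordAtPlace ℓ w := by
  unfold ordAtPlace
  have : (x * y) ℓ = x ℓ * y ℓ := rfl
  rw [this, map_mul, Units.val_mul, ord_mul _ (Units.ne_zero _) (Units.ne_zero _)]

lemma ordAtPlace_one (ℓ : Nat.Primes) (w : Place ℓ F) :
    (1 : FinIdele F).ordAtPlace ℓ w = 0 := by
  unfold ordAtPlace
  have : (1 : FinIdele F) ℓ = 1 := rfl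
  rw [this, map_one, Units.val_one, ord_one]

lemma ordAtPlace_inv (x : FinIdele F) (ℓ : Nat.Primes) (w : Place ℓ F) :
    (x⁻¹).ordAtPlace ℓ w = - x.ordAtPlace ℓ w := by
  have h := ordAtPlace_mul x x⁻¹ ℓ w
  rw [mul_inv_cancel, ordAtPlace_one] at h
  omega

/-- **(D1)** for ideles: the valuation of a principal idele. -/
lemma ordAtPlace_diag (a : Fˣ) (ℓ : Nat.Primes) (w : Place ℓ F) :
    (FinIdele.diag F a).ordAtPlace ℓ w = ordAt F w.toPrime (a : F) := by
  unfold ordAtPlace
  rw [← w.ord_embed_eq_ordAt a.ne_zero]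
  rfl

/-- An element of `(ℚ_ℓ ⊗ F)ˣ` is a unit of the maximal order iff all its valuations vanish. -/
lemma mem_unitGroup_iff_ord (x : FinIdele F) (ℓ : Nat.Primes) :
    x ℓ ∈ SemiLocal.unitGroup ℓ F ↔ ∀ w : Place ℓ F, x.ordAtPlace ℓ w = 0 := by
  rw [SemiLocal.mem_unitGroup_iff_proj]
  refine forall_congr' fun w => ?_
  unfold ordAtPlace
  set z := w.unitsProj (x ℓ) with hz
  constructor
  · rintro ⟨h1, h2⟩
    have a1 : 0 ≤ ord w.integers (z : w.Completion) := (ord_nonneg_iff w.integers).2 ⟨⟨_, h1⟩, rfl⟩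
    have a2 : 0 ≤ ord w.integers ((z⁻¹ : w.Completionˣ) : w.Completion) :=
      (ord_nonneg_iff w.integers).2 ⟨⟨_, h2⟩, rfl⟩
    rw [Units.val_inv_eq_inv_val, ord_inv] at a2
    omega
  · intro h
    constructor
    · obtain ⟨r, hr⟩ := (ord_nonneg_iff w.integers).1 h.ge
      rw [← hr]; exact r.2
    · have : 0 ≤ ord w.integers ((z⁻¹ : w.Completionˣ) : w.Completion) := by
        rw [Units.val_inv_eq_inv_val, ord_inv, h, neg_zero]
      obtain ⟨r, hr⟩ := (ord_nonneg_iff w.integers).1 this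
      rw [← hr]; exact r.2

/-- Places (over possibly different rational primes) lying over the same prime of `𝓞 F` are
equal; formulated for the valuations of an idele. -/
lemma ordAtPlace_congr (x : FinIdele F) {ℓ ℓ' : Nat.Primes} (w : Place ℓ F) (w' : Place ℓ' F)
    (h : w.toHeightOne = w'.toHeightOne) : x.ordAtPlace ℓ w = x.ordAtPlace ℓ' w' := by
  have hℓ : ℓ = ℓ' := by
    refine prime_mem_unique w.toHeightOne w.natCast_mem_toPrime ?_
    rw [h]
    exact w'.natCast_mem_toPrime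
  subst hℓ
  have : w = w' := Place.toPrime_injective (congrArg HeightOneSpectrum.asIdeal h)
  rw [this]

end FinIdele

section above

variable {F : Type} [Field F] [NumberField F]

/-- The rational prime below a prime of `𝓞 F`. -/
noncomputable def primeBelow (P : HeightOneSpectrum (𝓞 F)) : Nat.Primes :=
  (exists_prime_mem P).choose

lemma primeBelow_mem (P : HeightOneSpectrum (𝓞 F)) :
    (((primeBelow P : Nat.Primes) : ℕ) : 𝓞 F) ∈ P.asIdeal :=
  (exists_prime_mem P).choose_spec

lemma primeBelow_eq {P : HeightOneSpectrum (𝓞 F)} {ℓ : Nat.Primes}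
    (h : ((ℓ : ℕ) : 𝓞 F) ∈ P.asIdeal) : primeBelow P = ℓ :=
  prime_mem_unique P (primeBelow_mem P) h

lemma primeBelow_toHeightOne {ℓ : Nat.Primes} (w : Place ℓ F) : primeBelow w.toHeightOne = ℓ :=
  primeBelow_eq w.natCast_mem_toPrime

lemma exists_place_toHeightOne_eq (P : HeightOneSpectrum (𝓞 F)) :
    ∃ w : Place (primeBelow P) F, w.toHeightOne = P := by
  haveI := P.isPrime
  obtain ⟨w, hw⟩ := Place.exists_toPrime_eq (ℓ := (primeBelow P : ℕ)) P.asIdeal (primeBelow_mem P)
  exact ⟨w, HeightOneSpectrum.ext hw⟩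

/-- The place of `F` corresponding to a prime of `𝓞 F`. -/
noncomputable def placeAbove (P : HeightOneSpectrum (𝓞 F)) : Place (primeBelow P) F :=
  (exists_place_toHeightOne_eq P).choose

lemma placeAbove_toHeightOne (P : HeightOneSpectrum (𝓞 F)) : (placeAbove P).toHeightOne = P :=
  (exists_place_toHeightOne_eq P).choose_spec

/-- The valuation of an idele at a prime of `𝓞 F`. -/
noncomputable def FinIdele.ordP (x : FinIdele F) (P : HeightOneSpectrum (𝓞 F)) : ℤ :=
  x.ordAtPlace (primeBelow P) (placeAbove P)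

lemma FinIdele.ordP_toHeightOne (x : FinIdele F) {ℓ : Nat.Primes} (w : Place ℓ F) :
    x.ordP w.toHeightOne = x.ordAtPlace ℓ w :=
  x.ordAtPlace_congr _ _ (placeAbove_toHeightOne _)

lemma FinIdele.ordP_mul (x y : FinIdele F) (P : HeightOneSpectrum (𝓞 F)) :
    (x * y).ordP P = x.ordP P + y.ordP P := FinIdele.ordAtPlace_mul x y _ _

lemma FinIdele.ordP_one (P : HeightOneSpectrum (𝓞 F)) : (1 : FinIdele F).ordP P = 0 :=
  FinIdele.ordAtPlace_one _ _

lemma FinIdele.ordP_inv (x : FinIdele F) (P : HeightOneSpectrum (𝓞 F)) :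
    (x⁻¹).ordP P = - x.ordP P := FinIdele.ordAtPlace_inv x _ _

lemma FinIdele.ordP_diag (a : Fˣ) (P : HeightOneSpectrum (𝓞 F)) :
    (FinIdele.diag F a).ordP P = -(WithZero.log (P.valuation F (a : F))) := by
  unfold FinIdele.ordP
  rw [FinIdele.ordAtPlace_diag, (placeAbove P).ordAt_toPrime, placeAbove_toHeightOne]

/-- `x_ℓ` is a unit of the maximal order iff `x` has valuation `0` at all primes over `ℓ`. -/
lemma FinIdele.mem_unitGroup_iff_ordP (x : FinIdele F) (ℓ : Nat.Primes) :
    x ℓ ∈ SemiLocal.unitGroup ℓ F ↔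
      ∀ P : HeightOneSpectrum (𝓞 F), ((ℓ : ℕ) : 𝓞 F) ∈ P.asIdeal → x.ordP P = 0 := by
  rw [FinIdele.mem_unitGroup_iff_ord]
  constructor
  · intro h P hP
    have hℓ : primeBelow P = ℓ := primeBelow_eq hP
    subst hℓ
    exact h _
  · intro h w
    rw [← x.ordP_toHeightOne w]
    exact h _ w.natCast_mem_toPrime

/-- **(D2)** the bijection between the places of `F` over `ℓ` and the primes of `𝓞 F`
containing `ℓ`. -/
noncomputable def Place.equivPrimesOver (ℓ : Nat.Primes) :
    Place ℓ F ≃ {P : HeightOneSpectrum (𝓞 F) // ((ℓ : ℕ) : 𝓞 F) ∈ P.asIdeal} :=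
  Equiv.ofBijective (fun w => ⟨w.toHeightOne, w.natCast_mem_toPrime⟩)
    ⟨fun w w' h => Place.toPrime_injective
        (congrArg (fun P : {P : HeightOneSpectrum (𝓞 F) // ((ℓ : ℕ) : 𝓞 F) ∈ P.asIdeal} =>
          P.1.asIdeal) h),
      fun P => by
        haveI := P.1.isPrime
        obtain ⟨w, hw⟩ := Place.exists_toPrime_eq (ℓ := (ℓ : ℕ)) P.1.asIdeal P.2
        exact ⟨w, Subtype.ext (HeightOneSpectrum.ext hw)⟩⟩

@[simp] lemma Place.equivPrimesOver_apply (ℓ : Nat.Primes) (w : Place ℓ F) :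
    ((Place.equivPrimesOver ℓ w : {P : HeightOneSpectrum (𝓞 F) // ((ℓ : ℕ) : 𝓞 F) ∈ P.asIdeal}) :
      HeightOneSpectrum (𝓞 F)) = w.toHeightOne := rfl

/-- The set of primes of `𝓞 F` over `ℓ` is finite. -/
lemma finite_setOf_natCast_mem (ℓ : Nat.Primes) :
    {P : HeightOneSpectrum (𝓞 F) | ((ℓ : ℕ) : 𝓞 F) ∈ P.asIdeal}.Finite := by
  have h : {P : HeightOneSpectrum (𝓞 F) | ((ℓ : ℕ) : 𝓞 F) ∈ P.asIdeal} ⊆
      Set.range (fun w : Place ℓ F => w.toHeightOne) := by
    intro P hP
    have hℓ : primeBelow P = ℓ := primeBelow_eq hP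
    subst hℓ
    obtain ⟨w, hw⟩ := exists_place_toHeightOne_eq P
    exact ⟨w, hw⟩
  exact (Set.finite_range _).subset h

/-- An idele has valuation `0` at almost all primes. -/
lemma FinIdele.finite_setOf_ordP_ne_zero (x : FinIdele F) :
    {P : HeightOneSpectrum (𝓞 F) | x.ordP P ≠ 0}.Finite := by
  have hbad : {ℓ : Nat.Primes | x ℓ ∉ SemiLocal.unitGroup ℓ F}.Finite := by
    have := x.2
    rwa [Filter.eventually_cofinite] at this
  refine (hbad.biUnion fun ℓ _ => finite_setOf_natCast_mem (F := F) ℓ).subset ?_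
  intro P hP
  simp only [Set.mem_iUnion, Set.mem_setOf_eq]
  refine ⟨primeBelow P, ?_, primeBelow_mem P⟩
  intro h
  exact hP ((x.mem_unitGroup_iff_ordP _).1 h P (primeBelow_mem P))

/-- **(G0.3)** Finiteness of the class group in idelic form: there is a finite set `S` of rational
primes such that `J_F = F^× · J_{F,S}`. -/
theorem exists_finset_idelesGeneratedBy :
    ∃ S : Finset Nat.Primes, IdelesGeneratedBy F (S : Set Nat.Primes) := by
  classical
  haveI : Fintype (ClassGroup (𝓞 F)) := inferInstance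
  -- integral representatives of the ideal classes
  have hrep : ∀ c : ClassGroup (𝓞 F), ∃ J : (Ideal (𝓞 F))⁰, ClassGroup.mk0 J = c :=
    ClassGroup.mk0_surjective
  choose J hJ using hrep
  -- the finite set of primes dividing the representatives
  have hT : (⋃ c, {P : HeightOneSpectrum (𝓞 F) |
      FractionalIdeal.count F P ((J c : Ideal (𝓞 F)) : FractionalIdeal (𝓞 F)⁰ F) ≠ 0}).Finite := by
    refine Set.finite_iUnion fun c => ?_
    have := FractionalIdeal.finite_factors (K := F)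
      (((J c : Ideal (𝓞 F)) : FractionalIdeal (𝓞 F)⁰ F))
    rwa [Filter.eventually_cofinite] at this
  refine ⟨(hT.image primeBelow).toFinset, ?_⟩
  intro x
  -- the fractional ideal of `x`
  have hfin : ∀ᶠ P : HeightOneSpectrum (𝓞 F) in Filter.cofinite, x.ordP P = 0 := by
    rw [Filter.eventually_cofinite]; exact x.finite_setOf_ordP_ne_zero
  set I : FractionalIdeal (𝓞 F)⁰ F :=
    ∏ᶠ P : HeightOneSpectrum (𝓞 F), (P.asIdeal : FractionalIdeal (𝓞 F)⁰ F) ^ x.ordP P with hI
  have hI0 : I ≠ 0 := by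
    rw [hI, finprod_eq_prod_of_mulSupport_subset (s := x.finite_setOf_ordP_ne_zero.toFinset)]
    · refine Finset.prod_ne_zero_iff.2 fun P _ => zpow_ne_zero _ ?_
      exact FractionalIdeal.coeIdeal_ne_zero.2 P.ne_bot
    · intro P hP
      rw [Function.mem_mulSupport] at hP
      rw [Set.Finite.coe_toFinset, Set.mem_setOf_eq]
      intro h0
      rw [h0, zpow_zero] at hP
      exact hP rfl
  have hcount : ∀ P, FractionalIdeal.count F P I = x.ordP P := fun P =>
    FractionalIdeal.count_finprod F P _ hfin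
  set Iu : (FractionalIdeal (𝓞 F)⁰ F)ˣ := Units.mk0 I hI0 with hIu
  set c := ClassGroup.mk F Iu with hc
  -- `I = (a) * J c`
  have h1 : ClassGroup.mk F (Iu * (FractionalIdeal.mk0 F (J c))⁻¹) = 1 := by
    rw [map_mul, map_inv, ClassGroup.mk_mk0, hJ c, ← hc, mul_inv_cancel]
  rw [ClassGroup.mk_eq_one_iff] at h1
  obtain ⟨a, ha⟩ := @Submodule.IsPrincipal.principal _ _ _ _ _ _ h1
  have ha' : ((Iu * (FractionalIdeal.mk0 F (J c))⁻¹ : (FractionalIdeal (𝓞 F)⁰ F)ˣ) :
      FractionalIdeal (𝓞 F)⁰ F) = FractionalIdeal.spanSingleton (𝓞 F)⁰ a := by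
    apply Subtype.coe_injective
    simp only [FractionalIdeal.val_eq_coe, ha, FractionalIdeal.coe_spanSingleton]
  have ha0 : a ≠ 0 := by
    rintro rfl
    rw [FractionalIdeal.spanSingleton_zero] at ha'
    exact Units.ne_zero _ ha'
  have hJc0 : ((J c : Ideal (𝓞 F)) : FractionalIdeal (𝓞 F)⁰ F) ≠ 0 :=
    FractionalIdeal.coeIdeal_ne_zero.2 (nonZeroDivisors.ne_zero (J c).2)
  have hIeq : I = FractionalIdeal.spanSingleton (𝓞 F)⁰ a *
      ((J c : Ideal (𝓞 F)) : FractionalIdeal (𝓞 F)⁰ F) := by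
    rw [← ha', Units.val_mul, Units.val_inv_eq_inv_val, FractionalIdeal.coe_mk0, hIu,
      Units.val_mk0, mul_assoc, inv_mul_cancel₀ hJc0, mul_one]
  refine ⟨(Units.mk0 a ha0)⁻¹, ?_⟩
  rw [mem_sIdeles_iff]
  intro ℓ hℓS
  rw [FinIdele.mem_unitGroup_iff_ordP]
  intro P hP
  have hPT : FractionalIdeal.count F P ((J c : Ideal (𝓞 F)) : FractionalIdeal (𝓞 F)⁰ F) = 0 := by
    by_contra hne
    apply hℓS
    rw [Finset.mem_coe, Set.Finite.mem_toFinset]
    refine ⟨P, Set.mem_iUnion.2 ⟨c, hne⟩, primeBelow_eq hP⟩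
  rw [FinIdele.ordP_mul, map_inv, FinIdele.ordP_inv, FinIdele.ordP_diag, Units.val_mk0,
    ← count_spanSingleton P ha0, ← hcount P, hIeq,
    FractionalIdeal.count_mul F P (FractionalIdeal.spanSingleton_ne_zero_iff.2 ha0) hJc0, hPT]
  ring

end above

end Fermat.Agent.CFT
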