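/-
CFT global part (G0.2), helper5: at an unramified prime the decomposition group is generated by
any Frobenius element.
-/
import Mathlib

set_option autoImplicit false
set_option linter.unusedSectionVars false
set_option linter.style.haveILetI false

open scoped NumberField Pointwise

namespace Fermat.Agent.CFT

section Frobenius

variable {K L : Type} [Field K] [NumberField K] [Field L] [NumberField L] [Algebra K L]
  [IsGalois K L]

/-- Powers of a Frobenius element act as iterated `q`-th powers on the residue field. -/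
theorem IsArithFrobAt.pow_smul_sub_mem {Q : Ideal (𝓞 L)} {φ : L ≃ₐ[K] L}
    (hφ : IsArithFrobAt (𝓞 K) φ Q) (j : ℕ) (y : 𝓞 L) :
    (φ ^ j) • y - y ^ (Nat.card (𝓞 K ⧸ Q.under (𝓞 K)) ^ j) ∈ Q := by
  induction j generalizing y with
  | zero => simp
  | succ j ih =>
    have h2 := ih y
    rw [← Ideal.Quotient.eq] at h2 ⊢
    rw [pow_succ', mul_smul]
    have h1 := hφ.mk_apply ((φ ^ j) • y)
    rw [MulSemiringAction.toAlgHom_apply] at h1
    rw [h1, h2, map_pow, map_pow, ← pow_mul, pow_succ]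

/-- **At an unramified prime, the decomposition group is generated by Frobenius.** -/
theorem mem_zpowers_of_smul_eq {Q : Ideal (𝓞 L)} [hQ : Q.IsPrime] (hQ0 : Q ≠ ⊥)
    (hin : ∀ σ : L ≃ₐ[K] L, (∀ x : 𝓞 L, σ • x - x ∈ Q) → σ = 1)
    {φ : L ≃ₐ[K] L} (hφ : IsArithFrobAt (𝓞 K) φ Q) {δ : L ≃ₐ[K] L} (hδ : δ • Q = Q) :
    δ ∈ Subgroup.zpowers φ := by
  classical
  set P : Ideal (𝓞 K) := Q.under (𝓞 K) with hP
  have hP0 : P ≠ ⊥ := Ideal.under_ne_bot (𝓞 K) hQ0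
  haveI : Q.IsMaximal := Ideal.IsPrime.isMaximal hQ hQ0
  haveI : P.IsMaximal := Ideal.IsPrime.isMaximal inferInstance hP0
  letI : Field (𝓞 K ⧸ P) := Ideal.Quotient.field P
  letI : Field (𝓞 L ⧸ Q) := Ideal.Quotient.field Q
  haveI : Finite (𝓞 L ⧸ Q) := Ideal.finiteQuotientOfFreeOfNeBot Q hQ0
  haveI : Finite (𝓞 K ⧸ P) := Ideal.finiteQuotientOfFreeOfNeBot P hP0
  letI : Fintype (𝓞 K ⧸ P) := Fintype.ofFinite _
  haveI : Q.LiesOver P := ⟨rfl⟩
  let a := Ideal.Quotient.stabilizerHom Q P (L ≃ₐ[K] L) ⟨δ, hδ⟩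
  obtain ⟨j, hj⟩ := (FiniteField.bijective_frobeniusAlgEquivOfAlgebraic_pow (𝓞 K ⧸ P) (𝓞 L ⧸ Q)).2 a
  have hj' : FiniteField.frobeniusAlgEquivOfAlgebraic (𝓞 K ⧸ P) (𝓞 L ⧸ Q) ^ j.1 = a := hj
  -- `δ` and `φ ^ j` agree modulo `Q`
  have hcong : ∀ y : 𝓞 L, δ • y - (φ ^ j.1) • y ∈ Q := by
    intro y
    have h1 : Ideal.Quotient.mk Q (δ • y) = a (Ideal.Quotient.mk Q y) := rfl
    have h2 := IsArithFrobAt.pow_smul_sub_mem hφ j.1 y
    rw [← Ideal.Quotient.eq] at h2 ⊢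
    rw [h1, h2, ← hj', AlgEquiv.coe_pow, FiniteField.coe_frobeniusAlgEquivOfAlgebraic_iterate,
      map_pow, Nat.card_eq_fintype_card]
  have h3 : δ * (φ ^ j.1)⁻¹ = 1 := by
    apply hin
    intro x
    have := hcong ((φ ^ j.1)⁻¹ • x)
    rwa [smul_inv_smul, ← mul_smul] at this
  rw [mul_inv_eq_one] at h3
  rw [h3]
  exact Subgroup.pow_mem _ (Subgroup.mem_zpowers φ) _

/-- If `Frob ^ m = 1` at an unramified prime `Q`, then the order of every subgroup of the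
decomposition group of `Q` divides `m`. -/
theorem card_dvd_of_zpow_eq_one {Q : Ideal (𝓞 L)} [hQ : Q.IsPrime] (hQ0 : Q ≠ ⊥)
    (hin : ∀ σ : L ≃ₐ[K] L, (∀ x : 𝓞 L, σ • x - x ∈ Q) → σ = 1)
    {φ : L ≃ₐ[K] L} (hφ : IsArithFrobAt (𝓞 K) φ Q) (D : Subgroup (L ≃ₐ[K] L))
    (hD : ∀ δ ∈ D, δ • Q = Q) {m : ℤ} (hm : φ ^ m = 1) : (Nat.card D : ℤ) ∣ m := by
  have hle : D ≤ Subgroup.zpowers φ := fun δ hδ => mem_zpowers_of_smul_eq hQ0 hin hφ (hD δ hδ)
  haveI : IsCyclic D :=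
    isCyclic_of_injective (Subgroup.inclusion hle) (Subgroup.inclusion_injective hle)
  obtain ⟨g, hg⟩ := IsCyclic.exists_generator (α := D)
  have hord : orderOf g = Nat.card D := orderOf_eq_card_of_forall_mem_zpowers hg
  rw [← hord, orderOf_dvd_iff_zpow_eq_one]
  obtain ⟨k, hk⟩ := Subgroup.mem_zpowers_iff.mp (hle g.2)
  apply Subtype.ext
  rw [Subgroup.coe_zpow, ← hk, ← zpow_mul, mul_comm, zpow_mul, hm, one_zpow]
  rfl

end Frobenius

end Fermat.Agent.CFT
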