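/-
CFT global part, S55 package PT4 (CYC), helper8: Frobenius elements in `K(ζ_N)/K` for an arbitrary
number field `K`: `κ(Frob_Q) = N(Q ∩ K)` for `Q ∤ N`, triviality of inertia at `Q ∤ N`, and lifting
of decomposition-group elements along a tower `K ⊆ K₁ ⊆ M`.
-/
import Fermat.Agent.CFT.Global.G02_helper5_Frobenius

set_option autoImplicit false
set_option linter.unusedSectionVars false
set_option linter.style.haveILetI false

open scoped NumberField Pointwise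
open IsDedekindDomain

namespace Fermat.Agent.CFT.CYC

section cyclo

variable {N : ℕ} [NeZero N]
variable {K M : Type} [Field K] [NumberField K] [Field M] [NumberField M] [Algebra K M]
  [IsGalois K M]
variable {ζ : M} (hζ : IsPrimitiveRoot ζ N)

include hζ in
lemma pow_eq_pow_iff_modEq (a b : ℕ) : ζ ^ a = ζ ^ b ↔ a ≡ b [MOD N] := by
  have hne : ζ ≠ 0 := hζ.ne_zero (NeZero.ne N)
  have h1 : (Units.mk0 ζ hne) ^ a = (Units.mk0 ζ hne) ^ b ↔ ζ ^ a = ζ ^ b := by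
    rw [Units.ext_iff]; simp
  rw [← h1, _root_.pow_eq_pow_iff_modEq, ← orderOf_units, Units.val_mk0, ← hζ.eq_orderOf]

/-- Existence of Frobenius elements. -/
lemma exists_frobAt (Q : Ideal (𝓞 M)) [Q.IsPrime] (hQ0 : Q ≠ ⊥) :
    ∃ φ : M ≃ₐ[K] M, IsArithFrobAt (𝓞 K) φ Q := by
  haveI : FiniteDimensional K M := Module.Finite.of_restrictScalars_finite ℚ K M
  haveI : Finite (𝓞 M ⧸ Q) := Ideal.finiteQuotientOfFreeOfNeBot Q hQ0
  exact IsArithFrobAt.exists_of_isInvariant (𝓞 K) (M ≃ₐ[K] M) Q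

/-- The cyclotomic character of a Frobenius at a prime not dividing `N` is the norm of the prime
below. -/
lemma autToPow_of_isArithFrobAt {Q : Ideal (𝓞 M)} [Q.IsPrime] (hNQ : (N : 𝓞 M) ∉ Q)
    {φ : M ≃ₐ[K] M} (hφ : IsArithFrobAt (𝓞 K) φ Q) :
    ((hζ.autToPow K φ : (ZMod N)ˣ) : ZMod N) = (Nat.card (𝓞 K ⧸ Q.under (𝓞 K)) : ZMod N) := by
  have e1 : ((hζ.toInteger : 𝓞 M) : M) = ζ := hζ.coe_toInteger
  have h1 : hζ.toInteger ^ N = 1 := by
    apply NumberField.RingOfIntegers.ext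
    change ((hζ.toInteger : 𝓞 M) : M) ^ N = 1
    rw [e1, hζ.pow_eq_one]
  have h3 := AlgHom.IsArithFrobAt.apply_of_pow_eq_one hφ h1 hNQ
  have h4 : φ ζ = ζ ^ Nat.card (𝓞 K ⧸ Q.under (𝓞 K)) := by
    have h5 := congrArg (fun x : 𝓞 M => (x : M)) h3
    calc φ ζ = φ ((hζ.toInteger : 𝓞 M) : M) := by rw [e1]
      _ = (((MulSemiringAction.toAlgHom (𝓞 K) (𝓞 M) φ) hζ.toInteger : 𝓞 M) : M) := rfl
      _ = ((hζ.toInteger ^ Nat.card (𝓞 K ⧸ Q.under (𝓞 K)) : 𝓞 M) : M) := h5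
      _ = ((hζ.toInteger : 𝓞 M) : M) ^ Nat.card (𝓞 K ⧸ Q.under (𝓞 K)) := rfl
      _ = ζ ^ Nat.card (𝓞 K ⧸ Q.under (𝓞 K)) := by rw [e1]
  rw [← hζ.autToPow_spec K φ, pow_eq_pow_iff_modEq hζ,
    ← ZMod.natCast_eq_natCast_iff, ZMod.natCast_zmod_val] at h4
  exact h4

include hζ in
/-- `K(ζ_N)/K` is unramified (trivial inertia) at the primes not dividing `N`. -/
lemma inertia_trivial [IsCyclotomicExtension {N} K M]
    {Q : Ideal (𝓞 M)} [Q.IsPrime] (hQ0 : Q ≠ ⊥) (hNQ : (N : 𝓞 M) ∉ Q) (σ : M ≃ₐ[K] M)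
    (hσ : ∀ x : 𝓞 M, σ • x - x ∈ Q) : σ = 1 := by
  apply hζ.autToPow_injective K
  rw [map_one]
  obtain ⟨φ, hφ⟩ := exists_frobAt (K := K) Q hQ0
  have hσφ : IsArithFrobAt (𝓞 K) (σ * φ) Q := by
    intro x
    have h1 := hσ (φ • x)
    have h2 := hφ x
    have h3 : (MulSemiringAction.toAlgHom (𝓞 K) (𝓞 M) (σ * φ)) x -
        x ^ Nat.card (𝓞 K ⧸ Q.under (𝓞 K)) =
        (σ • (φ • x) - φ • x) + (φ • x - x ^ Nat.card (𝓞 K ⧸ Q.under (𝓞 K))) := by
      rw [sub_add_sub_cancel]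
      rfl
    rw [h3]
    exact Q.add_mem h1 h2
  have h4 := autToPow_of_isArithFrobAt hζ hNQ hφ
  have h5 := autToPow_of_isArithFrobAt hζ hNQ hσφ
  have h6 : hζ.autToPow K (σ * φ) = hζ.autToPow K φ := Units.ext (h5.trans h4.symm)
  rw [map_mul] at h6
  exact mul_eq_right.mp h6

include hζ in
/-- At a prime `Q ∤ N` of `K(ζ_N)`, the decomposition group is generated by any Frobenius. -/
lemma mem_zpowers_frob [IsCyclotomicExtension {N} K M]
    {Q : Ideal (𝓞 M)} [Q.IsPrime] (hQ0 : Q ≠ ⊥) (hNQ : (N : 𝓞 M) ∉ Q)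
    {φ : M ≃ₐ[K] M} (hφ : IsArithFrobAt (𝓞 K) φ Q) {δ : M ≃ₐ[K] M} (hδ : δ • Q = Q) :
    δ ∈ Subgroup.zpowers φ :=
  mem_zpowers_of_smul_eq hQ0 (inertia_trivial hζ hQ0 hNQ) hφ hδ

end cyclo

section lift

variable {K K₁ M : Type} [Field K] [NumberField K] [Field K₁] [NumberField K₁] [Field M]
  [NumberField M] [Algebra K K₁] [Algebra K M] [Algebra K₁ M] [IsScalarTower K K₁ M]
  [IsGalois K K₁] [IsGalois K M]

lemma algebraMap_restrict_smul (τ : M ≃ₐ[K] M) (x : 𝓞 K₁) :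
    algebraMap (𝓞 K₁) (𝓞 M) (AlgEquiv.restrictNormalHom K₁ τ • x) =
      τ • algebraMap (𝓞 K₁) (𝓞 M) x := by
  apply NumberField.RingOfIntegers.ext
  exact AlgEquiv.restrictNormal_commutes τ K₁ (x : K₁)

omit [IsGalois K K₁] [IsGalois K M] in
lemma restrictScalars_smul_ideal (g : M ≃ₐ[K₁] M) (I : Ideal (𝓞 M)) :
    (g.restrictScalars K) • I = g • I := by
  ext x
  rw [Ideal.mem_pointwise_smul_iff_inv_smul_mem, Ideal.mem_pointwise_smul_iff_inv_smul_mem]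
  rfl

/-- An element of the decomposition group of `Q ∩ K₁` in `Gal(K₁/K)` lifts to an element of the
decomposition group of `Q` in `Gal(M/K)`. -/
theorem exists_lift_stabilizer (Q : Ideal (𝓞 M)) [Q.IsPrime] (σ₁ : K₁ ≃ₐ[K] K₁)
    (hσ₁ : ∀ x ∈ Q.under (𝓞 K₁), σ₁ • x ∈ Q.under (𝓞 K₁)) :
    ∃ τ : M ≃ₐ[K] M, τ • Q = Q ∧ AlgEquiv.restrictNormalHom K₁ τ = σ₁ := by
  haveI : FiniteDimensional K K₁ := Module.Finite.of_restrictScalars_finite ℚ K K₁
  haveI : FiniteDimensional K M := Module.Finite.of_restrictScalars_finite ℚ K M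
  haveI : FiniteDimensional K₁ M := Module.Finite.of_restrictScalars_finite ℚ K₁ M
  haveI : IsGalois K₁ M := IsGalois.tower_top_of_isGalois K K₁ M
  -- two-sided stability
  have hpow : ∀ k : ℕ, ∀ x ∈ Q.under (𝓞 K₁), σ₁ ^ k • x ∈ Q.under (𝓞 K₁) := by
    intro k
    induction k with
    | zero => intro x hx; simpa using hx
    | succ k ih =>
      intro x hx
      rw [pow_succ', mul_smul]
      exact hσ₁ _ (ih x hx)
  have hinv : ∀ x ∈ Q.under (𝓞 K₁), σ₁⁻¹ • x ∈ Q.under (𝓞 K₁) := by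
    intro x hx
    have h1 : σ₁⁻¹ = σ₁ ^ (orderOf σ₁ - 1) := by
      rw [inv_eq_iff_mul_eq_one, ← pow_succ', Nat.sub_add_cancel (orderOf_pos σ₁),
        pow_orderOf_eq_one]
    rw [h1]
    exact hpow _ x hx
  have hiff : ∀ x : 𝓞 K₁, σ₁⁻¹ • x ∈ Q.under (𝓞 K₁) ↔ x ∈ Q.under (𝓞 K₁) := by
    intro x
    refine ⟨fun h => ?_, hinv x⟩
    have := hσ₁ _ h
    rwa [smul_inv_smul] at this
  -- a lift
  obtain ⟨τ₀, hτ₀⟩ := AlgEquiv.restrictNormalHom_surjective M σ₁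
  haveI hQ' : (τ₀ • Q).IsPrime := Ideal.IsPrime.smul _
  have hunder : (τ₀ • Q).under (𝓞 K₁) = Q.under (𝓞 K₁) := by
    ext x
    rw [← hiff x, Ideal.under_def, Ideal.mem_comap, Ideal.mem_pointwise_smul_iff_inv_smul_mem,
      Ideal.under_def, Ideal.mem_comap, ← hτ₀, ← map_inv, algebraMap_restrict_smul]
  obtain ⟨g, hg⟩ := Algebra.IsInvariant.exists_smul_of_under_eq (𝓞 K₁) (𝓞 M) (M ≃ₐ[K₁] M)
    (τ₀ • Q) Q hunder
  refine ⟨g.restrictScalars K * τ₀, ?_, ?_⟩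
  · rw [mul_smul, restrictScalars_smul_ideal, ← hg]
  · rw [map_mul, hτ₀]
    have h1 : AlgEquiv.restrictNormalHom K₁ (g.restrictScalars K) = 1 := by
      ext x
      apply (algebraMap K₁ M).injective
      have h2 := AlgEquiv.restrictNormal_commutes (g.restrictScalars K) K₁ x
      exact h2.trans (g.commutes x)
    rw [h1, one_mul]

end lift

end Fermat.Agent.CFT.CYC
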