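/-
CFT global part (G0.1), helper7: places in extensions.  For a finite Galois extension `L/K` of
number fields with group `G`: `ℚ_ℓ ⊗ L` as an algebra over `ℚ_ℓ ⊗ K` (invariant ring of `G`),
the place below a place, the action of `G` on the places, transitivity on the fibres, decomposition
groups and their identification with the local Galois groups.
-/
import Mathlib
import Fermat.Agent.CFT.Global.Places_helper3
import Fermat.Agent.CFT.Global.G01_helper7_Structure
import Fermat.Agent.CFT.Global.G01_helper7_Invariants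

set_option autoImplicit false
set_option linter.unusedSectionVars false
set_option linter.style.haveILetI false

open scoped TensorProduct NumberField Pointwise

namespace Fermat.Agent.CFT

namespace SemiLocal

section RelAlgebra

variable (ℓ : ℕ) [Fact ℓ.Prime] (K L : Type*) [Field K] [CharZero K] [Field L] [CharZero L]
  [Algebra K L]

/-- `ℚ_ℓ ⊗ L` as an algebra over `ℚ_ℓ ⊗ K` (a `def`; scoped instance in
`Fermat.Agent.CFT.SemiLocalRel`). -/
@[reducible] noncomputable def relAlgebra : Algebra (SemiLocal ℓ K) (SemiLocal ℓ L) :=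
  (map ℓ (algebraMap K L)).toRingHom.toAlgebra

end RelAlgebra

end SemiLocal

namespace SemiLocalRel

attribute [scoped instance] Fermat.Agent.CFT.SemiLocal.relAlgebra

end SemiLocalRel

open scoped SemiLocalRel

namespace SemiLocal

section RelInstances

variable (ℓ : ℕ) [Fact ℓ.Prime] (K L : Type*) [Field K] [CharZero K] [Field L] [CharZero L]
  [Algebra K L]

theorem algebraMap_rel_apply (x : SemiLocal ℓ K) :
    algebraMap (SemiLocal ℓ K) (SemiLocal ℓ L) x = map ℓ (algebraMap K L) x := rfl

instance isScalarTower_rel : IsScalarTower ℚ_[ℓ] (SemiLocal ℓ K) (SemiLocal ℓ L) :=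
  IsScalarTower.of_algebraMap_eq fun a => by
    rw [algebraMap_rel_apply, AlgHom.commutes]

instance smulCommClass_rel : SMulCommClass (L ≃ₐ[K] L) (SemiLocal ℓ K) (SemiLocal ℓ L) where
  smul_comm σ a b := by
    rw [Algebra.smul_def, Algebra.smul_def, smul_mul', algebraMap_rel_apply]
    congr 1
    rw [smul_def, map_map]
    congr 2
    ext z
    simp

instance isInvariant_rel [FiniteDimensional K L] [IsGalois K L] :
    Algebra.IsInvariant (SemiLocal ℓ K) (SemiLocal ℓ L) (L ≃ₐ[K] L) where
  isInvariant _ hb := (mem_range_map_iff_fixed ℓ K L).mpr hb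

instance isIntegral_rel [FiniteDimensional K L] [IsGalois K L] :
    Algebra.IsIntegral (SemiLocal ℓ K) (SemiLocal ℓ L) :=
  Algebra.IsInvariant.isIntegral (SemiLocal ℓ K) (SemiLocal ℓ L) (L ≃ₐ[K] L)

theorem algebraMap_rel_injective :
    Function.Injective (algebraMap (SemiLocal ℓ K) (SemiLocal ℓ L)) :=
  map_injective ℓ (algebraMap K L)

end RelInstances

end SemiLocal

namespace Place

section Action

variable {ℓ : ℕ} [Fact ℓ.Prime] {F : Type*} [Field F] [CharZero F]
  {G : Type*} [Group G] [MulSemiringAction G F]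

/-- a group acting on `F` acts on the places of `F` over `ℓ`. -/
noncomputable instance mulAction : MulAction G (Place ℓ F) where
  smul σ W := ⟨σ • W.asIdeal, by
    rw [Ideal.pointwise_smul_eq_comap]
    exact Ideal.comap_isMaximal_of_equiv _⟩
  one_smul W := MaximalSpectrum.ext (one_smul G W.asIdeal)
  mul_smul σ τ W := MaximalSpectrum.ext (mul_smul σ τ W.asIdeal)

@[simp] theorem smul_asIdeal (σ : G) (W : Place ℓ F) : (σ • W).asIdeal = σ • W.asIdeal := rfl

theorem mem_smul_iff (σ : G) (W : Place ℓ F) (x : SemiLocal ℓ F) :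
    x ∈ (σ • W).asIdeal ↔ σ⁻¹ • x ∈ W.asIdeal := by
  rw [smul_asIdeal, Ideal.mem_pointwise_smul_iff_inv_smul_mem]

theorem smul_eq_iff (σ : G) (W : Place ℓ F) : σ • W = W ↔ σ • W.asIdeal = W.asIdeal :=
  ⟨fun h => congrArg MaximalSpectrum.asIdeal h, fun h => MaximalSpectrum.ext h⟩

theorem stabilizer_eq (W : Place ℓ F) :
    MulAction.stabilizer G W = MulAction.stabilizer G W.asIdeal := by
  ext σ
  simp only [MulAction.mem_stabilizer_iff]
  exact smul_eq_iff σ W

end Action

section Under

variable {ℓ : ℕ} [Fact ℓ.Prime] {K L : Type*} [Field K] [NumberField K] [Field L] [CharZero L]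
  [Algebra K L]

/-- the place of `K` below a place of `L`. -/
noncomputable def under (W : Place ℓ L) : Place ℓ K :=
  ⟨W.asIdeal.comap (algebraMap (SemiLocal ℓ K) (SemiLocal ℓ L)),
    haveI : (W.asIdeal.comap (algebraMap (SemiLocal ℓ K) (SemiLocal ℓ L))).IsPrime :=
      Ideal.comap_isPrime _ _
    IsArtinianRing.isMaximal_of_isPrime _⟩

theorem under_asIdeal (W : Place ℓ L) :
    W.under.asIdeal = W.asIdeal.comap (algebraMap (SemiLocal ℓ K) (SemiLocal ℓ L)) := rfl

theorem mem_under_iff (W : Place ℓ L) (x : SemiLocal ℓ K) :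
    x ∈ (W.under (K := K)).asIdeal ↔ SemiLocal.map ℓ (algebraMap K L) x ∈ W.asIdeal := Iff.rfl

instance liesOver_under (W : Place ℓ L) : W.asIdeal.LiesOver (W.under (K := K)).asIdeal := ⟨rfl⟩

theorem under_smul (σ : L ≃ₐ[K] L) (W : Place ℓ L) : (σ • W).under (K := K) = W.under := by
  apply MaximalSpectrum.ext
  ext x
  rw [mem_under_iff, mem_under_iff, mem_smul_iff, SemiLocal.smul_map_algebraMap]

variable [FiniteDimensional K L] [IsGalois K L]

/-- every place of `K` lies below a place of `L`. -/
theorem under_surjective : Function.Surjective (under : Place ℓ L → Place ℓ K) := by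
  intro w
  obtain ⟨Q, hQ, hQw⟩ := Ideal.exists_ideal_over_maximal_of_isIntegral
    (S := SemiLocal ℓ L) w.asIdeal (by
      rw [(RingHom.injective_iff_ker_eq_bot _).mp (SemiLocal.algebraMap_rel_injective ℓ K L)]
      exact bot_le)
  exact ⟨⟨Q, hQ⟩, MaximalSpectrum.ext hQw⟩

/-- the Galois group acts transitively on the places above a given place. -/
theorem exists_smul_eq_of_under_eq {W W' : Place ℓ L} (h : W.under (K := K) = W'.under) :
    ∃ σ : L ≃ₐ[K] L, σ • W = W' := by
  haveI := W.isMaximal.isPrime
  haveI := W'.isMaximal.isPrime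
  obtain ⟨σ, hσ⟩ := Algebra.IsInvariant.exists_smul_of_under_eq (SemiLocal ℓ K) (SemiLocal ℓ L)
    (L ≃ₐ[K] L) W.asIdeal W'.asIdeal (congrArg MaximalSpectrum.asIdeal h)
  exact ⟨σ, MaximalSpectrum.ext hσ.symm⟩

theorem under_eq_iff_exists_smul {W W' : Place ℓ L} :
    W.under (K := K) = W'.under ↔ ∃ σ : L ≃ₐ[K] L, σ • W = W' :=
  ⟨exists_smul_eq_of_under_eq, fun ⟨σ, hσ⟩ => by rw [← hσ, under_smul]⟩

end Under

section Decomposition

variable {ℓ : ℕ} [Fact ℓ.Prime] {K L : Type*} [Field K] [NumberField K] [Field L] [CharZero L]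
  [Algebra K L]

instance charZero_completion {F : Type*} [Field F] [CharZero F] (w : Place ℓ F) :
    CharZero w.Completion :=
  charZero_of_injective_algebraMap (algebraMap ℚ_[ℓ] w.Completion).injective

theorem embed_injective {F : Type*} [Field F] [CharZero F] (w : Place ℓ F) :
    Function.Injective w.embed := w.embed.injective

theorem embed_apply {F : Type*} [Field F] [CharZero F] (w : Place ℓ F) (x : F) :
    w.embed x = w.proj (SemiLocal.of ℓ F x) := rfl

theorem proj_eq_zero_iff {F : Type*} [Field F] [CharZero F] (w : Place ℓ F) (x : SemiLocal ℓ F) :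
    w.proj x = 0 ↔ x ∈ w.asIdeal := Ideal.Quotient.eq_zero_iff_mem

noncomputable example (W : Place ℓ L) : Algebra (W.under (K := K)).Completion W.Completion :=
  inferInstance

theorem algebraMap_completion_proj (W : Place ℓ L) (x : SemiLocal ℓ K) :
    algebraMap (W.under (K := K)).Completion W.Completion ((W.under (K := K)).proj x) =
      W.proj (SemiLocal.map ℓ (algebraMap K L) x) := rfl

theorem algebraMap_completion_embed (W : Place ℓ L) (x : K) :
    algebraMap (W.under (K := K)).Completion W.Completion ((W.under (K := K)).embed x) =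
      W.embed (algebraMap K L x) := rfl

instance isScalarTower_completion (W : Place ℓ L) :
    IsScalarTower ℚ_[ℓ] (W.under (K := K)).Completion W.Completion :=
  IsScalarTower.of_algebraMap_eq fun a => by
    have h1 : algebraMap ℚ_[ℓ] (W.under (K := K)).Completion a =
        (W.under (K := K)).proj (algebraMap ℚ_[ℓ] (SemiLocal ℓ K) a) := rfl
    have h2 : algebraMap ℚ_[ℓ] W.Completion a = W.proj (algebraMap ℚ_[ℓ] (SemiLocal ℓ L) a) := rfl
    rw [h1, h2, algebraMap_completion_proj, (SemiLocal.map ℓ (algebraMap K L)).commutes a]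

/-- the action of the decomposition group of `W` on the completion `L_W` over `K_w`. -/
noncomputable def decompHom (W : Place ℓ L) :
    MulAction.stabilizer (L ≃ₐ[K] L) W →*
      (W.Completion ≃ₐ[(W.under (K := K)).Completion] W.Completion) :=
  (Ideal.Quotient.stabilizerHom W.asIdeal (W.under (K := K)).asIdeal (L ≃ₐ[K] L)).comp
    (MulEquiv.subgroupCongr (stabilizer_eq W)).toMonoidHom

theorem decompHom_proj (W : Place ℓ L) (σ : MulAction.stabilizer (L ≃ₐ[K] L) W)
    (x : SemiLocal ℓ L) :
    decompHom (K := K) W σ (W.proj x) = W.proj ((σ : L ≃ₐ[K] L) • x) := rfl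

theorem decompHom_embed (W : Place ℓ L) (σ : MulAction.stabilizer (L ≃ₐ[K] L) W) (x : L) :
    decompHom (K := K) W σ (W.embed x) = W.embed ((σ : L ≃ₐ[K] L) x) := rfl

theorem decompHom_injective (W : Place ℓ L) : Function.Injective (decompHom (K := K) W) := by
  rw [injective_iff_map_eq_one]
  intro σ hσ
  apply Subtype.ext
  ext x
  have h := decompHom_embed W σ x
  rw [hσ, AlgEquiv.one_apply] at h
  exact (W.embed_injective h).symm

variable [FiniteDimensional K L] [IsGalois K L]

theorem decompHom_surjective (W : Place ℓ L) : Function.Surjective (decompHom (K := K) W) := by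
  haveI := W.isMaximal.isPrime
  intro τ
  obtain ⟨σ, hσ⟩ := Ideal.Quotient.stabilizerHom_surjective (L ≃ₐ[K] L)
    (W.under (K := K)).asIdeal W.asIdeal τ
  exact ⟨(MulEquiv.subgroupCongr (stabilizer_eq W)).symm σ, by
    rw [decompHom, MonoidHom.comp_apply]
    simpa using hσ⟩

/-- the decomposition group of `W` is the Galois group of `L_W / K_w`. -/
noncomputable def decompEquiv (W : Place ℓ L) :
    MulAction.stabilizer (L ≃ₐ[K] L) W ≃*
      (W.Completion ≃ₐ[(W.under (K := K)).Completion] W.Completion) :=
  MulEquiv.ofBijective (decompHom W) ⟨decompHom_injective W, decompHom_surjective W⟩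

@[simp] theorem decompEquiv_apply (W : Place ℓ L) (σ : MulAction.stabilizer (L ≃ₐ[K] L) W) :
    decompEquiv (K := K) W σ = decompHom W σ := rfl

instance isGalois_completion (W : Place ℓ L) :
    IsGalois (W.under (K := K)).Completion W.Completion :=
  haveI : Normal (W.under (K := K)).Completion W.Completion :=
    Ideal.Quotient.normal (L ≃ₐ[K] L) (W.under (K := K)).asIdeal W.asIdeal
  { }

instance finiteDimensional_completion (W : Place ℓ L) :
    FiniteDimensional (W.under (K := K)).Completion W.Completion :=
  Ideal.Quotient.finite_of_isInvariant (L ≃ₐ[K] L) (W.under (K := K)).asIdeal W.asIdeal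

/-- the local degree is the order of the decomposition group. -/
theorem card_stabilizer_eq_finrank (W : Place ℓ L) :
    Nat.card (MulAction.stabilizer (L ≃ₐ[K] L) W) =
      Module.finrank (W.under (K := K)).Completion W.Completion := by
  rw [Nat.card_congr (decompEquiv (K := K) W).toEquiv, IsGalois.card_aut_eq_finrank]

end Decomposition

end Place

end Fermat.Agent.CFT
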