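/-
CFT global part (G0.1), helper7, part D: transport of completions along the Galois action,
the local-to-semi-local norm criterion, the semi-local norm formula, counting of places in a
fibre, and the dichotomy split/nonsplit in prime degree.
-/
import Mathlib
import Fermat.Agent.CFT.Global.G01_helper7_Places

set_option autoImplicit false
set_option linter.unusedSectionVars false
set_option linter.style.haveILetI false

open scoped TensorProduct NumberField Pointwise

namespace Fermat.Agent.CFT

open scoped SemiLocalRel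

namespace Place

section Transport

variable {ℓ : ℕ} [Fact ℓ.Prime] {F : Type*} [Field F] [CharZero F]
  {G : Type*} [Group G] [MulSemiringAction G F]

/-- the action of `σ` on `ℚ_ℓ ⊗ F` as a `ℚ_ℓ`-algebra automorphism. -/
noncomputable def _root_.Fermat.Agent.CFT.SemiLocal.smulAlgEquiv (σ : G) :
    SemiLocal ℓ F ≃ₐ[ℚ_[ℓ]] SemiLocal ℓ F :=
  SemiLocal.mapEquiv ℓ (MulSemiringAction.toRingEquiv G F σ)

@[simp] theorem _root_.Fermat.Agent.CFT.SemiLocal.smulAlgEquiv_apply (σ : G) (x : SemiLocal ℓ F) :
    SemiLocal.smulAlgEquiv (ℓ := ℓ) σ x = σ • x := rfl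

theorem smul_asIdeal_eq_map (σ : G) (W : Place ℓ F) :
    (σ • W).asIdeal = W.asIdeal.map (SemiLocal.smulAlgEquiv (ℓ := ℓ) (F := F) σ) := rfl

/-- `σ` induces an isomorphism from the completion at `W` to the completion at `σ • W`. -/
noncomputable def smulEquiv (σ : G) {W W' : Place ℓ F} (h : σ • W = W') :
    W.Completion ≃ₐ[ℚ_[ℓ]] W'.Completion :=
  Ideal.quotientEquivAlg W.asIdeal W'.asIdeal (SemiLocal.smulAlgEquiv (ℓ := ℓ) (F := F) σ)
    (by rw [← h]; exact smul_asIdeal_eq_map σ W)

theorem smulEquiv_proj (σ : G) {W W' : Place ℓ F} (h : σ • W = W') (x : SemiLocal ℓ F) :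
    smulEquiv σ h (W.proj x) = W'.proj (σ • x) := rfl

theorem proj_smul_eq_iff (σ : G) {W W' : Place ℓ F} (h : σ • W = W') (x y : SemiLocal ℓ F) :
    W'.proj (σ • x) = W'.proj (σ • y) ↔ W.proj x = W.proj y := by
  rw [← smulEquiv_proj σ h, ← smulEquiv_proj σ h, (smulEquiv σ h).injective.eq_iff]

end Transport

section LocalToSemiLocal

variable {ℓ : ℕ} [Fact ℓ.Prime] {K L : Type*} [Field K] [NumberField K] [Field L] [NumberField L]
  [Algebra K L] [FiniteDimensional K L] [IsGalois K L]

/-- the product over the decomposition group of `W`, seen in the completion at `W`, is the local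
norm. -/
theorem proj_prod_stabilizer (W : Place ℓ L) (y : SemiLocal ℓ L)
    [Fintype (MulAction.stabilizer (L ≃ₐ[K] L) W)] :
    W.proj (∏ δ : MulAction.stabilizer (L ≃ₐ[K] L) W, (δ : L ≃ₐ[K] L) • y) =
      algebraMap (W.under (K := K)).Completion W.Completion
        (Algebra.norm (W.under (K := K)).Completion (W.proj y)) := by
  rw [Algebra.norm_eq_prod_automorphisms, map_prod]
  exact Fintype.prod_equiv (decompEquiv (K := K) W).toEquiv
    (fun δ => W.proj ((δ : L ≃ₐ[K] L) • y)) (fun τ => τ (W.proj y)) (fun δ => rfl)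

/-- a product over the group of a function which is `1` off a subgroup. -/
theorem prod_eq_prod_subgroup {G M : Type*} [Group G] [Fintype G] [CommMonoid M]
    (D : Subgroup G) [Fintype D] (g : G → M) (hg : ∀ σ, σ ∉ D → g σ = 1) :
    ∏ σ : G, g σ = ∏ δ : D, g δ := by
  classical
  rw [← Finset.prod_filter_of_ne (p := fun σ => σ ∈ D)
    (fun σ _ h => by by_contra h'; exact h (hg σ h'))]
  exact Finset.prod_subtype _ (fun σ => by simp) g

/-- LOCAL-TO-SEMI-LOCAL, one place: if `y` is supported at `W` (component `1` at the other places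
of `L`) and `b` is supported at `w = W.under` with `b_w = N_{L_W/K_w}(y_W)`, then the Galois
product of `y` is `b`. -/
theorem prod_smul_eq_map_of_supported (W : Place ℓ L) (y : SemiLocal ℓ L) (b : SemiLocal ℓ K)
    (hy : ∀ W' : Place ℓ L, W' ≠ W → W'.proj y = 1)
    (hb : ∀ w' : Place ℓ K, w' ≠ W.under → w'.proj b = 1)
    (hN : (W.under (K := K)).proj b = Algebra.norm (W.under (K := K)).Completion (W.proj y)) :
    ∏ σ : L ≃ₐ[K] L, σ • y = SemiLocal.map ℓ (algebraMap K L) b := by
  classical
  apply SemiLocal.ext_proj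
  intro W''
  rw [map_prod]
  -- the trivial factors
  have h1 : ∀ σ : L ≃ₐ[K] L, σ⁻¹ • W'' ≠ W → W''.proj (σ • y) = 1 := by
    intro σ hσ
    have h2 : σ • (σ⁻¹ • W'') = W'' := smul_inv_smul σ W''
    have h3 := (proj_smul_eq_iff σ h2 y 1).mpr (by rw [hy _ hσ, map_one])
    rwa [smul_one, map_one] at h3
  by_cases hu : W''.under (K := K) = W.under
  · obtain ⟨σ₀, hσ₀⟩ := exists_smul_eq_of_under_eq hu.symm
    rw [← Equiv.prod_comp (Equiv.mulLeft σ₀)]
    rw [prod_eq_prod_subgroup (MulAction.stabilizer (L ≃ₐ[K] L) W)]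
    · simp only [Equiv.coe_mulLeft, mul_smul]
      rw [← map_prod, ← Finset.smul_prod', ← SemiLocal.smul_map_algebraMap ℓ K L σ₀ b,
        proj_smul_eq_iff σ₀ hσ₀, proj_prod_stabilizer, ← hN, algebraMap_completion_proj]
    · intro σ hσ
      apply h1
      intro h
      apply hσ
      rw [MulAction.mem_stabilizer_iff]
      have : (σ₀ * σ) • W = W'' := by
        rw [← h, Equiv.coe_mulLeft, smul_inv_smul]
      rw [mul_smul] at this
      rw [← hσ₀] at this
      exact smul_left_cancel σ₀ this
  · rw [Finset.prod_eq_one]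
    · have h4 := algebraMap_completion_proj (K := K) W'' b
      rw [← h4, hb _ hu, map_one]
    · intro σ _
      apply h1
      intro h
      apply hu
      rw [← h, under_smul]

/-- the unit version of `prod_smul_eq_map_of_supported`. -/
theorem prod_smul_units_eq_unitsMap_of_supported (W : Place ℓ L) (y : (SemiLocal ℓ L)ˣ)
    (b : (SemiLocal ℓ K)ˣ)
    (hy : ∀ W' : Place ℓ L, W' ≠ W → W'.unitsProj y = 1)
    (hb : ∀ w' : Place ℓ K, w' ≠ W.under → w'.unitsProj b = 1)
    (hN : (((W.under (K := K)).unitsProj b : (W.under (K := K)).Completionˣ) :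
        (W.under (K := K)).Completion) =
      Algebra.norm (W.under (K := K)).Completion ((W.unitsProj y : W.Completionˣ) : W.Completion)) :
    ∏ σ : L ≃ₐ[K] L, σ • y = SemiLocal.unitsMap ℓ (algebraMap K L) b := by
  apply Units.ext
  rw [Units.coe_prod, SemiLocal.coe_unitsMap]
  simp only [SemiLocal.coe_smul_units]
  exact prod_smul_eq_map_of_supported W (y : SemiLocal ℓ L) (b : SemiLocal ℓ K)
    (fun W' h => congrArg Units.val (hy W' h)) (fun w' h => congrArg Units.val (hb w' h)) hN

/-- a unit of `ℚ_ℓ ⊗ F` with prescribed component at one place and `1` at the others. -/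
theorem exists_unitsProj_eq_single {F : Type*} [Field F] [NumberField F] (W : Place ℓ F)
    (z : W.Completionˣ) :
    ∃ x : (SemiLocal ℓ F)ˣ, W.unitsProj x = z ∧ ∀ W' : Place ℓ F, W' ≠ W → W'.unitsProj x = 1 := by
  haveI : DecidableEq (Place ℓ F) := Classical.decEq _
  obtain ⟨x, hx⟩ := SemiLocal.exists_unitsProj_eq ℓ F
    (fun W' => if h : W' = W then (by subst h; exact z) else 1)
  refine ⟨x, ?_, ?_⟩
  · rw [hx W, dif_pos rfl]
  · intro W' h
    rw [hx W', dif_neg h]

/-- the units of the valuation ring of the completion, as a subgroup of the units of the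
completion. -/
noncomputable def integerUnits {F : Type*} [Field F] [CharZero F] (w : Place ℓ F) :
    Subgroup w.Completionˣ := w.integers.toSubmonoid.units

theorem mem_integerUnits_iff {F : Type*} [Field F] [CharZero F] (w : Place ℓ F)
    (z : w.Completionˣ) : z ∈ w.integerUnits ↔
      (z : w.Completion) ∈ w.integers ∧ ((z⁻¹ : w.Completionˣ) : w.Completion) ∈ w.integers :=
  Submonoid.mem_units_iff _ _

theorem _root_.Fermat.Agent.CFT.SemiLocal.mem_unitGroup_iff_forall {F : Type*} [Field F]
    [NumberField F] {x : (SemiLocal ℓ F)ˣ} :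
    x ∈ SemiLocal.unitGroup ℓ F ↔ ∀ w : Place ℓ F, w.unitsProj x ∈ w.integerUnits := by
  rw [SemiLocal.mem_unitGroup_iff_proj]
  exact forall_congr' fun w => (mem_integerUnits_iff w _).symm

/-- LOCAL-TO-SEMI-LOCAL NORM CRITERION, general form: if at every place `w` of `K` the component
`b_w` is the norm of some `z ∈ S W` for one place `W` above `w`, then `b` is the Galois product
of a unit `y` of `ℚ_ℓ ⊗ L` all of whose components lie in `S`. -/
theorem exists_prod_smul_eq_unitsMap_of_subgroup (S : ∀ W : Place ℓ L, Subgroup W.Completionˣ)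
    (b : (SemiLocal ℓ K)ˣ)
    (h : ∀ w : Place ℓ K, ∃ W : Place ℓ L, W.under = w ∧ ∃ z : W.Completionˣ, z ∈ S W ∧
      (((W.under (K := K)).unitsProj b : (W.under (K := K)).Completionˣ) :
        (W.under (K := K)).Completion) =
      Algebra.norm (W.under (K := K)).Completion (z : W.Completion)) :
    ∃ y : (SemiLocal ℓ L)ˣ, (∀ W : Place ℓ L, W.unitsProj y ∈ S W) ∧
      ∏ σ : L ≃ₐ[K] L, σ • y = SemiLocal.unitsMap ℓ (algebraMap K L) b := by
  classical
  letI : Fintype (Place ℓ K) := Fintype.ofFinite _
  choose W hW z hz hN using h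
  choose yw hyw1 hyw2 using fun w => exists_unitsProj_eq_single (W w) (z w)
  choose bw hbw1 hbw2 using fun w : Place ℓ K => exists_unitsProj_eq_single w (w.unitsProj b)
  refine ⟨∏ w, yw w, ?_, ?_⟩
  · intro W'
    rw [map_prod]
    refine Subgroup.prod_mem _ fun w _ => ?_
    by_cases hw : W' = W w
    · subst hw
      rw [hyw1]
      exact hz w
    · rw [hyw2 w W' hw]
      exact one_mem _
  · have hb : b = ∏ w, bw w := by
      apply SemiLocal.units_ext_proj
      intro w'
      rw [map_prod, Finset.prod_eq_single w' (fun w _ hw => hbw2 w w' (Ne.symm hw))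
        (fun h => absurd (Finset.mem_univ _) h), hbw1]
    rw [hb, map_prod]
    simp only [Finset.smul_prod']
    rw [Finset.prod_comm]
    refine Finset.prod_congr rfl fun w _ => ?_
    apply prod_smul_units_eq_unitsMap_of_supported (W w) (yw w) (bw w) (hyw2 w)
    · intro w' hw'
      rw [hW w] at hw'
      exact hbw2 w w' hw'
    · rw [hyw1, ← hN w]
      have := hW w
      have h2 : ((W w).under (K := K)).unitsProj (bw ((W w).under (K := K))) =
          ((W w).under (K := K)).unitsProj b := hbw1 _
      rw [← h2]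
      congr 3
      · exact (hW w).symm

/-- LOCAL-TO-SEMI-LOCAL NORM CRITERION: if at every place `w` of `K` the component `b_w` is a
local norm from ONE place `W` above `w`, then `b` is a semi-local norm (this is
`IsSemiLocalNorm K L ℓ b` of helper3's interface, unfolded). -/
theorem exists_prod_smul_eq_unitsMap (b : (SemiLocal ℓ K)ˣ)
    (h : ∀ w : Place ℓ K, ∃ W : Place ℓ L, W.under = w ∧ ∃ z : W.Completion,
      (W.under (K := K)).proj (b : SemiLocal ℓ K) =
        Algebra.norm (W.under (K := K)).Completion z) :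
    ∃ y : (SemiLocal ℓ L)ˣ,
      ∏ σ : L ≃ₐ[K] L, σ • y = SemiLocal.unitsMap ℓ (algebraMap K L) b := by
  obtain ⟨y, -, hy⟩ := exists_prod_smul_eq_unitsMap_of_subgroup (fun _ => ⊤) b (by
    intro w
    obtain ⟨W, hW, z, hz⟩ := h w
    have hz0 : z ≠ 0 := by
      intro h0
      rw [h0, Algebra.norm_zero] at hz
      exact ((W.under (K := K)).unitsProj b).ne_zero hz
    exact ⟨W, hW, Units.mk0 z hz0, Subgroup.mem_top _, hz⟩)
  exact ⟨y, hy⟩

/-- LOCAL-TO-SEMI-LOCAL NORM CRITERION, integral form: if at every place `w` of `K` the component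
`b_w` is the norm of a unit of the valuation ring of `L_W` for one place `W` above `w`, then `b`
is the Galois product of an element of `unitGroup ℓ L`. -/
theorem exists_mem_unitGroup_prod_smul_eq_unitsMap (b : (SemiLocal ℓ K)ˣ)
    (h : ∀ w : Place ℓ K, ∃ W : Place ℓ L, W.under = w ∧ ∃ z : W.Completionˣ,
      z ∈ W.integerUnits ∧
      (W.under (K := K)).proj (b : SemiLocal ℓ K) =
        Algebra.norm (W.under (K := K)).Completion (z : W.Completion)) :
    ∃ y : (SemiLocal ℓ L)ˣ, y ∈ SemiLocal.unitGroup ℓ L ∧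
      ∏ σ : L ≃ₐ[K] L, σ • y = SemiLocal.unitsMap ℓ (algebraMap K L) b := by
  obtain ⟨y, hy1, hy⟩ := exists_prod_smul_eq_unitsMap_of_subgroup (fun W => W.integerUnits) b h
  exact ⟨y, SemiLocal.mem_unitGroup_iff_forall.mpr hy1, hy⟩

end LocalToSemiLocal

section Counting

variable {ℓ : ℕ} [Fact ℓ.Prime] {K L : Type*} [Field K] [NumberField K] [Field L] [NumberField L]
  [Algebra K L] [FiniteDimensional K L] [IsGalois K L]

/-- the places above `W.under` form the orbit of `W`. -/
theorem fibre_eq_orbit (W : Place ℓ L) :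
    {W' : Place ℓ L | W'.under (K := K) = W.under} = MulAction.orbit (L ≃ₐ[K] L) W := by
  ext W'
  rw [MulAction.mem_orbit_iff]
  change W'.under (K := K) = W.under ↔ _
  rw [eq_comm, under_eq_iff_exists_smul]

/-- `(number of places above w) * (local degree) = [L : K]`. -/
theorem card_fibre_mul_finrank (W : Place ℓ L) :
    Nat.card {W' : Place ℓ L // W'.under (K := K) = W.under} *
      Module.finrank (W.under (K := K)).Completion W.Completion = Module.finrank K L := by
  rw [← card_stabilizer_eq_finrank, ← IsGalois.card_aut_eq_finrank K L]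
  have h1 : Nat.card {W' : Place ℓ L // W'.under (K := K) = W.under} =
      Nat.card (MulAction.orbit (L ≃ₐ[K] L) W) :=
    Nat.card_congr (Equiv.setCongr (fibre_eq_orbit W))
  rw [h1, Nat.card_congr (MulAction.orbitEquivQuotientStabilizer _ W),
    Subgroup.card_eq_card_quotient_mul_card_subgroup (MulAction.stabilizer (L ≃ₐ[K] L) W)]

/-- the local degree divides the global degree. -/
theorem finrank_completion_dvd (W : Place ℓ L) :
    Module.finrank (W.under (K := K)).Completion W.Completion ∣ Module.finrank K L :=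
  Dvd.intro_left _ (card_fibre_mul_finrank W)

/-- conjugate places have conjugate decomposition groups. -/
theorem stabilizer_smul (σ : L ≃ₐ[K] L) (W : Place ℓ L) :
    MulAction.stabilizer (L ≃ₐ[K] L) (σ • W) =
      (MulAction.stabilizer (L ≃ₐ[K] L) W).map (MulAut.conj σ).toMonoidHom :=
  MulAction.stabilizer_smul_eq_stabilizer_map_conj σ W

theorem stabilizer_eq_bot_of_under_eq {W W' : Place ℓ L} (h : W.under (K := K) = W'.under)
    (hW : MulAction.stabilizer (L ≃ₐ[K] L) W = ⊥) :
    MulAction.stabilizer (L ≃ₐ[K] L) W' = ⊥ := by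
  obtain ⟨σ, rfl⟩ := exists_smul_eq_of_under_eq h
  rw [stabilizer_smul, hW, Subgroup.map_bot]

theorem stabilizer_eq_top_of_under_eq {W W' : Place ℓ L} (h : W.under (K := K) = W'.under)
    (hW : MulAction.stabilizer (L ≃ₐ[K] L) W = ⊤) :
    MulAction.stabilizer (L ≃ₐ[K] L) W' = ⊤ := by
  obtain ⟨σ, rfl⟩ := exists_smul_eq_of_under_eq h
  have : σ ∈ MulAction.stabilizer (L ≃ₐ[K] L) W := by rw [hW]; exact Subgroup.mem_top _
  rw [MulAction.mem_stabilizer_iff.mp this, hW]

/-- NONSPLIT: if the decomposition group is everything, `W` is the only place above `W.under`. -/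
theorem eq_of_under_eq_of_stabilizer_eq_top {W W' : Place ℓ L}
    (h : W.under (K := K) = W'.under)
    (hW : MulAction.stabilizer (L ≃ₐ[K] L) W = ⊤) : W' = W := by
  obtain ⟨σ, rfl⟩ := exists_smul_eq_of_under_eq h
  have : σ ∈ MulAction.stabilizer (L ≃ₐ[K] L) W := by rw [hW]; exact Subgroup.mem_top _
  exact MulAction.mem_stabilizer_iff.mp this

theorem finrank_completion_eq_of_stabilizer_eq_top (W : Place ℓ L)
    (hW : MulAction.stabilizer (L ≃ₐ[K] L) W = ⊤) :
    Module.finrank (W.under (K := K)).Completion W.Completion = Module.finrank K L := by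
  rw [← card_stabilizer_eq_finrank, hW, Subgroup.card_top, IsGalois.card_aut_eq_finrank]

/-- SPLIT: if the decomposition group is trivial, the local degree is `1`. -/
theorem finrank_completion_eq_one_of_stabilizer_eq_bot (W : Place ℓ L)
    (hW : MulAction.stabilizer (L ≃ₐ[K] L) W = ⊥) :
    Module.finrank (W.under (K := K)).Completion W.Completion = 1 := by
  rw [← card_stabilizer_eq_finrank, hW, Subgroup.card_bot]

theorem algebraMap_completion_bijective_of_stabilizer_eq_bot (W : Place ℓ L)
    (hW : MulAction.stabilizer (L ≃ₐ[K] L) W = ⊥) :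
    Function.Bijective (algebraMap (W.under (K := K)).Completion W.Completion) := by
  refine ⟨(algebraMap (W.under (K := K)).Completion W.Completion).injective, ?_⟩
  have h1 := finrank_completion_eq_one_of_stabilizer_eq_bot (K := K) W hW
  have h2 : (⊥ : Subalgebra (W.under (K := K)).Completion W.Completion) = ⊤ :=
    Subalgebra.bot_eq_top_of_finrank_eq_one h1
  intro z
  have : z ∈ (⊥ : Subalgebra (W.under (K := K)).Completion W.Completion) := by
    rw [h2]; exact Algebra.mem_top
  exact Algebra.mem_bot.mp this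

/-- SPLIT: the fibre has `[L : K]` elements. -/
theorem card_fibre_of_stabilizer_eq_bot (W : Place ℓ L)
    (hW : MulAction.stabilizer (L ≃ₐ[K] L) W = ⊥) :
    Nat.card {W' : Place ℓ L // W'.under (K := K) = W.under} = Module.finrank K L := by
  have := card_fibre_mul_finrank (K := K) W
  rwa [finrank_completion_eq_one_of_stabilizer_eq_bot W hW, mul_one] at this

/-- SPLIT: `G` acts simply transitively on the fibre. -/
theorem smul_bijective_of_stabilizer_eq_bot (W : Place ℓ L)
    (hW : MulAction.stabilizer (L ≃ₐ[K] L) W = ⊥) :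
    Function.Bijective (fun σ : L ≃ₐ[K] L =>
      (⟨σ • W, under_smul σ W⟩ : {W' : Place ℓ L // W'.under (K := K) = W.under})) := by
  constructor
  · intro σ τ h
    have h1 : σ • W = τ • W := congrArg Subtype.val h
    have h2 : τ⁻¹ * σ ∈ MulAction.stabilizer (L ≃ₐ[K] L) W := by
      rw [MulAction.mem_stabilizer_iff, mul_smul, h1, inv_smul_smul]
    rw [hW, Subgroup.mem_bot, inv_mul_eq_one] at h2
    exact h2.symm
  · rintro ⟨W', hW'⟩
    obtain ⟨σ, hσ⟩ := exists_smul_eq_of_under_eq hW'.symm
    exact ⟨σ, Subtype.ext hσ⟩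

/-- PRIME DEGREE DICHOTOMY: the decomposition group is trivial or everything. -/
theorem stabilizer_eq_bot_or_eq_top {p : ℕ} (hp : p.Prime) (hcard : Nat.card (L ≃ₐ[K] L) = p)
    (W : Place ℓ L) :
    MulAction.stabilizer (L ≃ₐ[K] L) W = ⊥ ∨ MulAction.stabilizer (L ≃ₐ[K] L) W = ⊤ := by
  haveI : Fact (Nat.card (L ≃ₐ[K] L)).Prime := ⟨by rw [hcard]; exact hp⟩
  exact Subgroup.eq_bot_or_eq_top_of_prime_card _

end Counting

section SplitNonsplit

variable {ℓ : ℕ} [Fact ℓ.Prime] {K L : Type*} [Field K] [NumberField K] [Field L] [NumberField L]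
  [Algebra K L] [FiniteDimensional K L] [IsGalois K L]

instance isScalarTower_padicInt_completion (W : Place ℓ L) :
    IsScalarTower ℤ_[ℓ] (W.under (K := K)).Completion W.Completion :=
  IsScalarTower.of_algebraMap_eq fun a => by
    rw [IsScalarTower.algebraMap_apply ℤ_[ℓ] ℚ_[ℓ] W.Completion,
      IsScalarTower.algebraMap_apply ℚ_[ℓ] (W.under (K := K)).Completion W.Completion,
      ← IsScalarTower.algebraMap_apply ℤ_[ℓ] ℚ_[ℓ] (W.under (K := K)).Completion]

/-- integrality is insensitive to the extension `L_W / K_w`. -/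
theorem algebraMap_mem_integers_iff (W : Place ℓ L) (a : (W.under (K := K)).Completion) :
    algebraMap (W.under (K := K)).Completion W.Completion a ∈ W.integers ↔
      a ∈ (W.under (K := K)).integers :=
  isIntegral_algebraMap_iff (algebraMap (W.under (K := K)).Completion W.Completion).injective

theorem map_mem_integerUnits_iff (W : Place ℓ L) (a : (W.under (K := K)).Completionˣ) :
    Units.map (algebraMap (W.under (K := K)).Completion W.Completion : _ →* _) a ∈ W.integerUnits ↔
      a ∈ (W.under (K := K)).integerUnits := by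
  rw [mem_integerUnits_iff, mem_integerUnits_iff, ← map_inv, Units.coe_map, Units.coe_map]
  exact and_congr (algebraMap_mem_integers_iff W _) (algebraMap_mem_integers_iff W _)

/-- SPLIT: if all places of `L` over `ℓ` have trivial decomposition group, every unit of
`ℚ_ℓ ⊗ K` is a semi-local norm; units of the maximal order are norms of units of the maximal
order. -/
theorem exists_prod_smul_eq_unitsMap_of_split
    (h : ∀ W : Place ℓ L, MulAction.stabilizer (L ≃ₐ[K] L) W = ⊥) (b : (SemiLocal ℓ K)ˣ) :
    ∃ y : (SemiLocal ℓ L)ˣ, (b ∈ SemiLocal.unitGroup ℓ K → y ∈ SemiLocal.unitGroup ℓ L) ∧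
      ∏ σ : L ≃ₐ[K] L, σ • y = SemiLocal.unitsMap ℓ (algebraMap K L) b := by
  classical
  have key : ∀ w : Place ℓ K, ∃ W : Place ℓ L, W.under = w ∧ ∃ z : W.Completionˣ,
      z ∈ (if b ∈ SemiLocal.unitGroup ℓ K then W.integerUnits else ⊤) ∧
      (((W.under (K := K)).unitsProj b : (W.under (K := K)).Completionˣ) :
        (W.under (K := K)).Completion) =
      Algebra.norm (W.under (K := K)).Completion (z : W.Completion) := by
    intro w
    obtain ⟨W, hW⟩ := under_surjective (K := K) (L := L) w
    refine ⟨W, hW, Units.map (algebraMap (W.under (K := K)).Completion W.Completion : _ →* _)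
      ((W.under (K := K)).unitsProj b), ?_, ?_⟩
    · split_ifs with hb
      · rw [map_mem_integerUnits_iff]
        exact SemiLocal.mem_unitGroup_iff_forall.mp hb _
      · exact Subgroup.mem_top _
    · rw [Units.coe_map]
      change _ = Algebra.norm _ (algebraMap _ _ _)
      rw [Algebra.norm_algebraMap, finrank_completion_eq_one_of_stabilizer_eq_bot W (h W), pow_one]
  obtain ⟨y, hy1, hy⟩ := exists_prod_smul_eq_unitsMap_of_subgroup
    (fun W => if b ∈ SemiLocal.unitGroup ℓ K then W.integerUnits else ⊤) b key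
  refine ⟨y, fun hb => ?_, hy⟩
  rw [SemiLocal.mem_unitGroup_iff_forall]
  intro W
  have := hy1 W
  rwa [if_pos hb] at this

/-- NONSPLIT: if the decomposition group of `W` is everything, the `W`-component of the Galois
product is the local norm. -/
theorem proj_prod_smul_of_stabilizer_eq_top (W : Place ℓ L)
    (hW : MulAction.stabilizer (L ≃ₐ[K] L) W = ⊤) (y : SemiLocal ℓ L) :
    W.proj (∏ σ : L ≃ₐ[K] L, σ • y) =
      algebraMap (W.under (K := K)).Completion W.Completion
        (Algebra.norm (W.under (K := K)).Completion (W.proj y)) := by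
  classical
  rw [← proj_prod_stabilizer, map_prod, map_prod]
  exact prod_eq_prod_subgroup (MulAction.stabilizer (L ≃ₐ[K] L) W) (fun σ => W.proj (σ • y))
    (fun σ hσ => absurd (by rw [hW]; exact Subgroup.mem_top σ) hσ)

theorem under_proj_eq_norm_of_stabilizer_eq_top (W : Place ℓ L)
    (hW : MulAction.stabilizer (L ≃ₐ[K] L) W = ⊤) (y : SemiLocal ℓ L) (x : SemiLocal ℓ K)
    (hx : SemiLocal.map ℓ (algebraMap K L) x = ∏ σ : L ≃ₐ[K] L, σ • y) :
    (W.under (K := K)).proj x = Algebra.norm (W.under (K := K)).Completion (W.proj y) := by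
  apply (algebraMap (W.under (K := K)).Completion W.Completion).injective
  rw [algebraMap_completion_proj, hx, proj_prod_smul_of_stabilizer_eq_top W hW]

/-- NONSPLIT: if the decomposition group of `W` is everything, `Gal(L/K) = Gal(L_W/K_w)`. -/
noncomputable def galEquivOfStabilizerEqTop (W : Place ℓ L)
    (hW : MulAction.stabilizer (L ≃ₐ[K] L) W = ⊤) :
    (L ≃ₐ[K] L) ≃* (W.Completion ≃ₐ[(W.under (K := K)).Completion] W.Completion) :=
  (Subgroup.topEquiv.symm.trans (MulEquiv.subgroupCongr hW.symm)).trans (decompEquiv W)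

theorem galEquivOfStabilizerEqTop_proj (W : Place ℓ L)
    (hW : MulAction.stabilizer (L ≃ₐ[K] L) W = ⊤) (σ : L ≃ₐ[K] L) (x : SemiLocal ℓ L) :
    galEquivOfStabilizerEqTop W hW σ (W.proj x) = W.proj (σ • x) := rfl

theorem galEquivOfStabilizerEqTop_embed (W : Place ℓ L)
    (hW : MulAction.stabilizer (L ≃ₐ[K] L) W = ⊤) (σ : L ≃ₐ[K] L) (x : L) :
    galEquivOfStabilizerEqTop W hW σ (W.embed x) = W.embed (σ x) := rfl

end SplitNonsplit

section Generation

variable {ℓ : ℕ} [Fact ℓ.Prime] {K L : Type*} [Field K] [NumberField K] [Field L] [CharZero L]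
  [Algebra K L]

/-- the completion `L_W` is generated over `K_w` by the image of `L`. -/
theorem adjoin_range_embed_eq_top (W : Place ℓ L) :
    Algebra.adjoin (W.under (K := K)).Completion (Set.range W.embed) = ⊤ := by
  rw [eq_top_iff]
  rintro z -
  obtain ⟨x, rfl⟩ := W.proj_surjective z
  induction x using TensorProduct.induction_on with
  | zero => rw [map_zero]; exact zero_mem _
  | tmul a l =>
    have h1 : (a ⊗ₜ[ℚ] l : SemiLocal ℓ L) =
        algebraMap ℚ_[ℓ] (SemiLocal ℓ L) a * SemiLocal.of ℓ L l := by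
      rw [Algebra.TensorProduct.algebraMap_apply, SemiLocal.of_apply,
        Algebra.TensorProduct.tmul_mul_tmul, mul_one, one_mul]
      rfl
    rw [h1, map_mul, AlgHom.commutes]
    refine mul_mem ?_ (Algebra.subset_adjoin ⟨l, rfl⟩)
    rw [IsScalarTower.algebraMap_apply ℚ_[ℓ] (W.under (K := K)).Completion W.Completion]
    exact Subalgebra.algebraMap_mem _ _
  | add x y hx hy => rw [map_add]; exact add_mem hx hy

/-- if `L = K[α]` then `L_W = K_w[α]`. -/
theorem adjoin_embed_eq_top (W : Place ℓ L) {α : L} (hα : Algebra.adjoin K {α} = ⊤) :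
    Algebra.adjoin (W.under (K := K)).Completion {W.embed α} = ⊤ := by
  rw [eq_top_iff, ← adjoin_range_embed_eq_top (K := K) W]
  apply Algebra.adjoin_le
  rintro _ ⟨l, rfl⟩
  have hl : l ∈ Algebra.adjoin K {α} := by rw [hα]; exact Algebra.mem_top
  induction hl using Algebra.adjoin_induction with
  | mem x hx =>
    rw [Set.mem_singleton_iff.mp hx]
    exact Algebra.subset_adjoin rfl
  | algebraMap k =>
    rw [← algebraMap_completion_embed]
    exact Subalgebra.algebraMap_mem _ _
  | add x y _ _ hx hy => rw [map_add]; exact add_mem hx hy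
  | mul x y _ _ hx hy => rw [map_mul]; exact mul_mem hx hy

/-- if `L = K(α)` (algebraic) then `L_W = K_w(α)`. -/
theorem intermediateField_adjoin_embed_eq_top [Algebra.IsAlgebraic K L] (W : Place ℓ L) {α : L}
    (hα : IntermediateField.adjoin K {α} = ⊤) :
    IntermediateField.adjoin (W.under (K := K)).Completion {W.embed α} = ⊤ := by
  have h1 : Algebra.adjoin K {α} = ⊤ := by
    rw [← IntermediateField.adjoin_toSubalgebra, hα, IntermediateField.top_toSubalgebra]
  have h2 := adjoin_embed_eq_top (K := K) W h1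
  rw [eq_top_iff]
  intro z _
  have : z ∈ Algebra.adjoin (W.under (K := K)).Completion {W.embed α} := by
    rw [h2]; exact Algebra.mem_top
  exact IntermediateField.algebra_adjoin_le_adjoin _ _ this

end Generation

section PrimeDegree

variable {ℓ : ℕ} [Fact ℓ.Prime] {K L : Type*} [Field K] [NumberField K] [Field L] [NumberField L]
  [Algebra K L] [FiniteDimensional K L] [IsGalois K L]

/-- PRIME DEGREE DICHOTOMY, summary: for `L/K` Galois of prime degree `p` and a place `W` of `L`,
either (SPLIT) `D_W = 1`, `K_w → L_W` is bijective, there are `p` places above `w = W.under` and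
`G` permutes them simply transitively; or (NONSPLIT) `D_W = G`, `[L_W : K_w] = p` and `W` is the
only place above `w`. -/
theorem split_or_nonsplit {p : ℕ} (hp : p.Prime) (hcard : Nat.card (L ≃ₐ[K] L) = p)
    (W : Place ℓ L) :
    (MulAction.stabilizer (L ≃ₐ[K] L) W = ⊥ ∧
      Function.Bijective (algebraMap (W.under (K := K)).Completion W.Completion) ∧
      Nat.card {W' : Place ℓ L // W'.under (K := K) = W.under} = p ∧
      Function.Bijective (fun σ : L ≃ₐ[K] L =>
        (⟨σ • W, under_smul σ W⟩ : {W' : Place ℓ L // W'.under (K := K) = W.under}))) ∨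
    (MulAction.stabilizer (L ≃ₐ[K] L) W = ⊤ ∧
      Module.finrank (W.under (K := K)).Completion W.Completion = p ∧
      ∀ W' : Place ℓ L, W'.under (K := K) = W.under → W' = W) := by
  have hp' : Module.finrank K L = p := by rw [← IsGalois.card_aut_eq_finrank, hcard]
  rcases stabilizer_eq_bot_or_eq_top hp hcard W with h | h
  · left
    exact ⟨h, algebraMap_completion_bijective_of_stabilizer_eq_bot W h,
      by rw [card_fibre_of_stabilizer_eq_bot W h, hp'], smul_bijective_of_stabilizer_eq_bot W h⟩
  · right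
    exact ⟨h, by rw [finrank_completion_eq_of_stabilizer_eq_top W h, hp'],
      fun W' hW' => eq_of_under_eq_of_stabilizer_eq_top hW'.symm h⟩

end PrimeDegree

end Place

end Fermat.Agent.CFT
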