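/-
CFT global part (G0.1), helper7, part E: the completions `W.Completion / (W.under).Completion` as an
instance of the `p`-adic bridge (L6), unit norms at unramified places, and the per-place forms of
the local-to-semi-local norm criterion.
-/
import Mathlib
import Fermat.Agent.CFT.Global.G01_helper7_Dichotomy
import Fermat.Agent.CFT.Local.L6_helper7

set_option autoImplicit false
set_option linter.unusedSectionVars false
set_option linter.style.haveILetI false

open scoped TensorProduct NumberField Pointwise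

namespace Fermat.Agent.CFT

open scoped SemiLocalRel
open scoped Fermat.Agent.CFT.Local.PadicBridge

open Local

namespace Place

section UnitsOfIntegers

variable {ℓ : ℕ} [Fact ℓ.Prime] {F : Type*} [Field F] [CharZero F]

/-- a unit of the completion lying in `integerUnits` as a unit of the valuation ring. -/
noncomputable def toIntegersUnit (w : Place ℓ F) (a : w.Completionˣ) (ha : a ∈ w.integerUnits) :
    (w.integers)ˣ :=
  ⟨⟨(a : w.Completion), ((mem_integerUnits_iff w a).mp ha).1⟩,
    ⟨((a⁻¹ : w.Completionˣ) : w.Completion), ((mem_integerUnits_iff w a).mp ha).2⟩,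
    Subtype.ext (by simp), Subtype.ext (by simp)⟩

@[simp] theorem coe_toIntegersUnit (w : Place ℓ F) (a : w.Completionˣ) (ha : a ∈ w.integerUnits) :
    ((w.toIntegersUnit a ha : w.integers) : w.Completion) = a := rfl

/-- a unit of the valuation ring as a unit of the completion. -/
noncomputable def ofIntegersUnit (w : Place ℓ F) : (w.integers)ˣ →* w.Completionˣ :=
  Units.map (w.integers.val : w.integers →* w.Completion)

@[simp] theorem coe_ofIntegersUnit (w : Place ℓ F) (u : (w.integers)ˣ) :
    ((w.ofIntegersUnit u : w.Completionˣ) : w.Completion) = ((u : w.integers) : w.Completion) := rfl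

theorem ofIntegersUnit_mem (w : Place ℓ F) (u : (w.integers)ˣ) :
    w.ofIntegersUnit u ∈ w.integerUnits := by
  rw [mem_integerUnits_iff]
  refine ⟨(u : w.integers).2, ?_⟩
  rw [← map_inv]
  exact ((u⁻¹ : (w.integers)ˣ) : w.integers).2

end UnitsOfIntegers

section Unramified

variable {ℓ : ℕ} [Fact ℓ.Prime] {K L : Type*} [Field K] [NumberField K] [Field L] [NumberField L]
  [Algebra K L] [FiniteDimensional K L] [IsGalois K L]

/-- UNRAMIFIED PLACE: every unit of the valuation ring of `K_w` is the norm of a unit of the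
valuation ring of `L_W` ((L1c) through the bridge (L6)). -/
theorem exists_integerUnits_norm_eq (W : Place ℓ L)
    (h : ramIdx (W.under (K := K)).integers W.integers = 1)
    (a : (W.under (K := K)).Completionˣ) (ha : a ∈ (W.under (K := K)).integerUnits) :
    ∃ z : W.Completionˣ, z ∈ W.integerUnits ∧
      Algebra.norm (W.under (K := K)).Completion (z : W.Completion) = a := by
  obtain ⟨u, hu⟩ := padicInts_norm_units_surjective' ℓ (W.under (K := K)).Completion W.Completion h
    ((W.under (K := K)).toIntegersUnit a ha)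
  exact ⟨W.ofIntegersUnit u, W.ofIntegersUnit_mem u, hu⟩

/-- if all places of `L` over `ℓ` are unramified over `K`, every unit of the maximal order of
`ℚ_ℓ ⊗ K` is the Galois product of a unit of the maximal order of `ℚ_ℓ ⊗ L`. -/
theorem exists_mem_unitGroup_prod_smul_eq_unitsMap_of_unramified
    (h : ∀ W : Place ℓ L, ramIdx (W.under (K := K)).integers W.integers = 1)
    (b : (SemiLocal ℓ K)ˣ) (hb : b ∈ SemiLocal.unitGroup ℓ K) :
    ∃ y : (SemiLocal ℓ L)ˣ, y ∈ SemiLocal.unitGroup ℓ L ∧
      ∏ σ : L ≃ₐ[K] L, σ • y = SemiLocal.unitsMap ℓ (algebraMap K L) b := by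
  apply exists_mem_unitGroup_prod_smul_eq_unitsMap
  intro w
  obtain ⟨W, hW⟩ := under_surjective (K := K) (L := L) w
  obtain ⟨z, hz, hN⟩ := exists_integerUnits_norm_eq W (h W) ((W.under (K := K)).unitsProj b)
    (SemiLocal.mem_unitGroup_iff_forall.mp hb _)
  exact ⟨W, hW, z, hz, hN.symm⟩

end Unramified

section PerPlace

variable {ℓ : ℕ} [Fact ℓ.Prime] {K L : Type*} [Field K] [NumberField K] [Field L] [NumberField L]
  [Algebra K L] [FiniteDimensional K L] [IsGalois K L]

/-- PER-PLACE CRITERION: a unit `b` of `ℚ_ℓ ⊗ K` supported at the single place `W₀.under`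
(component `1` at the other places over `ℓ`) whose component there is a local norm from `L_{W₀}`
is a semi-local norm. -/
theorem exists_prod_smul_eq_unitsMap_of_supported (W₀ : Place ℓ L) (b : (SemiLocal ℓ K)ˣ)
    (hb : ∀ w : Place ℓ K, w ≠ W₀.under → w.unitsProj b = 1)
    (z : W₀.Completion)
    (hz : (W₀.under (K := K)).proj (b : SemiLocal ℓ K) =
      Algebra.norm (W₀.under (K := K)).Completion z) :
    ∃ y : (SemiLocal ℓ L)ˣ,
      ∏ σ : L ≃ₐ[K] L, σ • y = SemiLocal.unitsMap ℓ (algebraMap K L) b := by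
  apply exists_prod_smul_eq_unitsMap
  intro w
  by_cases hw : w = W₀.under
  · exact ⟨W₀, hw.symm, z, hz⟩
  · obtain ⟨W, hW⟩ := under_surjective (K := K) (L := L) w
    refine ⟨W, hW, 1, ?_⟩
    rw [map_one]
    have := hb _ (hW ▸ hw)
    exact congrArg Units.val this

/-- PER-PLACE CRITERION, integral form. -/
theorem exists_mem_unitGroup_prod_smul_eq_unitsMap_of_supported (W₀ : Place ℓ L)
    (b : (SemiLocal ℓ K)ˣ)
    (hb : ∀ w : Place ℓ K, w ≠ W₀.under → w.unitsProj b = 1)
    (z : W₀.Completionˣ) (hz1 : z ∈ W₀.integerUnits)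
    (hz : (W₀.under (K := K)).proj (b : SemiLocal ℓ K) =
      Algebra.norm (W₀.under (K := K)).Completion (z : W₀.Completion)) :
    ∃ y : (SemiLocal ℓ L)ˣ, y ∈ SemiLocal.unitGroup ℓ L ∧
      ∏ σ : L ≃ₐ[K] L, σ • y = SemiLocal.unitsMap ℓ (algebraMap K L) b := by
  apply exists_mem_unitGroup_prod_smul_eq_unitsMap
  intro w
  by_cases hw : w = W₀.under
  · exact ⟨W₀, hw.symm, z, hz1, hz⟩
  · obtain ⟨W, hW⟩ := under_surjective (K := K) (L := L) w
    refine ⟨W, hW, 1, one_mem _, ?_⟩
    rw [Units.val_one, map_one]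
    have := hb _ (hW ▸ hw)
    exact congrArg Units.val this

/-- (F2') SPLIT PLACE: if `W₀` has trivial decomposition group, every unit of `ℚ_ℓ ⊗ K` supported
at `W₀.under` is a semi-local norm (of a unit of the maximal order, if it is one itself). -/
theorem exists_prod_smul_eq_unitsMap_of_supported_split (W₀ : Place ℓ L)
    (hW₀ : MulAction.stabilizer (L ≃ₐ[K] L) W₀ = ⊥) (b : (SemiLocal ℓ K)ˣ)
    (hb : ∀ w : Place ℓ K, w ≠ W₀.under → w.unitsProj b = 1) :
    ∃ y : (SemiLocal ℓ L)ˣ, (b ∈ SemiLocal.unitGroup ℓ K → y ∈ SemiLocal.unitGroup ℓ L) ∧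
      ∏ σ : L ≃ₐ[K] L, σ • y = SemiLocal.unitsMap ℓ (algebraMap K L) b := by
  have hN : (W₀.under (K := K)).proj (b : SemiLocal ℓ K) =
      Algebra.norm (W₀.under (K := K)).Completion
        ((Units.map (algebraMap (W₀.under (K := K)).Completion W₀.Completion : _ →* _)
          ((W₀.under (K := K)).unitsProj b) : W₀.Completionˣ) : W₀.Completion) := by
    rw [Units.coe_map]
    change _ = Algebra.norm _ (algebraMap _ _ _)
    rw [Algebra.norm_algebraMap, finrank_completion_eq_one_of_stabilizer_eq_bot W₀ hW₀, pow_one]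
    rfl
  by_cases hbu : b ∈ SemiLocal.unitGroup ℓ K
  · obtain ⟨y, hy1, hy⟩ := exists_mem_unitGroup_prod_smul_eq_unitsMap_of_supported W₀ b hb _
      ((map_mem_integerUnits_iff W₀ _).mpr (SemiLocal.mem_unitGroup_iff_forall.mp hbu _)) hN
    exact ⟨y, fun _ => hy1, hy⟩
  · obtain ⟨y, hy⟩ := exists_prod_smul_eq_unitsMap_of_supported W₀ b hb _ hN
    exact ⟨y, fun h => absurd h hbu, hy⟩

/-- (F3') UNRAMIFIED PLACE: if `L_{W₀}/K_w` is unramified, every unit of the maximal order of
`ℚ_ℓ ⊗ K` supported at `W₀.under` is the Galois product of a unit of the maximal order of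
`ℚ_ℓ ⊗ L`. -/
theorem exists_mem_unitGroup_prod_smul_eq_unitsMap_of_supported_unramified (W₀ : Place ℓ L)
    (h : ramIdx (W₀.under (K := K)).integers W₀.integers = 1) (b : (SemiLocal ℓ K)ˣ)
    (hb : ∀ w : Place ℓ K, w ≠ W₀.under → w.unitsProj b = 1)
    (hbu : (W₀.under (K := K)).unitsProj b ∈ (W₀.under (K := K)).integerUnits) :
    ∃ y : (SemiLocal ℓ L)ˣ, y ∈ SemiLocal.unitGroup ℓ L ∧
      ∏ σ : L ≃ₐ[K] L, σ • y = SemiLocal.unitsMap ℓ (algebraMap K L) b := by
  obtain ⟨z, hz, hN⟩ := exists_integerUnits_norm_eq W₀ h _ hbu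
  exact exists_mem_unitGroup_prod_smul_eq_unitsMap_of_supported W₀ b hb z hz hN.symm

end PerPlace

end Place

end Fermat.Agent.CFT
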