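/-
CFT global part (G0.2), helper5: the prime of `𝓞 F` below a place `w` of `F` over `ℓ`
(a maximal ideal of `ℚ_ℓ ⊗ F`), and the comparison of the valuation of the completion `F_w`
with the `P`-adic valuation of `F`.
-/
import Mathlib
import Fermat.Agent.CFT.Global.Interface_helper3
import Fermat.Agent.CFT.Global.G01_helper7_Places
import Fermat.Agent.CFT.Local.L6_helper7

set_option autoImplicit false
set_option linter.unusedSectionVars false
set_option linter.style.haveILetI false

open scoped TensorProduct NumberField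
open IsLocalRing IsDedekindDomain

namespace Fermat.Agent.CFT

namespace Place

variable {ℓ : ℕ} [Fact ℓ.Prime] {F : Type} [Field F] [NumberField F] (w : Place ℓ F)

theorem embed_mem_integers (x : 𝓞 F) : w.embed (x : F) ∈ w.integers := by
  have h1 : IsIntegral ℤ (w.embed (x : F)) := (x.2 : IsIntegral ℤ (x : F)).map w.embed.toIntAlgHom
  exact h1.tower_top

/-- The embedding `𝓞 F → 𝓞_{F_w}`. -/
noncomputable def intEmbed : 𝓞 F →+* w.integers :=
  (w.embed.comp (algebraMap (𝓞 F) F)).codRestrict w.integers.toSubring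
    (fun x => w.embed_mem_integers x)

@[simp] theorem coe_intEmbed (x : 𝓞 F) : ((w.intEmbed x : w.integers) : w.Completion) =
    w.embed (x : F) := rfl

/-- The prime of `𝓞 F` below the place `w`. -/
noncomputable def toPrime : Ideal (𝓞 F) := (maximalIdeal w.integers).comap w.intEmbed

instance toPrime_isPrime : w.toPrime.IsPrime := Ideal.comap_isPrime _ _

theorem mem_toPrime_iff {x : 𝓞 F} : x ∈ w.toPrime ↔ w.intEmbed x ∈ maximalIdeal w.integers :=
  Iff.rfl

theorem natCast_mem_toPrime : ((ℓ : ℕ) : 𝓞 F) ∈ w.toPrime := by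
  rw [mem_toPrime_iff, map_natCast]
  have h1 : ((ℓ : ℕ) : w.integers) = algebraMap ℤ_[ℓ] w.integers ((ℓ : ℕ) : ℤ_[ℓ]) := by
    rw [map_natCast]
  rw [h1, mem_maximalIdeal, mem_nonunits_iff]
  intro hu
  have h2 : IsUnit ((ℓ : ℕ) : ℤ_[ℓ]) := (isUnit_map_iff (algebraMap ℤ_[ℓ] w.integers) _).mp hu
  exact PadicInt.prime_p.not_unit h2

theorem toPrime_ne_bot : w.toPrime ≠ ⊥ := by
  intro h
  have h1 := w.natCast_mem_toPrime
  rw [h, Ideal.mem_bot] at h1
  have : (ℓ : ℕ) = 0 := by exact_mod_cast h1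
  exact (Fact.out : ℓ.Prime).ne_zero this

/-- The place `w` as a height one prime of `𝓞 F`. -/
noncomputable def toHeightOne : HeightOneSpectrum (𝓞 F) :=
  ⟨w.toPrime, w.toPrime_isPrime, w.toPrime_ne_bot⟩

theorem ordAt_toPrime (x : F) :
    ordAt F w.toPrime x = -(WithZero.log (w.toHeightOne.valuation F x)) := by
  unfold ordAt
  rw [dif_pos ⟨w.toPrime_isPrime, w.toPrime_ne_bot⟩]
  rfl

theorem embed_ne_zero {x : F} (hx : x ≠ 0) : w.embed x ≠ 0 :=
  (map_ne_zero_iff _ w.embed_injective).mpr hx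

theorem embed_coe (a : 𝓞 F) :
    w.embed (a : F) = algebraMap w.integers w.Completion (w.intEmbed a) := rfl

/-- The valuation of `F_w` on integers of `F`. -/
theorem ord_embed_coe_nonneg (a : 𝓞 F) : 0 ≤ ord w.integers (w.embed (a : F)) := by
  rw [embed_coe]
  exact ord_algebraMap_nonneg _ _

theorem ord_embed_coe_pos_iff {a : 𝓞 F} (ha : a ≠ 0) :
    0 < ord w.integers (w.embed (a : F)) ↔ a ∈ w.toPrime := by
  rw [embed_coe, ord_algebraMap_pos_iff, mem_toPrime_iff]
  intro h
  have h1 : w.embed (a : F) = 0 := by rw [embed_coe, h, map_zero]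
  have h2 : (a : F) = 0 := (map_eq_zero_iff _ w.embed_injective).mp h1
  exact ha (by exact_mod_cast h2)

theorem ord_embed_coe_eq_zero {a : 𝓞 F} (ha : a ∉ w.toPrime) :
    ord w.integers (w.embed (a : F)) = 0 := by
  have ha0 : a ≠ 0 := fun h => ha (h ▸ w.toPrime.zero_mem)
  have h1 := w.ord_embed_coe_nonneg a
  have h2 := (w.ord_embed_coe_pos_iff ha0).not.mpr ha
  omega

theorem ord_embed_mul {x y : F} (hx : x ≠ 0) (hy : y ≠ 0) :
    ord w.integers (w.embed (x * y)) = ord w.integers (w.embed x) + ord w.integers (w.embed y) := by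
  rw [map_mul, ord_mul _ (w.embed_ne_zero hx) (w.embed_ne_zero hy)]

theorem ord_embed_zpow (x : F) (n : ℤ) :
    ord w.integers (w.embed (x ^ n)) = n * ord w.integers (w.embed x) := by
  rw [map_zpow₀, ord_zpow]

/-- Elements of `F` which are units at `w.toPrime` are units of `F_w`. -/
theorem ord_embed_eq_zero_of_valuation_eq_one {y : F} (hy : w.toHeightOne.valuation F y = 1) :
    ord w.integers (w.embed y) = 0 := by
  have hy0 : y ≠ 0 := by
    rintro rfl
    simp at hy
  obtain ⟨n, d, hnd⟩ := w.toHeightOne.exists_primeCompl_mul_eq_of_integer y hy.le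
  have hd : (d : 𝓞 F) ∉ w.toPrime := d.2
  have hd0 : ((d : 𝓞 F) : F) ≠ 0 := by
    intro h
    apply hd
    have : (d : 𝓞 F) = 0 := by exact_mod_cast h
    rw [this]; exact w.toPrime.zero_mem
  have hn : n ∉ w.toPrime := by
    have h1 : w.toHeightOne.valuation F (algebraMap (𝓞 F) F n) = 1 := by
      rw [← hnd, map_mul, hy, one_mul]
      exact (HeightOneSpectrum.valuation_eq_one_iff_notMem _).mpr hd
    exact (HeightOneSpectrum.valuation_eq_one_iff_notMem _).mp h1
  have h2 := w.ord_embed_mul hy0 hd0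
  have hnd' : y * ((d : 𝓞 F) : F) = (n : F) := hnd
  rw [hnd', w.ord_embed_coe_eq_zero hn, w.ord_embed_coe_eq_zero hd] at h2
  omega

/-- **Comparison of valuations**: the normalised valuation of `F_w` restricted to `F` is a
positive multiple of the `P`-adic valuation, `P = w.toPrime`. -/
theorem exists_ord_embed_eq : ∃ e : ℕ, 0 < e ∧ ∀ x : F, x ≠ 0 →
    ord w.integers (w.embed x) = e * ordAt F w.toPrime x := by
  obtain ⟨π, hπ'⟩ := w.toHeightOne.valuation_exists_uniformizer' F
  have hπ : w.toHeightOne.valuation F (algebraMap (𝓞 F) F π) = WithZero.exp (-1) := hπ'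
  have hπ0 : π ≠ 0 := by
    rintro rfl
    rw [map_zero, map_zero] at hπ
    exact WithZero.exp_ne_zero hπ.symm
  have hπF : (π : F) ≠ 0 := by exact_mod_cast hπ0
  have hπP : π ∈ w.toPrime := by
    have : w.toHeightOne.valuation F (algebraMap (𝓞 F) F π) < 1 := by
      rw [hπ, ← WithZero.exp_zero, WithZero.exp_lt_exp]
      norm_num
    exact (HeightOneSpectrum.valuation_lt_one_iff_mem _ _).mp this
  have he : 0 < ord w.integers (w.embed (π : F)) := (w.ord_embed_coe_pos_iff hπ0).mpr hπP
  refine ⟨(ord w.integers (w.embed (π : F))).toNat, by omega, ?_⟩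
  intro x hx
  rw [Int.toNat_of_nonneg he.le, w.ordAt_toPrime]
  set n : ℤ := -(WithZero.log (w.toHeightOne.valuation F x)) with hn
  have hvx : w.toHeightOne.valuation F x = WithZero.exp (-n) := by
    rw [hn, neg_neg, WithZero.exp_log ((Valuation.ne_zero_iff _).mpr hx)]
  have hy : w.toHeightOne.valuation F (x * (π : F) ^ (-n)) = 1 := by
    rw [map_mul, map_zpow₀, hvx]
    have : w.toHeightOne.valuation F (π : F) = WithZero.exp (-1) := hπ
    rw [this, ← WithZero.exp_zsmul, ← WithZero.exp_add]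
    simp
  have h1 := w.ord_embed_eq_zero_of_valuation_eq_one hy
  rw [w.ord_embed_mul hx (zpow_ne_zero _ hπF), w.ord_embed_zpow] at h1
  linarith

end Place

end Fermat.Agent.CFT
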