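/-
CFT global part (G0.2), helper5: compatibility of `Place.toPrime` with the Galois action on places
and with restriction of places to a subfield.
-/
import Mathlib
import Fermat.Agent.CFT.Global.G02_helper5_ToPrime
import Fermat.Agent.CFT.Global.G01_helper7_Places

set_option autoImplicit false
set_option linter.unusedSectionVars false
set_option linter.style.haveILetI false

open scoped TensorProduct NumberField Pointwise
open IsLocalRing IsDedekindDomain

namespace Fermat.Agent.CFT

namespace Place

section Criterion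

variable {ℓ : ℕ} [Fact ℓ.Prime] {F : Type} [Field F] [NumberField F] (w : Place ℓ F)

/-- An integer of `F` lies outside the prime below `w` iff it is a unit of `𝓞_{F_w}`. -/
theorem notMem_toPrime_iff {x : 𝓞 F} :
    x ∉ w.toPrime ↔ x ≠ 0 ∧ IsIntegral ℤ_[ℓ] (w.embed (x : F))⁻¹ := by
  rw [mem_toPrime_iff, mem_maximalIdeal, mem_nonunits_iff, not_not]
  constructor
  · intro hu
    obtain ⟨u, hu⟩ := hu
    have h1 : w.embed (x : F) * ((u⁻¹ : w.integersˣ) : w.integers) = 1 := by
      have := congrArg (fun z : w.integers => (z : w.Completion)) (u.mul_inv)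
      rw [hu] at this
      exact this
    have hne : w.embed (x : F) ≠ 0 := left_ne_zero_of_mul_eq_one h1
    refine ⟨?_, ?_⟩
    · rintro rfl
      exact hne (by simp)
    · rw [← eq_inv_of_mul_eq_one_right h1]
      exact ((u⁻¹ : w.integersˣ) : w.integers).2
  · rintro ⟨hx0, hint⟩
    have hne : w.embed (x : F) ≠ 0 := w.embed_ne_zero (by exact_mod_cast hx0)
    refine IsUnit.of_mul_eq_one (⟨(w.embed (x : F))⁻¹, hint⟩ : w.integers) ?_
    apply Subtype.ext
    show w.embed (x : F) * (w.embed (x : F))⁻¹ = 1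
    exact mul_inv_cancel₀ hne

end Criterion

section Action

variable {ℓ : ℕ} [Fact ℓ.Prime] {F : Type} [Field F] [NumberField F]
  {G : Type*} [Group G] [MulSemiringAction G F]

/-- `σ` induces an isomorphism of the completion at `W` onto the completion at `σ • W`; here
only as a homomorphism. -/
noncomputable def smulHom (σ : G) (W : Place ℓ F) :
    W.Completion →ₐ[ℚ_[ℓ]] (σ • W).Completion :=
  Ideal.quotientMapₐ (σ • W).asIdeal (SemiLocal.map ℓ (MulSemiringAction.toRingHom G F σ)) (by
    intro x hx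
    rw [Ideal.mem_comap, mem_smul_iff, ← SemiLocal.smul_def, inv_smul_smul]
    exact hx)

theorem smulHom_proj (σ : G) (W : Place ℓ F) (x : SemiLocal ℓ F) :
    smulHom σ W (W.proj x) = (σ • W).proj (σ • x) := rfl

theorem smulHom_embed (σ : G) (W : Place ℓ F) (x : F) :
    smulHom σ W (W.embed x) = (σ • W).embed (σ • x) := rfl

theorem smulHom_injective (σ : G) (W : Place ℓ F) : Function.Injective (smulHom σ W) :=
  (smulHom σ W).toRingHom.injective

/-- Integrality over `ℤ_ℓ` is preserved by `σ`. -/
theorem isIntegral_smulHom_iff (σ : G) (W : Place ℓ F) (z : W.Completion) :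
    IsIntegral ℤ_[ℓ] (smulHom σ W z) ↔ IsIntegral ℤ_[ℓ] z :=
  isIntegral_algHom_iff ((smulHom σ W).restrictScalars ℤ_[ℓ]) (smulHom_injective σ W)

end Action

section Galois

variable {ℓ : ℕ} [Fact ℓ.Prime] {K L : Type} [Field K] [Field L] [NumberField L] [Algebra K L]

/-- **Equivariance**: the prime below `σ • W` is `σ` applied to the prime below `W`. -/
theorem smul_mem_toPrime_smul_iff (σ : L ≃ₐ[K] L) (W : Place ℓ L) (x : 𝓞 L) :
    σ • x ∈ (σ • W).toPrime ↔ x ∈ W.toPrime := by
  rw [← not_iff_not, notMem_toPrime_iff, notMem_toPrime_iff]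
  have h1 : (σ • W).embed ((σ • x : 𝓞 L) : L) = smulHom σ W (W.embed (x : L)) := by
    rw [smulHom_embed]
    rfl
  rw [h1, ← map_inv₀, isIntegral_smulHom_iff, smul_ne_zero_iff_ne]

theorem mem_toPrime_smul_iff (σ : L ≃ₐ[K] L) (W : Place ℓ L) (x : 𝓞 L) :
    x ∈ (σ • W).toPrime ↔ σ⁻¹ • x ∈ W.toPrime := by
  rw [← smul_mem_toPrime_smul_iff σ W (σ⁻¹ • x), smul_inv_smul]

theorem toPrime_smul (σ : L ≃ₐ[K] L) (W : Place ℓ L) : (σ • W).toPrime = σ • W.toPrime := by
  ext x
  rw [mem_toPrime_smul_iff, Ideal.mem_pointwise_smul_iff_inv_smul_mem]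

end Galois

section Under

open scoped SemiLocalRel

variable {ℓ : ℕ} [Fact ℓ.Prime] {K L : Type} [Field K] [NumberField K] [Field L] [NumberField L]
  [Algebra K L]

/-- **Restriction**: the prime below the restriction of `W` to `K` is the contraction of the prime
below `W`. -/
theorem mem_toPrime_under_iff (W : Place ℓ L) (x : 𝓞 K) :
    x ∈ (W.under (K := K)).toPrime ↔ algebraMap (𝓞 K) (𝓞 L) x ∈ W.toPrime := by
  rw [← not_iff_not, notMem_toPrime_iff, notMem_toPrime_iff]
  have h1 : W.embed ((algebraMap (𝓞 K) (𝓞 L) x : 𝓞 L) : L) =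
      algebraMap (W.under (K := K)).Completion W.Completion
        ((W.under (K := K)).embed (x : K)) := by
    rw [algebraMap_completion_embed]
    rfl
  have h2 : ∀ z : (W.under (K := K)).Completion,
      IsIntegral ℤ_[ℓ] (algebraMap (W.under (K := K)).Completion W.Completion z) ↔
        IsIntegral ℤ_[ℓ] z := fun z =>
    isIntegral_algHom_iff
      ((IsScalarTower.toAlgHom ℚ_[ℓ] (W.under (K := K)).Completion W.Completion).restrictScalars
        ℤ_[ℓ]) (algebraMap (W.under (K := K)).Completion W.Completion).injective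
  rw [h1, ← map_inv₀ (algebraMap (W.under (K := K)).Completion W.Completion), h2]
  have h3 : algebraMap (𝓞 K) (𝓞 L) x ≠ 0 ↔ x ≠ 0 :=
    (map_ne_zero_iff _ (FaithfulSMul.algebraMap_injective (𝓞 K) (𝓞 L)))
  rw [h3]

theorem toPrime_under (W : Place ℓ L) :
    (W.under (K := K)).toPrime = W.toPrime.under (𝓞 K) := by
  ext x
  rw [mem_toPrime_under_iff, Ideal.under_def, Ideal.mem_comap]

end Under

end Place

end Fermat.Agent.CFT
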