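/-
CFT global part (G0.2), helper5: (T4) the unramified norm criterion.
-/
import Mathlib
import Fermat.Agent.CFT.Global.G02_helper5_Equivariant
import Fermat.Agent.CFT.Global.G02_helper5_Frobenius
import Fermat.Agent.CFT.Global.G01_helper7_Dichotomy
import Fermat.Agent.CFT.Local.UnramNorm_helper5
import Fermat.Agent.CFT.Local.L6_helper7

set_option autoImplicit false
set_option linter.unusedSectionVars false
set_option linter.style.haveILetI false

open scoped TensorProduct NumberField Pointwise
open IsLocalRing IsDedekindDomain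

namespace Fermat.Agent.CFT

open scoped SemiLocalRel Local.PadicBridge

section Unramified

variable {ℓ : ℕ} [Fact ℓ.Prime] {K L : Type} [Field K] [NumberField K] [Field L] [NumberField L]
  [Algebra K L] [IsGalois K L]

/-- The local inertia group at `W` injects into the inertia group of the prime below `W`: if the
latter is trivial, `L_W / K_w` is unramified. -/
theorem Place.ramIdx_eq_one_of_inertia_trivial (W : Place ℓ L)
    (hin : ∀ σ : L ≃ₐ[K] L, (∀ x : 𝓞 L, σ • x - x ∈ W.toPrime) → σ = 1) :
    Local.ramIdx (W.under (K := K)).integers W.integers = 1 := by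
  apply Local.ramIdx_eq_one_of_inertia_trivial (W.under (K := K)).integers
    (W.under (K := K)).Completion W.Completion W.integers
  intro τ hτ
  obtain ⟨σ, rfl⟩ := (Place.decompEquiv (K := K) W).surjective τ
  have h1 : (σ : L ≃ₐ[K] L) = 1 := by
    apply hin
    intro x
    rw [Place.mem_toPrime_iff, map_sub]
    have h2 := hτ (W.intEmbed x)
    have h3 : galRestrict (W.under (K := K)).integers (W.under (K := K)).Completion W.Completion
        W.integers (Place.decompEquiv (K := K) W σ) (W.intEmbed x) =
        W.intEmbed ((σ : L ≃ₐ[K] L) • x) := by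
      apply Subtype.ext
      have := algebraMap_galRestrict_apply (W.under (K := K)).integers
        (Place.decompEquiv (K := K) W σ) (W.intEmbed x) (B := W.integers)
      exact this
    rw [h3] at h2
    exact h2
  have h4 : σ = 1 := Subtype.ext h1
  rw [h4, map_one]

/-- **Local norms at an unramified place**: if the prime `Q` below `W` is unramified over `K` and
`Frob_Q ^ (ord_P b) = 1`, then `b` is a norm from `L_W`. -/
theorem Place.exists_norm_eq_embed (W : Place ℓ L) (b : Kˣ)
    (hin : ∀ σ : L ≃ₐ[K] L, (∀ x : 𝓞 L, σ • x - x ∈ W.toPrime) → σ = 1)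
    (hfrob : ∀ σ : L ≃ₐ[K] L, IsArithFrobAt (𝓞 K) σ W.toPrime →
      σ ^ (ordAt K (W.toPrime.under (𝓞 K)) (b : K)) = 1) :
    ∃ z : W.Completion,
      (W.under (K := K)).embed (b : K) = Algebra.norm (W.under (K := K)).Completion z := by
  have he := W.ramIdx_eq_one_of_inertia_trivial (K := K) hin
  haveI : Finite (𝓞 L ⧸ W.toPrime) := Ideal.finiteQuotientOfFreeOfNeBot _ W.toPrime_ne_bot
  obtain ⟨φ, hφ⟩ := IsArithFrobAt.exists_of_isInvariant (𝓞 K) (L ≃ₐ[K] L) W.toPrime
  have hm := hfrob φ hφ
  have hdvd := card_dvd_of_zpow_eq_one W.toPrime_ne_bot hin hφ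
    (MulAction.stabilizer (L ≃ₐ[K] L) W) (fun δ hδ => by
      rw [← Place.toPrime_smul, MulAction.mem_stabilizer_iff.mp hδ]) hm
  rw [Place.card_stabilizer_eq_finrank] at hdvd
  obtain ⟨e, -, hord⟩ := (W.under (K := K)).exists_ord_embed_eq
  have hb0 : (b : K) ≠ 0 := b.ne_zero
  have hdvd' : (Module.finrank (W.under (K := K)).Completion W.Completion : ℤ) ∣
      ord (W.under (K := K)).integers ((W.under (K := K)).embed (b : K)) := by
    rw [hord _ hb0, Place.toPrime_under]
    exact Dvd.dvd.mul_left hdvd _
  obtain ⟨y, -, hy⟩ := Local.exists_norm_eq_of_dvd_ord (W.under (K := K)).integers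
    (W.under (K := K)).Completion W.Completion W.integers he
    ((W.under (K := K)).embed_ne_zero hb0) hdvd'
  exact ⟨y, hy.symm⟩

/-- **(T4) The unramified norm criterion.** -/
theorem unramifiedNormCriterion : UnramifiedNormCriterion := by
  intro K L _ _ _ _ _ _ ℓ b h
  apply Place.exists_prod_smul_eq_unitsMap
  intro w
  obtain ⟨W, rfl⟩ := Place.under_surjective (ℓ := ℓ) (K := K) (L := L) w
  obtain ⟨h1, h2⟩ := h W.toPrime inferInstance W.natCast_mem_toPrime
  obtain ⟨z, hz⟩ := W.exists_norm_eq_embed b h1 h2
  exact ⟨W, rfl, z, hz⟩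

end Unramified

end Fermat.Agent.CFT
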