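/-
CFT global part (G0.2), helper5: (T4'') for almost all `ℓ`, every unit of the maximal order of
`ℚ_ℓ ⊗ K` is the norm of a unit of the maximal order of `ℚ_ℓ ⊗ L`.
-/
import Mathlib
import Fermat.Agent.CFT.Global.G02_helper5_Unram

set_option autoImplicit false
set_option linter.unusedSectionVars false
set_option linter.style.haveILetI false

open scoped TensorProduct NumberField Pointwise
open IsLocalRing IsDedekindDomain

namespace Fermat.Agent.CFT

section Ramified

variable (K L : Type) [Field K] [NumberField K] [Field L] [NumberField L] [Algebra K L]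
  [IsGalois K L]

/-- A rational prime in a prime ideal `Q` of `𝓞 L` divides the norm of every element of `Q`. -/
theorem natCast_dvd_norm_of_mem {L : Type} [Field L] [NumberField L] {Q : Ideal (𝓞 L)}
    (hQ : Q.IsPrime) {ℓ : ℕ} (hℓ : ℓ.Prime) (hℓQ : (ℓ : 𝓞 L) ∈ Q) {y : 𝓞 L} (hy : y ∈ Q) :
    (ℓ : ℤ) ∣ Algebra.norm ℤ y := by
  refine dvd_trans ?_ (Ideal.absNorm_dvd_norm_of_mem hy)
  rw [Int.natCast_dvd_natCast]
  by_contra hnd
  have hcop : Nat.Coprime ℓ (Ideal.absNorm Q) := (Nat.Prime.coprime_iff_not_dvd hℓ).mpr hnd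
  have h1 : ((Nat.gcd ℓ (Ideal.absNorm Q) : ℤ) : 𝓞 L) ∈ Q := by
    rw [Nat.gcd_eq_gcd_ab]
    push_cast
    exact Q.add_mem (Q.mul_mem_right _ hℓQ) (Q.mul_mem_right _ (Ideal.absNorm_mem Q))
  rw [hcop] at h1
  apply hQ.ne_top
  rw [Ideal.eq_top_iff_one]
  simpa using h1

/-- **Almost all primes are unramified**: there is a nonzero integer `D` such that for every
rational prime `ℓ ∤ D` all inertia groups of primes of `L` over `ℓ` in `Gal(L/K)` are trivial. -/
theorem exists_int_inertia_trivial : ∃ D : ℤ, D ≠ 0 ∧ ∀ (ℓ : ℕ), ℓ.Prime → ¬ (ℓ : ℤ) ∣ D →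
    ∀ Q : Ideal (𝓞 L), Q.IsPrime → (ℓ : 𝓞 L) ∈ Q →
      ∀ σ : L ≃ₐ[K] L, (∀ x : 𝓞 L, σ • x - x ∈ Q) → σ = 1 := by
  classical
  -- for every `σ ≠ 1` an integer moved by `σ`
  have hex : ∀ σ : L ≃ₐ[K] L, ∃ x : 𝓞 L, σ ≠ 1 → σ • x - x ≠ 0 := by
    intro σ
    by_cases hσ : σ = 1
    · exact ⟨0, fun h => absurd hσ h⟩
    · by_contra hcon
      push Not at hcon
      apply hσ
      ext y
      obtain ⟨a, b, hb, rfl⟩ := IsFractionRing.div_surjective (A := 𝓞 L) y
      have ha := (hcon a).2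
      have hb' := (hcon b).2
      rw [sub_eq_zero] at ha hb'
      have ha2 : σ (a : L) = (a : L) := congrArg (fun z : 𝓞 L => (z : L)) ha
      have hb2 : σ (b : L) = (b : L) := congrArg (fun z : 𝓞 L => (z : L)) hb'
      rw [map_div₀]
      show σ (a : L) / σ (b : L) = _
      rw [ha2, hb2]
      rfl
  choose x hx using hex
  refine ⟨∏ σ : L ≃ₐ[K] L, if σ = 1 then 1 else Algebra.norm ℤ (σ • x σ - x σ), ?_, ?_⟩
  · rw [Finset.prod_ne_zero_iff]
    intro σ _
    by_cases hσ : σ = 1
    · rw [if_pos hσ]; exact one_ne_zero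
    · rw [if_neg hσ]
      exact Algebra.norm_ne_zero_iff.mpr (hx σ hσ)
  · intro ℓ hℓ hnd Q hQ hℓQ σ hσ
    by_contra hσ1
    apply hnd
    have h1 := natCast_dvd_norm_of_mem hQ hℓ hℓQ (hσ (x σ))
    refine dvd_trans ?_ (Finset.dvd_prod_of_mem _ (Finset.mem_univ σ))
    rw [if_neg hσ1]
    exact h1

end Ramified

section Units

open scoped SemiLocalRel Local.PadicBridge

variable {ℓ : ℕ} [Fact ℓ.Prime] {K L : Type} [Field K] [NumberField K] [Field L] [NumberField L]
  [Algebra K L] [IsGalois K L]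

/-- **Local units are norms of local units at an unramified place.** -/
theorem Place.exists_integerUnit_norm_eq (W : Place ℓ L)
    (hin : ∀ σ : L ≃ₐ[K] L, (∀ x : 𝓞 L, σ • x - x ∈ W.toPrime) → σ = 1)
    (u : (W.under (K := K)).Completionˣ) (hu : u ∈ (W.under (K := K)).integerUnits) :
    ∃ z : W.Completionˣ, z ∈ W.integerUnits ∧
      (u : (W.under (K := K)).Completion) =
        Algebra.norm (W.under (K := K)).Completion (z : W.Completion) := by
  have he := W.ramIdx_eq_one_of_inertia_trivial (K := K) hin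
  rw [Place.mem_integerUnits_iff] at hu
  let u' : ((W.under (K := K)).integers)ˣ :=
    ⟨⟨(u : (W.under (K := K)).Completion), hu.1⟩,
      ⟨((u⁻¹ : (W.under (K := K)).Completionˣ) : (W.under (K := K)).Completion), hu.2⟩,
      Subtype.ext (by simp), Subtype.ext (by simp)⟩
  obtain ⟨v, hv⟩ := Local.padicInts_norm_units_surjective' ℓ (W.under (K := K)).Completion
    W.Completion he u'
  refine ⟨Units.map (W.integers.val : W.integers →* W.Completion) v, ?_, ?_⟩
  · rw [Place.mem_integerUnits_iff]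
    refine ⟨(v : W.integers).2, ?_⟩
    rw [← map_inv]
    exact ((v⁻¹ : (W.integers)ˣ) : W.integers).2
  · exact hv.symm

end Units

section Eventually

open scoped SemiLocalRel

variable (K L : Type) [Field K] [NumberField K] [Field L] [NumberField L] [Algebra K L]
  [IsGalois K L]

/-- **(T4'') Almost all local units are norms of local units.** -/
theorem eventually_unitGroup_norm :
    ∀ᶠ ℓ : Nat.Primes in Filter.cofinite, ∀ u ∈ SemiLocal.unitGroup ℓ K,
      ∃ v ∈ SemiLocal.unitGroup ℓ L,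
        ∏ σ : L ≃ₐ[K] L, σ • v = SemiLocal.unitsMap ℓ (algebraMap K L) u := by
  obtain ⟨D, hD0, hD⟩ := exists_int_inertia_trivial K L
  rw [Filter.eventually_cofinite]
  refine (finite_setOf_primes_dvd hD0).subset ?_
  intro ℓ hℓ
  by_contra hnd
  apply hℓ
  intro u hu
  apply Place.exists_mem_unitGroup_prod_smul_eq_unitsMap
  intro w
  obtain ⟨W, rfl⟩ := Place.under_surjective (ℓ := ℓ) (K := K) (L := L) w
  have hin := hD ℓ ℓ.2 hnd W.toPrime inferInstance W.natCast_mem_toPrime
  have hu' : (W.under (K := K)).unitsProj u ∈ (W.under (K := K)).integerUnits :=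
    SemiLocal.mem_unitGroup_iff_forall.mp hu _
  obtain ⟨z, hz1, hz2⟩ := W.exists_integerUnit_norm_eq hin _ hu'
  exact ⟨W, rfl, z, hz1, hz2⟩

end Eventually

end Fermat.Agent.CFT
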