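/-
CFT global part (G0.2), helper5: (T4'') second half.  At a rational prime `ℓ` which is unramified
in the cyclic extension `L/K` of prime degree, the group of local units `unitGroup ℓ L` has trivial
`Ĥ⁻¹`: every local unit of norm `1` is a product of elements `σ • v / v` with `v` a local unit.
-/
import Mathlib
import Fermat.Agent.CFT.Global.G02_helper5_AlmostAll
import Fermat.Agent.CFT.Global.G01_helper7_Local

set_option autoImplicit false
set_option linter.unusedSectionVars false
set_option linter.style.haveILetI false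

open scoped TensorProduct NumberField Pointwise
open IsLocalRing IsDedekindDomain

namespace Fermat.Agent.CFT


section IdemUnit

variable {R : Type*} [CommRing R]

/-- the unit `e u + (1 - e)` attached to an idempotent `e` and a unit `u`: it is `u` on the
factor cut out by `e` and `1` on the complementary factor. -/
def idemUnit (e : R) (he : e * e = e) : Rˣ →* Rˣ where
  toFun u :=
    ⟨e * (u : R) + (1 - e), e * ((u⁻¹ : Rˣ) : R) + (1 - e), by
      have huv : (u : R) * ((u⁻¹ : Rˣ) : R) = 1 := u.mul_inv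
      linear_combination (e ^ 2) * huv + (2 - (u : R) - ((u⁻¹ : Rˣ) : R)) * he, by
      have huv : ((u⁻¹ : Rˣ) : R) * (u : R) = 1 := u.inv_mul
      linear_combination (e ^ 2) * huv + (2 - (u : R) - ((u⁻¹ : Rˣ) : R)) * he⟩
  map_one' := Units.ext (by simp)
  map_mul' u v := Units.ext (by
    simp only [Units.val_mul]
    linear_combination (-((u : R) * (v : R) - (u : R) - (v : R) + 1)) * he)

@[simp] theorem coe_idemUnit (e : R) (he : e * e = e) (u : Rˣ) :
    ((idemUnit e he u : Rˣ) : R) = e * (u : R) + (1 - e) := rfl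

theorem coe_inv_idemUnit (e : R) (he : e * e = e) (u : Rˣ) :
    (((idemUnit e he u)⁻¹ : Rˣ) : R) = e * ((u⁻¹ : Rˣ) : R) + (1 - e) := rfl

theorem idemUnit_one' (u : Rˣ) : idemUnit (1 : R) (one_mul 1) u = u :=
  Units.ext (by simp)

theorem idemUnit_mul_of_orthogonal {e f : R} (he : e * e = e) (hf : f * f = f) (hef : e * f = 0)
    (u : Rˣ) :
    idemUnit e he u * idemUnit f hf u =
      idemUnit (e + f) (by linear_combination he + hf + 2 * hef) u :=
  Units.ext (by
    simp only [Units.val_mul, coe_idemUnit]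
    linear_combination ((u : R) ^ 2 - 2 * (u : R) + 1) * hef)

/-- the product of the `idemUnit`s over a family of pairwise orthogonal idempotents with sum `1`
is the identity. -/
theorem prod_idemUnit_eq {ι : Type*} [Fintype ι] (e : ι → R) (he : ∀ i, e i * e i = e i)
    (horth : ∀ i j, i ≠ j → e i * e j = 0) (hsum : ∑ i, e i = 1) (u : Rˣ) :
    ∏ i, idemUnit (e i) (he i) u = u := by
  classical
  have key : ∀ s : Finset ι, ∃ h : (∑ i ∈ s, e i) * (∑ i ∈ s, e i) = ∑ i ∈ s, e i,
      ∏ i ∈ s, idemUnit (e i) (he i) u = idemUnit (∑ i ∈ s, e i) h u := by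
    intro s
    induction s using Finset.induction_on with
    | empty =>
      refine ⟨by simp, ?_⟩
      apply Units.ext
      simp
    | insert a s ha ih =>
      obtain ⟨h1, h2⟩ := ih
      have h3 : e a * ∑ i ∈ s, e i = 0 := by
        rw [Finset.mul_sum]
        exact Finset.sum_eq_zero fun i hi => horth a i (fun h => ha (h ▸ hi))
      have h4 : (∑ i ∈ insert a s, e i) = e a + ∑ i ∈ s, e i := Finset.sum_insert ha
      refine ⟨by rw [h4]; linear_combination he a + h1 + 2 * h3, ?_⟩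
      rw [Finset.prod_insert ha, h2, idemUnit_mul_of_orthogonal (he a) h1 h3]
      apply Units.ext
      simp only [coe_idemUnit, h4]
  obtain ⟨h, hk⟩ := key Finset.univ
  rw [hk]
  apply Units.ext
  rw [coe_idemUnit, hsum]
  ring

end IdemUnit

section IdemUnitAction

variable {R : Type*} [CommRing R] {G : Type*} [Group G] [MulSemiringAction G R]

attribute [local instance] Units.mulDistribMulActionRight

theorem smul_idemUnit (σ : G) (e : R) (he : e * e = e) (u : Rˣ) :
    σ • idemUnit e he u =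
      idemUnit (σ • e) (by rw [← smul_mul', he]) (σ • u) :=
  Units.ext (by
    simp only [Units.coe_smul, coe_idemUnit, smul_add, smul_mul', smul_sub, smul_one])

end IdemUnitAction

section Aug

variable {G M : Type*} [Group G] [Fintype G] [CommGroup M] [MulDistribMulAction G M]

/-- the subgroup `I_G U` of the elements `∏ σ, σ • v σ / v σ` with `v σ ∈ U`. -/
def augSubgroup (G : Type*) [Group G] [Fintype G] {M : Type*} [CommGroup M]
    [MulDistribMulAction G M] (U : Subgroup M) : Subgroup M where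
  carrier := {u | ∃ v : G → M, (∀ σ, v σ ∈ U) ∧ u = ∏ σ : G, σ • v σ / v σ}
  mul_mem' := by
    rintro _ _ ⟨v, hv, rfl⟩ ⟨v', hv', rfl⟩
    refine ⟨fun σ => v σ * v' σ, fun σ => U.mul_mem (hv σ) (hv' σ), ?_⟩
    rw [← Finset.prod_mul_distrib]
    refine Finset.prod_congr rfl fun σ _ => ?_
    rw [smul_mul', mul_div_mul_comm]
  one_mem' := ⟨fun _ => 1, fun _ => U.one_mem, by simp⟩
  inv_mem' := by
    rintro _ ⟨v, hv, rfl⟩
    refine ⟨fun σ => (v σ)⁻¹, fun σ => U.inv_mem (hv σ), ?_⟩
    rw [← Finset.prod_inv_distrib]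
    refine Finset.prod_congr rfl fun σ _ => ?_
    rw [smul_inv', inv_div_inv, inv_div]

theorem mem_augSubgroup_iff {U : Subgroup M} {u : M} :
    u ∈ augSubgroup G U ↔ ∃ v : G → M, (∀ σ, v σ ∈ U) ∧ u = ∏ σ : G, σ • v σ / v σ := Iff.rfl

theorem smul_div_mem_augSubgroup {U : Subgroup M} (σ : G) {v : M} (hv : v ∈ U) :
    σ • v / v ∈ augSubgroup G U := by
  classical
  refine ⟨fun τ => if τ = σ then v else 1, fun τ => ?_, ?_⟩
  · by_cases h : τ = σ
    · simp only [h, if_true]; exact hv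
    · simp only [h, if_false]; exact U.one_mem
  · rw [Finset.prod_eq_single σ]
    · simp only [if_true]
    · intro τ _ hne
      simp only [hne, if_false, smul_one, div_one]
    · intro h; exact absurd (Finset.mem_univ σ) h

/-- a product `∏ σ, σ • a σ` with `∏ σ, a σ = 1` lies in the augmentation subgroup. -/
theorem prod_smul_mem_augSubgroup {U : Subgroup M} (a : G → M) (ha : ∀ σ, a σ ∈ U)
    (h1 : ∏ σ : G, a σ = 1) : ∏ σ : G, σ • a σ ∈ augSubgroup G U :=
  ⟨a, ha, by rw [Finset.prod_div_distrib, h1, div_one]⟩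

/-- in a cyclic group with generator `g`, the augmentation subgroup of a stable subgroup `U` is
`{g • v / v | v ∈ U}`. -/
theorem exists_smul_div_of_mem_augSubgroup {U : Subgroup M}
    (hU : ∀ (σ : G) (v : M), v ∈ U → σ • v ∈ U) {g : G} (hg : ∀ σ, σ ∈ Subgroup.zpowers g)
    {u : M} (hu : u ∈ augSubgroup G U) : ∃ v ∈ U, u = g • v / v := by
  classical
  let φ : M →* M := (MulDistribMulAction.toMonoidHom M g) / (MonoidHom.id M)
  have hφ : ∀ v, φ v = g • v / v := fun v => rfl
  have hpow : ∀ (k : ℕ) (w : M), w ∈ U → g ^ k • w / w ∈ U.map φ := by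
    intro k
    induction k with
    | zero =>
      intro w _
      rw [pow_zero, one_smul, div_self']
      exact (U.map φ).one_mem
    | succ k ih =>
      intro w hw
      have h1 : g ^ (k + 1) • w / w = φ (g ^ k • w) * (g ^ k • w / w) := by
        rw [hφ, pow_succ', mul_smul, div_mul_div_cancel]
      rw [h1]
      exact (U.map φ).mul_mem (Subgroup.mem_map_of_mem φ (hU _ _ hw)) (ih w hw)
  obtain ⟨v, hv, rfl⟩ := hu
  have hmem : ∏ σ : G, σ • v σ / v σ ∈ U.map φ := by
    refine Subgroup.prod_mem _ (fun σ _ => ?_)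
    obtain ⟨k, rfl⟩ := (mem_powers_iff_mem_zpowers.mpr (hg σ))
    exact hpow k _ (hv _)
  obtain ⟨w, hw, hw'⟩ := Subgroup.mem_map.mp hmem
  exact ⟨w, hw, hw'.symm⟩

end Aug



open IsLocalRing

namespace Local

section H90

variable (A : Type*) (K L : Type) (B : Type*) [CommRing A] [IsDomain A] [IsDiscreteValuationRing A]
  [Field K] [Algebra A K] [IsFractionRing A K]
  [Field L] [Algebra K L] [FiniteDimensional K L]
  [CommRing B] [IsDomain B] [IsDiscreteValuationRing B]
  [Algebra A B] [Algebra B L] [Algebra A L] [IsScalarTower A K L] [IsScalarTower A B L]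
  [IsFractionRing B L]

/-- in an unramified extension every nonzero element is a unit times an element of the base. -/
theorem exists_ord_div_algebraMap_eq_zero (h : ramIdx A B = 1) {y : L} (hy : y ≠ 0) :
    ∃ a : K, a ≠ 0 ∧ ord B (y / algebraMap K L a) = 0 := by
  obtain ⟨π, hπ⟩ := IsDiscreteValuationRing.exists_irreducible A
  have hπ0 : algebraMap A K π ≠ 0 := by
    rw [Ne, map_eq_zero_iff _ (IsFractionRing.injective A K)]; exact hπ.ne_zero
  have ha0 : (algebraMap A K π) ^ (ord B y) ≠ 0 := zpow_ne_zero _ hπ0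
  refine ⟨(algebraMap A K π) ^ (ord B y), ha0, ?_⟩
  rw [ord_div B hy ((map_ne_zero _).mpr ha0), ord_algebraMap A K L B, h, ord_zpow,
    ord_algebraMap_irreducible A hπ]
  simp

/-- **Hilbert 90 for the units of an unramified cyclic extension**: a unit of norm `1` is of the
form `b / g b` with `b` a unit. -/
theorem exists_ord_eq_zero_div_of_norm_eq_one [IsGalois K L] (h : ramIdx A B = 1)
    {g : L ≃ₐ[K] L} (hg : ∀ σ, σ ∈ Subgroup.zpowers g) {x : L} (hx : Algebra.norm K x = 1) :
    ∃ b : L, b ≠ 0 ∧ ord B b = 0 ∧ b / g b = x := by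
  have : IsCyclic (L ≃ₐ[K] L) := ⟨g, hg⟩
  obtain ⟨y, hy⟩ := groupCohomology.exists_div_of_norm_eq_one hg hx
  obtain ⟨a, ha0, ha⟩ := exists_ord_div_algebraMap_eq_zero A K L B h y.ne_zero
  have ha0' : algebraMap K L a ≠ 0 := (map_ne_zero _).mpr ha0
  refine ⟨(y : L) / algebraMap K L a, div_ne_zero y.ne_zero ha0', ha, ?_⟩
  rw [map_div₀, g.commutes, div_div_div_cancel_right₀ ha0']
  exact hy

end H90

end Local


open scoped SemiLocalRel Local.PadicBridge

namespace Place

section Idem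

variable {ℓ : ℕ} [Fact ℓ.Prime] {F : Type*} [Field F] [NumberField F]

open Classical in
/-- the primitive idempotent of `ℚ_ℓ ⊗ F` at the place `W`. -/
noncomputable def idem (W : Place ℓ F) : SemiLocal ℓ F :=
  Classical.choose (SemiLocal.exists_proj_eq ℓ F (fun W' => if W' = W then 1 else 0))

open Classical in
theorem proj_idem (W W' : Place ℓ F) : W'.proj W.idem = if W' = W then 1 else 0 :=
  Classical.choose_spec (SemiLocal.exists_proj_eq ℓ F (fun W' => if W' = W then 1 else 0)) W'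

theorem proj_idem_self (W : Place ℓ F) : W.proj W.idem = 1 := by
  classical
  rw [proj_idem, if_pos rfl]

theorem proj_idem_of_ne {W W' : Place ℓ F} (h : W' ≠ W) : W'.proj W.idem = 0 := by
  classical
  rw [proj_idem, if_neg h]

theorem idem_mul_idem (W : Place ℓ F) : W.idem * W.idem = W.idem := by
  classical
  apply SemiLocal.ext_proj ℓ F
  intro W'
  rw [map_mul, proj_idem]
  split_ifs <;> simp

theorem idem_mem_integers (W : Place ℓ F) : W.idem ∈ SemiLocal.integers ℓ F := by
  rw [SemiLocal.mem_integers_iff]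
  refine ⟨Polynomial.X ^ 2 - Polynomial.X, ?_, ?_⟩
  · exact Polynomial.monic_X_pow_sub (by simp)
  · simp only [Polynomial.eval₂_sub, Polynomial.eval₂_pow, Polynomial.eval₂_X]
    rw [pow_two, idem_mul_idem, sub_self]

variable {G : Type*} [Group G] [MulSemiringAction G F]

theorem smul_idem (σ : G) (W : Place ℓ F) : σ • W.idem = (σ • W).idem := by
  classical
  apply SemiLocal.ext_proj ℓ F
  intro W'
  have h : σ • (σ⁻¹ • W') = W' := smul_inv_smul σ W'
  rw [← smulEquiv_proj σ h, proj_idem, proj_idem]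
  have hiff : σ⁻¹ • W' = W ↔ W' = σ • W := inv_smul_eq_iff
  by_cases h1 : W' = σ • W
  · rw [if_pos h1, if_pos (hiff.mpr h1), map_one]
  · rw [if_neg h1, if_neg (fun h2 => h1 (hiff.mp h2)), map_zero]

open Classical in
/-- the components of `σ • idemUnit W.idem (σ⁻¹ • u)`. -/
theorem unitsProj_smul_idemUnit (σ : G) (W W' : Place ℓ F) (u : (SemiLocal ℓ F)ˣ) :
    W'.unitsProj (σ • idemUnit W.idem W.idem_mul_idem (σ⁻¹ • u)) =
      if W' = σ • W then W'.unitsProj u else 1 := by
  classical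
  apply Units.ext
  have h1 : ((W'.unitsProj (σ • idemUnit W.idem W.idem_mul_idem (σ⁻¹ • u)) : W'.Completionˣ) :
      W'.Completion) = W'.proj (σ • (W.idem * (σ⁻¹ • (u : SemiLocal ℓ F)) + (1 - W.idem))) := rfl
  rw [h1, smul_add, smul_mul', smul_inv_smul, smul_sub, smul_one, smul_idem, map_add, map_mul,
    map_sub, map_one, proj_idem]
  by_cases h : W' = σ • W
  · rw [if_pos h, if_pos h, one_mul, sub_self, add_zero]
    rfl
  · rw [if_neg h, if_neg h, zero_mul, sub_zero, zero_add]
    rfl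

open Classical in
theorem unitsProj_idemUnit (W W' : Place ℓ F) (u : (SemiLocal ℓ F)ˣ) :
    W'.unitsProj (idemUnit W.idem W.idem_mul_idem u) =
      if W' = W then W'.unitsProj u else 1 := by
  classical
  apply Units.ext
  have h1 : ((W'.unitsProj (idemUnit W.idem W.idem_mul_idem u) : W'.Completionˣ) :
      W'.Completion) = W'.proj (W.idem * (u : SemiLocal ℓ F) + (1 - W.idem)) := rfl
  rw [h1, map_add, map_mul, map_sub, map_one, proj_idem]
  by_cases h : W' = W
  · rw [if_pos h, if_pos h, one_mul, sub_self, add_zero]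
    rfl
  · rw [if_neg h, if_neg h, zero_mul, sub_zero, zero_add]
    rfl

end Idem

end Place

/-- cutting a local unit with an integral idempotent gives a local unit. -/
theorem idemUnit_mem_unitGroup {ℓ : ℕ} [Fact ℓ.Prime] {F : Type*} [Field F] [CharZero F]
    {e : SemiLocal ℓ F} (he : e * e = e) (hint : e ∈ SemiLocal.integers ℓ F)
    {u : (SemiLocal ℓ F)ˣ} (hu : u ∈ SemiLocal.unitGroup ℓ F) :
    idemUnit e he u ∈ SemiLocal.unitGroup ℓ F := by
  rw [SemiLocal.mem_unitGroup_iff] at hu ⊢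
  have h1 : (1 : SemiLocal ℓ F) - e ∈ SemiLocal.integers ℓ F :=
    (SemiLocal.integers ℓ F).sub_mem (SemiLocal.integers ℓ F).one_mem hint
  refine ⟨?_, ?_⟩
  · rw [coe_idemUnit]
    exact (SemiLocal.integers ℓ F).add_mem ((SemiLocal.integers ℓ F).mul_mem hint hu.1) h1
  · rw [coe_inv_idemUnit]
    exact (SemiLocal.integers ℓ F).add_mem ((SemiLocal.integers ℓ F).mul_mem hint hu.2) h1

theorem smul_idemUnit_of_fixed {ℓ : ℕ} [Fact ℓ.Prime] {F : Type*} [Field F] [CharZero F]
    {G : Type*} [Group G] [MulSemiringAction G F] (σ : G)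
    {e : SemiLocal ℓ F} (he : e * e = e) (hσ : σ • e = e) (u : (SemiLocal ℓ F)ˣ) :
    σ • idemUnit e he u = idemUnit e he (σ • u) := by
  apply Units.ext
  rw [SemiLocal.coe_smul_units, coe_idemUnit, coe_idemUnit, SemiLocal.coe_smul_units, smul_add,
    smul_mul', smul_sub, smul_one, hσ]

namespace Place

section SumIdem

variable {ℓ : ℕ} [Fact ℓ.Prime] {F : Type*} [Field F] [NumberField F]

theorem idem_mul_idem_of_ne {W W' : Place ℓ F} (h : W ≠ W') : W.idem * W'.idem = 0 := by
  classical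
  apply SemiLocal.ext_proj ℓ F
  intro W''
  rw [map_mul, proj_idem, proj_idem, map_zero]
  by_cases h1 : W'' = W
  · rw [if_neg (fun h2 : W'' = W' => h (h1.symm.trans h2)), mul_zero]
  · rw [if_neg h1, zero_mul]

theorem sum_idem [Fintype (Place ℓ F)] : ∑ W : Place ℓ F, W.idem = 1 := by
  classical
  apply SemiLocal.ext_proj ℓ F
  intro W'
  rw [map_sum, map_one]
  simp only [proj_idem]
  rw [Finset.sum_ite_eq]
  simp

end SumIdem

section HatMinusOne

variable {ℓ : ℕ} [Fact ℓ.Prime] {K L : Type} [Field K] [NumberField K] [Field L] [NumberField L]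
  [Algebra K L] [IsGalois K L]

/-- SPLIT: a local unit of norm `1` supported on the places above a split place lies in the
augmentation subgroup of the local units. -/
theorem mem_augSubgroup_of_split (W : Place ℓ L)
    (hW : MulAction.stabilizer (L ≃ₐ[K] L) W = ⊥)
    (u : (SemiLocal ℓ L)ˣ) (hu : u ∈ SemiLocal.unitGroup ℓ L)
    (hN : ∏ σ : L ≃ₐ[K] L, σ • u = 1)
    (hsupp : ∀ W' : Place ℓ L, W'.under (K := K) ≠ W.under → W'.unitsProj u = 1) :
    u ∈ augSubgroup (L ≃ₐ[K] L) (SemiLocal.unitGroup ℓ L) := by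
  classical
  let a : (L ≃ₐ[K] L) → (SemiLocal ℓ L)ˣ := fun σ => idemUnit W.idem W.idem_mul_idem (σ⁻¹ • u)
  have ha : ∀ σ, a σ ∈ SemiLocal.unitGroup ℓ L := fun σ =>
    idemUnit_mem_unitGroup _ W.idem_mem_integers ((SemiLocal.smul_mem_unitGroup_iff ℓ σ⁻¹).mpr hu)
  have h1 : ∏ σ, a σ = 1 := by
    change ∏ σ : L ≃ₐ[K] L, idemUnit W.idem W.idem_mul_idem (σ⁻¹ • u) = 1
    rw [← map_prod]
    have : ∏ σ : L ≃ₐ[K] L, σ⁻¹ • u = ∏ σ : L ≃ₐ[K] L, σ • u :=
      Fintype.prod_equiv (Equiv.inv _) _ _ (fun σ => rfl)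
    rw [this, hN, map_one]
  have h2 : ∏ σ, σ • a σ = u := by
    apply SemiLocal.units_ext_proj ℓ L
    intro W'
    rw [map_prod]
    simp only [a, unitsProj_smul_idemUnit]
    by_cases hu' : W'.under (K := K) = W.under
    · obtain ⟨τ, hτ⟩ := exists_smul_eq_of_under_eq (K := K) hu'.symm
      rw [Finset.prod_eq_single τ]
      · rw [if_pos hτ.symm]
      · intro σ _ hσ
        rw [if_neg]
        intro h
        apply hσ
        have h3 : τ⁻¹ * σ ∈ MulAction.stabilizer (L ≃ₐ[K] L) W := by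
          rw [MulAction.mem_stabilizer_iff, mul_smul, ← h, ← hτ, inv_smul_smul]
        rw [hW, Subgroup.mem_bot, inv_mul_eq_one] at h3
        exact h3.symm
      · intro h; exact absurd (Finset.mem_univ _) h
    · rw [hsupp W' hu', Finset.prod_eq_one]
      intro σ _
      rw [if_neg]
      rintro rfl
      exact hu' (under_smul σ W)
  rw [← h2]
  exact prod_smul_mem_augSubgroup a ha h1

/-- NONSPLIT, UNRAMIFIED: a local unit of norm `1` supported at a nonsplit unramified place is of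
the form `g • v / v` with `v` a local unit, `g` a generator. -/
theorem exists_smul_div_of_nonsplit (W : Place ℓ L)
    (hW : MulAction.stabilizer (L ≃ₐ[K] L) W = ⊤)
    (he : Local.ramIdx (W.under (K := K)).integers W.integers = 1)
    {g : L ≃ₐ[K] L} (hg : ∀ σ, σ ∈ Subgroup.zpowers g)
    (u : (SemiLocal ℓ L)ˣ) (hN : ∏ σ : L ≃ₐ[K] L, σ • u = 1)
    (hsupp : ∀ W' : Place ℓ L, W'.under (K := K) ≠ W.under → W'.unitsProj u = 1) :
    ∃ v ∈ SemiLocal.unitGroup ℓ L, u = g • v / v := by
  classical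
  have hgl : ∀ τ, τ ∈ Subgroup.zpowers (galEquivOfStabilizerEqTop W hW g) := by
    intro τ
    obtain ⟨σ, rfl⟩ := (galEquivOfStabilizerEqTop W hW).surjective τ
    obtain ⟨k, rfl⟩ := Subgroup.mem_zpowers_iff.mp (hg σ)
    exact Subgroup.mem_zpowers_iff.mpr ⟨k, (map_zpow _ g k).symm⟩
  have hnorm : Algebra.norm (W.under (K := K)).Completion (W.proj (u : SemiLocal ℓ L)) = 1 := by
    apply (algebraMap (W.under (K := K)).Completion W.Completion).injective
    rw [← proj_prod_smul_of_stabilizer_eq_top W hW, map_one]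
    have h1 : ∏ σ : L ≃ₐ[K] L, σ • (u : SemiLocal ℓ L) =
        ((∏ σ : L ≃ₐ[K] L, σ • u : (SemiLocal ℓ L)ˣ) : SemiLocal ℓ L) := by
      rw [Units.coe_prod]
      rfl
    rw [h1, hN, Units.val_one, map_one]
  obtain ⟨b, hb0, hbord, hb⟩ := Local.exists_ord_eq_zero_div_of_norm_eq_one
    (W.under (K := K)).integers (W.under (K := K)).Completion W.Completion W.integers he hgl hnorm
  obtain ⟨b', hb'⟩ := (ord_eq_zero_iff W.integers hb0).mp hbord
  have hbU : ((W.ofIntegersUnit b' : W.Completionˣ) : W.Completion) = b := hb'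
  obtain ⟨v, hvW, hv'⟩ := exists_unitsProj_eq_single W (W.ofIntegersUnit b')⁻¹
  refine ⟨v, ?_, ?_⟩
  · rw [SemiLocal.mem_unitGroup_iff_forall]
    intro W'
    by_cases h : W' = W
    · subst h
      rw [hvW]
      exact W'.integerUnits.inv_mem (W'.ofIntegersUnit_mem b')
    · rw [hv' W' h]
      exact W'.integerUnits.one_mem
  · apply SemiLocal.units_ext_proj ℓ L
    intro W'
    rw [map_div]
    by_cases h : W' = W
    · subst h
      apply Units.ext
      rw [Units.val_div_eq_div_val, hvW]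
      have h2 : ((W'.unitsProj (g • v) : W'.Completionˣ) : W'.Completion) =
          galEquivOfStabilizerEqTop W' hW g ((W'.unitsProj v : W'.Completionˣ) : W'.Completion) :=
        (galEquivOfStabilizerEqTop_proj W' hW g (v : SemiLocal ℓ L)).symm
      rw [h2, hvW, Units.val_inv_eq_inv_val, hbU, map_inv₀, inv_div_inv]
      exact hb.symm
    · have h3 : W'.under (K := K) ≠ W.under := fun h4 =>
        h (eq_of_under_eq_of_stabilizer_eq_top h4.symm hW)
      rw [hsupp W' h3, hv' W' h, div_one]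
      have h5 : g⁻¹ • W' ≠ W := by
        intro h6
        apply h
        have h7 : g ∈ MulAction.stabilizer (L ≃ₐ[K] L) W := by rw [hW]; exact Subgroup.mem_top _
        rw [← MulAction.mem_stabilizer_iff.mp h7, ← h6, smul_inv_smul]
      have h8 := (proj_smul_eq_iff g (smul_inv_smul g W') (v : SemiLocal ℓ L) 1).mpr (by
        rw [map_one]
        exact congrArg Units.val (hv' _ h5))
      rw [smul_one, map_one] at h8
      exact (Units.ext h8).symm

end HatMinusOne

end Place

section Main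

variable {ℓ : ℕ} [Fact ℓ.Prime] {K L : Type} [Field K] [NumberField K] [Field L] [NumberField L]
  [Algebra K L] [IsGalois K L]

/-- **`Ĥ⁻¹` of the local units vanishes at an unramified prime** (cyclic extension of prime degree),
local form of the hypothesis. -/
theorem mem_augSubgroup_unitGroup_of_ramIdx {p : ℕ} (hp : p.Prime)
    (hcard : Nat.card (L ≃ₐ[K] L) = p)
    (hin : ∀ W : Place ℓ L, Local.ramIdx (W.under (K := K)).integers W.integers = 1)
    {u : (SemiLocal ℓ L)ˣ} (hu : u ∈ SemiLocal.unitGroup ℓ L)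
    (hN : ∏ σ : L ≃ₐ[K] L, σ • u = 1) :
    u ∈ augSubgroup (L ≃ₐ[K] L) (SemiLocal.unitGroup ℓ L) := by
  classical
  haveI : Fintype (Place ℓ K) := Fintype.ofFinite _
  let E : Place ℓ K → SemiLocal ℓ L := fun w => SemiLocal.map ℓ (algebraMap K L) w.idem
  have hE : ∀ w, E w * E w = E w := fun w => by
    change SemiLocal.map ℓ (algebraMap K L) w.idem * SemiLocal.map ℓ (algebraMap K L) w.idem = _
    rw [← map_mul, Place.idem_mul_idem]
  have horth : ∀ w w', w ≠ w' → E w * E w' = 0 := fun w w' h => by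
    change SemiLocal.map ℓ (algebraMap K L) w.idem * SemiLocal.map ℓ (algebraMap K L) w'.idem = _
    rw [← map_mul, Place.idem_mul_idem_of_ne h, map_zero]
  have hsum : ∑ w, E w = 1 := by
    change ∑ w : Place ℓ K, SemiLocal.map ℓ (algebraMap K L) w.idem = 1
    rw [← map_sum, Place.sum_idem, map_one]
  have hfix : ∀ (σ : L ≃ₐ[K] L) w, σ • E w = E w := fun σ w =>
    SemiLocal.smul_map_algebraMap ℓ K L σ _
  have hint : ∀ w, E w ∈ SemiLocal.integers ℓ L := fun w =>
    SemiLocal.map_mem_integers ℓ _ w.idem_mem_integers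
  have hproj : ∀ (w : Place ℓ K) (W' : Place ℓ L), W'.under (K := K) ≠ w →
      W'.proj (E w) = 0 := by
    intro w W' h
    change W'.proj (SemiLocal.map ℓ (algebraMap K L) w.idem) = 0
    rw [← Place.algebraMap_completion_proj, Place.proj_idem_of_ne h, map_zero]
  rw [← prod_idemUnit_eq E hE horth hsum u]
  refine Subgroup.prod_mem _ (fun w _ => ?_)
  obtain ⟨W, rfl⟩ := Place.under_surjective (ℓ := ℓ) (K := K) (L := L) w
  have hu1 : idemUnit (E W.under) (hE _) u ∈ SemiLocal.unitGroup ℓ L :=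
    idemUnit_mem_unitGroup _ (hint _) hu
  have hN1 : ∏ σ : L ≃ₐ[K] L, σ • idemUnit (E W.under) (hE _) u = 1 := by
    simp only [smul_idemUnit_of_fixed _ (hE _) (hfix _ _)]
    rw [← map_prod, hN, map_one]
  have hs1 : ∀ W' : Place ℓ L, W'.under (K := K) ≠ W.under →
      W'.unitsProj (idemUnit (E W.under) (hE _) u) = 1 := by
    intro W' h
    apply Units.ext
    change W'.proj (E W.under * (u : SemiLocal ℓ L) + (1 - E W.under)) = 1
    rw [map_add, map_mul, map_sub, map_one, hproj _ _ h, zero_mul, sub_zero, zero_add]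
  rcases Place.stabilizer_eq_bot_or_eq_top hp hcard W with h | h
  · exact W.mem_augSubgroup_of_split h _ hu1 hN1 hs1
  · haveI : Fact (Nat.card (L ≃ₐ[K] L)).Prime := ⟨by rw [hcard]; exact hp⟩
    haveI : IsCyclic (L ≃ₐ[K] L) := isCyclic_of_prime_card (p := Nat.card (L ≃ₐ[K] L)) rfl
    obtain ⟨g, hg⟩ := IsCyclic.exists_generator (α := L ≃ₐ[K] L)
    obtain ⟨v, hv, hv'⟩ := W.exists_smul_div_of_nonsplit h (hin W) hg _ hN1 hs1
    rw [hv']
    exact smul_div_mem_augSubgroup g hv

/-- **`Ĥ⁻¹` of the local units vanishes at an unramified prime**, in the shape of helper8's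
hypothesis `hm1` of `herbrand_subgroup_restrictedProduct'`. -/
theorem exists_prod_smul_div_of_inertia_trivial {p : ℕ} (hp : p.Prime)
    (hcard : Nat.card (L ≃ₐ[K] L) = p)
    (hin : ∀ Q : Ideal (𝓞 L), Q.IsPrime → ((ℓ : ℕ) : 𝓞 L) ∈ Q →
      ∀ σ : L ≃ₐ[K] L, (∀ x : 𝓞 L, σ • x - x ∈ Q) → σ = 1)
    {u : (SemiLocal ℓ L)ˣ} (hu : u ∈ SemiLocal.unitGroup ℓ L)
    (hN : ∏ σ : L ≃ₐ[K] L, σ • u = 1) :
    ∃ v : (L ≃ₐ[K] L) → (SemiLocal ℓ L)ˣ, (∀ σ, v σ ∈ SemiLocal.unitGroup ℓ L) ∧
      u = ∏ σ : L ≃ₐ[K] L, σ • v σ / v σ :=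
  mem_augSubgroup_iff.mp (mem_augSubgroup_unitGroup_of_ramIdx hp hcard
    (fun W => W.ramIdx_eq_one_of_inertia_trivial (K := K)
      (hin W.toPrime inferInstance W.natCast_mem_toPrime)) hu hN)

/-- the same with a generator: every local unit of norm `1` is `g • v / v`. -/
theorem exists_smul_div_of_inertia_trivial {p : ℕ} (hp : p.Prime)
    (hcard : Nat.card (L ≃ₐ[K] L) = p)
    (hin : ∀ Q : Ideal (𝓞 L), Q.IsPrime → ((ℓ : ℕ) : 𝓞 L) ∈ Q →
      ∀ σ : L ≃ₐ[K] L, (∀ x : 𝓞 L, σ • x - x ∈ Q) → σ = 1)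
    {g : L ≃ₐ[K] L} (hg : ∀ σ, σ ∈ Subgroup.zpowers g)
    {u : (SemiLocal ℓ L)ˣ} (hu : u ∈ SemiLocal.unitGroup ℓ L)
    (hN : ∏ σ : L ≃ₐ[K] L, σ • u = 1) :
    ∃ v ∈ SemiLocal.unitGroup ℓ L, u = g • v / v :=
  exists_smul_div_of_mem_augSubgroup
    (fun σ _ hv => (SemiLocal.smul_mem_unitGroup_iff ℓ σ).mpr hv) hg
    (mem_augSubgroup_unitGroup_of_ramIdx hp hcard
      (fun W => W.ramIdx_eq_one_of_inertia_trivial (K := K)
        (hin W.toPrime inferInstance W.natCast_mem_toPrime)) hu hN)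

end Main

section Eventually

variable (K L : Type) [Field K] [NumberField K] [Field L] [NumberField L] [Algebra K L]
  [IsGalois K L]

/-- **(T4'') second half: for almost all `ℓ`, `Ĥ⁻¹` of the local units of `L` at `ℓ` vanishes.** -/
theorem eventually_unitGroup_hm1 {p : ℕ} (hp : p.Prime) (hcard : Nat.card (L ≃ₐ[K] L) = p) :
    ∀ᶠ ℓ : Nat.Primes in Filter.cofinite, ∀ u ∈ SemiLocal.unitGroup ℓ L,
      ∏ σ : L ≃ₐ[K] L, σ • u = 1 →
      ∃ v : (L ≃ₐ[K] L) → (SemiLocal ℓ L)ˣ, (∀ σ, v σ ∈ SemiLocal.unitGroup ℓ L) ∧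
        u = ∏ σ : L ≃ₐ[K] L, σ • v σ / v σ := by
  obtain ⟨D, hD0, hD⟩ := exists_int_inertia_trivial K L
  rw [Filter.eventually_cofinite]
  refine (finite_setOf_primes_dvd hD0).subset ?_
  intro ℓ hℓ
  by_contra hnd
  apply hℓ
  intro u hu hN
  exact exists_prod_smul_div_of_inertia_trivial hp hcard (hD ℓ ℓ.2 hnd) hu hN

/-- the same with a generator. -/
theorem eventually_unitGroup_hm1' {p : ℕ} (hp : p.Prime) (hcard : Nat.card (L ≃ₐ[K] L) = p)
    {g : L ≃ₐ[K] L} (hg : ∀ σ, σ ∈ Subgroup.zpowers g) :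
    ∀ᶠ ℓ : Nat.Primes in Filter.cofinite, ∀ u ∈ SemiLocal.unitGroup ℓ L,
      ∏ σ : L ≃ₐ[K] L, σ • u = 1 → ∃ v ∈ SemiLocal.unitGroup ℓ L, u = g • v / v := by
  obtain ⟨D, hD0, hD⟩ := exists_int_inertia_trivial K L
  rw [Filter.eventually_cofinite]
  refine (finite_setOf_primes_dvd hD0).subset ?_
  intro ℓ hℓ
  by_contra hnd
  apply hℓ
  intro u hu hN
  exact exists_smul_div_of_inertia_trivial hp hcard (hD ℓ ℓ.2 hnd) hg hu hN

/-- **(T4'') first half in `Ĥ⁰` shape**: for almost all `ℓ` every Galois-invariant local unit of `L`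
is the norm of a local unit. -/
theorem eventually_unitGroup_h0 :
    ∀ᶠ ℓ : Nat.Primes in Filter.cofinite, ∀ u ∈ SemiLocal.unitGroup ℓ L,
      (∀ σ : L ≃ₐ[K] L, σ • u = u) →
      ∃ v ∈ SemiLocal.unitGroup ℓ L, ∏ σ : L ≃ₐ[K] L, σ • v = u := by
  filter_upwards [eventually_unitGroup_norm K L] with ℓ hℓ u hu hfix
  obtain ⟨x, rfl⟩ := (SemiLocal.units_mem_range_unitsMap_iff_fixed ℓ K L).mpr hfix
  exact hℓ x ((SemiLocal.unitsMap_mem_unitGroup_iff ℓ K L).mp hu)

/-- **almost all primes are unramified**, local form: for almost all `ℓ` all the local extensions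
`L_W / K_w`, `W ∣ ℓ`, have ramification index `1`. -/
theorem eventually_ramIdx_eq_one :
    ∀ᶠ ℓ : Nat.Primes in Filter.cofinite, ∀ W : Place ℓ L,
      Local.ramIdx (W.under (K := K)).integers W.integers = 1 := by
  obtain ⟨D, hD0, hD⟩ := exists_int_inertia_trivial K L
  rw [Filter.eventually_cofinite]
  refine (finite_setOf_primes_dvd hD0).subset ?_
  intro ℓ hℓ
  by_contra hnd
  apply hℓ
  intro W
  exact W.ramIdx_eq_one_of_inertia_trivial (K := K)
    (hD ℓ ℓ.2 hnd W.toPrime inferInstance W.natCast_mem_toPrime)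

end Eventually

end Fermat.Agent.CFT
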