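import Fermat.Agent.CFT.Global.G04_helper6_Integral
import Fermat.Agent.CFT.Global.G2_helper2_SIdeles

/-!
# CFT (G0.4) (D5): the idele-defined `S`-units are Mathlib's `S`-units

`sUnits F S = (primesOverRat F S).unit F` as subgroups of `Fˣ`, for any set `S` of rational
primes.
-/

set_option autoImplicit false

open IsDedekindDomain NumberField

namespace Fermat.Agent.CFT

open SUnit

section Bridge

variable {F : Type*} [Field F] [NumberField F]

/-- Every prime of `F` lies above a rational prime. -/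
theorem exists_mem_ratFiber (w : HeightOneSpectrum (𝓞 F)) : ∃ ℓ : Nat.Primes, w ∈ ratFiber F ℓ := by
  have : w.asIdeal.IsMaximal := w.isMaximal
  have : Finite (𝓞 F ⧸ w.asIdeal) := Ideal.finiteQuotientOfFreeOfNeBot w.asIdeal w.ne_bot
  obtain ⟨p, hp⟩ := CharP.exists (𝓞 F ⧸ w.asIdeal)
  have hprime : p.Prime := CharP.char_is_prime (𝓞 F ⧸ w.asIdeal) p
  refine ⟨⟨p, hprime⟩, ?_⟩
  rw [mem_ratFiber, ← Ideal.Quotient.eq_zero_iff_mem, map_natCast]
  exact CharP.cast_eq_zero _ p

omit [NumberField F] in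
/-- A prime of `F` lies above a rational prime in `S` iff "its" rational prime is in `S`. -/
theorem mem_primesOverRat_iff_of_mem_ratFiber {S : Set Nat.Primes} {ℓ : Nat.Primes}
    {w : HeightOneSpectrum (𝓞 F)} (hw : w ∈ ratFiber F ℓ) : w ∈ primesOverRat F S ↔ ℓ ∈ S := by
  constructor
  · rintro ⟨ℓ', hℓ', hw'⟩
    by_contra hne
    have hne' : ℓ ≠ ℓ' := fun h => hne (h ▸ hℓ')
    exact Set.disjoint_left.mp (ratFiber_disjoint hne') hw hw'
  · intro h
    exact ⟨ℓ, h, hw⟩

/-- **(D5)** The `S`-units defined via ideles are the `S`-units of Mathlib for the set of primes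
of `F` above `S`. -/
theorem sUnits_eq_unit_primesOverRat (S : Set Nat.Primes) : sUnits F S = (primesOverRat F S).unit F := by
  ext a
  rw [mem_sUnits_iff]
  show _ ↔ ∀ (v : HeightOneSpectrum (𝓞 F)) (_ : v ∉ primesOverRat F S), v.valuation F (a : F) = 1
  constructor
  · intro h v hv
    obtain ⟨ℓ, hℓ⟩ := exists_mem_ratFiber v
    have hℓS : ℓ ∉ S := fun hS => hv ((mem_primesOverRat_iff_of_mem_ratFiber hℓ).mpr hS)
    exact (ofUnits_mem_unitGroup_iff ℓ).mp (h ℓ hℓS) v hℓ
  · intro h ℓ hℓ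
    rw [ofUnits_mem_unitGroup_iff]
    intro w hw
    exact h w fun hwS => hℓ ((mem_primesOverRat_iff_of_mem_ratFiber hw).mp hwS)

theorem mem_sUnits_iff_valuation {S : Set Nat.Primes} {a : Fˣ} :
    a ∈ sUnits F S ↔ ∀ v : HeightOneSpectrum (𝓞 F), v ∉ primesOverRat F S →
      v.valuation F (a : F) = 1 := by
  rw [sUnits_eq_unit_primesOverRat]
  rfl

/-- The range of the inclusion of the idele-defined `S`-units, in the shape of the hypothesis
`hrange` of `SUnit.herbrand_sUnits_rat`. -/
theorem range_subtype_sUnits (S : Set Nat.Primes) :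
    (sUnits F S).subtype.range = (primesOverRat F S).unit F := by
  rw [Subgroup.range_subtype, sUnits_eq_unit_primesOverRat]

/-- The `∅`-units are the units of `𝓞 F`. -/
theorem mem_sUnits_empty_iff {a : Fˣ} :
    a ∈ sUnits F (∅ : Set Nat.Primes) ↔ ∀ v : HeightOneSpectrum (𝓞 F), v.valuation F (a : F) = 1 := by
  rw [mem_sUnits_iff_valuation]
  refine forall_congr' fun v => ?_
  have : v ∉ primesOverRat F (∅ : Set Nat.Primes) := by
    rintro ⟨ℓ, hℓ, -⟩
    exact hℓ
  simp [this]

end Bridge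

end Fermat.Agent.CFT
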