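import Mathlib

/-!
# CFT (G2a): Dirichlet's `S`-unit theorem (rank form)

For a number field `F` and a finite set `S` of finite primes, the group `S.unit F` of `S`-units
(Mathlib's `Set.unit`) is finitely generated of rank `rank 𝓞_F^× + #S`.
-/

set_option autoImplicit false

open IsDedekindDomain NumberField WithZero

namespace Fermat.Agent.CFT.SUnit

section Abstract

/-- Finite generation and rank in a left exact sequence `0 → A' → A → B` of abelian groups. -/
theorem finite_and_finrank_of_exact {A' A B : Type*} [AddCommGroup A'] [AddCommGroup A]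
    [AddCommGroup B] [Module.Finite ℤ A'] [Module.Finite ℤ B] (ι : A' →ₗ[ℤ] A) (ψ : A →ₗ[ℤ] B)
    (hι : Function.Injective ι) (hex : Function.Exact ι ψ) :
    Module.Finite ℤ A ∧
      Module.finrank ℤ A = Module.finrank ℤ A' + Module.finrank ℤ (LinearMap.range ψ) := by
  have hker : LinearMap.ker ψ = LinearMap.range ι := LinearMap.exact_iff.mp hex
  let e1 : A' ≃ₗ[ℤ] LinearMap.range ι := LinearEquiv.ofInjective ι hι
  have h1 : Module.Finite ℤ (LinearMap.ker ψ) := by
    rw [hker]
    exact Module.Finite.equiv e1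
  have h2 : Module.Finite ℤ (A ⧸ LinearMap.ker ψ) := Module.Finite.equiv ψ.quotKerEquivRange.symm
  have hfin : Module.Finite ℤ A := Module.Finite.of_submodule_quotient (LinearMap.ker ψ)
  refine ⟨hfin, ?_⟩
  have h3 := Submodule.finrank_quotient_add_finrank (LinearMap.ker ψ)
  rw [ψ.quotKerEquivRange.finrank_eq] at h3
  have h4 : Module.finrank ℤ (LinearMap.ker ψ) = Module.finrank ℤ A' := by
    rw [hker]
    exact e1.symm.finrank_eq
  omega

end Abstract

variable (F : Type*) [Field F] [NumberField F]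

/-- The additive valuation `x ↦ log v(x)` on `Fˣ` (so `logVal v x = - ord_v x`). -/
noncomputable def logVal (v : HeightOneSpectrum (𝓞 F)) : Additive Fˣ →+ ℤ where
  toFun x := log (v.valuation F ((Additive.toMul x : Fˣ) : F))
  map_zero' := by simp
  map_add' x y := by
    show log (v.valuation F ((Additive.toMul x * Additive.toMul y : Fˣ) : F)) = _
    rw [Units.val_mul, map_mul, log_mul]
    · exact (Valuation.ne_zero_iff _).mpr (Units.ne_zero _)
    · exact (Valuation.ne_zero_iff _).mpr (Units.ne_zero _)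

variable {F}

lemma logVal_apply (v : HeightOneSpectrum (𝓞 F)) (x : Additive Fˣ) :
    logVal F v x = log (v.valuation F ((Additive.toMul x : Fˣ) : F)) := rfl

lemma logVal_eq_zero_iff (v : HeightOneSpectrum (𝓞 F)) (x : Additive Fˣ) :
    logVal F v x = 0 ↔ v.valuation F ((Additive.toMul x : Fˣ) : F) = 1 := by
  have hne : v.valuation F ((Additive.toMul x : Fˣ) : F) ≠ 0 :=
    (Valuation.ne_zero_iff _).mpr (Units.ne_zero _)
  rw [logVal_apply]
  constructor
  · intro h
    rw [← exp_log hne, h, exp_zero]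
  · intro h
    rw [h, log_one]

/-- The valuation of a unit of `𝓞 F` is `1`. -/
lemma valuation_algebraMap_unit (v : HeightOneSpectrum (𝓞 F)) (u : (𝓞 F)ˣ) :
    v.valuation F (algebraMap (𝓞 F) F (u : 𝓞 F)) = 1 := by
  rw [HeightOneSpectrum.valuation_of_algebraMap, HeightOneSpectrum.intValuation_eq_one_iff]
  intro h
  exact v.isPrime.ne_top (Ideal.eq_top_of_isUnit_mem _ h u.isUnit)

/-- An element all of whose valuations are `1` is a unit of `𝓞 F`. -/
lemma exists_unit_of_valuation_eq_one (x : Fˣ)
    (h : ∀ v : HeightOneSpectrum (𝓞 F), v.valuation F (x : F) = 1) :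
    ∃ u : (𝓞 F)ˣ, Units.map (algebraMap (𝓞 F) F : 𝓞 F →* F) u = x := by
  obtain ⟨a, ha⟩ := HeightOneSpectrum.mem_integers_of_valuation_le_one F (x : F)
    fun v => (h v).le
  obtain ⟨b, hb⟩ := HeightOneSpectrum.mem_integers_of_valuation_le_one F ((x⁻¹ : Fˣ) : F)
    fun v => by rw [Units.val_inv_eq_inv_val, map_inv₀, h v, inv_one]
  have hab : a * b = 1 := by
    apply FaithfulSMul.algebraMap_injective (𝓞 F) F
    rw [map_mul, map_one]
    erw [ha, hb]
    exact x.mul_inv
  have hba : b * a = 1 := by rw [mul_comm, hab]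
  refine ⟨⟨a, b, hab, hba⟩, Units.ext ?_⟩
  exact ha

section Maps

variable {F : Type*} [Field F] [NumberField F] (S : Set (HeightOneSpectrum (𝓞 F)))

/-- The inclusion of the units of `𝓞 F` into the `S`-units. -/
noncomputable def unitsToSUnit : (𝓞 F)ˣ →* S.unit F :=
  (Units.map (algebraMap (𝓞 F) F : 𝓞 F →* F)).codRestrict (S.unit F) fun u v _ =>
    valuation_algebraMap_unit v u

lemma coe_unitsToSUnit (u : (𝓞 F)ˣ) :
    ((unitsToSUnit S u : S.unit F) : Fˣ) = Units.map (algebraMap (𝓞 F) F : 𝓞 F →* F) u := rfl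

lemma unitsToSUnit_injective : Function.Injective (unitsToSUnit S) := by
  intro u u' h
  have h1 := congrArg (fun z : S.unit F => ((z : Fˣ) : F)) h
  simp only [coe_unitsToSUnit, Units.coe_map, MonoidHom.coe_coe] at h1
  exact Units.ext (FaithfulSMul.algebraMap_injective (𝓞 F) F h1)

/-- The `ℤ`-linear inclusion `𝓞_F^× → F_S`. -/
noncomputable def unitsIncl : Additive (𝓞 F)ˣ →ₗ[ℤ] Additive (S.unit F) :=
  (MonoidHom.toAdditive (unitsToSUnit S)).toIntLinearMap

/-- The `ℤ`-linear map `F_S → ℤ^S`, `x ↦ (log v(x))_v`. -/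
noncomputable def logMap : Additive (S.unit F) →ₗ[ℤ] (S → ℤ) :=
  (LinearMap.pi fun v : S => (logVal F v.1).toIntLinearMap) ∘ₗ
    (MonoidHom.toAdditive (S.unit F).subtype).toIntLinearMap

lemma logMap_apply (x : Additive (S.unit F)) (v : S) :
    logMap S x v = logVal F v.1 (Additive.ofMul ((Additive.toMul x : S.unit F) : Fˣ)) := rfl

lemma unitsIncl_injective : Function.Injective (unitsIncl S) := fun _ _ h =>
  unitsToSUnit_injective S h

lemma unitsIncl_logMap_exact : Function.Exact (unitsIncl S) (logMap S) := by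
  intro x
  constructor
  · intro hx
    have hall : ∀ v : HeightOneSpectrum (𝓞 F),
        v.valuation F (((Additive.toMul x : S.unit F) : Fˣ) : F) = 1 := by
      intro v
      by_cases hv : v ∈ S
      · have := congrFun hx ⟨v, hv⟩
        rw [logMap_apply, Pi.zero_apply, logVal_eq_zero_iff] at this
        exact this
      · exact (Additive.toMul x).2 v hv
    obtain ⟨u, hu⟩ := exists_unit_of_valuation_eq_one _ hall
    refine ⟨Additive.ofMul u, ?_⟩
    show Additive.ofMul (unitsToSUnit S u) = x
    have : unitsToSUnit S u = Additive.toMul x := Subtype.ext hu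
    rw [this]
    rfl
  · rintro ⟨u, rfl⟩
    funext v
    rw [logMap_apply, Pi.zero_apply, logVal_eq_zero_iff]
    exact valuation_algebraMap_unit v.1 (Additive.toMul u)

/-- For every prime `v` there is a nonzero `a ∈ 𝓞 F` with `a ∈ v` and `a ∉ w` for all `w ≠ v`
(a generator of `v ^ h`, `h` the class number). -/
lemma exists_mem_only (v : HeightOneSpectrum (𝓞 F)) :
    ∃ a : 𝓞 F, a ≠ 0 ∧ a ∈ v.asIdeal ∧
      ∀ w : HeightOneSpectrum (𝓞 F), w ≠ v → a ∉ w.asIdeal := by
  classical
  set h : ℕ := Fintype.card (ClassGroup (𝓞 F)) with hh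
  have hpos : 0 < h := Fintype.card_pos
  have hI : v.asIdeal ∈ nonZeroDivisors (Ideal (𝓞 F)) := mem_nonZeroDivisors_of_ne_zero v.ne_bot
  have h1 : ClassGroup.mk0 ⟨v.asIdeal, hI⟩ ^ h = 1 := pow_card_eq_one
  have hI' : v.asIdeal ^ h ∈ nonZeroDivisors (Ideal (𝓞 F)) := pow_mem hI h
  have h3 : (⟨v.asIdeal, hI⟩ ^ h : nonZeroDivisors (Ideal (𝓞 F))) = ⟨v.asIdeal ^ h, hI'⟩ :=
    Subtype.ext (by simp)
  rw [← map_pow, h3, ClassGroup.mk0_eq_one_iff] at h1
  obtain ⟨a, ha⟩ := h1.principal
  have hne : v.asIdeal ^ h ≠ ⊥ := pow_ne_zero h v.ne_bot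
  refine ⟨a, ?_, ?_, ?_⟩
  · rintro rfl
    apply hne
    rw [ha]
    simp
  · have : a ∈ v.asIdeal ^ h := by
      rw [ha]
      exact Submodule.mem_span_singleton_self a
    exact Ideal.pow_le_self hpos.ne' this
  · intro w hw haw
    have h4 : v.asIdeal ^ h ≤ w.asIdeal := by
      rw [ha, Ideal.submodule_span_eq, Ideal.span_singleton_le_iff_mem]
      exact haw
    have h5 : v.asIdeal ≤ w.asIdeal := w.isPrime.le_of_pow_le h4
    have h6 : v.asIdeal = w.asIdeal := v.isMaximal.eq_of_le w.isPrime.ne_top h5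
    exact hw (HeightOneSpectrum.ext h6.symm)

/-- For `v ∈ S` there is an `S`-unit whose `logMap` is a nonzero multiple of the `v`-th basis
vector. -/
lemma exists_logMap_eq_single (v : S) :
    ∃ (y : Additive (S.unit F)) (n : ℤ), n ≠ 0 ∧ logMap S y v = n ∧
      ∀ w : S, w ≠ v → logMap S y w = 0 := by
  obtain ⟨a, ha0, hav, haw⟩ := exists_mem_only v.1
  have hne : algebraMap (𝓞 F) F a ≠ 0 := by
    rw [Ne, map_eq_zero_iff _ (FaithfulSMul.algebraMap_injective (𝓞 F) F)]
    exact ha0
  have hval : ∀ w : HeightOneSpectrum (𝓞 F), w ≠ v.1 →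
      w.valuation F (algebraMap (𝓞 F) F a) = 1 := by
    intro w hw
    rw [HeightOneSpectrum.valuation_of_algebraMap, HeightOneSpectrum.intValuation_eq_one_iff]
    exact haw w hw
  have hmem : Units.mk0 _ hne ∈ S.unit F := by
    intro w hw
    apply hval w
    rintro rfl
    exact hw v.2
  refine ⟨Additive.ofMul ⟨Units.mk0 _ hne, hmem⟩,
    logVal F v.1 (Additive.ofMul (Units.mk0 _ hne)), ?_, rfl, ?_⟩
  · rw [Ne, logVal_eq_zero_iff]
    show ¬ v.1.valuation F (algebraMap (𝓞 F) F a) = 1
    rw [HeightOneSpectrum.valuation_of_algebraMap, HeightOneSpectrum.intValuation_eq_one_iff,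
      not_not]
    exact hav
  · intro w hwv
    rw [logMap_apply, logVal_eq_zero_iff]
    exact hval w.1 fun h => hwv (Subtype.ext h)

/-- The image of `logMap` has full rank. -/
theorem finrank_range_logMap (hS : S.Finite) :
    Module.finrank ℤ (LinearMap.range (logMap S)) = S.ncard := by
  classical
  have := hS.to_subtype
  let _ := Fintype.ofFinite S
  choose y n hn hy hy' using exists_logMap_eq_single S
  let D : (S → ℤ) →ₗ[ℤ] (S → ℤ) := LinearMap.pi fun v => n v • LinearMap.proj v
  have hD : ∀ (f : S → ℤ) (v : S), D f v = n v * f v := fun f v => rfl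
  have hDinj : Function.Injective D := by
    intro f f' h
    funext v
    have := congrFun h v
    rw [hD, hD] at this
    exact mul_left_cancel₀ (hn v) this
  have hle : LinearMap.range D ≤ LinearMap.range (logMap S) := by
    rintro _ ⟨f, rfl⟩
    refine ⟨∑ v, f v • y v, ?_⟩
    funext w
    rw [map_sum, Finset.sum_apply, hD]
    have : ∀ v ∈ Finset.univ, (logMap S (f v • y v)) w = if v = w then n w * f w else 0 := by
      intro v _
      rw [map_smul, Pi.smul_apply, smul_eq_mul]
      by_cases hvw : v = w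
      · subst hvw
        rw [if_pos rfl, hy, mul_comm]
      · rw [if_neg hvw, hy' v w (Ne.symm hvw), mul_zero]
    rw [Finset.sum_congr rfl this, Finset.sum_ite_eq' Finset.univ w]
    simp
  have h1 : Module.finrank ℤ (LinearMap.range D) = Module.finrank ℤ (S → ℤ) :=
    LinearMap.finrank_range_of_inj hDinj
  have h2 : Module.finrank ℤ (S → ℤ) = S.ncard := by
    rw [Module.finrank_pi, Set.ncard_eq_toFinset_card', Set.toFinset_card]
  have h3 := Submodule.finrank_mono hle
  have h4 := Submodule.finrank_le (LinearMap.range (logMap S))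
  omega

/-- **Dirichlet's `S`-unit theorem** (rank form): the `S`-units are finitely generated of rank
`rank 𝓞_F^× + #S`. -/
theorem sUnit_finite_and_finrank (hS : S.Finite) :
    Module.Finite ℤ (Additive (S.unit F)) ∧
      Module.finrank ℤ (Additive (S.unit F)) = Units.rank F + S.ncard := by
  have := hS.to_subtype
  obtain ⟨h1, h2⟩ := finite_and_finrank_of_exact (unitsIncl S) (logMap S) (unitsIncl_injective S)
    (unitsIncl_logMap_exact S)
  exact ⟨h1, by rw [h2, finrank_range_logMap S hS, Units.finrank_eq]⟩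

end Maps

end Fermat.Agent.CFT.SUnit
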