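import Fermat.Agent.CFT.Global.G04_lead_Content
import Fermat.Agent.CFT.Global.G2a_helper6_SUnits

/-!
# CFT (G0.4), part 3: the idelic `S`-units are Mathlib's `S`-units

`sUnits_eq_unit`: helper2's `sUnits F S` (elements of `Fˣ` which are units of the maximal order of
`ℚ_ℓ ⊗ F` for all `ℓ ∉ S`) is `(primesOver F S).unit F`; `ncard_primesOver`: the number of primes
over a finite `S` is `∑ ℓ ∈ S, #(Place ℓ F)`; hence Dirichlet's `S`-unit theorem
`sUnits_finite_and_finrank` in idelic form (from helper6's `SUnit.sUnit_finite_and_finrank`).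
-/

set_option autoImplicit false
set_option linter.style.haveILetI false
set_option linter.unusedSectionVars false

open scoped TensorProduct NumberField nonZeroDivisors
open NumberField
open IsLocalRing IsDedekindDomain

namespace Fermat.Agent.CFT

section sunits

variable {F : Type} [Field F] [NumberField F]

/-- The primes of `𝓞 F` over a set of rational primes. -/
def primesOver (F : Type) [Field F] [NumberField F] (S : Set Nat.Primes) :
    Set (HeightOneSpectrum (𝓞 F)) := {P | primeBelow P ∈ S}

lemma mem_primesOver_iff {S : Set Nat.Primes} {P : HeightOneSpectrum (𝓞 F)} :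
    P ∈ primesOver F S ↔ primeBelow P ∈ S := Iff.rfl

/-- **(D5)** the idelic `S`-units are Mathlib's `S`-units for the primes over `S`. -/
theorem sUnits_eq_unit (S : Set Nat.Primes) : sUnits F S = (primesOver F S).unit F := by
  ext a
  rw [mem_sUnits_iff]
  change _ ↔ ∀ v ∉ primesOver F S, v.valuation F (a : F) = 1
  constructor
  · intro h v hv
    have h1 := h (primeBelow v) hv
    have h2 : (FinIdele.diag F a) (primeBelow v) ∈ SemiLocal.unitGroup (primeBelow v) F := h1
    rw [FinIdele.mem_unitGroup_iff_ordP] at h2
    have h3 := h2 v (primeBelow_mem v)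
    rw [FinIdele.ordP_diag, neg_eq_zero] at h3
    have hne : v.valuation F (a : F) ≠ 0 := (Valuation.ne_zero_iff _).2 a.ne_zero
    rw [← WithZero.exp_log hne, h3, WithZero.exp_zero]
  · intro h ℓ hℓ
    have : (FinIdele.diag F a) ℓ ∈ SemiLocal.unitGroup ℓ F := by
      rw [FinIdele.mem_unitGroup_iff_ordP]
      intro P hP
      have hPS : P ∉ primesOver F S := by
        rw [mem_primesOver_iff, primeBelow_eq hP]; exact hℓ
      rw [FinIdele.ordP_diag, h P hPS, WithZero.log_one, neg_zero]
    exact this

/-- The primes over a finite set `S` of rational primes are in bijection with the places over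
the elements of `S`. -/
noncomputable def sigmaPlaceEquivPrimesOver (S : Finset Nat.Primes) :
    (Σ ℓ : S, Place (ℓ : Nat.Primes) F) ≃ primesOver F (S : Set Nat.Primes) :=
  Equiv.ofBijective
    (fun p => ⟨p.2.toHeightOne, by
      rw [mem_primesOver_iff, primeBelow_toHeightOne]; exact p.1.2⟩)
    (by
      constructor
      · rintro ⟨⟨ℓ, hℓ⟩, w⟩ ⟨⟨ℓ', hℓ'⟩, w'⟩ h
        have h1 : w.toHeightOne = w'.toHeightOne := congrArg Subtype.val h
        have h2 : ℓ = ℓ' := by
          refine prime_mem_unique w.toHeightOne w.natCast_mem_toPrime ?_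
          rw [h1]; exact w'.natCast_mem_toPrime
        subst h2
        have h3 : w = w' := Place.toPrime_injective (congrArg HeightOneSpectrum.asIdeal h1)
        subst h3
        rfl
      · rintro ⟨P, hP⟩
        obtain ⟨w, hw⟩ := exists_place_toHeightOne_eq P
        exact ⟨⟨⟨primeBelow P, hP⟩, w⟩, Subtype.ext hw⟩)

theorem ncard_primesOver (S : Finset Nat.Primes) :
    (primesOver F (S : Set Nat.Primes)).ncard = ∑ ℓ ∈ S, Nat.card (Place (ℓ : Nat.Primes) F) := by
  classical
  rw [← Nat.card_coe_set_eq, ← Nat.card_congr (sigmaPlaceEquivPrimesOver S), Nat.card_sigma]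
  exact Finset.sum_coe_sort S (fun ℓ : Nat.Primes => Nat.card (Place ℓ F))

theorem finite_primesOver (S : Finset Nat.Primes) : (primesOver F (S : Set Nat.Primes)).Finite := by
  haveI : Finite (Σ ℓ : S, Place (ℓ : Nat.Primes) F) := inferInstance
  haveI : Finite (primesOver F (S : Set Nat.Primes)) :=
    Finite.of_equiv _ (sigmaPlaceEquivPrimesOver S)
  exact Set.toFinite _

/-- **Dirichlet's `S`-unit theorem** for the idelic `S`-units. -/
theorem sUnits_finite_and_finrank (S : Finset Nat.Primes) :
    Module.Finite ℤ (Additive (sUnits F (S : Set Nat.Primes))) ∧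
      Module.finrank ℤ (Additive (sUnits F (S : Set Nat.Primes))) =
        Units.rank F + ∑ ℓ ∈ S, Nat.card (Place (ℓ : Nat.Primes) F) := by
  rw [sUnits_eq_unit, ← ncard_primesOver]
  exact SUnit.sUnit_finite_and_finrank _ (finite_primesOver S)

end sunits

end Fermat.Agent.CFT
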