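/-
CFT global part (G2), helper2: the abstract assembly of the first inequality:
`h(C_L) = h(J_{L,S}) / h(L_S)` for `J_L = L^× J_{L,S}`, and the numerical conclusion `h(C_L) = p`.
-/
import Fermat.Agent.CFT.Global.G2_helper2_SIdeles

set_option autoImplicit false

open scoped TensorProduct NumberField RestrictedProduct
open CategoryTheory

namespace Fermat.Agent.CFT

open Coh

section assembly

variable (K L : Type) [Field K] [Field L] [CharZero L] [Algebra K L] [Algebra.IsAlgebraic ℚ L]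
  [Finite (L ≃ₐ[K] L)] {S : Set Nat.Primes}

/-- `h(J_{L,S}) = h(L_S) · h(C_L)` for cyclic `Gal(L/K)`, as soon as `J_L = L^× J_{L,S}` and the
Herbrand quotients of `L_S` and `J_{L,S}` are defined. -/
theorem herbrand_ideleClassRep_mul {g : L ≃ₐ[K] L} (hg : ∀ σ, σ ∈ Subgroup.zpowers g)
    (hS : IdelesGeneratedBy L S) (hU : HerbrandFinite (sUnitRep K L S))
    (hJ : HerbrandFinite (sIdeleRep K L S)) :
    HerbrandFinite (ideleClassRep K L) ∧
      herbrand (sIdeleRep K L S) = herbrand (sUnitRep K L S) * herbrand (ideleClassRep K L) := by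
  obtain ⟨h, hX⟩ := exists_sShortExact K hS
  exact herbrand_mul₁₂ hX hg hU hJ

/-- The numerical form of the first inequality: if `h(J_{L,S}) = p^N` and `h(L_S) = p^(N-1)`,
then `h(C_L) = p`. -/
theorem herbrand_ideleClassRep_eq {g : L ≃ₐ[K] L} (hg : ∀ σ, σ ∈ Subgroup.zpowers g)
    (hS : IdelesGeneratedBy L S) {p : ℕ} (hp : p ≠ 0) (N : ℤ)
    (hU : HerbrandFinite (sUnitRep K L S)) (hUh : herbrand (sUnitRep K L S) = (p : ℚ) ^ (N - 1))
    (hJ : HerbrandFinite (sIdeleRep K L S)) (hJh : herbrand (sIdeleRep K L S) = (p : ℚ) ^ N) :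
    HerbrandFinite (ideleClassRep K L) ∧ herbrand (ideleClassRep K L) = p := by
  obtain ⟨hC, hmul⟩ := herbrand_ideleClassRep_mul K L hg hS hU hJ
  refine ⟨hC, ?_⟩
  have hp0 : (p : ℚ) ≠ 0 := by exact_mod_cast hp
  rw [hUh, hJh] at hmul
  have h1 : (p : ℚ) ^ N = (p : ℚ) ^ (N - 1) * p := by
    rw [zpow_sub_one₀ hp0, inv_mul_cancel_right₀ hp0]
  rw [h1] at hmul
  exact (mul_left_cancel₀ (zpow_ne_zero _ hp0) hmul).symm

end assembly

end Fermat.Agent.CFT
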