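/-
CFT global part (G0.1), helper7, part F: the Galois module structure of `(ℚ_ℓ ⊗ L)ˣ`: blocks over
the places of `K`, the product decomposition, split blocks are induced, nonsplit blocks are the
units of the completion with the local Galois action; integral twins.
-/
import Mathlib
import Fermat.Agent.CFT.Global.G01_helper7_Dichotomy
import Fermat.Agent.CFT.Coh.Cyclic_helper6_Induced

set_option autoImplicit false
set_option linter.unusedSectionVars false
set_option linter.style.haveILetI false

open scoped TensorProduct NumberField Pointwise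

namespace Fermat.Agent.CFT

open scoped SemiLocalRel

namespace Place

section UnitsTransport

variable {ℓ : ℕ} [Fact ℓ.Prime] {F : Type*} [Field F] [CharZero F]
  {G : Type*} [Group G] [MulSemiringAction G F]

theorem unitsProj_smul (σ : G) {W W' : Place ℓ F} (h : σ • W = W') (u : (SemiLocal ℓ F)ˣ) :
    W'.unitsProj (σ • u) =
      Units.map ((smulEquiv σ h : W.Completion ≃ₐ[ℚ_[ℓ]] W'.Completion) : W.Completion →* W'.Completion)
        (W.unitsProj u) :=
  Units.ext rfl

theorem unitsProj_smul_eq_one_iff (σ : G) {W W' : Place ℓ F} (h : σ • W = W')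
    (u : (SemiLocal ℓ F)ˣ) : W'.unitsProj (σ • u) = 1 ↔ W.unitsProj u = 1 := by
  rw [unitsProj_smul σ h]
  exact map_eq_one_iff _ (Units.map_injective (smulEquiv σ h).injective)

theorem unitsProj_smul_eq_iff (σ : G) {W W' : Place ℓ F} (h : σ • W = W')
    (u v : (SemiLocal ℓ F)ˣ) :
    W'.unitsProj (σ • u) = W'.unitsProj (σ • v) ↔ W.unitsProj u = W.unitsProj v := by
  rw [unitsProj_smul σ h, unitsProj_smul σ h]
  exact (Units.map_injective (smulEquiv σ h).injective).eq_iff

end UnitsTransport

section Single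

variable {ℓ : ℕ} [Fact ℓ.Prime] {F : Type*} [Field F] [NumberField F]

open Classical in
/-- the unit of `ℚ_ℓ ⊗ F` with component `z` at `W` and `1` at the other places. -/
noncomputable def singleOf (W : Place ℓ F) : W.Completionˣ →* (SemiLocal ℓ F)ˣ :=
  ((SemiLocal.unitsEquivPi ℓ F).symm.toMonoidHom).comp
    (MonoidHom.mulSingle (fun w : Place ℓ F => w.Completionˣ) W)

theorem unitsProj_singleOf_self (W : Place ℓ F) (z : W.Completionˣ) :
    W.unitsProj (singleOf W z) = z := by
  classical
  rw [← SemiLocal.unitsEquivPi_apply]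
  change (SemiLocal.unitsEquivPi ℓ F) ((SemiLocal.unitsEquivPi ℓ F).symm (Pi.mulSingle W z)) W = z
  rw [MulEquiv.apply_symm_apply, Pi.mulSingle_eq_same]

theorem unitsProj_singleOf_of_ne {W W' : Place ℓ F} (h : W' ≠ W) (z : W.Completionˣ) :
    W'.unitsProj (singleOf W z) = 1 := by
  classical
  rw [← SemiLocal.unitsEquivPi_apply]
  change (SemiLocal.unitsEquivPi ℓ F) ((SemiLocal.unitsEquivPi ℓ F).symm (Pi.mulSingle W z)) W' = 1
  rw [MulEquiv.apply_symm_apply, Pi.mulSingle_eq_of_ne h]

/-- keep only the `W`-component of a unit. -/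
noncomputable def singleUnits (W : Place ℓ F) : (SemiLocal ℓ F)ˣ →* (SemiLocal ℓ F)ˣ :=
  (singleOf W).comp W.unitsProj

theorem unitsProj_singleUnits_self (W : Place ℓ F) (u : (SemiLocal ℓ F)ˣ) :
    W.unitsProj (singleUnits W u) = W.unitsProj u :=
  unitsProj_singleOf_self W _

theorem unitsProj_singleUnits_of_ne {W W' : Place ℓ F} (h : W' ≠ W) (u : (SemiLocal ℓ F)ˣ) :
    W'.unitsProj (singleUnits W u) = 1 :=
  unitsProj_singleOf_of_ne h _

/-- the units supported at the single place `W`. -/
def supportedAt (W : Place ℓ F) : Subgroup (SemiLocal ℓ F)ˣ where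
  carrier := {u | ∀ W' : Place ℓ F, W' ≠ W → W'.unitsProj u = 1}
  one_mem' := fun _ _ => map_one _
  mul_mem' := fun {u v} hu hv W' h => by rw [map_mul, hu W' h, hv W' h, one_mul]
  inv_mem' := fun {u} hu W' h => by rw [map_inv, hu W' h, inv_one]

theorem mem_supportedAt_iff {W : Place ℓ F} {u : (SemiLocal ℓ F)ˣ} :
    u ∈ supportedAt W ↔ ∀ W' : Place ℓ F, W' ≠ W → W'.unitsProj u = 1 := Iff.rfl

theorem singleOf_mem_supportedAt (W : Place ℓ F) (z : W.Completionˣ) :
    singleOf W z ∈ supportedAt W := fun _ h => unitsProj_singleOf_of_ne h z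

theorem singleUnits_mem_supportedAt (W : Place ℓ F) (u : (SemiLocal ℓ F)ˣ) :
    singleUnits W u ∈ supportedAt W := singleOf_mem_supportedAt W _

theorem singleUnits_eq_self_of_mem {W : Place ℓ F} {u : (SemiLocal ℓ F)ˣ}
    (hu : u ∈ supportedAt W) : singleUnits W u = u := by
  apply SemiLocal.units_ext_proj
  intro W'
  by_cases h : W' = W
  · subst h
    exact unitsProj_singleUnits_self _ u
  · rw [unitsProj_singleUnits_of_ne h, hu W' h]

theorem singleUnits_eq_one_of_mem_ne {W W₁ : Place ℓ F} (h : W₁ ≠ W) {u : (SemiLocal ℓ F)ˣ}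
    (hu : u ∈ supportedAt W₁) : singleUnits W u = 1 := by
  rw [singleUnits, MonoidHom.comp_apply, hu W h.symm, map_one]

variable {G : Type*} [Group G] [MulSemiringAction G F]

/-- equivariance of `singleUnits`. -/
theorem smul_singleUnits (σ : G) (W : Place ℓ F) (u : (SemiLocal ℓ F)ˣ) :
    σ • singleUnits W u = singleUnits (σ • W) (σ • u) := by
  apply SemiLocal.units_ext_proj
  intro W''
  by_cases hc : W'' = σ • W
  · subst hc
    rw [unitsProj_singleUnits_self, unitsProj_smul_eq_iff σ rfl, unitsProj_singleUnits_self]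
  · rw [unitsProj_singleUnits_of_ne hc, unitsProj_smul_eq_one_iff σ (smul_inv_smul σ W'')]
    apply unitsProj_singleUnits_of_ne
    intro h
    apply hc
    rw [← h, smul_inv_smul]

theorem smul_mem_supportedAt_iff (σ : G) (W : Place ℓ F) (u : (SemiLocal ℓ F)ˣ) :
    σ • u ∈ supportedAt (σ • W) ↔ u ∈ supportedAt W := by
  constructor
  · intro h W' hW'
    have h1 := h (σ • W') (fun h2 => hW' (smul_left_cancel σ h2))
    rwa [unitsProj_smul_eq_one_iff σ rfl] at h1
  · intro h W' hW'
    rw [unitsProj_smul_eq_one_iff σ (smul_inv_smul σ W')]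
    apply h
    intro h2
    apply hW'
    rw [← h2, smul_inv_smul]

end Single

end Place

namespace SemiLocal

section Blocks

variable {ℓ : ℕ} [Fact ℓ.Prime] {K L : Type*} [Field K] [NumberField K] [Field L] [NumberField L]
  [Algebra K L] [FiniteDimensional K L] [IsGalois K L]

/-- the units of `ℚ_ℓ ⊗ L` supported over the place `w` of `K`: component `1` at all places of `L`
not above `w`. -/
def blockUnits (w : Place ℓ K) : Subgroup (SemiLocal ℓ L)ˣ where
  carrier := {u | ∀ W : Place ℓ L, W.under (K := K) ≠ w → W.unitsProj u = 1}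
  one_mem' := fun _ _ => map_one _
  mul_mem' := fun {u v} hu hv W h => by rw [map_mul, hu W h, hv W h, one_mul]
  inv_mem' := fun {u} hu W h => by rw [map_inv, hu W h, inv_one]

theorem mem_blockUnits_iff {w : Place ℓ K} {u : (SemiLocal ℓ L)ˣ} :
    u ∈ blockUnits (L := L) w ↔ ∀ W : Place ℓ L, W.under (K := K) ≠ w → W.unitsProj u = 1 :=
  Iff.rfl

theorem supportedAt_le_blockUnits (W : Place ℓ L) :
    Place.supportedAt W ≤ blockUnits (L := L) (W.under (K := K)) := by
  intro u hu W' hW'
  exact hu W' (fun h => hW' (by rw [h]))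

theorem smul_mem_blockUnits_iff (σ : L ≃ₐ[K] L) {w : Place ℓ K} {u : (SemiLocal ℓ L)ˣ} :
    σ • u ∈ blockUnits (L := L) w ↔ u ∈ blockUnits (L := L) w := by
  constructor
  · intro h W hW
    have h1 := h (σ • W) (by rwa [Place.under_smul])
    rwa [Place.unitsProj_smul_eq_one_iff σ rfl] at h1
  · intro h W hW
    rw [Place.unitsProj_smul_eq_one_iff σ (smul_inv_smul σ W)]
    apply h
    rwa [Place.under_smul]

/-- the Galois group acts on each block. -/
noncomputable instance blockUnitsAction (w : Place ℓ K) :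
    MulDistribMulAction (L ≃ₐ[K] L) (blockUnits (L := L) w) where
  smul σ u := ⟨σ • (u : (SemiLocal ℓ L)ˣ), (smul_mem_blockUnits_iff σ).mpr u.2⟩
  one_smul _ := Subtype.ext (one_smul _ _)
  mul_smul _ _ _ := Subtype.ext (mul_smul _ _ _)
  smul_mul _ _ _ := Subtype.ext (smul_mul' _ _ _)
  smul_one _ := Subtype.ext (smul_one _)

@[simp] theorem coe_smul_blockUnits (σ : L ≃ₐ[K] L) {w : Place ℓ K}
    (u : blockUnits (L := L) w) :
    ((σ • u : blockUnits (L := L) w) : (SemiLocal ℓ L)ˣ) = σ • (u : (SemiLocal ℓ L)ˣ) := rfl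

open Classical in
/-- the part of a unit over the place `w` of `K`. -/
noncomputable def blockPart (w : Place ℓ K) : (SemiLocal ℓ L)ˣ →* (SemiLocal ℓ L)ˣ where
  toFun u := (unitsEquivPi ℓ L).symm
    (fun W => if W.under (K := K) = w then W.unitsProj u else 1)
  map_one' := by
    rw [← map_one (unitsEquivPi ℓ L).symm]
    congr 1
    funext W
    split_ifs <;> simp
  map_mul' u v := by
    rw [← map_mul]
    congr 1
    funext W
    rw [Pi.mul_apply]
    split_ifs <;> simp

theorem unitsProj_blockPart_of_under_eq {w : Place ℓ K} {W : Place ℓ L}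
    (h : W.under (K := K) = w) (u : (SemiLocal ℓ L)ˣ) :
    W.unitsProj (blockPart w u) = W.unitsProj u := by
  classical
  rw [← unitsEquivPi_apply]
  change (unitsEquivPi ℓ L) ((unitsEquivPi ℓ L).symm _) W = _
  rw [MulEquiv.apply_symm_apply, if_pos h]

theorem unitsProj_blockPart_of_under_ne {w : Place ℓ K} {W : Place ℓ L}
    (h : W.under (K := K) ≠ w) (u : (SemiLocal ℓ L)ˣ) :
    W.unitsProj (blockPart w u) = 1 := by
  classical
  rw [← unitsEquivPi_apply]
  change (unitsEquivPi ℓ L) ((unitsEquivPi ℓ L).symm _) W = _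
  rw [MulEquiv.apply_symm_apply, if_neg h]

theorem blockPart_mem (w : Place ℓ K) (u : (SemiLocal ℓ L)ˣ) :
    blockPart w u ∈ blockUnits (L := L) w :=
  fun _ h => unitsProj_blockPart_of_under_ne h u

theorem blockPart_eq_self_of_mem {w : Place ℓ K} {u : (SemiLocal ℓ L)ˣ}
    (hu : u ∈ blockUnits (L := L) w) : blockPart w u = u := by
  apply units_ext_proj
  intro W
  by_cases h : W.under (K := K) = w
  · rw [unitsProj_blockPart_of_under_eq h]
  · rw [unitsProj_blockPart_of_under_ne h, hu W h]

theorem blockPart_eq_one_of_mem_ne {w w' : Place ℓ K} (h : w' ≠ w) {u : (SemiLocal ℓ L)ˣ}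
    (hu : u ∈ blockUnits (L := L) w') : blockPart w u = 1 := by
  apply units_ext_proj
  intro W
  rw [map_one]
  by_cases h1 : W.under (K := K) = w
  · rw [unitsProj_blockPart_of_under_eq h1]
    exact hu W (by rw [h1]; exact h.symm)
  · rw [unitsProj_blockPart_of_under_ne h1]

theorem prod_blockPart [Fintype (Place ℓ K)] (u : (SemiLocal ℓ L)ˣ) :
    ∏ w : Place ℓ K, blockPart w u = u := by
  apply units_ext_proj
  intro W
  rw [map_prod, Finset.prod_eq_single (W.under (K := K))
    (fun w _ hw => unitsProj_blockPart_of_under_ne (Ne.symm hw) u)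
    (fun h => absurd (Finset.mem_univ _) h), unitsProj_blockPart_of_under_eq rfl]

/-- equivariance of `blockPart`. -/
theorem smul_blockPart (σ : L ≃ₐ[K] L) (w : Place ℓ K) (u : (SemiLocal ℓ L)ˣ) :
    σ • blockPart w u = blockPart w (σ • u) := by
  apply units_ext_proj
  intro W
  by_cases h : W.under (K := K) = w
  · rw [unitsProj_blockPart_of_under_eq h, Place.unitsProj_smul_eq_iff σ (smul_inv_smul σ W),
      unitsProj_blockPart_of_under_eq (by rwa [Place.under_smul])]
  · rw [unitsProj_blockPart_of_under_ne h, Place.unitsProj_smul_eq_one_iff σ (smul_inv_smul σ W),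
      unitsProj_blockPart_of_under_ne (by rwa [Place.under_smul])]

/-- BLOCK DECOMPOSITION: `(ℚ_ℓ ⊗ L)ˣ` is the product of its blocks over the places of `K`. -/
noncomputable def blockEquiv :
    (SemiLocal ℓ L)ˣ ≃* Π w : Place ℓ K, blockUnits (L := L) w where
  toFun u w := ⟨blockPart w u, blockPart_mem w u⟩
  invFun f := ∏ᶠ w : Place ℓ K, (f w : (SemiLocal ℓ L)ˣ)
  left_inv u := by
    letI : Fintype (Place ℓ K) := Fintype.ofFinite _
    change ∏ᶠ w : Place ℓ K, blockPart w u = u
    rw [finprod_eq_prod_of_fintype]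
    exact prod_blockPart u
  right_inv f := by
    letI : Fintype (Place ℓ K) := Fintype.ofFinite _
    funext w
    apply Subtype.ext
    change blockPart w (∏ᶠ w' : Place ℓ K, (f w' : (SemiLocal ℓ L)ˣ)) = f w
    rw [finprod_eq_prod_of_fintype, map_prod, Finset.prod_eq_single w
      (fun w' _ hw' => blockPart_eq_one_of_mem_ne hw' (f w').2)
      (fun h => absurd (Finset.mem_univ _) h), blockPart_eq_self_of_mem (f w).2]
  map_mul' u v := by
    funext w
    apply Subtype.ext
    exact map_mul (blockPart w) u v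

@[simp] theorem coe_blockEquiv_apply (u : (SemiLocal ℓ L)ˣ) (w : Place ℓ K) :
    ((blockEquiv (K := K) u w : blockUnits (L := L) w) : (SemiLocal ℓ L)ˣ) = blockPart w u := rfl

theorem blockEquiv_smul (σ : L ≃ₐ[K] L) (u : (SemiLocal ℓ L)ˣ) (w : Place ℓ K) :
    blockEquiv (K := K) (σ • u) w = σ • blockEquiv (K := K) u w :=
  Subtype.ext (smul_blockPart σ w u).symm

theorem unitsProj_blockEquiv {w : Place ℓ K} {W : Place ℓ L} (h : W.under (K := K) = w)
    (u : (SemiLocal ℓ L)ˣ) :
    W.unitsProj ((blockEquiv (K := K) u w : blockUnits (L := L) w) : (SemiLocal ℓ L)ˣ) =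
      W.unitsProj u :=
  unitsProj_blockPart_of_under_eq h u

theorem blockEquiv_symm_apply [Fintype (Place ℓ K)]
    (f : Π w : Place ℓ K, blockUnits (L := L) w) :
    (blockEquiv (K := K)).symm f = ∏ w : Place ℓ K, (f w : (SemiLocal ℓ L)ˣ) := by
  change ∏ᶠ w : Place ℓ K, (f w : (SemiLocal ℓ L)ˣ) = _
  rw [finprod_eq_prod_of_fintype]

end Blocks

end SemiLocal

section InducedBridge

/-- the `ℤ`-submodule of `Additive M` attached to a subgroup of `M`. -/
def additiveSubmodule {M : Type} [CommGroup M] (N : Subgroup M) : Submodule ℤ (Additive M) :=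
  AddSubgroup.toIntSubmodule (Subgroup.toAddSubgroup N)

theorem mem_additiveSubmodule_iff {M : Type} [CommGroup M] (N : Subgroup M) (x : Additive M) :
    x ∈ additiveSubmodule N ↔ Additive.toMul x ∈ N := Iff.rfl

/-- multiplicative criterion for helper6's `IsInducedBy`: if every element of the `G`-module `M`
is uniquely `∏ σ, σ • n σ` with `n σ ∈ N`, then `M` is induced by `N`. -/
theorem isInducedBy_ofMulDistribMulAction {G M : Type} [Group G] [Fintype G] [CommGroup M]
    [MulDistribMulAction G M] (N : Subgroup M)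
    (h : Function.Bijective (fun f : G → N => ∏ σ : G, σ • (f σ : M))) :
    Coh.IsInducedBy (Rep.ofMulDistribMulAction G M) (additiveSubmodule (M := M) N) := by
  unfold Coh.IsInducedBy
  let e : (G → ↥(additiveSubmodule N)) ≃ (G → N) :=
    Equiv.piCongrRight fun _ =>
      { toFun := fun x => ⟨Additive.toMul (x : Additive M), x.2⟩
        invFun := fun n => ⟨Additive.ofMul (n : M), n.2⟩
        left_inv := fun _ => rfl
        right_inv := fun _ => rfl }
  have key : (fun w : G → ↥(additiveSubmodule N) =>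
      ∑ᶠ g, (Rep.ofMulDistribMulAction G M).ρ g (w g : Additive M)) =
      (fun m : M => (Additive.ofMul m : Additive M)) ∘
        (fun f : G → N => ∏ σ : G, σ • (f σ : M)) ∘ e := by
    funext w
    rw [finsum_eq_sum_of_fintype]
    change _ = Additive.ofMul (∏ σ : G, σ • (e w σ : M))
    rw [ofMul_prod]
    rfl
  exact key ▸ (Additive.ofMul.bijective).comp (h.comp e.bijective)

end InducedBridge

namespace SemiLocal

section Split

variable {ℓ : ℕ} [Fact ℓ.Prime] {K L : Type*} [Field K] [NumberField K] [Field L] [NumberField L]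
  [Algebra K L] [FiniteDimensional K L] [IsGalois K L]

theorem smul_ne_smul_of_stabilizer_eq_bot {W : Place ℓ L}
    (hW : MulAction.stabilizer (L ≃ₐ[K] L) W = ⊥) {σ τ : L ≃ₐ[K] L} (h : σ ≠ τ) :
    σ • W ≠ τ • W := by
  intro h1
  apply h
  have h2 : τ⁻¹ * σ ∈ MulAction.stabilizer (L ≃ₐ[K] L) W := by
    rw [MulAction.mem_stabilizer_iff, mul_smul, h1, inv_smul_smul]
  rw [hW, Subgroup.mem_bot, inv_mul_eq_one] at h2
  exact h2.symm

/-- SPLIT: a unit of the block over `W.under` is the product of its single components at the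
conjugates of `W`. -/
theorem prod_singleUnits_smul (W : Place ℓ L)
    (hW : MulAction.stabilizer (L ≃ₐ[K] L) W = ⊥) {u : (SemiLocal ℓ L)ˣ}
    (hu : u ∈ blockUnits (L := L) (W.under (K := K))) :
    ∏ σ : L ≃ₐ[K] L, Place.singleUnits (σ • W) u = u := by
  apply units_ext_proj
  intro W''
  rw [map_prod]
  by_cases h : W''.under (K := K) = W.under
  · obtain ⟨σ₀, rfl⟩ := Place.exists_smul_eq_of_under_eq h.symm
    rw [Finset.prod_eq_single σ₀ (fun σ _ hσ => Place.unitsProj_singleUnits_of_ne
      (smul_ne_smul_of_stabilizer_eq_bot hW hσ.symm) u)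
      (fun h => absurd (Finset.mem_univ _) h), Place.unitsProj_singleUnits_self]
  · rw [hu W'' h]
    refine Finset.prod_eq_one fun σ _ => Place.unitsProj_singleUnits_of_ne ?_ u
    intro h1
    apply h
    rw [h1, Place.under_smul]

/-- SPLIT: the `τ • W`-part of `∏ σ, σ • g σ` with all `g σ` supported at `W` is `τ • g τ`. -/
theorem singleUnits_prod_smul (W : Place ℓ L)
    (hW : MulAction.stabilizer (L ≃ₐ[K] L) W = ⊥) (g : (L ≃ₐ[K] L) → (SemiLocal ℓ L)ˣ)
    (hg : ∀ σ, g σ ∈ Place.supportedAt W) (τ : L ≃ₐ[K] L) :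
    Place.singleUnits (τ • W) (∏ σ : L ≃ₐ[K] L, σ • g σ) = τ • g τ := by
  rw [map_prod, Finset.prod_eq_single τ (fun σ _ hσ => Place.singleUnits_eq_one_of_mem_ne
      (smul_ne_smul_of_stabilizer_eq_bot hW hσ)
      ((Place.smul_mem_supportedAt_iff σ W (g σ)).mpr (hg σ)))
    (fun h => absurd (Finset.mem_univ _) h)]
  exact Place.singleUnits_eq_self_of_mem ((Place.smul_mem_supportedAt_iff τ W (g τ)).mpr (hg τ))

/-- SPLIT: the block over a split place is induced from the units supported at one place above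
(multiplicative form). -/
theorem blockUnits_induced_bijective (W : Place ℓ L)
    (hW : MulAction.stabilizer (L ≃ₐ[K] L) W = ⊥) :
    Function.Bijective (fun f : (L ≃ₐ[K] L) →
        ((Place.supportedAt W).subgroupOf (blockUnits (L := L) (W.under (K := K)))) =>
      ∏ σ : L ≃ₐ[K] L, σ • ((f σ : blockUnits (L := L) (W.under (K := K))))) := by
  have hcoe : ∀ f : (L ≃ₐ[K] L) →
        ((Place.supportedAt W).subgroupOf (blockUnits (L := L) (W.under (K := K)))),
      ((∏ σ : L ≃ₐ[K] L, σ • ((f σ : blockUnits (L := L) (W.under (K := K)))) :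
        blockUnits (L := L) (W.under (K := K))) : (SemiLocal ℓ L)ˣ) =
      ∏ σ : L ≃ₐ[K] L, σ • (((f σ : blockUnits (L := L) (W.under (K := K))) :
        (SemiLocal ℓ L)ˣ)) := by
    intro f
    rw [Subgroup.val_finsetProd]
    rfl
  constructor
  · intro f f' h
    funext τ
    apply Subtype.ext
    apply Subtype.ext
    have h1 := congrArg (fun x : blockUnits (L := L) (W.under (K := K)) =>
      Place.singleUnits (τ • W) (x : (SemiLocal ℓ L)ˣ)) h
    simp only [hcoe] at h1
    rw [singleUnits_prod_smul W hW (fun σ => ((f σ : blockUnits (L := L) (W.under (K := K))) :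
        (SemiLocal ℓ L)ˣ)) (fun σ => (f σ).2) τ,
      singleUnits_prod_smul W hW (fun σ => ((f' σ : blockUnits (L := L) (W.under (K := K))) :
        (SemiLocal ℓ L)ˣ)) (fun σ => (f' σ).2) τ] at h1
    exact smul_left_cancel τ h1
  · intro u
    refine ⟨fun σ => ⟨⟨Place.singleUnits W (σ⁻¹ • (u : (SemiLocal ℓ L)ˣ)),
      supportedAt_le_blockUnits W (Place.singleUnits_mem_supportedAt W _)⟩,
      Place.singleUnits_mem_supportedAt W _⟩, ?_⟩
    apply Subtype.ext
    rw [hcoe]
    change ∏ σ : L ≃ₐ[K] L, σ • Place.singleUnits W (σ⁻¹ • (u : (SemiLocal ℓ L)ˣ)) = u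
    simp only [Place.smul_singleUnits, smul_inv_smul]
    exact prod_singleUnits_smul W hW u.2

end Split

section SplitRep

variable {ℓ : ℕ} [Fact ℓ.Prime] {K L : Type} [Field K] [NumberField K] [Field L] [NumberField L]
  [Algebra K L] [FiniteDimensional K L] [IsGalois K L]

/-- SPLIT: the block over a split place is induced (helper6's `IsInducedBy`), hence has trivial
Tate cohomology and Herbrand quotient `1`. -/
theorem isInducedBy_blockUnits (W : Place ℓ L)
    (hW : MulAction.stabilizer (L ≃ₐ[K] L) W = ⊥) :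
    ∃ N : Submodule ℤ
        (Rep.ofMulDistribMulAction (L ≃ₐ[K] L) (blockUnits (L := L) (W.under (K := K)))).V,
      Coh.IsInducedBy
        (Rep.ofMulDistribMulAction (L ≃ₐ[K] L) (blockUnits (L := L) (W.under (K := K)))) N :=
  ⟨_, isInducedBy_ofMulDistribMulAction _ (blockUnits_induced_bijective W hW)⟩

end SplitRep

section Nonsplit

variable {ℓ : ℕ} [Fact ℓ.Prime] {K L : Type*} [Field K] [NumberField K] [Field L] [NumberField L]
  [Algebra K L] [FiniteDimensional K L] [IsGalois K L]

theorem blockUnits_eq_supportedAt_of_stabilizer_eq_top (W : Place ℓ L)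
    (hW : MulAction.stabilizer (L ≃ₐ[K] L) W = ⊤) :
    blockUnits (L := L) (W.under (K := K)) = Place.supportedAt W := by
  apply le_antisymm
  · intro u hu W' hW'
    apply hu W'
    intro h
    exact hW' (Place.eq_of_under_eq_of_stabilizer_eq_top h.symm hW)
  · exact supportedAt_le_blockUnits W

/-- NONSPLIT: the block over a nonsplit place is the unit group of the completion at the unique
place above. -/
noncomputable def blockUnitsEquiv (W : Place ℓ L)
    (hW : MulAction.stabilizer (L ≃ₐ[K] L) W = ⊤) :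
    blockUnits (L := L) (W.under (K := K)) ≃* W.Completionˣ where
  toFun u := W.unitsProj (u : (SemiLocal ℓ L)ˣ)
  invFun z := ⟨Place.singleOf W z, supportedAt_le_blockUnits W (Place.singleOf_mem_supportedAt W z)⟩
  left_inv u := by
    apply Subtype.ext
    have hu : (u : (SemiLocal ℓ L)ˣ) ∈ Place.supportedAt W := by
      rw [← blockUnits_eq_supportedAt_of_stabilizer_eq_top W hW]; exact u.2
    exact Place.singleUnits_eq_self_of_mem hu
  right_inv z := Place.unitsProj_singleOf_self W z
  map_mul' u v := map_mul W.unitsProj _ _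

@[simp] theorem blockUnitsEquiv_apply (W : Place ℓ L)
    (hW : MulAction.stabilizer (L ≃ₐ[K] L) W = ⊤) (u : blockUnits (L := L) (W.under (K := K))) :
    blockUnitsEquiv W hW u = W.unitsProj (u : (SemiLocal ℓ L)ˣ) := rfl

/-- shortcut instance (the generic search through the quotient-module instances is very slow):
the local Galois group acts on the units of the completion (Mathlib's
`AlgEquiv.instMulDistribMulActionUnits`, the action behind `Rep.ofAlgebraAutOnUnits`). -/
noncomputable instance completionAutUnitsAction (W : Place ℓ L) :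
    MulDistribMulAction (W.Completion ≃ₐ[(W.under (K := K)).Completion] W.Completion)
      W.Completionˣ :=
  AlgEquiv.instMulDistribMulActionUnits

noncomputable instance completionAutUnitsMulAction (W : Place ℓ L) :
    MulAction (W.Completion ≃ₐ[(W.under (K := K)).Completion] W.Completion) W.Completionˣ :=
  (completionAutUnitsAction (K := K) W).toMulAction

noncomputable instance completionAutUnitsSemigroupAction (W : Place ℓ L) :
    SemigroupAction (W.Completion ≃ₐ[(W.under (K := K)).Completion] W.Completion)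
      W.Completionˣ :=
  (completionAutUnitsMulAction (K := K) W).toSemigroupAction

noncomputable instance completionAutUnitsSMul (W : Place ℓ L) :
    SMul (W.Completion ≃ₐ[(W.under (K := K)).Completion] W.Completion) W.Completionˣ :=
  (completionAutUnitsAction (K := K) W).toSMul

theorem coe_completionAut_smul (W : Place ℓ L)
    (τ : W.Completion ≃ₐ[(W.under (K := K)).Completion] W.Completion) (z : W.Completionˣ) :
    ((τ • z : W.Completionˣ) : W.Completion) = τ (z : W.Completion) := rfl

/-- NONSPLIT: the identification of the block with `(L_W)ˣ` is equivariant along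
`Gal(L/K) = Gal(L_W/K_w)`. -/
theorem blockUnitsEquiv_smul (W : Place ℓ L)
    (hW : MulAction.stabilizer (L ≃ₐ[K] L) W = ⊤) (σ : L ≃ₐ[K] L)
    (u : blockUnits (L := L) (W.under (K := K))) :
    blockUnitsEquiv W hW (σ • u) =
      (Place.galEquivOfStabilizerEqTop W hW σ) • blockUnitsEquiv W hW u :=
  Units.ext rfl

end Nonsplit

/-! ### Integral twins -/

section IntegralSingle

variable {ℓ : ℕ} [Fact ℓ.Prime] {F : Type*} [Field F] [NumberField F]

theorem singleOf_mem_unitGroup_iff (W : Place ℓ F) (z : W.Completionˣ) :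
    Place.singleOf W z ∈ unitGroup ℓ F ↔ z ∈ W.integerUnits := by
  rw [mem_unitGroup_iff_forall]
  constructor
  · intro h
    have := h W
    rwa [Place.unitsProj_singleOf_self] at this
  · intro h W'
    by_cases hW' : W' = W
    · subst hW'
      rwa [Place.unitsProj_singleOf_self]
    · rw [Place.unitsProj_singleOf_of_ne hW']
      exact one_mem _

theorem singleUnits_mem_unitGroup (W : Place ℓ F) {u : (SemiLocal ℓ F)ˣ}
    (hu : u ∈ unitGroup ℓ F) : Place.singleUnits W u ∈ unitGroup ℓ F :=
  (singleOf_mem_unitGroup_iff W _).mpr (mem_unitGroup_iff_forall.mp hu W)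

/-- a group acting on `F` acts on the units of the maximal order of `ℚ_ℓ ⊗ F`. -/
noncomputable instance unitGroupAction {G : Type*} [Group G] [MulSemiringAction G F] :
    MulDistribMulAction G (unitGroup ℓ F) where
  smul σ u := ⟨σ • (u : (SemiLocal ℓ F)ˣ), (smul_mem_unitGroup_iff ℓ σ).mpr u.2⟩
  one_smul _ := Subtype.ext (one_smul _ _)
  mul_smul _ _ _ := Subtype.ext (mul_smul _ _ _)
  smul_mul _ _ _ := Subtype.ext (smul_mul' _ _ _)
  smul_one _ := Subtype.ext (smul_one _)

@[simp] theorem coe_smul_unitGroup {G : Type*} [Group G] [MulSemiringAction G F] (σ : G)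
    (u : unitGroup ℓ F) :
    ((σ • u : unitGroup ℓ F) : (SemiLocal ℓ F)ˣ) = σ • (u : (SemiLocal ℓ F)ˣ) := rfl

end IntegralSingle

section IntegralBlocks

variable {ℓ : ℕ} [Fact ℓ.Prime] {K L : Type*} [Field K] [NumberField K] [Field L] [NumberField L]
  [Algebra K L] [FiniteDimensional K L] [IsGalois K L]

theorem blockPart_mem_unitGroup (w : Place ℓ K) {u : (SemiLocal ℓ L)ˣ}
    (hu : u ∈ unitGroup ℓ L) : blockPart w u ∈ unitGroup ℓ L := by
  rw [mem_unitGroup_iff_forall] at hu ⊢
  intro W
  by_cases h : W.under (K := K) = w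
  · rw [unitsProj_blockPart_of_under_eq h]
    exact hu W
  · rw [unitsProj_blockPart_of_under_ne h]
    exact one_mem _

/-- the units of the maximal order of `ℚ_ℓ ⊗ L` supported over the place `w` of `K`. -/
noncomputable def blockIntegerUnits (w : Place ℓ K) : Subgroup (SemiLocal ℓ L)ˣ :=
  blockUnits (L := L) w ⊓ unitGroup ℓ L

theorem mem_blockIntegerUnits_iff {w : Place ℓ K} {u : (SemiLocal ℓ L)ˣ} :
    u ∈ blockIntegerUnits (L := L) w ↔ u ∈ blockUnits (L := L) w ∧ u ∈ unitGroup ℓ L :=
  Subgroup.mem_inf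

theorem smul_mem_blockIntegerUnits_iff (σ : L ≃ₐ[K] L) {w : Place ℓ K}
    {u : (SemiLocal ℓ L)ˣ} :
    σ • u ∈ blockIntegerUnits (L := L) w ↔ u ∈ blockIntegerUnits (L := L) w := by
  rw [mem_blockIntegerUnits_iff, mem_blockIntegerUnits_iff, smul_mem_blockUnits_iff,
    smul_mem_unitGroup_iff]

noncomputable instance blockIntegerUnitsAction (w : Place ℓ K) :
    MulDistribMulAction (L ≃ₐ[K] L) (blockIntegerUnits (L := L) w) where
  smul σ u := ⟨σ • (u : (SemiLocal ℓ L)ˣ), (smul_mem_blockIntegerUnits_iff σ).mpr u.2⟩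
  one_smul _ := Subtype.ext (one_smul _ _)
  mul_smul _ _ _ := Subtype.ext (mul_smul _ _ _)
  smul_mul _ _ _ := Subtype.ext (smul_mul' _ _ _)
  smul_one _ := Subtype.ext (smul_one _)

@[simp] theorem coe_smul_blockIntegerUnits (σ : L ≃ₐ[K] L) {w : Place ℓ K}
    (u : blockIntegerUnits (L := L) w) :
    ((σ • u : blockIntegerUnits (L := L) w) : (SemiLocal ℓ L)ˣ) = σ • (u : (SemiLocal ℓ L)ˣ) :=
  rfl

/-- BLOCK DECOMPOSITION, integral: the unit group of the maximal order of `ℚ_ℓ ⊗ L` is the product
of its blocks over the places of `K`. -/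
noncomputable def integerBlockEquiv :
    unitGroup ℓ L ≃* Π w : Place ℓ K, blockIntegerUnits (L := L) w where
  toFun u w := ⟨blockPart w (u : (SemiLocal ℓ L)ˣ),
    mem_blockIntegerUnits_iff.mpr ⟨blockPart_mem w _, blockPart_mem_unitGroup w u.2⟩⟩
  invFun f := ⟨∏ᶠ w : Place ℓ K, (f w : (SemiLocal ℓ L)ˣ), by
    letI : Fintype (Place ℓ K) := Fintype.ofFinite _
    rw [finprod_eq_prod_of_fintype]
    exact Subgroup.prod_mem _ fun w _ => (mem_blockIntegerUnits_iff.mp (f w).2).2⟩
  left_inv u := by
    letI : Fintype (Place ℓ K) := Fintype.ofFinite _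
    apply Subtype.ext
    change ∏ᶠ w : Place ℓ K, blockPart w (u : (SemiLocal ℓ L)ˣ) = u
    rw [finprod_eq_prod_of_fintype]
    exact prod_blockPart _
  right_inv f := by
    letI : Fintype (Place ℓ K) := Fintype.ofFinite _
    funext w
    apply Subtype.ext
    change blockPart w (∏ᶠ w' : Place ℓ K, (f w' : (SemiLocal ℓ L)ˣ)) = f w
    rw [finprod_eq_prod_of_fintype, map_prod, Finset.prod_eq_single w
      (fun w' _ hw' => blockPart_eq_one_of_mem_ne hw' (mem_blockIntegerUnits_iff.mp (f w').2).1)
      (fun h => absurd (Finset.mem_univ _) h),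
      blockPart_eq_self_of_mem (mem_blockIntegerUnits_iff.mp (f w).2).1]
  map_mul' u v := by
    funext w
    apply Subtype.ext
    exact map_mul (blockPart w) _ _

@[simp] theorem coe_integerBlockEquiv_apply (u : unitGroup ℓ L) (w : Place ℓ K) :
    ((integerBlockEquiv (K := K) u w : blockIntegerUnits (L := L) w) : (SemiLocal ℓ L)ˣ) =
      blockPart w (u : (SemiLocal ℓ L)ˣ) := rfl

theorem integerBlockEquiv_smul (σ : L ≃ₐ[K] L) (u : unitGroup ℓ L) (w : Place ℓ K) :
    integerBlockEquiv (K := K) (σ • u) w = σ • integerBlockEquiv (K := K) u w :=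
  Subtype.ext (smul_blockPart σ w _).symm

/-- SPLIT, integral: the integral block over a split place is induced from the units of the
maximal order supported at one place above (multiplicative form). -/
theorem blockIntegerUnits_induced_bijective (W : Place ℓ L)
    (hW : MulAction.stabilizer (L ≃ₐ[K] L) W = ⊥) :
    Function.Bijective (fun f : (L ≃ₐ[K] L) →
        ((Place.supportedAt W).subgroupOf (blockIntegerUnits (L := L) (W.under (K := K)))) =>
      ∏ σ : L ≃ₐ[K] L, σ • ((f σ : blockIntegerUnits (L := L) (W.under (K := K))))) := by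
  have hcoe : ∀ f : (L ≃ₐ[K] L) →
        ((Place.supportedAt W).subgroupOf (blockIntegerUnits (L := L) (W.under (K := K)))),
      ((∏ σ : L ≃ₐ[K] L, σ • ((f σ : blockIntegerUnits (L := L) (W.under (K := K)))) :
        blockIntegerUnits (L := L) (W.under (K := K))) : (SemiLocal ℓ L)ˣ) =
      ∏ σ : L ≃ₐ[K] L, σ • (((f σ : blockIntegerUnits (L := L) (W.under (K := K))) :
        (SemiLocal ℓ L)ˣ)) := by
    intro f
    rw [Subgroup.val_finsetProd]
    rfl
  constructor
  · intro f f' h
    funext τ
    apply Subtype.ext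
    apply Subtype.ext
    have h1 := congrArg (fun x : blockIntegerUnits (L := L) (W.under (K := K)) =>
      Place.singleUnits (τ • W) (x : (SemiLocal ℓ L)ˣ)) h
    simp only [hcoe] at h1
    rw [singleUnits_prod_smul W hW
        (fun σ => ((f σ : blockIntegerUnits (L := L) (W.under (K := K))) : (SemiLocal ℓ L)ˣ))
        (fun σ => (f σ).2) τ,
      singleUnits_prod_smul W hW
        (fun σ => ((f' σ : blockIntegerUnits (L := L) (W.under (K := K))) : (SemiLocal ℓ L)ˣ))
        (fun σ => (f' σ).2) τ] at h1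
    exact smul_left_cancel τ h1
  · intro u
    have hu := mem_blockIntegerUnits_iff.mp u.2
    refine ⟨fun σ => ⟨⟨Place.singleUnits W (σ⁻¹ • (u : (SemiLocal ℓ L)ˣ)),
      mem_blockIntegerUnits_iff.mpr
        ⟨supportedAt_le_blockUnits W (Place.singleUnits_mem_supportedAt W _),
          singleUnits_mem_unitGroup W ((smul_mem_unitGroup_iff ℓ σ⁻¹).mpr hu.2)⟩⟩,
      Place.singleUnits_mem_supportedAt W _⟩, ?_⟩
    apply Subtype.ext
    rw [hcoe]
    change ∏ σ : L ≃ₐ[K] L, σ • Place.singleUnits W (σ⁻¹ • (u : (SemiLocal ℓ L)ˣ)) = u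
    simp only [Place.smul_singleUnits, smul_inv_smul]
    exact prod_singleUnits_smul W hW hu.1

end IntegralBlocks

section IntegralSplitRep

variable {ℓ : ℕ} [Fact ℓ.Prime] {K L : Type} [Field K] [NumberField K] [Field L] [NumberField L]
  [Algebra K L] [FiniteDimensional K L] [IsGalois K L]

/-- SPLIT, integral: the integral block over a split place is induced. -/
theorem isInducedBy_blockIntegerUnits (W : Place ℓ L)
    (hW : MulAction.stabilizer (L ≃ₐ[K] L) W = ⊥) :
    ∃ N : Submodule ℤ (Rep.ofMulDistribMulAction (L ≃ₐ[K] L)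
          (blockIntegerUnits (L := L) (W.under (K := K)))).V,
      Coh.IsInducedBy (Rep.ofMulDistribMulAction (L ≃ₐ[K] L)
          (blockIntegerUnits (L := L) (W.under (K := K)))) N :=
  ⟨_, isInducedBy_ofMulDistribMulAction _ (blockIntegerUnits_induced_bijective W hW)⟩

end IntegralSplitRep

section IntegralNonsplit

variable {ℓ : ℕ} [Fact ℓ.Prime] {K L : Type*} [Field K] [NumberField K] [Field L] [NumberField L]
  [Algebra K L] [FiniteDimensional K L] [IsGalois K L]

theorem completionAut_mem_integers_iff (W : Place ℓ L)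
    (τ : W.Completion ≃ₐ[(W.under (K := K)).Completion] W.Completion) (z : W.Completion) :
    τ z ∈ W.integers ↔ z ∈ W.integers :=
  isIntegral_algEquiv (τ.restrictScalars ℤ_[ℓ])

theorem completionAut_smul_mem_integerUnits_iff (W : Place ℓ L)
    (τ : W.Completion ≃ₐ[(W.under (K := K)).Completion] W.Completion) (z : W.Completionˣ) :
    τ • z ∈ W.integerUnits ↔ z ∈ W.integerUnits := by
  rw [Place.mem_integerUnits_iff, Place.mem_integerUnits_iff, ← smul_inv', coe_completionAut_smul,
    coe_completionAut_smul]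
  exact and_congr (completionAut_mem_integers_iff W τ _) (completionAut_mem_integers_iff W τ _)

/-- the local Galois group acts on the units of the valuation ring of the completion. -/
noncomputable instance integerUnitsAction (W : Place ℓ L) :
    MulDistribMulAction (W.Completion ≃ₐ[(W.under (K := K)).Completion] W.Completion)
      W.integerUnits where
  smul τ z := ⟨τ • (z : W.Completionˣ), (completionAut_smul_mem_integerUnits_iff W τ _).mpr z.2⟩
  one_smul _ := Subtype.ext (one_smul _ _)
  mul_smul _ _ _ := Subtype.ext (mul_smul _ _ _)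
  smul_mul _ _ _ := Subtype.ext (smul_mul' _ _ _)
  smul_one _ := Subtype.ext (smul_one _)

@[simp] theorem coe_smul_integerUnits (W : Place ℓ L)
    (τ : W.Completion ≃ₐ[(W.under (K := K)).Completion] W.Completion) (z : W.integerUnits) :
    ((τ • z : W.integerUnits) : W.Completionˣ) = τ • (z : W.Completionˣ) := rfl

/-- NONSPLIT, integral: the integral block over a nonsplit place is the unit group of the
valuation ring of the completion at the unique place above. -/
noncomputable def blockIntegerUnitsEquiv (W : Place ℓ L)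
    (hW : MulAction.stabilizer (L ≃ₐ[K] L) W = ⊤) :
    blockIntegerUnits (L := L) (W.under (K := K)) ≃* W.integerUnits where
  toFun u := ⟨W.unitsProj (u : (SemiLocal ℓ L)ˣ),
    mem_unitGroup_iff_forall.mp (mem_blockIntegerUnits_iff.mp u.2).2 W⟩
  invFun z := ⟨Place.singleOf W (z : W.Completionˣ), mem_blockIntegerUnits_iff.mpr
    ⟨supportedAt_le_blockUnits W (Place.singleOf_mem_supportedAt W _),
      (singleOf_mem_unitGroup_iff W _).mpr z.2⟩⟩
  left_inv u := by
    apply Subtype.ext
    have hu : (u : (SemiLocal ℓ L)ˣ) ∈ Place.supportedAt W := by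
      rw [← blockUnits_eq_supportedAt_of_stabilizer_eq_top W hW]
      exact (mem_blockIntegerUnits_iff.mp u.2).1
    exact Place.singleUnits_eq_self_of_mem hu
  right_inv z := Subtype.ext (Place.unitsProj_singleOf_self W _)
  map_mul' u v := Subtype.ext (map_mul W.unitsProj _ _)

@[simp] theorem coe_blockIntegerUnitsEquiv_apply (W : Place ℓ L)
    (hW : MulAction.stabilizer (L ≃ₐ[K] L) W = ⊤)
    (u : blockIntegerUnits (L := L) (W.under (K := K))) :
    ((blockIntegerUnitsEquiv W hW u : W.integerUnits) : W.Completionˣ) =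
      W.unitsProj (u : (SemiLocal ℓ L)ˣ) := rfl

theorem blockIntegerUnitsEquiv_smul (W : Place ℓ L)
    (hW : MulAction.stabilizer (L ≃ₐ[K] L) W = ⊤) (σ : L ≃ₐ[K] L)
    (u : blockIntegerUnits (L := L) (W.under (K := K))) :
    blockIntegerUnitsEquiv W hW (σ • u) =
      (Place.galEquivOfStabilizerEqTop W hW σ) • blockIntegerUnitsEquiv W hW u :=
  Subtype.ext (Units.ext rfl)

end IntegralNonsplit

end SemiLocal

end Fermat.Agent.CFT
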