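/-
CFT global part (G1)/(G2), helper2: the Herbrand quotient of `(ℚ_ℓ ⊗ L)ˣ` for `L/K` cyclic of
prime degree `p`: `h = p ^ #{nonsplit places of K over ℓ}`; cohomological triviality of the unit
group of the maximal order at primes `ℓ` over which `L/K` is unramified.
-/
import Fermat.Agent.CFT.Global.G01_helper7_Induced
import Fermat.Agent.CFT.Global.G01_helper7_Local
import Fermat.Agent.CFT.Coh.Products_helper8
import Fermat.Agent.CFT.Local.PadicHerbrand_helper2
import Fermat.Agent.CFT.Global.G2_helper2_Count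

set_option autoImplicit false
set_option linter.unusedSectionVars false

open scoped TensorProduct NumberField

namespace Fermat.Agent.CFT

open Coh
open scoped SemiLocalRel
open scoped Fermat.Agent.CFT.Local.PadicBridge

section Blocks

variable {ℓ : ℕ} [Fact ℓ.Prime] {K L : Type} [Field K] [NumberField K] [Field L] [NumberField L]
  [Algebra K L] [FiniteDimensional K L] [IsGalois K L]

/-- a generator of `Gal(L/K)` gives a generator of `Gal(L_W/K_w)` at a nonsplit place. -/
lemma galEquiv_generator (W : Place ℓ L)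
    (hW : MulAction.stabilizer (L ≃ₐ[K] L) W = ⊤) {g : L ≃ₐ[K] L}
    (hg : ∀ σ, σ ∈ Subgroup.zpowers g) :
    ∀ τ, τ ∈ Subgroup.zpowers (Place.galEquivOfStabilizerEqTop W hW g) := by
  intro τ
  obtain ⟨σ, rfl⟩ := (Place.galEquivOfStabilizerEqTop W hW).surjective τ
  obtain ⟨n, rfl⟩ := Subgroup.mem_zpowers_iff.1 (hg σ)
  rw [map_zpow]
  exact Subgroup.zpow_mem_zpowers _ n

/-- SPLIT block: trivial Herbrand quotient. -/
theorem herbrand_blockUnits_of_split (W : Place ℓ L)
    (hW : MulAction.stabilizer (L ≃ₐ[K] L) W = ⊥) :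
    HerbrandFinite (Rep.ofMulDistribMulAction (L ≃ₐ[K] L)
      (SemiLocal.blockUnits (L := L) (W.under (K := K)))) ∧
    herbrand (Rep.ofMulDistribMulAction (L ≃ₐ[K] L)
      (SemiLocal.blockUnits (L := L) (W.under (K := K)))) = 1 := by
  obtain ⟨N, hN⟩ := SemiLocal.isInducedBy_blockUnits W hW
  exact herbrand_of_isInducedBy hN

/-- NONSPLIT block: Herbrand quotient `[L_W : K_w]`. -/
theorem herbrand_blockUnits_of_nonsplit (W : Place ℓ L)
    (hW : MulAction.stabilizer (L ≃ₐ[K] L) W = ⊤) {g : L ≃ₐ[K] L}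
    (hg : ∀ σ, σ ∈ Subgroup.zpowers g) :
    HerbrandFinite (Rep.ofMulDistribMulAction (L ≃ₐ[K] L)
      (SemiLocal.blockUnits (L := L) (W.under (K := K)))) ∧
    herbrand (Rep.ofMulDistribMulAction (L ≃ₐ[K] L)
      (SemiLocal.blockUnits (L := L) (W.under (K := K)))) =
        Module.finrank (W.under (K := K)).Completion W.Completion := by
  obtain ⟨h1, h2⟩ := herbrand_ofMulDistribMulAction_congr
    (Place.galEquivOfStabilizerEqTop W hW) (SemiLocal.blockUnitsEquiv W hW)
    (SemiLocal.blockUnitsEquiv_smul W hW)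
  obtain ⟨h3, h4⟩ := Local.padic_herbrand_units ℓ (W.under (K := K)).Completion W.Completion
    (galEquiv_generator W hW hg)
  exact ⟨h1.2 h3, h2.trans h4⟩

end Blocks

section SemiLocalUnits

variable {ℓ : ℕ} [Fact ℓ.Prime] {K L : Type} [Field K] [NumberField K] [Field L] [NumberField L]
  [Algebra K L] [FiniteDimensional K L] [IsGalois K L]

lemma stabilizer_ne_of_prime {p : ℕ} (hp : p.Prime) (hcard : Nat.card (L ≃ₐ[K] L) = p) :
    (⊥ : Subgroup (L ≃ₐ[K] L)) ≠ ⊤ := by
  intro h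
  have h2 := congrArg (fun H : Subgroup (L ≃ₐ[K] L) => Nat.card H) h
  simp only [Subgroup.card_bot, Subgroup.card_top, hcard] at h2
  exact hp.one_lt.ne h2

/-- the Herbrand quotient of a block. -/
theorem herbrand_blockUnits {p : ℕ} (hp : p.Prime) (hcard : Nat.card (L ≃ₐ[K] L) = p)
    {g : L ≃ₐ[K] L} (hg : ∀ σ, σ ∈ Subgroup.zpowers g) (w : Place ℓ K)
    [Decidable (w ∈ nonsplitPlaces K L ℓ)] :
    HerbrandFinite (Rep.ofMulDistribMulAction (L ≃ₐ[K] L) (SemiLocal.blockUnits (L := L) w)) ∧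
    herbrand (Rep.ofMulDistribMulAction (L ≃ₐ[K] L) (SemiLocal.blockUnits (L := L) w)) =
      if w ∈ nonsplitPlaces K L ℓ then (p : ℚ) else 1 := by
  obtain ⟨W, rfl⟩ := Place.under_surjective (K := K) (L := L) w
  rcases Place.stabilizer_eq_bot_or_eq_top hp hcard W with h | h
  · have hn : ¬ W.under ∈ nonsplitPlaces K L ℓ := by
      rw [under_mem_nonsplitPlaces_iff, h]
      exact stabilizer_ne_of_prime hp hcard
    rw [if_neg hn]
    exact herbrand_blockUnits_of_split W h
  · have hn : W.under ∈ nonsplitPlaces K L ℓ := (under_mem_nonsplitPlaces_iff W).2 h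
    rw [if_pos hn]
    obtain ⟨h1, h2⟩ := herbrand_blockUnits_of_nonsplit W h hg
    refine ⟨h1, ?_⟩
    rw [h2, Place.finrank_completion_eq_of_stabilizer_eq_top W h, ← IsGalois.card_aut_eq_finrank,
      hcard]

/-- **The Herbrand quotient of `(ℚ_ℓ ⊗ L)ˣ`** for `L/K` cyclic of prime degree `p`:
`h = p ^ #{nonsplit places of K over ℓ}`. -/
theorem herbrand_semiLocalUnits {p : ℕ} (hp : p.Prime) (hcard : Nat.card (L ≃ₐ[K] L) = p)
    {g : L ≃ₐ[K] L} (hg : ∀ σ, σ ∈ Subgroup.zpowers g) :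
    HerbrandFinite (Rep.ofMulDistribMulAction (L ≃ₐ[K] L) (SemiLocal ℓ L)ˣ) ∧
    herbrand (Rep.ofMulDistribMulAction (L ≃ₐ[K] L) (SemiLocal ℓ L)ˣ) =
      (p : ℚ) ^ Nat.card (nonsplitPlaces K L ℓ) := by
  classical
  letI : Fintype (Place ℓ K) := Fintype.ofFinite _
  have hblock := fun w : Place ℓ K => herbrand_blockUnits (ℓ := ℓ) hp hcard hg w
  obtain ⟨h1, h2⟩ := herbrand_pi (G := L ≃ₐ[K] L)
    (M := fun w : Place ℓ K => SemiLocal.blockUnits (L := L) w) fun w => (hblock w).1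
  obtain ⟨h3, h4⟩ := herbrand_ofMulDistribMulAction_congr (MulEquiv.refl (L ≃ₐ[K] L))
    (SemiLocal.blockEquiv (K := K) (L := L) (ℓ := ℓ))
    (fun σ u => funext fun w => SemiLocal.blockEquiv_smul σ u w)
  refine ⟨h3.2 h1, ?_⟩
  rw [h4, h2, Finset.prod_congr rfl fun w _ => (hblock w).2, Finset.prod_ite, Finset.prod_const,
    Finset.prod_const_one, mul_one]
  congr 1
  rw [Nat.card_eq_fintype_card, ← Set.toFinset_card]
  congr 1
  ext w
  simp

end SemiLocalUnits

section UnitGroup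

variable {ℓ : ℕ} [Fact ℓ.Prime] {K L : Type} [Field K] [NumberField K] [Field L] [NumberField L]
  [Algebra K L] [FiniteDimensional K L] [IsGalois K L]

/-- SPLIT integral block: `Ĥ⁰ = Ĥ⁻¹ = 0`. -/
theorem tate_blockIntegerUnits_of_split (W : Place ℓ L)
    (hW : MulAction.stabilizer (L ≃ₐ[K] L) W = ⊥) :
    Subsingleton (TateH0 (Rep.ofMulDistribMulAction (L ≃ₐ[K] L)
      (SemiLocal.blockIntegerUnits (L := L) (W.under (K := K))))) ∧
    Subsingleton (TateHm1 (Rep.ofMulDistribMulAction (L ≃ₐ[K] L)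
      (SemiLocal.blockIntegerUnits (L := L) (W.under (K := K))))) := by
  obtain ⟨N, hN⟩ := SemiLocal.isInducedBy_blockIntegerUnits W hW
  exact ⟨tateH0_subsingleton_of_isInducedBy hN, tateHm1_subsingleton_of_isInducedBy hN⟩

/-- NONSPLIT unramified integral block: `Ĥ⁰ = Ĥ⁻¹ = 0`. -/
theorem tate_blockIntegerUnits_of_nonsplit (W : Place ℓ L)
    (hW : MulAction.stabilizer (L ≃ₐ[K] L) W = ⊤)
    (hunr : Local.ramIdx (W.under (K := K)).integers W.integers = 1) {g : L ≃ₐ[K] L}
    (hg : ∀ σ, σ ∈ Subgroup.zpowers g) :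
    Subsingleton (TateH0 (Rep.ofMulDistribMulAction (L ≃ₐ[K] L)
      (SemiLocal.blockIntegerUnits (L := L) (W.under (K := K))))) ∧
    Subsingleton (TateHm1 (Rep.ofMulDistribMulAction (L ≃ₐ[K] L)
      (SemiLocal.blockIntegerUnits (L := L) (W.under (K := K))))) := by
  obtain ⟨h0, h1⟩ := Local.padic_tate_intUnits_of_unramified ℓ (W.under (K := K)).Completion
    W.Completion hunr (galEquiv_generator W hW hg)
  let E : RepSemiEquiv (Rep.ofMulDistribMulAction (L ≃ₐ[K] L)
      (SemiLocal.blockIntegerUnits (L := L) (W.under (K := K))))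
      (Rep.ofMulDistribMulAction
        (W.Completion ≃ₐ[(W.under (K := K)).Completion] W.Completion)
        (Local.padicIntUnits ℓ W.Completion)) :=
    RepSemiEquiv.ofMulEquiv (Place.galEquivOfStabilizerEqTop W hW)
      (SemiLocal.blockIntegerUnitsEquiv W hW) (SemiLocal.blockIntegerUnitsEquiv_smul W hW)
  exact ⟨E.tateH0Equiv.toEquiv.subsingleton, E.tateHm1Equiv.toEquiv.subsingleton⟩

/-- **Cohomological triviality of the unit group of the maximal order** of `ℚ_ℓ ⊗ L` when all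
places of `L` over `ℓ` are unramified over `K` (`L/K` cyclic of prime degree), in the elementwise
form: invariant units are norms of units, and units of norm `1` are of the form `g • v / v`. -/
theorem unitGroup_acyclic_of_unramified {p : ℕ} (hp : p.Prime)
    (hcard : Nat.card (L ≃ₐ[K] L) = p) {g : L ≃ₐ[K] L} (hg : ∀ σ, σ ∈ Subgroup.zpowers g)
    (hunr : ∀ W : Place ℓ L, Local.ramIdx (W.under (K := K)).integers W.integers = 1) :
    (∀ u ∈ SemiLocal.unitGroup ℓ L, (∀ σ : L ≃ₐ[K] L, σ • u = u) →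
      ∃ v ∈ SemiLocal.unitGroup ℓ L, ∏ σ : L ≃ₐ[K] L, σ • v = u) ∧
    (∀ u ∈ SemiLocal.unitGroup ℓ L, ∏ σ : L ≃ₐ[K] L, σ • u = 1 →
      ∃ v ∈ SemiLocal.unitGroup ℓ L, u = g • v / v) := by
  classical
  letI : Fintype (Place ℓ K) := Fintype.ofFinite _
  have hblock : ∀ w : Place ℓ K,
      Subsingleton (TateH0 (Rep.ofMulDistribMulAction (L ≃ₐ[K] L)
        (SemiLocal.blockIntegerUnits (L := L) w))) ∧
      Subsingleton (TateHm1 (Rep.ofMulDistribMulAction (L ≃ₐ[K] L)
        (SemiLocal.blockIntegerUnits (L := L) w))) := by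
    intro w
    obtain ⟨W, rfl⟩ := Place.under_surjective (K := K) (L := L) w
    rcases Place.stabilizer_eq_bot_or_eq_top hp hcard W with h | h
    · exact tate_blockIntegerUnits_of_split W h
    · exact tate_blockIntegerUnits_of_nonsplit W h (hunr W) hg
  obtain ⟨h1, h2⟩ := card_tate_pi (G := L ≃ₐ[K] L)
    (M := fun w : Place ℓ K => SemiLocal.blockIntegerUnits (L := L) w)
  have h1' : Nat.card (TateH0 (Rep.ofMulDistribMulAction (L ≃ₐ[K] L)
      (∀ w : Place ℓ K, SemiLocal.blockIntegerUnits (L := L) w))) = 1 := by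
    rw [h1]
    exact Finset.prod_eq_one fun w _ => by
      haveI := (hblock w).1
      exact Nat.card_unique
  have h2' : Nat.card (TateHm1 (Rep.ofMulDistribMulAction (L ≃ₐ[K] L)
      (∀ w : Place ℓ K, SemiLocal.blockIntegerUnits (L := L) w))) = 1 := by
    rw [h2]
    exact Finset.prod_eq_one fun w _ => by
      haveI := (hblock w).2
      exact Nat.card_unique
  let E : RepSemiEquiv (Rep.ofMulDistribMulAction (L ≃ₐ[K] L) (SemiLocal.unitGroup ℓ L))
      (Rep.ofMulDistribMulAction (L ≃ₐ[K] L)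
        (∀ w : Place ℓ K, SemiLocal.blockIntegerUnits (L := L) w)) :=
    RepSemiEquiv.ofMulEquiv (MulEquiv.refl _) (SemiLocal.integerBlockEquiv (K := K) (L := L))
      (fun σ u => funext fun w => SemiLocal.integerBlockEquiv_smul σ u w)
  have hs0 : Subsingleton (TateH0 (Rep.ofMulDistribMulAction (L ≃ₐ[K] L)
      (SemiLocal.unitGroup ℓ L))) := by
    haveI := (Nat.card_eq_one_iff_unique.1 h1').1
    exact E.tateH0Equiv.toEquiv.subsingleton
  have hs1 : Subsingleton (TateHm1 (Rep.ofMulDistribMulAction (L ≃ₐ[K] L)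
      (SemiLocal.unitGroup ℓ L))) := by
    haveI := (Nat.card_eq_one_iff_unique.1 h2').1
    exact E.tateHm1Equiv.toEquiv.subsingleton
  constructor
  · intro u hu hfix
    obtain ⟨n, hn⟩ := MulTate.tateH0_subsingleton_iff.1 hs0 ⟨u, hu⟩
      (fun σ => Subtype.ext (hfix σ))
    refine ⟨n.1, n.2, ?_⟩
    have := congrArg (fun y : SemiLocal.unitGroup ℓ L => (y : (SemiLocal ℓ L)ˣ)) hn
    simpa [Subgroup.val_finsetProd] using this
  · intro u hu hN
    obtain ⟨n, hn⟩ := (MulTate.tateHm1_subsingleton_iff hg).1 hs1 ⟨u, hu⟩ (by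
      apply Subtype.ext
      rw [Subgroup.val_finsetProd]
      exact hN)
    refine ⟨n.1, n.2, ?_⟩
    exact congrArg (fun y : SemiLocal.unitGroup ℓ L => (y : (SemiLocal ℓ L)ˣ)) hn

end UnitGroup

end Fermat.Agent.CFT
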