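/-
CFT global part (G2), helper2: **the first inequality** (T1) for cyclic extensions of odd prime
degree `p` of number fields: the finite idele class group has Herbrand quotient `h(C_L) = p`.
-/
import Fermat.Agent.CFT.Global.G2_helper2_Assembly
import Fermat.Agent.CFT.Global.G2_helper2_SemiLocalHerbrand
import Fermat.Agent.CFT.Global.G04_lead_SUnits
import Fermat.Agent.CFT.Global.G04_helper6_SUnitBridge
import Fermat.Agent.CFT.Global.G02_helper5_HatMinusOne

set_option autoImplicit false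
set_option linter.unusedSectionVars false

open scoped TensorProduct NumberField RestrictedProduct
open IsDedekindDomain

namespace Fermat.Agent.CFT

open Coh
open scoped SemiLocalRel
open scoped Fermat.Agent.CFT.Local.PadicBridge

section Bridge

variable (F : Type) [Field F] [NumberField F]

/-- the number of primes of `𝓞 F` over `ℓ` is the number of places of `F` over `ℓ`. -/
theorem ncard_ratFiber (ℓ : Nat.Primes) : (SUnit.ratFiber F ℓ).ncard = Nat.card (Place ℓ F) := by
  rw [← Nat.card_coe_set_eq]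
  exact (Nat.card_congr (Place.equivPrimesOver (F := F) ℓ)).symm

end Bridge

section T1

variable (K L : Type) [Field K] [NumberField K] [Field L] [NumberField L] [Algebra K L]
  [IsGalois K L]

/-- the total number of nonsplit places over a finite set of rational primes. -/
noncomputable def nonsplitCount (S : Finset Nat.Primes) : ℕ :=
  ∑ ℓ ∈ S, Nat.card (nonsplitPlaces K L (ℓ : ℕ))

variable {K L}

/-- `h(J_{L,S}) = p ^ #nonsplit` for `S` containing the ramified primes. -/
theorem herbrand_sIdeleRep {p : ℕ} (hp : p.Prime) (hcard : Nat.card (L ≃ₐ[K] L) = p)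
    {g : L ≃ₐ[K] L} (hg : ∀ σ, σ ∈ Subgroup.zpowers g) (S : Finset Nat.Primes)
    (hunr : ∀ ℓ : Nat.Primes, ℓ ∉ S → ∀ W : Place ℓ L,
      Local.ramIdx (W.under (K := K)).integers W.integers = 1) :
    HerbrandFinite (sIdeleRep K L (S : Set Nat.Primes)) ∧
      herbrand (sIdeleRep K L (S : Set Nat.Primes)) = (p : ℚ) ^ nonsplitCount K L S := by
  have hloc := fun ℓ : Nat.Primes => herbrand_semiLocalUnits (ℓ := (ℓ : ℕ)) hp hcard hg
  obtain ⟨h1, h2⟩ := herbrand_subgroup_restrictedProduct (S := S)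
    (J := sIdeles L (S : Set Nat.Primes)) (fun x => by rw [mem_sIdeles_iff]; simp)
    (fun g x ℓ => rfl) g
    (fun ℓ hℓ => (unitGroup_acyclic_of_unramified hp hcard hg (hunr ℓ hℓ)).1)
    (fun ℓ hℓ => (unitGroup_acyclic_of_unramified hp hcard hg (hunr ℓ hℓ)).2)
    (fun ℓ _ => (hloc ℓ).1)
  refine ⟨h1, ?_⟩
  rw [show herbrand (sIdeleRep K L (S : Set Nat.Primes)) = _ from h2,
    Finset.prod_congr rfl fun ℓ _ => (hloc ℓ).2, Finset.prod_pow_eq_pow_sum]
  rfl

/-- `h(L_S) = p ^ (#nonsplit - 1)` (`p` odd). -/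
theorem herbrand_sUnitRep {p : ℕ} (hp : p.Prime) (hp2 : p ≠ 2)
    (hcard : Nat.card (L ≃ₐ[K] L) = p)
    {g : L ≃ₐ[K] L} (hg : ∀ σ, σ ∈ Subgroup.zpowers g) (S : Finset Nat.Primes) :
    HerbrandFinite (sUnitRep K L (S : Set Nat.Primes)) ∧
      herbrand (sUnitRep K L (S : Set Nat.Primes)) =
        (p : ℚ) ^ ((nonsplitCount K L S : ℤ) - 1) := by
  have hS : (S : Set Nat.Primes).Finite := S.finite_toSet
  refine SUnit.herbrand_sUnits_rat (K := K) (L := L) (U := sUnits L (S : Set Nat.Primes))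
    (sUnits L (S : Set Nat.Primes)).subtype hp hp2 hcard hg (S : Set Nat.Primes) hS
    Subtype.val_injective (fun _ _ => rfl) (range_subtype_sUnits (S : Set Nat.Primes))
    ((nonsplitCount K L S : ℤ) - 1) ?_
  rw [Finset.finite_toSet_toFinset, sub_add_cancel]
  simp only [ncard_ratFiber]
  have h1 : ∀ ℓ ∈ S, ((Nat.card (Place (ℓ : ℕ) L) : ℤ)) +
      ((p : ℤ) - 1) * (Nat.card (nonsplitPlaces K L (ℓ : ℕ)) : ℤ) =
        (p : ℤ) * (Nat.card (Place (ℓ : ℕ) K) : ℤ) := by
    intro ℓ _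
    have := card_place_add (K := K) (L := L) (ℓ := (ℓ : ℕ)) hp hcard
    have h2 := congrArg (Nat.cast (R := ℤ)) this
    rw [Nat.cast_add, Nat.cast_mul, Nat.cast_mul, Nat.cast_sub hp.one_le, Nat.cast_one] at h2
    exact h2
  unfold nonsplitCount
  rw [Nat.cast_sum, Finset.mul_sum, Finset.mul_sum, ← Finset.sum_sub_distrib]
  refine Finset.sum_congr rfl fun ℓ hℓ => ?_
  linear_combination h1 ℓ hℓ

end T1

/-- **(T1) The first inequality** for cyclic extensions of odd prime degree `p`: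
`h(C_L) = p`. -/
theorem firstInequality {p : ℕ} (hp : p.Prime) (hp2 : p ≠ 2) : FirstInequality p := by
  intro K L _ _ _ _ _ _ hcard
  classical
  haveI : Fact (Nat.card (L ≃ₐ[K] L)).Prime := ⟨by rw [hcard]; exact hp⟩
  haveI : IsCyclic (L ≃ₐ[K] L) := isCyclic_of_prime_card (p := Nat.card (L ≃ₐ[K] L)) rfl
  obtain ⟨g, hg⟩ := IsCyclic.exists_generator (α := L ≃ₐ[K] L)
  obtain ⟨S₀, hS₀⟩ := exists_finset_idelesGeneratedBy (F := L)
  have hunr := eventually_ramIdx_eq_one K L
  rw [Filter.eventually_cofinite] at hunr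
  let S : Finset Nat.Primes := S₀ ∪ hunr.toFinset
  have hS : IdelesGeneratedBy L (S : Set Nat.Primes) := by
    intro x
    obtain ⟨a, ha⟩ := hS₀ x
    exact ⟨a, sIdeles_mono (by
      intro ℓ hℓ
      exact Finset.mem_coe.2 (Finset.mem_union_left _ (Finset.mem_coe.1 hℓ))) ha⟩
  have hunrS : ∀ ℓ : Nat.Primes, ℓ ∉ S → ∀ W : Place ℓ L,
      Local.ramIdx (W.under (K := K)).integers W.integers = 1 := by
    intro ℓ hℓ
    by_contra h
    apply hℓ
    exact Finset.mem_union_right _ (hunr.mem_toFinset.2 h)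
  obtain ⟨hJ, hJh⟩ := herbrand_sIdeleRep hp hcard hg S hunrS
  obtain ⟨hU, hUh⟩ := herbrand_sUnitRep hp hp2 hcard hg S
  exact herbrand_ideleClassRep_eq K L hg hS hp.ne_zero (nonsplitCount K L S : ℤ) hU hUh hJ
    (by rw [hJh, zpow_natCast])

end Fermat.Agent.CFT
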