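/-
CFT global part (G0.1), helper7: Galois invariants of the semi-local algebras and of the finite
ideles: `(ℚ_ℓ ⊗ L)^G = ℚ_ℓ ⊗ K` and `J_L^G = J_K` for a finite Galois extension `L/K`
(averaging argument, characteristic zero).
-/
import Mathlib
import Fermat.Agent.CFT.Global.Places_helper3

set_option autoImplicit false
set_option linter.unusedSectionVars false
set_option linter.style.haveILetI false

open scoped TensorProduct NumberField

namespace Fermat.Agent.CFT

namespace SemiLocal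

section Invariants

variable (ℓ : ℕ) [Fact ℓ.Prime] (K L : Type*) [Field K] [CharZero K] [Field L] [CharZero L]
  [Algebra K L] [FiniteDimensional K L] [IsGalois K L]

/-- the trace `L → K` as a `ℚ`-linear map, base changed to `ℚ_ℓ`. -/
noncomputable def traceMap : SemiLocal ℓ L →ₗ[ℚ_[ℓ]] SemiLocal ℓ K :=
  ((Algebra.trace K L).restrictScalars ℚ).baseChange ℚ_[ℓ]

@[simp] theorem traceMap_tmul (a : ℚ_[ℓ]) (x : L) :
    traceMap ℓ K L (a ⊗ₜ[ℚ] x) = a ⊗ₜ[ℚ] Algebra.trace K L x := rfl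

/-- the sum of the Galois conjugates is the trace. -/
theorem sum_smul_eq_map_traceMap (y : SemiLocal ℓ L) :
    ∑ σ : L ≃ₐ[K] L, σ • y = map ℓ (algebraMap K L) (traceMap ℓ K L y) := by
  induction y using TensorProduct.induction_on with
  | zero => simp
  | tmul a x =>
    simp only [smul_tmul', traceMap_tmul, map_tmul]
    rw [← TensorProduct.tmul_sum, trace_eq_sum_automorphisms]
    rfl
  | add y z hy hz =>
    simp only [smul_add, Finset.sum_add_distrib, map_add, hy, hz]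

omit [FiniteDimensional K L] [IsGalois K L] in
theorem smul_map_algebraMap (σ : L ≃ₐ[K] L) (x : SemiLocal ℓ K) :
    σ • map ℓ (algebraMap K L) x = map ℓ (algebraMap K L) x := by
  rw [smul_def, map_map]
  congr 2
  ext z
  simp

/-- **Galois invariants of `ℚ_ℓ ⊗ L`** are `ℚ_ℓ ⊗ K`. -/
theorem mem_range_map_iff_fixed {x : SemiLocal ℓ L} :
    x ∈ (map ℓ (algebraMap K L)).range ↔ ∀ σ : L ≃ₐ[K] L, σ • x = x := by
  classical
  constructor
  · rintro ⟨z, rfl⟩ σ
    exact smul_map_algebraMap ℓ K L σ z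
  · intro h
    have h1 := sum_smul_eq_map_traceMap ℓ K L x
    simp only [h, Finset.sum_const, Finset.card_univ] at h1
    have hcard : (Fintype.card (L ≃ₐ[K] L) : ℚ) ≠ 0 :=
      Nat.cast_ne_zero.mpr Fintype.card_ne_zero
    refine ⟨((Fintype.card (L ≃ₐ[K] L) : ℚ)⁻¹) • traceMap ℓ K L x, ?_⟩
    change map ℓ (algebraMap K L) (((Fintype.card (L ≃ₐ[K] L) : ℚ)⁻¹) • traceMap ℓ K L x) = x
    have h2 : map ℓ (algebraMap K L) (((Fintype.card (L ≃ₐ[K] L) : ℚ)⁻¹) • traceMap ℓ K L x) =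
        ((Fintype.card (L ≃ₐ[K] L) : ℚ)⁻¹) • map ℓ (algebraMap K L) (traceMap ℓ K L x) :=
      map_smul ((map ℓ (algebraMap K L)).restrictScalars ℚ) _ _
    rw [h2, ← h1, ← Nat.cast_smul_eq_nsmul ℚ, smul_smul, inv_mul_cancel₀ hcard, one_smul]

/-- **Galois invariants of `(ℚ_ℓ ⊗ L)ˣ`** are `(ℚ_ℓ ⊗ K)ˣ`. -/
theorem units_mem_range_unitsMap_iff_fixed {x : (SemiLocal ℓ L)ˣ} :
    x ∈ (unitsMap ℓ (algebraMap K L)).range ↔ ∀ σ : L ≃ₐ[K] L, σ • x = x := by
  constructor
  · rintro ⟨z, rfl⟩ σ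
    apply Units.ext
    rw [coe_smul_units, coe_unitsMap]
    exact smul_map_algebraMap ℓ K L σ z
  · intro h
    have h1 : ∀ σ : L ≃ₐ[K] L, σ • (x : SemiLocal ℓ L) = x := fun σ => by
      rw [← coe_smul_units, h σ]
    have h2 : ∀ σ : L ≃ₐ[K] L, σ • ((x⁻¹ : (SemiLocal ℓ L)ˣ) : SemiLocal ℓ L) =
        ((x⁻¹ : (SemiLocal ℓ L)ˣ) : SemiLocal ℓ L) := fun σ => by
      rw [← coe_inv_smul_units, h σ]
    obtain ⟨z, hz⟩ := (mem_range_map_iff_fixed ℓ K L).mpr h1
    obtain ⟨z', hz'⟩ := (mem_range_map_iff_fixed ℓ K L).mpr h2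
    have hzz' : z * z' = 1 := by
      apply map_injective ℓ (algebraMap K L)
      rw [map_mul, map_one]
      change (map ℓ (algebraMap K L)) z * (map ℓ (algebraMap K L)) z' = 1
      have e1 : (map ℓ (algebraMap K L)) z = x := hz
      have e2 : (map ℓ (algebraMap K L)) z' = ((x⁻¹ : (SemiLocal ℓ L)ˣ) : SemiLocal ℓ L) := hz'
      rw [e1, e2, Units.mul_inv]
    refine ⟨⟨z, z', hzz', by rw [mul_comm]; exact hzz'⟩, ?_⟩
    apply Units.ext
    exact hz

omit [FiniteDimensional K L] [IsGalois K L] in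
/-- integrality descends along `ℚ_ℓ ⊗ K → ℚ_ℓ ⊗ L`. -/
theorem mem_integers_of_map_mem {x : SemiLocal ℓ K}
    (h : map ℓ (algebraMap K L) x ∈ integers ℓ L) : x ∈ integers ℓ K := by
  rw [mem_integers_iff] at h ⊢
  exact (isIntegral_algHom_iff ((map ℓ (algebraMap K L)).restrictScalars ℤ_[ℓ])
    (map_injective ℓ (algebraMap K L))).mp h

omit [FiniteDimensional K L] [IsGalois K L] in
theorem map_mem_integers_iff {x : SemiLocal ℓ K} :
    map ℓ (algebraMap K L) x ∈ integers ℓ L ↔ x ∈ integers ℓ K :=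
  ⟨mem_integers_of_map_mem ℓ K L, map_mem_integers ℓ _⟩

omit [FiniteDimensional K L] [IsGalois K L] in
theorem unitsMap_mem_unitGroup_iff {x : (SemiLocal ℓ K)ˣ} :
    unitsMap ℓ (algebraMap K L) x ∈ unitGroup ℓ L ↔ x ∈ unitGroup ℓ K := by
  rw [mem_unitGroup_iff, mem_unitGroup_iff, ← map_inv]
  exact and_congr (map_mem_integers_iff ℓ K L) (map_mem_integers_iff ℓ K L)

omit [FiniteDimensional K L] [IsGalois K L] in
theorem unitsMap_injective : Function.Injective (unitsMap ℓ (algebraMap K L)) :=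
  Units.map_injective (map_injective ℓ (algebraMap K L))

end Invariants

end SemiLocal

namespace FinIdele

variable (K L : Type*) [Field K] [CharZero K] [Field L] [CharZero L]
  [Algebra K L]

theorem map_algebraMap_injective : Function.Injective (FinIdele.map (algebraMap K L)) := by
  intro x y h
  apply RestrictedProduct.ext
  intro ℓ
  have := congrArg (fun z : FinIdele L => z ℓ) h
  exact SemiLocal.unitsMap_injective (ℓ : ℕ) K L this

variable [FiniteDimensional K L] [IsGalois K L]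

/-- **Galois invariants of the finite ideles**: `J_L^G = J_K`. -/
theorem mem_range_map_iff_fixed {x : FinIdele L} :
    x ∈ (FinIdele.map (algebraMap K L)).range ↔ ∀ σ : L ≃ₐ[K] L, σ • x = x := by
  constructor
  · rintro ⟨z, rfl⟩ σ
    apply RestrictedProduct.ext
    intro ℓ
    rw [smul_apply, map_apply]
    exact (SemiLocal.units_mem_range_unitsMap_iff_fixed (ℓ : ℕ) K L).mp ⟨z ℓ, rfl⟩ σ
  · intro h
    have h1 : ∀ ℓ : Nat.Primes, ∃ z : (SemiLocal ℓ K)ˣ,
        SemiLocal.unitsMap ℓ (algebraMap K L) z = x ℓ := by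
      intro ℓ
      apply (SemiLocal.units_mem_range_unitsMap_iff_fixed (ℓ : ℕ) K L).mpr
      intro σ
      rw [← smul_apply, h σ]
    choose z hz using h1
    refine ⟨⟨z, ?_⟩, ?_⟩
    · filter_upwards [x.2] with ℓ hℓ
      have hℓ' : SemiLocal.unitsMap ℓ (algebraMap K L) (z ℓ) ∈ SemiLocal.unitGroup (ℓ : ℕ) L := by
        rw [hz ℓ]; exact hℓ
      exact (SemiLocal.unitsMap_mem_unitGroup_iff (ℓ : ℕ) K L).mp hℓ'
    · apply RestrictedProduct.ext
      intro ℓ
      exact hz ℓ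

end FinIdele

end Fermat.Agent.CFT
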