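/-
CFT global part (G1)/(G4), helper9: cohomology of the ideles and the Hasse norm theorem.

For a finite Galois extension `L/K` of number fields with group `G`:
* `ideleTateH0 K L : Additive (FinIdele K) →+ TateH0 (ideleRep K L)` is surjective with kernel the
  idele norms (`Ĥ⁰(G, J_L) = J_K / N J_L`);
* `classInvHom K L : Additive (FinIdele K) →+ (ideleClassRep K L).ρ.invariants` is surjective with
  kernel the principal ideles (`C_L^G = C_K`, Hilbert 90);
* `ideleToTateH0 K L : Additive (FinIdele K) →+ TateH0 (ideleClassRep K L)` is surjective with kernel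
  `K^× · N J_L`;
* `isIdeleNorm_of_forall`: an idele which is a norm at every rational prime is an idele norm
  (given `AlmostAllUnitsNorms K L`);
* `hasseNormTheorem`: the Hasse norm theorem `HasseNormTheorem p` from `FirstInequality p`,
  `SecondInequality p` and `AlmostAllUnitsNorms`.
-/
import Fermat.Agent.CFT.Global.Interface_helper3
import Fermat.Agent.CFT.Global.G01_helper7_Invariants
import Fermat.Agent.CFT.Coh.LES_helper9

set_option autoImplicit false

open scoped TensorProduct NumberField RestrictedProduct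
open CategoryTheory

namespace Fermat.Agent.CFT

open Coh

section general

variable {G M : Type} [Group G] [CommGroup M] [MulDistribMulAction G M]

lemma mem_invariants_ofMulDistribMulAction_iff (a : Additive M) :
    a ∈ (Rep.ofMulDistribMulAction G M).ρ.invariants ↔ ∀ g : G, g • a.toMul = a.toMul := by
  constructor
  · intro h g
    exact congrArg Additive.toMul (h g)
  · intro h g
    exact congrArg Additive.ofMul (h g)

lemma normMap_ofMulDistribMulAction [Fintype G] (a : Additive M) :
    normMap (Rep.ofMulDistribMulAction G M) a = Additive.ofMul (∏ g : G, g • a.toMul) := by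
  rw [normMap_eq_norm]
  exact congrArg Additive.ofMul (Representation.norm_ofMulDistribMulAction_eq a)

lemma mul_eq_mul_mul_div_aux {A : Type*} [CommGroup A] (s y d : A) :
    s * d = y * d * (s / y) := by
  rw [mul_comm y d, mul_assoc, mul_div_cancel, mul_comm]

end general

section ideles

variable (K L : Type) [Field K] [NumberField K] [Field L] [NumberField L] [Algebra K L]
  [IsGalois K L]

/-- The map `J_K → (J_L)^G` (additive form). -/
noncomputable def ideleInvHom : Additive (FinIdele K) →+ (ideleRep K L).ρ.invariants where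
  toFun x := ⟨Additive.ofMul (FinIdele.map (algebraMap K L) x.toMul),
    (mem_invariants_ofMulDistribMulAction_iff _).2 fun σ =>
      (FinIdele.mem_range_map_iff_fixed K L).1 ⟨x.toMul, rfl⟩ σ⟩
  map_zero' := Subtype.ext (congrArg Additive.ofMul (map_one (FinIdele.map (algebraMap K L))))
  map_add' x y := Subtype.ext
    (congrArg Additive.ofMul (map_mul (FinIdele.map (algebraMap K L)) x.toMul y.toMul))

@[simp] lemma coe_ideleInvHom (x : Additive (FinIdele K)) :
    ((ideleInvHom K L x : (ideleRep K L).ρ.invariants) : (ideleRep K L).V) =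
      Additive.ofMul (FinIdele.map (algebraMap K L) x.toMul) := rfl

lemma ideleInvHom_injective : Function.Injective (ideleInvHom K L) := by
  intro x y h
  have h1 : FinIdele.map (algebraMap K L) x.toMul = FinIdele.map (algebraMap K L) y.toMul :=
    congrArg (fun z : (ideleRep K L).ρ.invariants => Additive.toMul (z : (ideleRep K L).V)) h
  exact congrArg Additive.ofMul (FinIdele.map_algebraMap_injective K L h1)

lemma ideleInvHom_surjective : Function.Surjective (ideleInvHom K L) := by
  rintro ⟨a, ha⟩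
  obtain ⟨x, hx⟩ := (FinIdele.mem_range_map_iff_fixed K L).2
    ((mem_invariants_ofMulDistribMulAction_iff (G := L ≃ₐ[K] L) (M := FinIdele L) a).1 ha)
  exact ⟨Additive.ofMul x, Subtype.ext (congrArg Additive.ofMul hx)⟩

/-- The surjection `J_K → Ĥ⁰(G, J_L)` (additive form). -/
noncomputable def ideleTateH0 : Additive (FinIdele K) →+ TateH0 (ideleRep K L) :=
  (TateH0.mk (ideleRep K L)).toAddMonoidHom.comp (ideleInvHom K L)

lemma ideleTateH0_surjective : Function.Surjective (ideleTateH0 K L) :=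
  (TateH0.mk_surjective _).comp (ideleInvHom_surjective K L)

/-- `Ĥ⁰(G, J_L) = J_K / N J_L`: the class of `x ∈ J_K` vanishes iff `x` is an idele norm. -/
lemma ideleTateH0_eq_zero_iff (x : Additive (FinIdele K)) :
    ideleTateH0 K L x = 0 ↔ IsIdeleNorm K L x.toMul := by
  change TateH0.mk (ideleRep K L) (ideleInvHom K L x) = 0 ↔ _
  rw [TateH0.mk_eq_zero_iff]
  constructor
  · rintro ⟨a, ha⟩
    refine ⟨Additive.toMul a, ?_⟩
    have h1 := normMap_ofMulDistribMulAction (G := L ≃ₐ[K] L) (M := FinIdele L) a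
    have h2 : normMap (ideleRep K L) a = Additive.ofMul (FinIdele.map (algebraMap K L) x.toMul) :=
      ha
    exact congrArg Additive.toMul (h1.symm.trans h2)
  · rintro ⟨y, hy⟩
    refine ⟨Additive.ofMul y, ?_⟩
    have h1 := normMap_ofMulDistribMulAction (G := L ≃ₐ[K] L) (M := FinIdele L) (Additive.ofMul y)
    exact h1.trans (congrArg Additive.ofMul hy)

/-! ### `C_L^G = C_K` -/

omit [IsGalois K L] in
/-- **Hilbert 90 for ideles**: an idele of `L` whose class is Galois invariant is a principal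
idele times a Galois invariant idele. -/
lemma exists_diag_mul_fixed (y : FinIdele L)
    (hy : ∀ σ : L ≃ₐ[K] L, FinIdeleClass.mk (σ • y) = FinIdeleClass.mk y) :
    ∃ β : Lˣ, ∀ σ : L ≃ₐ[K] L, σ • (y / FinIdele.diag L β) = y / FinIdele.diag L β := by
  have h1 : ∀ σ : L ≃ₐ[K] L, ∃ a : Lˣ, FinIdele.diag L a = σ • y / y := by
    intro σ
    apply FinIdeleClass.mk_eq_one_iff.1
    rw [map_div, hy σ, div_self']
  choose a ha using h1
  have hcoc : groupCohomology.IsMulCocycle₁ a := by
    intro σ τ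
    apply FinIdele.diag_injective (F := L)
    rw [map_mul, ha, ha]
    have h2 : FinIdele.diag L (σ • a τ) = σ • FinIdele.diag L (a τ) := by
      rw [FinIdele.smul_diag]
      rfl
    rw [h2, ha, smul_div', mul_smul]
    rw [div_mul_div_cancel]
  obtain ⟨β, hβ⟩ := groupCohomology.isMulCoboundary₁_of_isMulCocycle₁_of_aut_to_units a hcoc
  refine ⟨β, fun σ => ?_⟩
  have h2 : FinIdele.diag L (σ • β) = σ • FinIdele.diag L β := by
    rw [FinIdele.smul_diag]
    rfl
  have h3 : FinIdele.diag L (σ • β) = FinIdele.diag L β * (σ • y / y) := by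
    rw [← ha σ, ← map_mul, ← hβ σ, mul_div_cancel]
  rw [smul_div', ← h2, h3]
  rw [div_eq_div_iff_mul_eq_mul]
  exact (mul_eq_mul_mul_div_aux (A := FinIdele L) _ _ _).trans (mul_assoc _ _ _)

/-- The map `J_K → (C_L)^G` (additive form). -/
noncomputable def classInvHom : Additive (FinIdele K) →+ (ideleClassRep K L).ρ.invariants :=
  (invMap (classHom K L)).toAddMonoidHom.comp (ideleInvHom K L)

lemma coe_classInvHom (x : Additive (FinIdele K)) :
    ((classInvHom K L x : (ideleClassRep K L).ρ.invariants) : (ideleClassRep K L).V) =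
      Additive.ofMul (FinIdeleClass.mk (FinIdele.map (algebraMap K L) x.toMul)) := rfl

/-- **`C_L^G` is the image of `J_K`** (Hilbert 90 and `J_L^G = J_K`). -/
lemma classInvHom_surjective : Function.Surjective (classInvHom K L) := by
  rintro ⟨c, hc⟩
  obtain ⟨y, hy⟩ := FinIdeleClass.mk_surjective (Additive.toMul c)
  have hc' := (mem_invariants_ofMulDistribMulAction_iff (G := L ≃ₐ[K] L)
    (M := FinIdeleClass L) c).1 hc
  have h1 : ∀ σ : L ≃ₐ[K] L, FinIdeleClass.mk (σ • y) = FinIdeleClass.mk y := by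
    intro σ
    rw [← FinIdeleClass.smul_mk, hy]
    exact hc' σ
  obtain ⟨β, hβ⟩ := exists_diag_mul_fixed K L y h1
  obtain ⟨x, hx⟩ := (FinIdele.mem_range_map_iff_fixed K L).2 hβ
  refine ⟨Additive.ofMul x, Subtype.ext ?_⟩
  rw [coe_classInvHom]
  change Additive.ofMul (FinIdeleClass.mk (FinIdele.map (algebraMap K L) x)) = c
  rw [hx, map_div, (FinIdeleClass.mk_eq_one_iff (x := FinIdele.diag L β)).2 ⟨β, rfl⟩, div_one, hy]
  rfl

/-- The kernel of `J_K → C_L^G` is `K^×`: so `C_L^G = C_K`. -/
lemma classInvHom_eq_zero_iff (x : Additive (FinIdele K)) :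
    classInvHom K L x = 0 ↔ ∃ a : Kˣ, FinIdele.diag K a = x.toMul := by
  have h0 : classInvHom K L x = 0 ↔
      FinIdeleClass.mk (FinIdele.map (algebraMap K L) x.toMul) = 1 := by
    rw [Subtype.ext_iff, coe_classInvHom]
    exact ⟨fun h => congrArg Additive.toMul h, fun h => congrArg Additive.ofMul h⟩
  rw [h0, FinIdeleClass.mk_eq_one_iff]
  constructor
  · rintro ⟨b, hb⟩
    have hfix : ∀ σ : L ≃ₐ[K] L, σ (b : L) = b := by
      intro σ
      have h1 : σ • FinIdele.diag L b = FinIdele.diag L b := by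
        rw [hb]
        exact (FinIdele.mem_range_map_iff_fixed K L).1 ⟨_, rfl⟩ σ
      rw [FinIdele.smul_diag] at h1
      exact congrArg Units.val (FinIdele.diag_injective h1)
    obtain ⟨a, ha⟩ := (IsGalois.mem_range_algebraMap_iff_fixed (F := K) (E := L) (b : L)).2 hfix
    have ha0 : a ≠ 0 := by
      rintro rfl
      rw [map_zero] at ha
      exact b.ne_zero ha.symm
    refine ⟨Units.mk0 a ha0, ?_⟩
    apply FinIdele.map_algebraMap_injective K L
    rw [FinIdele.map_diag, ← hb]
    congr 1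
    exact Units.ext ha
  · rintro ⟨a, ha⟩
    exact ⟨Units.map (algebraMap K L : K →* L) a, by rw [← ha, FinIdele.map_diag]⟩

/-- **helper1's input (ii)**: the surjection `J_K → Ĥ⁰(G, C_L)` (additive form). -/
noncomputable def ideleToTateH0 : Additive (FinIdele K) →+ TateH0 (ideleClassRep K L) :=
  (TateH0.mk (ideleClassRep K L)).toAddMonoidHom.comp (classInvHom K L)

lemma ideleToTateH0_surjective : Function.Surjective (ideleToTateH0 K L) :=
  (TateH0.mk_surjective _).comp (classInvHom_surjective K L)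

lemma ideleToTateH0_eq_map (x : Additive (FinIdele K)) :
    ideleToTateH0 K L x = TateH0.map (classHom K L) (ideleTateH0 K L x) := rfl

/-- The class in `Ĥ⁰(G, C_L)` of `x ∈ J_K` vanishes iff `x ∈ K^× · N J_L`. -/
lemma ideleToTateH0_eq_zero_iff (x : Additive (FinIdele K)) :
    ideleToTateH0 K L x = 0 ↔ ∃ a : Kˣ, IsIdeleNorm K L (x.toMul / FinIdele.diag K a) := by
  change TateH0.mk (ideleClassRep K L) (classInvHom K L x) = 0 ↔ _
  rw [TateH0.mk_eq_zero_iff]
  constructor
  · rintro ⟨c, hc⟩
    obtain ⟨y, hy⟩ := classHom_surjective K L c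
    have h1 : (classHom K L).hom (normMap (ideleRep K L) y) =
        (classHom K L).hom (ideleInvHom K L x : (ideleRep K L).V) := by
      rw [hom_normMap, hy, hc]
      rfl
    have h2 : classInvHom K L (x - (ideleInvHom_surjective K L
        ⟨normMap (ideleRep K L) y, normMap_mem_invariants _ y⟩).choose) = 0 := by
      rw [map_sub, sub_eq_zero]
      apply Subtype.ext
      change (classHom K L).hom (ideleInvHom K L x : (ideleRep K L).V) =
        (classHom K L).hom (ideleInvHom K L _ : (ideleRep K L).V)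
      rw [(ideleInvHom_surjective K L
        ⟨normMap (ideleRep K L) y, normMap_mem_invariants _ y⟩).choose_spec, h1]
    set z := (ideleInvHom_surjective K L
        ⟨normMap (ideleRep K L) y, normMap_mem_invariants _ y⟩).choose with hz
    have hzs : ideleInvHom K L z = ⟨normMap (ideleRep K L) y, normMap_mem_invariants _ y⟩ :=
      (ideleInvHom_surjective K L
        ⟨normMap (ideleRep K L) y, normMap_mem_invariants _ y⟩).choose_spec
    obtain ⟨a, ha⟩ := (classInvHom_eq_zero_iff K L _).1 h2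
    refine ⟨a, ?_⟩
    rw [ha]
    have h3 : Additive.toMul (x - z) = x.toMul / z.toMul := rfl
    rw [h3, div_div_cancel]
    rw [← ideleTateH0_eq_zero_iff]
    change TateH0.mk (ideleRep K L) (ideleInvHom K L (Additive.ofMul z.toMul)) = 0
    rw [TateH0.mk_eq_zero_iff]
    exact ⟨y, congrArg Subtype.val hzs.symm⟩
  · rintro ⟨a, y, hy⟩
    refine ⟨(classHom K L).hom (Additive.ofMul y), ?_⟩
    rw [← hom_normMap]
    have h1 : normMap (ideleRep K L) (Additive.ofMul y) =
        Additive.ofMul (∏ σ : L ≃ₐ[K] L, σ • y) :=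
      normMap_ofMulDistribMulAction (G := L ≃ₐ[K] L) (M := FinIdele L) (Additive.ofMul y)
    rw [h1]
    change Additive.ofMul (FinIdeleClass.mk (∏ σ : L ≃ₐ[K] L, σ • y)) = _
    rw [hy, coe_classInvHom, map_div, map_div, FinIdele.map_diag,
      (FinIdeleClass.mk_eq_one_iff (x := FinIdele.diag L _)).2 ⟨_, rfl⟩, div_one]

lemma ideleToTateH0_diag (a : Kˣ) : ideleToTateH0 K L (Additive.ofMul (FinIdele.diag K a)) = 0 := by
  rw [ideleToTateH0_eq_zero_iff]
  refine ⟨a, 1, ?_⟩
  simp

lemma ideleToTateH0_of_isIdeleNorm {x : FinIdele K} (hx : IsIdeleNorm K L x) :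
    ideleToTateH0 K L (Additive.ofMul x) = 0 := by
  rw [ideleToTateH0_eq_zero_iff]
  refine ⟨1, ?_⟩
  simpa using hx

/-- `Ĥ⁰(G, C_L) = 0` iff `J_K = K^× · N J_L`. -/
lemma subsingleton_tateH0_ideleClassRep_iff :
    Subsingleton (TateH0 (ideleClassRep K L)) ↔
      ∀ x : FinIdele K, ∃ a : Kˣ, IsIdeleNorm K L (x / FinIdele.diag K a) := by
  constructor
  · intro h x
    exact (ideleToTateH0_eq_zero_iff K L (Additive.ofMul x)).1 (Subsingleton.elim _ _)
  · intro h
    refine ⟨fun a b => ?_⟩
    obtain ⟨x, rfl⟩ := ideleToTateH0_surjective K L a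
    obtain ⟨y, rfl⟩ := ideleToTateH0_surjective K L b
    rw [(ideleToTateH0_eq_zero_iff K L x).2 (h x.toMul),
      (ideleToTateH0_eq_zero_iff K L y).2 (h y.toMul)]

/-! ### The local-to-idele norm criterion -/

/-- For almost all rational primes `ℓ`, every unit of the maximal order of `ℚ_ℓ ⊗ K` is the norm
of a unit of the maximal order of `ℚ_ℓ ⊗ L` (true for every finite Galois extension of number
fields: the unramified primes). -/
def AlmostAllUnitsNorms : Prop :=
  ∀ᶠ ℓ : Nat.Primes in Filter.cofinite, ∀ u ∈ SemiLocal.unitGroup ℓ K,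
    ∃ v ∈ SemiLocal.unitGroup ℓ L,
      ∏ σ : L ≃ₐ[K] L, σ • v = SemiLocal.unitsMap ℓ (algebraMap K L) u

variable {K L}

omit [IsGalois K L] in
/-- **Local-to-idele norm criterion**: an idele of `K` all of whose semi-local components are
norms is an idele norm. -/
theorem isIdeleNorm_of_forall (h : AlmostAllUnitsNorms K L) (x : FinIdele K)
    (hx : ∀ ℓ : Nat.Primes, IsSemiLocalNorm K L ℓ (x ℓ)) : IsIdeleNorm K L x := by
  classical
  have h1 : ∀ ℓ : Nat.Primes, ∃ y : (SemiLocal ℓ L)ˣ,
      ∏ σ : L ≃ₐ[K] L, σ • y = SemiLocal.unitsMap ℓ (algebraMap K L) (x ℓ) ∧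
      ((x ℓ ∈ SemiLocal.unitGroup ℓ K ∧ ∀ u ∈ SemiLocal.unitGroup ℓ K,
        ∃ v ∈ SemiLocal.unitGroup ℓ L,
          ∏ σ : L ≃ₐ[K] L, σ • v = SemiLocal.unitsMap ℓ (algebraMap K L) u) →
        y ∈ SemiLocal.unitGroup ℓ L) := by
    intro ℓ
    by_cases hℓ : x ℓ ∈ SemiLocal.unitGroup ℓ K ∧ ∀ u ∈ SemiLocal.unitGroup ℓ K,
        ∃ v ∈ SemiLocal.unitGroup ℓ L,
          ∏ σ : L ≃ₐ[K] L, σ • v = SemiLocal.unitsMap ℓ (algebraMap K L) u
    · obtain ⟨v, hv, hv'⟩ := hℓ.2 _ hℓ.1
      exact ⟨v, hv', fun _ => hv⟩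
    · obtain ⟨y, hy⟩ := hx ℓ
      exact ⟨y, hy, fun h' => absurd h' hℓ⟩
  choose y hy hy' using h1
  refine ⟨⟨y, ?_⟩, ?_⟩
  · filter_upwards [x.2, h] with ℓ h2 h3
    exact hy' ℓ ⟨h2, h3⟩
  · apply RestrictedProduct.ext
    intro ℓ
    rw [FinIdele.map_apply, ← hy ℓ]
    have h4 : ∀ (s : Finset (L ≃ₐ[K] L)) (f : (L ≃ₐ[K] L) → FinIdele L),
        (∏ σ ∈ s, f σ) ℓ = ∏ σ ∈ s, f σ ℓ := by
      intro s f
      exact map_prod (RestrictedProduct.evalMonoidHom _ ℓ) f s
    rw [h4]
    rfl

variable (K L)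

/-! ### The Hasse norm theorem -/

/-- The invariant element of `L^×` attached to `b ∈ K^×`. -/
noncomputable def unitInvElt (b : Kˣ) : (Rep.ofAlgebraAutOnUnits K L).ρ.invariants :=
  ⟨Additive.ofMul (Units.map (algebraMap K L : K →* L) b),
    (mem_invariants_ofMulDistribMulAction_iff (G := L ≃ₐ[K] L) (M := Lˣ) _).2 fun σ =>
      Units.ext (σ.commutes (b : K))⟩

omit [NumberField K] [NumberField L] [IsGalois K L] in
lemma tateH0_mk_unitInvElt_eq_zero_iff [Finite (L ≃ₐ[K] L)] [Fintype (L ≃ₐ[K] L)] (b : Kˣ) :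
    TateH0.mk (Rep.ofAlgebraAutOnUnits K L) (unitInvElt K L b) = 0 ↔
      ∃ y : Lˣ, ∏ σ : L ≃ₐ[K] L, σ • y = Units.map (algebraMap K L : K →* L) b := by
  rw [TateH0.mk_eq_zero_iff]
  constructor
  · rintro ⟨a, ha⟩
    refine ⟨Additive.toMul a, ?_⟩
    have h1 := normMap_ofMulDistribMulAction (G := L ≃ₐ[K] L) (M := Lˣ) a
    have h2 : normMap (Rep.ofAlgebraAutOnUnits K L) a =
        Additive.ofMul (Units.map (algebraMap K L : K →* L) b) := ha
    exact congrArg Additive.toMul (h1.symm.trans h2)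
  · rintro ⟨y, hy⟩
    refine ⟨Additive.ofMul y, ?_⟩
    have h1 := normMap_ofMulDistribMulAction (G := L ≃ₐ[K] L) (M := Lˣ) (Additive.ofMul y)
    exact h1.trans (congrArg Additive.ofMul hy)

lemma invMap_diagHom_unitInvElt (b : Kˣ) :
    invMap (diagHom K L) (unitInvElt K L b) =
      ideleInvHom K L (Additive.ofMul (FinIdele.diag K b)) := by
  apply Subtype.ext
  change Additive.ofMul (FinIdele.diag L (Units.map (algebraMap K L : K →* L) b)) =
    Additive.ofMul (FinIdele.map (algebraMap K L) (FinIdele.diag K b))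
  rw [FinIdele.map_diag]

omit [IsGalois K L] in
/-- If `Ĥ⁻¹(G, C_L) = 0` then `Ĥ⁰(G, L^×) → Ĥ⁰(G, J_L)` is injective. -/
lemma tateH0_map_diagHom_injective (h : Subsingleton (TateHm1 (ideleClassRep K L))) :
    Function.Injective (TateH0.map (diagHom K L)) := by
  obtain ⟨h0, hX⟩ := exists_ideleShortExact K L
  rw [injective_iff_map_eq_zero]
  intro a ha
  obtain ⟨c, rfl⟩ := (delta_exact_tateH0 hX a).1 ha
  rw [Subsingleton.elim c 0, map_zero]

/-- **Hasse norm theorem**, conditional form: if `Ĥ⁻¹(G, C_L) = 0`, then an element of `K^×`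
which is an idele norm is a norm from `L^×`. -/
theorem exists_norm_eq_of_isIdeleNorm (h : Subsingleton (TateHm1 (ideleClassRep K L))) (b : Kˣ)
    (hb : IsIdeleNorm K L (FinIdele.diag K b)) :
    ∃ y : Lˣ, ∏ σ : L ≃ₐ[K] L, σ • y = Units.map (algebraMap K L : K →* L) b := by
  rw [← tateH0_mk_unitInvElt_eq_zero_iff]
  apply tateH0_map_diagHom_injective K L h
  rw [map_zero, TateH0.map_mk, invMap_diagHom_unitInvElt]
  exact (ideleTateH0_eq_zero_iff K L (Additive.ofMul (FinIdele.diag K b))).2 hb

end ideles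

/-- `Ĥ⁻¹(G, C_L) = 0` from the two inequalities. -/
lemma subsingleton_tateHm1_of_inequalities {k G : Type} [CommRing k] [Group G] [Finite G]
    (C : Rep k G) (p : ℕ) (hp : 0 < p) (h1 : HerbrandFinite C) (h1' : herbrand C = p)
    (h2 : Nat.card (TateH0 C) ≤ p) : Subsingleton (TateHm1 C) := by
  obtain ⟨hf0, hf1⟩ := h1
  have h3 := (herbrand_eq_iff ⟨hf0, hf1⟩ (p : ℚ)).1 h1'
  have h4 : Nat.card (TateH0 C) = p * Nat.card (TateHm1 C) := by exact_mod_cast h3
  have h5 : 0 < Nat.card (TateHm1 C) := Nat.card_pos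
  have h6 : Nat.card (TateHm1 C) ≤ 1 := by
    by_contra hlt
    have hlt' : 2 ≤ Nat.card (TateHm1 C) := by omega
    have : p * 2 ≤ p * Nat.card (TateHm1 C) := Nat.mul_le_mul_left p hlt'
    omega
  exact Finite.card_le_one_iff_subsingleton.1 h6

/-- **(T3) The Hasse norm theorem** for cyclic extensions of prime degree `p` with `ζ_p` in the
base, from the first and the second inequality and the fact that almost all local units are
norms. -/
theorem hasseNormTheorem (p : ℕ) (hp : 0 < p) (h1 : FirstInequality p) (h2 : SecondInequality p)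
    (h3 : ∀ (K L : Type) [Field K] [NumberField K] [Field L] [NumberField L] [Algebra K L]
      [IsGalois K L], AlmostAllUnitsNorms K L) : HasseNormTheorem p := by
  intro K L _ _ _ _ _ _ hcard hζ b hb
  obtain ⟨hfin, hh⟩ := h1 K L hcard
  obtain ⟨_, hle⟩ := h2 K L hcard hζ
  have hsub := subsingleton_tateHm1_of_inequalities (ideleClassRep K L) p hp hfin hh hle
  apply exists_norm_eq_of_isIdeleNorm K L hsub b
  apply isIdeleNorm_of_forall (h3 K L)
  intro ℓ
  exact hb ℓ

end Fermat.Agent.CFT
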