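/-
CFT global part (G4), helper9: the Hasse norm theorem from the two inequalities, unconditionally
in the local input (helper5's `eventually_unitGroup_norm`).
-/
import Fermat.Agent.CFT.Global.G4_helper9_IdeleCoh
import Fermat.Agent.CFT.Global.G02_helper5_AlmostAll

set_option autoImplicit false

open scoped TensorProduct NumberField RestrictedProduct

namespace Fermat.Agent.CFT

/-- Almost all local units are norms of local units (helper5's (T4'')). -/
theorem almostAllUnitsNorms (K L : Type) [Field K] [NumberField K] [Field L] [NumberField L]
    [Algebra K L] [IsGalois K L] : AlmostAllUnitsNorms K L :=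
  eventually_unitGroup_norm K L

/-- **Local-to-idele norm criterion**: an idele of `K` all of whose semi-local components are
norms is an idele norm. -/
theorem isIdeleNorm_of_forall_isSemiLocalNorm {K L : Type} [Field K] [NumberField K] [Field L]
    [NumberField L] [Algebra K L] [IsGalois K L] (x : FinIdele K)
    (hx : ∀ ℓ : Nat.Primes, IsSemiLocalNorm K L ℓ (x ℓ)) : IsIdeleNorm K L x :=
  isIdeleNorm_of_forall (almostAllUnitsNorms K L) x hx

/-- **(T3) The Hasse norm theorem** for cyclic extensions of prime degree `p` with `ζ_p` in the
base, from the first and the second inequality. -/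
theorem hasseNormTheorem_of_inequalities (p : ℕ) (hp : 0 < p) (h1 : FirstInequality p)
    (h2 : SecondInequality p) : HasseNormTheorem p :=
  hasseNormTheorem p hp h1 h2 fun K L _ _ _ _ _ _ => almostAllUnitsNorms K L

end Fermat.Agent.CFT
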