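/-
CFT global part (T5), helper9: existence of non-norms from the first inequality.

If `L/K` is cyclic of prime degree `p` and every unit of `ℚ_ℓ ⊗ K` were a norm for all primes `ℓ`
outside a finite set `S₀`, then by weak approximation modulo `p`-th powers every idele of `K` would
lie in `K^× · N J_L`, i.e. `Ĥ⁰(G, C_L) = 0`, contradicting `h(C_L) = p`.
-/
import Fermat.Agent.CFT.Global.G4_helper9_Hasse
import Fermat.Agent.CFT.Global.T5_helper9_WeakApprox

set_option autoImplicit false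

open scoped TensorProduct NumberField RestrictedProduct

namespace Fermat.Agent.CFT

open Coh

section

variable (K L : Type) [Field K] [NumberField K] [Field L] [NumberField L] [Algebra K L]
  [IsGalois K L]

/-- `[L:K]`-th powers of units of `ℚ_ℓ ⊗ K` are norms. -/
theorem isSemiLocalNorm_pow_card (ℓ : ℕ) [Fact ℓ.Prime] (z : (SemiLocal ℓ K)ˣ) :
    IsSemiLocalNorm K L ℓ (z ^ Nat.card (L ≃ₐ[K] L)) := by
  refine ⟨SemiLocal.unitsMap ℓ (algebraMap K L) z, ?_⟩
  have h1 : ∀ σ : L ≃ₐ[K] L, σ • SemiLocal.unitsMap ℓ (algebraMap K L) z =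
      SemiLocal.unitsMap ℓ (algebraMap K L) z := fun σ =>
    (SemiLocal.units_mem_range_unitsMap_iff_fixed ℓ K L).1 ⟨z, rfl⟩ σ
  rw [Finset.prod_congr rfl fun σ _ => h1 σ, Finset.prod_const, Finset.card_univ, map_pow,
    Nat.card_eq_fintype_card]

end

/-- **(T5)** from the first inequality: for a cyclic extension `L/K` of prime degree `p` and every
finite set `S₀` of rational primes there is a prime `ℓ ∉ S₀` and a unit of `ℚ_ℓ ⊗ K` which is not a
norm from `ℚ_ℓ ⊗ L`. -/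
theorem existsNonNorm_of_firstInequality (p : ℕ) (hp : p.Prime) (h1 : FirstInequality p) :
    ExistsNonNorm p := by
  intro K L _ _ _ _ _ _ hcard S₀
  by_contra hcon
  have hcon' : ∀ ℓ : Nat.Primes, ℓ ∉ S₀ → ∀ b : (SemiLocal ℓ K)ˣ, IsSemiLocalNorm K L ℓ b := by
    intro ℓ hℓ b
    by_contra hb
    exact hcon ⟨ℓ, hℓ, b, hb⟩
  have hall : ∀ x : FinIdele K, ∃ a : Kˣ, IsIdeleNorm K L (x / FinIdele.diag K a) := by
    intro x
    obtain ⟨a, ha⟩ := exists_ofUnits_eq_mul_pow K hp S₀ (fun ℓ => x ℓ)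
    refine ⟨a, isIdeleNorm_of_forall_isSemiLocalNorm _ fun ℓ => ?_⟩
    by_cases hℓ : ℓ ∈ S₀
    · obtain ⟨z, hz⟩ := ha ℓ hℓ
      have h2 : (x / FinIdele.diag K a) ℓ = (z⁻¹) ^ Nat.card (L ≃ₐ[K] L) := by
        rw [hcard]
        change x ℓ / SemiLocal.ofUnits ℓ a = _
        rw [hz, inv_pow, div_mul_cancel_left]
      rw [h2]
      exact isSemiLocalNorm_pow_card K L ℓ _
    · exact hcon' ℓ hℓ _
  have hsub := (subsingleton_tateH0_ideleClassRep_iff K L).2 hall
  obtain ⟨⟨hf0, hf1⟩, hh⟩ := h1 K L hcard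
  have h3 := (herbrand_eq_iff ⟨hf0, hf1⟩ (p : ℚ)).1 hh
  have h4 : Nat.card (TateH0 (ideleClassRep K L)) = p * Nat.card (TateHm1 (ideleClassRep K L)) := by
    exact_mod_cast h3
  have h5 : 0 < Nat.card (TateHm1 (ideleClassRep K L)) := Nat.card_pos
  have h6 : Nat.card (TateH0 (ideleClassRep K L)) ≤ 1 :=
    Finite.card_le_one_iff_subsingleton.2 hsub
  have h7 : p * 1 ≤ p * Nat.card (TateHm1 (ideleClassRep K L)) := Nat.mul_le_mul_left p h5
  have := hp.two_le
  omega

end Fermat.Agent.CFT
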