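/-
CFT global part (G2), helper2: (T5) `ExistsNonNorm p` for odd primes `p`, unconditionally
(helper9's `existsNonNorm_of_firstInequality` applied to `firstInequality`).
-/
import Fermat.Agent.CFT.Global.G2_helper2_FirstInequality
import Fermat.Agent.CFT.Global.T5_helper9_NonNorm

set_option autoImplicit false

namespace Fermat.Agent.CFT

/-- **(T5)** for a cyclic extension of odd prime degree `p` of number fields and every finite set
`S₀` of rational primes there is a prime `ℓ ∉ S₀` and a unit of `ℚ_ℓ ⊗ K` which is not a norm from
`ℚ_ℓ ⊗ L`. -/
theorem existsNonNorm {p : ℕ} (hp : p.Prime) (hp2 : p ≠ 2) : ExistsNonNorm p :=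
  existsNonNorm_of_firstInequality p hp (firstInequality hp hp2)

end Fermat.Agent.CFT
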