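/-
CFT global part, S55 package PT4 (CYC), helper8: **(FROB-GEN)**.  For a number field `K`, an odd
prime `p` and a Galois extension `M/K` containing a primitive `p^(n+1)`-th root of unity `ζ`, the
`(p-1)`-th powers of the values of the cyclotomic character lie in the subgroup of
`(ℤ/p^(n+1))^×` generated by the `(p-1)`-th powers of the norms of the primes of `K` not over `p`.
-/
import Fermat.Agent.CFT.Global.CYC_helper8_Frob
import Fermat.Agent.CFT.Global.G2_helper2_T5
import Fermat.Agent.CFT.Global.G02_helper5_Split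

set_option autoImplicit false
set_option linter.unusedSectionVars false
set_option linter.style.haveILetI false

open scoped NumberField Pointwise
open IsDedekindDomain

namespace Fermat.Agent.CFT.CYC

/-- The `(p-1)`-th powers of the norms of the primes of `K` not over `p`, in `(ℤ/p^(n+1))^×`. -/
def normPowSet (p n : ℕ) (K : Type) [Field K] [NumberField K] : Set (ZMod (p ^ (n + 1)))ˣ :=
  { u | ∃ v : HeightOneSpectrum (𝓞 K), (p : 𝓞 K) ∉ v.asIdeal ∧
      (u : ZMod (p ^ (n + 1))) =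
        ((Nat.card (𝓞 K ⧸ v.asIdeal) : ℕ) : ZMod (p ^ (n + 1))) ^ (p - 1) }

section main

variable {p : ℕ} [hp : Fact p.Prime] {n : ℕ}
variable {K M : Type} [Field K] [NumberField K] [Field M] [NumberField M] [Algebra K M]
  [IsGalois K M]
variable {ζ : M} (hζ : IsPrimitiveRoot ζ (p ^ (n + 1)))

lemma card_units_zmod_ppow : Nat.card (ZMod (p ^ (n + 1)))ˣ = p ^ n * (p - 1) := by
  rw [Nat.card_eq_fintype_card, ZMod.card_units_eq_totient, Nat.totient_prime_pow_succ hp.out]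

/-- The value of the cyclotomic character at a Frobenius at `Q ∤ p`, to the power `p - 1`, lies in
`normPowSet`. -/
lemma autToPow_frob_pow_mem {Q : Ideal (𝓞 M)} [Q.IsPrime] (hQ0 : Q ≠ ⊥) (hpQ : (p : 𝓞 M) ∉ Q)
    {φ : M ≃ₐ[K] M} (hφ : IsArithFrobAt (𝓞 K) φ Q) :
    (hζ.autToPow K φ) ^ (p - 1) ∈ normPowSet p n K := by
  have hNQ : ((p ^ (n + 1) : ℕ) : 𝓞 M) ∉ Q := by
    rw [Nat.cast_pow]
    exact fun h => hpQ (Ideal.IsPrime.mem_of_pow_mem inferInstance _ h)
  refine ⟨⟨Q.under (𝓞 K), Ideal.IsPrime.under (𝓞 K) Q, Ideal.under_ne_bot (𝓞 K) hQ0⟩, ?_, ?_⟩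
  · intro h
    apply hpQ
    have h1 : algebraMap (𝓞 K) (𝓞 M) (p : 𝓞 K) ∈ Q := h
    rwa [map_natCast] at h1
  · rw [Units.val_pow_eq_pow_val, autToPow_of_isArithFrobAt hζ hNQ hφ]

/-- **(FROB-GEN)**, cyclotomic case `M = K(ζ)`. -/
theorem frobGen_of_isCyclotomicExtension (hp2 : p ≠ 2) [IsCyclotomicExtension {p ^ (n + 1)} K M]
    (σ : M ≃ₐ[K] M) :
    (hζ.autToPow K σ) ^ (p - 1) ∈ Subgroup.closure (normPowSet p n K) := by
  classical
  by_contra hσ
  haveI : FiniteDimensional K M := Module.Finite.of_restrictScalars_finite ℚ K M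
  set H : Subgroup (ZMod (p ^ (n + 1)))ˣ := Subgroup.closure (normPowSet p n K) with hH
  -- the homomorphism `θ : Gal(M/K) → A/H`, `τ ↦ [κ(τ)^(p-1)]`
  let θ : (M ≃ₐ[K] M) →* (ZMod (p ^ (n + 1)))ˣ ⧸ H :=
    (QuotientGroup.mk' H).comp ((powMonoidHom (p - 1)).comp (hζ.autToPow K))
  have hθ : ∀ τ, θ τ = QuotientGroup.mk' H ((hζ.autToPow K τ) ^ (p - 1)) := fun τ => rfl
  have hθσ : θ σ ≠ 1 := by
    rw [hθ, QuotientGroup.mk'_apply, Ne, QuotientGroup.eq_one_iff]
    exact hσ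
  -- its image is a nontrivial `p`-group
  have hP : IsPGroup p θ.range := by
    rintro ⟨y, τ, rfl⟩
    refine ⟨n, Subtype.ext ?_⟩
    change θ τ ^ p ^ n = 1
    rw [hθ, ← map_pow, ← pow_mul, mul_comm,
      ← card_units_zmod_ppow, pow_card_eq_one', map_one]
  obtain ⟨k, hk⟩ := IsPGroup.iff_card.mp hP
  have hk0 : k ≠ 0 := by
    rintro rfl
    rw [pow_zero, Nat.card_eq_one_iff_unique] at hk
    obtain ⟨hsub, -⟩ := hk
    apply hθσ
    have := Subsingleton.elim (⟨θ σ, σ, rfl⟩ : θ.range) 1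
    exact congrArg Subtype.val this
  -- a subgroup of index `p` in the image, and its preimage
  obtain ⟨P', hP'⟩ := Sylow.exists_subgroup_card_pow_prime p (n := k - 1) (G := θ.range)
    (by rw [hk]; exact pow_dvd_pow p (Nat.sub_le k 1))
  have hidx' : P'.index = p := by
    have h1 := P'.card_mul_index
    rw [hP', hk] at h1
    have h2 : p ^ k = p ^ (k - 1) * p := by
      rw [← pow_succ, Nat.sub_add_cancel (Nat.pos_of_ne_zero hk0)]
    rw [h2] at h1
    exact Nat.eq_of_mul_eq_mul_left (pow_pos hp.out.pos _) h1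
  set Nsub : Subgroup (M ≃ₐ[K] M) := P'.comap θ.rangeRestrict with hNsub
  haveI : Nsub.Normal := ⟨fun a ha g => by
    rw [hNsub, Subgroup.mem_comap] at ha ⊢
    have h1 : θ.rangeRestrict (g * a * g⁻¹) = θ.rangeRestrict a := by
      apply Subtype.ext
      change θ (g * a * g⁻¹) = θ a
      rw [hθ, hθ, map_mul, map_mul, map_inv, mul_comm (hζ.autToPow K g), mul_inv_cancel_right]
    rwa [h1]⟩
  have hidx : Nsub.index = p := by
    rw [hNsub, Subgroup.index_comap_of_surjective P' θ.rangeRestrict_surjective, hidx']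
  have hker : ∀ τ : M ≃ₐ[K] M, θ τ = 1 → τ ∈ Nsub := by
    intro τ hτ
    rw [hNsub, Subgroup.mem_comap]
    have : θ.rangeRestrict τ = 1 := Subtype.ext hτ
    rw [this]
    exact P'.one_mem
  -- the fixed field `K₁`, cyclic of degree `p` over `K`
  haveI : IsGalois K (IntermediateField.fixedField Nsub) :=
    IsGalois.of_fixedField_normal_subgroup Nsub
  have hcard : Nat.card ((IntermediateField.fixedField Nsub) ≃ₐ[K]
      (IntermediateField.fixedField Nsub)) = p := by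
    rw [IsGalois.card_aut_eq_finrank]
    have h1 := Module.finrank_mul_finrank K (IntermediateField.fixedField Nsub) M
    rw [IntermediateField.finrank_fixedField_eq_card, ← IsGalois.card_aut_eq_finrank K M,
      ← Nsub.card_mul_index, hidx, mul_comm] at h1
    exact Nat.eq_of_mul_eq_mul_left Nat.card_pos h1
  -- (T5) and (T4')
  obtain ⟨ℓ, hℓ, b, hb⟩ := existsNonNorm hp.out hp2 K (IntermediateField.fixedField Nsub) hcard
    {⟨p, hp.out⟩}
  have hℓp : (ℓ : ℕ) ≠ p := by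
    intro h
    exact hℓ (Finset.mem_singleton.mpr (Subtype.ext h))
  apply hb
  apply splitNormCriterion K (IntermediateField.fixedField Nsub) ℓ
  intro Q₁ hQ₁ hℓQ₁ σ₁ hσ₁
  have hQ₁0 : Q₁ ≠ ⊥ := by
    rintro rfl
    have h0 : (((ℓ : ℕ) : 𝓞 (IntermediateField.fixedField Nsub))) = 0 := by simpa using hℓQ₁
    exact ℓ.2.ne_zero (by exact_mod_cast h0)
  haveI : Q₁.IsMaximal := Ideal.IsPrime.isMaximal hQ₁ hQ₁0
  obtain ⟨Q, hQmax, hQover⟩ := Ideal.exists_maximal_ideal_liesOver_of_isIntegral (S := 𝓞 M) Q₁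
  haveI : Q.IsPrime := hQmax.isPrime
  have hunder : Q.under (𝓞 (IntermediateField.fixedField Nsub)) = Q₁ := hQover.over.symm
  have hQ0 : Q ≠ ⊥ := by
    intro h
    rw [h] at hunder
    exact hQ₁0 (by rw [← hunder]; exact Ideal.under_bot _ _)
  -- `p ∉ Q`
  have hℓQ : ((ℓ : ℕ) : 𝓞 M) ∈ Q := by
    have h1 : ((ℓ : ℕ) : 𝓞 (IntermediateField.fixedField Nsub)) ∈
        Q.under (𝓞 (IntermediateField.fixedField Nsub)) := by rw [hunder]; exact hℓQ₁
    rw [Ideal.under_def, Ideal.mem_comap, map_natCast] at h1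
    exact h1
  have hpQ : (p : 𝓞 M) ∉ Q := by
    intro hpQ
    have hcop : IsCoprime ((ℓ : ℕ) : ℤ) (p : ℤ) :=
      Nat.isCoprime_iff_coprime.mpr ((Nat.coprime_primes ℓ.2 hp.out).mpr hℓp)
    obtain ⟨a, c, hac⟩ := hcop
    have h1 : ((a * ((ℓ : ℕ) : ℤ) + c * (p : ℤ) : ℤ) : 𝓞 M) ∈ Q := by
      push_cast
      exact Q.add_mem (Q.mul_mem_left _ hℓQ) (Q.mul_mem_left _ hpQ)
    rw [hac, Int.cast_one] at h1
    exact (Ideal.ne_top_iff_one Q).mp (Ideal.IsPrime.ne_top inferInstance) h1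
  have hNQ : ((p ^ (n + 1) : ℕ) : 𝓞 M) ∉ Q := by
    rw [Nat.cast_pow]
    exact fun h => hpQ (Ideal.IsPrime.mem_of_pow_mem inferInstance _ h)
  -- lift `σ₁` to the decomposition group of `Q`
  obtain ⟨τ, hτQ, hτ⟩ := exists_lift_stabilizer (K := K) Q σ₁ (by rw [hunder]; exact hσ₁)
  obtain ⟨φ, hφ⟩ := exists_frobAt (K := K) Q hQ0
  have hτφ := mem_zpowers_frob hζ hQ0 hNQ hφ hτQ
  have hφN : φ ∈ Nsub := by
    apply hker
    rw [hθ, QuotientGroup.mk'_apply, QuotientGroup.eq_one_iff]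
    exact Subgroup.subset_closure (autToPow_frob_pow_mem hζ hQ0 hpQ hφ)
  have hτN : τ ∈ Nsub := (Subgroup.zpowers_le.mpr hφN) hτφ
  rw [← hτ]
  ext x
  have h2 := AlgEquiv.restrictNormal_commutes τ (IntermediateField.fixedField Nsub) x
  exact h2.trans ((IntermediateField.mem_fixedField_iff Nsub (x : M)).mp x.2 τ hτN)

/-- **(FROB-GEN)**: for a number field `K`, an odd prime `p`, a Galois extension `M/K` of number
fields containing a primitive `p^(n+1)`-th root of unity `ζ` and `σ ∈ Gal(M/K)`, the element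
`κ(σ)^(p-1)` lies in the subgroup of `(ℤ/p^(n+1))^×` generated by the `N(v)^(p-1)`, `v ∤ p` a prime
of `K`. -/
theorem frobGen' (hp2 : p ≠ 2) (σ : M ≃ₐ[K] M) :
    (hζ.autToPow K σ) ^ (p - 1) ∈ Subgroup.closure (normPowSet p n K) := by
  haveI : FiniteDimensional K M := Module.Finite.of_restrictScalars_finite ℚ K M
  haveI : IsCyclotomicExtension {p ^ (n + 1)} K (IntermediateField.adjoin K {ζ}) :=
    hζ.intermediateField_adjoin_isCyclotomicExtension K
  haveI : IsGalois K (IntermediateField.adjoin K {ζ}) :=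
    IsCyclotomicExtension.isGalois {p ^ (n + 1)} K (IntermediateField.adjoin K {ζ})
  let ζ₀ : IntermediateField.adjoin K {ζ} := ⟨ζ, IntermediateField.mem_adjoin_simple_self K ζ⟩
  have hζ₀ : IsPrimitiveRoot ζ₀ (p ^ (n + 1)) :=
    IsPrimitiveRoot.of_map_of_injective (f := algebraMap (IntermediateField.adjoin K {ζ}) M) hζ
      (algebraMap (IntermediateField.adjoin K {ζ}) M).injective
  have key := frobGen_of_isCyclotomicExtension hζ₀ hp2
    (AlgEquiv.restrictNormalHom (IntermediateField.adjoin K {ζ}) σ)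
  have heq : hζ₀.autToPow K (AlgEquiv.restrictNormalHom (IntermediateField.adjoin K {ζ}) σ) =
      hζ.autToPow K σ := by
    apply Units.ext
    apply ZMod.val_injective
    apply hζ.pow_inj (ZMod.val_lt _) (ZMod.val_lt _)
    have h1 := hζ₀.autToPow_spec K (AlgEquiv.restrictNormalHom (IntermediateField.adjoin K {ζ}) σ)
    have h2 := congrArg (algebraMap (IntermediateField.adjoin K {ζ}) M) h1
    rw [map_pow] at h2
    have h3 : algebraMap (IntermediateField.adjoin K {ζ}) M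
        ((AlgEquiv.restrictNormalHom (IntermediateField.adjoin K {ζ}) σ) ζ₀) = σ ζ :=
      AlgEquiv.restrictNormal_commutes σ (IntermediateField.adjoin K {ζ}) ζ₀
    rw [h3, ← hζ.autToPow_spec K σ] at h2
    exact h2
  rwa [heq] at key

end main

end Fermat.Agent.CFT.CYC

namespace Fermat.Agent.CFT.PT4

/-- **(FROB-GEN)** in the shape of helper3's interface (msg 370). -/
theorem frobGen {p : ℕ} [Fact p.Prime] (hp2 : p ≠ 2) (n : ℕ) (K M : Type) [Field K] [NumberField K]
    [Field M] [NumberField M] [Algebra K M] [IsGalois K M] (ζ : M)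
    (hζ : IsPrimitiveRoot ζ (p ^ (n + 1))) (σ : M ≃ₐ[K] M) :
    (hζ.autToPow K σ) ^ (p - 1) ∈ Subgroup.closure
      { u : (ZMod (p ^ (n + 1)))ˣ | ∃ v : HeightOneSpectrum (𝓞 K), (p : 𝓞 K) ∉ v.asIdeal ∧
        (u : ZMod (p ^ (n + 1))) =
          ((Nat.card (𝓞 K ⧸ v.asIdeal) : ℕ) : ZMod (p ^ (n + 1))) ^ (p - 1) } :=
  CYC.frobGen' hζ hp2 σ

end Fermat.Agent.CFT.PT4
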