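import Fermat.Agent.CFT.Global.CycloArtin_lead_Cyclo

/-!
# CFT (PT4.d, part 6): norms of primes are values of the cyclotomic Artin map

* `exists_ordAt_eq_one`: an integer of valuation one at `v` and zero at the other primes over the
  same rational prime;
* **(W5)** `exists_cycloArtin_eq_absNorm`: for a prime `v ∤ p` of `K`, the absolute norm `N v`
  (mod `p^n`) is a value of the cyclotomic Artin map (at a uniformiser idele at `v`).
-/

set_option autoImplicit false
set_option linter.unusedSectionVars false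
set_option linter.style.haveILetI false

open scoped TensorProduct NumberField RestrictedProduct
open IsLocalRing IsDedekindDomain

namespace Fermat.Agent.CFT

section Frob

variable {K : Type} [Field K] [NumberField K]

/-- An integer of valuation one at `v` and zero at the other primes over the same rational
prime. -/
lemma exists_ordAt_eq_one (v : HeightOneSpectrum (𝓞 K)) (ℓ : Nat.Primes) :
    ∃ a : 𝓞 K, a ≠ 0 ∧ ordAt K v.asIdeal (a : K) = 1 ∧
      ∀ w : HeightOneSpectrum (𝓞 K), w ≠ v → ((ℓ : ℕ) : 𝓞 K) ∈ w.asIdeal →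
        ordAt K w.asIdeal (a : K) = 0 := by
  classical
  have hℓ0 : Ideal.span {((ℓ : ℕ) : 𝓞 K)} ≠ 0 := by
    rw [Ne, Ideal.zero_eq_bot, Ideal.span_singleton_eq_bot]
    exact_mod_cast ℓ.2.ne_zero
  have hfin := Ideal.finite_factors hℓ0
  have hT : ∀ w, w ∈ insert v hfin.toFinset → w ≠ v → ((ℓ : ℕ) : 𝓞 K) ∈ w.asIdeal := by
    intro w hw hne
    rw [Finset.mem_insert] at hw
    rcases hw with hw | hw
    · exact absurd hw hne
    · rw [Set.Finite.mem_toFinset, Set.mem_ofPred_eq, Ideal.dvd_span_singleton] at hw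
      exact hw
  have hT' : ∀ w : HeightOneSpectrum (𝓞 K), ((ℓ : ℕ) : 𝓞 K) ∈ w.asIdeal →
      w ∈ insert v hfin.toFinset := by
    intro w hw
    rw [Finset.mem_insert, Set.Finite.mem_toFinset, Set.mem_ofPred_eq, Ideal.dvd_span_singleton]
    exact Or.inr hw
  obtain ⟨π, hπ⟩ := v.intValuation_exists_uniformizer
  obtain ⟨a, ha⟩ := IsDedekindDomain.exists_forall_sub_mem_ideal (s := insert v hfin.toFinset)
    (fun w => w.asIdeal) (fun w => if w = v then 2 else 1) (fun w _ => w.prime)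
    (fun w _ w' _ h h' => h (HeightOneSpectrum.ext h'))
    (fun w => if (w : HeightOneSpectrum (𝓞 K)) = v then π else 1)
  have hv1 : v.intValuation a = WithZero.exp (-1 : ℤ) := by
    have h1 := ha v (Finset.mem_insert_self _ _)
    simp only [if_true] at h1
    rw [← v.intValuation_le_pow_iff_mem] at h1
    rw [← hπ]
    apply Valuation.map_eq_of_sub_lt
    refine h1.trans_lt ?_
    rw [hπ, WithZero.exp_lt_exp]
    norm_num
  have ha0 : a ≠ 0 := by
    rintro rfl
    rw [map_zero] at hv1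
    exact WithZero.exp_ne_zero.symm hv1
  refine ⟨a, ha0, ?_, ?_⟩
  · rw [Crossing.ordAt_asIdeal, HeightOneSpectrum.valuation_of_algebraMap, hv1, WithZero.log_exp]
    norm_num
  · intro w hwv hw
    have h1 := ha w (hT' w hw)
    simp only [if_neg hwv, pow_one] at h1
    rw [← w.intValuation_lt_one_iff_mem] at h1
    have h2 : w.intValuation a = w.intValuation 1 := by
      apply Valuation.map_eq_of_sub_lt
      rw [map_one]
      exact h1
    rw [map_one] at h2
    rw [Crossing.ordAt_asIdeal, HeightOneSpectrum.valuation_of_algebraMap, h2, WithZero.log_one,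
      neg_zero]

variable (p : ℕ) [hp : Fact p.Prime] (n : ℕ)

/-- the `ℓ`-component of the norm of a prime not over `ℓ` is trivial -/
lemma ratLocal_absNorm_of_not_mem (ℓ : Nat.Primes) (w : HeightOneSpectrum (𝓞 K))
    (hw : ((ℓ : ℕ) : 𝓞 K) ∉ w.asIdeal) (U : ℚˣ)
    (hU : (U : ℚ) = ((Ideal.absNorm w.asIdeal : ℕ) : ℚ)) :
    ratLocal p n ℓ U = 1 := by
  haveI := w.isPrime
  obtain ⟨q, hq⟩ := exists_prime_mem w
  haveI : Fact (q : ℕ).Prime := ⟨q.2⟩
  obtain ⟨f, hf⟩ := G5c.absNorm_prime_eq_pow (q : ℕ) w.asIdeal w.ne_bot hq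
  have hne : (ℓ : ℕ) ≠ (q : ℕ) := by
    intro h
    apply hw
    rw [h]
    exact hq
  haveI : Fact (ℓ : ℕ).Prime := ⟨ℓ.2⟩
  have h1 : padicValRat (ℓ : ℕ) (((q : ℕ) ^ f : ℕ) : ℚ) = 0 := by
    rw [← padicValRat_of_nat, padicValNat.pow, padicValNat_primes hne, mul_zero,
      Nat.cast_zero]
  rw [ratLocal_apply, hU, hf, h1, zpow_zero]

/-- **(W5)**: for a prime `v ∤ p` of `K`, the absolute norm `N v` is a value of the cyclotomic
Artin map (at a uniformiser idele at `v`). -/
theorem exists_cycloArtin_eq_absNorm (v : HeightOneSpectrum (𝓞 K))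
    (hv : (p : 𝓞 K) ∉ v.asIdeal) :
    ∃ x : FinIdele K, ((cycloArtin p n K x : (ZMod (p ^ n))ˣ) : ZMod (p ^ n)) =
      ((Nat.card (𝓞 K ⧸ v.asIdeal) : ℕ) : ZMod (p ^ n)) := by
  classical
  haveI := v.isPrime
  obtain ⟨ℓ, hℓ⟩ := exists_prime_mem v
  haveI : Fact (ℓ : ℕ).Prime := ⟨ℓ.2⟩
  have hℓp : (ℓ : ℕ) ≠ p := by
    intro h
    apply hv
    rw [← h]
    exact hℓ
  obtain ⟨a, ha0, hav, haw⟩ := exists_ordAt_eq_one v ℓ
  have haK : (a : K) ≠ 0 := by
    intro h
    apply ha0
    exact_mod_cast h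
  refine ⟨FinIdele.single ℓ (SemiLocal.ofUnits ℓ (Units.mk0 (a : K) haK)), ?_⟩
  rw [cycloArtin_single_ofUnits p n ℓ hℓp, Units.val_mk0]
  -- the norm as a product
  have hfin := Crossing.finite_setOf_ordAt_ne_zero (K := K) (Units.mk0 (a : K) haK)
  have habs := abs_norm_eq_finprod (K := K) (c := (a : K)) haK
  rw [finprod_eq_prod_of_mulSupport_subset (s := hfin.toFinset)] at habs
  swap
  · intro w hw
    rw [Function.mem_mulSupport] at hw
    rw [Set.Finite.coe_toFinset, Set.mem_ofPred_eq]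
    intro h0
    rw [Units.val_mk0] at h0
    rw [h0, zpow_zero] at hw
    exact hw rfl
  have hne : ∀ w : HeightOneSpectrum (𝓞 K), ((Ideal.absNorm w.asIdeal : ℕ) : ℚ) ≠ 0 := by
    intro w
    have : Ideal.absNorm w.asIdeal ≠ 0 := by
      rw [Ne, Ideal.absNorm_eq_zero_iff]; exact w.ne_bot
    exact_mod_cast this
  have hN0 : Algebra.norm ℚ (a : K) ≠ 0 := by
    rw [Ne, Algebra.norm_eq_zero_iff]; exact haK
  have hunits : Units.mk0 |Algebra.norm ℚ (a : K)| (abs_ne_zero.2 hN0) =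
      ∏ w ∈ hfin.toFinset, (Units.mk0 _ (hne w)) ^ ordAt K w.asIdeal (a : K) := by
    apply Units.ext
    rw [Units.val_mk0, habs, Units.coe_prod]
    refine Finset.prod_congr rfl fun w _ => ?_
    rw [Units.val_zpow_eq_zpow_val, Units.val_mk0]
  have hvmem : v ∈ hfin.toFinset := by
    rw [Set.Finite.mem_toFinset, Set.mem_ofPred_eq, Units.val_mk0, hav]
    exact one_ne_zero
  have h1 : ratLocal p n ℓ (Units.mk0 |Algebra.norm ℚ (a : K)| (abs_ne_zero.2 hN0)) =
      ratLocal p n ℓ (Units.mk0 _ (hne v)) := by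
    rw [hunits, map_prod, Finset.prod_eq_single v]
    · rw [hav, zpow_one]
    · intro w _ hwv
      rw [map_zpow]
      by_cases hw : ((ℓ : ℕ) : 𝓞 K) ∈ w.asIdeal
      · rw [haw w hwv hw, zpow_zero]
      · rw [ratLocal_absNorm_of_not_mem p n ℓ w hw _ (Units.val_mk0 _), one_zpow]
    · intro h
      exact absurd hvmem h
  obtain ⟨f, hf⟩ := G5c.absNorm_prime_eq_pow (ℓ : ℕ) v.asIdeal v.ne_bot hℓ
  have h2 : awayUnit p n ℓ ^ padicValRat ℓ (Algebra.norm ℚ (a : K)) =
      awayUnit p n ℓ ^ (f : ℤ) := by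
    have h3 : padicValRat (ℓ : ℕ) (((ℓ : ℕ) ^ f : ℕ) : ℚ) = f := by
      rw [← padicValRat_of_nat, padicValNat.prime_pow]
    rw [ratLocal_apply, ratLocal_apply, Units.val_mk0, Units.val_mk0, hf, h3] at h1
    rw [← h1]
    rcases abs_choice (Algebra.norm ℚ (a : K)) with h | h
    · rw [h]
    · rw [h, padicValRat.neg]
  rw [h2, zpow_natCast, Units.val_pow_eq_pow_val, coe_awayUnit_of_ne p n ℓ hℓp]
  have h4 : Nat.card (𝓞 K ⧸ v.asIdeal) = (ℓ : ℕ) ^ f := by
    rw [← hf, Ideal.absNorm_apply, Submodule.cardQuot_apply]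
  rw [h4, Nat.cast_pow]

end Frob

end Fermat.Agent.CFT
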