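/-
CFT global part, S55 package PT4 (d), helper3: the INTERFACE between the arithmetic of the
cyclotomic Artin map (lead's `cycloArtin`, Frobenius generation) and the cohomological crossing
argument for CLAIM A: `CycloRec p n` packages the `p`-part `ω` of the cyclotomic Artin map at level
`p^(n+1)` on the finite ideles of all number fields, with base change, triviality on norms from
fields containing `ζ_{p^(n+1)}`, and surjectivity onto the `(p-1)`-th powers of the values of the
cyclotomic character.
-/
import Fermat.Agent.CFT.Global.PT4c_helper3_Devissage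

set_option autoImplicit false

open scoped NumberField
open Fermat.Agent.CFT.Coh

namespace Fermat.Agent.CFT.PT4

/-- Abstract cyclotomic reciprocity data at level `p^(n+1)` (the `p`-part of the cyclotomic Artin
map on finite ideles). -/
structure CycloRec (p : ℕ) [Fact p.Prime] (n : ℕ) : Type 1 where
  /-- the `p`-part of the cyclotomic Artin map -/
  ω : ∀ (F : Type) [Field F] [NumberField F], FinIdele F →* (ZMod (p ^ (n + 1)))ˣ
  /-- base change along an arbitrary finite extension -/
  baseChange : ∀ (K K' : Type) [Field K] [NumberField K] [Field K'] [NumberField K']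
    [Algebra K K'] (x : FinIdele K),
    ω K' (FinIdele.map (algebraMap K K') x) = ω K x ^ Module.finrank K K'
  /-- `K^× · N J_E ⊆ ker ω_K` when `ζ_{p^(n+1)} ∈ E` -/
  norm_le : ∀ (K E : Type) [Field K] [NumberField K] [Field E] [NumberField E] [Algebra K E]
    [IsGalois K E] (ζ : E), IsPrimitiveRoot ζ (p ^ (n + 1)) → ∀ x : FinIdele K,
    ideleToTateH0 K E (Additive.ofMul x) = 0 → ω K x = 1
  /-- the image of `ω_K` contains the `(p-1)`-th powers of the values of the cyclotomic
  character -/
  surj : ∀ (K M : Type) [Field K] [NumberField K] [Field M] [NumberField M] [Algebra K M]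
    [IsGalois K M] (ζ : M) (hζ : IsPrimitiveRoot ζ (p ^ (n + 1))) (σ : M ≃ₐ[K] M),
    ∃ x : FinIdele K, ω K x = (hζ.autToPow K σ) ^ (p - 1)

end Fermat.Agent.CFT.PT4
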