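/-
CFT global part, S55 package PT4 (CYC), helper8: the instance `cycloRec : CycloRec p n` of helper3's
interface, from lead's cyclotomic Artin map `cycloArtin` ((W2), (W3), (W4), (W5), (W6)) and
(FROB-GEN).
-/
import Fermat.Agent.CFT.Global.CYC_helper8_FrobGen
import Fermat.Agent.CFT.Global.CycloArtin_lead_Frob
import Fermat.Agent.CFT.Global.PT4d_helper3_CycloRec

set_option autoImplicit false
set_option linter.unusedSectionVars false
set_option linter.style.haveILetI false

open scoped NumberField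
open IsDedekindDomain
open Fermat.Agent.CFT.Coh

namespace Fermat.Agent.CFT.PT4

section

variable (p : ℕ) [hp : Fact p.Prime] (n : ℕ)

/-- The `p`-part `ω_F = cycloArtin ^ (p - 1)` of the cyclotomic Artin map at level `p^(n+1)`. -/
noncomputable def cycloOmega (F : Type) [Field F] [NumberField F] :
    FinIdele F →* (ZMod (p ^ (n + 1)))ˣ :=
  (powMonoidHom (p - 1)).comp (cycloArtin p (n + 1) F)

lemma cycloOmega_apply (F : Type) [Field F] [NumberField F] (x : FinIdele F) :
    cycloOmega p n F x = cycloArtin p (n + 1) F x ^ (p - 1) := rfl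

lemma cycloOmega_baseChange (K K' : Type) [Field K] [NumberField K] [Field K'] [NumberField K']
    [Algebra K K'] (x : FinIdele K) :
    cycloOmega p n K' (FinIdele.map (algebraMap K K') x) =
      cycloOmega p n K x ^ Module.finrank K K' := by
  rw [cycloOmega_apply, cycloOmega_apply, cycloArtin_map, ← pow_mul, ← pow_mul, mul_comm]

lemma cycloOmega_norm_le (hp2 : p ≠ 2) (K E : Type) [Field K] [NumberField K] [Field E]
    [NumberField E] [Algebra K E] [IsGalois K E] (ζ : E) (hζ : IsPrimitiveRoot ζ (p ^ (n + 1)))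
    (x : FinIdele K) (hx : ideleToTateH0 K E (Additive.ofMul x) = 0) : cycloOmega p n K x = 1 := by
  obtain ⟨a, y, hy⟩ := (ideleToTateH0_eq_zero_iff K E (Additive.ofMul x)).mp hx
  have h1 : cycloArtin p (n + 1) E y = cycloArtin p (n + 1) K (x / FinIdele.diag K a) :=
    cycloArtin_eq_of_map_eq_prod_smul p (n + 1) _ y hy.symm
  rw [cycloArtin_eq_one_of_isPrimitiveRoot p n hp2 hζ y, map_div, eq_comm, div_eq_one] at h1
  have h2 := cycloArtin_diag_sq p (n + 1) a
  obtain ⟨m, hm⟩ : 2 ∣ p - 1 := by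
    have hodd : Odd p := hp.out.odd_of_ne_two hp2
    obtain ⟨k, hk⟩ := hodd
    exact ⟨k, by omega⟩
  rw [cycloOmega_apply, h1, hm, pow_mul, h2, one_pow]

lemma cycloOmega_surj (hp2 : p ≠ 2) (K M : Type) [Field K] [NumberField K] [Field M]
    [NumberField M] [Algebra K M] [IsGalois K M] (ζ : M) (hζ : IsPrimitiveRoot ζ (p ^ (n + 1)))
    (σ : M ≃ₐ[K] M) : ∃ x : FinIdele K, cycloOmega p n K x = (hζ.autToPow K σ) ^ (p - 1) := by
  have h1 := frobGen hp2 n K M ζ hζ σ
  have h2 : Subgroup.closure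
      { u : (ZMod (p ^ (n + 1)))ˣ | ∃ v : HeightOneSpectrum (𝓞 K), (p : 𝓞 K) ∉ v.asIdeal ∧
        (u : ZMod (p ^ (n + 1))) =
          ((Nat.card (𝓞 K ⧸ v.asIdeal) : ℕ) : ZMod (p ^ (n + 1))) ^ (p - 1) } ≤
      (cycloOmega p n K).range := by
    rw [Subgroup.closure_le]
    rintro u ⟨v, hv, hu⟩
    obtain ⟨x, hx⟩ := exists_cycloArtin_eq_absNorm p (n + 1) v hv
    refine ⟨x, Units.ext ?_⟩
    rw [cycloOmega_apply, Units.val_pow_eq_pow_val, hx, hu]
  exact h2 h1

/-- **The instance of helper3's cyclotomic reciprocity interface.** -/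
noncomputable def cycloRec (hp2 : p ≠ 2) : CycloRec p n where
  ω F _ _ := cycloOmega p n F
  baseChange K K' _ _ _ _ _ x := cycloOmega_baseChange p n K K' x
  norm_le K E _ _ _ _ _ _ ζ hζ x hx := cycloOmega_norm_le p n hp2 K E ζ hζ x hx
  surj K M _ _ _ _ _ _ ζ hζ σ := cycloOmega_surj p n hp2 K M ζ hζ σ

end

end Fermat.Agent.CFT.PT4
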