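/-
CFT global part (G5), helper3: the cohomological core of Tate's crossing argument, in abstract
form (finite group `G`, `A : Rep ℤ G`):

* `exists_cupδInv_of_H2res_eq_zero` : a class in `H²(G, A)` which restricts to `0` on a normal
  subgroup `S` with `H¹(S, A) = 0` and cyclic quotient `G ⧸ S = ⟨ḡ⟩` is of the form `c ∪ δχ`,
  `c ∈ A^G`, `χ` the character `ḡ^i ↦ i/n` inflated to `G`;
* `H2res_cupδInv_eq_zero_iff` : for a cyclic subgroup `H = ⟨h⟩` on which `χ` restricts to
  `h^i ↦ i/n`: `res_H (a ∪ δχ) = 0 ↔ a ∈ N_H A`;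
* `H2res_cupδInv_of_comp_eq_zero` : `res_H (a ∪ δχ) = 0` if `χ|_H = 0`;
* `eval_eq_of_cupδInv_eq` : if `a ∪ δχ₁ = c ∪ δχ₂` in `H²(G, A)` and `ord : A → ℤ` is additive and
  invariant under a subgroup `D`, then `ord a • χ₁ φ = ord c • χ₂ φ` for all `φ ∈ D`.
-/
import Fermat.Agent.CFT.Coh.Cup_helper2_Nat
import Fermat.Agent.CFT.Coh.Cup_helper2_Equiv
import Fermat.Agent.CFT.Coh.H2InfRes_helper9

set_option autoImplicit false

open CategoryTheory groupCohomology Rep

namespace Fermat.Agent.CFT.Coh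

section

variable {k G : Type} [CommRing k] [Group G] (A : Rep k G)

lemma cupδInv_zero_right (a : A.ρ.invariants) : cupδInv A a (0 : QZChar G) = 0 := by
  have h := cupδInv_add_right A a 0 0
  rw [add_zero] at h
  exact left_eq_add.mp h

/-- `res_H (a ∪ δχ) = 0` if `χ` is trivial on `H`. -/
theorem H2res_cupδInv_of_comp_eq_zero (H : Subgroup G) (a : A.ρ.invariants) (χ : QZChar G)
    (hχ : χ.comp H.subtype = 0) : (H2res A H).hom (cupδInv A a χ) = 0 := by
  have h := map_cupδInv H.subtype (𝟙 (res H.subtype A)) a χ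
  rw [hχ, cupδInv_zero_right] at h
  exact h

end

section

variable {k G : Type} [CommRing k] [Group G] (A : Rep k G)

/-- For a finite cyclic subgroup `H = ⟨h⟩` of `G` on which `χ` restricts to `h^i ↦ i/n`:
`res_H (a ∪ δχ) = 0` iff `a` is a norm from `H`. -/
theorem H2res_cupδInv_eq_zero_iff (H : Subgroup G) [Finite H] {h : H}
    (hh : ∀ x, x ∈ Subgroup.zpowers h) (a : A.ρ.invariants) (χ : QZChar G)
    (hχ : χ.comp H.subtype = cycChar hh) :
    (H2res A H).hom (cupδInv A a χ) = 0 ↔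
      ∃ y : A.V, normMap (res H.subtype A) y = (a : A.V) := by
  have h1 := map_cupδInv H.subtype (𝟙 (res H.subtype A)) a χ
  rw [hχ] at h1
  set a' : (res H.subtype A).ρ.invariants := invPull H.subtype (𝟙 (res H.subtype A)) a with ha'
  have h2 : cupδInv (res H.subtype A) a' (cycChar hh) =
      (H2EquivTateH0 hh (res H.subtype A)).symm (TateH0.mk _ a') := by
    rw [← cupδ_mk, cupδ_cycChar_eq_symm]
  have h3 : (H2res A H).hom (cupδInv A a χ) =
      (H2EquivTateH0 hh (res H.subtype A)).symm (TateH0.mk _ a') := h1.trans h2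
  rw [h3, LinearEquiv.map_eq_zero_iff, TateH0.mk_eq_zero_iff]
  rfl

end

section

variable {k G : Type} [CommRing k] [Group G] [Finite G] (A : Rep k G) (S : Subgroup G) [S.Normal]

/-- A class in `H²(G, A)` which restricts to `0` on the normal subgroup `S`, where `H¹(S, A) = 0`
and `G ⧸ S` is cyclic generated by `ḡ`, is of the form `c ∪ δχ` with `c ∈ A^G` and
`χ = (ḡ^i ↦ i/n) ∘ (G → G ⧸ S)`. -/
theorem exists_cupδInv_of_H2res_eq_zero (h1 : Limits.IsZero (H1 (res S.subtype A)))
    {gbar : G ⧸ S} (hg : ∀ x, x ∈ Subgroup.zpowers gbar)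
    (x : groupCohomology A 2) (hx : (H2res A S).hom x = 0) :
    ∃ c : A.ρ.invariants, x = cupδInv A c ((cycChar hg).comp (QuotientGroup.mk' S)) := by
  obtain ⟨y, rfl⟩ := exists_H2inf_eq_of_H2res_eq_zero A S h1 x hx
  obtain ⟨c, hc⟩ := TateH0.mk_surjective _ (H2EquivTateH0 hg (A.quotientToInvariants S) y)
  have hy : y = cupδInv (A.quotientToInvariants S) c (cycChar hg) := by
    have := cupδ_cycChar_eq_symm hg (A.quotientToInvariants S) (TateH0.mk _ c)
    rw [cupδ_mk] at this
    rw [this, hc, LinearEquiv.symm_apply_apply]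
  have key := map_cupδInv (QuotientGroup.mk' S) (ofHom <| A.ρ.quotientToInvariants_lift S) c
    (cycChar hg)
  refine ⟨invPull (QuotientGroup.mk' S) (ofHom <| A.ρ.quotientToInvariants_lift S) c, ?_⟩
  rw [← key, ← hy]

end

section eval

variable {k G : Type} [CommRing k] [Group G]

/-- On the trivial representation `k`, `n ∪ δχ = n • δχ`. -/
lemma cupδInv_trivial (n : (Rep.trivial k G k).ρ.invariants) (χ : QZChar G) :
    cupδInv (Rep.trivial k G k) n χ = (n : k) • δchar k χ := by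
  rw [cupδInv]
  generalize δchar k χ = x
  induction x using H2_induction_on with
  | h m =>
    erw [cupInv_π]
    rw [← map_smul]
    congr 1
    apply Subtype.ext
    funext p
    change m.1 p • (n : k) = (n : k) • m.1 p
    rw [smul_eq_mul, smul_eq_mul, mul_comm]

variable (A : Rep k G)

/-- For a `k`-linear form `ord` on `A` invariant under the subgroup `D`: the image of `a ∪ δχ`
under `res_D` followed by `ord` is `ord a • δ(χ|_D)`. -/
theorem map_ord_cupδInv (D : Subgroup G) (ord : A.V →ₗ[k] k)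
    (hord : ∀ d ∈ D, ∀ x : A.V, ord (A.ρ d x) = ord x) (a : A.ρ.invariants) (χ : QZChar G) :
    (map D.subtype (Rep.ofHom ⟨ord, fun d => LinearMap.ext fun x => hord d.1 d.2 x⟩ :
      res D.subtype A ⟶ Rep.trivial k D k) 2).hom (cupδInv A a χ) =
      ord (a : A.V) • δchar k (χ.comp D.subtype) := by
  rw [map_cupδInv, cupδInv_trivial]
  rfl

end eval

section eval2

variable {G : Type} [Group G] [Finite G]

/-- `n₁ • δχ₁ = n₂ • δχ₂` in `H²(G, ℤ)` implies `n₁ • χ₁ = n₂ • χ₂`. -/
theorem zsmul_eq_of_zsmul_δchar_eq {n₁ n₂ : ℤ} {χ₁ χ₂ : QZChar G}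
    (h : n₁ • δchar ℤ χ₁ = n₂ • δchar ℤ χ₂) : n₁ • χ₁ = n₂ • χ₂ := by
  apply δchar_injective
  rw [← δcharHom_apply, ← δcharHom_apply, map_zsmul, map_zsmul]
  exact h

end eval2

end Fermat.Agent.CFT.Coh
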