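/-
CFT global part (G5), helper3: the abstract crossing theorem.  A finite group `𝔊` with two cyclic
normal subgroups `H₁ = ⟨h₁⟩`, `H₂ = ⟨h₂⟩`, `H₁ ∩ H₂ = 1`, `H₁ H₂ = 𝔊`, a `𝔊`-module `A` with
`H¹(H₂, A) = 0`, a character `χ₁` of `𝔊` which is trivial on `H₁` and equal to `h₂^i ↦ i/n` on
`H₂`.  If `b ∈ A^𝔊` is a norm from `H₂` then `b ∪ δχ₁ = c ∪ δχ₂`, where `χ₂` is trivial on `H₂` and
equal to `h₁^i ↦ i/n` on `H₁`, and `c ∈ A^𝔊` is a norm from `H₁`.  Plus: evaluation of an equality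
`a ∪ δχ₁ = c ∪ δχ₂` by an invariant linear form, and facts on the characters `cycChar`.
-/
import Fermat.Agent.CFT.Global.Crossing_helper3_Coh

set_option autoImplicit false
set_option linter.unusedSectionVars false

open CategoryTheory groupCohomology Rep

namespace Fermat.Agent.CFT.Coh

section chars

variable {G : Type} [Group G] [Finite G] {g : G} (hg : ∀ x, x ∈ Subgroup.zpowers g)

lemma cycChar_apply_pow (i : ℕ) :
    cycChar hg (Additive.ofMul (g ^ i)) =
      ((((i : ℚ) / (orderOf g : ℚ) : ℚ)) : AddCircle (1 : ℚ)) := by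
  rw [cycChar_apply, cycExp_pow]
  have hn : (orderOf g : ℚ) ≠ 0 := Nat.cast_ne_zero.mpr (orderOf_pos g).ne'
  have h := Nat.div_add_mod i (orderOf g)
  have h2 : ((i : ℚ) / (orderOf g : ℚ)) =
      (((i % orderOf g : ℕ) : ℚ) / (orderOf g : ℚ)) + ((i / orderOf g : ℕ) : ℚ) := by
    field_simp
    have : ((orderOf g * (i / orderOf g) + i % orderOf g : ℕ) : ℚ) = (i : ℚ) := by rw [h]
    push_cast at this
    linarith
  rw [h2, AddCircle.coe_add, left_eq_add, AddCircle.coe_eq_zero_iff]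
  exact ⟨((i / orderOf g : ℕ) : ℤ), by rw [zsmul_eq_mul, mul_one, Int.cast_natCast]⟩

lemma cycChar_apply_self :
    cycChar hg (Additive.ofMul g) = ((((1 : ℚ) / (orderOf g : ℚ) : ℚ)) : AddCircle (1 : ℚ)) := by
  have := cycChar_apply_pow hg 1
  rwa [pow_one, Nat.cast_one] at this

include hg in
lemma qzChar_ext_of_generator {χ₁ χ₂ : QZChar G}
    (h : χ₁ (Additive.ofMul g) = χ₂ (Additive.ofMul g)) : χ₁ = χ₂ := by
  refine AddMonoidHom.ext fun x => ?_
  obtain ⟨n, hn⟩ := Subgroup.mem_zpowers_iff.mp (hg (Additive.toMul x))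
  have hx : x = n • Additive.ofMul g := by
    rw [← ofMul_zpow, hn]
    rfl
  rw [hx, map_zsmul, map_zsmul, h]

lemma cycChar_comp_of_injective {H : Type} [Group H] [Finite H] {h : H}
    (hh : ∀ x, x ∈ Subgroup.zpowers h) (φ : H →* G) (hφ : Function.Injective φ) (hφh : φ h = g) :
    (cycChar hg).comp φ = cycChar hh := by
  apply qzChar_ext_of_generator hh
  rw [QZChar.comp_apply, hφh, cycChar_apply_self, cycChar_apply_self, ← hφh,
    orderOf_injective φ hφ]

lemma cycChar_injective : Function.Injective (cycChar hg) := by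
  rw [injective_iff_map_eq_zero]
  intro x hx
  have h1 : cycChar hg (Additive.ofMul (Additive.toMul x)) = 0 := hx
  rw [cycChar_apply, AddCircle.coe_eq_zero_iff] at h1
  obtain ⟨n, hn⟩ := h1
  have hpos : (0 : ℚ) < (orderOf g : ℚ) := Nat.cast_pos.mpr (orderOf_pos g)
  have hlt : ((cycExp hg (Additive.toMul x) : ℚ)) / (orderOf g : ℚ) < 1 := by
    rw [div_lt_one hpos]
    exact_mod_cast cycExp_lt hg _
  have hge : (0 : ℚ) ≤ ((cycExp hg (Additive.toMul x) : ℚ)) / (orderOf g : ℚ) := by positivity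
  rw [zsmul_eq_mul, mul_one] at hn
  have hn0 : n = 0 := by
    have h1 : (n : ℚ) < 1 := hn ▸ hlt
    have h2 : (0 : ℚ) ≤ n := hn ▸ hge
    have h1' : n < 1 := by exact_mod_cast h1
    have h2' : 0 ≤ n := by exact_mod_cast h2
    omega
  rw [hn0, Int.cast_zero, eq_comm, div_eq_zero_iff] at hn
  have h0 : cycExp hg (Additive.toMul x) = 0 := by
    rcases hn with hn | hn
    · exact_mod_cast hn
    · exact absurd hn hpos.ne'
  have := pow_cycExp hg (Additive.toMul x)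
  rw [h0, pow_zero] at this
  exact congrArg Additive.ofMul this.symm

end chars

section crossing

variable {k G : Type} [CommRing k] [Group G] [Finite G] (A : Rep k G)

/-- **Abstract crossing theorem.** -/
theorem exists_cupδInv_eq_cupδInv_of_norm (H₁ H₂ : Subgroup G) [H₂.Normal]
    (hinf : ∀ x : G, x ∈ H₁ → x ∈ H₂ → x = 1) (hsup : ∀ g : G, ∃ h ∈ H₁, g * h⁻¹ ∈ H₂)
    {h₁ : H₁} (hh₁ : ∀ x, x ∈ Subgroup.zpowers h₁) {h₂ : H₂} (hh₂ : ∀ x, x ∈ Subgroup.zpowers h₂)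
    (hH1 : Limits.IsZero (H1 (res H₂.subtype A)))
    (χ₁ : QZChar G) (hχ₁₁ : χ₁.comp H₁.subtype = 0) (hχ₁₂ : χ₁.comp H₂.subtype = cycChar hh₂)
    (b : A.ρ.invariants) (hb : ∃ y : A.V, normMap (res H₂.subtype A) y = (b : A.V)) :
    ∃ (χ₂ : QZChar G) (c : A.ρ.invariants), χ₂.comp H₂.subtype = 0 ∧
      cupδInv A b χ₁ = cupδInv A c χ₂ ∧
      ∃ y : A.V, normMap (res H₁.subtype A) y = (c : A.V) := by
  -- the generator of `G ⧸ H₂`
  set gbar : G ⧸ H₂ := QuotientGroup.mk' H₂ (h₁ : G) with hgbar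
  have hgen : ∀ x, x ∈ Subgroup.zpowers gbar := by
    intro x
    obtain ⟨x, rfl⟩ := QuotientGroup.mk'_surjective H₂ x
    obtain ⟨h, hh, hx⟩ := hsup x
    obtain ⟨n, hn⟩ := Subgroup.mem_zpowers_iff.mp (hh₁ ⟨h, hh⟩)
    refine Subgroup.mem_zpowers_iff.mpr ⟨n, ?_⟩
    have h1 : QuotientGroup.mk' H₂ x = QuotientGroup.mk' H₂ h := by
      have h2 : x = (x * h⁻¹) * h := by group
      conv_lhs => rw [h2]
      have h3 : QuotientGroup.mk' H₂ (x * h⁻¹) = 1 := (QuotientGroup.eq_one_iff (N := H₂) _).mpr hx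
      rw [map_mul, h3, one_mul]
    rw [h1, hgbar, ← map_zpow]
    congr 1
    have := congrArg (Subtype.val) hn
    simpa using this
  set φ : H₁ →* G ⧸ H₂ := (QuotientGroup.mk' H₂).comp H₁.subtype with hφ
  have hφinj : Function.Injective φ := by
    rw [injective_iff_map_eq_one]
    intro x hx
    have : (x : G) ∈ H₂ := by
      rw [← QuotientGroup.eq_one_iff]
      exact hx
    exact Subtype.ext (hinf x x.2 this)
  set χ₂ : QZChar G := (cycChar hgen).comp (QuotientGroup.mk' H₂) with hχ₂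
  have hχ₂₁ : χ₂.comp H₁.subtype = cycChar hh₁ :=
    cycChar_comp_of_injective hgen hh₁ φ hφinj rfl
  have hχ₂₂ : χ₂.comp H₂.subtype = 0 := by
    refine AddMonoidHom.ext fun x => ?_
    change cycChar hgen (Additive.ofMul (QuotientGroup.mk' H₂ (Additive.toMul x : H₂))) = 0
    have : QuotientGroup.mk' H₂ ((Additive.toMul x : H₂) : G) = 1 :=
      (QuotientGroup.eq_one_iff _).mpr (Additive.toMul x : H₂).2
    rw [this]
    exact map_zero _
  have h1 : (H2res A H₂).hom (cupδInv A b χ₁) = 0 :=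
    (H2res_cupδInv_eq_zero_iff A H₂ hh₂ b χ₁ hχ₁₂).mpr hb
  obtain ⟨c, hc⟩ := exists_cupδInv_of_H2res_eq_zero A H₂ hH1 hgen _ h1
  refine ⟨χ₂, c, hχ₂₂, hc, ?_⟩
  have h2 : (H2res A H₁).hom (cupδInv A c χ₂) = 0 := by
    rw [← hc]
    exact H2res_cupδInv_of_comp_eq_zero A H₁ b χ₁ hχ₁₁
  exact (H2res_cupδInv_eq_zero_iff A H₁ hh₁ c χ₂ hχ₂₁).mp h2

end crossing

end Fermat.Agent.CFT.Coh
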