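/-
CFT global part (G5), helper3: field-theoretic part of Tate's crossing argument.
`K = ℚ(ζ_p)`, `L/K` cyclic of degree `p` in which the primes over `p` split completely,
`M = L(ζ_{p^(r+1)})`.  The Galois group `Gal(M/K)` with its two homomorphisms
`ρ : Gal(M/K) → Gal(L/K)` (restriction) and `κ : Gal(M/K) → (ℤ/p^(r+1))^×` (cyclotomic character),
`ker ρ ∩ ker κ = 1`, commutativity, and the linear disjointness `ker κ ≠ 1`
(from the uniqueness of the prime over `p` in `ℚ(ζ_{p^(r+1)})`).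
-/
import Mathlib
import Fermat.Agent.CFT.Global.Crossing_helper3_Coh
import Fermat.Agent.CFT.Global.Interface_helper3

set_option autoImplicit false
set_option linter.unusedSectionVars false
set_option linter.style.haveILetI false

open scoped NumberField Pointwise

namespace Fermat.Agent.CFT.Crossing

section basic

variable {p : ℕ} [hp : Fact p.Prime] {r : ℕ}
variable (K L : Type) {M : Type} [Field K] [Field L] [Field M] [Algebra K L] [Algebra K M]
  [Algebra L M] [IsScalarTower K L M] [Normal K L]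
variable {ζ : M} (hζ : IsPrimitiveRoot ζ (p ^ (r + 1)))

/-- The restriction `Gal(M/K) → Gal(L/K)`. -/
noncomputable def rho : (M ≃ₐ[K] M) →* (L ≃ₐ[K] L) := AlgEquiv.restrictNormalHom L

/-- The cyclotomic character `Gal(M/K) → (ℤ/p^(r+1))^×` attached to `ζ`. -/
noncomputable def kappa : (M ≃ₐ[K] M) →* (ZMod (p ^ (r + 1)))ˣ := hζ.autToPow K

variable {K L}

lemma rho_apply (σ : M ≃ₐ[K] M) (x : L) :
    algebraMap L M (rho K L σ x) = σ (algebraMap L M x) :=
  AlgEquiv.restrictNormal_commutes σ L x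

lemma kappa_spec (σ : M ≃ₐ[K] M) :
    ζ ^ ((kappa K hζ σ : (ZMod (p ^ (r + 1)))ˣ) : ZMod (p ^ (r + 1))).val = σ ζ :=
  hζ.autToPow_spec K σ

lemma one_lt_ppow : 1 < p ^ (r + 1) := Nat.one_lt_pow (Nat.succ_ne_zero r) hp.out.one_lt

lemma kappa_eq_iff (σ : M ≃ₐ[K] M) (u : (ZMod (p ^ (r + 1)))ˣ) :
    kappa K hζ σ = u ↔ σ ζ = ζ ^ (u : ZMod (p ^ (r + 1))).val := by
  constructor
  · rintro rfl
    exact (kappa_spec hζ σ).symm
  · intro h
    rw [← kappa_spec hζ σ] at h
    have h2 := hζ.pow_inj (ZMod.val_lt _) (ZMod.val_lt _) h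
    exact Units.ext (ZMod.val_injective _ h2)

lemma mem_ker_kappa_iff (σ : M ≃ₐ[K] M) : σ ∈ (kappa K hζ).ker ↔ σ ζ = ζ := by
  rw [MonoidHom.mem_ker, kappa_eq_iff]
  have : ((1 : (ZMod (p ^ (r + 1)))ˣ) : ZMod (p ^ (r + 1))).val = 1 := by
    rw [Units.val_one, ZMod.val_one_eq_one_mod, Nat.one_mod_eq_one.mpr (one_lt_ppow (p := p)).ne']
  rw [this, pow_one]

lemma mem_ker_rho_iff (σ : M ≃ₐ[K] M) :
    σ ∈ (rho K L (M := M)).ker ↔ ∀ x : L, σ (algebraMap L M x) = algebraMap L M x := by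
  rw [MonoidHom.mem_ker]
  constructor
  · intro h x
    rw [← rho_apply, h]
    rfl
  · intro h
    ext x
    apply (algebraMap L M).injective
    rw [rho_apply, h]
    rfl

/-- `Gal(M/L) ∩ Gal(M/K(ζ)) = 1` when `M = L(ζ)`. -/
lemma eq_one_of_mem_ker_rho_of_mem_ker_kappa (htop : IntermediateField.adjoin L {ζ} = ⊤)
    (σ : M ≃ₐ[K] M) (h1 : σ ∈ (rho K L (M := M)).ker) (h2 : σ ∈ (kappa K hζ).ker) : σ = 1 := by
  rw [mem_ker_rho_iff] at h1
  rw [mem_ker_kappa_iff] at h2
  ext x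
  have hx : x ∈ IntermediateField.adjoin L {ζ} := htop ▸ IntermediateField.mem_top
  change σ x = x
  induction hx using IntermediateField.adjoin_induction with
  | mem x hx => rw [Set.mem_singleton_iff.mp hx, h2]
  | algebraMap x => exact h1 x
  | add x y _ _ hx hy => rw [map_add, hx, hy]
  | inv x _ hx => rw [map_inv₀, hx]
  | mul x y _ _ hx hy => rw [map_mul, hx, hy]

/-- `(ρ, κ)` is injective. -/
lemma eq_of_rho_eq_of_kappa_eq (htop : IntermediateField.adjoin L {ζ} = ⊤)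
    (σ τ : M ≃ₐ[K] M) (h1 : rho K L σ = rho K L τ) (h2 : kappa K hζ σ = kappa K hζ τ) :
    σ = τ := by
  have := eq_one_of_mem_ker_rho_of_mem_ker_kappa hζ htop (σ * τ⁻¹)
    (by rw [MonoidHom.mem_ker, map_mul, map_inv, h1, mul_inv_cancel])
    (by rw [MonoidHom.mem_ker, map_mul, map_inv, h2, mul_inv_cancel])
  exact mul_inv_eq_one.mp this

include hζ in
/-- `Gal(M/K)` is commutative when `Gal(L/K)` is. -/
lemma gal_comm (htop : IntermediateField.adjoin L {ζ} = ⊤)
    (hcomm : ∀ σ τ : L ≃ₐ[K] L, σ * τ = τ * σ) (σ τ : M ≃ₐ[K] M) : σ * τ = τ * σ := by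
  apply eq_of_rho_eq_of_kappa_eq hζ htop
  · rw [map_mul, map_mul, hcomm]
  · rw [map_mul, map_mul, mul_comm]

end basic

section numberfield

variable {p : ℕ} [hp : Fact p.Prime] {r : ℕ}
variable {K L M : Type} [Field K] [NumberField K] [Field L] [NumberField L] [Field M]
  [NumberField M] [Algebra K L] [Algebra K M] [Algebra L M] [IsScalarTower K L M]
  [IsGalois K L] [IsGalois K M] [IsCyclotomicExtension {p} ℚ K]
variable {ζ : M} (hζ : IsPrimitiveRoot ζ (p ^ (r + 1)))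

lemma rho_surjective : Function.Surjective (rho K L (M := M)) :=
  AlgEquiv.restrictNormalHom_surjective M

/-- If `κ` is injective then `M = K(ζ)`. -/
lemma adjoin_eq_top_of_ker_kappa_eq_bot (h : (kappa K hζ).ker = ⊥) :
    IntermediateField.adjoin K {ζ} = ⊤ := by
  have h1 : (IntermediateField.adjoin K {ζ}).fixingSubgroup = ⊥ := by
    rw [eq_bot_iff, ← h]
    intro σ hσ
    rw [mem_ker_kappa_iff]
    exact (IntermediateField.mem_fixingSubgroup_iff _ σ).mp hσ ζ
      (IntermediateField.mem_adjoin_simple_self K ζ)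
  rw [← IsGalois.fixedField_fixingSubgroup (IntermediateField.adjoin K {ζ}), h1,
    IntermediateField.fixedField_bot]

/-- If `κ` is injective then `M` is a `p^(r+1)`-th cyclotomic extension of `ℚ`. -/
lemma isCyclotomicExtension_of_ker_kappa_eq_bot (h : (kappa K hζ).ker = ⊥) :
    IsCyclotomicExtension {p ^ (r + 1)} ℚ M := by
  have h1 : IsCyclotomicExtension {p ^ (r + 1)} K (⊤ : IntermediateField K M) :=
    (IntermediateField.isCyclotomicExtension_singleton_iff_eq_adjoin _ K M ⊤ hζ).mpr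
      (adjoin_eq_top_of_ker_kappa_eq_bot hζ h).symm
  have h2 : IsCyclotomicExtension {p ^ (r + 1)} K M :=
    IsCyclotomicExtension.equiv _ K _ (IntermediateField.topEquiv (F := K) (E := M))
  have h3 : IsCyclotomicExtension ({p} ∪ {p ^ (r + 1)}) ℚ M :=
    IsCyclotomicExtension.trans {p} {p ^ (r + 1)} ℚ K M (algebraMap K M).injective
  rw [Set.union_comm] at h3
  exact (IsCyclotomicExtension.iff_union_of_dvd (S := {p ^ (r + 1)}) ℚ M
    ⟨p ^ (r + 1), Set.mem_singleton _, (pow_pos hp.out.pos _).ne',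
      dvd_pow_self p (Nat.succ_ne_zero r)⟩).mpr h3

end numberfield



section numberfield2

variable {p : ℕ} [hp : Fact p.Prime] {r : ℕ}
variable {K L M : Type} [Field K] [NumberField K] [Field L] [NumberField L] [Field M]
  [NumberField M] [Algebra K L] [Algebra K M] [Algebra L M] [IsScalarTower K L M]
  [IsGalois K L] [IsGalois K M] [IsCyclotomicExtension {p} ℚ K]
variable {ζ : M} (hζ : IsPrimitiveRoot ζ (p ^ (r + 1)))

lemma algebraMap_rho_smul (τ : M ≃ₐ[K] M) (x : 𝓞 L) :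
    algebraMap (𝓞 L) (𝓞 M) (rho K L τ • x) = τ • algebraMap (𝓞 L) (𝓞 M) x := by
  apply NumberField.RingOfIntegers.ext
  exact rho_apply τ (x : L)

/-- Linear disjointness: `κ` is not injective, i.e. `M ≠ K(ζ)`, because the primes over `p` split
in `L/K` while `p` is totally ramified in `ℚ(ζ)`. -/
lemma ker_kappa_ne_bot (hG : ∃ σ : L ≃ₐ[K] L, σ ≠ 1)
    (hsplit : ∀ Q : Ideal (𝓞 L), Q.IsPrime → (p : 𝓞 L) ∈ Q →
      ∀ σ : L ≃ₐ[K] L, (∀ x ∈ Q, σ • x ∈ Q) → σ = 1) :
    (kappa K hζ).ker ≠ ⊥ := by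
  intro h
  haveI := isCyclotomicExtension_of_ker_kappa_eq_bot hζ h
  set 𝔓 : Ideal (𝓞 M) := Ideal.span {hζ.toInteger - 1} with h𝔓def
  haveI h𝔓 : 𝔓.IsPrime := IsCyclotomicExtension.Rat.isPrime_span_zeta_sub_one p r hζ
  haveI h𝔓' : 𝔓.LiesOver (Ideal.span {(p : ℤ)}) :=
    IsCyclotomicExtension.Rat.liesOver_span_zeta_sub_one p r hζ
  obtain ⟨σ, hσ⟩ := hG
  obtain ⟨τ, rfl⟩ := rho_surjective (M := M) σ
  have h1 : τ • 𝔓 = 𝔓 := by
    haveI : (τ • 𝔓).IsPrime := by
      rw [Ideal.pointwise_smul_def]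
      exact Ideal.map_isPrime_of_equiv (MulSemiringAction.toRingEquiv _ (𝓞 M) τ)
    haveI : (τ • 𝔓).LiesOver (Ideal.span {(p : ℤ)}) := inferInstance
    exact IsCyclotomicExtension.Rat.eq_span_zeta_sub_one_of_liesOver p r M hζ (τ • 𝔓)
  apply hσ
  apply hsplit (𝔓.under (𝓞 L)) inferInstance ?_ _ ?_
  · rw [Ideal.under, Ideal.mem_comap, map_natCast]
    exact IsCyclotomicExtension.Rat.p_mem_span_zeta_sub_one p r hζ
  · intro x hx
    rw [Ideal.under, Ideal.mem_comap] at hx ⊢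
    rw [algebraMap_rho_smul, ← h1]
    exact Ideal.smul_mem_pointwise_smul τ _ _ hx

end numberfield2

end Fermat.Agent.CFT.Crossing
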