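/-
CFT global part (G5), helper3: the crossing step in `H²(Gal(M/K), M^×)`, `M = L(ζ_{p^(r+1)})`:
if `b ∈ K^×` is a norm from `M` to `K(ζ)`, then `b ∪ δχ_L = c ∪ δχ₂` with `χ₂` trivial on
`Gal(M/K(ζ))` and `c ∈ K^×` a norm from `M` to `L` (`exists_crossing`).
Also: Hilbert 90 for subgroups of `Gal(M/K)`, norms over the subgroups `Gal(M/F)`.
-/
import Fermat.Agent.CFT.Global.Crossing_helper3_Field
import Fermat.Agent.CFT.Global.Crossing_helper3_Abstract
import Fermat.Agent.CFT.Local.BrExact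

set_option autoImplicit false
set_option linter.unusedSectionVars false
set_option linter.style.haveILetI false

open scoped NumberField Pointwise
open CategoryTheory groupCohomology Rep
open Fermat.Agent.CFT.Coh Fermat.Agent.CFT.Local

namespace Fermat.Agent.CFT.Crossing

section normconv

variable (K F M : Type) [Field K] [Field F] [Field M] [Algebra K F] [Algebra K M] [Algebra F M]
  [IsScalarTower K F M] [FiniteDimensional K M] [FiniteDimensional F M] [IsGalois K M]

/-- The norm over the subgroup `Gal(M/F) ≤ Gal(M/K)` is the product over `Gal(M/F)`. -/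
lemma normMap_res_range_galIncl (y : Mˣ) :
    normMap (res (galIncl K F M).range.subtype (Rep.ofAlgebraAutOnUnits K M)) (ofU K M y) =
      ofU K M (∏ σ : M ≃ₐ[F] M, σ • y) := by
  classical
  letI : Fintype (galIncl K F M).range := Fintype.ofFinite _
  rw [normMap_apply, ofU_prod]
  refine (Fintype.sum_equiv (galInclEquiv K F M).toEquiv _ _ fun σ => ?_).symm
  apply toU_injective K M
  apply Units.ext
  change σ (y : M) = (galInclEquiv K F M σ : M ≃ₐ[K] M) (y : M)
  rw [coe_galInclEquiv, galIncl_apply]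

lemma normMap_res_of_eq_range (S : Subgroup (M ≃ₐ[K] M)) (hS : S = (galIncl K F M).range)
    (y : Mˣ) :
    normMap (res S.subtype (Rep.ofAlgebraAutOnUnits K M)) (ofU K M y) =
      ofU K M (∏ σ : M ≃ₐ[F] M, σ • y) := by
  subst hS
  exact normMap_res_range_galIncl K F M y

/-- Hilbert 90 for an arbitrary subgroup of `Gal(M/K)`. -/
lemma isZero_H1_res_subgroup (S : Subgroup (M ≃ₐ[K] M)) :
    Limits.IsZero (H1 (res S.subtype (Rep.ofAlgebraAutOnUnits K M))) := by
  have hS : (galIncl K (IntermediateField.fixedField S) M).range = S := by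
    ext σ
    rw [mem_range_galIncl_iff]
    conv_rhs => rw [← IntermediateField.fixingSubgroup_fixedField S]
    rw [IntermediateField.mem_fixingSubgroup_iff]
    constructor
    · intro h x hx
      exact h ⟨x, hx⟩
    · intro h x
      exact h x x.2
  have := isZero_H1_res_range_galIncl K (IntermediateField.fixedField S) M
  rw [hS] at this
  exact this

end normconv

section subgroups

variable {p : ℕ} [hp : Fact p.Prime] {r : ℕ}
variable {K L M : Type} [Field K] [Field L] [Field M] [Algebra K L] [Algebra K M]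
  [Algebra L M] [IsScalarTower K L M] [Normal K L] [Normal K M]
variable {ζ : M} (hζ : IsPrimitiveRoot ζ (p ^ (r + 1)))

lemma ker_rho_eq_range : (rho K L (M := M)).ker = (galIncl K L M).range := by
  ext σ
  rw [mem_ker_rho_iff, mem_range_galIncl_iff]

lemma ker_kappa_eq_range :
    (kappa K hζ).ker = (galIncl K (IntermediateField.adjoin K {ζ}) M).range := by
  ext σ
  rw [mem_ker_kappa_iff, mem_range_galIncl_iff]
  constructor
  · intro h x
    obtain ⟨x, hx⟩ := x
    change σ x = x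
    induction hx using IntermediateField.adjoin_induction with
    | mem x hx => rw [Set.mem_singleton_iff.mp hx, h]
    | algebraMap x => exact σ.commutes x
    | add x y _ _ hx hy => rw [map_add, hx, hy]
    | inv x _ hx => rw [map_inv₀, hx]
    | mul x y _ _ hx hy => rw [map_mul, hx, hy]
  · intro h
    exact h ⟨ζ, IntermediateField.mem_adjoin_simple_self K ζ⟩

end subgroups


section grouplemma

lemma exists_mem_ker_of_prime_card {𝔊 G C : Type*} [Group 𝔊] [Group G] [Group C] (ρ : 𝔊 →* G)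
    (κ : 𝔊 →* C) {p : ℕ} [hp : Fact p.Prime] (hcard : Nat.card G = p)
    (hinf : ∀ x, x ∈ ρ.ker → x ∈ κ.ker → x = 1) (hne : κ.ker ≠ ⊥) (g : G) :
    ∃ t ∈ κ.ker, ρ t = g := by
  haveI : Fact (Nat.card G).Prime := hcard ▸ hp
  obtain ⟨⟨t, ht⟩, ht1⟩ := (Subgroup.ne_bot_iff_exists_ne_one).mp hne
  have ht1' : t ≠ 1 := fun h => ht1 (Subtype.ext h)
  have hρt : ρ t ≠ 1 := fun h => ht1' (hinf t (MonoidHom.mem_ker.mpr h) ht)
  have hS : (κ.ker).map ρ = ⊤ := by
    rcases Subgroup.eq_bot_or_eq_top_of_prime_card ((κ.ker).map ρ) with h | h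
    · exfalso
      apply hρt
      have : ρ t ∈ (κ.ker).map ρ := Subgroup.mem_map_of_mem ρ ht
      rw [h] at this
      exact Subgroup.mem_bot.mp this
    · exact h
  have : g ∈ (κ.ker).map ρ := hS ▸ Subgroup.mem_top g
  obtain ⟨t, ht, rfl⟩ := Subgroup.mem_map.mp this
  exact ⟨t, ht, rfl⟩

end grouplemma

section crossing

variable {p : ℕ} [hp : Fact p.Prime] {r : ℕ}
variable {K L M : Type} [Field K] [NumberField K] [Field L] [NumberField L] [Field M]
  [NumberField M] [Algebra K L] [Algebra K M] [Algebra L M] [IsScalarTower K L M]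
  [IsGalois K L] [IsGalois K M] [IsCyclotomicExtension {p} ℚ K]
variable {ζ : M} (hζ : IsPrimitiveRoot ζ (p ^ (r + 1)))

include hζ in
/-- **The crossing step.** If `b ∈ K^×` is a norm from `M` to `K(ζ)` then
`b ∪ δχ_L = c ∪ δχ₂` in `H²(Gal(M/K), M^×)` where `χ₂` is trivial on `Gal(M/K(ζ))` and `c ∈ K^×` is
a norm from `M` to `L`. -/
theorem exists_crossing (hp2 : p ≠ 2) (htop : IntermediateField.adjoin L {ζ} = ⊤)
    (hcard : Nat.card (L ≃ₐ[K] L) = p)
    (hsplit : ∀ Q : Ideal (𝓞 L), Q.IsPrime → (p : 𝓞 L) ∈ Q →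
      ∀ σ : L ≃ₐ[K] L, (∀ x ∈ Q, σ • x ∈ Q) → σ = 1)
    {g : L ≃ₐ[K] L} (hg : ∀ x, x ∈ Subgroup.zpowers g) (b : Kˣ)
    (hb : ∃ y : Mˣ, ∏ σ : M ≃ₐ[IntermediateField.adjoin K {ζ}] M, σ • y =
      Units.map (algebraMap K M : K →* M) b) :
    ∃ (χ₂ : QZChar (M ≃ₐ[K] M)) (c : Kˣ) (y : Mˣ),
      (∀ σ : M ≃ₐ[K] M, σ ζ = ζ → χ₂ (Additive.ofMul σ) = 0) ∧
      cupδInv (Rep.ofAlgebraAutOnUnits K M) (invOfUnits K M (Additive.ofMul b))
          ((cycChar hg).comp (rho K L)) =
        cupδInv (Rep.ofAlgebraAutOnUnits K M) (invOfUnits K M (Additive.ofMul c)) χ₂ ∧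
      ∏ σ : M ≃ₐ[L] M, σ • y = Units.map (algebraMap K M : K →* M) c := by
  haveI : FiniteDimensional K M := Module.Finite.of_restrictScalars_finite ℚ K M
  haveI : FiniteDimensional L M := Module.Finite.of_restrictScalars_finite ℚ L M
  have hG1 : ∃ σ : L ≃ₐ[K] L, σ ≠ 1 := by
    by_contra hcon
    push Not at hcon
    haveI : Subsingleton (L ≃ₐ[K] L) := ⟨fun a b => (hcon a).trans (hcon b).symm⟩
    have := Nat.card_of_subsingleton (1 : L ≃ₐ[K] L)
    rw [hcard] at this
    exact hp.out.one_lt.ne' this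
  have hne := ker_kappa_ne_bot hζ hG1 hsplit
  have hinf := eq_one_of_mem_ker_rho_of_mem_ker_kappa (K := K) (L := L) hζ htop
  have hex := exists_mem_ker_of_prime_card (rho K L (M := M)) (kappa K hζ) hcard hinf hne
  -- decomposition
  have hsup : ∀ σ : M ≃ₐ[K] M, ∃ h ∈ (rho K L (M := M)).ker, σ * h⁻¹ ∈ (kappa K hζ).ker := by
    intro σ
    obtain ⟨t, ht, hρt⟩ := hex (rho K L σ)
    refine ⟨t⁻¹ * σ, ?_, ?_⟩
    · rw [MonoidHom.mem_ker, map_mul, map_inv, hρt, inv_mul_cancel]
    · have : σ * (t⁻¹ * σ)⁻¹ = t := by group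
      rw [this]
      exact ht
  -- generator of `ker κ`
  obtain ⟨t₂, ht₂, hρt₂⟩ := hex g
  have hgen₂ : ∀ x : (kappa K hζ).ker, x ∈ Subgroup.zpowers (⟨t₂, ht₂⟩ : (kappa K hζ).ker) := by
    intro x
    obtain ⟨n, hn⟩ := Subgroup.mem_zpowers_iff.mp (hg (rho K L (x : M ≃ₐ[K] M)))
    refine Subgroup.mem_zpowers_iff.mpr ⟨n, ?_⟩
    apply Subtype.ext
    have h1 : ((⟨t₂, ht₂⟩ : (kappa K hζ).ker) ^ n : (kappa K hζ).ker).1 = t₂ ^ n := by simp
    rw [h1]
    apply eq_of_rho_eq_of_kappa_eq hζ htop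
    · rw [map_zpow, hρt₂, hn]
    · rw [map_zpow, MonoidHom.mem_ker.mp ht₂, one_zpow, MonoidHom.mem_ker.mp x.2]
  -- generator of `ker ρ`
  haveI : IsCyclic (ZMod (p ^ (r + 1)))ˣ := ZMod.isCyclic_units_of_prime_pow p hp.out hp2 _
  haveI : IsCyclic (rho K L (M := M)).ker := by
    apply isCyclic_of_injective ((kappa K hζ).comp (rho K L (M := M)).ker.subtype)
    rw [injective_iff_map_eq_one]
    intro x hx
    exact Subtype.ext (hinf x x.2 (MonoidHom.mem_ker.mpr hx))
  obtain ⟨h₁, hh₁⟩ := IsCyclic.exists_generator (α := (rho K L (M := M)).ker)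
  -- characters
  have hχ₁₁ : ((cycChar hg).comp (rho K L (M := M))).comp (rho K L (M := M)).ker.subtype = 0 := by
    refine AddMonoidHom.ext fun x => ?_
    change cycChar hg (Additive.ofMul (rho K L ((Additive.toMul x : (rho K L (M := M)).ker) :
      M ≃ₐ[K] M))) = 0
    rw [MonoidHom.mem_ker.mp (Additive.toMul x : (rho K L (M := M)).ker).2]
    exact map_zero _
  have hχ₁₂ : ((cycChar hg).comp (rho K L (M := M))).comp (kappa K hζ).ker.subtype =
      cycChar hgen₂ := by
    refine cycChar_comp_of_injective hg hgen₂ ((rho K L (M := M)).comp (kappa K hζ).ker.subtype)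
      ?_ hρt₂
    rw [injective_iff_map_eq_one]
    intro x hx
    exact Subtype.ext (hinf x (MonoidHom.mem_ker.mpr hx) x.2)
  -- the norm hypothesis
  obtain ⟨y₀, hy₀⟩ := hb
  have hb' : ∃ y : (Rep.ofAlgebraAutOnUnits K M).V,
      normMap (res (kappa K hζ).ker.subtype (Rep.ofAlgebraAutOnUnits K M)) y =
        ((invOfUnits K M (Additive.ofMul b) : (Rep.ofAlgebraAutOnUnits K M).ρ.invariants) :
          (Rep.ofAlgebraAutOnUnits K M).V) := by
    refine ⟨ofU K M y₀, ?_⟩
    rw [normMap_res_of_eq_range K (IntermediateField.adjoin K {ζ}) M _ (ker_kappa_eq_range hζ),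
      hy₀]
    rfl
  obtain ⟨χ₂, c', hχ₂₂, heq, y₁, hy₁⟩ := exists_cupδInv_eq_cupδInv_of_norm
    (Rep.ofAlgebraAutOnUnits K M) (rho K L (M := M)).ker (kappa K hζ).ker
    (fun x h1 h2 => hinf x h1 h2) hsup hh₁ hgen₂ (isZero_H1_res_subgroup K M _)
    ((cycChar hg).comp (rho K L (M := M))) hχ₁₁ hχ₁₂ (invOfUnits K M (Additive.ofMul b)) hb'
  obtain ⟨c, rfl⟩ := invOfUnits_surjective K M c'
  refine ⟨χ₂, Additive.toMul c, toU K M y₁, ?_, heq, ?_⟩
  · intro σ hσ
    have hσ' : σ ∈ (kappa K hζ).ker := (mem_ker_kappa_iff hζ σ).mpr hσ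
    exact congrArg (fun χ : QZChar (kappa K hζ).ker => χ (Additive.ofMul ⟨σ, hσ'⟩)) hχ₂₂
  · have := normMap_res_of_eq_range K L M _ (ker_rho_eq_range (K := K) (L := L) (M := M))
      (toU K M y₁)
    rw [ofU_toU, hy₁] at this
    exact (ofU_injective K M this).symm

end crossing

end Fermat.Agent.CFT.Crossing
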