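import Fermat.Agent.CFT.Global.G2a_helper6_SUnits

/-!
# CFT (G2a): `S`-units in a Galois extension

For a Galois extension `L/K` of number fields, a set `S` of primes of `K` and the set
`primesAbove K L S` of primes of `L` above `S`: the `S_L`-units are stable under `Gal(L/K)` and the
fixed points are the `S`-units of `K`.
-/

set_option autoImplicit false

open IsDedekindDomain NumberField WithZero

namespace Fermat.Agent.CFT.SUnit

section LeExp

/-- Two elements `≤ 1` of `ℤᵐ⁰` with the same upper bounds `exp (-n)` are equal. -/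
lemma le_of_forall_le_exp {a b : ℤᵐ⁰} (hb : b ≤ 1)
    (h : ∀ n : ℕ, b ≤ exp (-(n : ℤ)) → a ≤ exp (-(n : ℤ))) : a ≤ b := by
  by_cases hb0 : b = 0
  · subst hb0
    by_contra hab
    have ha0 : a ≠ 0 := fun h0 => hab (h0 ▸ le_refl _)
    have h1 := h (- log a + 1).toNat zero_le
    rw [← log_le_iff_le_exp ha0] at h1
    have h2 : (0 : ℤ) ≤ (- log a + 1).toNat := Int.natCast_nonneg _
    have h3 := Int.self_le_toNat (- log a + 1)
    omega
  · have hlog : log b ≤ 0 := by
      rw [log_le_iff_le_exp hb0, exp_zero]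
      exact hb
    have h1 := h (- log b).toNat (by
      rw [← log_le_iff_le_exp hb0, Int.toNat_of_nonneg (by omega)]
      omega)
    rw [Int.toNat_of_nonneg (by omega), neg_neg, exp_log hb0] at h1
    exact h1

lemma eq_of_forall_le_exp_iff {a b : ℤᵐ⁰} (ha : a ≤ 1) (hb : b ≤ 1)
    (h : ∀ n : ℕ, a ≤ exp (-(n : ℤ)) ↔ b ≤ exp (-(n : ℤ))) : a = b :=
  le_antisymm (le_of_forall_le_exp hb fun n => (h n).2) (le_of_forall_le_exp ha fun n => (h n).1)

end LeExp

section Aut

variable {L : Type*} [Field L] [NumberField L]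

/-- The prime `σ⁻¹ w = {r | σ r ∈ w}` for a ring automorphism `σ` of `L`. -/
noncomputable def comapAut (σ : L ≃+* L) (w : HeightOneSpectrum (𝓞 L)) :
    HeightOneSpectrum (𝓞 L) :=
  HeightOneSpectrum.comap (RingOfIntegers.mapRingEquiv σ : 𝓞 L →+* 𝓞 L)
    (RingOfIntegers.mapRingEquiv σ).surjective w

omit [NumberField L] in
lemma mem_comapAut (σ : L ≃+* L) (w : HeightOneSpectrum (𝓞 L)) (r : 𝓞 L) :
    r ∈ (comapAut σ w).asIdeal ↔ RingOfIntegers.mapRingEquiv σ r ∈ w.asIdeal := Iff.rfl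

lemma intValuation_comapAut (σ : L ≃+* L) (w : HeightOneSpectrum (𝓞 L)) (r : 𝓞 L) :
    (comapAut σ w).intValuation r = w.intValuation (RingOfIntegers.mapRingEquiv σ r) := by
  apply eq_of_forall_le_exp_iff (HeightOneSpectrum.intValuation_le_one _ _)
    (HeightOneSpectrum.intValuation_le_one _ _)
  intro n
  rw [HeightOneSpectrum.intValuation_le_pow_iff_mem, HeightOneSpectrum.intValuation_le_pow_iff_mem]
  have h1 : (comapAut σ w).asIdeal ^ n =
      Ideal.comap (RingOfIntegers.mapRingEquiv σ : 𝓞 L →+* 𝓞 L) (w.asIdeal ^ n) := by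
    show (Ideal.comap (RingOfIntegers.mapRingEquiv σ : 𝓞 L →+* 𝓞 L) w.asIdeal) ^ n = _
    rw [Ideal.comap_coe, Ideal.comap_coe, ← Ideal.map_symm, ← Ideal.map_symm, Ideal.map_pow]
  rw [h1]
  rfl

lemma valuation_comapAut (σ : L ≃+* L) (w : HeightOneSpectrum (𝓞 L)) (x : L) :
    (comapAut σ w).valuation L x = w.valuation L (σ x) := by
  obtain ⟨a, b, hb, rfl⟩ := IsFractionRing.div_surjective (A := 𝓞 L) x
  have h1 : ∀ r : 𝓞 L, σ (algebraMap (𝓞 L) L r) =
      algebraMap (𝓞 L) L (RingOfIntegers.mapRingEquiv σ r) := fun r => rfl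
  rw [map_div₀, map_div₀, map_div₀, h1, h1, HeightOneSpectrum.valuation_of_algebraMap,
    HeightOneSpectrum.valuation_of_algebraMap, HeightOneSpectrum.valuation_of_algebraMap,
    HeightOneSpectrum.valuation_of_algebraMap, intValuation_comapAut, intValuation_comapAut]

end Aut

section Relative

variable (K L : Type*) [Field K] [NumberField K] [Field L] [NumberField L] [Algebra K L]

/-- The primes of `L` above a set `S` of primes of `K`. -/
def primesAbove (S : Set (HeightOneSpectrum (𝓞 K))) : Set (HeightOneSpectrum (𝓞 L)) :=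
  {w | w.under (𝓞 K) ∈ S}

variable {K L}

omit [NumberField K] [NumberField L] in
lemma mem_primesAbove {S : Set (HeightOneSpectrum (𝓞 K))} {w : HeightOneSpectrum (𝓞 L)} :
    w ∈ primesAbove K L S ↔ w.under (𝓞 K) ∈ S := Iff.rfl

/-- `w(x) = 1 ↔ v(x) = 1` for `x ∈ K` and `w | v`. -/
lemma valuation_algebraMap_eq_one_iff (w : HeightOneSpectrum (𝓞 L)) (x : K) :
    w.valuation L (algebraMap K L x) = 1 ↔ (w.under (𝓞 K)).valuation K x = 1 := by
  have : w.asIdeal.LiesOver (w.under (𝓞 K)).asIdeal := ⟨rfl⟩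
  rw [← HeightOneSpectrum.valuation_liesOver L (w.under (𝓞 K)) w x]
  have he : (w.under (𝓞 K)).asIdeal.ramificationIdx' w.asIdeal ≠ 0 :=
    Ideal.IsDedekindDomain.ramificationIdx'_ne_zero_of_liesOver w.asIdeal (w.under (𝓞 K)).ne_bot
  rw [pow_eq_one_iff]
  exact or_iff_left he

omit [NumberField K] [NumberField L] in
variable (L) in
/-- Every prime of `K` has a prime of `L` above it. -/
lemma exists_under_eq (v : HeightOneSpectrum (𝓞 K)) :
    ∃ w : HeightOneSpectrum (𝓞 L), w.under (𝓞 K) = v := by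
  obtain ⟨Q, hQ, hQv⟩ := Ideal.exists_ideal_over_prime_of_isIntegral_of_isDomain (S := 𝓞 L)
    v.asIdeal (by
      rw [(RingHom.injective_iff_ker_eq_bot _).mp (FaithfulSMul.algebraMap_injective (𝓞 K) (𝓞 L))]
      exact bot_le)
  have hQ0 : Q ≠ ⊥ := by
    rintro rfl
    apply v.ne_bot
    rw [← hQv]
    exact Ideal.comap_bot_of_injective _ (FaithfulSMul.algebraMap_injective (𝓞 K) (𝓞 L))
  exact ⟨⟨Q, hQ, hQ0⟩, HeightOneSpectrum.ext hQv⟩

/-- `x ∈ K` is an `S_L`-unit of `L` iff it is an `S`-unit of `K`. -/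
lemma map_mem_unit_primesAbove_iff (S : Set (HeightOneSpectrum (𝓞 K))) (x : Kˣ) :
    Units.map (algebraMap K L : K →* L) x ∈ (primesAbove K L S).unit L ↔ x ∈ S.unit K := by
  constructor
  · intro h v hv
    obtain ⟨w, rfl⟩ := exists_under_eq L v
    exact (valuation_algebraMap_eq_one_iff w (x : K)).mp (h w hv)
  · intro h w hw
    exact (valuation_algebraMap_eq_one_iff w (x : K)).mpr (h _ hw)

/-- The base change map on `S`-units. -/
noncomputable def sUnitMap (S : Set (HeightOneSpectrum (𝓞 K))) :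
    S.unit K →* (primesAbove K L S).unit L :=
  ((Units.map (algebraMap K L : K →* L)).comp (S.unit K).subtype).codRestrict _ fun x =>
    (map_mem_unit_primesAbove_iff S (x : Kˣ)).mpr x.2

lemma coe_sUnitMap (S : Set (HeightOneSpectrum (𝓞 K))) (x : S.unit K) :
    ((sUnitMap (L := L) S x : (primesAbove K L S).unit L) : Lˣ) =
      Units.map (algebraMap K L : K →* L) (x : Kˣ) := rfl

lemma sUnitMap_injective (S : Set (HeightOneSpectrum (𝓞 K))) :
    Function.Injective (sUnitMap (L := L) S) := by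
  intro x y h
  have h1 := congrArg (fun z : (primesAbove K L S).unit L => ((z : Lˣ) : L)) h
  simp only [coe_sUnitMap, Units.coe_map, MonoidHom.coe_coe] at h1
  exact Subtype.ext (Units.ext ((algebraMap K L).injective h1))

omit [NumberField K] [NumberField L] in
/-- Galois stability of the primes above `S`. -/
lemma comapAut_mem_primesAbove_iff (S : Set (HeightOneSpectrum (𝓞 K))) (σ : L ≃ₐ[K] L)
    (w : HeightOneSpectrum (𝓞 L)) :
    comapAut (σ : L ≃+* L) w ∈ primesAbove K L S ↔ w ∈ primesAbove K L S := by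
  have : (comapAut (σ : L ≃+* L) w).under (𝓞 K) = w.under (𝓞 K) := by
    apply HeightOneSpectrum.ext
    ext r
    show algebraMap (𝓞 K) (𝓞 L) r ∈ (comapAut (σ : L ≃+* L) w).asIdeal ↔
      algebraMap (𝓞 K) (𝓞 L) r ∈ w.asIdeal
    rw [mem_comapAut]
    have : RingOfIntegers.mapRingEquiv (σ : L ≃+* L) (algebraMap (𝓞 K) (𝓞 L) r) =
        algebraMap (𝓞 K) (𝓞 L) r := by
      apply RingOfIntegers.ext
      show σ (algebraMap (𝓞 K) (𝓞 L) r : L) = _
      have : ((algebraMap (𝓞 K) (𝓞 L) r : 𝓞 L) : L) = algebraMap K L (r : K) := rfl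
      rw [this, AlgEquiv.commutes]
    rw [this]
  rw [mem_primesAbove, mem_primesAbove, this]

omit [NumberField K] in
/-- The `S_L`-units are stable under `Gal(L/K)`. -/
lemma smul_mem_unit_primesAbove (S : Set (HeightOneSpectrum (𝓞 K))) (σ : L ≃ₐ[K] L) {x : Lˣ}
    (hx : x ∈ (primesAbove K L S).unit L) : σ • x ∈ (primesAbove K L S).unit L := by
  intro w hw
  have h1 : ((σ • x : Lˣ) : L) = (σ : L ≃+* L) (x : L) := rfl
  rw [h1, ← valuation_comapAut]
  exact hx _ fun h => hw ((comapAut_mem_primesAbove_iff S σ w).mp h)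

end Relative

end Fermat.Agent.CFT.SUnit
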