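/-
CFT global part (G5), helper3: valuations and Frobenius elements in the tower `M/L/K`,
`M = L(ζ_{p^(r+1)})`: the homomorphism `ordHom`, invariance of valuations under decomposition groups,
evaluation of an equality `b ∪ δχ₁ = c ∪ δχ₂` at a prime (`ordAt_smul_eq_of_cupδInv_eq`),
unramified primes have `e = 1`, restriction of Frobenius elements, `κ(Frob_Q) = N(Q ∩ K)`,
`κ` has `p`-power order, `M/K` is unramified outside `p`, and the key triviality lemma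
`eq_one_of_smul_eq_of_kappa_ne_one`.
-/
import Fermat.Agent.CFT.Global.Crossing_helper3_Cup
import Fermat.Agent.CFT.Global.G2a_helper6_Galois
import Fermat.Agent.CFT.Global.G02_helper5_Frobenius

set_option autoImplicit false
set_option linter.unusedSectionVars false
set_option linter.style.haveILetI false

open scoped NumberField Pointwise
open IsDedekindDomain
open CategoryTheory groupCohomology Rep
open Fermat.Agent.CFT.Coh Fermat.Agent.CFT.Local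

namespace Fermat.Agent.CFT.Crossing

section ord

variable (F : Type) [Field F] [NumberField F]

lemma ordAt_asIdeal (v : HeightOneSpectrum (𝓞 F)) (x : F) :
    ordAt F v.asIdeal x = -(WithZero.log (v.valuation F x)) := by
  unfold ordAt
  rw [dif_pos ⟨v.isPrime, v.ne_bot⟩]

/-- The additive valuation at `v` as a homomorphism on `F^×`. -/
noncomputable def ordHom (v : HeightOneSpectrum (𝓞 F)) : Additive Fˣ →+ ℤ :=
  AddMonoidHom.mk' (fun x => ordAt F v.asIdeal ((Additive.toMul x : Fˣ) : F)) (by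
    intro x y
    rw [ordAt_asIdeal, ordAt_asIdeal, ordAt_asIdeal, toMul_add, Units.val_mul, map_mul,
      WithZero.log_mul, neg_add]
    · exact (map_ne_zero _).mpr (Units.ne_zero _)
    · exact (map_ne_zero _).mpr (Units.ne_zero _))

lemma ordHom_apply (v : HeightOneSpectrum (𝓞 F)) (x : Fˣ) :
    ordHom F v (Additive.ofMul x) = ordAt F v.asIdeal (x : F) := rfl

end ord

section inv

variable {K M : Type} [Field K] [NumberField K] [Field M] [NumberField M] [Algebra K M]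

/-- The valuation at a prime `w` of `M` is invariant under the decomposition group of `w`. -/
lemma valuation_smul_of_smul_eq (w : HeightOneSpectrum (𝓞 M)) (σ : M ≃ₐ[K] M)
    (hσ : σ • w.asIdeal = w.asIdeal) (x : M) : w.valuation M (σ x) = w.valuation M x := by
  have h1 : SUnit.comapAut (σ : M ≃+* M) w = w := by
    apply HeightOneSpectrum.ext
    ext r
    rw [SUnit.mem_comapAut]
    have h2 : NumberField.RingOfIntegers.mapRingEquiv (σ : M ≃+* M) r = σ • r := rfl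
    rw [h2]
    constructor
    · intro h
      have := Ideal.smul_mem_pointwise_smul σ⁻¹ _ _ h
      rw [inv_smul_smul] at this
      rw [← hσ] at this
      rwa [inv_smul_smul] at this
    · intro h
      rw [← hσ]
      exact Ideal.smul_mem_pointwise_smul σ _ _ h
  have h3 := SUnit.valuation_comapAut (σ : M ≃+* M) w x
  rw [h1] at h3
  exact h3.symm

variable [IsGalois K M]

/-- Evaluation of an equality `b ∪ δχ₁ = c ∪ δχ₂` in `H²(Gal(M/K), M^×)` at a prime `w` of `M` and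
an element `φ` of its decomposition group. -/
theorem ordAt_smul_eq_of_cupδInv_eq (b c : Kˣ) (χ₁ χ₂ : QZChar (M ≃ₐ[K] M))
    (h : cupδInv (Rep.ofAlgebraAutOnUnits K M) (invOfUnits K M (Additive.ofMul b)) χ₁ =
      cupδInv (Rep.ofAlgebraAutOnUnits K M) (invOfUnits K M (Additive.ofMul c)) χ₂)
    (w : HeightOneSpectrum (𝓞 M)) (φ : M ≃ₐ[K] M) (hφ : φ • w.asIdeal = w.asIdeal) :
    ordAt M w.asIdeal (algebraMap K M b) • χ₁ (Additive.ofMul φ) =
      ordAt M w.asIdeal (algebraMap K M c) • χ₂ (Additive.ofMul φ) := by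
  haveI : FiniteDimensional K M := Module.Finite.of_restrictScalars_finite ℚ K M
  let D : Subgroup (M ≃ₐ[K] M) := MulAction.stabilizer (M ≃ₐ[K] M) w.asIdeal
  let ord : (Rep.ofAlgebraAutOnUnits K M).V →ₗ[ℤ] ℤ := (ordHom M w).toIntLinearMap
  have hord : ∀ d ∈ D, ∀ x : (Rep.ofAlgebraAutOnUnits K M).V,
      ord ((Rep.ofAlgebraAutOnUnits K M).ρ d x) = ord x := by
    intro d hd x
    change ordAt M w.asIdeal (d ((toU K M x : Mˣ) : M)) = ordAt M w.asIdeal ((toU K M x : Mˣ) : M)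
    rw [ordAt_asIdeal, ordAt_asIdeal, valuation_smul_of_smul_eq w d (MulAction.mem_stabilizer_iff.mp hd)]
  have h1 := map_ord_cupδInv (Rep.ofAlgebraAutOnUnits K M) D ord hord
    (invOfUnits K M (Additive.ofMul b)) χ₁
  have h2 := map_ord_cupδInv (Rep.ofAlgebraAutOnUnits K M) D ord hord
    (invOfUnits K M (Additive.ofMul c)) χ₂
  rw [h] at h1
  have h3 := h1.symm.trans h2
  have h4 := zsmul_eq_of_zsmul_δchar_eq
    (((int_smul_eq_zsmul _ _ _).symm.trans h3).trans (int_smul_eq_zsmul _ _ _))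
  have h5 := congrArg (fun χ : QZChar D => χ (Additive.ofMul (⟨φ, MulAction.mem_stabilizer_iff.mpr hφ⟩ : D))) h4
  exact h5

end inv


section frobgeneral

variable {K M : Type} [Field K] [NumberField K] [Field M] [NumberField M] [Algebra K M]
  [IsGalois K M]

/-- Existence of Frobenius elements. -/
lemma exists_isArithFrobAt (Q : Ideal (𝓞 M)) [Q.IsPrime] (hQ0 : Q ≠ ⊥) :
    ∃ φ : M ≃ₐ[K] M, IsArithFrobAt (𝓞 K) φ Q := by
  haveI : FiniteDimensional K M := Module.Finite.of_restrictScalars_finite ℚ K M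
  haveI : Finite (𝓞 M ⧸ Q) := Ideal.finiteQuotientOfFreeOfNeBot Q hQ0
  exact IsArithFrobAt.exists_of_isInvariant (𝓞 K) (M ≃ₐ[K] M) Q

/-- Trivial inertia implies ramification index one. -/
lemma ramificationIdx'_eq_one_of_inertia_trivial (Q : Ideal (𝓞 M)) [Q.IsPrime] (hQ0 : Q ≠ ⊥)
    (hin : ∀ σ : M ≃ₐ[K] M, (∀ x : 𝓞 M, σ • x - x ∈ Q) → σ = 1) :
    (Q.under (𝓞 K)).ramificationIdx' Q = 1 := by
  haveI : FiniteDimensional K M := Module.Finite.of_restrictScalars_finite ℚ K M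
  have hP0 : Q.under (𝓞 K) ≠ ⊥ := Ideal.under_ne_bot (𝓞 K) hQ0
  rw [Ideal.ramificationIdx'_eq_ramificationIdx (Q.under (𝓞 K)) Q hP0,
    ← Ideal.ramificationIdxIn_eq_ramificationIdx (Q.under (𝓞 K)) Q (M ≃ₐ[K] M),
    ← Ideal.card_inertia_eq_ramificationIdxIn (G := M ≃ₐ[K] M) (Q.under (𝓞 K)) Q]
  rw [Nat.card_eq_one_iff_unique]
  refine ⟨⟨fun a b => ?_⟩, ⟨1⟩⟩
  have ha : (a : M ≃ₐ[K] M) = 1 := hin a (fun x => a.2 x)
  have hb : (b : M ≃ₐ[K] M) = 1 := hin b (fun x => b.2 x)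
  exact Subtype.ext (ha.trans hb.symm)

omit [IsGalois K M] in
lemma ordAt_algebraMap_eq_mul (v : HeightOneSpectrum (𝓞 K)) (w : HeightOneSpectrum (𝓞 M))
    (hvw : w.asIdeal.under (𝓞 K) = v.asIdeal) (x : K) :
    ordAt M w.asIdeal (algebraMap K M x) =
      (v.asIdeal.ramificationIdx' w.asIdeal : ℤ) * ordAt K v.asIdeal x := by
  haveI : w.asIdeal.LiesOver v.asIdeal := ⟨hvw.symm⟩
  rw [ordAt_asIdeal, ordAt_asIdeal, ← HeightOneSpectrum.valuation_liesOver M v w x]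
  rcases eq_or_ne x 0 with rfl | hx
  · simp
  · rw [WithZero.log_pow]
    simp

/-- At an unramified prime the valuations of `K` and `M` agree on `K`. -/
lemma ordAt_algebraMap_of_inertia_trivial (v : HeightOneSpectrum (𝓞 K))
    (w : HeightOneSpectrum (𝓞 M)) (hvw : w.asIdeal.under (𝓞 K) = v.asIdeal)
    (hin : ∀ σ : M ≃ₐ[K] M, (∀ x : 𝓞 M, σ • x - x ∈ w.asIdeal) → σ = 1) (x : K) :
    ordAt M w.asIdeal (algebraMap K M x) = ordAt K v.asIdeal x := by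
  rw [ordAt_algebraMap_eq_mul v w hvw, ← hvw,
    ramificationIdx'_eq_one_of_inertia_trivial w.asIdeal w.ne_bot hin, Nat.cast_one, one_mul]

end frobgeneral

section frobtower

variable {K L M : Type} [Field K] [NumberField K] [Field L] [NumberField L] [Field M]
  [NumberField M] [Algebra K L] [Algebra K M] [Algebra L M] [IsScalarTower K L M]
  [IsGalois K L] [IsGalois K M]

/-- The restriction to `L` of a Frobenius of `M/K` at `Q` is a Frobenius of `L/K` at `Q ∩ L`. -/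
lemma isArithFrobAt_rho {Q : Ideal (𝓞 M)} {φ : M ≃ₐ[K] M} (hφ : IsArithFrobAt (𝓞 K) φ Q) :
    IsArithFrobAt (𝓞 K) (rho K L φ) (Q.under (𝓞 L)) := by
  intro y
  have h1 := hφ (algebraMap (𝓞 L) (𝓞 M) y)
  have h2 : (Q.under (𝓞 L)).under (𝓞 K) = Q.under (𝓞 K) := Ideal.under_under Q
  rw [h2]
  change algebraMap (𝓞 L) (𝓞 M) _ ∈ Q
  rw [map_sub, map_pow]
  have h3 : algebraMap (𝓞 L) (𝓞 M) ((MulSemiringAction.toAlgHom (𝓞 K) (𝓞 L) (rho K L φ)) y) =
      (MulSemiringAction.toAlgHom (𝓞 K) (𝓞 M) φ) (algebraMap (𝓞 L) (𝓞 M) y) :=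
    algebraMap_rho_smul φ y
  rw [h3]
  exact h1

/-- Inertia in `M/K` restricts to inertia in `L/K`. -/
lemma rho_mem_inertia {Q : Ideal (𝓞 M)} {σ : M ≃ₐ[K] M} (hσ : ∀ x : 𝓞 M, σ • x - x ∈ Q)
    (y : 𝓞 L) : rho K L σ • y - y ∈ Q.under (𝓞 L) := by
  change algebraMap (𝓞 L) (𝓞 M) _ ∈ Q
  rw [map_sub, algebraMap_rho_smul]
  exact hσ _

/-- Stabilisers in `M/K` restrict to stabilisers in `L/K`. -/
lemma rho_smul_mem_under {Q : Ideal (𝓞 M)} {σ : M ≃ₐ[K] M} (hσ : ∀ x ∈ Q, σ • x ∈ Q)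
    (y : 𝓞 L) (hy : y ∈ Q.under (𝓞 L)) : rho K L σ • y ∈ Q.under (𝓞 L) := by
  change algebraMap (𝓞 L) (𝓞 M) _ ∈ Q
  rw [algebraMap_rho_smul]
  exact hσ _ hy

end frobtower


section frobcyclo

lemma pow_eq_pow_iff_of_isPrimitiveRoot {F : Type*} [Field F] {ζ : F} {n : ℕ} [NeZero n]
    (hζ : IsPrimitiveRoot ζ n) (a b : ℕ) : ζ ^ a = ζ ^ b ↔ a ≡ b [MOD n] := by
  have hne : ζ ≠ 0 := hζ.ne_zero (NeZero.ne n)
  have h1 : (Units.mk0 ζ hne) ^ a = (Units.mk0 ζ hne) ^ b ↔ ζ ^ a = ζ ^ b := by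
    rw [Units.ext_iff]; simp
  rw [← h1, pow_eq_pow_iff_modEq, ← orderOf_units, Units.val_mk0, ← hζ.eq_orderOf]

variable {p : ℕ} [hp : Fact p.Prime] {r : ℕ}
variable {K L M : Type} [Field K] [NumberField K] [Field L] [NumberField L] [Field M]
  [NumberField M] [Algebra K L] [Algebra K M] [Algebra L M] [IsScalarTower K L M]
  [IsGalois K L] [IsGalois K M] [IsCyclotomicExtension {p} ℚ K]
variable {ζ : M} (hζ : IsPrimitiveRoot ζ (p ^ (r + 1)))

/-- The cyclotomic character of a Frobenius at a prime not over `p` is the norm of the prime below. -/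
lemma kappa_of_isArithFrobAt {Q : Ideal (𝓞 M)} [Q.IsPrime] (hpQ : (p : 𝓞 M) ∉ Q)
    {φ : M ≃ₐ[K] M} (hφ : IsArithFrobAt (𝓞 K) φ Q) :
    ((kappa K hζ φ : (ZMod (p ^ (r + 1)))ˣ) : ZMod (p ^ (r + 1))) =
      (Nat.card (𝓞 K ⧸ Q.under (𝓞 K)) : ZMod (p ^ (r + 1))) := by
  have e1 : ((hζ.toInteger : 𝓞 M) : M) = ζ := hζ.coe_toInteger
  have h1 : hζ.toInteger ^ (p ^ (r + 1)) = 1 := by
    apply NumberField.RingOfIntegers.ext
    change ((hζ.toInteger : 𝓞 M) : M) ^ (p ^ (r + 1)) = 1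
    rw [e1, hζ.pow_eq_one]
  have h2 : ((p ^ (r + 1) : ℕ) : 𝓞 M) ∉ Q := by
    rw [Nat.cast_pow]
    exact fun h => hpQ (Ideal.IsPrime.mem_of_pow_mem inferInstance _ h)
  have h3 := AlgHom.IsArithFrobAt.apply_of_pow_eq_one hφ h1 h2
  have h4 : φ ζ = ζ ^ Nat.card (𝓞 K ⧸ Q.under (𝓞 K)) := by
    have h5 := congrArg (fun x : 𝓞 M => (x : M)) h3
    calc φ ζ = φ ((hζ.toInteger : 𝓞 M) : M) := by rw [e1]
      _ = (((MulSemiringAction.toAlgHom (𝓞 K) (𝓞 M) φ) hζ.toInteger : 𝓞 M) : M) := rfl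
      _ = ((hζ.toInteger ^ Nat.card (𝓞 K ⧸ Q.under (𝓞 K)) : 𝓞 M) : M) := h5
      _ = ((hζ.toInteger : 𝓞 M) : M) ^ Nat.card (𝓞 K ⧸ Q.under (𝓞 K)) := rfl
      _ = ζ ^ Nat.card (𝓞 K ⧸ Q.under (𝓞 K)) := by rw [e1]
  rw [← kappa_spec hζ φ, pow_eq_pow_iff_of_isPrimitiveRoot hζ,
    ← ZMod.natCast_eq_natCast_iff, ZMod.natCast_zmod_val] at h4
  exact h4

/-- The image of the cyclotomic character of `Gal(M/K)` is a `p`-group: `ζ_p ∈ K`. -/
lemma kappa_pow_eq_one (σ : M ≃ₐ[K] M) : kappa K hζ σ ^ (p ^ r) = 1 := by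
  haveI : NeZero p := ⟨hp.out.ne_zero⟩
  -- `ζ ^ (p ^ r)` comes from `K`
  obtain ⟨η, hη⟩ := IsCyclotomicExtension.exists_isPrimitiveRoot ℚ K (Set.mem_singleton p)
    hp.out.ne_zero
  have hη' : IsPrimitiveRoot (algebraMap K M η) p := hη.map_of_injective (algebraMap K M).injective
  have h1 : (ζ ^ (p ^ r)) ^ p = 1 := by
    rw [← pow_mul, ← pow_succ, hζ.pow_eq_one]
  obtain ⟨i, _, hi⟩ := hη'.eq_pow_of_pow_eq_one h1
  have h2 : σ (ζ ^ (p ^ r)) = ζ ^ (p ^ r) := by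
    rw [← hi, map_pow, σ.commutes]
  rw [map_pow, ← kappa_spec hζ σ, ← pow_mul, pow_eq_pow_iff_of_isPrimitiveRoot hζ] at h2
  -- `(κ σ).val * p ^ r ≡ p ^ r mod p ^ (r + 1)`, so `κ σ ≡ 1 mod p`
  set u : ZMod (p ^ (r + 1)) := ((kappa K hζ σ : (ZMod (p ^ (r + 1)))ˣ) : ZMod (p ^ (r + 1)))
    with hu
  have h3 : (p : ZMod (p ^ (r + 1))) ∣ u - 1 := by
    have h4 : (p ^ (r + 1) : ℤ) ∣ ((u.val * p ^ r : ℕ) : ℤ) - ((p ^ r : ℕ) : ℤ) := by
      have := (Nat.modEq_iff_dvd.mp h2.symm)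
      exact_mod_cast this
    have h5 : ((u.val * p ^ r : ℕ) : ℤ) - ((p ^ r : ℕ) : ℤ) = (p ^ r : ℤ) * ((u.val : ℤ) - 1) := by
      push_cast; ring
    rw [h5, pow_succ] at h4
    have h6 : (p : ℤ) ∣ (u.val : ℤ) - 1 :=
      (mul_dvd_mul_iff_left (pow_ne_zero r (Int.natCast_ne_zero.mpr hp.out.ne_zero))).mp h4
    obtain ⟨c, hc⟩ := h6
    refine ⟨(c : ZMod (p ^ (r + 1))), ?_⟩
    have h9 := congrArg (fun z : ℤ => (z : ZMod (p ^ (r + 1)))) hc
    have h10 : ((u.val : ℤ) : ZMod (p ^ (r + 1))) = u := by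
      rw [Int.cast_natCast, ZMod.natCast_zmod_val]
    simp only [Int.cast_sub, Int.cast_one, Int.cast_mul, Int.cast_natCast] at h9
    rw [ZMod.natCast_zmod_val] at h9
    exact h9
  have h7 := dvd_sub_pow_of_dvd_sub h3 r
  rw [one_pow] at h7
  have h8 : ((p : ZMod (p ^ (r + 1))) ^ (r + 1)) = 0 := by
    rw [← Nat.cast_pow]
    exact ZMod.natCast_self _
  rw [h8, zero_dvd_iff, sub_eq_zero] at h7
  apply Units.ext
  rw [Units.val_pow_eq_pow_val, Units.val_one]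
  exact h7


include hζ in
/-- `M/K` is unramified at the primes not over `p` (trivial inertia), if `L/K` is unramified. -/
lemma inertia_trivial_of_not_mem (htop : IntermediateField.adjoin L {ζ} = ⊤)
    (hunr : ∀ Q' : Ideal (𝓞 L), Q'.IsPrime → Q' ≠ ⊥ →
      ∀ σ : L ≃ₐ[K] L, (∀ x : 𝓞 L, σ • x - x ∈ Q') → σ = 1)
    {Q : Ideal (𝓞 M)} [Q.IsPrime] (hQ0 : Q ≠ ⊥) (hpQ : (p : 𝓞 M) ∉ Q) (σ : M ≃ₐ[K] M)
    (hσ : ∀ x : 𝓞 M, σ • x - x ∈ Q) : σ = 1 := by
  apply eq_one_of_mem_ker_rho_of_mem_ker_kappa (K := K) (L := L) hζ htop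
  · rw [MonoidHom.mem_ker]
    exact hunr (Q.under (𝓞 L)) inferInstance (Ideal.under_ne_bot (𝓞 L) hQ0) _
      (rho_mem_inertia hσ)
  · rw [MonoidHom.mem_ker]
    obtain ⟨φ, hφ⟩ := exists_isArithFrobAt (K := K) Q hQ0
    have hσφ : IsArithFrobAt (𝓞 K) (σ * φ) Q := by
      intro x
      have h1 := hσ (φ • x)
      have h2 := hφ x
      have h3 : (MulSemiringAction.toAlgHom (𝓞 K) (𝓞 M) (σ * φ)) x -
          x ^ Nat.card (𝓞 K ⧸ Q.under (𝓞 K)) =
          (σ • (φ • x) - φ • x) + (φ • x - x ^ Nat.card (𝓞 K ⧸ Q.under (𝓞 K))) := by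
        rw [sub_add_sub_cancel]
        rfl
      rw [h3]
      exact Q.add_mem h1 h2
    have h4 := kappa_of_isArithFrobAt hζ hpQ hφ
    have h5 := kappa_of_isArithFrobAt hζ hpQ hσφ
    have h6 : kappa K hζ (σ * φ) = kappa K hζ φ := Units.ext (h5.trans h4.symm)
    rw [map_mul] at h6
    exact mul_eq_right.mp h6

/-- An element of `Gal(M/K(ζ))` stabilising a prime `Q ∤ p` of `M` is trivial, provided the norm
of the prime of `K` below `Q` is not `≡ 1 mod p^(r+1)`. -/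
lemma eq_one_of_smul_eq_of_kappa_ne_one (htop : IntermediateField.adjoin L {ζ} = ⊤)
    (hcard : Nat.card (L ≃ₐ[K] L) = p)
    (hunr : ∀ Q' : Ideal (𝓞 L), Q'.IsPrime → Q' ≠ ⊥ →
      ∀ σ : L ≃ₐ[K] L, (∀ x : 𝓞 L, σ • x - x ∈ Q') → σ = 1)
    {Q : Ideal (𝓞 M)} [Q.IsPrime] (hQ0 : Q ≠ ⊥) (hpQ : (p : 𝓞 M) ∉ Q)
    (hN : (Nat.card (𝓞 K ⧸ Q.under (𝓞 K)) : ZMod (p ^ (r + 1))) ≠ 1)
    (σ : M ≃ₐ[K] M) (hσκ : σ ∈ (kappa K hζ).ker) (hσQ : σ • Q = Q) : σ = 1 := by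
  obtain ⟨φ, hφ⟩ := exists_isArithFrobAt (K := K) Q hQ0
  have hin := inertia_trivial_of_not_mem (L := L) hζ htop hunr hQ0 hpQ
  obtain ⟨n, hn⟩ := Subgroup.mem_zpowers_iff.mp (mem_zpowers_of_smul_eq hQ0 hin hφ hσQ)
  have hκφ : kappa K hζ φ ≠ 1 := by
    intro h
    apply hN
    rw [← kappa_of_isArithFrobAt hζ hpQ hφ, h, Units.val_one]
  have h1 : kappa K hζ φ ^ n = 1 := by
    rw [← map_zpow, hn]
    exact hσκ
  have h2 : (orderOf (kappa K hζ φ) : ℤ) ∣ n := orderOf_dvd_iff_zpow_eq_one.mpr h1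
  have h3 : orderOf (kappa K hζ φ) ∣ p ^ r := orderOf_dvd_of_pow_eq_one (kappa_pow_eq_one hζ φ)
  obtain ⟨j, _, hj⟩ := (Nat.dvd_prime_pow hp.out).mp h3
  have hj0 : j ≠ 0 := by
    rintro rfl
    rw [pow_zero, orderOf_eq_one_iff] at hj
    exact hκφ hj
  have h4 : (p : ℤ) ∣ n := by
    refine dvd_trans ?_ h2
    rw [hj]
    exact_mod_cast dvd_pow_self p hj0
  obtain ⟨m, rfl⟩ := h4
  apply eq_one_of_mem_ker_rho_of_mem_ker_kappa (K := K) (L := L) hζ htop _ _ hσκ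
  rw [MonoidHom.mem_ker, ← hn, map_zpow, zpow_mul, zpow_natCast, ← hcard, pow_card_eq_one',
    one_zpow]

end frobcyclo

end Fermat.Agent.CFT.Crossing
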