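import Mathlib

/-!
# CFT (G5f): the field `M = L(ζ_n)`

For a Galois extension `L/K` of number fields, `M := CyclotomicField n L` is a number field, Galois
over `K`, generated over `L` by a primitive `n`-th root of unity.
-/

set_option autoImplicit false

open IntermediateField

namespace Fermat.Agent.CFT.Crossing

section General

variable (n : ℕ) [NeZero n] (K L M : Type*) [Field K] [Field L] [Field M] [Algebra K L]
  [Algebra L M] [Algebra K M] [IsScalarTower K L M]

/-- A cyclotomic extension of a normal extension is normal over the base. -/
theorem normal_of_isCyclotomicExtension [Normal K L]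
    [IsCyclotomicExtension {n} L M] : Normal K M := by
  have hfin : FiniteDimensional L M := IsCyclotomicExtension.finiteDimensional {n} L M
  have halg : Algebra.IsAlgebraic K M := Algebra.IsAlgebraic.trans K L M
  have hint : Algebra.IsIntegral K M := Algebra.IsAlgebraic.isIntegral
  have hζ : IsPrimitiveRoot (IsCyclotomicExtension.zeta n L M) n :=
    IsCyclotomicExtension.zeta_spec n L M
  have htopL : IntermediateField.adjoin L {IsCyclotomicExtension.zeta n L M} = ⊤ :=
    IntermediateField.adjoin_eq_top_of_algebra L _
      (IsCyclotomicExtension.adjoin_primitive_root_eq_top hζ)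
  -- the two normal intermediate fields
  have hN₁ : Normal K (IsScalarTower.toAlgHom K L M).fieldRange :=
    Normal.of_algEquiv (AlgEquiv.ofInjectiveField (IsScalarTower.toAlgHom K L M))
  have hC₂ : IsCyclotomicExtension {n} K
      (IntermediateField.adjoin K {IsCyclotomicExtension.zeta n L M}) :=
    hζ.intermediateField_adjoin_isCyclotomicExtension K
  have hN₂ : Normal K (IntermediateField.adjoin K {IsCyclotomicExtension.zeta n L M}) :=
    (IsCyclotomicExtension.isGalois {n} K _).to_normal
  have hsup : (IsScalarTower.toAlgHom K L M).fieldRange ⊔
      IntermediateField.adjoin K {IsCyclotomicExtension.zeta n L M} = ⊤ := by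
    let F' : IntermediateField L M :=
      ((IsScalarTower.toAlgHom K L M).fieldRange ⊔
        IntermediateField.adjoin K {IsCyclotomicExtension.zeta n L M}).toSubfield.toIntermediateField
        (fun x => by
          have : algebraMap L M x ∈ (IsScalarTower.toAlgHom K L M).fieldRange := ⟨x, rfl⟩
          exact (le_sup_left : _ ≤ (IsScalarTower.toAlgHom K L M).fieldRange ⊔
            IntermediateField.adjoin K {IsCyclotomicExtension.zeta n L M}) this)
    have h1 : IntermediateField.adjoin L {IsCyclotomicExtension.zeta n L M} ≤ F' := by
      rw [IntermediateField.adjoin_le_iff, Set.singleton_subset_iff]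
      have : IsCyclotomicExtension.zeta n L M ∈
          IntermediateField.adjoin K {IsCyclotomicExtension.zeta n L M} :=
        IntermediateField.mem_adjoin_simple_self K _
      exact (le_sup_right : _ ≤ (IsScalarTower.toAlgHom K L M).fieldRange ⊔
        IntermediateField.adjoin K {IsCyclotomicExtension.zeta n L M}) this
    rw [htopL] at h1
    rw [eq_top_iff]
    intro x _
    exact h1 (IntermediateField.mem_top : x ∈ (⊤ : IntermediateField L M))
  have hNtop : Normal K (⊤ : IntermediateField K M) :=
    hsup ▸ IntermediateField.normal_sup K M _ _
  exact Normal.of_algEquiv (IntermediateField.topEquiv (F := K) (E := M))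

end General

section Tower

/-- **(G5f)** For a Galois extension `L/K` of number fields there is a number field `M ⊇ L`,
Galois over `K`, generated over `L` by a primitive `n`-th root of unity. -/
theorem exists_cyclotomic_tower (n : ℕ) [NeZero n] (K L : Type) [Field K] [NumberField K]
    [Field L] [NumberField L] [Algebra K L] [IsGalois K L] :
    ∃ (M : Type) (_ : Field M) (_ : NumberField M) (_ : Algebra K M) (_ : Algebra L M)
      (_ : IsScalarTower K L M) (_ : IsGalois K M) (ζ : M),
      IsPrimitiveRoot ζ n ∧ IntermediateField.adjoin L {ζ} = ⊤ := by
  have htower : IsScalarTower K L (CyclotomicField n L) := inferInstance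
  have hnormal : Normal K (CyclotomicField n L) :=
    normal_of_isCyclotomicExtension n K L (CyclotomicField n L)
  have hgal : IsGalois K (CyclotomicField n L) := { }
  have hζ : IsPrimitiveRoot (IsCyclotomicExtension.zeta n L (CyclotomicField n L)) n :=
    IsCyclotomicExtension.zeta_spec n L (CyclotomicField n L)
  exact ⟨CyclotomicField n L, inferInstance, inferInstance, inferInstance, inferInstance, htower,
    hgal, IsCyclotomicExtension.zeta n L (CyclotomicField n L), hζ,
    IntermediateField.adjoin_eq_top_of_algebra L _
      (IsCyclotomicExtension.adjoin_primitive_root_eq_top hζ)⟩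

end Tower

end Fermat.Agent.CFT.Crossing
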