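/-
CFT global part, S55 package PT4 (d), helper3: CLAIM A.  From abstract cyclotomic reciprocity data
`R : CycloRec p n` (the `p`-part of the cyclotomic Artin map) we derive
* `CycloRec.ker_le`: the hard direction `ker ω_L ⊆ L^× · N J_M` for `M = L(ζ_{p^(n+1)})`, `ζ_p ∈ L`
  (by counting against the dévissage bound);
* the crossing argument: for `L/K` Galois with `ζ_p ∈ L` a global class
  `γ ∈ H²(Gal(L/K), C_L)` whose restriction to every `p`-subgroup `P` has order `|P|`.
-/
import Fermat.Agent.CFT.Global.PT4d_helper3_TowerMaps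
import Fermat.Agent.CFT.Global.PT4d_helper3_CycloRec
import Fermat.Agent.CFT.Global.Crossing_helper3_Frob
import Fermat.Agent.CFT.Global.G5f_helper6
import Fermat.Agent.CFT.Coh.CupInj_helper3

set_option autoImplicit false
set_option linter.unusedSectionVars false
set_option linter.style.haveILetI false

open scoped NumberField Pointwise
open CategoryTheory groupCohomology Rep
open Fermat.Agent.CFT.Coh Fermat.Agent.CFT.Local Fermat.Agent.CFT.Crossing

namespace Fermat.Agent.CFT.PT4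

/-- Abstract counting: if `ker f ≤ ker g`, `f` is onto a finite group of order at most the order
of the image of `g`, then `ker g ≤ ker f`. -/
lemma ker_le_ker_of_card_le {G T A : Type*} [Group G] [Group T] [Group A] [Finite T]
    (f : G →* T) (hf : Function.Surjective f) (g : G →* A) (hle : f.ker ≤ g.ker)
    (hcard : Nat.card T ≤ Nat.card g.range) : g.ker ≤ f.ker := by
  have h1 : f.ker.index = Nat.card T := by
    rw [Subgroup.index_ker, MonoidHom.range_eq_top.mpr hf]
    exact Nat.card_congr (Subgroup.topEquiv (G := T)).toEquiv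
  have h2 : g.ker.index = Nat.card g.range := Subgroup.index_ker g
  have h3 := Subgroup.relIndex_mul_index hle
  rw [h1, h2] at h3
  have hT : 0 < Nat.card T := Nat.card_pos
  have h4 : f.ker.relIndex g.ker = 1 := by
    have h5 : 0 < Nat.card g.range := lt_of_lt_of_le hT hcard
    have h6 : f.ker.relIndex g.ker * Nat.card g.range ≤ 1 * Nat.card g.range := by
      rw [h3, one_mul]; exact hcard
    have h7 := Nat.le_of_mul_le_mul_right h6 h5
    have h8 : f.ker.relIndex g.ker ≠ 0 := by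
      intro h0
      rw [h0, zero_mul] at h3
      omega
    omega
  exact Subgroup.relIndex_eq_one.mp h4

section kappa

variable {p : ℕ} [hp : Fact p.Prime] {r : ℕ}
variable {K M : Type} [Field K] [Field M] [Algebra K M]
variable {ζ : M} (hζ : IsPrimitiveRoot ζ (p ^ (r + 1)))

/-- The image of the cyclotomic character of `Gal(M/K)` is a `p`-group when `ζ_p ∈ K`. -/
lemma kappa_pow_eq_one_of_zeta (hη : ∃ η : K, IsPrimitiveRoot η p) (σ : M ≃ₐ[K] M) :
    kappa K hζ σ ^ (p ^ r) = 1 := by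
  haveI : NeZero p := ⟨hp.out.ne_zero⟩
  haveI : NeZero (p ^ (r + 1)) := ⟨(pow_pos hp.out.pos _).ne'⟩
  obtain ⟨η, hη⟩ := hη
  have hη' : IsPrimitiveRoot (algebraMap K M η) p := hη.map_of_injective (algebraMap K M).injective
  have h1 : (ζ ^ (p ^ r)) ^ p = 1 := by
    rw [← pow_mul, ← pow_succ, hζ.pow_eq_one]
  obtain ⟨i, _, hi⟩ := hη'.eq_pow_of_pow_eq_one h1
  have h2 : σ (ζ ^ (p ^ r)) = ζ ^ (p ^ r) := by
    rw [← hi, map_pow, σ.commutes]
  rw [map_pow, ← kappa_spec hζ σ, ← pow_mul, pow_eq_pow_iff_of_isPrimitiveRoot hζ] at h2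
  set u : ZMod (p ^ (r + 1)) := ((kappa K hζ σ : (ZMod (p ^ (r + 1)))ˣ) : ZMod (p ^ (r + 1)))
    with hu
  have h3 : (p : ZMod (p ^ (r + 1))) ∣ u - 1 := by
    have h4 : (p ^ (r + 1) : ℤ) ∣ ((u.val * p ^ r : ℕ) : ℤ) - ((p ^ r : ℕ) : ℤ) := by
      have := (Nat.modEq_iff_dvd.mp h2.symm)
      exact_mod_cast this
    have h5 : ((u.val * p ^ r : ℕ) : ℤ) - ((p ^ r : ℕ) : ℤ) = (p ^ r : ℤ) * ((u.val : ℤ) - 1) := by
      push_cast; ring
    rw [h5, pow_succ] at h4
    have h6 : (p : ℤ) ∣ (u.val : ℤ) - 1 :=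
      (mul_dvd_mul_iff_left (pow_ne_zero r (Int.natCast_ne_zero.mpr hp.out.ne_zero))).mp h4
    obtain ⟨c, hc⟩ := h6
    refine ⟨(c : ZMod (p ^ (r + 1))), ?_⟩
    have h9 := congrArg (fun z : ℤ => (z : ZMod (p ^ (r + 1)))) hc
    have h10 : ((u.val : ℤ) : ZMod (p ^ (r + 1))) = u := by
      rw [Int.cast_natCast, ZMod.natCast_zmod_val]
    simp only [Int.cast_sub, Int.cast_one, Int.cast_mul, Int.cast_natCast] at h9
    rw [ZMod.natCast_zmod_val] at h9
    exact h9
  have h7 := dvd_sub_pow_of_dvd_sub h3 r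
  rw [one_pow] at h7
  have h8 : ((p : ZMod (p ^ (r + 1))) ^ (r + 1)) = 0 := by
    rw [← Nat.cast_pow]
    exact ZMod.natCast_self _
  rw [h8, zero_dvd_iff, sub_eq_zero] at h7
  apply Units.ext
  rw [Units.val_pow_eq_pow_val, Units.val_one]
  exact h7

/-- An element of `p`-power order whose `(p-1)`-th power is trivial is trivial. -/
lemma eq_one_of_pow_eq_one_of_pow_pred_eq_one {A : Type*} [Group A] (u : A) (k : ℕ)
    (h1 : u ^ (p ^ k) = 1) (h2 : u ^ (p - 1) = 1) : u = 1 := by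
  have hcop : Nat.Coprime (p ^ k) (p - 1) := by
    apply Nat.Coprime.pow_left
    have h2le := hp.out.two_le
    exact (Nat.Prime.coprime_iff_not_dvd hp.out).mpr
      (Nat.not_dvd_of_pos_of_lt (by omega) (by omega))
  have h3 : orderOf u ∣ Nat.gcd (p ^ k) (p - 1) :=
    Nat.dvd_gcd (orderOf_dvd_of_pow_eq_one h1) (orderOf_dvd_of_pow_eq_one h2)
  rw [hcop.gcd_eq_one, Nat.dvd_one] at h3
  exact orderOf_eq_one_iff.mp h3

include hζ in
/-- `Gal(M/L)` is a `p`-group when `M = L(ζ_{p^(r+1)})` and `ζ_p ∈ L`. -/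
lemma isPGroup_gal_of_zeta (htop : IntermediateField.adjoin K {ζ} = ⊤)
    (hη : ∃ η : K, IsPrimitiveRoot η p) : IsPGroup p (M ≃ₐ[K] M) := by
  intro σ
  refine ⟨r, ?_⟩
  have h1 : kappa K hζ (σ ^ (p ^ r)) = 1 := by
    rw [map_pow, kappa_pow_eq_one_of_zeta hζ hη]
  apply eq_one_of_mem_ker_rho_of_mem_ker_kappa (K := K) (L := K) hζ htop
  · rw [mem_ker_rho_iff]
    intro x
    exact AlgEquiv.commutes _ x
  · exact MonoidHom.mem_ker.mpr h1

end kappa

section kerle

variable {p : ℕ} [hp : Fact p.Prime] {n : ℕ}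

/-- **The hard direction of cyclotomic reciprocity**, by counting: for `M = L(ζ_{p^(n+1)})`,
`ζ_p ∈ L`, the kernel of `ω_L` is contained in `L^× · N J_M`. -/
theorem CycloRec.ker_le (hp2 : p ≠ 2) (R : CycloRec p n) (L M : Type) [Field L] [NumberField L]
    [Field M] [NumberField M] [Algebra L M] [IsGalois L M] {ζ : M}
    (hζ : IsPrimitiveRoot ζ (p ^ (n + 1))) (htop : IntermediateField.adjoin L {ζ} = ⊤)
    (hη : ∃ η : L, IsPrimitiveRoot η p) (y : FinIdele L) (hy : R.ω L y = 1) :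
    ideleToTateH0 L M (Additive.ofMul y) = 0 := by
  haveI : NeZero (p ^ (n + 1)) := ⟨(pow_pos hp.out.pos _).ne'⟩
  have hPG : IsPGroup p (M ≃ₐ[L] M) := isPGroup_gal_of_zeta hζ htop hη
  obtain ⟨k, hk⟩ := IsPGroup.iff_card.mp hPG
  -- `κ` is injective
  have hinj : Function.Injective (kappa L hζ) := by
    rw [injective_iff_map_eq_one]
    intro σ hσ
    apply eq_one_of_mem_ker_rho_of_mem_ker_kappa (K := L) (L := L) hζ htop
    · rw [mem_ker_rho_iff]
      intro x
      exact AlgEquiv.commutes _ x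
    · exact MonoidHom.mem_ker.mpr hσ
  haveI : IsCyclic (ZMod (p ^ (n + 1)))ˣ := ZMod.isCyclic_units_of_prime_pow p hp.out hp2 _
  haveI : IsCyclic (M ≃ₐ[L] M) := isCyclic_of_injective (kappa L hζ) hinj
  obtain ⟨g, hg⟩ := IsCyclic.exists_generator (α := M ≃ₐ[L] M)
  -- `Ĥ⁰` is finite of order dividing `p ^ k`
  obtain ⟨-, hH2⟩ := isZero_H1_and_card_H2_dvd hp.out hp2 k L M hk
  have hcardT : Nat.card (TateH0 (ideleClassRep L M)) ∣ p ^ k := by
    rw [← Nat.card_congr (H2EquivTateH0 hg (ideleClassRep L M)).toEquiv]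
    exact hH2
  have hposT : Nat.card (TateH0 (ideleClassRep L M)) ≠ 0 := by
    intro h0
    rw [h0, zero_dvd_iff] at hcardT
    exact (pow_pos hp.out.pos k).ne' hcardT
  haveI : Finite (TateH0 (ideleClassRep L M)) := Nat.finite_of_card_ne_zero hposT
  -- the two homomorphisms
  obtain ⟨f, hfdef⟩ : ∃ f : FinIdele L →* Multiplicative (TateH0 (ideleClassRep L M)),
      ∀ x, f x = Multiplicative.ofAdd (ideleToTateH0 L M (Additive.ofMul x)) :=
    ⟨AddMonoidHom.toMultiplicativeRight (ideleToTateH0 L M), fun _ => rfl⟩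
  have hfsurj : Function.Surjective f := by
    intro t
    obtain ⟨x, hx⟩ := ideleToTateH0_surjective L M (Multiplicative.toAdd t)
    refine ⟨Additive.toMul x, ?_⟩
    rw [hfdef, ofMul_toMul, hx, ofAdd_toAdd]
  have hle : f.ker ≤ (R.ω L).ker := by
    intro x hx
    rw [MonoidHom.mem_ker] at hx ⊢
    rw [hfdef] at hx
    have hx' : ideleToTateH0 L M (Additive.ofMul x) = 0 := by
      have := congrArg Multiplicative.toAdd hx
      rwa [toAdd_ofAdd, toAdd_one] at this
    exact R.norm_le L M ζ hζ x hx'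
  have hcard : Nat.card (Multiplicative (TateH0 (ideleClassRep L M))) ≤
      Nat.card (R.ω L).range := by
    have h1 : Nat.card (Multiplicative (TateH0 (ideleClassRep L M))) ≤ p ^ k :=
      Nat.le_of_dvd (pow_pos hp.out.pos k) hcardT
    refine h1.trans ?_
    rw [← hk]
    have hmem : ∀ σ : M ≃ₐ[L] M, (kappa L hζ σ) ^ (p - 1) ∈ (R.ω L).range := by
      intro σ
      obtain ⟨x, hx⟩ := R.surj L M ζ hζ σ
      exact ⟨x, hx⟩
    refine Nat.card_le_card_of_injective
      (fun σ : M ≃ₐ[L] M => (⟨(kappa L hζ σ) ^ (p - 1), hmem σ⟩ : (R.ω L).range)) ?_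
    intro σ τ hστ
    have h2 : (kappa L hζ σ) ^ (p - 1) = (kappa L hζ τ) ^ (p - 1) := congrArg Subtype.val hστ
    have h3 : kappa L hζ (σ * τ⁻¹) ^ (p - 1) = 1 := by
      rw [map_mul, map_inv, mul_pow, inv_pow, h2, mul_inv_cancel]
    have h4 : kappa L hζ (σ * τ⁻¹) = 1 :=
      eq_one_of_pow_eq_one_of_pow_pred_eq_one _ n (kappa_pow_eq_one_of_zeta hζ hη _) h3
    exact mul_inv_eq_one.mp (hinj (h4.trans (map_one _).symm))
  have key := ker_le_ker_of_card_le f hfsurj (R.ω L) hle hcard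
  have hy' : y ∈ f.ker := key (MonoidHom.mem_ker.mpr hy)
  rw [MonoidHom.mem_ker, hfdef] at hy'
  have := congrArg Multiplicative.toAdd hy'
  rwa [toAdd_ofAdd, toAdd_one] at this

end kerle

section chars

variable {p : ℕ} [hp : Fact p.Prime] {n : ℕ}

/-- The character `σ ↦ θ(κ(σ)^(p-1))` of `Gal(N/F)` attached to a character `θ` of
`(ℤ/p^(n+1))^×` and a primitive `p^(n+1)`-th root of unity `ζ ∈ N`. -/
noncomputable def cycloQZ (θ : QZChar (ZMod (p ^ (n + 1)))ˣ) (F : Type) {N : Type} [Field F]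
    [Field N] [Algebra F N] {ζ : N} (hζ : IsPrimitiveRoot ζ (p ^ (n + 1))) :
    QZChar (N ≃ₐ[F] N) :=
  θ.comp ((powMonoidHom (p - 1)).comp (kappa F hζ))

lemma cycloQZ_apply (θ : QZChar (ZMod (p ^ (n + 1)))ˣ) (F : Type) {N : Type} [Field F]
    [Field N] [Algebra F N] {ζ : N} (hζ : IsPrimitiveRoot ζ (p ^ (n + 1))) (σ : N ≃ₐ[F] N) :
    cycloQZ θ F hζ (Additive.ofMul σ) = θ (Additive.ofMul (kappa F hζ σ ^ (p - 1))) := rfl

/-- Compatibility of the cyclotomic characters with restriction of automorphisms. -/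
lemma kappa_galRes (K F : Type) {M M' : Type} [Field K] [Field F] [Field M] [Field M']
    [Algebra K F] [Algebra K M] [Algebra F M'] [Algebra K M'] [IsScalarTower K F M']
    [Normal K M] (j : M →ₐ[K] M') {ζ : M} (hζ : IsPrimitiveRoot ζ (p ^ (n + 1)))
    (hζ' : IsPrimitiveRoot (j ζ) (p ^ (n + 1))) (σ : M' ≃ₐ[F] M') :
    kappa K hζ (galRes K F j σ) = kappa F hζ' σ := by
  rw [kappa_eq_iff]
  have hinj : Function.Injective j := j.injective
  apply hinj
  rw [galRes_commutes, map_pow]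
  exact (kappa_spec hζ' σ).symm

lemma cycloQZ_comp_galRes (θ : QZChar (ZMod (p ^ (n + 1)))ˣ) (K F : Type) {M M' : Type}
    [Field K] [Field F] [Field M] [Field M']
    [Algebra K F] [Algebra K M] [Algebra F M'] [Algebra K M'] [IsScalarTower K F M']
    [Normal K M] (j : M →ₐ[K] M') {ζ : M} (hζ : IsPrimitiveRoot ζ (p ^ (n + 1)))
    (hζ' : IsPrimitiveRoot (j ζ) (p ^ (n + 1))) :
    (cycloQZ θ K hζ).comp (galRes K F j) = cycloQZ θ F hζ' := by
  refine AddMonoidHom.ext fun σ => ?_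
  change cycloQZ θ K hζ (Additive.ofMul (galRes K F j (Additive.toMul σ))) =
    cycloQZ θ F hζ' (Additive.ofMul (Additive.toMul σ))
  rw [cycloQZ_apply, cycloQZ_apply, kappa_galRes K F j hζ hζ']

end chars

section order

variable {p : ℕ} [hp : Fact p.Prime] {n : ℕ}

/-- **The order computation.** `M/K'` a Galois `p`-extension, `ζ = ζ_{p^(n+1)} ∈ E' ⊆ M` with
`Gal(M/E')` the stabiliser of `ζ`: if `k • ([x] ∪ δψ) = 0` in `H²(Gal(M/K'), C_M)` for the
cyclotomic character `ψ = θ ∘ κ^(p-1)` (`θ` injective), then `ω_{K'}(x)^k = 1`. -/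
theorem pow_eq_one_of_nsmul_cupδInv_eq_zero (hp2 : p ≠ 2) (R : CycloRec p n)
    (θ : QZChar (ZMod (p ^ (n + 1)))ˣ) (hθ : ∀ u, θ (Additive.ofMul u) = 0 → u = 1)
    (K' E' M : Type) [Field K'] [NumberField K'] [Field E'] [NumberField E'] [Field M]
    [NumberField M] [Algebra K' E'] [Algebra K' M] [Algebra E' M] [IsScalarTower K' E' M]
    [IsGalois K' M] [IsGalois K' E'] {ζ : E'} (hζ : IsPrimitiveRoot ζ (p ^ (n + 1)))
    (hζM : IsPrimitiveRoot (algebraMap E' M ζ) (p ^ (n + 1)))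
    (hE : ∀ σ : M ≃ₐ[K'] M, σ (algebraMap E' M ζ) = algebraMap E' M ζ →
      ∀ e : E', σ (algebraMap E' M e) = algebraMap E' M e)
    (hPG : IsPGroup p (M ≃ₐ[K'] M)) (x : FinIdele K') (k : ℕ)
    (h : k • cupδInv (ideleClassRep K' M) (classInvHom K' M (Additive.ofMul x))
      (cycloQZ θ K' hζM) = 0) :
    R.ω K' x ^ k = 1 := by
  haveI : NeZero (p ^ (n + 1)) := ⟨(pow_pos hp.out.pos _).ne'⟩
  haveI : IsGalois E' M := IsGalois.tower_top_of_isGalois K' E' M
  -- `κ` on `Gal(E'/K')` is injective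
  have hκinj : ∀ τ : E' ≃ₐ[K'] E', kappa K' hζ τ = 1 → τ = 1 := by
    intro τ hτ
    obtain ⟨σ, rfl⟩ := galProj_surjective K' E' M τ
    have h1 : galProj K' E' M σ ζ = ζ := (mem_ker_kappa_iff hζ _).mp (MonoidHom.mem_ker.mpr hτ)
    have h2 : σ (algebraMap E' M ζ) = algebraMap E' M ζ := by
      rw [← galProj_commutes K' E' M σ ζ, h1]
    ext e
    apply (algebraMap E' M).injective
    rw [galProj_commutes, hE σ h2 e]
    rfl
  have hinj : Function.Injective (kappa K' hζ) := by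
    rw [injective_iff_map_eq_one]
    exact hκinj
  haveI : IsCyclic (ZMod (p ^ (n + 1)))ˣ := ZMod.isCyclic_units_of_prime_pow p hp.out hp2 _
  haveI : IsCyclic (E' ≃ₐ[K'] E') := isCyclic_of_injective (kappa K' hζ) hinj
  obtain ⟨g, hg⟩ := IsCyclic.exists_generator (α := E' ≃ₐ[K'] E')
  -- `Gal(E'/K')` is a `p`-group
  have hPGE : IsPGroup p (E' ≃ₐ[K'] E') := hPG.of_surjective _ (galProj_surjective K' E' M)
  -- the character on `Gal(E'/K')` is injective
  have hψ₀ : ∀ τ : E' ≃ₐ[K'] E', cycloQZ θ K' hζ (Additive.ofMul τ) = 0 → τ = 1 := by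
    intro τ hτ
    rw [cycloQZ_apply] at hτ
    have h1 := hθ _ hτ
    obtain ⟨j, hj⟩ := hPGE τ
    have h2 : kappa K' hζ τ ^ (p ^ j) = 1 := by rw [← map_pow, hj, map_one]
    exact hκinj τ (eq_one_of_pow_eq_one_of_pow_pred_eq_one _ j h2 h1)
  -- `H¹(Gal(M/E'), C_M) = 0`
  have hPGME : IsPGroup p (M ≃ₐ[E'] M) :=
    hPG.of_injective (galIncl K' E' M) (galIncl_injective K' E' M)
  obtain ⟨k', hk'⟩ := IsPGroup.iff_card.mp hPGME
  obtain ⟨hH1, -⟩ := isZero_H1_and_card_H2_dvd hp.out hp2 k' E' M hk'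
  -- inflation
  have hcomp : (cycloQZ θ K' hζ).comp (galProj K' E' M) = cycloQZ θ K' hζM :=
    cycloQZ_comp_galRes θ K' K' (IsScalarTower.toAlgHom K' E' M) hζ hζM
  have hinfl := classCoh_cupδInv K' K' (IsScalarTower.toAlgHom K' E' M) x (cycloQZ θ K' hζ)
  have hid : FinIdele.map (algebraMap K' K') x = x := finIdele_map_id x
  rw [hid, hcomp] at hinfl
  rw [← hinfl, ← map_nsmul] at h
  have h3 := classInfl_injective K' E' M hH1 (h.trans (map_zero _).symm)
  -- cup product with an injective character on a cyclic group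
  have h4 : cupδ (ideleClassRep K' E')
      (k • TateH0.mk (ideleClassRep K' E') (classInvHom K' E' (Additive.ofMul x)))
      (cycloQZ θ K' hζ) = 0 := by
    rw [map_nsmul, AddMonoidHom.nsmul_apply, cupδ_mk]
    exact h3
  have h5 := eq_zero_of_cupδ_eq_zero hg (ideleClassRep K' E') (cycloQZ θ K' hζ) hψ₀ _ h4
  have h6 : ideleToTateH0 K' E' (Additive.ofMul (x ^ k)) = 0 := by
    rw [ofMul_pow, map_nsmul]
    exact h5
  rw [← map_pow]
  exact R.norm_le K' E' ζ hζ _ h6

end order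

section crossing

variable {p : ℕ} [hp : Fact p.Prime] {n : ℕ}

/-- **The crossing step.** `K ⊆ L ⊆ M = L(ζ_{p^(n+1)})`, `ζ_p ∈ L`: if `ω_K(x)^[L:K] = 1` then
`[x] ∪ δψ ∈ H²(Gal(M/K), C_M)` is inflated from `H²(Gal(L/K), C_L)`, for every character `ψ`. -/
theorem exists_classInfl_eq_cupδInv (hp2 : p ≠ 2) (R : CycloRec p n) (K L M : Type)
    [Field K] [NumberField K] [Field L] [NumberField L] [Field M] [NumberField M]
    [Algebra K L] [Algebra K M] [Algebra L M] [IsScalarTower K L M] [IsGalois K L]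
    [IsGalois K M] {ζ : M} (hζ : IsPrimitiveRoot ζ (p ^ (n + 1)))
    (htop : IntermediateField.adjoin L {ζ} = ⊤) (hη : ∃ η : L, IsPrimitiveRoot η p)
    (x : FinIdele K) (hx : R.ω K x ^ Module.finrank K L = 1) (ψ : QZChar (M ≃ₐ[K] M)) :
    ∃ γ : groupCohomology (ideleClassRep K L) 2, classInfl K L M 2 γ =
      cupδInv (ideleClassRep K M) (classInvHom K M (Additive.ofMul x)) ψ := by
  haveI : IsGalois L M := IsGalois.tower_top_of_isGalois K L M
  -- `H¹(Gal(M/L), C_M) = 0`
  have hPG : IsPGroup p (M ≃ₐ[L] M) := isPGroup_gal_of_zeta hζ htop hη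
  obtain ⟨k, hk⟩ := IsPGroup.iff_card.mp hPG
  obtain ⟨hH1, -⟩ := isZero_H1_and_card_H2_dvd hp.out hp2 k L M hk
  -- the class of `ι x` in `Ĥ⁰(Gal(M/L), C_M)` vanishes
  have h1 : R.ω L (FinIdele.map (algebraMap K L) x) = 1 := by
    rw [R.baseChange K L x, hx]
  have h2 := R.ker_le hp2 L M hζ htop hη _ h1
  -- restriction to `Gal(M/L)`
  apply exists_classInfl_eq_of_classRes_eq_zero K L M hH1
  rw [classRes, classCoh_cupδInv K L (AlgHom.id K M) x ψ, ← cupδ_mk]
  have h3 : TateH0.mk (ideleClassRep L M)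
      (classInvHom L M (Additive.ofMul (FinIdele.map (algebraMap K L) x))) = 0 := h2
  rw [h3, map_zero, AddMonoidHom.zero_apply]

end crossing

section existsx

variable {p : ℕ} [hp : Fact p.Prime]

/-- For every number field `K` and every `a` there are a level `n` and an idele `x` of `K` with
`ω_K(x)` of order exactly `p^a` (take `x` from `ℚ`). -/
theorem exists_orderOf_ω_eq (hp2 : p ≠ 2) (R : ∀ n, CycloRec p n) (K : Type) [Field K]
    [NumberField K] (a : ℕ) :
    ∃ (n : ℕ) (x : FinIdele K), orderOf ((R n).ω K x) = p ^ a := by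
  have hd0 : Module.finrank ℚ K ≠ 0 := Module.finrank_pos.ne'
  obtain ⟨e, d', hd', hd⟩ := Nat.exists_eq_pow_mul_and_not_dvd hd0 p hp.out.ne_one
  set n : ℕ := a + e with hn
  haveI : NeZero (p ^ (n + 1)) := ⟨(pow_pos hp.out.pos _).ne'⟩
  haveI : IsCyclic (ZMod (p ^ (n + 1)))ˣ := ZMod.isCyclic_units_of_prime_pow p hp.out hp2 _
  obtain ⟨g, hg⟩ := IsCyclic.exists_generator (α := (ZMod (p ^ (n + 1)))ˣ)
  have hordg : orderOf g = (p - 1) * p ^ n := by
    rw [orderOf_eq_card_of_forall_mem_zpowers hg, Nat.card_eq_fintype_card, ZMod.card_units_eq_totient,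
      Nat.totient_prime_pow_succ hp.out, mul_comm]
  -- an automorphism of `ℚ(ζ_{p^(n+1)})` with cyclotomic character `g`
  have hirr : Irreducible (Polynomial.cyclotomic (p ^ (n + 1)) ℚ) :=
    Polynomial.cyclotomic.irreducible_rat (pow_pos hp.out.pos _)
  have hcyc1 : @IsCyclotomicExtension {p ^ (n + 1)} ℚ (CyclotomicField (p ^ (n + 1)) ℚ) _ _
      (CyclotomicField.algebra (p ^ (n + 1)) ℚ) := inferInstance
  have halg : (DivisionRing.toRatAlgebra : Algebra ℚ (CyclotomicField (p ^ (n + 1)) ℚ)) =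
      CyclotomicField.algebra (p ^ (n + 1)) ℚ := Subsingleton.elim _ _
  haveI hcyc : IsCyclotomicExtension {p ^ (n + 1)} ℚ (CyclotomicField (p ^ (n + 1)) ℚ) := by
    rw [halg]; exact hcyc1
  haveI : NumberField (CyclotomicField (p ^ (n + 1)) ℚ) :=
    IsCyclotomicExtension.numberField {p ^ (n + 1)} ℚ _
  haveI : IsGalois ℚ (CyclotomicField (p ^ (n + 1)) ℚ) :=
    IsCyclotomicExtension.isGalois {p ^ (n + 1)} ℚ (CyclotomicField (p ^ (n + 1)) ℚ)
  have hζ₀ : IsPrimitiveRoot
      (IsCyclotomicExtension.zeta (p ^ (n + 1)) ℚ (CyclotomicField (p ^ (n + 1)) ℚ))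
      (p ^ (n + 1)) := IsCyclotomicExtension.zeta_spec _ ℚ (CyclotomicField (p ^ (n + 1)) ℚ)
  have hσg : hζ₀.autToPow ℚ
      ((IsCyclotomicExtension.autEquivPow (CyclotomicField (p ^ (n + 1)) ℚ) hirr).symm g) = g :=
    (IsCyclotomicExtension.autEquivPow (CyclotomicField (p ^ (n + 1)) ℚ) hirr).apply_symm_apply g
  obtain ⟨x₀, hx₀⟩ := (R n).surj ℚ (CyclotomicField (p ^ (n + 1)) ℚ) _ hζ₀
    ((IsCyclotomicExtension.autEquivPow (CyclotomicField (p ^ (n + 1)) ℚ) hirr).symm g)
  rw [hσg] at hx₀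
  refine ⟨n, FinIdele.map (algebraMap ℚ K) x₀, ?_⟩
  rw [(R n).baseChange ℚ K x₀, hx₀, hd]
  -- order computation
  have h1 : orderOf (g ^ (p - 1)) = p ^ n := by
    have hp1 : p - 1 ≠ 0 := by have := hp.out.two_le; omega
    rw [orderOf_pow_of_dvd hp1 (by rw [hordg]; exact dvd_mul_right _ _), hordg,
      Nat.mul_div_cancel_left _ (Nat.pos_of_ne_zero hp1)]
  have h2 : orderOf ((g ^ (p - 1)) ^ (p ^ e)) = p ^ a := by
    rw [orderOf_pow_of_dvd (pow_pos hp.out.pos e).ne' (by rw [h1, hn]; exact pow_dvd_pow p (by omega)),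
      h1, hn, pow_add, Nat.mul_div_cancel _ (pow_pos hp.out.pos e)]
  rw [pow_mul]
  rw [Nat.Coprime.orderOf_pow, h2]
  rw [h2]
  exact Nat.Coprime.pow_left a ((Nat.Prime.coprime_iff_not_dvd hp.out).mpr hd')

end existsx

section assembly

variable {p : ℕ} [hp : Fact p.Prime] {n : ℕ}

/-- Inflation and restriction commute: `K ⊆ K' ⊆ L ⊆ M`. -/
theorem classInfl_comp_classRes (K K' L M : Type) [Field K] [NumberField K] [Field K']
    [NumberField K'] [Field L] [NumberField L] [Field M] [NumberField M]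
    [Algebra K K'] [Algebra K L] [Algebra K M] [Algebra K' L] [Algebra K' M] [Algebra L M]
    [IsScalarTower K K' L] [IsScalarTower K L M] [IsScalarTower K K' M] [IsScalarTower K' L M]
    [IsGalois K L] [IsGalois K M] [IsGalois K' L] [IsGalois K' M] (m : ℕ) :
    classInfl K L M m ≫ classRes K K' M m = classRes K K' L m ≫ classInfl K' L M m := by
  have hA := classCoh_comp K K' K' (AlgHom.id K L) (IsScalarTower.toAlgHom K' L M) m
  have hB := classCoh_comp K K K' (IsScalarTower.toAlgHom K L M) (AlgHom.id K M) m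
  have hj : ((IsScalarTower.toAlgHom K' L M).restrictScalars K).comp (AlgHom.id K L) =
      ((AlgHom.id K M).restrictScalars K).comp (IsScalarTower.toAlgHom K L M) := by
    ext y
    rfl
  rw [classInfl, classRes, classRes, classInfl, ← hA, ← hB, hj]

/-- **Order of the restriction of the global class** (generic form): `K ⊆ K' ⊆ L ⊆ M = L(ζ)`,
`K' ⊆ E' = K'(ζ) ⊆ M`, `Gal(L/K')` a `p`-group.  If `γ ∈ H²(Gal(L/K), C_L)` inflates to
`[x] ∪ δψ` and `k • res_{Gal(L/K')} γ = 0`, then `ω_K(x)^([K':K]·k) = 1`. -/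
theorem pow_eq_one_of_nsmul_classRes_eq_zero (hp2 : p ≠ 2) (R : CycloRec p n)
    (θ : QZChar (ZMod (p ^ (n + 1)))ˣ) (hθ : ∀ u, θ (Additive.ofMul u) = 0 → u = 1)
    (K K' L M E' : Type) [Field K] [NumberField K] [Field K'] [NumberField K'] [Field L]
    [NumberField L] [Field M] [NumberField M] [Field E'] [NumberField E']
    [Algebra K K'] [Algebra K L] [Algebra K M] [Algebra K' L] [Algebra K' M] [Algebra L M]
    [Algebra K' E'] [Algebra E' M]
    [IsScalarTower K K' L] [IsScalarTower K L M] [IsScalarTower K K' M] [IsScalarTower K' L M]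
    [IsScalarTower K' E' M]
    [IsGalois K L] [IsGalois K M] [IsGalois K' L] [IsGalois K' M] [IsGalois K' E']
    {ζ : M} (hζ : IsPrimitiveRoot ζ (p ^ (n + 1)))
    (htop : IntermediateField.adjoin L {ζ} = ⊤) (hη : ∃ η : L, IsPrimitiveRoot η p)
    {ζE : E'} (hζE : IsPrimitiveRoot ζE (p ^ (n + 1))) (hζEM : algebraMap E' M ζE = ζ)
    (hE : ∀ σ : M ≃ₐ[K'] M, σ ζ = ζ → ∀ e : E', σ (algebraMap E' M e) = algebraMap E' M e)
    (hPG : IsPGroup p (L ≃ₐ[K'] L)) (x : FinIdele K)
    (γ : groupCohomology (ideleClassRep K L) 2)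
    (hγ : classInfl K L M 2 γ =
      cupδInv (ideleClassRep K M) (classInvHom K M (Additive.ofMul x)) (cycloQZ θ K hζ))
    (k : ℕ) (hk : k • classRes K K' L 2 γ = 0) :
    R.ω K x ^ (Module.finrank K K' * k) = 1 := by
  subst hζEM
  haveI : IsGalois L M := IsGalois.tower_top_of_isGalois K L M
  -- `Gal(M/K')` is a `p`-group
  have hPGM : IsPGroup p (M ≃ₐ[K'] M) := by
    obtain ⟨a, ha⟩ := IsPGroup.iff_card.mp hPG
    obtain ⟨b, hb⟩ := IsPGroup.iff_card.mp (isPGroup_gal_of_zeta hζ htop hη)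
    apply IsPGroup.of_card (n := a + b)
    rw [IsGalois.card_aut_eq_finrank, ← Module.finrank_mul_finrank K' L M,
      ← IsGalois.card_aut_eq_finrank K' L, ← IsGalois.card_aut_eq_finrank L M, ha, hb, pow_add]
  -- inflate the hypothesis to `M`
  have h1 : k • classRes K K' M 2 (classInfl K L M 2 γ) = 0 := by
    have h2 : classRes K K' M 2 (classInfl K L M 2 γ) =
        classInfl K' L M 2 (classRes K K' L 2 γ) := by
      rw [← ModuleCat.comp_apply, ← ModuleCat.comp_apply, classInfl_comp_classRes]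
    rw [h2, ← map_nsmul, hk, map_zero]
  rw [hγ, classRes, classCoh_cupδInv K K' (AlgHom.id K M) x (cycloQZ θ K hζ)] at h1
  have hchar : (cycloQZ θ K hζ).comp (galRes K K' (AlgHom.id K M)) = cycloQZ θ K' hζ :=
    cycloQZ_comp_galRes θ K K' (AlgHom.id K M) hζ hζ
  rw [hchar] at h1
  have h3 := pow_eq_one_of_nsmul_cupδInv_eq_zero hp2 R θ hθ K' E' M hζE hζ hE hPGM _ k h1
  rw [pow_mul, ← R.baseChange K K' x]
  exact h3

end assembly

section final

variable {p : ℕ} [hp : Fact p.Prime]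

/-- **CLAIM A (global class).** For a Galois extension `L/K` of number fields with `ζ_p ∈ L`
(`p` odd) there is a class `γ ∈ H²(Gal(L/K), C_L)` whose restriction to every `p`-subgroup `P`
of `Gal(L/K)` has order (a multiple of) `|P|`. -/
theorem exists_global_class (hp2 : p ≠ 2) (R : ∀ n, CycloRec p n) (K L : Type) [Field K]
    [NumberField K] [Field L] [NumberField L] [Algebra K L] [IsGalois K L]
    (hη : ∃ η : L, IsPrimitiveRoot η p) :
    ∃ γ : groupCohomology (ideleClassRep K L) 2, ∀ P : Subgroup (L ≃ₐ[K] L), IsPGroup p P →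
      ∀ k : ℕ, k • groupCohomology.map P.subtype (𝟙 (res P.subtype (ideleClassRep K L))) 2 γ = 0 →
        Nat.card P ∣ k := by
  -- the order of the group
  have hG0 : Nat.card (L ≃ₐ[K] L) ≠ 0 := Nat.card_pos.ne'
  obtain ⟨a', m, hm, hGm⟩ := Nat.exists_eq_pow_mul_and_not_dvd hG0 p hp.out.ne_one
  obtain ⟨n, x, hx⟩ := exists_orderOf_ω_eq hp2 R K a'
  haveI : NeZero (p ^ (n + 1)) := ⟨(pow_pos hp.out.pos _).ne'⟩
  obtain ⟨M, iF, iN, iA, iAL, iST, iG, ζ, hζ, htop⟩ := exists_cyclotomic_tower (p ^ (n + 1)) K L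
  -- an injective character of `(ℤ/p^(n+1))^×`
  haveI : IsCyclic (ZMod (p ^ (n + 1)))ˣ := ZMod.isCyclic_units_of_prime_pow p hp.out hp2 _
  obtain ⟨gA, hgA⟩ := IsCyclic.exists_generator (α := (ZMod (p ^ (n + 1)))ˣ)
  have hθ : ∀ u, cycChar hgA (Additive.ofMul u) = 0 → u = 1 :=
    fun u hu => (cycChar_eq_zero_iff hgA u).mp hu
  -- the global class
  have hxL : (R n).ω K x ^ Module.finrank K L = 1 := by
    rw [← IsGalois.card_aut_eq_finrank, hGm, pow_mul, ← hx, pow_orderOf_eq_one, one_pow]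
  obtain ⟨γ, hγ⟩ := exists_classInfl_eq_cupδInv hp2 (R n) K L M hζ htop hη x hxL
    (cycloQZ (cycChar hgA) K hζ)
  refine ⟨γ, fun P hP k hk => ?_⟩
  -- the fixed field of `P`
  have hrange : (galIncl K (IntermediateField.fixedField P) L).range = P := by
    ext σ
    rw [mem_range_galIncl_iff]
    conv_rhs => rw [← IntermediateField.fixingSubgroup_fixedField P]
    rw [IntermediateField.mem_fixingSubgroup_iff]
    constructor
    · intro h y hy
      exact h ⟨y, hy⟩
    · intro h y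
      exact h y y.2
  have hcardP : Module.finrank (IntermediateField.fixedField P) L = Nat.card P :=
    IntermediateField.finrank_fixedField_eq_card P
  haveI : IsGalois (IntermediateField.fixedField P) L := IsGalois.tower_top_of_isGalois K _ L
  haveI : IsGalois (IntermediateField.fixedField P) M := IsGalois.tower_top_of_isGalois K _ M
  have hPG : IsPGroup p (L ≃ₐ[IntermediateField.fixedField P] L) := by
    obtain ⟨a, ha⟩ := IsPGroup.iff_card.mp hP
    apply IsPGroup.of_card (n := a)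
    rw [IsGalois.card_aut_eq_finrank, hcardP, ha]
  -- the hypothesis in terms of `classRes`
  have hk' : k • classRes K (IntermediateField.fixedField P) L 2 γ = 0 := by
    have h1 : ∀ S : Subgroup (L ≃ₐ[K] L), S = P →
        k • groupCohomology.map S.subtype (𝟙 (res S.subtype (ideleClassRep K L))) 2 γ = 0 := by
      rintro S rfl
      exact hk
    rw [← res_comp_classResIso_hom, ModuleCat.comp_apply, ← map_nsmul, h1 _ hrange, map_zero]
  -- the field `E' = K'(ζ)`
  haveI hcycE : IsCyclotomicExtension {p ^ (n + 1)} (IntermediateField.fixedField P)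
      (IntermediateField.adjoin (IntermediateField.fixedField P) {ζ}) :=
    hζ.intermediateField_adjoin_isCyclotomicExtension _
  haveI : IsGalois (IntermediateField.fixedField P)
      (IntermediateField.adjoin (IntermediateField.fixedField P) {ζ}) :=
    IsCyclotomicExtension.isGalois {p ^ (n + 1)} _ _
  have hζE : IsPrimitiveRoot (⟨ζ, IntermediateField.mem_adjoin_simple_self _ ζ⟩ :
      IntermediateField.adjoin (IntermediateField.fixedField P) {ζ}) (p ^ (n + 1)) :=
    IsPrimitiveRoot.of_map_of_injective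
      (f := algebraMap (IntermediateField.adjoin (IntermediateField.fixedField P) {ζ}) M)
      (by exact hζ)
      (algebraMap (IntermediateField.adjoin (IntermediateField.fixedField P) {ζ}) M).injective
  have hE : ∀ σ : M ≃ₐ[IntermediateField.fixedField P] M, σ ζ = ζ →
      ∀ e : IntermediateField.adjoin (IntermediateField.fixedField P) {ζ},
        σ (algebraMap _ M e) = algebraMap _ M e := by
    intro σ hσ e
    obtain ⟨e, he⟩ := e
    change σ e = e
    induction he using IntermediateField.adjoin_induction with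
    | mem y hy => rw [Set.mem_singleton_iff.mp hy, hσ]
    | algebraMap y => exact σ.commutes y
    | add y z _ _ hy hz => rw [map_add, hy, hz]
    | inv y _ hy => rw [map_inv₀, hy]
    | mul y z _ _ hy hz => rw [map_mul, hy, hz]
  have key := pow_eq_one_of_nsmul_classRes_eq_zero hp2 (R n) (cycChar hgA) hθ K
    (IntermediateField.fixedField P) L M
    (IntermediateField.adjoin (IntermediateField.fixedField P) {ζ}) hζ htop hη hζE rfl hE hPG x γ
    hγ k hk'
  -- arithmetic
  have h1 : p ^ a' ∣ Module.finrank K (IntermediateField.fixedField P) * k := by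
    rw [← hx]
    exact orderOf_dvd_of_pow_eq_one key
  have h2 : Module.finrank K (IntermediateField.fixedField P) * Nat.card P = p ^ a' * m := by
    rw [← hcardP, Module.finrank_mul_finrank, ← hGm, IsGalois.card_aut_eq_finrank]
  obtain ⟨a, ha⟩ := IsPGroup.iff_card.mp hP
  rw [ha] at h2 ⊢
  have h3 : p ^ a' * p ^ a ∣ p ^ a' * (m * k) := by
    have h4 : p ^ a' * p ^ a ∣ Module.finrank K (IntermediateField.fixedField P) * k * p ^ a :=
      Nat.mul_dvd_mul_right h1 _
    have h5 : Module.finrank K (IntermediateField.fixedField P) * k * p ^ a =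
        p ^ a' * (m * k) := by
      rw [mul_right_comm, h2, mul_assoc]
    rwa [h5] at h4
  have h6 : p ^ a ∣ m * k := Nat.dvd_of_mul_dvd_mul_left (pow_pos hp.out.pos a') h3
  exact (Nat.Coprime.pow_left a ((Nat.Prime.coprime_iff_not_dvd hp.out).mpr hm)).dvd_of_dvd_mul_left
    h6

end final

end Fermat.Agent.CFT.PT4
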