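/-
CFT global part, S55 package PT4 (d), helper3: CLAIM A, unconditional form and corollaries
(`p` odd, `L/K` Galois number fields):
* `exists_globalClass`: if `ζ_p ∈ L` there is `γ ∈ H²(Gal(L/K), C_L)` whose restriction to every
  `p`-subgroup `P` has order a multiple of `|P|`;
* `card_H2_of_isPGroup`, `addOrderOf_res_globalClass`: `|H²(P, C_L)| = |P|`, generated by `res_P γ`;
* `exists_isFundamentalCocycle`: fundamental cocycles for `p`-extensions with `ζ_p ∈ K`;
* `eq_zero_of_pow_nsmul_H1`: `H¹(Gal(L/K), C_L)` has no `p`-torsion (no hypothesis on `ζ_p`);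
* `exists_pPrimary_generator`: `H²(Gal(L/K), C_L)(p)` is cyclic of order `|Gal(L/K)|_p`.
-/
import Fermat.Agent.CFT.Global.PT4d_helper3_ClaimA
import Fermat.Agent.CFT.Global.CYC_helper8_CycloRec
import Fermat.Agent.CFT.Coh.Nakayama_helper9

set_option autoImplicit false
set_option linter.unusedSectionVars false
set_option linter.style.haveILetI false

open scoped NumberField Pointwise
open CategoryTheory groupCohomology Rep
open Fermat.Agent.CFT.Coh Fermat.Agent.CFT.Local Fermat.Agent.CFT.Crossing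

namespace Fermat.Agent.CFT.PT4

section final

variable {p : ℕ} [hp : Fact p.Prime]

/-- **CLAIM A (global class), unconditional.** -/
theorem exists_globalClass (hp2 : p ≠ 2) (K L : Type) [Field K] [NumberField K] [Field L]
    [NumberField L] [Algebra K L] [IsGalois K L] (hη : ∃ η : L, IsPrimitiveRoot η p) :
    ∃ γ : groupCohomology (ideleClassRep K L) 2, ∀ P : Subgroup (L ≃ₐ[K] L), IsPGroup p P →
      ∀ k : ℕ, k • (resMap P (ideleClassRep K L) 2).hom γ = 0 → Nat.card P ∣ k :=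
  exists_global_class hp2 (fun n => cycloRec p n hp2) K L hη

end final

section cor

variable {p : ℕ} [hp : Fact p.Prime]

/-- A finite additive group with an element whose order is a multiple of `N`, and whose cardinality
divides `N`, is cyclic of order `N` generated by that element. -/
lemma card_eq_and_zmultiples_eq_top {X : Type*} [AddCommGroup X] (N : ℕ) (hN : N ≠ 0)
    (hcard : Nat.card X ∣ N) (y : X) (hy : ∀ k : ℕ, k • y = 0 → N ∣ k) :
    Nat.card X = N ∧ addOrderOf y = N ∧ AddSubgroup.zmultiples y = ⊤ := by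
  have hX0 : Nat.card X ≠ 0 := fun h0 => hN (by rw [h0, zero_dvd_iff] at hcard; exact hcard)
  haveI : Finite X := Nat.finite_of_card_ne_zero hX0
  have h1 : N ∣ addOrderOf y := hy _ (addOrderOf_nsmul_eq_zero y)
  have h2 : addOrderOf y ∣ Nat.card X := addOrderOf_dvd_natCard y
  have h3 : Nat.card X = N := Nat.dvd_antisymm hcard (h1.trans h2)
  have h4 : addOrderOf y = N := Nat.dvd_antisymm (h3 ▸ h2) h1
  refine ⟨h3, h4, ?_⟩
  apply AddSubgroup.eq_top_of_card_eq
  rw [Nat.card_zmultiples, h4, h3]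

variable (hp2 : p ≠ 2) (K L : Type) [Field K] [NumberField K] [Field L] [NumberField L]
  [Algebra K L] [IsGalois K L]

include hp2 in
/-- `|H²(P, C_L)| = |P|` for every `p`-subgroup `P` of `Gal(L/K)` when `ζ_p ∈ L`. -/
theorem card_H2_of_isPGroup (hη : ∃ η : L, IsPrimitiveRoot η p) (P : Subgroup (L ≃ₐ[K] L))
    (hP : IsPGroup p P) :
    Nat.card (groupCohomology (res P.subtype (ideleClassRep K L)) 2) = Nat.card P := by
  obtain ⟨γ, hγ⟩ := exists_globalClass hp2 K L hη
  obtain ⟨-, hdvd⟩ := isZero_H1_and_card_H2_dvd_of_isPGroup hp.out hp2 K L P hP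
  exact (card_eq_and_zmultiples_eq_top (Nat.card P) Nat.card_pos.ne' hdvd _ (hγ P hP)).1

include hp2 in
/-- **Fundamental cocycles for `p`-extensions** (`ζ_p ∈ K`, `p` odd): the idele class module of a
Galois `p`-extension `L/K` of number fields is a class module. -/
theorem exists_isFundamentalCocycle (hPG : IsPGroup p (L ≃ₐ[K] L))
    (hζ : ∃ ζ : K, IsPrimitiveRoot ζ p) :
    ∃ f : cocycles₂ (ideleClassRep K L), IsFundamentalCocycle (ideleClassRep K L) f := by
  have hη : ∃ η : L, IsPrimitiveRoot η p := by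
    obtain ⟨ζ, hζ⟩ := hζ
    exact ⟨algebraMap K L ζ, hζ.map_of_injective (algebraMap K L).injective⟩
  obtain ⟨γ, hγ⟩ := exists_globalClass hp2 K L hη
  obtain ⟨f, rfl⟩ := H2π_surjective' (ideleClassRep K L) γ
  refine ⟨f, isFundamentalCocycle_of_card (ideleClassRep K L) f
    (fun S => (isZero_H1_and_card_H2_dvd_of_isPGroup hp.out hp2 K L S (hPG.to_subgroup S)).1)
    (fun S => card_H2_of_isPGroup hp2 K L hη S (hPG.to_subgroup S)) ?_⟩
  -- `γ` generates `H²(G, C_L)`
  have htop : IsPGroup p (⊤ : Subgroup (L ≃ₐ[K] L)) := hPG.to_subgroup ⊤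
  have hcardG : Nat.card (groupCohomology (ideleClassRep K L) 2) =
      Nat.card (⊤ : Subgroup (L ≃ₐ[K] L)) := by
    rw [← card_groupCohomology_res_top (ideleClassRep K L) 2,
      card_H2_of_isPGroup hp2 K L hη ⊤ htop]
  have hy : ∀ k : ℕ, k • (H2π (ideleClassRep K L)).hom f = 0 →
      Nat.card (⊤ : Subgroup (L ≃ₐ[K] L)) ∣ k := by
    intro k hk
    apply hγ ⊤ htop k
    rw [← map_nsmul, hk, map_zero]
  obtain ⟨-, -, hgen⟩ := card_eq_and_zmultiples_eq_top (Nat.card (⊤ : Subgroup (L ≃ₐ[K] L)))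
    Nat.card_pos.ne' hcardG.dvd _ hy
  intro x
  have hx : x ∈ AddSubgroup.zmultiples ((H2π (ideleClassRep K L)).hom f) := by
    rw [hgen]; exact AddSubgroup.mem_top x
  obtain ⟨m, hm⟩ := AddSubgroup.mem_zmultiples_iff.mp hx
  exact ⟨m, hm.symm⟩

/-- A class killed by a power of `p` and by an integer prime to `p` vanishes. -/
lemma eq_zero_of_pow_nsmul_of_nsmul {X : Type*} [AddCommGroup X] (x : X) (k m : ℕ)
    (hk : p ^ k • x = 0) (hm : m • x = 0) (hpm : ¬ p ∣ m) : x = 0 := by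
  have h1 : addOrderOf x ∣ Nat.gcd (p ^ k) m :=
    Nat.dvd_gcd (addOrderOf_dvd_of_nsmul_eq_zero hk) (addOrderOf_dvd_of_nsmul_eq_zero hm)
  have h2 : Nat.Coprime (p ^ k) m :=
    Nat.Coprime.pow_left k ((Nat.Prime.coprime_iff_not_dvd hp.out).mpr hpm)
  rw [h2.gcd_eq_one, Nat.dvd_one] at h1
  exact AddMonoid.addOrderOf_eq_one_iff.mp h1

include hp2 in
/-- **(L1)** `H¹(Gal(L/K), C_L)` has no `p`-torsion (any Galois extension of number fields). -/
theorem eq_zero_of_pow_nsmul_H1 (x : groupCohomology (ideleClassRep K L) 1) (k : ℕ)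
    (hx : p ^ k • x = 0) : x = 0 := by
  obtain ⟨P⟩ : Nonempty (Sylow p (L ≃ₐ[K] L)) := inferInstance
  obtain ⟨h1, -⟩ := isZero_H1_and_card_H2_dvd_of_isPGroup hp.out hp2 K L (P : Subgroup _)
    P.isPGroup'
  haveI : Subsingleton (groupCohomology
      (res (P : Subgroup (L ≃ₐ[K] L)).subtype (ideleClassRep K L)) 1) :=
    ModuleCat.isZero_iff_subsingleton.mp h1
  have h2 : (resMap (P : Subgroup (L ≃ₐ[K] L)) (ideleClassRep K L) 1).hom x = 0 :=
    Subsingleton.elim _ _
  have h3 := index_nsmul_eq_zero_of_res_eq_zero_one (P : Subgroup (L ≃ₐ[K] L))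
    (ideleClassRep K L) x h2
  exact eq_zero_of_pow_nsmul_of_nsmul x k _ hx h3 P.not_dvd_index

include hp2 in
/-- **(L2)** `H²(Gal(L/K), C_L)(p)` is cyclic of order `|Gal(L/K)|_p` when `ζ_p ∈ L`: there is a
class `γ` of order `p^a = |Gal(L/K)|_p` such that every `p`-primary class is a multiple of `γ`. -/
theorem exists_pPrimary_generator (hη : ∃ η : L, IsPrimitiveRoot η p) :
    ∃ γ : groupCohomology (ideleClassRep K L) 2,
      addOrderOf γ = p ^ (Nat.card (L ≃ₐ[K] L)).factorization p ∧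
      ∀ x : groupCohomology (ideleClassRep K L) 2, (∃ k : ℕ, p ^ k • x = 0) →
        x ∈ AddSubgroup.zmultiples γ := by
  obtain ⟨P⟩ : Nonempty (Sylow p (L ≃ₐ[K] L)) := inferInstance
  have hPcard : Nat.card (P : Subgroup (L ≃ₐ[K] L)) =
      p ^ (Nat.card (L ≃ₐ[K] L)).factorization p := P.card_eq_multiplicity
  obtain ⟨γ₀, hγ₀⟩ := exists_globalClass hp2 K L hη
  obtain ⟨-, hdvd⟩ := isZero_H1_and_card_H2_dvd_of_isPGroup hp.out hp2 K L (P : Subgroup _)
    P.isPGroup'
  have hy := hγ₀ (P : Subgroup (L ≃ₐ[K] L)) P.isPGroup'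
  have hN : Nat.card (P : Subgroup (L ≃ₐ[K] L)) ≠ 0 := Nat.card_pos.ne'
  obtain ⟨hcardX, hord₀, hgen₀⟩ := card_eq_and_zmultiples_eq_top _ hN hdvd _ hy
  obtain ⟨m, hm⟩ : ∃ m : ℕ, m = (P : Subgroup (L ≃ₐ[K] L)).index := ⟨_, rfl⟩
  have hpm : ¬ p ∣ m := hm ▸ P.not_dvd_index
  have hPm : Nat.card (P : Subgroup (L ≃ₐ[K] L)) * m = Nat.card (L ≃ₐ[K] L) := by
    rw [hm]; exact (P : Subgroup (L ≃ₐ[K] L)).card_mul_index
  have hcop : Nat.Coprime m (Nat.card (P : Subgroup (L ≃ₐ[K] L))) := by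
    rw [hPcard]
    exact (Nat.Coprime.pow_left _ ((Nat.Prime.coprime_iff_not_dvd hp.out).mpr hpm)).symm
  -- the `p`-primary class
  refine ⟨m • γ₀, ?_, ?_⟩
  · -- its order
    rw [← hPcard]
    apply Nat.dvd_antisymm
    · apply addOrderOf_dvd_of_nsmul_eq_zero
      rw [← mul_smul, hPm]
      exact card_nsmul_groupCohomology_eq_zero (ideleClassRep K L) 1 γ₀
    · have h1 := hγ₀ (P : Subgroup _) P.isPGroup' (addOrderOf (m • γ₀) * m) (by
        rw [mul_smul, ← map_nsmul, ← map_nsmul, addOrderOf_nsmul_eq_zero, map_zero])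
      exact hcop.symm.dvd_of_dvd_mul_right h1
  · rintro x ⟨k, hk⟩
    -- `res_P x` is a multiple of `res_P (m • γ₀)`
    haveI : Finite (groupCohomology
        (res (P : Subgroup (L ≃ₐ[K] L)).subtype (ideleClassRep K L)) 2) :=
      Nat.finite_of_card_ne_zero (hcardX ▸ hN)
    have hgen : AddSubgroup.zmultiples
        ((resMap (P : Subgroup (L ≃ₐ[K] L)) (ideleClassRep K L) 2).hom (m • γ₀)) = ⊤ := by
      rw [map_nsmul]
      apply AddSubgroup.eq_top_of_card_eq
      rw [Nat.card_zmultiples, hcardX]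
      have h2 : addOrderOf (m • (resMap (P : Subgroup (L ≃ₐ[K] L)) (ideleClassRep K L) 2).hom γ₀) =
          addOrderOf ((resMap (P : Subgroup (L ≃ₐ[K] L)) (ideleClassRep K L) 2).hom γ₀) := by
        apply Nat.Coprime.addOrderOf_nsmul
        rw [hord₀]
        exact hcop.symm
      rw [h2, hord₀]
    have hx : (resMap (P : Subgroup (L ≃ₐ[K] L)) (ideleClassRep K L) 2).hom x ∈
        AddSubgroup.zmultiples
          ((resMap (P : Subgroup (L ≃ₐ[K] L)) (ideleClassRep K L) 2).hom (m • γ₀)) := by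
      rw [hgen]; exact AddSubgroup.mem_top _
    obtain ⟨j, hj⟩ := AddSubgroup.mem_zmultiples_iff.mp hx
    have h3 : (resMap (P : Subgroup (L ≃ₐ[K] L)) (ideleClassRep K L) 2).hom (x - j • (m • γ₀)) = 0 := by
      rw [map_sub, map_zsmul, hj, sub_self]
    have h4 := index_nsmul_eq_zero_of_res_eq_zero (P : Subgroup (L ≃ₐ[K] L)) 1
      (ideleClassRep K L) _ h3
    rw [← hm] at h4
    -- `x - j • γ` is `p`-primary
    have e1 : p ^ (k + (Nat.card (L ≃ₐ[K] L)).factorization p) • x = 0 := by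
      rw [pow_add, mul_comm, mul_smul, hk, smul_zero]
    have e2 : p ^ (k + (Nat.card (L ≃ₐ[K] L)).factorization p) • (m • γ₀) = 0 := by
      rw [pow_add, mul_smul, ← hPcard, ← mul_smul (Nat.card (P : Subgroup (L ≃ₐ[K] L))) m, hPm,
        card_nsmul_groupCohomology_eq_zero (ideleClassRep K L) 1 γ₀, smul_zero]
    have h5 : p ^ (k + (Nat.card (L ≃ₐ[K] L)).factorization p) • (x - j • (m • γ₀)) = 0 := by
      rw [smul_sub, e1, smul_comm, e2, zsmul_zero, sub_zero]
    have h6 := eq_zero_of_pow_nsmul_of_nsmul _ _ _ h5 h4 hpm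
    rw [sub_eq_zero] at h6
    rw [h6]
    exact AddSubgroup.zsmul_mem _ (AddSubgroup.mem_zmultiples _) j

end cor

end Fermat.Agent.CFT.PT4
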