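import Fermat.Agent.CFT.Global.G2a_helper6_Rational
import Fermat.Agent.CFT.Global.Defs_helper3

/-!
# CFT (G0.4): place-free integrality criterion in `ℚ_ℓ ⊗ F`

For `x : F`: `1 ⊗ x` is integral over `ℤ_ℓ` in `ℚ_ℓ ⊗ F` iff `v(x) ≤ 1` for all primes `v` of `𝓞 F`
above `ℓ`.
-/

set_option autoImplicit false

open IsDedekindDomain NumberField Polynomial
open scoped TensorProduct

namespace Fermat.Agent.CFT

open SUnit

section Easy

variable {F : Type*} [Field F] [NumberField F] (ℓ : Nat.Primes)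

/-- An integer prime to `ℓ` has valuation `1` at the primes above `ℓ`. -/
lemma valuation_intCast_eq_one_of_not_dvd {w : HeightOneSpectrum (𝓞 F)} (hw : w ∈ ratFiber F ℓ)
    {d : ℤ} (hd : ¬ ((ℓ : ℕ) : ℤ) ∣ d) : w.valuation F (d : F) = 1 := by
  have h1 : (d : F) = algebraMap (𝓞 F) F (d : 𝓞 F) := by simp
  rw [h1, HeightOneSpectrum.valuation_of_algebraMap, HeightOneSpectrum.intValuation_eq_one_iff]
  intro hdw
  have hcop : IsCoprime (((ℓ : ℕ) : ℤ)) d :=
    (Int.prime_iff_natAbs_prime.mpr (by simpa using ℓ.2)).coprime_iff_not_dvd.mpr hd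
  obtain ⟨a, b, hab⟩ := hcop
  apply w.isPrime.ne_top
  rw [Ideal.eq_top_iff_one]
  have h2 : ((a * ((ℓ : ℕ) : ℤ) + b * d : ℤ) : 𝓞 F) ∈ w.asIdeal := by
    push_cast
    exact Ideal.add_mem _ (Ideal.mul_mem_left _ _ hw) (Ideal.mul_mem_left _ _ hdw)
  rw [hab] at h2
  simpa using h2

/-- If `v(x) ≤ 1` at all primes above `ℓ`, then `d x` is integral for some `d` prime to `ℓ`. -/
theorem exists_not_dvd_isIntegral_smul {x : F}
    (hx : ∀ w ∈ ratFiber F ℓ, w.valuation F x ≤ 1) :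
    ∃ d : ℤ, ¬ ((ℓ : ℕ) : ℤ) ∣ d ∧ IsIntegral ℤ (d • x) := by
  obtain ⟨a, b, hb, rfl⟩ := IsFractionRing.div_surjective (A := 𝓞 F) x
  have hb0 : b ≠ 0 := nonZeroDivisors.ne_zero hb
  -- replace the denominator by a natural number
  set n : ℕ := Ideal.absNorm (Ideal.span {b}) with hn
  have hn0 : n ≠ 0 := by
    rw [hn, Ne, Ideal.absNorm_eq_zero_iff, Ideal.span_singleton_eq_bot]
    exact hb0
  have hnb : (n : 𝓞 F) ∈ Ideal.span {b} := Ideal.absNorm_mem _
  obtain ⟨b', hb'⟩ := Ideal.mem_span_singleton'.mp hnb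
  obtain ⟨k, d, hd, hnd⟩ := Nat.exists_eq_pow_mul_and_not_dvd hn0 (ℓ : ℕ) ℓ.2.ne_one
  refine ⟨(d : ℤ), by exact_mod_cast hd, ?_⟩
  have hbF : algebraMap (𝓞 F) F b ≠ 0 := by
    rw [Ne, map_eq_zero_iff _ (FaithfulSMul.algebraMap_injective (𝓞 F) F)]
    exact hb0
  have hℓF : ((ℓ : ℕ) : F) ≠ 0 := by exact_mod_cast ℓ.2.ne_zero
  -- `d * x = a * b' / ℓ^k`
  have key : ((d : ℤ) : F) * (algebraMap (𝓞 F) F a / algebraMap (𝓞 F) F b) =
      algebraMap (𝓞 F) F (a * b') / ((ℓ : ℕ) : F) ^ k := by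
    have h1 : (algebraMap (𝓞 F) F b') * (algebraMap (𝓞 F) F b) = ((ℓ : ℕ) : F) ^ k * (d : F) := by
      rw [← map_mul, hb', hnd]
      simp
    rw [← mul_div_assoc, div_eq_div_iff hbF (pow_ne_zero k hℓF), map_mul]
    push_cast
    linear_combination (-(algebraMap (𝓞 F) F a)) * h1
  have hmem : ((d : ℤ) : F) * (algebraMap (𝓞 F) F a / algebraMap (𝓞 F) F b) ∈
      (algebraMap (𝓞 F) F).range := by
    apply HeightOneSpectrum.mem_integers_of_valuation_le_one
    intro v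
    by_cases hv : v ∈ ratFiber F ℓ
    · rw [map_mul, valuation_intCast_eq_one_of_not_dvd ℓ hv (by exact_mod_cast hd), one_mul]
      exact hx v hv
    · rw [key, map_div₀, map_pow]
      have h1 : v.valuation F ((ℓ : ℕ) : F) = 1 := by
        have h2 : ((ℓ : ℕ) : F) = algebraMap (𝓞 F) F ((ℓ : ℕ) : 𝓞 F) := by simp
        rw [h2, HeightOneSpectrum.valuation_of_algebraMap,
          HeightOneSpectrum.intValuation_eq_one_iff]
        exact hv
      rw [h1, one_pow, div_one]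
      exact v.valuation_le_one _
  obtain ⟨y, hy⟩ := hmem
  rw [zsmul_eq_mul, ← hy]
  exact RingOfIntegers.isIntegral_coe y

/-- **Integrality criterion, easy direction.** -/
theorem of_mem_integers_of_valuation_le_one {x : F}
    (hx : ∀ w ∈ ratFiber F ℓ, w.valuation F x ≤ 1) :
    SemiLocal.of (ℓ : ℕ) F x ∈ SemiLocal.integers (ℓ : ℕ) F := by
  obtain ⟨d, hd, hint⟩ := exists_not_dvd_isIntegral_smul ℓ hx
  exact SemiLocal.of_mem_integers_of_not_dvd (ℓ : ℕ) hint hd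

end Easy

section General

variable {K K' A : Type*} [Field K] [Field K'] [Algebra K K'] [CommRing A] [Algebra K A]

lemma aeval_one_tmul_map (x : A) (p : K[X]) :
    aeval ((1 : K') ⊗ₜ[K] x) (p.map (algebraMap K K')) = (1 : K') ⊗ₜ[K] (aeval x p) := by
  rw [aeval_map_algebraMap]
  exact aeval_algHom_apply (Algebra.TensorProduct.includeRight : A →ₐ[K] K' ⊗[K] A) x p

/-- The minimal polynomial of `x` over `K`, mapped to `K'`, divides every polynomial over `K'`
killing `1 ⊗ x`. -/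
theorem map_minpoly_dvd_of_aeval_one_tmul {x : A} (hx : IsIntegral K x) {G : K'[X]}
    (hG : aeval ((1 : K') ⊗ₜ[K] x) G = 0) : (minpoly K x).map (algebraMap K K') ∣ G := by
  have hM : ((minpoly K x).map (algebraMap K K')).Monic := (minpoly.monic hx).map _
  have hMx : aeval ((1 : K') ⊗ₜ[K] x) ((minpoly K x).map (algebraMap K K')) = 0 := by
    rw [aeval_one_tmul_map, minpoly.aeval, TensorProduct.tmul_zero]
  rw [← modByMonic_eq_zero_iff_dvd hM]
  set r := G %ₘ ((minpoly K x).map (algebraMap K K')) with hr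
  have hrx : aeval ((1 : K') ⊗ₜ[K] x) r = 0 := by
    have h1 := modByMonic_add_div G ((minpoly K x).map (algebraMap K K'))
    have h2 := congrArg (aeval ((1 : K') ⊗ₜ[K] x)) h1
    rw [map_add, map_mul, hMx, zero_mul, add_zero, hG] at h2
    exact h2
  have hdeg : r.degree < ((minpoly K x).natDegree : WithBot ℕ) := by
    have := degree_modByMonic_lt G hM
    rw [degree_eq_natDegree hM.ne_zero, natDegree_map] at this
    exact this
  by_cases hr0 : r = 0
  · exact hr0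
  have hnat : r.natDegree < (minpoly K x).natDegree := by
    rw [degree_eq_natDegree hr0] at hdeg
    exact_mod_cast hdeg
  have hli := Module.Flat.linearIndependent_one_tmul (S := K') (linearIndependent_pow (K := K) x)
  rw [Fintype.linearIndependent_iff] at hli
  have hsum : ∑ i : Fin (minpoly K x).natDegree, r.coeff (i : ℕ) • ((1 : K') ⊗ₜ[K] (x ^ (i : ℕ))) = 0 := by
    rw [Fin.sum_univ_eq_sum_range (fun i => r.coeff i • ((1 : K') ⊗ₜ[K] (x ^ i)))]
    rw [aeval_eq_sum_range' hnat] at hrx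
    rw [← hrx]
    refine Finset.sum_congr rfl fun i _ => ?_
    rw [Algebra.TensorProduct.tmul_pow, one_pow]
  have hcoeff := hli (fun i => r.coeff (i : ℕ)) hsum
  ext i
  rw [coeff_zero]
  by_cases hi : i < (minpoly K x).natDegree
  · exact hcoeff ⟨i, hi⟩
  · exact coeff_eq_zero_of_natDegree_lt (by omega)

end General

section Hard

variable {F : Type*} [Field F] [NumberField F] (ℓ : Nat.Primes)

/-- A rational number which is an `ℓ`-adic integer has valuation `≤ 1` at the primes above `ℓ`. -/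
lemma valuation_ratCast_le_one_of_norm_le_one {w : HeightOneSpectrum (𝓞 F)}
    (hw : w ∈ ratFiber F ℓ) {q : ℚ} (hq : ‖(q : ℚ_[(ℓ : ℕ)])‖ ≤ 1) :
    w.valuation F (q : F) ≤ 1 := by
  have hden : ¬ ((ℓ : ℕ) : ℤ) ∣ (q.den : ℤ) := by
    intro hdvd
    have hdvd' : (ℓ : ℕ) ∣ q.den := by exact_mod_cast hdvd
    have hnum : ¬ ((ℓ : ℕ) : ℤ) ∣ q.num := by
      intro h
      have h1 : (ℓ : ℕ) ∣ q.num.natAbs := Int.natCast_dvd.mp h
      have h2 := Nat.dvd_gcd h1 hdvd'
      rw [q.reduced] at h2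
      exact ℓ.2.one_lt.ne' (Nat.dvd_one.mp h2)
    have h3 : ‖((q.num : ℤ) : ℚ_[(ℓ : ℕ)])‖ = 1 := by
      have := (Padic.norm_intCast_lt_one_iff (p := (ℓ : ℕ)) (k := q.num)).not.mpr hnum
      exact le_antisymm (Padic.norm_int_le_one _) (not_lt.mp this)
    have h4 : ‖((q.den : ℤ) : ℚ_[(ℓ : ℕ)])‖ < 1 :=
      (Padic.norm_intCast_lt_one_iff (p := (ℓ : ℕ))).mpr hdvd
    have h5 : (q : ℚ_[(ℓ : ℕ)]) * ((q.den : ℤ) : ℚ_[(ℓ : ℕ)]) = ((q.num : ℤ) : ℚ_[(ℓ : ℕ)]) := by
      have := Rat.mul_den_eq_num q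
      exact_mod_cast congrArg (fun t : ℚ => (t : ℚ_[(ℓ : ℕ)])) this
    have h7 := congrArg norm h5
    rw [norm_mul, h3] at h7
    have h8 : ‖(q : ℚ_[(ℓ : ℕ)])‖ * ‖((q.den : ℤ) : ℚ_[(ℓ : ℕ)])‖ < 1 := by
      calc ‖(q : ℚ_[(ℓ : ℕ)])‖ * ‖((q.den : ℤ) : ℚ_[(ℓ : ℕ)])‖ 
          ≤ 1 * ‖((q.den : ℤ) : ℚ_[(ℓ : ℕ)])‖ := by gcongr
        _ < 1 := by rw [one_mul]; exact h4
    rw [h7] at h8
    exact lt_irrefl _ h8
  have h1 : (q : F) * ((q.den : ℤ) : F) = ((q.num : ℤ) : F) := by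
    have := Rat.mul_den_eq_num q
    exact_mod_cast congrArg (fun t : ℚ => (t : F)) this
  have h2 := congrArg (w.valuation F) h1
  rw [map_mul, valuation_intCast_eq_one_of_not_dvd ℓ hw hden, mul_one] at h2
  rw [h2]
  have h3 : ((q.num : ℤ) : F) = algebraMap (𝓞 F) F ((q.num : ℤ) : 𝓞 F) := by simp
  rw [h3]
  exact w.valuation_le_one _

/-- **Integrality criterion, hard direction.** -/
theorem valuation_le_one_of_isIntegral {x : F}
    (hx : IsIntegral ℤ_[(ℓ : ℕ)] (SemiLocal.of (ℓ : ℕ) F x)) {w : HeightOneSpectrum (𝓞 F)}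
    (hw : w ∈ ratFiber F ℓ) : w.valuation F x ≤ 1 := by
  obtain ⟨g, hgm, hg⟩ := hx
  have hxint : IsIntegral ℚ x := Algebra.IsIntegral.isIntegral x
  -- the minimal polynomial divides `g` over `ℚ_ℓ`
  have hG : aeval ((1 : ℚ_[(ℓ : ℕ)]) ⊗ₜ[ℚ] x) (g.map (algebraMap ℤ_[(ℓ : ℕ)] ℚ_[(ℓ : ℕ)])) = 0 := by
    rw [aeval_map_algebraMap, aeval_def]
    exact hg
  have hdvd := map_minpoly_dvd_of_aeval_one_tmul hxint hG
  obtain ⟨g', hg'⟩ := IsIntegrallyClosed.eq_map_mul_C_of_dvd ℚ_[(ℓ : ℕ)] hgm hdvd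
  have hmonic : ((minpoly ℚ x).map (algebraMap ℚ ℚ_[(ℓ : ℕ)])).Monic := (minpoly.monic hxint).map _
  rw [hmonic.leadingCoeff, C_1, mul_one] at hg'
  -- the coefficients of the minimal polynomial are `ℓ`-adic integers
  have hcoeff : ∀ i, ‖(((minpoly ℚ x).coeff i : ℚ) : ℚ_[(ℓ : ℕ)])‖ ≤ 1 := by
    intro i
    have h1 := congrArg (fun p => p.coeff i) hg'
    simp only [coeff_map] at h1
    have h2 : (((minpoly ℚ x).coeff i : ℚ) : ℚ_[(ℓ : ℕ)]) = algebraMap ℚ ℚ_[(ℓ : ℕ)] ((minpoly ℚ x).coeff i) := by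
      simp
    rw [h2, ← h1]
    exact PadicInt.norm_le_one _
  -- hence `x` is integral over the valuation ring of `w`
  set v := w.valuation F with hv
  have hsub : (↑((minpoly ℚ x).map (algebraMap ℚ F)).coeffs : Set F) ⊆ v.integer := by
    intro c hc
    rw [Finset.mem_coe, mem_coeffs_iff] at hc
    obtain ⟨n, -, rfl⟩ := hc
    rw [coeff_map]
    have h2 : algebraMap ℚ F ((minpoly ℚ x).coeff n) = (((minpoly ℚ x).coeff n : ℚ) : F) := by
      simp
    rw [h2]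
    exact valuation_ratCast_le_one_of_norm_le_one ℓ hw (hcoeff n)
  have hint : IsIntegral v.integer x := by
    refine ⟨((minpoly ℚ x).map (algebraMap ℚ F)).toSubring v.integer hsub, ?_, ?_⟩
    · rw [monic_toSubring]
      exact (minpoly.monic hxint).map _
    · rw [eval₂_eq_eval_map]
      have : (((minpoly ℚ x).map (algebraMap ℚ F)).toSubring v.integer hsub).map
          (algebraMap v.integer F) = (minpoly ℚ x).map (algebraMap ℚ F) :=
        map_toSubring _ _ hsub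
      rw [this, eval_map_algebraMap, minpoly.aeval]
  exact (Valuation.integer.integers v).mem_of_integral hint

end Hard

section Iff

variable {F : Type*} [Field F] [NumberField F] (ℓ : Nat.Primes)

/-- **Place-free integrality criterion**: `1 ⊗ x ∈ ℚ_ℓ ⊗ F` is integral over `ℤ_ℓ` iff `x` is
integral at all primes of `F` above `ℓ`. -/
theorem of_mem_integers_iff {x : F} :
    SemiLocal.of (ℓ : ℕ) F x ∈ SemiLocal.integers (ℓ : ℕ) F ↔
      ∀ w ∈ ratFiber F ℓ, w.valuation F x ≤ 1 :=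
  ⟨fun h _ hw => valuation_le_one_of_isIntegral ℓ h hw, of_mem_integers_of_valuation_le_one ℓ⟩

/-- `1 ⊗ a` is a unit of the maximal order of `ℚ_ℓ ⊗ F` iff `a` is a unit at all primes of `F`
above `ℓ`. -/
theorem ofUnits_mem_unitGroup_iff {a : Fˣ} :
    SemiLocal.ofUnits (ℓ : ℕ) a ∈ SemiLocal.unitGroup (ℓ : ℕ) F ↔
      ∀ w ∈ ratFiber F ℓ, w.valuation F (a : F) = 1 := by
  rw [SemiLocal.mem_unitGroup_iff, ← map_inv, SemiLocal.coe_ofUnits, SemiLocal.coe_ofUnits,
    ← SemiLocal.mem_integers_iff, ← SemiLocal.mem_integers_iff, of_mem_integers_iff,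
    of_mem_integers_iff, ← forall₂_and]
  refine forall₂_congr fun w _ => ?_
  rw [Units.val_inv_eq_inv_val, map_inv₀]
  have h0 : w.valuation F (a : F) ≠ 0 := (Valuation.ne_zero_iff _).mpr a.ne_zero
  constructor
  · rintro ⟨h1, h2⟩
    exact le_antisymm h1 ((inv_le_one₀ (zero_lt_iff.mpr h0)).mp h2)
  · intro h
    rw [h, inv_one]
    exact ⟨le_rfl, le_rfl⟩

end Iff

end Fermat.Agent.CFT
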