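import Fermat.Agent.CFT.Global.Defs_helper3

/-!
# CFT (G5c): the cyclotomic norm computation

For an odd prime `p`, `r ≥ 0` and a number field `E` with
`IsCyclotomicExtension {p ^ (r + 1)} ℚ E`, every norm from `(ℚ_p ⊗ E)ˣ` to `ℚ_p` lies in
`p^ℤ · (1 + p^{r+1} ℤ_p)` (`norm_unit_eq`, `semiLocal_norm_unit_eq`).

Proof: an element of `ℚ_p ⊗ E` with `ℤ_p`-integral coordinates (w.r.t. `1 ⊗ ωᵢ`, `ωᵢ` an integral
basis) is `p`-adically close to `1 ⊗ y₀` for a global integer `y₀`, and the norms are then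
congruent (`exists_norm_eq_add`, determinants modulo `p^M`); the norm of a nonzero global integer
is `p^k · a` with `a ≡ 1 mod p^{r+1}` since every prime `𝔮 ∤ p` of `ℤ[ζ_{p^{r+1}}]` has
`N𝔮 ≡ 1 mod p^{r+1}` and the field is totally complex (`exists_intNorm_eq`).
-/

open NumberField InfinitePlace ComplexEmbedding
open scoped TensorProduct

namespace Fermat.Agent.CFT.G5c

section positivity

variable {K : Type*} [Field K] [NumberField K]

/-- In a totally complex number field the norm of a nonzero element is positive. -/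
theorem norm_pos_of_isTotallyComplex [IsTotallyComplex K] {x : K} (hx : x ≠ 0) :
    0 < Algebra.norm ℚ x := by
  classical
  have h1 : (algebraMap ℚ ℂ (Algebra.norm ℚ x)) = ∏ φ : K →+* ℂ, φ x := by
    rw [Algebra.norm_eq_prod_embeddings ℚ ℂ x]
    exact (Fintype.prod_equiv (RingHom.equivRatAlgHom K ℂ) (fun f => f x)
      (fun φ => φ x) fun _ => by simp [RingHom.equivRatAlgHom_apply]).symm
  have h2 : ∏ φ : K →+* ℂ, φ x = ((∏ w : InfinitePlace K, (w x) ^ 2 : ℝ) : ℂ) := by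
    rw [← Finset.prod_fiberwise Finset.univ InfinitePlace.mk (fun φ => φ x)]
    push_cast
    refine Finset.prod_congr rfl fun w _ => ?_
    have hw : w.IsComplex := IsTotallyComplex.isComplex w
    have hne : w.embedding ≠ conjugate w.embedding := by
      intro h
      exact (isComplex_iff.1 hw) (ComplexEmbedding.isReal_iff.2 h.symm)
    have hfib : (Finset.univ.filter fun φ : K →+* ℂ => InfinitePlace.mk φ = w) =
        {w.embedding, conjugate w.embedding} := by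
      ext φ
      simp only [Finset.mem_filter, Finset.mem_univ, true_and, Finset.mem_insert,
        Finset.mem_singleton]
      constructor
      · intro h
        rw [← mk_embedding w, eq_comm, mk_eq_iff] at h
        rcases h with h | h
        · exact Or.inl h.symm
        · exact Or.inr h.symm
      · rintro (h | h)
        · rw [h, mk_embedding]
        · rw [h, mk_conjugate_eq, mk_embedding]
    rw [hfib, Finset.prod_pair hne, conjugate_coe_eq, Complex.mul_conj, Complex.normSq_eq_norm_sq,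
      norm_embedding_eq]
    push_cast
    rfl
  have h3 : (0 : ℝ) < ∏ w : InfinitePlace K, (w x) ^ 2 :=
    Finset.prod_pos fun w _ => pow_pos (InfinitePlace.pos_iff.2 hx) 2
  have h4 : ((Algebra.norm ℚ x : ℚ) : ℂ) = ((∏ w : InfinitePlace K, (w x) ^ 2 : ℝ) : ℂ) := by
    rw [← h2, ← h1]; simp
  have h5 : ((Algebra.norm ℚ x : ℚ) : ℝ) = ∏ w : InfinitePlace K, (w x) ^ 2 := by
    exact_mod_cast h4
  have : (0 : ℝ) < ((Algebra.norm ℚ x : ℚ) : ℝ) := h5 ▸ h3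
  exact_mod_cast this

end positivity

section global

variable (p : ℕ) [hp : Fact p.Prime] (r : ℕ) {E : Type*} [Field E] [NumberField E]
  [hE : IsCyclotomicExtension {p ^ (r + 1)} ℚ E]

/-- A nonzero prime of `ℤ[ζ_{p^{r+1}}]` not containing `p` has norm `≡ 1 mod p^{r+1}`. -/
theorem absNorm_prime_modEq_one (𝔮 : Ideal (𝓞 E)) [h𝔮 : 𝔮.IsPrime] (h0 : 𝔮 ≠ ⊥)
    (hp𝔮 : (p : 𝓞 E) ∉ 𝔮) : Ideal.absNorm 𝔮 ≡ 1 [MOD p ^ (r + 1)] := by
  classical
  have hmax : 𝔮.IsMaximal := h𝔮.isMaximal h0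
  letI : Field (𝓞 E ⧸ 𝔮) := Ideal.Quotient.field 𝔮
  haveI : Finite (𝓞 E ⧸ 𝔮) := Ideal.finiteQuotientOfFreeOfNeBot 𝔮 h0
  letI : Fintype (𝓞 E ⧸ 𝔮) := Fintype.ofFinite _
  have hcard : Ideal.absNorm 𝔮 = Fintype.card (𝓞 E ⧸ 𝔮) := by
    rw [Ideal.absNorm_apply, Submodule.cardQuot_apply, Nat.card_eq_fintype_card]
  have hζ := (IsCyclotomicExtension.zeta_spec (p ^ (r + 1)) ℚ E).toInteger_isPrimitiveRoot
  set ζ : 𝓞 E := (IsCyclotomicExtension.zeta_spec (p ^ (r + 1)) ℚ E).toInteger with hζdef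
  set z : 𝓞 E ⧸ 𝔮 := Ideal.Quotient.mk 𝔮 ζ with hz
  have hz1 : z ^ p ^ (r + 1) = 1 := by
    rw [hz, ← map_pow, hζ.pow_eq_one, map_one]
  have hz2 : ¬ z ^ p ^ r = 1 := by
    intro h
    -- η = ζ^(p^r) is a primitive p-th root of unity
    have hη : IsPrimitiveRoot (ζ ^ p ^ r) p :=
      hζ.pow (pow_pos hp.out.pos _) (by rw [pow_succ])
    have hsum := hη.geom_sum_eq_zero hp.out.one_lt
    have := congr_arg (Ideal.Quotient.mk 𝔮) hsum
    rw [map_sum, map_zero] at this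
    simp only [map_pow] at this
    rw [← hz, h] at this
    simp only [one_pow, Finset.sum_const, Finset.card_range, nsmul_eq_mul, mul_one] at this
    apply hp𝔮
    rw [← Ideal.Quotient.eq_zero_iff_mem, map_natCast]
    exact this
  have hord : orderOf z = p ^ (r + 1) := orderOf_eq_prime_pow hz2 hz1
  have hz0 : z ≠ 0 := by
    intro h0'
    rw [h0', zero_pow (pow_ne_zero _ hp.out.ne_zero)] at hz1
    exact zero_ne_one hz1
  have hdvd : p ^ (r + 1) ∣ Fintype.card (𝓞 E ⧸ 𝔮) - 1 := by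
    rw [← hord]
    exact orderOf_dvd_of_pow_eq_one (FiniteField.pow_card_sub_one_eq_one z hz0)
  rw [hcard]
  have hpos : 1 ≤ Fintype.card (𝓞 E ⧸ 𝔮) := Fintype.card_pos
  exact ((Nat.modEq_iff_dvd' hpos).2 hdvd).symm

/-- The norm of a prime ideal containing `p` is a power of `p`. -/
theorem absNorm_prime_eq_pow (𝔮 : Ideal (𝓞 E)) [h𝔮 : 𝔮.IsPrime] (h0 : 𝔮 ≠ ⊥)
    (hp𝔮 : (p : 𝓞 E) ∈ 𝔮) : ∃ f : ℕ, Ideal.absNorm 𝔮 = p ^ f := by
  classical
  have hmax : 𝔮.IsMaximal := h𝔮.isMaximal h0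
  let _ : Field (𝓞 E ⧸ 𝔮) := Ideal.Quotient.field 𝔮
  have : Finite (𝓞 E ⧸ 𝔮) := Ideal.finiteQuotientOfFreeOfNeBot 𝔮 h0
  let _ : Fintype (𝓞 E ⧸ 𝔮) := Fintype.ofFinite _
  have hcard : Ideal.absNorm 𝔮 = Fintype.card (𝓞 E ⧸ 𝔮) := by
    rw [Ideal.absNorm_apply, Submodule.cardQuot_apply, Nat.card_eq_fintype_card]
  have : CharP (𝓞 E ⧸ 𝔮) p := by
    refine (CharP.charP_iff_prime_eq_zero hp.out).2 ?_
    rw [← map_natCast (Ideal.Quotient.mk 𝔮), Ideal.Quotient.eq_zero_iff_mem]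
    exact hp𝔮
  obtain ⟨n, -, hn⟩ := FiniteField.card (𝓞 E ⧸ 𝔮) p
  exact ⟨n, hcard.trans hn⟩

/-- The norm of a nonzero ideal of `ℤ[ζ_{p^{r+1}}]` is `p^k · a` with `a ≡ 1 mod p^{r+1}`. -/
theorem exists_absNorm_eq (I : Ideal (𝓞 E)) (hI : I ≠ ⊥) :
    ∃ k a : ℕ, a ≡ 1 [MOD p ^ (r + 1)] ∧ Ideal.absNorm I = p ^ k * a := by
  classical
  revert hI
  refine UniqueFactorizationMonoid.induction_on_prime I (fun h => (h rfl).elim) ?_ ?_
  · intro x hx _
    rw [Ideal.isUnit_iff] at hx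
    exact ⟨0, 1, Nat.ModEq.refl _, by rw [hx]; simp⟩
  · intro a q ha hq ih hqa
    obtain ⟨k, b, hb, hab⟩ := ih ha
    have hq0 : q ≠ ⊥ := hq.ne_zero
    have hqp : q.IsPrime := Ideal.isPrime_of_prime hq
    rw [map_mul, hab]
    by_cases hpq : (p : 𝓞 E) ∈ q
    · obtain ⟨f, hf⟩ := absNorm_prime_eq_pow p q hq0 hpq
      exact ⟨f + k, b, hb, by rw [hf, pow_add]; ring⟩
    · have := absNorm_prime_modEq_one p r q hq0 hpq
      refine ⟨k, Ideal.absNorm q * b, ?_, by ring⟩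
      simpa using this.mul hb

/-- For `p` odd, the norm of a nonzero integer of `ℚ(ζ_{p^{r+1}})` is `p^k · a`,
`a ≡ 1 mod p^{r+1}`. -/
theorem exists_intNorm_eq (hp2 : p ≠ 2) (x : 𝓞 E) (hx : x ≠ 0) :
    ∃ k a : ℕ, a ≡ 1 [MOD p ^ (r + 1)] ∧ Algebra.norm ℤ x = (p : ℤ) ^ k * a := by
  have h2 : 2 < p ^ (r + 1) := by
    have h3 : 3 ≤ p := by
      have := hp.out.two_le
      omega
    calc 2 < p := by omega
      _ = p ^ 1 := (pow_one p).symm
      _ ≤ p ^ (r + 1) := Nat.pow_le_pow_right hp.out.pos (by omega)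
  have : IsTotallyComplex E := IsCyclotomicExtension.Rat.isTotallyComplex E h2
  have hxE : (x : E) ≠ 0 := by simpa using hx
  have hpos : (0 : ℚ) < Algebra.norm ℚ (x : E) := norm_pos_of_isTotallyComplex hxE
  rw [← Algebra.coe_norm_int] at hpos
  have hposZ : 0 < Algebra.norm ℤ x := by exact_mod_cast hpos
  obtain ⟨k, a, ha, hka⟩ := exists_absNorm_eq p r (Ideal.span {x})
    (by simpa [Ideal.span_singleton_eq_bot] using hx)
  refine ⟨k, a, ha, ?_⟩
  rw [Ideal.absNorm_span_singleton] at hka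
  have : ((Algebra.norm ℤ x).natAbs : ℤ) = Algebra.norm ℤ x := Int.natAbs_of_nonneg hposZ.le
  rw [← this, hka]
  push_cast
  rfl

end global

section approximation

variable (p : ℕ) [hp : Fact p.Prime] (E : Type*) [Field E] [NumberField E]

/-- The `ℚ_p`-basis `1 ⊗ ωᵢ` of `ℚ_p ⊗ E` attached to an integral basis `ωᵢ` of `E`. -/
noncomputable def tBasis :
    Module.Basis (Module.Free.ChooseBasisIndex ℤ (𝓞 E)) ℚ_[p] (ℚ_[p] ⊗[ℚ] E) :=
  Algebra.TensorProduct.basis ℚ_[p] (integralBasis E)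

lemma tBasis_apply (k : Module.Free.ChooseBasisIndex ℤ (𝓞 E)) :
    tBasis p E k = (1 : ℚ_[p]) ⊗ₜ[ℚ] ((RingOfIntegers.basis E k : 𝓞 E) : E) := by
  rw [tBasis, Algebra.TensorProduct.basis_apply, integralBasis_apply]

open Classical in
/-- Left multiplication by `1 ⊗ x`, `x` integral, has an integer matrix. -/
lemma leftMulMatrix_one_tmul (x : 𝓞 E) :
    Algebra.leftMulMatrix (tBasis p E) ((1 : ℚ_[p]) ⊗ₜ[ℚ] (x : E)) =
      (Algebra.leftMulMatrix (RingOfIntegers.basis E) x).map (fun z : ℤ => (z : ℚ_[p])) := by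
  ext i j
  rw [Algebra.leftMulMatrix_eq_repr_mul, Matrix.map_apply, Algebra.leftMulMatrix_eq_repr_mul,
    tBasis_apply, Algebra.TensorProduct.tmul_mul_tmul, one_mul, tBasis,
    Algebra.TensorProduct.basis_repr_tmul, one_smul, Finsupp.mapRange_apply]
  have : (x : E) * ((RingOfIntegers.basis E j : 𝓞 E) : E) =
      algebraMap (𝓞 E) E (x * RingOfIntegers.basis E j) := by simp
  rw [this, integralBasis_repr_apply]
  simp

open Classical in
lemma norm_one_tmul (x : 𝓞 E) :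
    Algebra.norm ℚ_[p] ((1 : ℚ_[p]) ⊗ₜ[ℚ] (x : E)) = ((Algebra.norm ℤ x : ℤ) : ℚ_[p]) := by
  rw [Algebra.norm_eq_matrix_det (tBasis p E), leftMulMatrix_one_tmul,
    Algebra.norm_eq_matrix_det (RingOfIntegers.basis E)]
  exact ((Int.castRingHom ℚ_[p]).map_det _).symm

open Classical in
/-- Elements with `ℤ_p`-integral coordinates have a `ℤ_p`-integral multiplication matrix. -/
lemma exists_leftMulMatrix_eq_map (γ : Module.Free.ChooseBasisIndex ℤ (𝓞 E) → ℤ_[p]) :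
    ∃ D : Matrix (Module.Free.ChooseBasisIndex ℤ (𝓞 E)) (Module.Free.ChooseBasisIndex ℤ (𝓞 E)) ℤ_[p],
      Algebra.leftMulMatrix (tBasis p E) (∑ k, (γ k : ℚ_[p]) • tBasis p E k) =
        D.map (fun z : ℤ_[p] => (z : ℚ_[p])) := by
  refine ⟨∑ k, γ k • ((Algebra.leftMulMatrix (RingOfIntegers.basis E)
    (RingOfIntegers.basis E k)).map (fun z : ℤ => (z : ℤ_[p])) :
      Matrix (Module.Free.ChooseBasisIndex ℤ (𝓞 E)) (Module.Free.ChooseBasisIndex ℤ (𝓞 E)) ℤ_[p]), ?_⟩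
  rw [map_sum]
  ext i j
  simp only [map_smul, Matrix.sum_apply, Matrix.smul_apply, Matrix.map_apply, smul_eq_mul]
  rw [PadicInt.coe_sum]
  refine Finset.sum_congr rfl fun k _ => ?_
  rw [tBasis_apply, leftMulMatrix_one_tmul, Matrix.map_apply]
  push_cast
  rfl

/-- `det (A + c • D) ≡ det A mod c`. -/
lemma det_add_smul_eq {R ι : Type*} [CommRing R] [Fintype ι] [DecidableEq ι]
    (A D : Matrix ι ι R) (c : R) : ∃ w : R, (A + c • D).det = A.det + c * w := by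
  have h : Ideal.Quotient.mk (Ideal.span {c}) ((A + c • D).det - A.det) = 0 := by
    rw [map_sub, RingHom.map_det, RingHom.map_det, sub_eq_zero]
    congr 1
    ext i j
    simp only [RingHom.mapMatrix_apply, Matrix.map_apply, Matrix.add_apply, Matrix.smul_apply,
      smul_eq_mul, map_add, map_mul]
    have : Ideal.Quotient.mk (Ideal.span {c}) c = 0 :=
      Ideal.Quotient.eq_zero_iff_mem.2 (Ideal.mem_span_singleton_self c)
    rw [this, zero_mul, add_zero]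
  rw [Ideal.Quotient.eq_zero_iff_mem, Ideal.mem_span_singleton] at h
  obtain ⟨w, hw⟩ := h
  exact ⟨w, by rw [← hw]; ring⟩

open Classical in
/-- Approximation: an element of `ℚ_p ⊗ E` with `ℤ_p`-integral coordinates has norm congruent
modulo `p^M` to the norm of a global integer. -/
theorem exists_norm_eq_add (γ : Module.Free.ChooseBasisIndex ℤ (𝓞 E) → ℤ_[p]) (M : ℕ) :
    ∃ (y₀ : 𝓞 E) (w : ℤ_[p]),
      Algebra.norm ℚ_[p] (∑ k, (γ k : ℚ_[p]) • tBasis p E k) =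
        ((Algebra.norm ℤ y₀ : ℤ) : ℚ_[p]) + (p : ℚ_[p]) ^ M * (w : ℚ_[p]) := by
  -- approximate the coordinates by natural numbers
  have hδ : ∀ k, ∃ δ : ℤ_[p], γ k = ((γ k).appr M : ℤ_[p]) + (p : ℤ_[p]) ^ M * δ := by
    intro k
    have := PadicInt.appr_spec M (γ k)
    rw [Ideal.mem_span_singleton] at this
    obtain ⟨δ, hδ⟩ := this
    exact ⟨δ, by rw [← hδ]; ring⟩
  choose δ hδ using hδ
  set y₀ : 𝓞 E := ∑ k, ((γ k).appr M : ℤ) • RingOfIntegers.basis E k with hy₀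
  obtain ⟨D, hD⟩ := exists_leftMulMatrix_eq_map p E δ
  have hsplit : (∑ k, (γ k : ℚ_[p]) • tBasis p E k) =
      (1 : ℚ_[p]) ⊗ₜ[ℚ] (y₀ : E) + ((p : ℚ_[p]) ^ M) • ∑ k, (δ k : ℚ_[p]) • tBasis p E k := by
    have hsum : ((∑ k, ((γ k).appr M : ℤ) • RingOfIntegers.basis E k : 𝓞 E) : E) =
        ∑ k, ((((γ k).appr M : ℤ) • RingOfIntegers.basis E k : 𝓞 E) : E) :=
      map_sum (algebraMap (𝓞 E) E) _ _
    rw [Finset.smul_sum, hy₀, hsum, TensorProduct.tmul_sum, ← Finset.sum_add_distrib]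
    refine Finset.sum_congr rfl fun k _ => ?_
    conv_lhs => rw [hδ k]
    have h3 : ((1 : ℚ_[p]) ⊗ₜ[ℚ] (((((γ k).appr M : ℤ) • RingOfIntegers.basis E k : 𝓞 E)) : E)) =
        (((γ k).appr M : ℕ) : ℚ_[p]) • ((1 : ℚ_[p]) ⊗ₜ[ℚ] ((RingOfIntegers.basis E k : 𝓞 E) : E)) := by
      have e1 : (((((γ k).appr M : ℤ) • RingOfIntegers.basis E k : 𝓞 E)) : E) =
          (((γ k).appr M : ℕ) : ℚ) • ((RingOfIntegers.basis E k : 𝓞 E) : E) := by
        rw [natCast_zsmul, Nat.cast_smul_eq_nsmul]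
        exact map_nsmul (algebraMap (𝓞 E) E) _ _
      rw [e1, TensorProduct.tmul_smul, TensorProduct.smul_tmul', TensorProduct.smul_tmul',
        smul_eq_mul, mul_one]
      congr 1
      simp [Algebra.smul_def]
    rw [h3, tBasis_apply, smul_smul, ← add_smul]
    congr 1
  rw [hsplit, Algebra.norm_eq_matrix_det (tBasis p E), map_add, map_smul, hD,
    leftMulMatrix_one_tmul]
  obtain ⟨w, hw⟩ := det_add_smul_eq
    ((Algebra.leftMulMatrix (RingOfIntegers.basis E) y₀).map (fun z : ℤ => (z : ℤ_[p]))) D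
    ((p : ℤ_[p]) ^ M)
  refine ⟨y₀, w, ?_⟩
  have h1 : ((Algebra.leftMulMatrix (RingOfIntegers.basis E) y₀).map (fun z : ℤ => (z : ℚ_[p])) +
      (p : ℚ_[p]) ^ M • D.map (fun z : ℤ_[p] => (z : ℚ_[p]))) =
      (PadicInt.Coe.ringHom (p := p)).mapMatrix
        ((Algebra.leftMulMatrix (RingOfIntegers.basis E) y₀).map (fun z : ℤ => (z : ℤ_[p])) +
          (p : ℤ_[p]) ^ M • D) := by
    ext i j
    simp only [Matrix.add_apply, Matrix.smul_apply, Matrix.map_apply, RingHom.mapMatrix_apply,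
      smul_eq_mul, map_add, map_mul, map_pow, map_natCast, map_intCast]
    rfl
  rw [h1, ← RingHom.map_det, hw, Algebra.norm_eq_matrix_det (RingOfIntegers.basis E)]
  have h2 : ((Algebra.leftMulMatrix (RingOfIntegers.basis E) y₀).map
      (fun z : ℤ => (z : ℤ_[p]))).det =
      (((Algebra.leftMulMatrix (RingOfIntegers.basis E) y₀).det : ℤ) : ℤ_[p]) :=
    ((Int.castRingHom ℤ_[p]).map_det _).symm
  rw [h2, map_add, map_mul, map_pow, map_natCast, map_intCast]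
  rfl

end approximation

section padic

variable (p : ℕ) [hp : Fact p.Prime]

lemma exists_pow_mul_norm_le_one (x : ℚ_[p]) :
    ∃ a : ℕ, ∀ b : ℕ, a ≤ b → ‖(p : ℚ_[p]) ^ b * x‖ ≤ 1 := by
  by_cases hx : x = 0
  · exact ⟨0, fun b _ => by simp [hx]⟩
  · refine ⟨(-x.valuation).toNat, fun b hb => ?_⟩
    rw [norm_mul, Padic.norm_p_pow, Padic.norm_eq_zpow_neg_valuation hx, ← zpow_add₀
      (by exact_mod_cast hp.out.ne_zero : (p : ℝ) ≠ 0)]
    apply zpow_le_one_of_nonpos₀ (by exact_mod_cast hp.out.one_le)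
    have := Int.self_le_toNat (-x.valuation)
    omega

lemma exists_pow_mul_norm_le_one_fin {ι : Type*} [Fintype ι] (c : ι → ℚ_[p]) :
    ∃ a : ℕ, ∀ k, ‖(p : ℚ_[p]) ^ a * c k‖ ≤ 1 := by
  classical
  choose a ha using fun k => exists_pow_mul_norm_le_one p (c k)
  exact ⟨Finset.univ.sup a, fun k => ha k _ (Finset.le_sup (Finset.mem_univ k))⟩

lemma norm_natCast_eq_one_of_modEq {a n : ℕ} (hn : n ≠ 0) (ha : a ≡ 1 [MOD p ^ n]) :
    ‖(a : ℚ_[p])‖ = 1 := by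
  have h1 : ¬ p ∣ a := by
    intro h
    have h2 : a ≡ 1 [MOD p] := ha.of_dvd (dvd_pow_self p hn)
    have h3 : a ≡ 0 [MOD p] := (Nat.modEq_zero_iff_dvd).2 h
    have := h3.symm.trans h2
    rw [Nat.ModEq, Nat.zero_mod, Nat.mod_eq_of_lt hp.out.one_lt] at this
    exact zero_ne_one this
  rw [Padic.norm_natCast_eq_one_iff]
  exact (hp.out.coprime_iff_not_dvd).2 h1

lemma norm_natCast_sub_one_le {a n : ℕ} (ha : a ≡ 1 [MOD p ^ n]) :
    ‖(a : ℚ_[p]) - 1‖ ≤ (p : ℝ) ^ (-(n : ℤ)) := by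
  have h : (p ^ n : ℤ) ∣ (a : ℤ) - 1 := by
    have := (Nat.modEq_iff_dvd.1 ha.symm)
    simpa using this
  have := (Padic.norm_int_le_pow_iff_dvd ((a : ℤ) - 1) n).2 h
  simpa using this

end padic

section galoisNorm

variable {K E R : Type*} [Field K] [Field E] [Algebra K E] [FiniteDimensional K E]
  [CommRing R] [Algebra K R]

open Classical in
/-- Dedekind: the matrix `(τ (b j))` is invertible. -/
lemma det_aut_basis_ne_zero (b : Module.Basis (E ≃ₐ[K] E) K E) :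
    (Matrix.of fun (τ j : E ≃ₐ[K] E) => τ (b j)).det ≠ 0 := by
  intro h0
  obtain ⟨v, hv0, hv⟩ := Matrix.exists_vecMul_eq_zero_iff.2 h0
  apply hv0
  have hli := linearIndependent_toLinearMap K E E
  have hinj : Function.Injective (fun τ : E ≃ₐ[K] E => (τ : E →ₐ[K] E)) := by
    intro σ τ h
    ext x
    exact DFunLike.congr_fun h x
  have hli' := hli.comp _ hinj
  have hsum : ∑ τ : E ≃ₐ[K] E, v τ • (τ : E →ₐ[K] E).toLinearMap = 0 := by
    apply b.ext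
    intro j
    have := congrFun hv j
    simp only [Matrix.vecMul, dotProduct, Matrix.of_apply, Pi.zero_apply] at this
    simpa [LinearMap.sum_apply] using this
  funext τ
  exact Fintype.linearIndependent_iff.1 hli' v hsum τ

open Classical in
/-- For a finite Galois extension `E/K` and a commutative `K`-algebra `R`, the norm of
`R ⊗ E` over `R` is the product over the Galois group. -/
theorem prod_eq_algebraMap_norm [IsGalois K E]
    (φ : (E ≃ₐ[K] E) → (R ⊗[K] E →ₐ[R] R ⊗[K] E))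
    (hφ : ∀ τ e, φ τ ((1 : R) ⊗ₜ[K] e) = (1 : R) ⊗ₜ[K] τ e) (y : R ⊗[K] E) :
    ∏ τ : E ≃ₐ[K] E, φ τ y = algebraMap R (R ⊗[K] E) (Algebra.norm R y) := by
  have hcard : Fintype.card (E ≃ₐ[K] E) = Module.finrank K E := by
    rw [← Nat.card_eq_fintype_card]; exact IsGalois.card_aut_eq_finrank K E
  let b : Module.Basis (E ≃ₐ[K] E) K E :=
    (Module.finBasis K E).reindex (Fintype.equivFinOfCardEq hcard).symm
  let B : Module.Basis (E ≃ₐ[K] E) R (R ⊗[K] E) := Algebra.TensorProduct.basis R b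
  have hB : ∀ j, B j = (1 : R) ⊗ₜ[K] b j := fun j => Algebra.TensorProduct.basis_apply b j
  let T₀ : Matrix (E ≃ₐ[K] E) (E ≃ₐ[K] E) E := Matrix.of fun τ j => τ (b j)
  have hT₀ : T₀.det ≠ 0 := det_aut_basis_ne_zero b
  let ι : E →+* R ⊗[K] E := (Algebra.TensorProduct.includeRight : E →ₐ[K] R ⊗[K] E).toRingHom
  have hι : ∀ e, ι e = (1 : R) ⊗ₜ[K] e := fun e => rfl
  let T : Matrix (E ≃ₐ[K] E) (E ≃ₐ[K] E) (R ⊗[K] E) := T₀.map ι
  have hT : IsUnit T.det := by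
    have : T.det = ι T₀.det := (RingHom.map_det ι T₀).symm
    rw [this]
    exact (IsUnit.mk0 _ hT₀).map ι
  let M : Matrix (E ≃ₐ[K] E) (E ≃ₐ[K] E) R := Algebra.leftMulMatrix B y
  let D : Matrix (E ≃ₐ[K] E) (E ≃ₐ[K] E) (R ⊗[K] E) := Matrix.diagonal fun τ => φ τ y
  have key : D * T = T * M.map (algebraMap R (R ⊗[K] E)) := by
    ext τ j
    rw [Matrix.diagonal_mul, Matrix.mul_apply]
    have h1 : y * B j = ∑ k, M k j • B k := by
      have := B.sum_repr (y * B j)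
      rw [← this]
      refine Finset.sum_congr rfl fun k _ => ?_
      change _ = (Algebra.leftMulMatrix B y) k j • B k
      rw [Algebra.leftMulMatrix_eq_repr_mul]
    have h2 := congrArg (φ τ) h1
    rw [map_mul, map_sum, hB, hφ] at h2
    simp only [Matrix.map_apply, T, T₀, Matrix.of_apply, hι]
    rw [h2]
    refine Finset.sum_congr rfl fun k _ => ?_
    rw [map_smul, hB, hφ, Algebra.smul_def, mul_comm]
  have h3 := congrArg Matrix.det key
  rw [Matrix.det_mul, Matrix.det_mul, Matrix.det_diagonal, mul_comm] at h3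
  have h4 := hT.mul_left_cancel h3
  have h5 : (M.map (algebraMap R (R ⊗[K] E))).det = algebraMap R (R ⊗[K] E) M.det :=
    (RingHom.map_det (algebraMap R (R ⊗[K] E)) M).symm
  rw [h4, h5, Algebra.norm_eq_matrix_det B]

end galoisNorm

section main

variable (p : ℕ) [hp : Fact p.Prime] (r : ℕ) {E : Type*} [Field E] [NumberField E]
  [hE : IsCyclotomicExtension {p ^ (r + 1)} ℚ E]

/-- **(G5c)** Norms from `ℚ_p ⊗ ℚ(ζ_{p^{r+1}})` to `ℚ_p` lie in `p^ℤ · (1 + p^{r+1} ℤ_p)`. -/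
theorem norm_unit_eq (hp2 : p ≠ 2) (y : (ℚ_[p] ⊗[ℚ] E)ˣ) :
    ∃ (k : ℤ) (u : ℚ_[p]), Algebra.norm ℚ_[p] (y : ℚ_[p] ⊗[ℚ] E) = (p : ℚ_[p]) ^ k * u ∧
      ‖u - 1‖ ≤ (p : ℝ) ^ (-(r + 1 : ℤ)) := by
  classical
  have hp0 : (p : ℚ_[p]) ≠ 0 := by exact_mod_cast hp.out.ne_zero
  have hpR : (1 : ℝ) < p := by exact_mod_cast hp.out.one_lt
  set B := tBasis p E with hB
  -- scale `y` into the lattice
  obtain ⟨a, ha⟩ := exists_pow_mul_norm_le_one_fin p (fun k => B.repr (y : ℚ_[p] ⊗[ℚ] E) k)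
  set γ : Module.Free.ChooseBasisIndex ℤ (𝓞 E) → ℤ_[p] :=
    fun k => ⟨(p : ℚ_[p]) ^ a * B.repr (y : ℚ_[p] ⊗[ℚ] E) k, ha k⟩ with hγ
  have hy' : (∑ k, (γ k : ℚ_[p]) • B k) = ((p : ℚ_[p]) ^ a) • (y : ℚ_[p] ⊗[ℚ] E) := by
    conv_rhs => rw [← B.sum_repr (y : ℚ_[p] ⊗[ℚ] E), Finset.smul_sum]
    refine Finset.sum_congr rfl fun k _ => ?_
    rw [smul_smul]
  -- the norm of `y` is nonzero
  have hNy : Algebra.norm ℚ_[p] (y : ℚ_[p] ⊗[ℚ] E) ≠ 0 := by
    intro h0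
    have := congr_arg (Algebra.norm ℚ_[p]) y.mul_inv
    rw [map_mul, h0, zero_mul, map_one] at this
    exact zero_ne_one this
  set n := Module.finrank ℚ_[p] (ℚ_[p] ⊗[ℚ] E) with hn
  set X := Algebra.norm ℚ_[p] (∑ k, (γ k : ℚ_[p]) • B k) with hX
  have hXeq : X = ((p : ℚ_[p]) ^ a) ^ n * Algebra.norm ℚ_[p] (y : ℚ_[p] ⊗[ℚ] E) := by
    rw [hX, hy', Algebra.smul_def, map_mul, Algebra.norm_algebraMap]
  have hX0 : X ≠ 0 := by
    rw [hXeq]; exact mul_ne_zero (pow_ne_zero _ (pow_ne_zero _ hp0)) hNy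
  -- approximate
  set m' : ℤ := X.valuation with hm'
  have hXnorm : ‖X‖ = (p : ℝ) ^ (-m') := Padic.norm_eq_zpow_neg_valuation hX0
  set M : ℕ := m'.toNat + r + 1 with hM
  obtain ⟨y₀, w, hw⟩ := exists_norm_eq_add p E γ M
  rw [← hB, ← hX] at hw
  have hsmall : ‖(p : ℚ_[p]) ^ M * (w : ℚ_[p])‖ < ‖X‖ := by
    rw [norm_mul, Padic.norm_p_pow, hXnorm]
    calc (p : ℝ) ^ (-(M : ℤ)) * ‖(w : ℚ_[p])‖ ≤ (p : ℝ) ^ (-(M : ℤ)) * 1 :=
          mul_le_mul_of_nonneg_left (PadicInt.norm_le_one w) (by positivity)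
      _ = (p : ℝ) ^ (-(M : ℤ)) := mul_one _
      _ < (p : ℝ) ^ (-m') := by
          apply zpow_lt_zpow_right₀ hpR
          have := Int.self_le_toNat m'
          rw [hM]; push_cast; omega
  have hN0norm : ‖((Algebra.norm ℤ y₀ : ℤ) : ℚ_[p])‖ = ‖X‖ := by
    have h1 : ((Algebra.norm ℤ y₀ : ℤ) : ℚ_[p]) + (p : ℚ_[p]) ^ M * (w : ℚ_[p]) = X := hw.symm
    by_contra hne
    have := Padic.add_eq_max_of_ne (p := p) (q := ((Algebra.norm ℤ y₀ : ℤ) : ℚ_[p]))
      (r := (p : ℚ_[p]) ^ M * (w : ℚ_[p])) (fun h => hne (by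
        -- if the two norms were equal, both would be `< ‖X‖`, contradiction with the max
        exfalso
        have h2 := Padic.nonarchimedean ((Algebra.norm ℤ y₀ : ℤ) : ℚ_[p])
          ((p : ℚ_[p]) ^ M * (w : ℚ_[p]))
        rw [h1, h, max_self] at h2
        exact absurd hsmall (not_lt.2 h2)))
    rw [h1] at this
    rcases max_cases ‖((Algebra.norm ℤ y₀ : ℤ) : ℚ_[p])‖ ‖(p : ℚ_[p]) ^ M * (w : ℚ_[p])‖ with
      ⟨h3, _⟩ | ⟨h3, _⟩
    · exact hne (by rw [this, h3])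
    · rw [h3] at this; exact absurd hsmall (by rw [this]; exact lt_irrefl _)
  have hy₀ : y₀ ≠ 0 := by
    intro h0
    rw [h0, Algebra.norm_zero, Int.cast_zero, norm_zero] at hN0norm
    exact hX0 (norm_eq_zero.1 hN0norm.symm)
  obtain ⟨k, b, hb, hkb⟩ := exists_intNorm_eq p r hp2 y₀ hy₀
  have hbnorm : ‖(b : ℚ_[p])‖ = 1 := norm_natCast_eq_one_of_modEq p (Nat.succ_ne_zero r) hb
  have hN0 : ((Algebra.norm ℤ y₀ : ℤ) : ℚ_[p]) = (p : ℚ_[p]) ^ k * (b : ℚ_[p]) := by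
    rw [hkb]; push_cast; rfl
  have hkm : (k : ℤ) = m' := by
    rw [hN0, norm_mul, Padic.norm_p_pow, hbnorm, mul_one, hXnorm] at hN0norm
    have := zpow_right_injective₀ (by positivity : (0 : ℝ) < p) hpR.ne' hN0norm
    omega
  have hMk : M = k + (r + 1) := by
    have : m'.toNat = k := by rw [← hkm]; simp
    rw [hM, this]; ring
  -- conclusion
  refine ⟨(k : ℤ) - (a * n : ℕ), (b : ℚ_[p]) + (p : ℚ_[p]) ^ (r + 1) * (w : ℚ_[p]), ?_, ?_⟩
  · have h1 : X = (p : ℚ_[p]) ^ k * ((b : ℚ_[p]) + (p : ℚ_[p]) ^ (r + 1) * (w : ℚ_[p])) := by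
      rw [hw, hN0, hMk, pow_add]; ring
    have h2 : Algebra.norm ℚ_[p] (y : ℚ_[p] ⊗[ℚ] E) = X / ((p : ℚ_[p]) ^ a) ^ n := by
      rw [hXeq, mul_div_cancel_left₀ _ (pow_ne_zero _ (pow_ne_zero _ hp0))]
    rw [h2, h1, zpow_sub₀ hp0, zpow_natCast, zpow_natCast, ← pow_mul]
    field_simp
  · have h1 : (b : ℚ_[p]) + (p : ℚ_[p]) ^ (r + 1) * (w : ℚ_[p]) - 1 =
        ((b : ℚ_[p]) - 1) + (p : ℚ_[p]) ^ (r + 1) * (w : ℚ_[p]) := by ring
    rw [h1]
    refine (Padic.nonarchimedean _ _).trans (max_le ?_ ?_)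
    · have := norm_natCast_sub_one_le p hb
      simpa using this
    · rw [norm_mul, Padic.norm_p_pow]
      calc (p : ℝ) ^ (-((r + 1 : ℕ) : ℤ)) * ‖(w : ℚ_[p])‖ ≤ (p : ℝ) ^ (-((r + 1 : ℕ) : ℤ)) * 1 :=
            mul_le_mul_of_nonneg_left (PadicInt.norm_le_one w) (by positivity)
        _ = (p : ℝ) ^ (-(r + 1 : ℤ)) := by rw [mul_one]; push_cast; rfl


/-- **(G5c)** in the vocabulary of `SemiLocal`. -/
theorem semiLocal_norm_unit_eq (hp2 : p ≠ 2) (y : (SemiLocal p E)ˣ) :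
    ∃ (k : ℤ) (u : ℚ_[p]), Algebra.norm ℚ_[p] (y : SemiLocal p E) = (p : ℚ_[p]) ^ k * u ∧
      ‖u - 1‖ ≤ (p : ℝ) ^ (-(r + 1 : ℤ)) :=
  norm_unit_eq p r hp2 y

/-- The semi-local Galois product is the norm. -/
theorem semiLocal_prod_smul_eq_norm {F : Type*} [Field F] [NumberField F] [IsGalois ℚ F]
    (y : SemiLocal p F) :
    ∏ τ : F ≃ₐ[ℚ] F, τ • y = algebraMap ℚ_[p] (SemiLocal p F) (Algebra.norm ℚ_[p] y) :=
  prod_eq_algebraMap_norm
    (fun τ => SemiLocal.map p (MulSemiringAction.toRingHom (F ≃ₐ[ℚ] F) F τ))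
    (fun _ _ => rfl) y

include hE in
/-- **(G5c)**, Galois-product form (`CyclotomicNormStatement` for odd `p`). -/
theorem prod_smul_unit_eq (hp2 : p ≠ 2) (y : (SemiLocal p E)ˣ) :
    ∃ (k : ℤ) (u : ℚ_[p]), ‖u - 1‖ ≤ (p : ℝ) ^ (-((r : ℤ) + 1)) ∧
      ∏ τ : E ≃ₐ[ℚ] E, τ • (y : SemiLocal p E) =
        algebraMap ℚ_[p] (SemiLocal p E) ((p : ℚ_[p]) ^ k * u) := by
  haveI : IsGalois ℚ E := IsCyclotomicExtension.isGalois {p ^ (r + 1)} ℚ E
  obtain ⟨k, u, h1, h2⟩ := semiLocal_norm_unit_eq p r hp2 y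
  exact ⟨k, u, h2, by rw [semiLocal_prod_smul_eq_norm, h1]⟩

end main

end Fermat.Agent.CFT.G5c
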