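import Fermat.Agent.CFT.Global.G02_helper5_ToPrime
import Fermat.Agent.CFT.Global.G5c_lead

/-!
# CFT (G0.4), part 1: density, and the bijection between places and primes

For a number field `F` and a rational prime `ℓ`:
* `SemiLocal.exists_of_add_smul`: `F` is dense in `ℚ_ℓ ⊗ F` (every element is congruent to an
  element of `F` modulo `ℓ^M` times the maximal order);
* `Place.ord_embed_eq_ordAt` **(D1)**: the normalised valuation of the completion `F_w` restricts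
  on `F` to the `P`-adic valuation, `P = w.toPrime` (no ramification index);
* `Place.toPrime_injective`, `Place.exists_toPrime_eq` **(D2)**: `w ↦ w.toPrime` is a bijection
  from the places of `F` over `ℓ` to the primes of `𝓞 F` containing `ℓ`
  (`Place.equivPrimesOver`).
-/

set_option autoImplicit false
set_option linter.style.haveILetI false
set_option linter.unusedSectionVars false

open scoped TensorProduct NumberField
open NumberField
open IsLocalRing IsDedekindDomain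

namespace Fermat.Agent.CFT

/-- Rational approximation in `ℚ_ℓ`. -/
theorem exists_rat_sub_eq_pow_mul (ℓ : ℕ) [hℓ : Fact ℓ.Prime] (a : ℚ_[ℓ]) (N : ℕ) :
    ∃ (q : ℚ) (b : ℤ_[ℓ]), a - (q : ℚ_[ℓ]) = (ℓ : ℚ_[ℓ]) ^ N * (b : ℚ_[ℓ]) := by
  have hℓ0 : (ℓ : ℚ_[ℓ]) ≠ 0 := by exact_mod_cast hℓ.out.ne_zero
  have hpos : (0 : ℝ) < (ℓ : ℝ) ^ (-(N : ℤ)) := by
    have : (0 : ℝ) < ℓ := by exact_mod_cast hℓ.out.pos
    positivity
  obtain ⟨q, hq⟩ := Padic.rat_dense ℓ a hpos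
  have hle : ‖(a - (q : ℚ_[ℓ])) / (ℓ : ℚ_[ℓ]) ^ N‖ ≤ 1 := by
    have hℓR : (0 : ℝ) < ℓ := by exact_mod_cast hℓ.out.pos
    rw [norm_div, norm_pow, Padic.norm_p, div_le_one (by positivity)]
    calc ‖a - (q : ℚ_[ℓ])‖ ≤ (ℓ : ℝ) ^ (-(N : ℤ)) := hq.le
      _ = ((ℓ : ℝ)⁻¹) ^ N := by rw [zpow_neg, zpow_natCast, inv_pow]
  refine ⟨q, ⟨_, hle⟩, ?_⟩
  simp only
  field_simp

namespace SemiLocal

section density

variable (ℓ : ℕ) [hℓ : Fact ℓ.Prime] (F : Type*) [Field F] [CharZero F] [Algebra.IsAlgebraic ℚ F]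

/-- Every element of `F` becomes integral at `ℓ` after multiplication by a power of `ℓ`. -/
theorem exists_pow_mul_mem_integers (x : F) :
    ∃ c : ℕ, of ℓ F ((ℓ : F) ^ c * x) ∈ integers ℓ F := by
  have hx : IsAlgebraic ℤ x :=
    (IsFractionRing.isAlgebraic_iff ℤ ℚ F).mpr (Algebra.IsAlgebraic.isAlgebraic x)
  obtain ⟨d, hd0, hd⟩ := hx.exists_integral_multiple
  have hirr : Irreducible (ℓ : ℤ) := (Nat.prime_iff_prime_int.mp hℓ.out).irreducible
  obtain ⟨c, d', hd', hdd⟩ := WfDvdMonoid.max_power_factor hd0 hirr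
  refine ⟨c, of_mem_integers_of_not_dvd ℓ (d := d') ?_ hd'⟩
  have : d' • ((ℓ : F) ^ c * x) = d • x := by
    rw [hdd, zsmul_eq_mul, zsmul_eq_mul]
    push_cast
    ring
  rw [this]
  exact hd

/-- **Density** of `F` in `ℚ_ℓ ⊗ F`: every element is congruent to an element of `F` modulo
`ℓ^M` times the maximal order. -/
theorem exists_of_add_smul (z : SemiLocal ℓ F) (M : ℕ) :
    ∃ (y : F) (t : SemiLocal ℓ F), t ∈ integers ℓ F ∧
      z = of ℓ F y + ((ℓ : ℚ_[ℓ]) ^ M) • t := by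
  induction z using TensorProduct.induction_on with
  | zero => exact ⟨0, 0, Subalgebra.zero_mem _, by simp⟩
  | tmul a x =>
    obtain ⟨c, hc⟩ := exists_pow_mul_mem_integers ℓ F x
    obtain ⟨q, b, hqb⟩ := exists_rat_sub_eq_pow_mul ℓ a (M + c)
    refine ⟨q • x, b • of ℓ F ((ℓ : F) ^ c * x), Subalgebra.smul_mem _ hc b, ?_⟩
    have h1 : a = (q : ℚ_[ℓ]) + (ℓ : ℚ_[ℓ]) ^ (M + c) * (b : ℚ_[ℓ]) := by
      rw [← hqb]; ring
    have h2 : of ℓ F (q • x) = (q : ℚ_[ℓ]) ⊗ₜ[ℚ] x := by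
      rw [of_apply, TensorProduct.tmul_smul, TensorProduct.smul_tmul', Algebra.smul_def, mul_one]
      rfl
    have h3 : of ℓ F ((ℓ : F) ^ c * x) = ((ℓ : ℚ_[ℓ]) ^ c) ⊗ₜ[ℚ] x := by
      have : (ℓ : F) ^ c * x = ((ℓ : ℚ) ^ c) • x := by
        rw [Algebra.smul_def]; simp
      rw [this, of_apply, TensorProduct.tmul_smul, TensorProduct.smul_tmul', Algebra.smul_def,
        mul_one]
      simp
    have h4 : (b • of ℓ F ((ℓ : F) ^ c * x) : SemiLocal ℓ F) =
        ((b : ℚ_[ℓ]) * (ℓ : ℚ_[ℓ]) ^ c) ⊗ₜ[ℚ] x := by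
      rw [h3]
      rfl
    rw [h2, h4, TensorProduct.smul_tmul', smul_eq_mul, ← TensorProduct.add_tmul, h1]
    congr 1
    ring
  | add z₁ z₂ h₁ h₂ =>
    obtain ⟨y₁, t₁, ht₁, e₁⟩ := h₁
    obtain ⟨y₂, t₂, ht₂, e₂⟩ := h₂
    refine ⟨y₁ + y₂, t₁ + t₂, Subalgebra.add_mem _ ht₁ ht₂, ?_⟩
    rw [e₁, e₂, map_add, smul_add]
    abel

end density

end SemiLocal

namespace Place

section ord

variable {ℓ : ℕ} [hℓ : Fact ℓ.Prime] {F : Type} [Field F] [NumberField F] (w : Place ℓ F)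

theorem natCast_mem_maximalIdeal : ((ℓ : ℕ) : w.integers) ∈ maximalIdeal w.integers := by
  have h1 : ((ℓ : ℕ) : w.integers) = algebraMap ℤ_[ℓ] w.integers ((ℓ : ℕ) : ℤ_[ℓ]) := by
    rw [map_natCast]
  rw [h1, mem_maximalIdeal, mem_nonunits_iff]
  intro hu
  have h2 : IsUnit ((ℓ : ℕ) : ℤ_[ℓ]) := (isUnit_map_iff (algebraMap ℤ_[ℓ] w.integers) _).mp hu
  exact PadicInt.prime_p.not_isUnit h2

theorem one_le_ord_natCast : 1 ≤ ord w.integers ((ℓ : ℕ) : w.Completion) := by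
  have h0 : ((ℓ : ℕ) : w.integers) ≠ 0 := by
    have : ((ℓ : ℕ) : w.integers) = ((ℓ : ℕ) : w.integers) := rfl
    exact_mod_cast (Nat.cast_ne_zero (R := w.integers)).2 hℓ.out.ne_zero
  have := (ord_algebraMap_pos_iff w.integers (F := w.Completion) h0).2 w.natCast_mem_maximalIdeal
  rw [map_natCast] at this
  omega

/-- `ℓ^M` times an integer of `F_w` has valuation at least `M`. -/
theorem le_ord_pow_smul {s : w.Completion} (hs : s ∈ w.integers) (M : ℕ) :
    ((ℓ : ℚ_[ℓ]) ^ M • s = 0) ∨ (M : ℤ) ≤ ord w.integers ((ℓ : ℚ_[ℓ]) ^ M • s) := by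
  by_cases h0 : (ℓ : ℚ_[ℓ]) ^ M • s = 0
  · exact Or.inl h0
  right
  have hs0 : s ≠ 0 := by rintro rfl; simp at h0
  have hℓ0 : ((ℓ : ℕ) : w.Completion) ≠ 0 := by
    exact_mod_cast (Nat.cast_ne_zero (R := w.Completion)).2 hℓ.out.ne_zero
  have h1 : (ℓ : ℚ_[ℓ]) ^ M • s = ((ℓ : ℕ) : w.Completion) ^ M * s := by
    rw [Algebra.smul_def, map_pow, map_natCast]
  rw [h1, ord_mul _ (pow_ne_zero _ hℓ0) hs0, ord_pow]
  have h2 := w.one_le_ord_natCast
  have h3 : 0 ≤ ord w.integers s := (ord_nonneg_iff w.integers).2 ⟨⟨s, hs⟩, rfl⟩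
  nlinarith

/-- **(D1a)** `F` contains a uniformiser of `F_w`. -/
theorem exists_ord_embed_eq_one : ∃ y : F, ord w.integers (w.embed y) = 1 := by
  obtain ⟨π, hπ⟩ := IsDiscreteValuationRing.exists_irreducible w.integers
  have hπ1 : ord w.integers (algebraMap w.integers w.Completion π) = 1 :=
    ord_algebraMap_irreducible w.integers hπ
  obtain ⟨z, hz⟩ := w.proj_surjective (algebraMap w.integers w.Completion π)
  obtain ⟨y, t, ht, hzt⟩ := SemiLocal.exists_of_add_smul ℓ F z 2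
  refine ⟨y, ?_⟩
  have hts : w.proj t ∈ w.integers := (SemiLocal.mem_integers_iff_proj ℓ F).1 ht w
  have h1 : w.embed y = algebraMap w.integers w.Completion π - (ℓ : ℚ_[ℓ]) ^ 2 • w.proj t := by
    rw [← hz, hzt, map_add, map_smul]
    change w.embed y = w.embed y + _ - _
    ring
  have hπ0 : algebraMap w.integers w.Completion π ≠ 0 := by
    intro h; rw [h, ord_zero] at hπ1; omega
  rcases w.le_ord_pow_smul hts 2 with h0 | h2
  · rw [h1, h0, sub_zero, hπ1]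
  · by_cases h0 : (ℓ : ℚ_[ℓ]) ^ 2 • w.proj t = 0
    · rw [h1, h0, sub_zero, hπ1]
    rw [h1, sub_eq_add_neg, ord_add_eq_of_lt _ hπ0 (neg_ne_zero.2 h0) (by rw [ord_neg, hπ1]; omega),
      hπ1]

/-- **(D1)** the normalised valuation of `F_w` restricts to the `P`-adic valuation of `F`,
`P = w.toPrime` (no ramification index: `F` is dense in `F_w`). -/
theorem ord_embed_eq_ordAt {x : F} (hx : x ≠ 0) :
    ord w.integers (w.embed x) = ordAt F w.toPrime x := by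
  obtain ⟨e, he, h⟩ := w.exists_ord_embed_eq
  obtain ⟨y, hy⟩ := w.exists_ord_embed_eq_one
  have hy0 : y ≠ 0 := by
    rintro rfl; rw [map_zero, ord_zero] at hy; omega
  have h1 := h y hy0
  rw [hy] at h1
  have he1 : (e : ℤ) = 1 := by
    have : (e : ℤ) ∣ 1 := ⟨_, h1⟩
    have h2 := Int.eq_one_of_dvd_one (by positivity) this
    exact h2
  rw [h x hx, he1, one_mul]

/-- **Weak approximation** at two places over `ℓ`: an element of `F` which is a unit at `w` and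
in the maximal ideal at `w'`. -/
theorem exists_ord_embed_eq_zero_and_pos {w w' : Place ℓ F} (h : w ≠ w') :
    ∃ y : F, y ≠ 0 ∧ ord w.integers (w.embed y) = 0 ∧ 0 < ord w'.integers (w'.embed y) := by
  classical
  obtain ⟨z, hz⟩ := SemiLocal.exists_proj_eq ℓ F
    (fun v : Place ℓ F => if v = w then (1 : v.Completion) else 0)
  obtain ⟨y, t, ht, hzt⟩ := SemiLocal.exists_of_add_smul ℓ F z 1
  have hw1 : w.proj z = 1 := by rw [hz w, if_pos rfl]
  have hw2 : w'.proj z = 0 := by rw [hz w', if_neg (Ne.symm h)]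
  have e1 : w.embed y = 1 - (ℓ : ℚ_[ℓ]) ^ 1 • w.proj t := by
    rw [← hw1, hzt, map_add, map_smul]
    change w.embed y = w.embed y + _ - _
    ring
  have e2 : w'.embed y = - ((ℓ : ℚ_[ℓ]) ^ 1 • w'.proj t) := by
    have : w'.proj z = w'.embed y + (ℓ : ℚ_[ℓ]) ^ 1 • w'.proj t := by
      rw [hzt, map_add, map_smul]; rfl
    rw [hw2] at this
    exact eq_neg_of_add_eq_zero_left this.symm
  have hts : w.proj t ∈ w.integers := (SemiLocal.mem_integers_iff_proj ℓ F).1 ht w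
  have hts' : w'.proj t ∈ w'.integers := (SemiLocal.mem_integers_iff_proj ℓ F).1 ht w'
  have hord : ord w.integers (w.embed y) = 0 := by
    rcases w.le_ord_pow_smul hts 1 with h0 | h1
    · rw [e1, h0, sub_zero, ord_one]
    · by_cases h0 : (ℓ : ℚ_[ℓ]) ^ 1 • w.proj t = 0
      · rw [e1, h0, sub_zero, ord_one]
      rw [e1, sub_eq_add_neg, ord_add_eq_of_lt _ one_ne_zero (neg_ne_zero.2 h0)
        (by rw [ord_neg, ord_one]; omega), ord_one]
  have hy0 : y ≠ 0 := by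
    rintro rfl
    have h1 : (1 : w.Completion) = (ℓ : ℚ_[ℓ]) ^ 1 • w.proj t := by
      have := e1; rw [map_zero] at this
      exact (sub_eq_zero.1 this.symm)
    rcases w.le_ord_pow_smul hts 1 with h0 | h2
    · rw [h0] at h1; exact one_ne_zero h1
    · rw [← h1, ord_one] at h2; omega
  refine ⟨y, hy0, hord, ?_⟩
  have hne : w'.embed y ≠ 0 := w'.embed_ne_zero hy0
  rcases w'.le_ord_pow_smul hts' 1 with h0 | h1
  · rw [e2, h0, neg_zero] at hne; exact absurd rfl hne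
  · rw [e2, ord_neg]; omega

/-- **(D2), injectivity**: distinct places over `ℓ` lie over distinct primes. -/
theorem toPrime_injective : Function.Injective (fun w : Place ℓ F => w.toPrime) := by
  intro w w' h
  by_contra hne
  obtain ⟨y, hy0, h1, h2⟩ := exists_ord_embed_eq_zero_and_pos hne
  rw [w.ord_embed_eq_ordAt hy0] at h1
  rw [w'.ord_embed_eq_ordAt hy0] at h2
  have : w.toPrime = w'.toPrime := h
  rw [this] at h1
  omega

end ord

end Place

/-- In a commutative algebra, an integral inverse of `u` is a polynomial in `u`. -/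
theorem mem_adjoin_of_isIntegral_inv {R A : Type*} [CommRing R] [CommRing A] [Algebra R A]
    (S : Subalgebra R A) {u t : A} (hu : u ∈ S) (hut : u * t = 1) (ht : IsIntegral R t) :
    t ∈ S := by
  nontriviality A
  obtain ⟨p, hp, hpt⟩ := ht
  rw [← Polynomial.aeval_def] at hpt
  have hn : p.natDegree ≠ 0 := by
    intro h0
    have : p = 1 := Polynomial.eq_one_of_monic_natDegree_zero hp h0
    rw [this, map_one] at hpt
    exact one_ne_zero hpt
  obtain ⟨m, hm⟩ := Nat.exists_eq_succ_of_ne_zero hn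
  rw [hp.as_sum, hm, map_add, map_pow, Polynomial.aeval_X, map_sum] at hpt
  have h1 : t = -∑ i ∈ Finset.range (m + 1), p.coeff i • u ^ (m - i) := by
    have h2 := congrArg (fun z => z * u ^ m) hpt
    simp only [zero_mul, add_mul, Finset.sum_mul] at h2
    have h3 : t ^ (m + 1) * u ^ m = t := by
      rw [pow_succ, mul_assoc, mul_comm t, ← mul_assoc, ← mul_pow, mul_comm t u, hut, one_pow,
        one_mul]
    have h4 : ∀ i ∈ Finset.range (m + 1),
        Polynomial.aeval t (Polynomial.C (p.coeff i) * Polynomial.X ^ i) * u ^ m =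
          p.coeff i • u ^ (m - i) := by
      intro i hi
      have him : i ≤ m := Nat.lt_succ_iff.1 (Finset.mem_range.1 hi)
      rw [map_mul, Polynomial.aeval_C, map_pow, Polynomial.aeval_X, Algebra.smul_def, mul_assoc]
      congr 1
      obtain ⟨k, rfl⟩ := Nat.exists_eq_add_of_le him
      rw [Nat.add_sub_cancel_left, pow_add, ← mul_assoc, ← mul_pow, mul_comm t u, hut, one_pow,
        one_mul]
    rw [h3, Finset.sum_congr rfl h4] at h2
    exact eq_neg_of_add_eq_zero_left h2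
  rw [h1]
  exact Subalgebra.neg_mem _ (Subalgebra.sum_mem _ fun i _ =>
    Subalgebra.smul_mem _ (Subalgebra.pow_mem _ hu _) _)

namespace SemiLocal

section lattice

variable (ℓ : ℕ) [hℓ : Fact ℓ.Prime] (F : Type*) [Field F] [NumberField F]

/-- The ring homomorphism `𝓞 F → ℚ_ℓ ⊗ F`. -/
noncomputable def ofInt : 𝓞 F →+* SemiLocal ℓ F :=
  ((of ℓ F : F →ₐ[ℚ] SemiLocal ℓ F) : F →+* SemiLocal ℓ F).comp (algebraMap (𝓞 F) F)

@[simp] lemma ofInt_apply (a : 𝓞 F) : ofInt ℓ F a = of ℓ F (a : F) := rfl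

/-- The order `ℤ_ℓ ⊗ 𝓞 F` inside `ℚ_ℓ ⊗ F`. -/
noncomputable def intLattice : Subalgebra ℤ_[ℓ] (SemiLocal ℓ F) :=
  Algebra.adjoin ℤ_[ℓ] (Set.range (ofInt ℓ F))

lemma ofInt_mem_intLattice (a : 𝓞 F) : ofInt ℓ F a ∈ intLattice ℓ F :=
  Algebra.subset_adjoin ⟨a, rfl⟩

lemma intLattice_toSubmodule :
    Subalgebra.toSubmodule (intLattice ℓ F) = Submodule.span ℤ_[ℓ] (Set.range (ofInt ℓ F)) := by
  rw [intLattice, Algebra.adjoin_eq_span]
  congr 1
  have : Set.range (ofInt ℓ F) =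
      ((MonoidHom.mrange (ofInt ℓ F : 𝓞 F →* SemiLocal ℓ F) : Submonoid _) : Set _) := rfl
  rw [this, Submonoid.closure_eq]

/-- Induction principle for the order `ℤ_ℓ ⊗ 𝓞 F`. -/
lemma intLattice_induction {P : SemiLocal ℓ F → Prop} (h0 : P 0)
    (hgen : ∀ a : 𝓞 F, P (ofInt ℓ F a)) (hadd : ∀ s t, P s → P t → P (s + t))
    (hsmul : ∀ (c : ℤ_[ℓ]) t, P t → P (c • t)) {t : SemiLocal ℓ F} (ht : t ∈ intLattice ℓ F) :
    P t := by
  have ht' : t ∈ Submodule.span ℤ_[ℓ] (Set.range (ofInt ℓ F)) := by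
    rw [← intLattice_toSubmodule]; exact ht
  clear ht
  induction ht' using Submodule.span_induction with
  | mem x hx => obtain ⟨a, rfl⟩ := hx; exact hgen a
  | zero => exact h0
  | add x y _ _ hx hy => exact hadd x y hx hy
  | smul c x _ hx => exact hsmul c x hx

/-- Every element of `ℤ_ℓ ⊗ 𝓞 F` is congruent to a global integer modulo `ℓ`. -/
lemma exists_ofInt_add_smul {t : SemiLocal ℓ F} (ht : t ∈ intLattice ℓ F) :
    ∃ (y : 𝓞 F) (t' : SemiLocal ℓ F), t' ∈ intLattice ℓ F ∧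
      t = ofInt ℓ F y + (ℓ : ℤ_[ℓ]) • t' := by
  refine intLattice_induction ℓ F (P := fun t => ∃ (y : 𝓞 F) (t' : SemiLocal ℓ F),
    t' ∈ intLattice ℓ F ∧ t = ofInt ℓ F y + (ℓ : ℤ_[ℓ]) • t') ?_ ?_ ?_ ?_ ht
  · exact ⟨0, 0, Subalgebra.zero_mem _, by simp⟩
  · intro a; exact ⟨a, 0, Subalgebra.zero_mem _, by simp⟩
  · intro s t hs ht
    obtain ⟨y₁, t₁, h₁, e₁⟩ := hs
    obtain ⟨y₂, t₂, h₂, e₂⟩ := ht
    refine ⟨y₁ + y₂, t₁ + t₂, Subalgebra.add_mem _ h₁ h₂, ?_⟩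
    rw [e₁, e₂, map_add, smul_add]; abel
  · intro c t ht
    obtain ⟨y, t', h', e⟩ := ht
    obtain ⟨n, c', rfl⟩ : ∃ (n : ℕ) (c' : ℤ_[ℓ]), c = (n : ℤ_[ℓ]) + (ℓ : ℤ_[ℓ]) * c' := by
      have hc := PadicInt.appr_spec 1 c
      rw [pow_one, Ideal.mem_span_singleton] at hc
      obtain ⟨c', hc'⟩ := hc
      exact ⟨c.appr 1, c', by rw [← hc']; ring⟩
    refine ⟨(n : 𝓞 F) * y, c' • ofInt ℓ F y + ((n : ℤ_[ℓ]) + (ℓ : ℤ_[ℓ]) * c') • t',
      Subalgebra.add_mem _ (Subalgebra.smul_mem _ (ofInt_mem_intLattice ℓ F y) _)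
        (Subalgebra.smul_mem _ h' _), ?_⟩
    have h3 : ofInt ℓ F ((n : 𝓞 F) * y) = (n : ℤ_[ℓ]) • ofInt ℓ F y := by
      rw [map_mul, map_natCast, Algebra.smul_def, map_natCast]
    rw [e, h3]
    module

/-- Coordinates of a global integer in the basis `1 ⊗ ωᵢ`. -/
lemma tBasis_repr_ofInt (a : 𝓞 F) (k : Module.Free.ChooseBasisIndex ℤ (𝓞 F)) :
    (G5c.tBasis ℓ F).repr (ofInt ℓ F a) k = (((RingOfIntegers.basis F).repr a k : ℤ) : ℚ_[ℓ]) := by
  rw [ofInt_apply, of_apply, G5c.tBasis, Algebra.TensorProduct.basis_repr_tmul, one_smul,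
    Finsupp.mapRange_apply]
  have : ((a : 𝓞 F) : F) = algebraMap (𝓞 F) F a := rfl
  rw [this, NumberField.integralBasis_repr_apply]
  simp

/-- Elements of `ℤ_ℓ ⊗ 𝓞 F` have `ℓ`-adically integral coordinates. -/
lemma norm_tBasis_repr_le_one {t : SemiLocal ℓ F} (ht : t ∈ intLattice ℓ F)
    (k : Module.Free.ChooseBasisIndex ℤ (𝓞 F)) : ‖(G5c.tBasis ℓ F).repr t k‖ ≤ 1 := by
  refine intLattice_induction ℓ F (P := fun t => ‖(G5c.tBasis ℓ F).repr t k‖ ≤ 1) ?_ ?_ ?_ ?_ ht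
  · simp
  · intro a
    rw [tBasis_repr_ofInt]
    exact Padic.norm_int_le_one _
  · intro s t hs ht
    rw [map_add, Finsupp.add_apply]
    exact (Padic.nonarchimedean _ _).trans (max_le hs ht)
  · intro c t ht
    have : c • t = (c : ℚ_[ℓ]) • t := rfl
    rw [this, map_smul, Finsupp.smul_apply, smul_eq_mul, norm_mul]
    exact mul_le_one₀ (PadicInt.norm_le_one c) (norm_nonneg _) ht

/-- A global integer which is divisible by `ℓ` in `ℤ_ℓ ⊗ 𝓞 F` is divisible by `ℓ` in `𝓞 F`. -/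
lemma natCast_dvd_of_ofInt_eq_smul {a : 𝓞 F} {t : SemiLocal ℓ F} (ht : t ∈ intLattice ℓ F)
    (h : ofInt ℓ F a = (ℓ : ℤ_[ℓ]) • t) : ((ℓ : ℕ) : 𝓞 F) ∣ a := by
  have hk : ∀ k, (ℓ : ℤ) ∣ (RingOfIntegers.basis F).repr a k := by
    intro k
    rw [← Padic.norm_intCast_lt_one_iff (p := ℓ), ← tBasis_repr_ofInt, h]
    have : (ℓ : ℤ_[ℓ]) • t = (ℓ : ℚ_[ℓ]) • t := by
      change ((ℓ : ℤ_[ℓ]) : ℚ_[ℓ]) • t = _
      simp
    rw [this, map_smul, Finsupp.smul_apply, smul_eq_mul, norm_mul, Padic.norm_p]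
    have h1 := norm_tBasis_repr_le_one ℓ F ht k
    have h2 : ((ℓ : ℝ))⁻¹ < 1 := inv_lt_one_of_one_lt₀ (by exact_mod_cast hℓ.out.one_lt)
    have h3 : (0 : ℝ) < (ℓ : ℝ)⁻¹ := by
      have : (0 : ℝ) < ℓ := by exact_mod_cast hℓ.out.pos
      positivity
    nlinarith [norm_nonneg ((G5c.tBasis ℓ F).repr t k)]
  choose m hm using hk
  refine ⟨∑ k, m k • RingOfIntegers.basis F k, ?_⟩
  conv_lhs => rw [← (RingOfIntegers.basis F).sum_repr a]
  rw [Finset.mul_sum]
  refine Finset.sum_congr rfl fun k _ => ?_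
  rw [hm k]
  simp only [zsmul_eq_mul, Int.cast_mul, Int.cast_natCast]
  ring

/-- If `x ∈ 𝓞 F` has an inverse in `ℚ_ℓ ⊗ F` which is integral over `ℤ_ℓ`, then `x` is
invertible modulo `ℓ`. -/
theorem exists_mul_sub_one_of_isIntegral_inv {x : 𝓞 F} {t : SemiLocal ℓ F}
    (hxt : ofInt ℓ F x * t = 1) (ht : IsIntegral ℤ_[ℓ] t) :
    ∃ y : 𝓞 F, ((ℓ : ℕ) : 𝓞 F) ∣ x * y - 1 := by
  have h1 : t ∈ intLattice ℓ F :=
    mem_adjoin_of_isIntegral_inv _ (ofInt_mem_intLattice ℓ F x) hxt ht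
  obtain ⟨y, t', ht', e⟩ := exists_ofInt_add_smul ℓ F h1
  refine ⟨y, natCast_dvd_of_ofInt_eq_smul ℓ F (t := -(ofInt ℓ F x * t'))
    (Subalgebra.neg_mem _ (Subalgebra.mul_mem _ (ofInt_mem_intLattice ℓ F x) ht')) ?_⟩
  rw [map_sub, map_mul, map_one, ← hxt, e, mul_add, smul_neg, mul_smul_comm]
  abel

end lattice

end SemiLocal

namespace Place

section surj

variable {ℓ : ℕ} [hℓ : Fact ℓ.Prime] {F : Type} [Field F] [NumberField F]

instance nonempty_place : Nonempty (Place ℓ F) := by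
  haveI : Nontrivial (SemiLocal ℓ F) :=
    (SemiLocal.of_injective ℓ F).nontrivial
  obtain ⟨m, hm⟩ := Ideal.exists_maximal (SemiLocal ℓ F)
  exact ⟨⟨m, hm⟩⟩

/-- **(D2), surjectivity**: every prime of `𝓞 F` over `ℓ` lies below a place of `F` over `ℓ`. -/
theorem exists_toPrime_eq (P : Ideal (𝓞 F)) [hP : P.IsPrime] (hℓP : ((ℓ : ℕ) : 𝓞 F) ∈ P) :
    ∃ w : Place ℓ F, w.toPrime = P := by
  classical
  by_contra! hne
  haveI : Fintype (Place ℓ F) := Fintype.ofFinite _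
  have hP0 : P ≠ ⊥ := by
    intro h
    rw [h, Ideal.mem_bot] at hℓP
    have : (ℓ : ℕ) = 0 := by exact_mod_cast hℓP
    exact hℓ.out.ne_zero this
  have hPmax : P.IsMaximal := hP.isMaximal hP0
  obtain ⟨w₀⟩ := (inferInstance : Nonempty (Place ℓ F))
  -- prime avoidance
  have hav : ¬ ((P : Set (𝓞 F)) ⊆ ⋃ w ∈ ((Finset.univ : Finset (Place ℓ F)) : Set (Place ℓ F)),
      (w.toPrime : Set (𝓞 F))) := by
    intro hsub
    obtain ⟨w, -, hw⟩ := (Ideal.subset_union_prime (s := Finset.univ)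
      (f := fun w : Place ℓ F => w.toPrime) w₀ w₀
      (fun w _ _ _ => w.toPrime_isPrime)).1 hsub
    exact hne w (hPmax.eq_of_le w.toPrime_isPrime.ne_top hw).symm
  obtain ⟨x, hxP, hx⟩ := Set.not_subset.1 hav
  simp only [Finset.coe_univ, Set.mem_univ, Set.iUnion_true, Set.mem_iUnion, SetLike.mem_coe,
    not_exists] at hx
  have hx0 : x ≠ 0 := by
    rintro rfl
    exact hx w₀ (Ideal.zero_mem _)
  have hxF : (x : F) ≠ 0 := by exact_mod_cast hx0
  -- `1 ⊗ x` is a unit whose inverse is integral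
  set u : (SemiLocal ℓ F)ˣ := SemiLocal.ofUnits ℓ (Units.mk0 (x : F) hxF) with hu
  have hint : IsIntegral ℤ_[ℓ] ((u⁻¹ : (SemiLocal ℓ F)ˣ) : SemiLocal ℓ F) := by
    rw [← SemiLocal.mem_integers_iff, SemiLocal.mem_integers_iff_proj]
    intro w
    have h1 : w.proj ((u⁻¹ : (SemiLocal ℓ F)ˣ) : SemiLocal ℓ F) = (w.embed (x : F))⁻¹ := by
      have h2 : w.proj ((u⁻¹ : (SemiLocal ℓ F)ˣ) : SemiLocal ℓ F) * w.embed (x : F) = 1 := by
        have : w.embed (x : F) = w.proj (u : SemiLocal ℓ F) := rfl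
        rw [this, ← map_mul, Units.inv_mul, map_one]
      exact eq_inv_of_mul_eq_one_left h2
    rw [h1]
    have h3 : 0 ≤ ord w.integers (w.embed (x : F))⁻¹ := by
      rw [ord_inv, w.ord_embed_coe_eq_zero (hx w), neg_zero]
    obtain ⟨r, hr⟩ := (ord_nonneg_iff w.integers).1 h3
    rw [← hr]
    exact r.2
  obtain ⟨y, hy⟩ := SemiLocal.exists_mul_sub_one_of_isIntegral_inv ℓ F (x := x)
    (t := ((u⁻¹ : (SemiLocal ℓ F)ˣ) : SemiLocal ℓ F)) (by
      have : SemiLocal.ofInt ℓ F x = (u : SemiLocal ℓ F) := rfl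
      rw [this, Units.mul_inv]) hint
  have h1 : x * y - 1 ∈ P := by
    obtain ⟨z, hz⟩ := hy
    rw [hz]
    exact Ideal.mul_mem_right _ _ hℓP
  have h2 : (1 : 𝓞 F) ∈ P := by
    have := P.sub_mem (P.mul_mem_right y hxP) h1
    simpa using this
  exact hP.ne_top ((Ideal.eq_top_iff_one _).2 h2)

end surj

end Place

end Fermat.Agent.CFT
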