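import Fermat.Agent.CFT.Global.G2a_helper6_Rational
import Fermat.Agent.REG.Kummer_helper6_Hilbert92

/-!
# CFT (G2a): `S`-units modulo `p`-th powers

If `ζ_p ∈ F`, then `[F_S : F_S^p] = p ^ (rank 𝓞_F^× + #S + 1)`.
-/

set_option autoImplicit false

open IsDedekindDomain NumberField

namespace Fermat.Agent.CFT.SUnit

section PowQuot

variable {F : Type*} [Field F] [NumberField F]

/-- A root of unity has valuation `1` everywhere. -/
lemma valuation_eq_one_of_pow_eq_one (v : HeightOneSpectrum (𝓞 F)) {x : F} {n : ℕ} (hn : n ≠ 0)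
    (hx : x ^ n = 1) : v.valuation F x = 1 := by
  have h : v.valuation F x ^ n = 1 := by rw [← map_pow, hx, map_one]
  exact (pow_eq_one_iff.mp h).resolve_right hn

/-- **Index of the `p`-th powers in the `S`-units** when `ζ_p ∈ F`. -/
theorem index_range_powMonoidHom_sUnits {p : ℕ} (hp : p.Prime) {ζ : F}
    (hζ : IsPrimitiveRoot ζ p) (T : Set (HeightOneSpectrum (𝓞 F))) (hT : T.Finite) {U : Type*}
    [CommGroup U] (ι : U →* Fˣ) (hι : Function.Injective ι) (hrange : ι.range = T.unit F) :
    (powMonoidHom p : U →* U).range.index = p ^ (Units.rank F + T.ncard + 1) := by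
  have : NeZero p := ⟨hp.ne_zero⟩
  obtain ⟨hfin, hrk⟩ := finite_and_finrank_of_range_eq_unit T hT ι hι hrange
  have h1 := Fermat.Agent.REG.index_range_nsmul_eq (X := Additive U) p hp.ne_zero
  have h2 : (powMonoidHom p : U →* U).range.index =
      (nsmulAddMonoidHom (α := Additive U) p).range.index := by
    rw [← Subgroup.index_toAddSubgroup]
    rfl
  -- the `p`-torsion of `U` is `μ_p(F)`
  have h3 : Nat.card (nsmulAddMonoidHom (α := Additive U) p).ker = p := by
    refine (Nat.card_congr (β := rootsOfUnity p F) (Equiv.ofBijective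
      (fun u => ⟨ι (Additive.toMul u.1), ?_⟩) ⟨?_, ?_⟩)).trans hζ.card_rootsOfUnity
    · rw [mem_rootsOfUnity, ← map_pow]
      have := u.2
      rw [AddMonoidHom.mem_ker] at this
      have h4 : Additive.toMul u.1 ^ p = 1 := this
      rw [h4, map_one]
    · intro u u' h
      have := hι (Subtype.ext_iff.mp h)
      exact Subtype.ext this
    · intro x
      have hx := (mem_rootsOfUnity _ _).mp x.2
      have hmem : (x : Fˣ) ∈ ι.range := by
        rw [hrange]
        intro v _
        apply valuation_eq_one_of_pow_eq_one v hp.ne_zero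
        rw [← Units.val_pow_eq_pow_val, hx, Units.val_one]
      obtain ⟨u, hu⟩ := hmem
      refine ⟨⟨Additive.ofMul u, ?_⟩, Subtype.ext hu⟩
      rw [AddMonoidHom.mem_ker]
      show Additive.ofMul (u ^ p) = 0
      have : u ^ p = 1 := by
        apply hι
        rw [map_pow, hu, hx, map_one]
      rw [this]
      rfl
  rw [h2, h1, h3, hrk, pow_succ]

end PowQuot

section PowQuot2

variable {F : Type*} [Field F] [NumberField F]

omit [NumberField F] in
/-- A number field containing a primitive `p`-th root of unity, `p` odd, is totally complex. -/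
lemma isTotallyComplex_of_isPrimitiveRoot {p : ℕ} (hp : p.Prime) (hp2 : p ≠ 2) {ζ : F}
    (hζ : IsPrimitiveRoot ζ p) : IsTotallyComplex F := by
  refine ⟨fun v => ?_⟩
  by_contra hv
  rw [InfinitePlace.not_isComplex_iff_isReal] at hv
  let φ : F →+* ℝ := InfinitePlace.embedding_of_isReal hv
  have h1 : φ ζ ^ p = 1 := by rw [← map_pow, hζ.pow_eq_one, map_one]
  have h2 : φ ζ = 1 := by
    have hodd := hp.odd_of_ne_two hp2
    exact hodd.pow_inj.mp (by rw [h1, one_pow])
  have h3 : ζ = 1 := φ.injective (h2.trans (map_one φ).symm)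
  exact hζ.ne_one hp.one_lt h3

/-- `2 (r_F + 1) = [F : ℚ]` when `ζ_p ∈ F`, `p` odd. -/
lemma two_mul_rank_add_one_of_isPrimitiveRoot {p : ℕ} (hp : p.Prime) (hp2 : p ≠ 2) {ζ : F}
    (hζ : IsPrimitiveRoot ζ p) : 2 * (Units.rank F + 1) = Module.finrank ℚ F := by
  have := isTotallyComplex_of_isPrimitiveRoot hp hp2 hζ
  have h1 : 0 < Fintype.card (InfinitePlace F) := Fintype.card_pos
  unfold Units.rank
  rw [Nat.sub_add_cancel h1, InfinitePlace.card_eq_nrRealPlaces_add_nrComplexPlaces,
    IsTotallyComplex.nrRealPlaces_eq_zero, zero_add, IsTotallyComplex.finrank]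

/-- Rational version of `index_range_powMonoidHom_sUnits`. -/
theorem index_range_powMonoidHom_sUnits_rat {p : ℕ} (hp : p.Prime) {ζ : F}
    (hζ : IsPrimitiveRoot ζ p) (S : Set Nat.Primes) (hS : S.Finite) {U : Type*}
    [CommGroup U] (ι : U →* Fˣ) (hι : Function.Injective ι)
    (hrange : ι.range = (primesOverRat F S).unit F) :
    (powMonoidHom p : U →* U).range.index =
      p ^ (Units.rank F + ∑ ℓ ∈ hS.toFinset, (ratFiber F ℓ).ncard + 1) := by
  rw [← ncard_primesOverRat hS]
  exact index_range_powMonoidHom_sUnits hp hζ _ (primesOverRat_finite hS) ι hι hrange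

end PowQuot2

end Fermat.Agent.CFT.SUnit
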