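import Mathlib
import Fermat.Agent.CFT.Global.G01_helper7_Local
import Fermat.Agent.CFT.Global.G2_helper2_SIdeles

/-!
# CFT (G3): definitions for the second inequality

* `FinPlace K`: the type of all finite places of `K` (pairs `⟨ℓ, w⟩`);
* `placeIdeles K S T`: finite ideles which are units outside the rational primes in `S` and the
  places in `T`; `placeUnits K S T = K^× ∩ placeIdeles K S T`;
* the input statements `SUnitIndexStatement p` and `ExistsIdelesGeneratedBy` of the second
  inequality.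
-/

set_option autoImplicit false

open scoped TensorProduct NumberField RestrictedProduct

namespace Fermat.Agent.CFT.T2

open Fermat.Agent.CFT Fermat.Agent.CFT.Place

/-- all finite places of `K`, as pairs `⟨ℓ, w⟩` with `w` a place over the rational prime `ℓ` -/
abbrev FinPlace (K : Type*) [Field K] [CharZero K] : Type _ :=
  Σ ℓ : Nat.Primes, Place (ℓ : ℕ) K

section defs

variable (K : Type*) [Field K] [CharZero K]

/-- The finite ideles which are units at all places not over `S` and not in `T`. -/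
def placeIdeles (S : Set Nat.Primes) (T : Set (FinPlace K)) : Subgroup (FinIdele K) where
  carrier := {x | ∀ (ℓ : Nat.Primes) (w : Place (ℓ : ℕ) K), ℓ ∉ S → (⟨ℓ, w⟩ : FinPlace K) ∉ T →
    w.unitsProj (x ℓ) ∈ w.integerUnits}
  mul_mem' := fun {x y} hx hy ℓ w hℓ hw => by
    have h : w.unitsProj ((x * y) ℓ) = w.unitsProj (x ℓ) * w.unitsProj (y ℓ) :=
      map_mul w.unitsProj (x ℓ) (y ℓ)
    rw [h]
    exact (w.integerUnits).mul_mem (hx ℓ w hℓ hw) (hy ℓ w hℓ hw)
  one_mem' := fun ℓ w _ _ => by
    have h : w.unitsProj ((1 : FinIdele K) ℓ) = 1 := map_one w.unitsProj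
    rw [h]
    exact (w.integerUnits).one_mem
  inv_mem' := fun {x} hx ℓ w hℓ hw => by
    have h : w.unitsProj ((x⁻¹ : FinIdele K) ℓ) = (w.unitsProj (x ℓ))⁻¹ :=
      map_inv w.unitsProj (x ℓ)
    rw [h]
    exact (w.integerUnits).inv_mem (hx ℓ w hℓ hw)

variable {K}

lemma mem_placeIdeles_iff {S : Set Nat.Primes} {T : Set (FinPlace K)} {x : FinIdele K} :
    x ∈ placeIdeles K S T ↔ ∀ (ℓ : Nat.Primes) (w : Place (ℓ : ℕ) K), ℓ ∉ S →
      (⟨ℓ, w⟩ : FinPlace K) ∉ T → w.unitsProj (x ℓ) ∈ w.integerUnits := Iff.rfl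

variable (K) [Algebra.IsAlgebraic ℚ K]

/-- The elements of `K^×` which are units at all places not over `S` and not in `T`. -/
noncomputable def placeUnits (S : Set Nat.Primes) (T : Set (FinPlace K)) : Subgroup Kˣ :=
  (placeIdeles K S T).comap (FinIdele.diag K)

variable {K}

lemma mem_placeUnits_iff {S : Set Nat.Primes} {T : Set (FinPlace K)} {y : Kˣ} :
    y ∈ placeUnits K S T ↔ ∀ (ℓ : Nat.Primes) (w : Place (ℓ : ℕ) K), ℓ ∉ S →
      (⟨ℓ, w⟩ : FinPlace K) ∉ T → Units.map (w.embed : K →* w.Completion) y ∈ w.integerUnits :=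
  Iff.rfl

lemma sIdeles_le_placeIdeles (K : Type*) [Field K] [NumberField K] (S : Set Nat.Primes)
    (T : Set (FinPlace K)) : sIdeles K S ≤ placeIdeles K S T := by
  intro x hx ℓ w hℓ _
  exact (SemiLocal.mem_unitGroup_iff_forall.mp (hx ℓ hℓ)) w

lemma placeIdeles_empty (K : Type*) [Field K] [NumberField K] (S : Set Nat.Primes) :
    placeIdeles K S ∅ = sIdeles K S := by
  refine le_antisymm ?_ (sIdeles_le_placeIdeles K S ∅)
  intro x hx ℓ hℓ
  exact SemiLocal.mem_unitGroup_iff_forall.mpr fun w => hx ℓ w hℓ (Set.notMem_empty _)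

lemma placeUnits_empty (K : Type*) [Field K] [NumberField K] (S : Set Nat.Primes) :
    placeUnits K S ∅ = sUnits K S := by
  unfold placeUnits sUnits
  rw [placeIdeles_empty]

lemma sUnits_le_placeUnits (K : Type*) [Field K] [NumberField K] (S : Set Nat.Primes)
    (T : Set (FinPlace K)) : sUnits K S ≤ placeUnits K S T :=
  Subgroup.comap_mono (sIdeles_le_placeIdeles K S T)

end defs

/-- **Input (S-unit index)**: for a number field `K ∋ ζ_p`, a finite set `S` of rational primes
and a finite set `T` of places of `K` not over `S`, the group `Y` of elements of `K^×` which are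
units outside `S ∪ T` has `[Y : Y^p] = p ^ k` with
`2 k = 2 (#{places over S} + #T) + [K : ℚ]`. -/
def SUnitIndexStatement (p : ℕ) : Prop :=
  ∀ (K : Type) [Field K] [NumberField K], (∃ ζ : K, IsPrimitiveRoot ζ p) →
    ∀ (S : Finset Nat.Primes) (T : Finset (FinPlace K)), (∀ t ∈ T, t.1 ∉ S) →
    ∃ k : ℕ, 2 * k = 2 * (∑ ℓ ∈ S, Nat.card (Place (ℓ : ℕ) K) + T.card) + Module.finrank ℚ K ∧
      (powMonoidHom p : placeUnits K (S : Set Nat.Primes) (T : Set (FinPlace K)) →* _).range.index =
        p ^ k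

/-- **Input (finiteness of the class group)**: `J_K = K^× J_{K,S}` for some finite `S`. -/
def ExistsIdelesGeneratedBy : Prop :=
  ∀ (K : Type) [Field K] [NumberField K],
    ∃ S : Finset Nat.Primes, IdelesGeneratedBy K (S : Set Nat.Primes)

end Fermat.Agent.CFT.T2
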