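/-
CFT global part (G3f) (helper8): proof of helper1's input `SUnitIndexStatement p` (p odd):
for `K ∋ ζ_p`, a finite set `S` of rational primes and a finite set `T` of places outside `S`, the
group `Y = placeUnits K S T` of elements of `K^×` which are units outside `S ∪ T` has
`[Y : Y^p] = p ^ k` with `2 k = 2 (#{places over S} + #T) + [K : ℚ]`.
-/
import Fermat.Agent.CFT.Global.T2_helper1_Defs
import Fermat.Agent.CFT.Global.G04_lead_SUnits
import Fermat.Agent.CFT.Global.G2a_helper6_PowQuot

set_option autoImplicit false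

open scoped TensorProduct NumberField RestrictedProduct
open IsDedekindDomain

namespace Fermat.Agent.CFT.T2

open Fermat.Agent.CFT Fermat.Agent.CFT.Place Fermat.Agent.CFT.Local

section perPlace

variable {ℓ : ℕ} [Fact ℓ.Prime] {F : Type} [Field F] [NumberField F] (w : Place ℓ F)

/-- a unit of the completion is a unit of the valuation ring iff its valuation is zero -/
theorem mem_integerUnits_iff_ord (z : w.Completionˣ) :
    z ∈ w.integerUnits ↔ ord w.integers (z : w.Completion) = 0 := by
  rw [mem_integerUnits_iff]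
  constructor
  · rintro ⟨h1, h2⟩
    have a1 : 0 ≤ ord w.integers (z : w.Completion) := (ord_nonneg_iff w.integers).2 ⟨⟨_, h1⟩, rfl⟩
    have a2 : 0 ≤ ord w.integers ((z⁻¹ : w.Completionˣ) : w.Completion) :=
      (ord_nonneg_iff w.integers).2 ⟨⟨_, h2⟩, rfl⟩
    rw [Units.val_inv_eq_inv_val, ord_inv] at a2
    omega
  · intro h
    constructor
    · obtain ⟨r, hr⟩ := (ord_nonneg_iff w.integers).1 h.ge
      rw [← hr]; exact r.2
    · have : 0 ≤ ord w.integers ((z⁻¹ : w.Completionˣ) : w.Completion) := by
        rw [Units.val_inv_eq_inv_val, ord_inv, h, neg_zero]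
      obtain ⟨r, hr⟩ := (ord_nonneg_iff w.integers).1 this
      rw [← hr]; exact r.2

/-- **per-place bridge**: `y ∈ F^×` is a unit at the place `w` iff its valuation at the prime
`w.toHeightOne` of `𝓞 F` is one -/
theorem embed_mem_integerUnits_iff (y : Fˣ) :
    Units.map (w.embed : F →* w.Completion) y ∈ w.integerUnits ↔
      w.toHeightOne.valuation F (y : F) = 1 := by
  rw [mem_integerUnits_iff_ord]
  change ord w.integers (w.embed (y : F)) = 0 ↔ _
  rw [w.ord_embed_eq_ordAt y.ne_zero, w.ordAt_toPrime, neg_eq_zero]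
  have hne : w.toHeightOne.valuation F (y : F) ≠ 0 := (Valuation.ne_zero_iff _).2 y.ne_zero
  constructor
  · intro h
    rw [← WithZero.exp_log hne, h, WithZero.exp_zero]
  · intro h
    rw [h, WithZero.log_one]

end perPlace

section bridge

variable {K : Type} [Field K] [NumberField K]

/-- the prime of `𝓞 K` of a finite place -/
noncomputable def FinPlace.toHeightOne (t : FinPlace K) : HeightOneSpectrum (𝓞 K) :=
  t.2.toHeightOne

theorem FinPlace.toHeightOne_injective :
    Function.Injective (FinPlace.toHeightOne : FinPlace K → HeightOneSpectrum (𝓞 K)) := by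
  rintro ⟨ℓ, w⟩ ⟨ℓ', w'⟩ h
  have h1 : w.toHeightOne = w'.toHeightOne := h
  have h2 : ℓ = ℓ' := by
    refine prime_mem_unique w.toHeightOne w.natCast_mem_toPrime ?_
    rw [h1]; exact w'.natCast_mem_toPrime
  subst h2
  have h3 : w = w' := Place.toPrime_injective (congrArg HeightOneSpectrum.asIdeal h1)
  subst h3
  rfl

/-- the primes of `𝓞 K` over `S` together with the primes of the places in `T` -/
noncomputable def primesOfPlaces (S : Set Nat.Primes) (T : Set (FinPlace K)) :
    Set (HeightOneSpectrum (𝓞 K)) :=
  primesOver K S ∪ FinPlace.toHeightOne '' T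

/-- **bridge**: `placeUnits K S T` is Mathlib's group of `P`-units for `P = primesOfPlaces S T` -/
theorem placeUnits_eq_unit (S : Set Nat.Primes) (T : Set (FinPlace K)) :
    placeUnits K S T = (primesOfPlaces S T).unit K := by
  ext y
  rw [mem_placeUnits_iff]
  change _ ↔ ∀ v ∉ primesOfPlaces S T, v.valuation K (y : K) = 1
  constructor
  · intro h v hv
    have hvS : primeBelow v ∉ S := fun hS => hv (Or.inl hS)
    have hvT : (⟨primeBelow v, placeAbove v⟩ : FinPlace K) ∉ T := fun hT =>
      hv (Or.inr ⟨_, hT, placeAbove_toHeightOne v⟩)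
    have h1 := h (primeBelow v) (placeAbove v) hvS hvT
    rw [embed_mem_integerUnits_iff, placeAbove_toHeightOne] at h1
    exact h1
  · intro h ℓ w hℓ hw
    rw [embed_mem_integerUnits_iff]
    apply h
    rintro (hS | ⟨t, ht, hteq⟩)
    · rw [mem_primesOver_iff, primeBelow_toHeightOne] at hS
      exact hℓ hS
    · have : t = ⟨ℓ, w⟩ := FinPlace.toHeightOne_injective hteq
      rw [this] at ht
      exact hw ht

theorem ncard_primesOfPlaces (S : Finset Nat.Primes) (T : Finset (FinPlace K))
    (hT : ∀ t ∈ T, t.1 ∉ S) :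
    (primesOfPlaces (S : Set Nat.Primes) (T : Set (FinPlace K))).ncard =
      ∑ ℓ ∈ S, Nat.card (Place (ℓ : ℕ) K) + T.card := by
  classical
  have hfinT : (FinPlace.toHeightOne '' (T : Set (FinPlace K))).Finite :=
    (T.finite_toSet).image _
  have hdisj : Disjoint (primesOver K (S : Set Nat.Primes))
      (FinPlace.toHeightOne '' (T : Set (FinPlace K))) := by
    rw [Set.disjoint_left]
    rintro v hvS ⟨t, ht, rfl⟩
    rw [mem_primesOver_iff] at hvS
    have : primeBelow (FinPlace.toHeightOne t) = t.1 := primeBelow_toHeightOne t.2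
    rw [this] at hvS
    exact hT t ht hvS
  unfold primesOfPlaces
  rw [Set.ncard_union_eq hdisj (finite_primesOver S) hfinT, ncard_primesOver,
    Set.ncard_image_of_injective _ FinPlace.toHeightOne_injective, Set.ncard_coe_finset]

theorem finite_primesOfPlaces (S : Finset Nat.Primes) (T : Finset (FinPlace K)) :
    (primesOfPlaces (S : Set Nat.Primes) (T : Set (FinPlace K))).Finite :=
  (finite_primesOver S).union ((T.finite_toSet).image _)

end bridge

/-- **helper1's input `SUnitIndexStatement p`** for an odd prime `p`. -/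
theorem sUnitIndexStatement {p : ℕ} (hp : p.Prime) (hp2 : p ≠ 2) : SUnitIndexStatement p := by
  intro K _ _ hζ S T hT
  obtain ⟨ζ, hζ⟩ := hζ
  refine ⟨NumberField.Units.rank K + (primesOfPlaces (S : Set Nat.Primes) (T : Set (FinPlace K))).ncard + 1,
    ?_, ?_⟩
  · have h1 := SUnit.two_mul_rank_add_one_of_isPrimitiveRoot hp hp2 hζ
    rw [ncard_primesOfPlaces S T hT]
    omega
  · refine SUnit.index_range_powMonoidHom_sUnits hp hζ _ (finite_primesOfPlaces S T)
      (placeUnits K (S : Set Nat.Primes) (T : Set (FinPlace K))).subtype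
      Subtype.val_injective ?_
    rw [Subgroup.range_subtype, placeUnits_eq_unit]

end Fermat.Agent.CFT.T2
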