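/-
CFT global part (G3b) (helper8): upper bound for the index of the `p`-th powers in the unit
group of `ℚ_ℓ ⊗ F` (input of the counting step of the second inequality).
-/
import Fermat.Agent.CFT.Local.Kummer_helper1
import Fermat.Agent.CFT.Local.L6_helper7
import Fermat.Agent.CFT.Global.G01_helper7_Structure

set_option autoImplicit false
set_option linter.unusedSectionVars false

open IsLocalRing

namespace Fermat.Agent.CFT

/-! ### Local part: finite extensions of `ℚ_ℓ` -/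

namespace Local

section Single

variable (ℓ : ℕ) [Fact ℓ.Prime] (K : Type*) [Field K] [Algebra ℚ_[ℓ] K]
  [FiniteDimensional ℚ_[ℓ] K] [Algebra ℤ_[ℓ] K] [IsScalarTower ℤ_[ℓ] ℚ_[ℓ] K]

/-- `|𝒪_K / ℓ 𝒪_K| = ℓ ^ [K : ℚ_ℓ]`. -/
theorem card_padicInts_quotient_span_self :
    Nat.card (padicInts ℓ K ⧸ Ideal.span {((ℓ : ℕ) : padicInts ℓ K)}) =
      ℓ ^ Module.finrank ℚ_[ℓ] K := by
  have hmap := map_maximalIdeal_eq ℤ_[ℓ] ℚ_[ℓ] K (padicInts ℓ K)
  rw [PadicInt.maximalIdeal_eq_span_p, Ideal.map_span, Set.image_singleton, map_natCast] at hmap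
  rw [hmap]
  have hP0 : maximalIdeal (padicInts ℓ K) ≠ ⊥ := by
    intro h
    exact IsDiscreteValuationRing.not_isField (padicInts ℓ K)
      ((isField_iff_maximalIdeal_eq).mpr h)
  have h1 := cardQuot_pow_of_prime (P := maximalIdeal (padicInts ℓ K)) hP0
    (i := ramIdx ℤ_[ℓ] (padicInts ℓ K))
  rw [Submodule.cardQuot_apply, Submodule.cardQuot_apply] at h1
  rw [h1]
  have h2 : Nat.card (padicInts ℓ K ⧸ maximalIdeal (padicInts ℓ K)) =
      Nat.card (ResidueField ℤ_[ℓ]) ^ resDeg ℤ_[ℓ] (padicInts ℓ K) :=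
    card_residueField ℤ_[ℓ] (padicInts ℓ K)
  have h3 : Nat.card (ResidueField ℤ_[ℓ]) = ℓ := by
    rw [Nat.card_congr (PadicInt.residueField (p := ℓ)).toEquiv, Nat.card_zmod]
  rw [h2, h3, ← pow_mul, mul_comm, ramIdx_mul_resDeg ℤ_[ℓ] ℚ_[ℓ] K (padicInts ℓ K)]

/-- a prime `p ≠ ℓ` is a unit of `𝒪_K` -/
theorem isUnit_natCast_padicInts {p : ℕ} (hp : p.Prime) (hne : ℓ ≠ p) :
    IsUnit ((p : ℕ) : padicInts ℓ K) := by
  have h1 : IsUnit ((p : ℕ) : ℤ_[ℓ]) := by
    rw [PadicInt.isUnit_iff, PadicInt.norm_natCast_eq_one_iff]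
    exact ((Nat.coprime_primes (Fact.out : ℓ.Prime) hp).mpr hne)
  have := h1.map (algebraMap ℤ_[ℓ] (padicInts ℓ K))
  rwa [map_natCast] at this

/-- **Local index bound**: for a finite extension `K` of `ℚ_ℓ` and a prime `p`,
`[Kˣ : Kˣ^p] ≤ p²` if `ℓ ≠ p` and `≤ p^(2 + [K : ℚ_p])` if `ℓ = p`. -/
theorem card_units_quotient_pow_le_padic {p : ℕ} (hp : p.Prime) :
    Finite (Kˣ ⧸ (powMonoidHom p : Kˣ →* Kˣ).range) ∧
    Nat.card (Kˣ ⧸ (powMonoidHom p : Kˣ →* Kˣ).range) ≤
      p ^ 2 * (if ℓ = p then p ^ Module.finrank ℚ_[ℓ] K else 1) := by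
  have : CharZero (padicInts ℓ K) :=
    charZero_of_injective_algebraMap (algebraMap_injective' ℤ_[ℓ] ℚ_[ℓ] K (padicInts ℓ K))
  have hpA : ((p : ℕ) : padicInts ℓ K) ≠ 0 := Nat.cast_ne_zero.mpr hp.ne_zero
  obtain ⟨hfin, hcard⟩ := LocalKummer.card_units_quotient_pow_le (padicInts ℓ K) K p hp.ne_zero hpA
  refine ⟨hfin, hcard.trans ?_⟩
  by_cases h : ℓ = p
  · subst h
    rw [if_pos rfl]
    obtain ⟨π, hπ⟩ := IsDiscreteValuationRing.exists_irreducible (padicInts ℓ K)
    obtain ⟨hidx, -⟩ := LocalKummer.index_pow_units_le (A := padicInts ℓ K) ℓ hp.ne_zero hpA hπ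
    have hc := card_padicInts_quotient_span_self ℓ K
    calc (powMonoidHom ℓ : (padicInts ℓ K)ˣ →* (padicInts ℓ K)ˣ).range.index * ℓ
        ≤ (Nat.card (padicInts ℓ K ⧸ Ideal.span {((ℓ : ℕ) : padicInts ℓ K)}) * ℓ) * ℓ :=
          Nat.mul_le_mul_right ℓ hidx
      _ = ℓ ^ 2 * ℓ ^ Module.finrank ℚ_[ℓ] K := by
          rw [hc]; ring
  · rw [if_neg h, mul_one]
    obtain ⟨hidx, -⟩ := LocalKummer.index_pow_units_le_of_isUnit (A := padicInts ℓ K) p
      (isUnit_natCast_padicInts ℓ K hp h)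
    calc (powMonoidHom p : (padicInts ℓ K)ˣ →* (padicInts ℓ K)ˣ).range.index * p
        ≤ p * p := Nat.mul_le_mul_right p hidx
      _ = p ^ 2 := by ring

end Single

end Local

/-! ### Group theory: quotients by `p`-th powers -/

section Groups

/-- the quotient by the `p`-th powers is invariant under isomorphisms -/
noncomputable def quotientPowCongr {G H : Type*} [CommGroup G] [CommGroup H] (e : G ≃* H)
    (p : ℕ) :
    G ⧸ (powMonoidHom p : G →* G).range ≃* H ⧸ (powMonoidHom p : H →* H).range :=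
  QuotientGroup.congr _ _ e (by
    ext x
    constructor
    · rintro ⟨_, ⟨g, rfl⟩, rfl⟩
      exact ⟨e g, by simp⟩
    · rintro ⟨h, rfl⟩
      exact ⟨e.symm h ^ p, ⟨e.symm h, rfl⟩, by simp⟩)

theorem card_pi_quotient_pow_le {ι : Type*} [Fintype ι] {M : ι → Type*} [∀ i, CommGroup (M i)]
    (p : ℕ) (hfin : ∀ i, Finite (M i ⧸ (powMonoidHom p : M i →* M i).range)) :
    Finite ((∀ i, M i) ⧸ (powMonoidHom p : (∀ i, M i) →* (∀ i, M i)).range) ∧
    Nat.card ((∀ i, M i) ⧸ (powMonoidHom p : (∀ i, M i) →* (∀ i, M i)).range) ≤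
      ∏ i, Nat.card (M i ⧸ (powMonoidHom p : M i →* M i).range) := by
  classical
  let f : (∀ i, M i) →* (∀ i, M i ⧸ (powMonoidHom p : M i →* M i).range) :=
    MonoidHom.pi fun i => (QuotientGroup.mk' _).comp (Pi.evalMonoidHom M i)
  have hker : f.ker = (powMonoidHom p : (∀ i, M i) →* (∀ i, M i)).range := by
    ext x
    rw [MonoidHom.mem_ker]
    constructor
    · intro hx
      have h1 : ∀ i, ∃ y : M i, y ^ p = x i := by
        intro i
        have := congrFun hx i
        change (QuotientGroup.mk (x i) : M i ⧸ (powMonoidHom p : M i →* M i).range) = 1 at this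
        rw [QuotientGroup.eq_one_iff] at this
        exact this
      choose y hy using h1
      exact ⟨y, funext hy⟩
    · rintro ⟨y, rfl⟩
      funext i
      change (QuotientGroup.mk ((y ^ p) i) : M i ⧸ (powMonoidHom p : M i →* M i).range) = 1
      rw [QuotientGroup.eq_one_iff]
      exact ⟨y i, rfl⟩
  have hidx : (powMonoidHom p : (∀ i, M i) →* (∀ i, M i)).range.index = Nat.card f.range := by
    rw [← hker, Subgroup.index_ker]
  have hle : Nat.card f.range ≤ ∏ i, Nat.card (M i ⧸ (powMonoidHom p : M i →* M i).range) := by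
    rw [← Nat.card_pi]
    exact Nat.card_le_card_of_injective _ Subtype.val_injective
  have hpos : 0 < Nat.card f.range := Nat.card_pos
  constructor
  · rw [← not_infinite_iff_finite, ← Subgroup.index_eq_zero_iff_infinite, hidx]
    exact hpos.ne'
  · rw [← Subgroup.index_eq_card, hidx]
    exact hle

/-- abstract counting: if `f : Q → X` is surjective and kills the subgroup `R`, then
`|X| · |R| ≤ |Q|`. -/
theorem card_mul_card_le_of_surjective {Q X : Type*} [Group Q] [Finite Q] [Group X]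
    (f : Q →* X) (hf : Function.Surjective f) (R : Subgroup Q) (hR : R ≤ f.ker) :
    Nat.card X * Nat.card R ≤ Nat.card Q := by
  have h1 : Nat.card f.ker * f.ker.index = Nat.card Q := Subgroup.card_mul_index f.ker
  have h2 : f.ker.index = Nat.card X := by
    rw [Subgroup.index_ker, MonoidHom.range_eq_top.mpr hf]
    exact Nat.card_congr Subgroup.topEquiv.toEquiv
  have h3 : Nat.card R ≤ Nat.card f.ker := Subgroup.card_le_of_le hR
  calc Nat.card X * Nat.card R ≤ Nat.card X * Nat.card f.ker := Nat.mul_le_mul_left _ h3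
    _ = Nat.card Q := by rw [← h1, h2, mul_comm]

end Groups

/-! ### The semi-local bound -/

namespace SemiLocal

section Bound

variable (ℓ : ℕ) [Fact ℓ.Prime] (F : Type*) [Field F] [NumberField F]

/-- **Semi-local index bound**: `[(ℚ_ℓ ⊗ F)ˣ : p-th powers] ≤ p^(2 #{places over ℓ})` if
`ℓ ≠ p`, and `≤ p^(2 #{places over p} + [F : ℚ])` if `ℓ = p`. -/
theorem card_units_quotient_pow_le {p : ℕ} (hp : p.Prime) :
    Finite ((SemiLocal ℓ F)ˣ ⧸ (powMonoidHom p : (SemiLocal ℓ F)ˣ →* (SemiLocal ℓ F)ˣ).range) ∧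
    Nat.card ((SemiLocal ℓ F)ˣ ⧸
        (powMonoidHom p : (SemiLocal ℓ F)ˣ →* (SemiLocal ℓ F)ˣ).range) ≤
      p ^ (2 * Nat.card (Place ℓ F)) * (if ℓ = p then p ^ Module.finrank ℚ F else 1) := by
  classical
  let _ : Fintype (Place ℓ F) := Fintype.ofFinite _
  have hloc : ∀ w : Place ℓ F,
      Finite (w.Completionˣ ⧸ (powMonoidHom p : w.Completionˣ →* w.Completionˣ).range) ∧
      Nat.card (w.Completionˣ ⧸ (powMonoidHom p : w.Completionˣ →* w.Completionˣ).range) ≤
        p ^ 2 * (if ℓ = p then p ^ Module.finrank ℚ_[ℓ] w.Completion else 1) :=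
    fun w => Local.card_units_quotient_pow_le_padic ℓ w.Completion hp
  obtain ⟨hfin, hcard⟩ := card_pi_quotient_pow_le (M := fun w : Place ℓ F => w.Completionˣ) p
    fun w => (hloc w).1
  have e := quotientPowCongr (unitsEquivPi ℓ F) p
  refine ⟨Finite.of_equiv _ e.symm.toEquiv, ?_⟩
  rw [Nat.card_congr e.toEquiv]
  refine hcard.trans ((Finset.prod_le_prod' fun w _ => (hloc w).2).trans (le_of_eq ?_))
  rw [Finset.prod_mul_distrib, Finset.prod_const, Finset.card_univ, ← Nat.card_eq_fintype_card,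
    ← pow_mul]
  congr 1
  by_cases h : ℓ = p
  · simp only [if_pos h]
    rw [Finset.prod_pow_eq_pow_sum, sum_finrank_completion]
  · simp only [if_neg h]
    exact Finset.prod_const_one

/-- the bound for a finite set `S` of rational primes: the group `∏_{ℓ ∈ S} (ℚ_ℓ ⊗ F)ˣ` modulo
`p`-th powers has order at most `p ^ (2 #{places of F over S} + [F : ℚ])` (the summand `[F : ℚ]`
is only needed if `p ∈ S`). -/
theorem card_pi_units_quotient_pow_le {p : ℕ} (hp : p.Prime) (S : Finset Nat.Primes) :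
    Finite ((∀ q : S, (SemiLocal ((q : Nat.Primes) : ℕ) F)ˣ) ⧸
      (powMonoidHom p : (∀ q : S, (SemiLocal ((q : Nat.Primes) : ℕ) F)ˣ) →* _).range) ∧
    Nat.card ((∀ q : S, (SemiLocal ((q : Nat.Primes) : ℕ) F)ˣ) ⧸
        (powMonoidHom p : (∀ q : S, (SemiLocal ((q : Nat.Primes) : ℕ) F)ˣ) →* _).range) ≤
      p ^ (2 * ∑ q ∈ S, Nat.card (Place ((q : Nat.Primes) : ℕ) F) + Module.finrank ℚ F) := by
  classical
  have hloc := fun q : S => card_units_quotient_pow_le ((q : Nat.Primes) : ℕ) F hp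
  obtain ⟨hfin, hcard⟩ := card_pi_quotient_pow_le
    (M := fun q : S => (SemiLocal ((q : Nat.Primes) : ℕ) F)ˣ) p fun q => (hloc q).1
  refine ⟨hfin, hcard.trans ((Finset.prod_le_prod' fun q _ => (hloc q).2).trans ?_)⟩
  rw [Finset.prod_mul_distrib, Finset.prod_pow_eq_pow_sum, ← Finset.mul_sum, pow_add]
  have h0 : ∑ q : S, Nat.card (Place ((q : Nat.Primes) : ℕ) F) =
      ∑ q ∈ S, Nat.card (Place ((q : Nat.Primes) : ℕ) F) :=
    Finset.sum_coe_sort S fun q : Nat.Primes => Nat.card (Place (q : ℕ) F)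
  rw [h0]
  refine Nat.mul_le_mul_left _ ?_
  have h1 : ∏ q : S, (if ((q : Nat.Primes) : ℕ) = p then p ^ Module.finrank ℚ F else 1) =
      ∏ q ∈ S, (if ((q : Nat.Primes) : ℕ) = p then p ^ Module.finrank ℚ F else 1) :=
    Finset.prod_coe_sort S fun q : Nat.Primes =>
      (if (q : ℕ) = p then p ^ Module.finrank ℚ F else 1)
  rw [h1]
  have hpos : 1 ≤ p ^ Module.finrank ℚ F := Nat.one_le_pow _ _ hp.pos
  by_cases hpS : ∃ q ∈ S, ((q : Nat.Primes) : ℕ) = p
  · obtain ⟨q₀, hq₀, hq₀p⟩ := hpS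
    rw [Finset.prod_eq_single_of_mem q₀ hq₀]
    · rw [if_pos hq₀p]
    · intro q _ hq
      rw [if_neg]
      intro h
      exact hq (Subtype.ext (h.trans hq₀p.symm))
  · rw [Finset.prod_eq_one]
    · exact hpos
    · intro q hq
      rw [if_neg]
      intro h
      exact hpS ⟨q, hq, h⟩

end Bound

end SemiLocal

end Fermat.Agent.CFT
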