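/-
CFT global part (G3e) (helper8): the final counting of the second inequality, over the concrete
objects (helper1's shape): `J'` a subgroup of the finite ideles of `K` with `J_K = K^× J'`,
whose elements that are `p`-th powers at the primes of `S` are idele norms from `L`, and `Y ≤ K^×`
a subgroup with `diag Y ≤ J'` satisfying the key lemma.  Then
`|Ĥ⁰(G, C_L)| · [Y : Y^p] ≤ [∏_{ℓ ∈ S} (ℚ_ℓ ⊗ K)ˣ : p-th powers]`.
-/
import Fermat.Agent.CFT.Global.G3b_helper8_PowIndex
import Fermat.Agent.CFT.Global.G4_helper9_IdeleCoh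

set_option autoImplicit false

open scoped TensorProduct NumberField RestrictedProduct

namespace Fermat.Agent.CFT

open Coh

namespace FinIdele

variable (F : Type*) [Field F] [CharZero F] (S : Finset Nat.Primes) (p : ℕ)

/-- the components of a finite idele at the primes of the finite set `S` -/
noncomputable def projS : FinIdele F →* ∀ q : S, (SemiLocal ((q : Nat.Primes) : ℕ) F)ˣ :=
  MonoidHom.pi fun q => RestrictedProduct.evalMonoidHom _ (q : Nat.Primes)

@[simp] lemma projS_apply (x : FinIdele F) (q : S) : projS F S x q = x (q : Nat.Primes) := rfl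

/-- the group `∏_{ℓ ∈ S} (ℚ_ℓ ⊗ F)ˣ` modulo `p`-th powers -/
abbrev PowQuot : Type _ :=
  (∀ q : S, (SemiLocal ((q : Nat.Primes) : ℕ) F)ˣ) ⧸
    (powMonoidHom p : (∀ q : S, (SemiLocal ((q : Nat.Primes) : ℕ) F)ˣ) →* _).range

/-- the components of a finite idele at the primes of `S`, modulo `p`-th powers -/
noncomputable def projSModPow : FinIdele F →* PowQuot F S p :=
  (QuotientGroup.mk' _).comp (projS F S)

lemma projSModPow_eq_one_iff (x : FinIdele F) :
    projSModPow F S p x = 1 ↔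
      ∃ z : ∀ q : S, (SemiLocal ((q : Nat.Primes) : ℕ) F)ˣ, ∀ q : S, z q ^ p = x (q : Nat.Primes) := by
  change (QuotientGroup.mk (projS F S x) : PowQuot F S p) = 1 ↔ _
  rw [QuotientGroup.eq_one_iff]
  constructor
  · rintro ⟨z, hz⟩
    exact ⟨z, fun q => congrFun hz q⟩
  · rintro ⟨z, hz⟩
    exact ⟨z, funext hz⟩

lemma projSModPow_pow (x : FinIdele F) : projSModPow F S p (x ^ p) = 1 := by
  rw [projSModPow_eq_one_iff]
  exact ⟨fun q => x (q : Nat.Primes), fun q => rfl⟩

end FinIdele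

section Final

variable (K L : Type) [Field K] [NumberField K] [Field L] [NumberField L] [Algebra K L]
  [IsGalois K L]

/-- **Final counting of the second inequality.** -/
theorem card_tateH0_mul_le {p : ℕ} (hp : p.Prime) (S : Finset Nat.Primes)
    (J' : Subgroup (FinIdele K)) (Y : Subgroup Kˣ) (m : ℕ)
    (h1 : ∀ x : FinIdele K, ∃ c : Kˣ, FinIdele.diag K c * x ∈ J')
    (h2 : ∀ x ∈ J', FinIdele.projSModPow K S p x = 1 → IsIdeleNorm K L x)
    (h3 : ∀ y ∈ Y, FinIdele.diag K y ∈ J')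
    (h4 : ∀ y ∈ Y, FinIdele.projSModPow K S p (FinIdele.diag K y) = 1 → ∃ z ∈ Y, z ^ p = y)
    (h5 : p ^ m ≤ (powMonoidHom p : Y →* Y).range.index) :
    Finite (TateH0 (ideleClassRep K L)) ∧
      Nat.card (TateH0 (ideleClassRep K L)) * p ^ m ≤ Nat.card (FinIdele.PowQuot K S p) := by
  classical
  have hQfin : Finite (FinIdele.PowQuot K S p) := (SemiLocal.card_pi_units_quotient_pow_le K hp S).1
  -- notation
  let r : FinIdele K →* FinIdele.PowQuot K S p := FinIdele.projSModPow K S p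
  let ψ : FinIdele K →* Multiplicative (TateH0 (ideleClassRep K L)) :=
    AddMonoidHom.toMultiplicativeRight (ideleToTateH0 K L)
  have hψ_apply : ∀ x, ψ x = Multiplicative.ofAdd (ideleToTateH0 K L (Additive.ofMul x)) :=
    fun x => rfl
  have hψ_diag : ∀ c : Kˣ, ψ (FinIdele.diag K c) = 1 := fun c => by
    rw [hψ_apply, ideleToTateH0_diag]; rfl
  have hψ_norm : ∀ x, IsIdeleNorm K L x → ψ x = 1 := fun x hx => by
    rw [hψ_apply, ideleToTateH0_of_isIdeleNorm K L hx]; rfl
  have hψ_surj : Function.Surjective ψ := fun t => by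
    obtain ⟨x, hx⟩ := ideleToTateH0_surjective K L (Multiplicative.toAdd t)
    exact ⟨Additive.toMul x, by rw [hψ_apply]; exact congrArg Multiplicative.ofAdd hx⟩
  -- the restrictions to `J'`
  let r' : J' →* FinIdele.PowQuot K S p := r.comp J'.subtype
  let ψ' : J' →* Multiplicative (TateH0 (ideleClassRep K L)) := ψ.comp J'.subtype
  have hker : r'.ker ≤ ψ'.ker := by
    intro x hx
    rw [MonoidHom.mem_ker] at hx ⊢
    exact hψ_norm _ (h2 x.1 x.2 hx)
  -- the quotient `G₁ = J' / ker r'`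
  let φ₁ : J' ⧸ r'.ker →* Multiplicative (TateH0 (ideleClassRep K L)) :=
    QuotientGroup.lift r'.ker ψ' hker
  have hφ₁ : Function.Surjective φ₁ := by
    intro t
    obtain ⟨x, rfl⟩ := hψ_surj t
    obtain ⟨c, hc⟩ := h1 x
    refine ⟨QuotientGroup.mk ⟨_, hc⟩, ?_⟩
    change ψ (FinIdele.diag K c * x) = ψ x
    rw [map_mul, hψ_diag, one_mul]
  have hG₁fin : Finite (J' ⧸ r'.ker) :=
    Finite.of_equiv _ (QuotientGroup.quotientKerEquivRange r').symm.toEquiv
  have hG₁card : Nat.card (J' ⧸ r'.ker) ≤ Nat.card (FinIdele.PowQuot K S p) := by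
    rw [Nat.card_congr (QuotientGroup.quotientKerEquivRange r').toEquiv]
    exact Subgroup.card_le_card_group _
  have hXfin : Finite (Multiplicative (TateH0 (ideleClassRep K L))) :=
    Finite.of_surjective φ₁ hφ₁
  -- the image of `Y`
  let ι : Y →* J' ⧸ r'.ker :=
    (QuotientGroup.mk' r'.ker).comp
      (((FinIdele.diag K).comp Y.subtype).codRestrict J' fun y => h3 y.1 y.2)
  have hιker : ι.ker = (powMonoidHom p : Y →* Y).range := by
    ext y
    rw [MonoidHom.mem_ker]
    change (QuotientGroup.mk (⟨FinIdele.diag K y.1, h3 y.1 y.2⟩ : J') : J' ⧸ r'.ker) = 1 ↔ _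
    rw [QuotientGroup.eq_one_iff, MonoidHom.mem_ker]
    change r (FinIdele.diag K y.1) = 1 ↔ _
    constructor
    · intro hy
      obtain ⟨z, hz, hzy⟩ := h4 y.1 y.2 hy
      exact ⟨⟨z, hz⟩, Subtype.ext hzy⟩
    · rintro ⟨z, rfl⟩
      change r (FinIdele.diag K ((z ^ p : Y) : Kˣ)) = 1
      rw [Subgroup.coe_pow, map_pow]
      exact FinIdele.projSModPow_pow K S p _
  have hιrange : Nat.card ι.range = (powMonoidHom p : Y →* Y).range.index := by
    rw [← hιker, Subgroup.index_ker]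
  have hιle : ι.range ≤ φ₁.ker := by
    rintro _ ⟨y, rfl⟩
    rw [MonoidHom.mem_ker]
    change ψ (FinIdele.diag K y.1) = 1
    exact hψ_diag _
  have hcount := card_mul_card_le_of_surjective φ₁ hφ₁ ι.range hιle
  rw [hιrange] at hcount
  have hXcard : Nat.card (Multiplicative (TateH0 (ideleClassRep K L))) =
      Nat.card (TateH0 (ideleClassRep K L)) := Nat.card_congr Multiplicative.toAdd
  refine ⟨Finite.of_equiv _ Multiplicative.toAdd, ?_⟩
  rw [← hXcard]
  calc Nat.card (Multiplicative (TateH0 (ideleClassRep K L))) * p ^ m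
      ≤ Nat.card (Multiplicative (TateH0 (ideleClassRep K L))) *
          (powMonoidHom p : Y →* Y).range.index := Nat.mul_le_mul_left _ h5
    _ ≤ Nat.card (J' ⧸ r'.ker) := hcount
    _ ≤ Nat.card (FinIdele.PowQuot K S p) := hG₁card

/-- the form used for the second inequality: with `m + 1 ≥ 2 #{places of K over S} + [K : ℚ]`
one gets `|Ĥ⁰(G, C_L)| ≤ p`. -/
theorem card_tateH0_le_prime {p : ℕ} (hp : p.Prime) (S : Finset Nat.Primes)
    (J' : Subgroup (FinIdele K)) (Y : Subgroup Kˣ) (m : ℕ)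
    (h1 : ∀ x : FinIdele K, ∃ c : Kˣ, FinIdele.diag K c * x ∈ J')
    (h2 : ∀ x ∈ J', FinIdele.projSModPow K S p x = 1 → IsIdeleNorm K L x)
    (h3 : ∀ y ∈ Y, FinIdele.diag K y ∈ J')
    (h4 : ∀ y ∈ Y, FinIdele.projSModPow K S p (FinIdele.diag K y) = 1 → ∃ z ∈ Y, z ^ p = y)
    (h5 : p ^ m ≤ (powMonoidHom p : Y →* Y).range.index)
    (hm : 2 * ∑ q ∈ S, Nat.card (Place ((q : Nat.Primes) : ℕ) K) + Module.finrank ℚ K ≤ m + 1) :
    Finite (TateH0 (ideleClassRep K L)) ∧ Nat.card (TateH0 (ideleClassRep K L)) ≤ p := by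
  obtain ⟨hfin, hle⟩ := card_tateH0_mul_le K L hp S J' Y m h1 h2 h3 h4 h5
  refine ⟨hfin, ?_⟩
  have hQ := (SemiLocal.card_pi_units_quotient_pow_le K hp S).2
  have h6 : Nat.card (TateH0 (ideleClassRep K L)) * p ^ m ≤ p ^ (m + 1) :=
    hle.trans (hQ.trans (Nat.pow_le_pow_right hp.pos hm))
  rw [pow_succ, mul_comm (p ^ m) p] at h6
  exact Nat.le_of_mul_le_mul_right h6 (pow_pos hp.pos m)

end Final

end Fermat.Agent.CFT
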