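import Mathlib

/-!
# CFT (PT6): the existence theorem mod `p`, abstract index computations

Pure group theory: for a commutative group `J` with subgroups `P` ("principal ideles"),
`US ≤ JS ≤ JT` and `P ⊔ JT = ⊤`, the indices of `P ⊔ US ⊔ J^p` and `P ⊔ JS ⊔ J^p` in `J` are
computed inside `JT`, and the final numerical comparison of the existence theorem is derived.
-/

set_option autoImplicit false

namespace Fermat.Agent.CFT.PT6

section Abstract

variable {J : Type*} [CommGroup J]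

/-- the subgroup of `p`-th powers of the elements of `H` -/
def powSub (H : Subgroup J) (p : ℕ) : Subgroup J := H.map (powMonoidHom p)

lemma mem_powSub_iff {H : Subgroup J} {p : ℕ} {x : J} :
    x ∈ powSub H p ↔ ∃ y ∈ H, y ^ p = x := Iff.rfl

lemma pow_mem_powSub {H : Subgroup J} (p : ℕ) {y : J} (hy : y ∈ H) : y ^ p ∈ powSub H p :=
  ⟨y, hy, rfl⟩

lemma powSub_le (H : Subgroup J) (p : ℕ) : powSub H p ≤ H := by
  rintro _ ⟨y, hy, rfl⟩
  exact H.pow_mem hy p

lemma powSub_mono {H K : Subgroup J} (h : H ≤ K) (p : ℕ) : powSub H p ≤ powSub K p :=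
  Subgroup.map_mono h

lemma mem_sup_three {A B C : Subgroup J} {x : J} :
    x ∈ A ⊔ B ⊔ C ↔ ∃ a ∈ A, ∃ b ∈ B, ∃ c ∈ C, a * b * c = x := by
  constructor
  · intro hx
    obtain ⟨ab, hab, c, hc, rfl⟩ := Subgroup.mem_sup.mp hx
    obtain ⟨a, ha, b, hb, rfl⟩ := Subgroup.mem_sup.mp hab
    exact ⟨a, ha, b, hb, c, hc, rfl⟩
  · rintro ⟨a, ha, b, hb, c, hc, rfl⟩
    exact Subgroup.mul_mem_sup (Subgroup.mul_mem_sup ha hb) hc

/-- the intersection of `P ⊔ U ⊔ J^p` with `JT`, when `J = P · JT` and `U ≤ JT`. -/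
theorem sup_inf_eq (P JT U : Subgroup J) (p : ℕ) (hU : U ≤ JT) (hgen : P ⊔ JT = ⊤) :
    (P ⊔ U ⊔ powSub ⊤ p) ⊓ JT = (P ⊓ JT) ⊔ (U ⊔ powSub JT p) := by
  apply le_antisymm
  · rintro x ⟨hx, hxT⟩
    obtain ⟨a, ha, u, hu, _, ⟨y, -, rfl⟩, rfl⟩ := mem_sup_three.mp hx
    have hy : y ∈ P ⊔ JT := by rw [hgen]; exact Subgroup.mem_top y
    obtain ⟨b, hb, y', hy', rfl⟩ := Subgroup.mem_sup.mp hy
    have h1 : a * u * (b * y') ^ p = (a * b ^ p) * (u * y' ^ p) := by
      rw [mul_pow]; exact mul_mul_mul_comm a u (b ^ p) (y' ^ p)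
    have hB : u * y' ^ p ∈ JT := JT.mul_mem (hU hu) (JT.pow_mem hy' p)
    have hab : a * b ^ p ∈ JT := by
      have h2 : a * b ^ p = (a * u * (b * y') ^ p) * (u * y' ^ p)⁻¹ := by
        rw [h1, mul_inv_cancel_right]
      rw [h2]
      exact JT.mul_mem hxT (JT.inv_mem hB)
    change a * u * powMonoidHom p (b * y') ∈ _
    rw [powMonoidHom_apply, h1]
    exact Subgroup.mul_mem_sup ⟨P.mul_mem ha (P.pow_mem hb p), hab⟩
      (Subgroup.mul_mem_sup hu (pow_mem_powSub p hy'))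
  · refine sup_le (inf_le_inf_right _ (le_sup_left.trans le_sup_left)) ?_
    refine sup_le (le_inf (le_sup_right.trans le_sup_left) hU) ?_
    exact le_inf ((powSub_mono le_top p).trans le_sup_right) (powSub_le JT p)

/-- **Index computation**: `[J : P · U · J^p] · [E : E ∩ U · JT^p] = [JT : U · JT^p]` with
`E = P ∩ JT`. -/
theorem index_mul_relIndex (P JT U : Subgroup J) (p : ℕ) (hU : U ≤ JT) (hgen : P ⊔ JT = ⊤) :
    (P ⊔ U ⊔ powSub ⊤ p).index * (U ⊔ powSub JT p).relIndex (P ⊓ JT) =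
      (U ⊔ powSub JT p).relIndex JT := by
  set D := P ⊔ U ⊔ powSub ⊤ p with hD
  set B := U ⊔ powSub JT p with hB
  set E := P ⊓ JT with hE
  have hBT : B ≤ JT := sup_le hU (powSub_le JT p)
  have h1 : D.index = (E ⊔ B).relIndex JT := by
    have h2 : D ⊔ JT = ⊤ := by
      rw [eq_top_iff, ← hgen]
      exact sup_le ((le_sup_left.trans le_sup_left).trans le_sup_left) le_sup_right
    rw [← Subgroup.relIndex_top_right, ← h2, Subgroup.relIndex_sup_left,
      ← Subgroup.inf_relIndex_right, sup_inf_eq P JT U p hU hgen]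
  have h3 : B.relIndex (E ⊔ B) = B.relIndex E := Subgroup.relIndex_sup_right E B
  have h4 := Subgroup.relIndex_mul_relIndex B (E ⊔ B) JT le_sup_right
    (sup_le inf_le_right hBT)
  rw [h1, ← h3, mul_comm]
  exact h4

/-- `[JS · JT^p : US · JT^p] = [JS : US · JS^p]` if `JS` is `p`-saturated in `JT`. -/
theorem relIndex_sup_powSub (JT JS US : Subgroup J) (p : ℕ) (hUS : US ≤ JS) (hJS : JS ≤ JT)
    (hsat : ∀ y ∈ JT, y ^ p ∈ JS → y ∈ JS) :
    (US ⊔ powSub JT p).relIndex (JS ⊔ powSub JT p) = (US ⊔ powSub JS p).relIndex JS := by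
  have h1 : JS ⊔ powSub JT p = JS ⊔ (US ⊔ powSub JT p) := by
    rw [← sup_assoc, sup_eq_left.mpr hUS]
  have h2 : (US ⊔ powSub JT p) ⊓ JS = (US ⊔ powSub JS p) ⊓ JS := by
    apply le_antisymm
    · rintro x ⟨hx, hxS⟩
      obtain ⟨u, hu, _, ⟨y, hy, rfl⟩, rfl⟩ := Subgroup.mem_sup.mp hx
      have hyp : y ^ p ∈ JS := by
        have : y ^ p = u⁻¹ * (u * y ^ p) := by rw [inv_mul_cancel_left]
        rw [this]
        exact JS.mul_mem (JS.inv_mem (hUS hu)) hxS
      exact ⟨Subgroup.mul_mem_sup hu (pow_mem_powSub p (hsat y hy hyp)), hxS⟩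
    · exact inf_le_inf_right _ (sup_le_sup_left (powSub_mono hJS p) _)
  rw [h1, Subgroup.relIndex_sup_right, ← Subgroup.inf_relIndex_right, h2,
    Subgroup.inf_relIndex_right]

/-- **The numerical core of the existence theorem**: with
`a = [J : P · US · J^p]`, `c = [J : P · JS · J^p]`, `E = P ∩ JT`,
`κ = [E ∩ US · JT^p : E^p]`, `d = [E ∩ JS · JT^p : E^p]`, if `κ ≤ c` and
`[JT : JS · JT^p]^2 · [JS : US · JS^p] ≤ [E : E^p]^2`, then `a ≤ d`. -/
theorem index_le_relIndex (P JT JS US : Subgroup J) (p : ℕ) (hUS : US ≤ JS) (hJS : JS ≤ JT)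
    (hgen : P ⊔ JT = ⊤) (hsat : ∀ y ∈ JT, y ^ p ∈ JS → y ∈ JS)
    (he : (powSub (P ⊓ JT) p).relIndex (P ⊓ JT) ≠ 0)
    (hκ : (powSub (P ⊓ JT) p).relIndex ((P ⊓ JT) ⊓ (US ⊔ powSub JT p)) ≤
      (P ⊔ JS ⊔ powSub ⊤ p).index)
    (hbound : ((JS ⊔ powSub JT p).relIndex JT) ^ 2 * (US ⊔ powSub JS p).relIndex JS ≤
      ((powSub (P ⊓ JT) p).relIndex (P ⊓ JT)) ^ 2) :
    (P ⊔ US ⊔ powSub ⊤ p).index ≤
      (powSub (P ⊓ JT) p).relIndex ((P ⊓ JT) ⊓ (JS ⊔ powSub JT p)) := by
  set E := P ⊓ JT with hE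
  set B := US ⊔ powSub JT p with hB
  set N := JS ⊔ powSub JT p with hN
  set Ep := powSub E p with hEp
  set a := (P ⊔ US ⊔ powSub ⊤ p).index with ha
  set c := (P ⊔ JS ⊔ powSub ⊤ p).index with hc
  set e := Ep.relIndex E with he'
  set κ := Ep.relIndex (E ⊓ B) with hκ'
  set d := Ep.relIndex (E ⊓ N) with hd
  set xT := N.relIndex JT with hxT
  set xS := (US ⊔ powSub JS p).relIndex JS with hxS
  have hBN : B ≤ N := sup_le_sup_right hUS _
  have hNT : N ≤ JT := sup_le hJS (powSub_le JT p)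
  have hEpB : Ep ≤ E ⊓ B :=
    le_inf (powSub_le E p) ((powSub_mono inf_le_right p).trans le_sup_right)
  have hEpN : Ep ≤ E ⊓ N := hEpB.trans (inf_le_inf_left _ hBN)
  -- the index identities
  have h1 : a * B.relIndex E = B.relIndex JT :=
    index_mul_relIndex P JT US p (hUS.trans hJS) hgen
  have h2 : c * N.relIndex E = xT := index_mul_relIndex P JT JS p hJS hgen
  have h3 : B.relIndex N * xT = B.relIndex JT := Subgroup.relIndex_mul_relIndex B N JT hBN hNT
  have h4 : B.relIndex N = xS := relIndex_sup_powSub JT JS US p hUS hJS hsat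
  have h5 : κ * B.relIndex E = e := by
    have := Subgroup.relIndex_mul_relIndex Ep (E ⊓ B) E hEpB inf_le_left
    rwa [Subgroup.inf_relIndex_left] at this
  have h6 : d * N.relIndex E = e := by
    have := Subgroup.relIndex_mul_relIndex Ep (E ⊓ N) E hEpN inf_le_left
    rwa [Subgroup.inf_relIndex_left] at this
  -- positivity
  have hepos : 0 < e := Nat.pos_of_ne_zero he
  have hNE : 0 < N.relIndex E := by
    rcases Nat.eq_zero_or_pos (N.relIndex E) with h | h
    · rw [h, mul_zero] at h6; omega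
    · exact h
  -- the computation
  have h7 : a * e = xS * xT * κ := by
    calc a * e = a * (κ * B.relIndex E) := by rw [h5]
      _ = (a * B.relIndex E) * κ := by ring
      _ = xS * xT * κ := by rw [h1, ← h3, h4]
  have h8 : a * e * N.relIndex E ≤ e ^ 2 := by
    calc a * e * N.relIndex E = xS * xT * κ * N.relIndex E := by rw [h7]
      _ ≤ xS * xT * c * N.relIndex E :=
        Nat.mul_le_mul_right _ (Nat.mul_le_mul_left _ hκ)
      _ = xT ^ 2 * xS := by rw [← h2]; ring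
      _ ≤ e ^ 2 := hbound
  have h9 : a * N.relIndex E ≤ d * N.relIndex E := by
    rw [h6]
    have : (a * N.relIndex E) * e ≤ e * e := by
      calc (a * N.relIndex E) * e = a * e * N.relIndex E := by ring
        _ ≤ e ^ 2 := h8
        _ = e * e := sq e
    exact Nat.le_of_mul_le_mul_right this hepos
  exact Nat.le_of_mul_le_mul_right h9 hNE

end Abstract

end Fermat.Agent.CFT.PT6
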