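import Mathlib
import Fermat.Agent.CFT.Global.G01_helper7_Local
import Fermat.Agent.CFT.Global.Interface_helper3
import Fermat.Agent.CFT.Local.Kummer_helper1

/-!
# CFT (G3): norms from a Kummer extension `L = K(a^{1/p})`, place by place

* `stabilizer_eq_bot_of_pow_eq`: `a ∈ K_w^{×p}` ⇒ `w` splits in `L`;
* `ramIdx_eq_one_of_embed_mem_integerUnits`: `w ∤ p`, `a` a unit at `w`, `w` nonsplit ⇒ unramified;
* `exists_norm_eq`: local norms; `isIdeleNorm_of_kummerLocalCond`: the idele version.
-/

set_option autoImplicit false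
set_option linter.unusedSectionVars false

open scoped TensorProduct NumberField Pointwise RestrictedProduct

namespace Fermat.Agent.CFT.T2

open scoped SemiLocalRel
open scoped Fermat.Agent.CFT.Local.PadicBridge
open Fermat.Agent.CFT Fermat.Agent.CFT.Local Fermat.Agent.CFT.Place

section LocalNorm

variable {ℓ : ℕ} [Fact ℓ.Prime] {K L : Type*} [Field K] [NumberField K] [Field L] [NumberField L]
  [Algebra K L] [FiniteDimensional K L] [IsGalois K L] {p : ℕ} [hp : Fact p.Prime]

/-- `p`-th roots of unity of `L_W` lie in `K_w`. -/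
theorem mem_range_of_pow_eq_one (W : Place ℓ L) {ζ : K} (hζ : IsPrimitiveRoot ζ p)
    {η : W.Completion} (hη : η ^ p = 1) :
    η ∈ (algebraMap (W.under (K := K)).Completion W.Completion).range := by
  have h1 : IsPrimitiveRoot ((W.under (K := K)).embed ζ) p :=
    hζ.map_of_injective ((W.under (K := K)).embed).injective
  have h2 : IsPrimitiveRoot (algebraMap (W.under (K := K)).Completion W.Completion
      ((W.under (K := K)).embed ζ)) p :=
    h1.map_of_injective (algebraMap (W.under (K := K)).Completion W.Completion).injective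
  obtain ⟨i, -, hi⟩ := h2.eq_pow_of_pow_eq_one hη
  exact ⟨((W.under (K := K)).embed ζ) ^ i, by rw [map_pow, hi]⟩

/-- if `a` is a `p`-th power in `K_w` then `w` splits in `L = K(a^{1/p})`. -/
theorem stabilizer_eq_bot_of_pow_eq (hcard : Nat.card (L ≃ₐ[K] L) = p) {ζ : K}
    (hζ : IsPrimitiveRoot ζ p) {a : K} (ha0 : a ≠ 0) {α : L} (hα : α ^ p = algebraMap K L a)
    (hgen : Algebra.adjoin K {α} = ⊤) (W : Place ℓ L) (e : (W.under (K := K)).Completion)
    (he : e ^ p = (W.under (K := K)).embed a) :
    MulAction.stabilizer (L ≃ₐ[K] L) W = ⊥ := by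
  rcases stabilizer_eq_bot_or_eq_top hp.out hcard W with h | h
  · exact h
  exfalso
  have hfin := finrank_completion_eq_of_stabilizer_eq_top (K := K) W h
  have hKL : Module.finrank K L = p := by rw [← IsGalois.card_aut_eq_finrank, hcard]
  rw [hKL] at hfin
  -- α_W = W.embed α satisfies α_W^p = alg(e)^p
  have he0 : e ≠ 0 := by
    rintro rfl
    rw [zero_pow hp.out.ne_zero] at he
    exact ha0 ((map_eq_zero _).mp he.symm)
  have h1 : (W.embed α) ^ p =
      (algebraMap (W.under (K := K)).Completion W.Completion e) ^ p := by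
    rw [← map_pow, hα, ← map_pow, he, algebraMap_completion_embed]
  have he' : algebraMap (W.under (K := K)).Completion W.Completion e ≠ 0 := by
    rwa [Ne, map_eq_zero]
  have h2 : (W.embed α / algebraMap (W.under (K := K)).Completion W.Completion e) ^ p = 1 := by
    rw [div_pow, h1, div_self (pow_ne_zero _ he')]
  obtain ⟨y, hy⟩ := mem_range_of_pow_eq_one (K := K) W hζ h2
  have h3 : W.embed α = algebraMap (W.under (K := K)).Completion W.Completion (y * e) := by
    rw [map_mul, hy, div_mul_cancel₀ _ he']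
  have h4 := adjoin_embed_eq_top (K := K) W hgen
  rw [h3] at h4
  have h5 : (⊤ : Subalgebra (W.under (K := K)).Completion W.Completion) ≤ ⊥ := by
    rw [← h4]
    apply Algebra.adjoin_le
    rintro _ rfl
    exact Subalgebra.algebraMap_mem _ _
  have h6 : (⊥ : Subalgebra (W.under (K := K)).Completion W.Completion) = ⊤ :=
    le_antisymm bot_le h5
  have h7 := Subalgebra.bot_eq_top_iff_finrank_eq_one.mp h6
  rw [hfin] at h7
  exact hp.out.one_lt.ne' h7

/-- a generator of `L/K` does not lie in `K_w` at a nonsplit place. -/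
theorem embed_not_mem_range (W : Place ℓ L) {α : L} (hgen : Algebra.adjoin K {α} = ⊤)
    (hfin : Module.finrank (W.under (K := K)).Completion W.Completion ≠ 1) :
    W.embed α ∉ (algebraMap (W.under (K := K)).Completion W.Completion).range := by
  rintro ⟨y, hy⟩
  have h4 := adjoin_embed_eq_top (K := K) W hgen
  rw [← hy] at h4
  have h5 : (⊤ : Subalgebra (W.under (K := K)).Completion W.Completion) ≤ ⊥ := by
    rw [← h4]
    apply Algebra.adjoin_le
    rintro _ rfl
    exact Subalgebra.algebraMap_mem _ _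
  have h6 : (⊥ : Subalgebra (W.under (K := K)).Completion W.Completion) = ⊤ :=
    le_antisymm bot_le h5
  exact hfin (Subalgebra.bot_eq_top_iff_finrank_eq_one.mp h6)

theorem isUnit_natCast_integers {F : Type*} [Field F] [NumberField F] (w : Place ℓ F) {p : ℕ}
    (hp : p.Prime) (hℓp : ℓ ≠ p) : IsUnit ((p : ℕ) : w.integers) := by
  have h1 : IsUnit ((p : ℕ) : ℤ_[ℓ]) := by
    rw [PadicInt.isUnit_iff, PadicInt.norm_natCast_eq_one_iff]  
    exact (Nat.coprime_primes (Fact.out : ℓ.Prime) hp).mpr hℓp
  have := h1.map (algebraMap ℤ_[ℓ] w.integers)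
  rwa [map_natCast] at this

/-- a tamely ramified-looking Kummer extension by a unit is unramified at a nonsplit place. -/
theorem ramIdx_eq_one_of_embed_mem_integerUnits (hℓp : ℓ ≠ p) {ζ : K}
    (hζ : IsPrimitiveRoot ζ p) {a : K} {α : L} (hα : α ^ p = algebraMap K L a)
    (hgen : Algebra.adjoin K {α} = ⊤) (W : Place ℓ L)
    (hfin : Module.finrank (W.under (K := K)).Completion W.Completion = p)
    (u : (W.under (K := K)).Completionˣ) (hu : u ∈ (W.under (K := K)).integerUnits)
    (hua : (u : (W.under (K := K)).Completion) = (W.under (K := K)).embed a) :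
    ramIdx (W.under (K := K)).integers W.integers = 1 := by
  refine LocalKummer.ramIdx_eq_one_of_pow_eq_unit (W.under (K := K)).integers
    (W.under (K := K)).Completion W.Completion W.integers p
    (isUnit_natCast_integers _ hp.out hℓp) hfin (W.embed α)
    ((W.under (K := K)).toIntegersUnit u hu) ?_ ?_ ?_
  · rw [← map_pow, hα, ← algebraMap_completion_embed, ← hua,
      IsScalarTower.algebraMap_apply (W.under (K := K)).integers (W.under (K := K)).Completion
        W.Completion]
    rfl
  · intro η hη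
    exact mem_range_of_pow_eq_one (K := K) W hζ hη
  · exact embed_not_mem_range W hgen (by rw [hfin]; exact hp.out.one_lt.ne')

/-- `integerUnits` is saturated with respect to powers. -/
theorem mem_integerUnits_of_pow_mem {F : Type*} [Field F] [CharZero F] (w : Place ℓ F)
    {d : w.Completionˣ} {n : ℕ} (hn : 0 < n) (h : d ^ n ∈ w.integerUnits) : d ∈ w.integerUnits := by
  rw [mem_integerUnits_iff] at h ⊢
  refine ⟨IsIntegral.of_pow hn ?_, IsIntegral.of_pow hn ?_⟩
  · have := h.1
    rwa [Units.val_pow_eq_pow_val] at this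
  · have := h.2
    rwa [← inv_pow, Units.val_pow_eq_pow_val] at this

/-- **Local norms from a Kummer extension** `L = K(a^{1/p})` at a place `W`. -/
theorem exists_norm_eq (hcard : Nat.card (L ≃ₐ[K] L) = p) {ζ : K}
    (hζ : IsPrimitiveRoot ζ p) {a : K} (ha0 : a ≠ 0) {α : L} (hα : α ^ p = algebraMap K L a)
    (hgen : Algebra.adjoin K {α} = ⊤) (W : Place ℓ L) (c : (W.under (K := K)).Completionˣ)
    (h : (∃ d : (W.under (K := K)).Completionˣ, d ^ p = c) ∨
      (∃ e : (W.under (K := K)).Completion, e ^ p = (W.under (K := K)).embed a) ∨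
      (ℓ ≠ p ∧ (∃ u : (W.under (K := K)).Completionˣ, u ∈ (W.under (K := K)).integerUnits ∧
        (u : (W.under (K := K)).Completion) = (W.under (K := K)).embed a) ∧
        c ∈ (W.under (K := K)).integerUnits)) :
    ∃ z : W.Completionˣ, (c ∈ (W.under (K := K)).integerUnits → z ∈ W.integerUnits) ∧
      (c : (W.under (K := K)).Completion) =
        Algebra.norm (W.under (K := K)).Completion (z : W.Completion) := by
  have hKL : Module.finrank K L = p := by rw [← IsGalois.card_aut_eq_finrank, hcard]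
  rcases stabilizer_eq_bot_or_eq_top hp.out hcard W with hs | hs
  · -- split
    refine ⟨Units.map (algebraMap (W.under (K := K)).Completion W.Completion : _ →* _) c,
      fun hc => (map_mem_integerUnits_iff W c).mpr hc, ?_⟩
    rw [Units.coe_map]
    change _ = Algebra.norm _ (algebraMap _ _ _)
    rw [Algebra.norm_algebraMap, finrank_completion_eq_one_of_stabilizer_eq_bot W hs, pow_one]
  · have hfin : Module.finrank (W.under (K := K)).Completion W.Completion = p := by
      rw [finrank_completion_eq_of_stabilizer_eq_top W hs, hKL]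
    rcases h with ⟨d, hd⟩ | ⟨e, he⟩ | ⟨hℓp, ⟨u, hu, hua⟩, hc⟩
    · refine ⟨Units.map (algebraMap (W.under (K := K)).Completion W.Completion : _ →* _) d,
        fun hc => (map_mem_integerUnits_iff W d).mpr ?_, ?_⟩
      · rw [← hd] at hc
        exact mem_integerUnits_of_pow_mem _ hp.out.pos hc
      · rw [Units.coe_map]
        change _ = Algebra.norm _ (algebraMap _ _ _)
        rw [Algebra.norm_algebraMap, hfin, ← hd, Units.val_pow_eq_pow_val]
    · exfalso
      have h1 := stabilizer_eq_bot_of_pow_eq hcard hζ ha0 hα hgen W e he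
      rw [hs] at h1
      have h2 : Nat.card (⊤ : Subgroup (L ≃ₐ[K] L)) = 1 := by rw [h1, Subgroup.card_bot]
      rw [Subgroup.card_top, hcard] at h2
      exact hp.out.one_lt.ne' h2
    · have hram := ramIdx_eq_one_of_embed_mem_integerUnits hℓp hζ hα hgen W hfin u hu hua
      obtain ⟨z, hz, hN⟩ := exists_integerUnits_norm_eq W hram c hc
      exact ⟨z, fun _ => hz, hN.symm⟩

end LocalNorm

section IdeleNorm

variable {K L : Type} [Field K] [NumberField K] [Field L] [NumberField L]
  [Algebra K L] [FiniteDimensional K L] [IsGalois K L] {p : ℕ} [hp : Fact p.Prime]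

/-- the local Kummer condition at a place `w` of `K` for the component `c`. -/
def KummerLocalCond (p : ℕ) (a : K) {ℓ : ℕ} [Fact ℓ.Prime] (w : Place ℓ K) (c : w.Completionˣ) :
    Prop :=
  (∃ d : w.Completionˣ, d ^ p = c) ∨ (∃ e : w.Completion, e ^ p = w.embed a) ∨
    (ℓ ≠ p ∧ (∃ u : w.Completionˣ, u ∈ w.integerUnits ∧ (u : w.Completion) = w.embed a) ∧
      c ∈ w.integerUnits)

/-- semi-local version -/
theorem exists_prod_smul_eq_of_kummerLocalCond (hcard : Nat.card (L ≃ₐ[K] L) = p) {ζ : K}
    (hζ : IsPrimitiveRoot ζ p) {a : K} (ha0 : a ≠ 0) {α : L} (hα : α ^ p = algebraMap K L a)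
    (hgen : Algebra.adjoin K {α} = ⊤) {ℓ : ℕ} [Fact ℓ.Prime] (b : (SemiLocal ℓ K)ˣ)
    (h : ∀ w : Place ℓ K, KummerLocalCond p a w (w.unitsProj b)) :
    ∃ y : (SemiLocal ℓ L)ˣ, (b ∈ SemiLocal.unitGroup ℓ K → y ∈ SemiLocal.unitGroup ℓ L) ∧
      ∏ σ : L ≃ₐ[K] L, σ • y = SemiLocal.unitsMap ℓ (algebraMap K L) b := by
  classical
  obtain ⟨y, hy1, hy⟩ := exists_prod_smul_eq_unitsMap_of_subgroup (K := K) (L := L)
    (fun W => if b ∈ SemiLocal.unitGroup ℓ K then W.integerUnits else ⊤) b (by
      intro w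
      obtain ⟨W, hW⟩ := under_surjective (K := K) (L := L) w
      subst hW
      obtain ⟨z, hz1, hz2⟩ := exists_norm_eq hcard hζ ha0 hα hgen W
        ((W.under (K := K)).unitsProj b) (h _)
      refine ⟨W, rfl, z, ?_, hz2⟩
      split_ifs with hb
      · exact hz1 (SemiLocal.mem_unitGroup_iff_forall.mp hb _)
      · exact Subgroup.mem_top _)
  refine ⟨y, fun hb => ?_, hy⟩
  rw [SemiLocal.mem_unitGroup_iff_forall]
  intro W
  have := hy1 W
  rwa [if_pos hb] at this

/-- **Idele norms from a Kummer extension.** -/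
theorem isIdeleNorm_of_kummerLocalCond (hcard : Nat.card (L ≃ₐ[K] L) = p) {ζ : K}
    (hζ : IsPrimitiveRoot ζ p) {a : K} (ha0 : a ≠ 0) {α : L} (hα : α ^ p = algebraMap K L a)
    (hgen : Algebra.adjoin K {α} = ⊤) (x : FinIdele K)
    (h : ∀ (ℓ : Nat.Primes) (w : Place ℓ K), KummerLocalCond p a w (w.unitsProj (x ℓ))) :
    IsIdeleNorm K L x := by
  choose y hy1 hy2 using fun ℓ : Nat.Primes =>
    exists_prod_smul_eq_of_kummerLocalCond hcard hζ ha0 hα hgen (x ℓ) (h ℓ)
  have hyU : ∀ᶠ ℓ : Nat.Primes in Filter.cofinite,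
      y ℓ ∈ (SemiLocal.unitGroup ℓ L : Set (SemiLocal ℓ L)ˣ) := by
    filter_upwards [x.2] with ℓ hℓ
    exact hy1 ℓ hℓ
  let Y : FinIdele L := ⟨y, hyU⟩
  refine ⟨Y, ?_⟩
  apply RestrictedProduct.ext
  intro ℓ
  have : (∏ σ : L ≃ₐ[K] L, σ • Y) ℓ = ∏ σ : L ≃ₐ[K] L, σ • y ℓ := by
    rw [← RestrictedProduct.evalMonoidHom_apply, map_prod]
    rfl
  rw [this, hy2]
  rfl

end IdeleNorm

end Fermat.Agent.CFT.T2
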