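import Mathlib
import Fermat.Agent.CFT.Global.T2_helper1_Defs
import Fermat.Agent.CFT.Global.T2_helper1_LocalNorm

/-!
# CFT (G3): local unit groups at places outside `S`, localisation of `S`-units
-/

set_option autoImplicit false
set_option linter.unusedSectionVars false

open scoped TensorProduct NumberField RestrictedProduct

namespace Fermat.Agent.CFT.T2

open scoped SemiLocalRel
open scoped Fermat.Agent.CFT.Local.PadicBridge
open Fermat.Agent.CFT Fermat.Agent.CFT.Local Fermat.Agent.CFT.Place

section LocalUnits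

variable {ℓ : ℕ} [Fact ℓ.Prime] {K : Type*} [Field K] [NumberField K] (p : ℕ) [hp : Fact p.Prime]

/-- the units of the valuation ring of `K_w` as the subgroup `w.integerUnits` of `K_w^×`. -/
noncomputable def integersUnitsEquiv (w : Place ℓ K) : (w.integers)ˣ ≃* w.integerUnits where
  toFun u := ⟨w.ofIntegersUnit u, w.ofIntegersUnit_mem u⟩
  invFun v := w.toIntegersUnit v.1 v.2
  left_inv _ := Units.ext (Subtype.ext rfl)
  right_inv _ := Subtype.ext (Units.ext rfl)
  map_mul' u v := Subtype.ext (map_mul _ u v)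

/-- index of the `p`-th powers is invariant under isomorphism -/
theorem index_range_powMonoidHom_congr {A B : Type*} [CommGroup A] [CommGroup B] (e : A ≃* B)
    (n : ℕ) : (powMonoidHom n : B →* B).range.index = (powMonoidHom n : A →* A).range.index := by
  have h1 : ((powMonoidHom n : B →* B).range.comap e.toMonoidHom) =
      (powMonoidHom n : A →* A).range := by
    ext x
    rw [Subgroup.mem_comap]
    constructor
    · rintro ⟨y, hy⟩
      refine ⟨e.symm y, ?_⟩
      apply e.injective
      change e (e.symm y ^ n) = e x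
      rw [map_pow, e.apply_symm_apply]
      exact hy
    · rintro ⟨y, rfl⟩
      exact ⟨e y, (map_pow e y n).symm⟩
  rw [← h1, Subgroup.index_comap_of_surjective _ e.surjective]

/-- the `p`-th powers of the local units -/
noncomputable def powUnits (w : Place ℓ K) : Subgroup w.integerUnits :=
  (powMonoidHom p : w.integerUnits →* w.integerUnits).range

theorem index_powUnits_le (w : Place ℓ K) (hℓp : ℓ ≠ p) :
    (powUnits p w).index ≤ p ∧ (powUnits p w).index ≠ 0 := by
  unfold powUnits
  rw [index_range_powMonoidHom_congr (integersUnitsEquiv w) p]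
  exact LocalKummer.index_pow_units_le_of_isUnit p (isUnit_natCast_integers w hp.out hℓp)

theorem pow_mem_powUnits (w : Place ℓ K) (u : w.integerUnits) : u ^ p ∈ powUnits p w :=
  ⟨u, rfl⟩

theorem mem_powUnits_iff (w : Place ℓ K) (u : w.integerUnits) :
    u ∈ powUnits p w ↔ ∃ d : w.Completionˣ, d ^ p = (u : w.Completionˣ) := by
  constructor
  · rintro ⟨v, rfl⟩
    exact ⟨v.1, rfl⟩
  · rintro ⟨d, hd⟩
    have hd' : d ∈ w.integerUnits :=
      mem_integerUnits_of_pow_mem w hp.out.pos (by rw [hd]; exact u.2)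
    exact ⟨⟨d, hd'⟩, Subtype.ext hd⟩

end LocalUnits

section Global

variable {K : Type*} [Field K] [NumberField K] (p : ℕ) [hp : Fact p.Prime] (S : Set Nat.Primes)

theorem mem_unitGroup_of_pow_mem {ℓ : ℕ} [Fact ℓ.Prime] {x : (SemiLocal ℓ K)ˣ} {n : ℕ}
    (hn : 0 < n) (h : x ^ n ∈ SemiLocal.unitGroup ℓ K) : x ∈ SemiLocal.unitGroup ℓ K := by
  rw [SemiLocal.mem_unitGroup_iff] at h ⊢
  refine ⟨IsIntegral.of_pow hn ?_, IsIntegral.of_pow hn ?_⟩
  · have := h.1
    rwa [Units.val_pow_eq_pow_val] at this
  · have := h.2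
    rwa [← inv_pow, Units.val_pow_eq_pow_val] at this

theorem mem_sUnits_of_pow_mem {c : Kˣ} {n : ℕ} (hn : 0 < n) (h : c ^ n ∈ sUnits K S) :
    c ∈ sUnits K S := by
  intro ℓ hℓ
  have h1 := h ℓ hℓ
  change SemiLocal.ofUnits ℓ (c ^ n) ∈ SemiLocal.unitGroup ℓ K at h1
  rw [map_pow] at h1
  exact mem_unitGroup_of_pow_mem hn h1

/-- localisation of `S`-units at a place outside `S` -/
noncomputable def sUnitsToLocal (ℓ : Nat.Primes) (w : Place (ℓ : ℕ) K) (hℓ : ℓ ∉ S) :
    sUnits K S →* w.integerUnits where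
  toFun x := ⟨Units.map (w.embed : K →* w.Completion) x.1,
    (SemiLocal.mem_unitGroup_iff_forall.mp (x.2 ℓ hℓ)) w⟩
  map_one' := Subtype.ext (map_one _)
  map_mul' x y := Subtype.ext (map_mul _ x.1 y.1)

end Global

end Fermat.Agent.CFT.T2
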