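import Mathlib
import Fermat.Agent.CFT.Global.PT6_helper1_Count
import Fermat.Agent.CFT.Global.T2_helper1_Places
import Fermat.Agent.CFT.Global.G3e_helper8_Final
import Fermat.Agent.CFT.Global.G04_lead_Content
import Fermat.Agent.CFT.Global.G04_lead_Density

/-!
# CFT (PT6): the concrete idele subgroups of the existence theorem and their indices

`principal K = K^×`, `exUnits K S = U^S` (units outside `S`, `1` at `S`), and the local index
bounds `[J_S : U^S J_S^p] ≤ |∏_{ℓ ∈ S} K_ℓ^×/p|` and `[J_T : J_S J_T^p] ≤ p^{#places over T \ S}`.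
-/

set_option autoImplicit false
set_option linter.unusedSectionVars false
set_option linter.style.haveILetI false

open scoped TensorProduct NumberField RestrictedProduct

namespace Fermat.Agent.CFT.PT6

open Fermat.Agent.CFT Fermat.Agent.CFT.Local Fermat.Agent.CFT.Place Fermat.Agent.CFT.T2

section Defs

variable (K : Type) [Field K] [NumberField K]

/-- the principal finite ideles -/
noncomputable def principal : Subgroup (FinIdele K) := (FinIdele.diag K).range

/-- `U^S`: the finite ideles which are units outside `S` and `1` at the primes of `S`. -/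
def exUnits (S : Set Nat.Primes) : Subgroup (FinIdele K) where
  carrier := {x | (∀ ℓ : Nat.Primes, ℓ ∉ S → x ℓ ∈ SemiLocal.unitGroup ℓ K) ∧
    ∀ ℓ : Nat.Primes, ℓ ∈ S → x ℓ = 1}
  mul_mem' := fun {x y} hx hy => ⟨fun ℓ hℓ => (SemiLocal.unitGroup ℓ K).mul_mem (hx.1 ℓ hℓ) (hy.1 ℓ hℓ),
    fun ℓ hℓ => by
      have : (x * y) ℓ = x ℓ * y ℓ := rfl
      rw [this, hx.2 ℓ hℓ, hy.2 ℓ hℓ, one_mul]⟩
  one_mem' := ⟨fun ℓ _ => (SemiLocal.unitGroup ℓ K).one_mem, fun _ _ => rfl⟩
  inv_mem' := fun {x} hx => ⟨fun ℓ hℓ => (SemiLocal.unitGroup ℓ K).inv_mem (hx.1 ℓ hℓ),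
    fun ℓ hℓ => by
      have : (x⁻¹) ℓ = (x ℓ)⁻¹ := rfl
      rw [this, hx.2 ℓ hℓ, inv_one]⟩

variable {K}

lemma mem_exUnits_iff {S : Set Nat.Primes} {x : FinIdele K} :
    x ∈ exUnits K S ↔ (∀ ℓ : Nat.Primes, ℓ ∉ S → x ℓ ∈ SemiLocal.unitGroup ℓ K) ∧
      ∀ ℓ : Nat.Primes, ℓ ∈ S → x ℓ = 1 := Iff.rfl

lemma exUnits_le_sIdeles (S : Set Nat.Primes) : exUnits K S ≤ sIdeles K S :=
  fun _ hx => hx.1

variable (K)

/-- `D = K^× · U^S · J^p`, the subgroup of the existence theorem mod `p`. -/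
noncomputable def exD (S : Set Nat.Primes) (p : ℕ) : Subgroup (FinIdele K) :=
  principal K ⊔ exUnits K S ⊔ powSub ⊤ p

/-- the idele with prescribed components at the primes of the finite set `S` and `1` elsewhere -/
noncomputable def ofFinset (S : Finset Nat.Primes)
    (z : ∀ q : S, (SemiLocal ((q : Nat.Primes) : ℕ) K)ˣ) : FinIdele K :=
  ⟨fun ℓ => if h : ℓ ∈ S then z ⟨ℓ, h⟩ else 1, by
    rw [Filter.eventually_cofinite]
    refine S.finite_toSet.subset ?_
    intro ℓ hℓ
    by_contra h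
    apply hℓ
    have h' : ℓ ∉ S := h
    simp only [dif_neg h']
    exact (SemiLocal.unitGroup ℓ K).one_mem⟩

variable {K}

lemma ofFinset_apply_of_mem (S : Finset Nat.Primes)
    (z : ∀ q : S, (SemiLocal ((q : Nat.Primes) : ℕ) K)ˣ) {ℓ : Nat.Primes} (h : ℓ ∈ S) :
    ofFinset K S z ℓ = z ⟨ℓ, h⟩ := by
  unfold ofFinset
  exact dif_pos h

lemma ofFinset_apply_of_not_mem (S : Finset Nat.Primes)
    (z : ∀ q : S, (SemiLocal ((q : Nat.Primes) : ℕ) K)ˣ) {ℓ : Nat.Primes} (h : ℓ ∉ S) :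
    ofFinset K S z ℓ = 1 := by
  unfold ofFinset
  exact dif_neg h

lemma ofFinset_mem_sIdeles (S : Finset Nat.Primes)
    (z : ∀ q : S, (SemiLocal ((q : Nat.Primes) : ℕ) K)ˣ) {T : Set Nat.Primes}
    (hST : (S : Set Nat.Primes) ⊆ T) : ofFinset K S z ∈ sIdeles K T := by
  intro ℓ hℓ
  rw [ofFinset_apply_of_not_mem S z (fun h => hℓ (hST (Finset.mem_coe.mpr h)))]
  exact (SemiLocal.unitGroup ℓ K).one_mem

lemma pow_apply (x : FinIdele K) (n : ℕ) (ℓ : Nat.Primes) : (x ^ n) ℓ = (x ℓ) ^ n :=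
  map_pow (RestrictedProduct.evalMonoidHom _ ℓ) x n

lemma principal_sup_sIdeles {T : Set Nat.Primes} (hT : IdelesGeneratedBy K T) :
    principal K ⊔ sIdeles K T = ⊤ := by
  rw [eq_top_iff]
  intro x _
  obtain ⟨a, ha⟩ := hT x
  have : x = (FinIdele.diag K a)⁻¹ * (FinIdele.diag K a * x) := by rw [inv_mul_cancel_left]
  rw [this]
  exact Subgroup.mul_mem_sup ((principal K).inv_mem ⟨a, rfl⟩) ha

lemma mem_sIdeles_of_pow_mem {S : Set Nat.Primes} {p : ℕ} (hp : 0 < p) {y : FinIdele K}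
    (h : y ^ p ∈ sIdeles K S) : y ∈ sIdeles K S := by
  intro ℓ hℓ
  have h1 := h ℓ hℓ
  rw [pow_apply] at h1
  exact mem_unitGroup_of_pow_mem hp h1

end Defs

section XS

variable {K : Type} [Field K] [NumberField K]

/-- `[J_S : U^S J_S^p] ≤ |∏_{ℓ ∈ S} K_ℓ^× / p|`. -/
theorem relIndex_exUnits_le {p : ℕ} (hp : p.Prime) (S : Finset Nat.Primes) :
    (exUnits K (S : Set Nat.Primes) ⊔ powSub (sIdeles K (S : Set Nat.Primes)) p).relIndex
        (sIdeles K (S : Set Nat.Primes)) ≠ 0 ∧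
    (exUnits K (S : Set Nat.Primes) ⊔ powSub (sIdeles K (S : Set Nat.Primes)) p).relIndex
        (sIdeles K (S : Set Nat.Primes)) ≤ Nat.card (FinIdele.PowQuot K S p) := by
  classical
  set JS := sIdeles K (S : Set Nat.Primes) with hJS
  set f := FinIdele.projSModPow K S p with hf
  have hfin : Finite (FinIdele.PowQuot K S p) := (SemiLocal.card_pi_units_quotient_pow_le K hp S).1
  have hle : f.ker ⊓ JS ≤ exUnits K (S : Set Nat.Primes) ⊔ powSub JS p := by
    intro x hx0
    obtain ⟨hx, hxS⟩ := Subgroup.mem_inf.mp hx0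
    rw [MonoidHom.mem_ker, FinIdele.projSModPow_eq_one_iff] at hx
    obtain ⟨z, hz⟩ := hx
    set y := ofFinset K S z with hy
    have hyS : y ∈ JS := ofFinset_mem_sIdeles S z (le_refl _)
    have hu : x * (y ^ p)⁻¹ ∈ exUnits K (S : Set Nat.Primes) := by
      constructor
      · intro ℓ hℓ
        exact (JS.mul_mem hxS (JS.inv_mem (JS.pow_mem hyS p))) ℓ hℓ
      · intro ℓ hℓ
        have hℓ' : ℓ ∈ S := Finset.mem_coe.mp hℓ
        have h1 : (x * (y ^ p)⁻¹) ℓ = x ℓ * ((y ^ p) ℓ)⁻¹ := rfl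
        rw [h1, pow_apply, hy, ofFinset_apply_of_mem S z hℓ', hz ⟨ℓ, hℓ'⟩, mul_inv_cancel]
    have hx' : x = (x * (y ^ p)⁻¹) * y ^ p := by rw [inv_mul_cancel_right]
    rw [hx']
    exact Subgroup.mul_mem_sup hu (pow_mem_powSub p hyS)
  have h1 : (f.ker ⊓ JS).relIndex JS = Nat.card (JS.map f) := by
    rw [Subgroup.inf_relIndex_right, Subgroup.relIndex_ker]
  have h2 : (f.ker ⊓ JS).relIndex JS ≠ 0 := by
    rw [h1]; exact Nat.card_pos.ne'
  have h3 := Subgroup.relIndex_le_of_le_left hle h2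
  refine ⟨fun h0 => h2 (Subgroup.relIndex_eq_zero_of_le_left hle h0), h3.trans ?_⟩
  rw [h1]
  exact Subgroup.card_le_card_group _

end XS

section XT

variable {K : Type} [Field K] [NumberField K]

lemma ordAtPlace_pow (x : FinIdele K) (n : ℕ) (ℓ : Nat.Primes) (w : Place ℓ K) :
    (x ^ n).ordAtPlace ℓ w = n * x.ordAtPlace ℓ w := by
  induction n with
  | zero => simp [FinIdele.ordAtPlace_one]
  | succ n ih =>
    rw [pow_succ, FinIdele.ordAtPlace_mul, ih]
    push_cast
    ring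

/-- the valuations at the places over `T \ S`, modulo `p` -/
noncomputable def ordModHom (p : ℕ) (R : Finset Nat.Primes) :
    FinIdele K →* (∀ q : R, Place ((q : Nat.Primes) : ℕ) K → Multiplicative (ZMod p)) where
  toFun x := fun q w => Multiplicative.ofAdd (((x.ordAtPlace q w : ℤ)) : ZMod p)
  map_one' := by
    funext q w
    rw [FinIdele.ordAtPlace_one, Int.cast_zero]
    rfl
  map_mul' x y := by
    funext q w
    rw [FinIdele.ordAtPlace_mul, Int.cast_add]
    rfl

/-- `[J_T : J_S J_T^p] ≤ p ^ #{places over T \ S}`. -/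
theorem relIndex_sIdeles_le {p : ℕ} (hp : p.Prime) (S T : Finset Nat.Primes) :
    (sIdeles K (S : Set Nat.Primes) ⊔ powSub (sIdeles K (T : Set Nat.Primes)) p).relIndex
        (sIdeles K (T : Set Nat.Primes)) ≠ 0 ∧
    (sIdeles K (S : Set Nat.Primes) ⊔ powSub (sIdeles K (T : Set Nat.Primes)) p).relIndex
        (sIdeles K (T : Set Nat.Primes)) ≤
      p ^ (∑ q ∈ T \ S, Nat.card (Place ((q : Nat.Primes) : ℕ) K)) := by
  classical
  haveI : NeZero p := ⟨hp.ne_zero⟩
  set JS := sIdeles K (S : Set Nat.Primes) with hJS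
  set JT := sIdeles K (T : Set Nat.Primes) with hJT
  set f := ordModHom (K := K) p (T \ S) with hf
  have hcardX : Nat.card (∀ q : ↥(T \ S), Place ((q : Nat.Primes) : ℕ) K →
      Multiplicative (ZMod p)) = p ^ (∑ q ∈ T \ S, Nat.card (Place ((q : Nat.Primes) : ℕ) K)) := by
    rw [Nat.card_pi]
    have h1 : ∀ q : ↥(T \ S), Nat.card (Place ((q : Nat.Primes) : ℕ) K →
        Multiplicative (ZMod p)) = p ^ Nat.card (Place ((q : Nat.Primes) : ℕ) K) := by
      intro q
      rw [Nat.card_fun, Nat.card_eq_fintype_card, Fintype.card_multiplicative, ZMod.card]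
    rw [Finset.prod_congr rfl fun q _ => h1 q, Finset.prod_pow_eq_pow_sum]
    congr 1
    exact Finset.sum_coe_sort (T \ S) fun q : Nat.Primes => Nat.card (Place (q : ℕ) K)
  haveI hfin : Finite (∀ q : ↥(T \ S), Place ((q : Nat.Primes) : ℕ) K →
      Multiplicative (ZMod p)) := inferInstance
  have hle : f.ker ⊓ JT ≤ JS ⊔ powSub JT p := by
    intro x hx0
    obtain ⟨hx, hxT⟩ := Subgroup.mem_inf.mp hx0
    rw [MonoidHom.mem_ker] at hx
    have hdvd : ∀ (q : ↥(T \ S)) (w : Place ((q : Nat.Primes) : ℕ) K),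
        ∃ m : ℤ, x.ordAtPlace q w = p * m := by
      intro q w
      have h1 := congrFun (congrFun hx q) w
      have h2 : ((x.ordAtPlace q w : ℤ) : ZMod p) = 0 := congrArg Multiplicative.toAdd h1
      exact (ZMod.intCast_zmod_eq_zero_iff_dvd _ p).mp h2
    choose m hm using hdvd
    have hz : ∀ q : ↥(T \ S), ∃ z : (SemiLocal ((q : Nat.Primes) : ℕ) K)ˣ,
        ∀ w : Place ((q : Nat.Primes) : ℕ) K,
          ord w.integers ((w.unitsProj z : w.Completionˣ) : w.Completion) = m q w := by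
      intro q
      have hc : ∀ w : Place ((q : Nat.Primes) : ℕ) K, ∃ c : w.Completionˣ,
          ord w.integers (c : w.Completion) = m q w := by
        intro w
        obtain ⟨c, hc⟩ := ordHom_surjective w.integers (F := w.Completion)
          (Multiplicative.ofAdd (m q w))
        exact ⟨c, congrArg Multiplicative.toAdd hc⟩
      choose c hc using hc
      obtain ⟨z, hz⟩ := SemiLocal.exists_unitsProj_eq ((q : Nat.Primes) : ℕ) K c
      exact ⟨z, fun w => by rw [hz w, hc w]⟩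
    choose z hz using hz
    set y := ofFinset K (T \ S) z with hy
    have hyT : y ∈ JT :=
      ofFinset_mem_sIdeles (T \ S) z (by
        intro ℓ hℓ
        exact Finset.mem_coe.mpr (Finset.mem_sdiff.mp (Finset.mem_coe.mp hℓ)).1)
    have hu : x * (y ^ p)⁻¹ ∈ JS := by
      intro ℓ hℓ
      have hℓS : ℓ ∉ S := fun h => hℓ (Finset.mem_coe.mpr h)
      by_cases hℓT : ℓ ∈ T
      · have hq : ℓ ∈ T \ S := Finset.mem_sdiff.mpr ⟨hℓT, hℓS⟩
        rw [FinIdele.mem_unitGroup_iff_ord]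
        intro w
        rw [FinIdele.ordAtPlace_mul, FinIdele.ordAtPlace_inv, ordAtPlace_pow, hm ⟨ℓ, hq⟩ w]
        have h3 : y.ordAtPlace ℓ w = m ⟨ℓ, hq⟩ w := by
          unfold FinIdele.ordAtPlace
          rw [hy, ofFinset_apply_of_mem (T \ S) z hq]
          exact hz ⟨ℓ, hq⟩ w
        rw [h3]
        ring
      · have hq : ℓ ∉ T \ S := fun h => hℓT (Finset.mem_sdiff.mp h).1
        have h1 : (x * (y ^ p)⁻¹) ℓ = x ℓ * ((y ^ p) ℓ)⁻¹ := rfl
        rw [h1, pow_apply, hy, ofFinset_apply_of_not_mem (T \ S) z hq, one_pow, inv_one, mul_one]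
        exact hxT ℓ (fun h => hℓT (Finset.mem_coe.mp h))
    have hx' : x = (x * (y ^ p)⁻¹) * y ^ p := by rw [inv_mul_cancel_right]
    rw [hx']
    exact Subgroup.mul_mem_sup hu (pow_mem_powSub p hyT)
  have h1 : (f.ker ⊓ JT).relIndex JT = Nat.card (JT.map f) := by
    rw [Subgroup.inf_relIndex_right, Subgroup.relIndex_ker]
  have h2 : (f.ker ⊓ JT).relIndex JT ≠ 0 := by
    rw [h1]; exact Nat.card_pos.ne'
  have h3 := Subgroup.relIndex_le_of_le_left hle h2
  refine ⟨fun h0 => h2 (Subgroup.relIndex_eq_zero_of_le_left hle h0), h3.trans ?_⟩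
  rw [h1, ← hcardX]
  exact Subgroup.card_le_card_group _

end XT

section Transport

lemma powSub_map {G J : Type*} [CommGroup G] [CommGroup J] (f : G →* J) (A : Subgroup G) (p : ℕ) :
    powSub (A.map f) p = (powSub A p).map f := by
  ext x
  constructor
  · rintro ⟨_, ⟨y, hy, rfl⟩, rfl⟩
    exact ⟨y ^ p, pow_mem_powSub p hy, by rw [powMonoidHom_apply, map_pow]⟩
  · rintro ⟨_, ⟨y, hy, rfl⟩, rfl⟩
    exact ⟨f y, ⟨y, hy, rfl⟩, by rw [powMonoidHom_apply, powMonoidHom_apply, map_pow]⟩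

lemma relIndex_powSub_eq_index {G : Type*} [CommGroup G] (A : Subgroup G) (p : ℕ) :
    (powSub A p).relIndex A = (powMonoidHom p : A →* A).range.index := by
  have h : (powSub A p).subgroupOf A = (powMonoidHom p : A →* A).range := by
    ext x
    rw [Subgroup.mem_subgroupOf]
    constructor
    · rintro ⟨y, hy, hyx⟩
      exact ⟨⟨y, hy⟩, Subtype.ext hyx⟩
    · rintro ⟨y, rfl⟩
      exact ⟨y.1, y.2, rfl⟩
  rw [Subgroup.relIndex, h]

variable {K : Type} [Field K] [NumberField K]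

lemma principal_inf_sIdeles (T : Set Nat.Primes) :
    principal K ⊓ sIdeles K T = (sUnits K T).map (FinIdele.diag K) := by
  unfold sUnits principal
  rw [Subgroup.map_comap_eq]

/-- `[E : E^p]` for `E = K^× ∩ J_T` is the index of the `p`-th powers in the `T`-units. -/
theorem relIndex_powSub_principal_inf (T : Set Nat.Primes) (p : ℕ) :
    (powSub (principal K ⊓ sIdeles K T) p).relIndex (principal K ⊓ sIdeles K T) =
      (powMonoidHom p : sUnits K T →* sUnits K T).range.index := by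
  rw [principal_inf_sIdeles, powSub_map,
    Subgroup.relIndex_map_map_of_injective _ _ FinIdele.diag_injective, relIndex_powSub_eq_index]

/-- translation of relative indices over `E^p` to indices over `K^{×p}` in `K^×`. -/
theorem relIndex_powSub_eq_relIndex_comap {p : ℕ} (hp : 0 < p) (T : Set Nat.Primes)
    (H : Subgroup (FinIdele K)) (hH : H ≤ principal K ⊓ sIdeles K T) :
    (powSub (principal K ⊓ sIdeles K T) p).relIndex H =
      ((powMonoidHom p : Kˣ →* Kˣ).range).relIndex (H.comap (FinIdele.diag K)) := by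
  have h1 : H = (H.comap (FinIdele.diag K)).map (FinIdele.diag K) := by
    rw [Subgroup.map_comap_eq]
    exact (inf_eq_right.mpr (hH.trans inf_le_left)).symm
  have hHc : H.comap (FinIdele.diag K) ≤ sUnits K T := by
    intro x hx
    exact (hH hx).2
  have h2 : powSub (sUnits K T) p ⊓ H.comap (FinIdele.diag K) =
      (powMonoidHom p : Kˣ →* Kˣ).range ⊓ H.comap (FinIdele.diag K) := by
    apply le_antisymm
    · refine inf_le_inf_right _ ?_
      rintro _ ⟨y, -, rfl⟩
      exact ⟨y, rfl⟩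
    · rintro x ⟨⟨b, hb⟩, hxH⟩
      refine ⟨⟨b, ?_, hb⟩, hxH⟩
      apply mem_sUnits_of_pow_mem T hp
      have : b ^ p = x := hb
      rw [this]
      exact hHc hxH
  conv_lhs => rw [h1, principal_inf_sIdeles, powSub_map,
    Subgroup.relIndex_map_map_of_injective _ _ FinIdele.diag_injective]
  rw [← Subgroup.inf_relIndex_right, h2, Subgroup.inf_relIndex_right]

end Transport

end Fermat.Agent.CFT.PT6
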