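/-
CFT global part (G0.2), helper5: (T4') the split norm criterion.  If the Galois group acts freely
on the places of `L` over `ℓ` (e.g. if all primes over `ℓ` have trivial decomposition group), then
every unit of `ℚ_ℓ ⊗ K` is a norm from `ℚ_ℓ ⊗ L`.
-/
import Mathlib
import Fermat.Agent.CFT.Global.G02_helper5_Equivariant
import Fermat.Agent.CFT.Global.Interface_helper3

set_option autoImplicit false
set_option linter.unusedSectionVars false
set_option linter.style.haveILetI false

open scoped TensorProduct NumberField Pointwise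
open IsLocalRing IsDedekindDomain

namespace Fermat.Agent.CFT

section Split

open scoped SemiLocalRel

variable {ℓ : ℕ} [Fact ℓ.Prime] {K L : Type} [Field K] [NumberField K] [Field L] [NumberField L]
  [Algebra K L] [IsGalois K L]

/-- Transport of congruences along the Galois action on places. -/
theorem Place.smul_sub_mem_iff (σ : L ≃ₐ[K] L) (W : Place ℓ L) (z c : SemiLocal ℓ L)
    (hc : σ • c = c) : σ • z - c ∈ W.asIdeal ↔ z - c ∈ (σ⁻¹ • W).asIdeal := by
  rw [Place.mem_smul_iff, inv_inv, smul_sub, hc]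

/-- **Split norm criterion, abstract form**: if `Gal(L/K)` acts freely on the places of `L` over
`ℓ`, every unit of `ℚ_ℓ ⊗ K` is a norm. -/
theorem isSemiLocalNorm_of_free
    (hfree : ∀ (W : Place ℓ L) (σ : L ≃ₐ[K] L), σ • W = W → σ = 1) (b : (SemiLocal ℓ K)ˣ) :
    IsSemiLocalNorm K L ℓ b := by
  classical
  set b' : (SemiLocal ℓ L)ˣ := SemiLocal.unitsMap ℓ (algebraMap K L) b with hb'
  have hb'fix : ∀ σ : L ≃ₐ[K] L, σ • (b' : SemiLocal ℓ L) = b' := fun σ =>
    SemiLocal.smul_map_algebraMap ℓ K L σ _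
  -- orbit representatives
  choose rep hrep using (Place.under_surjective : Function.Surjective
    (Place.under : Place ℓ L → Place ℓ K))
  -- the element `y`
  obtain ⟨y, hy⟩ := SemiLocal.exists_unitsProj_eq ℓ L
    (fun W => if rep (W.under (K := K)) = W then W.unitsProj b' else 1)
  refine ⟨y, ?_⟩
  -- congruences satisfied by `y`
  have hy1 : ∀ W : Place ℓ L, rep (W.under (K := K)) = W →
      (y : SemiLocal ℓ L) - b' ∈ W.asIdeal := by
    intro W hW
    have := hy W
    rw [if_pos hW] at this
    have h2 : W.proj (y : SemiLocal ℓ L) = W.proj (b' : SemiLocal ℓ L) :=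
      congrArg (fun u : W.Completionˣ => (u : W.Completion)) this
    rw [← Place.proj_eq_zero_iff, map_sub, h2, sub_self]
  have hy2 : ∀ W : Place ℓ L, rep (W.under (K := K)) ≠ W →
      (y : SemiLocal ℓ L) - 1 ∈ W.asIdeal := by
    intro W hW
    have := hy W
    rw [if_neg hW] at this
    have h2 : W.proj (y : SemiLocal ℓ L) = 1 :=
      congrArg (fun u : W.Completionˣ => (u : W.Completion)) this
    rw [← Place.proj_eq_zero_iff, map_sub, h2, map_one, sub_self]
  apply Units.ext
  apply SemiLocal.ext_proj ℓ L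
  intro W
  -- the unique `τ` moving the representative to `W`
  obtain ⟨τ, hτ⟩ := Place.exists_smul_eq_of_under_eq (K := K)
    (W := rep (W.under (K := K))) (W' := W) (hrep _)
  have hcomp : ∀ σ : L ≃ₐ[K] L, W.proj (σ • (y : SemiLocal ℓ L)) =
      if σ = τ then W.proj (b' : SemiLocal ℓ L) else 1 := by
    intro σ
    have hunder : (σ⁻¹ • W).under (K := K) = W.under := Place.under_smul σ⁻¹ W
    by_cases hσ : σ = τ
    · rw [if_pos hσ]
      have h1 : rep ((σ⁻¹ • W).under (K := K)) = σ⁻¹ • W := by
        rw [hunder, hσ]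
        exact eq_inv_smul_iff.mpr hτ
      have h2 := hy1 _ h1
      rw [← Place.smul_sub_mem_iff σ W _ _ (hb'fix σ)] at h2
      rw [← sub_eq_zero, ← map_sub, Place.proj_eq_zero_iff]
      exact h2
    · rw [if_neg hσ]
      have h1 : rep ((σ⁻¹ • W).under (K := K)) ≠ σ⁻¹ • W := by
        rw [hunder]
        intro h
        apply hσ
        have h3 : σ • rep (W.under (K := K)) = W := eq_inv_smul_iff.mp h
        have h4 : (τ⁻¹ * σ) • rep (W.under (K := K)) = rep (W.under (K := K)) := by
          rw [mul_smul, h3]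
          exact (eq_inv_smul_iff.mpr hτ).symm
        have h5 := hfree _ _ h4
        exact (inv_mul_eq_one.mp h5).symm
      have h2 := hy2 _ h1
      rw [← Place.smul_sub_mem_iff σ W _ _ (smul_one σ)] at h2
      rw [← sub_eq_zero, ← map_one W.proj, ← map_sub, Place.proj_eq_zero_iff]
      exact h2
  have hprod : ((∏ σ : L ≃ₐ[K] L, σ • y : (SemiLocal ℓ L)ˣ) : SemiLocal ℓ L) =
      ∏ σ : L ≃ₐ[K] L, σ • (y : SemiLocal ℓ L) := by
    rw [Units.coe_prod]
    rfl
  rw [hprod, map_prod, Finset.prod_congr rfl (fun σ _ => hcomp σ), Finset.prod_ite_eq']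
  simp only [Finset.mem_univ, if_true]
  rfl

/-- Trivial decomposition groups of the primes over `ℓ` imply that the Galois group acts freely
on the places over `ℓ`. -/
theorem Place.eq_one_of_smul_eq
    (h : ∀ Q : Ideal (𝓞 L), Q.IsPrime → ((ℓ : ℕ) : 𝓞 L) ∈ Q →
      ∀ σ : L ≃ₐ[K] L, (∀ x : 𝓞 L, x ∈ Q → σ • x ∈ Q) → σ = 1)
    (W : Place ℓ L) (σ : L ≃ₐ[K] L) (hσ : σ • W = W) : σ = 1 := by
  refine h W.toPrime inferInstance W.natCast_mem_toPrime σ (fun x hx => ?_)
  have := (Place.smul_mem_toPrime_smul_iff σ W x).mpr hx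
  rwa [hσ] at this

end Split

/-- **(T4') The split norm criterion.** -/
theorem splitNormCriterion : SplitNormCriterion := by
  intro K L _ _ _ _ _ _ ℓ h b
  exact isSemiLocalNorm_of_free (Place.eq_one_of_smul_eq h) b

end Fermat.Agent.CFT
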