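import Mathlib

/-!
# CFT (G3), global Kummer theory for cyclic extensions of prime degree

`K` contains a primitive `p`-th root of unity.
* `exists_kummer_generator`: a cyclic extension `L/K` of degree `p` is `K(a^{1/p})`;
* `exists_eq_pow_mul_pow_of_pow_eq`: `K^× ∩ L^{×p} = ⟨a⟩ K^{×p}`;
* `exists_kummer_extension`: `F(x^{1/p})` as a number field (a `Type`), Galois of degree `p`.
-/

namespace Fermat.Agent.CFT.GlobalKummer

open Polynomial IntermediateField Module

section Cyclic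

variable {K L : Type*} [Field K] [Field L] [Algebra K L] [FiniteDimensional K L] [IsGalois K L]
  {p : ℕ} [hp : Fact p.Prime]

omit hp in
theorem finrank_eq_of_card (hcard : Nat.card (L ≃ₐ[K] L) = p) : finrank K L = p := by
  rw [← IsGalois.card_aut_eq_finrank, hcard]

omit [FiniteDimensional K L] [IsGalois K L] in
theorem fixed_of_generator {σ : L ≃ₐ[K] L} (hσ : ∀ f, f ∈ Subgroup.zpowers σ) {y : L}
    (hy : σ y = y) (f : L ≃ₐ[K] L) : f y = y := by
  have h1 : σ ∈ MulAction.stabilizer (L ≃ₐ[K] L) y := hy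
  have h2 : Subgroup.zpowers σ ≤ MulAction.stabilizer (L ≃ₐ[K] L) y :=
    (Subgroup.zpowers_le).mpr h1
  exact h2 (hσ f)

theorem not_mem_range_of_adjoin_eq_top (hcard : Nat.card (L ≃ₐ[K] L) = p) {α : L}
    (hgen : K⟮α⟯ = ⊤) : α ∉ Set.range (algebraMap K L) := by
  have hfin := finrank_eq_of_card (K := K) (L := L) hcard
  rintro ⟨y, hy⟩
  have hbot : K⟮α⟯ = ⊥ := by
    rw [IntermediateField.adjoin_simple_eq_bot_iff, IntermediateField.mem_bot]
    exact ⟨y, hy⟩
  rw [hbot] at hgen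
  have h1 : finrank K (⊥ : IntermediateField K L) = 1 := IntermediateField.finrank_bot
  rw [hgen, IntermediateField.finrank_top', hfin] at h1
  exact hp.out.one_lt.ne' h1

/-- A cyclic extension of prime degree `p` of a field containing the `p`-th roots of unity is
generated by a `p`-th root. -/
theorem exists_kummer_generator (hcard : Nat.card (L ≃ₐ[K] L) = p) {ζ : K}
    (hζ : IsPrimitiveRoot ζ p) :
    ∃ (a : K) (α : L), a ≠ 0 ∧ α ^ p = algebraMap K L a ∧ K⟮α⟯ = ⊤ := by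
  have hfin := finrank_eq_of_card (K := K) (L := L) hcard
  haveI : IsCyclic (L ≃ₐ[K] L) := isCyclic_of_prime_card hcard
  have hK : (primitiveRoots (finrank K L) K).Nonempty := by
    rw [hfin]
    exact ⟨ζ, (mem_primitiveRoots hp.out.pos).mpr hζ⟩
  obtain ⟨α, ⟨a, ha⟩, hα⟩ := exists_root_adjoin_eq_top_of_isCyclic K L hK
  rw [hfin] at ha
  refine ⟨a, α, ?_, ha.symm, hα⟩
  rintro rfl
  rw [map_zero] at ha
  have hα0 : α = 0 := pow_eq_zero_iff hp.out.ne_zero |>.mp ha.symm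
  exact not_mem_range_of_adjoin_eq_top hcard hα ⟨0, by rw [hα0, map_zero]⟩

omit [FiniteDimensional K L] [IsGalois K L] in
/-- `p`-th roots of unity of `L` lie in `K`. -/
theorem exists_pow_eq_of_pow_eq_one {ζ : K} (hζ : IsPrimitiveRoot ζ p) {η : L} (hη : η ^ p = 1) :
    ∃ i : ℕ, i < p ∧ η = algebraMap K L (ζ ^ i) := by
  have hζ' : IsPrimitiveRoot (algebraMap K L ζ) p := hζ.map_of_injective (algebraMap K L).injective
  obtain ⟨i, hi, hiη⟩ := hζ'.eq_pow_of_pow_eq_one hη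
  exact ⟨i, hi, by rw [map_pow, hiη]⟩

omit [FiniteDimensional K L] [IsGalois K L] in
theorem exists_smul_eq_of_pow_eq {ζ : K} (hζ : IsPrimitiveRoot ζ p) (σ : L ≃ₐ[K] L) {x : K}
    {γ : L} (hγ0 : γ ≠ 0) (hγ : γ ^ p = algebraMap K L x) :
    ∃ j : ℕ, j < p ∧ σ γ = algebraMap K L (ζ ^ j) * γ := by
  have h2 : (σ γ / γ) ^ p = 1 := by
    rw [div_pow, ← map_pow, hγ, AlgEquiv.commutes, div_self]
    rw [← hγ]; exact pow_ne_zero _ hγ0
  obtain ⟨j, hj, hjγ⟩ := exists_pow_eq_of_pow_eq_one (L := L) hζ h2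
  exact ⟨j, hj, by rw [← hjγ, div_mul_cancel₀ _ hγ0]⟩

/-- Kummer theory: the elements of `K` which are `p`-th powers in `L = K(a^{1/p})` are the
`a^k c^p`. -/
theorem exists_eq_pow_mul_pow_of_pow_eq (hcard : Nat.card (L ≃ₐ[K] L) = p) {ζ : K}
    (hζ : IsPrimitiveRoot ζ p) {a : K} {α : L} (ha0 : a ≠ 0) (hα : α ^ p = algebraMap K L a)
    (hgen : K⟮α⟯ = ⊤) {x : K} {γ : L} (hγ : γ ^ p = algebraMap K L x) :
    ∃ (k : ℕ) (c : K), x = a ^ k * c ^ p := by
  haveI : IsCyclic (L ≃ₐ[K] L) := isCyclic_of_prime_card hcard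
  obtain ⟨σ, hσ⟩ := IsCyclic.exists_generator (α := L ≃ₐ[K] L)
  have hα0 : α ≠ 0 := by
    rintro rfl
    rw [zero_pow hp.out.ne_zero] at hα
    exact ha0 ((map_eq_zero _).mp hα.symm)
  obtain ⟨i, hi, hσα⟩ := exists_smul_eq_of_pow_eq hζ σ hα0 hα
  -- `ζ ^ i` is a primitive root
  have hi0 : i ≠ 0 := by
    rintro rfl
    rw [pow_zero, map_one, one_mul] at hσα
    exact not_mem_range_of_adjoin_eq_top hcard hgen
      ((IsGalois.mem_range_algebraMap_iff_fixed α).mpr (fixed_of_generator hσ hσα))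
  by_cases hx0 : x = 0
  · exact ⟨0, 0, by simp [hx0, hp.out.ne_zero]⟩
  have hγ0 : γ ≠ 0 := by
    rintro rfl
    rw [zero_pow hp.out.ne_zero] at hγ
    exact hx0 ((map_eq_zero _).mp hγ.symm)
  obtain ⟨j, hj, hσγ⟩ := exists_smul_eq_of_pow_eq hζ σ hγ0 hγ
  have hcop : Nat.Coprime i p := by
    rw [Nat.coprime_comm]
    exact (Nat.Prime.coprime_iff_not_dvd hp.out).mpr (fun h => hi0 (Nat.eq_zero_of_dvd_of_lt h hi))
  have hζi : IsPrimitiveRoot (ζ ^ i) p := hζ.pow_of_coprime i hcop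
  obtain ⟨k, -, hk⟩ := hζi.eq_pow_of_pow_eq_one (ξ := ζ ^ j)
    (by rw [← pow_mul, mul_comm, pow_mul, hζ.pow_eq_one, one_pow])
  -- `c = γ / α ^ k` is fixed
  have hfix : σ (γ / α ^ k) = γ / α ^ k := by
    rw [map_div₀, map_pow, hσγ, hσα, mul_pow, ← map_pow, hk]
    have h0 : algebraMap K L (ζ ^ j) ≠ 0 := by
      rw [Ne, map_eq_zero]
      exact pow_ne_zero _ (hζ.ne_zero hp.out.ne_zero)
    field_simp
  obtain ⟨c, hc⟩ := (IsGalois.mem_range_algebraMap_iff_fixed _).mpr (fixed_of_generator hσ hfix)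
  refine ⟨k, c, ?_⟩
  apply (algebraMap K L).injective
  rw [map_mul, map_pow, map_pow, hc, ← hα, ← hγ, div_pow, ← pow_mul, ← pow_mul, mul_comm p k]
  field_simp

end Cyclic


section Adjoin

variable {K L : Type*} [Field K] [Field L] [Algebra K L] [FiniteDimensional K L]

theorem algebra_adjoin_eq_top_of_adjoin_eq_top {α : L} (h : K⟮α⟯ = ⊤) :
    Algebra.adjoin K {α} = ⊤ := by
  rw [← IntermediateField.adjoin_simple_toSubalgebra_of_isAlgebraic (IsAlgebraic.of_finite K α), h,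
    IntermediateField.top_toSubalgebra]

end Adjoin

/-- Existence of the Kummer extension `F(x^{1/p})` as a number field, cyclic of degree `p`. -/
theorem exists_kummer_extension {p : ℕ} [hp : Fact p.Prime] (F : Type) [Field F] [NumberField F]
    {ζ : F} (hζ : IsPrimitiveRoot ζ p) (x : F) (hx : ¬ ∃ c : F, c ^ p = x) :
    ∃ (F' : Type) (_ : Field F') (_ : NumberField F') (_ : Algebra F F') (_ : IsGalois F F'),
      Nat.card (F' ≃ₐ[F] F') = p ∧ ∃ β : F', β ^ p = algebraMap F F' x ∧ Algebra.adjoin F {β} = ⊤ := by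
  have H : Irreducible (X ^ p - C x) :=
    X_pow_sub_C_irreducible_of_prime hp.out (fun b hb => hx ⟨b, hb⟩)
  haveI := Fact.mk H
  have hprim : (primitiveRoots p F).Nonempty := ⟨ζ, (mem_primitiveRoots hp.out.pos).mpr hζ⟩
  letI : Algebra F (AdjoinRoot (X ^ p - C x)) := inferInstance
  haveI := isSplittingField_AdjoinRoot_X_pow_sub_C hprim H
  haveI : IsGalois F (AdjoinRoot (X ^ p - C x)) :=
    isGalois_of_isSplittingField_X_pow_sub_C hprim H _
  haveI : FiniteDimensional F (AdjoinRoot (X ^ p - C x)) :=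
    Polynomial.IsSplittingField.finiteDimensional _ (X ^ p - C x)
  haveI : NumberField (AdjoinRoot (X ^ p - C x)) := by
    haveI : CharZero (AdjoinRoot (X ^ p - C x)) :=
      charZero_of_injective_algebraMap (algebraMap F _).injective
    haveI : FiniteDimensional ℚ (AdjoinRoot (X ^ p - C x)) :=
      FiniteDimensional.trans ℚ F (AdjoinRoot (X ^ p - C x))
    exact ⟨⟩
  refine ⟨AdjoinRoot (X ^ p - C x), inferInstance, inferInstance, inferInstance, inferInstance,
    ?_, AdjoinRoot.root _, ?_, AdjoinRoot.adjoinRoot_eq_top⟩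
  · rw [IsGalois.card_aut_eq_finrank]
    exact finrank_of_isSplittingField_X_pow_sub_C hprim H _
  · have := AdjoinRoot.eval₂_root (X ^ p - C x)
    simpa [sub_eq_zero] using this

end Fermat.Agent.CFT.GlobalKummer
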