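import Mathlib
import Fermat.Agent.CFT.Global.T2_helper1_Kummer

/-!
# CFT (PT6): multi-Kummer extensions `K(R^{1/p})`

`K ∋ ζ_p`, `M/K` a finite Galois extension generated by a set `Rt` of `p`-th roots of elements
of `K^×`. Then `Gal(M/K)` is abelian of exponent `p`, and the group of elements of `K^×` which
become `p`-th powers in `M` has index at most `[M : K]` over `K^{×p}` (the easy direction of Kummer
theory). Existence: the splitting field of `∏_{a ∈ R} (X^p - a)`.
-/

set_option autoImplicit false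
set_option linter.unusedSectionVars false
set_option linter.style.haveILetI false

namespace Fermat.Agent.CFT.PT6

open Polynomial Fermat.Agent.CFT.GlobalKummer

section General

variable {K M : Type*} [Field K] [Field M] [Algebra K M] {p : ℕ} [hp : Fact p.Prime]

/-- `Rt` is a set of Kummer generators of `M/K`: `p`-th roots of nonzero elements of `K` which
are moved by every nontrivial automorphism. -/
structure IsKummerGenerating (p : ℕ) (Rt : Set M) : Prop where
  pow_mem : ∀ α ∈ Rt, ∃ a : K, a ≠ 0 ∧ α ^ p = algebraMap K M a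
  eq_one : ∀ σ : M ≃ₐ[K] M, (∀ α ∈ Rt, σ α = α) → σ = 1

variable {Rt : Set M}

theorem IsKummerGenerating.ext (h : IsKummerGenerating (K := K) p Rt) {σ τ : M ≃ₐ[K] M}
    (hστ : ∀ α ∈ Rt, σ α = τ α) : σ = τ := by
  have h1 : τ⁻¹ * σ = 1 := h.eq_one _ fun α hα => by
    rw [AlgEquiv.mul_apply, hστ α hα]
    exact τ.symm_apply_apply α
  rw [← mul_right_inj τ⁻¹, h1, inv_mul_cancel]

theorem ne_zero_of_pow_eq {α : M} {a : K} (ha : a ≠ 0) (hα : α ^ p = algebraMap K M a) :
    α ≠ 0 := by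
  rintro rfl
  rw [zero_pow hp.out.ne_zero] at hα
  exact ha ((map_eq_zero _).mp hα.symm)

/-- `Gal(M/K)` is commutative. -/
theorem IsKummerGenerating.gal_comm {ζ : K} (hζ : IsPrimitiveRoot ζ p)
    (h : IsKummerGenerating (K := K) p Rt) (σ τ : M ≃ₐ[K] M) : σ * τ = τ * σ := by
  apply h.ext
  intro α hα
  obtain ⟨a, ha, hαa⟩ := h.pow_mem α hα
  have hα0 := ne_zero_of_pow_eq (hp := hp) ha hαa
  obtain ⟨i, -, hi⟩ := exists_smul_eq_of_pow_eq hζ σ hα0 hαa
  obtain ⟨j, -, hj⟩ := exists_smul_eq_of_pow_eq hζ τ hα0 hαa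
  rw [AlgEquiv.mul_apply, AlgEquiv.mul_apply, hj, hi, map_mul, map_mul, AlgEquiv.commutes,
    AlgEquiv.commutes, hi, hj]
  ring

/-- `Gal(M/K)` has exponent `p`. -/
theorem IsKummerGenerating.gal_pow_eq_one {ζ : K} (hζ : IsPrimitiveRoot ζ p)
    (h : IsKummerGenerating (K := K) p Rt) (σ : M ≃ₐ[K] M) : σ ^ p = 1 := by
  apply h.ext
  intro α hα
  obtain ⟨a, ha, hαa⟩ := h.pow_mem α hα
  have hα0 := ne_zero_of_pow_eq (hp := hp) ha hαa
  obtain ⟨i, -, hi⟩ := exists_smul_eq_of_pow_eq hζ σ hα0 hαa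
  have h1 : ∀ k : ℕ, (σ ^ k) α = algebraMap K M ((ζ ^ i) ^ k) * α := by
    intro k
    induction k with
    | zero => simp
    | succ k ih =>
      rw [pow_succ', AlgEquiv.mul_apply, ih, map_mul, AlgEquiv.commutes, hi, pow_succ, map_mul]
      ring
  have h2 : (ζ ^ i) ^ p = 1 := by rw [← pow_mul, Nat.mul_comm, pow_mul, hζ.pow_eq_one, one_pow]
  rw [h1 p, h2, map_one, one_mul]
  rfl

end General

section Pairing

variable {K M : Type*} [Field K] [Field M] [Algebra K M] {p : ℕ} [hp : Fact p.Prime]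

/-- the elements of `K^×` which are `p`-th powers in `M` -/
def powersIn (K M : Type*) [Field K] [Field M] [Algebra K M] (p : ℕ) : Subgroup Kˣ where
  carrier := {a | ∃ β : M, β ^ p = algebraMap K M a}
  one_mem' := ⟨1, by simp⟩
  mul_mem' := by
    rintro a b ⟨β, hβ⟩ ⟨γ, hγ⟩
    exact ⟨β * γ, by rw [mul_pow, hβ, hγ, Units.val_mul, map_mul]⟩
  inv_mem' := by
    rintro a ⟨β, hβ⟩
    exact ⟨β⁻¹, by rw [inv_pow, hβ, Units.val_inv_eq_inv_val, map_inv₀]⟩

lemma mem_powersIn_iff {a : Kˣ} : a ∈ powersIn K M p ↔ ∃ β : M, β ^ p = algebraMap K M a :=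
  Iff.rfl

/-- the `p`-th powers in `K^×` -/
abbrev unitPowers (K : Type*) [Field K] (p : ℕ) : Subgroup Kˣ := (powMonoidHom p : Kˣ →* Kˣ).range

lemma unitPowers_le_powersIn : unitPowers K p ≤ powersIn K M p := by
  rintro _ ⟨b, rfl⟩
  exact ⟨algebraMap K M b, by rw [powMonoidHom_apply, Units.val_pow_eq_pow_val, map_pow]⟩

variable {ζ : K} (hζ : IsPrimitiveRoot ζ p)

include hζ in
/-- the value `σ β / β` of the Kummer character is a root of unity of `K`, hence Galois-fixed -/
theorem kum_aux (σ τ : M ≃ₐ[K] M) {β : M} {a : K} (ha : a ≠ 0) (hβ : β ^ p = algebraMap K M a) :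
    σ (τ β / β) = τ β / β := by
  have hβ0 := ne_zero_of_pow_eq (hp := hp) ha hβ
  obtain ⟨j, -, hj⟩ := exists_smul_eq_of_pow_eq hζ τ hβ0 hβ
  rw [hj, mul_div_assoc, div_self hβ0, mul_one, AlgEquiv.commutes]

/-- the Kummer character `σ ↦ σ β / β` attached to a `p`-th root `β` of an element of `K^×`. -/
noncomputable def kumChar {β : M} {a : K} (ha : a ≠ 0) (hβ : β ^ p = algebraMap K M a) :
    (M ≃ₐ[K] M) →* Mˣ where
  toFun σ := Units.mk0 (σ β / β) (div_ne_zero
    ((_root_.map_ne_zero _).mpr (ne_zero_of_pow_eq (hp := hp) ha hβ)) (ne_zero_of_pow_eq (hp := hp) ha hβ))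
  map_one' := Units.ext (by
    change (1 : M ≃ₐ[K] M) β / β = 1
    rw [AlgEquiv.one_apply, div_self (ne_zero_of_pow_eq (hp := hp) ha hβ)])
  map_mul' σ τ := Units.ext (by
    have hβ0 := ne_zero_of_pow_eq (hp := hp) ha hβ
    change (σ * τ) β / β = (σ β / β) * (τ β / β)
    have h1 := kum_aux hζ σ τ ha hβ
    rw [map_div₀] at h1
    have h2 : σ (τ β) = (τ β / β) * σ β := by
      have hσβ : σ β ≠ 0 := (_root_.map_ne_zero _).mpr hβ0
      field_simp at h1 ⊢
      linear_combination h1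
    rw [AlgEquiv.mul_apply, h2]
    field_simp)

@[simp] lemma kumChar_apply {β : M} {a : K} (ha : a ≠ 0) (hβ : β ^ p = algebraMap K M a)
    (σ : M ≃ₐ[K] M) : ((kumChar hζ ha hβ σ : Mˣ) : M) = σ β / β := rfl

include hζ in
/-- the Kummer character depends only on `β ^ p`. -/
theorem kumChar_eq_of_pow_eq {β γ : M} {a : K} (ha : a ≠ 0) (hβ : β ^ p = algebraMap K M a)
    (hγ : γ ^ p = algebraMap K M a) : kumChar hζ ha hβ = kumChar hζ ha hγ := by
  have hβ0 := ne_zero_of_pow_eq (hp := hp) ha hβ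
  have hγ0 := ne_zero_of_pow_eq (hp := hp) ha hγ
  have h1 : (γ / β) ^ p = 1 := by rw [div_pow, hβ, hγ, div_self]; rw [← hβ]; exact pow_ne_zero _ hβ0
  obtain ⟨i, -, hi⟩ := exists_pow_eq_of_pow_eq_one (L := M) hζ h1
  have hγβ : γ = algebraMap K M (ζ ^ i) * β := by rw [← hi, div_mul_cancel₀ _ hβ0]
  ext σ
  rw [kumChar_apply, kumChar_apply, hγβ, map_mul, AlgEquiv.commutes]
  have h0 : algebraMap K M (ζ ^ i) ≠ 0 := by
    rw [Ne, map_eq_zero]
    exact pow_ne_zero _ (hζ.ne_zero hp.out.ne_zero)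
  field_simp

include hζ in
theorem kumChar_mul {β γ : M} {a b : K} (ha : a ≠ 0) (hb : b ≠ 0)
    (hβ : β ^ p = algebraMap K M a) (hγ : γ ^ p = algebraMap K M b)
    (hβγ : (β * γ) ^ p = algebraMap K M (a * b)) :
    kumChar hζ (mul_ne_zero ha hb) hβγ = kumChar hζ ha hβ * kumChar hζ hb hγ := by
  have hβ0 := ne_zero_of_pow_eq (hp := hp) ha hβ
  have hγ0 := ne_zero_of_pow_eq (hp := hp) hb hγ
  ext σ
  rw [MonoidHom.mul_apply, Units.val_mul, kumChar_apply, kumChar_apply, kumChar_apply, map_mul]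
  field_simp

/-- the Kummer pairing as a homomorphism `K^× ∩ M^{×p} → Hom(Gal(M/K), M^×)`. -/
noncomputable def kumHom : powersIn K M p →* ((M ≃ₐ[K] M) →* Mˣ) :=
  MonoidHom.mk' (fun a => kumChar hζ (a.1.ne_zero) (Classical.choose_spec a.2)) (by
    intro a b
    have h1 : (Classical.choose a.2 * Classical.choose b.2) ^ p =
        algebraMap K M ((a.1 : K) * (b.1 : K)) := by
      rw [mul_pow, Classical.choose_spec a.2, Classical.choose_spec b.2, map_mul]
    rw [← kumChar_mul hζ a.1.ne_zero b.1.ne_zero (Classical.choose_spec a.2)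
      (Classical.choose_spec b.2) h1]
    exact kumChar_eq_of_pow_eq hζ _ _ h1)

theorem kumHom_apply_apply (a : powersIn K M p) {β : M} (hβ : β ^ p = algebraMap K M (a.1 : K))
    (σ : M ≃ₐ[K] M) : ((kumHom hζ a σ : Mˣ) : M) = σ β / β := by
  have h1 : kumHom hζ a = kumChar hζ (a.1.ne_zero) hβ :=
    kumChar_eq_of_pow_eq hζ a.1.ne_zero (Classical.choose_spec a.2) hβ
  rw [h1, kumChar_apply]

theorem kumHom_ker [FiniteDimensional K M] [IsGalois K M] :
    (kumHom (M := M) hζ).ker = (unitPowers K p).subgroupOf (powersIn K M p) := by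
  ext a
  rw [MonoidHom.mem_ker, Subgroup.mem_subgroupOf]
  obtain ⟨β, hβ⟩ := a.2
  have hβ0 := ne_zero_of_pow_eq (hp := hp) a.1.ne_zero hβ
  constructor
  · intro h
    have hfix : ∀ σ : M ≃ₐ[K] M, σ β = β := by
      intro σ
      have h1 := kumHom_apply_apply hζ a hβ σ
      rw [h, MonoidHom.one_apply, Units.val_one] at h1
      field_simp at h1
      exact h1.symm
    obtain ⟨b, hb⟩ := (IsGalois.mem_range_algebraMap_iff_fixed β).mpr hfix
    have hb0 : b ≠ 0 := by
      rintro rfl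
      rw [map_zero] at hb
      exact hβ0 hb.symm
    refine ⟨Units.mk0 b hb0, Units.ext ?_⟩
    apply (algebraMap K M).injective
    rw [powMonoidHom_apply, Units.val_pow_eq_pow_val, Units.val_mk0, map_pow, hb, hβ]
  · rintro ⟨b, hb⟩
    have hb' : (algebraMap K M (b : K)) ^ p = algebraMap K M (a.1 : K) := by
      rw [← map_pow, ← Units.val_pow_eq_pow_val, ← powMonoidHom_apply, hb]
    ext σ
    rw [kumHom_apply_apply hζ a hb' σ, AlgEquiv.commutes, MonoidHom.one_apply, Units.val_one,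
      div_self]
    rw [Ne, map_eq_zero]
    exact b.ne_zero

include hζ in
/-- **Easy direction of Kummer theory**: `[K^× ∩ M^{×p} : K^{×p}] ≤ |Gal(M/K)|` for `M/K`
finite Galois, abelian of exponent `p`. -/
theorem relIndex_unitPowers_powersIn_le [FiniteDimensional K M] [IsGalois K M]
    (hcomm : ∀ σ τ : M ≃ₐ[K] M, σ * τ = τ * σ) (hexp : ∀ σ : M ≃ₐ[K] M, σ ^ p = 1) :
    (unitPowers K p).relIndex (powersIn K M p) ≠ 0 ∧
      (unitPowers K p).relIndex (powersIn K M p) ≤ Nat.card (M ≃ₐ[K] M) := by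
  letI : CommGroup (M ≃ₐ[K] M) := { (inferInstance : Group (M ≃ₐ[K] M)) with mul_comm := hcomm }
  haveI : NeZero p := ⟨hp.out.ne_zero⟩
  have hζ' : IsPrimitiveRoot (algebraMap K M ζ) p := hζ.map_of_injective (algebraMap K M).injective
  haveI : HasEnoughRootsOfUnity M p := ⟨⟨_, hζ'⟩, inferInstance⟩
  have hdvd : Monoid.exponent (M ≃ₐ[K] M) ∣ p := Monoid.exponent_dvd_of_forall_pow_eq_one hexp
  haveI : HasEnoughRootsOfUnity M (Monoid.exponent (M ≃ₐ[K] M)) :=
    HasEnoughRootsOfUnity.of_dvd M hdvd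
  have hcard : Nat.card ((M ≃ₐ[K] M) →* Mˣ) = Nat.card (M ≃ₐ[K] M) :=
    CommGroup.card_monoidHom_of_hasEnoughRootsOfUnity (M ≃ₐ[K] M) M
  haveI : Finite ((M ≃ₐ[K] M) →* Mˣ) := Nat.finite_of_card_ne_zero (by
    rw [hcard]; exact Nat.card_pos.ne')
  have h1 : (unitPowers K p).relIndex (powersIn K M p) = Nat.card (kumHom (M := M) hζ).range := by
    rw [Subgroup.relIndex, ← kumHom_ker hζ, Subgroup.index_ker]
  rw [h1]
  refine ⟨Nat.card_pos.ne', ?_⟩
  rw [← hcard]
  exact Subgroup.card_le_card_group _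

end Pairing

section Existence

/-- **Existence of multi-Kummer extensions**: for a finite set `R ⊆ K^×`, `K(R^{1/p})` as a number
field (a `Type`), Galois over `K`, generated by the set of all `p`-th roots of the elements of
`R`. -/
theorem exists_multiKummer {p : ℕ} [hp : Fact p.Prime] (K : Type) [Field K] [NumberField K]
    (R : Finset Kˣ) :
    ∃ (M : Type) (_ : Field M) (_ : NumberField M) (_ : Algebra K M) (_ : IsGalois K M),
      ∃ Rt : Set M, IsKummerGenerating (K := K) p Rt ∧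
        (∀ α ∈ Rt, ∃ a ∈ R, α ^ p = algebraMap K M (a : K)) ∧
        (∀ a ∈ R, ∃ α ∈ Rt, α ^ p = algebraMap K M (a : K)) := by
  classical
  set f : K[X] := ∏ a ∈ R, (X ^ p - C (a : K)) with hf
  have hfac : ∀ a : Kˣ, (X ^ p - C (a : K) : K[X]) ≠ 0 :=
    fun a => X_pow_sub_C_ne_zero hp.out.pos _
  have hf0 : f ≠ 0 := Finset.prod_ne_zero_iff.mpr fun a _ => hfac a
  haveI : FiniteDimensional K f.SplittingField :=
    Polynomial.IsSplittingField.finiteDimensional _ f
  haveI : NumberField f.SplittingField := by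
    haveI : CharZero f.SplittingField :=
      charZero_of_injective_algebraMap (algebraMap K _).injective
    haveI : FiniteDimensional ℚ f.SplittingField := FiniteDimensional.trans ℚ K f.SplittingField
    exact ⟨⟩
  haveI : Normal K f.SplittingField := Normal.of_isSplittingField f
  haveI : IsGalois K f.SplittingField := isGalois_iff.mpr ⟨inferInstance, inferInstance⟩
  refine ⟨f.SplittingField, inferInstance, inferInstance, inferInstance, inferInstance,
    {α | ∃ a ∈ R, α ^ p = algebraMap K f.SplittingField (a : K)}, ⟨?_, ?_⟩, fun α hα => hα, ?_⟩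
  · rintro α ⟨a, -, ha⟩
    exact ⟨(a : K), a.ne_zero, ha⟩
  · intro σ hσ
    have h1 : (σ : f.SplittingField →ₐ[K] f.SplittingField) = AlgHom.id K f.SplittingField := by
      apply AlgHom.ext_of_adjoin_eq_top (SplittingField.adjoin_rootSet f)
      intro x hx
      rw [Polynomial.mem_rootSet] at hx
      have h2 : (aeval x) (∏ a ∈ R, (X ^ p - C (a : K)) : K[X]) = 0 := hx.2
      rw [map_prod, Finset.prod_eq_zero_iff] at h2
      obtain ⟨a, haR, ha⟩ := h2
      rw [map_sub, map_pow, aeval_X, aeval_C, sub_eq_zero] at ha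
      exact hσ x ⟨a, haR, ha⟩
    ext x
    exact DFunLike.congr_fun h1 x
  · intro a ha
    have hsplit : Splits ((X ^ p - C (a : K) : K[X]).map (algebraMap K f.SplittingField)) := by
      refine Splits.of_dvd (SplittingField.splits f) ((Polynomial.map_ne_zero_iff
        (algebraMap K f.SplittingField).injective).mpr hf0) ?_
      exact Polynomial.map_dvd _ (Finset.dvd_prod_of_mem _ ha)
    obtain ⟨α, hα⟩ := hsplit.exists_eval_eq_zero (by
      rw [degree_map, degree_X_pow_sub_C hp.out.pos]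
      exact_mod_cast hp.out.ne_zero)
    rw [eval_map, eval₂_sub, eval₂_pow, eval₂_X, eval₂_C, sub_eq_zero] at hα
    exact ⟨α, ⟨a, ha, hα⟩, hα⟩

end Existence

end Fermat.Agent.CFT.PT6
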