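import Mathlib
import Fermat.Agent.CFT.Global.PT6_helper1_Kummer
import Fermat.Agent.CFT.Global.T2_helper1_LocalNorm
import Fermat.Agent.CFT.Global.G02_helper5_Split
import Fermat.Agent.CFT.Global.G02_helper5_Unram
import Fermat.Agent.CFT.Global.G2_helper2_SIdeles

/-!
# CFT (PT6): idele norms from a multi-Kummer extension

`M = K(Rt)` a multi-Kummer extension (`IsKummerGenerating`), `S ∋ p` a finite set of rational
primes such that every `a = α^p` (`α ∈ Rt`) is a local `p`-th power at the primes of `S` and a
unit times a `p`-th power at the primes outside `S`. Then every `S`-idele of `K` is an idele norm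
from `M`.
-/

set_option autoImplicit false
set_option linter.unusedSectionVars false
set_option linter.style.haveILetI false

open scoped TensorProduct NumberField Pointwise RestrictedProduct
open IsLocalRing

namespace Fermat.Agent.CFT.PT6

open scoped SemiLocalRel
open scoped Fermat.Agent.CFT.Local.PadicBridge
open Fermat.Agent.CFT Fermat.Agent.CFT.Local Fermat.Agent.CFT.Place Fermat.Agent.CFT.T2

/-- In a local ring in which `p` is invertible, two elements with the same `p`-th power which are
congruent modulo the maximal ideal are equal, if one of them is a unit. -/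
theorem eq_of_pow_eq_of_sub_mem {B : Type*} [CommRing B] [IsLocalRing B] {p : ℕ}
    (hp : IsUnit ((p : ℕ) : B)) {b b' : B} (hb : IsUnit b) (hpow : b' ^ p = b ^ p)
    (hsub : b' - b ∈ maximalIdeal B) : b' = b := by
  obtain ⟨u, rfl⟩ := hb
  set c : B := b' * ((u⁻¹ : Bˣ) : B) with hc
  have hcp : c ^ p = 1 := by
    rw [hc, mul_pow, hpow, ← mul_pow, Units.mul_inv, one_pow]
  have hc1 : c - 1 ∈ maximalIdeal B := by
    have : c - 1 = (b' - u) * ((u⁻¹ : Bˣ) : B) := by rw [hc, sub_mul, Units.mul_inv]
    rw [this]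
    exact Ideal.mul_mem_right _ _ hsub
  -- `Φ(c) (c - 1) = 0` with `Φ(c) ≡ p` a unit
  have hgeom : (∑ i ∈ Finset.range p, c ^ i) * (c - 1) = 0 := by
    rw [geom_sum_mul, hcp, sub_self]
  have hΦ : IsUnit (∑ i ∈ Finset.range p, c ^ i) := by
    have h1 : (∑ i ∈ Finset.range p, c ^ i) - (p : B) ∈ maximalIdeal B := by
      have : (∑ i ∈ Finset.range p, c ^ i) - (p : B) = ∑ i ∈ Finset.range p, (c ^ i - 1) := by
        rw [Finset.sum_sub_distrib, Finset.sum_const, Finset.card_range, nsmul_eq_mul, mul_one]
      rw [this]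
      refine Ideal.sum_mem _ fun i _ => ?_
      have h2 : c ^ i - 1 = (∑ j ∈ Finset.range i, c ^ j) * (c - 1) := (geom_sum_mul c i).symm
      rw [h2]
      exact Ideal.mul_mem_left _ _ hc1
    by_contra hnu
    have h3 : (∑ i ∈ Finset.range p, c ^ i) ∈ maximalIdeal B := (mem_maximalIdeal _).mpr hnu
    have h4 : ((p : ℕ) : B) ∈ maximalIdeal B := by
      have := Ideal.sub_mem _ h3 h1
      rwa [sub_sub_cancel] at this
    exact (mem_maximalIdeal _).mp h4 hp
  have hc' : c - 1 = 0 := by
    obtain ⟨v, hv⟩ := hΦ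
    rw [← hv] at hgeom
    exact (Units.mul_right_eq_zero v).mp hgeom
  have : b' = c * u := by rw [hc, mul_assoc, Units.inv_mul, mul_one]
  rw [this, sub_eq_zero.mp hc', one_mul]

section Local

variable {ℓ : ℕ} [Fact ℓ.Prime] {K M : Type} [Field K] [NumberField K] [Field M] [NumberField M]
  [Algebra K M] [IsGalois K M] {p : ℕ} [hp : Fact p.Prime]

/-- SPLIT: if `α ^ p = a` with `a` a `p`-th power in `K_w`, every element of the decomposition
group of `W | w` fixes `α`. -/
theorem apply_eq_of_smul_eq_of_pow_eq {ζ : K} (hζ : IsPrimitiveRoot ζ p) (W : Place ℓ M)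
    (σ : M ≃ₐ[K] M) (hσ : σ • W = W) {a : K} (ha0 : a ≠ 0) {α : M}
    (hα : α ^ p = algebraMap K M a) (e : (W.under (K := K)).Completion)
    (he : e ^ p = (W.under (K := K)).embed a) : σ α = α := by
  have he0 : e ≠ 0 := by
    rintro rfl
    rw [zero_pow hp.out.ne_zero] at he
    exact ha0 ((map_eq_zero _).mp he.symm)
  have he' : algebraMap (W.under (K := K)).Completion W.Completion e ≠ 0 := by
    rwa [Ne, map_eq_zero]
  have h1 : (W.embed α) ^ p =
      (algebraMap (W.under (K := K)).Completion W.Completion e) ^ p := by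
    rw [← map_pow, hα, ← map_pow, he, algebraMap_completion_embed]
  have h2 : (W.embed α / algebraMap (W.under (K := K)).Completion W.Completion e) ^ p = 1 := by
    rw [div_pow, h1, div_self (pow_ne_zero _ he')]
  obtain ⟨y, hy⟩ := mem_range_of_pow_eq_one (K := K) W hζ h2
  have h3 : W.embed α = algebraMap (W.under (K := K)).Completion W.Completion (y * e) := by
    rw [map_mul, hy, div_mul_cancel₀ _ he']
  have h4 := decompHom_embed (K := K) W ⟨σ, hσ⟩ α
  rw [h3, AlgEquiv.commutes, ← h3] at h4
  exact (embed_injective W h4).symm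

/-- UNRAMIFIED: if `α ^ p = a` with `a` a unit times a `p`-th power in `K_w`, `w ∤ p`, every
element of the inertia group of `L_W / K_w` fixes the image of `α`. -/
theorem apply_embed_eq_of_inertia (hℓp : ℓ ≠ p) (W : Place ℓ M)
    (τ : W.Completion ≃ₐ[(W.under (K := K)).Completion] W.Completion)
    (hτ : ∀ b : W.integers, galRestrict (W.under (K := K)).integers
      (W.under (K := K)).Completion W.Completion W.integers τ b - b ∈ maximalIdeal W.integers)
    {a : K} {α : M} (hα : α ^ p = algebraMap K M a)
    (u y : (W.under (K := K)).Completionˣ) (hu : u ∈ (W.under (K := K)).integerUnits)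
    (huy : ((u * y ^ p : (W.under (K := K)).Completionˣ) : (W.under (K := K)).Completion) =
      (W.under (K := K)).embed a) :
    τ (W.embed α) = W.embed α := by
  set A := algebraMap (W.under (K := K)).Completion W.Completion with hA
  have hy0 : A (y : (W.under (K := K)).Completion) ≠ 0 := by
    rw [Ne, map_eq_zero]; exact y.ne_zero
  set β : W.Completion := W.embed α / A (y : (W.under (K := K)).Completion) with hβ
  have hβp : β ^ p = A (u : (W.under (K := K)).Completion) := by
    rw [hβ, div_pow, ← map_pow, hα, ← algebraMap_completion_embed, ← huy, Units.val_mul,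
      Units.val_pow_eq_pow_val, map_mul, map_pow, mul_div_assoc, div_self (pow_ne_zero _ hy0),
      mul_one]
  have hβ0 : β ≠ 0 := by
    intro h
    rw [h, zero_pow hp.out.ne_zero] at hβp
    exact u.ne_zero ((map_eq_zero _).mp hβp.symm)
  have hβu : Units.mk0 β hβ0 ∈ W.integerUnits := by
    apply mem_integerUnits_of_pow_mem W hp.out.pos
    have : (Units.mk0 β hβ0) ^ p = Units.map (A : _ →* _) u := Units.ext (by
      rw [Units.val_pow_eq_pow_val, Units.val_mk0, hβp]; rfl)
    rw [this]
    exact (map_mem_integerUnits_iff W u).mpr hu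
  set b : (W.integers)ˣ := W.toIntegersUnit (Units.mk0 β hβ0) hβu with hb
  have hbβ : (((b : (W.integers)ˣ) : W.integers) : W.Completion) = β := rfl
  have hbp : ((b : W.integers)) ^ p = algebraMap (W.under (K := K)).integers W.integers
      (((W.under (K := K)).toIntegersUnit u hu : ((W.under (K := K)).integers)ˣ) :
        (W.under (K := K)).integers) := by
    apply Subtype.ext
    rw [SubmonoidClass.coe_pow, hbβ, hβp]
    rfl
  have hfix : galRestrict (W.under (K := K)).integers (W.under (K := K)).Completion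
      W.Completion W.integers τ (b : W.integers) = (b : W.integers) := by
    apply eq_of_pow_eq_of_sub_mem (isUnit_natCast_integers W hp.out hℓp) b.isUnit _ (hτ _)
    rw [← map_pow, hbp, AlgEquiv.commutes]
  have h1 := algebraMap_galRestrict_apply (W.under (K := K)).integers τ (b : W.integers)
    (B := W.integers)
  rw [hfix] at h1
  have h2 : τ β = β := h1.symm
  have h3 : W.embed α = β * A (y : (W.under (K := K)).Completion) := by
    rw [hβ, div_mul_cancel₀ _ hy0]
  rw [h3, map_mul, h2, hA, AlgEquiv.commutes]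

/-- UNRAMIFIED: if every Kummer generator is a `p`-th root of a unit times a `p`-th power of
`K_w`, `w ∤ p`, then `M_W / K_w` is unramified. -/
theorem ramIdx_eq_one_of_isKummerGenerating (hℓp : ℓ ≠ p) {Rt : Set M}
    (hRt : IsKummerGenerating (K := K) p Rt) (W : Place ℓ M)
    (hloc : ∀ α ∈ Rt, ∃ (a : K) (u y : (W.under (K := K)).Completionˣ),
      α ^ p = algebraMap K M a ∧ u ∈ (W.under (K := K)).integerUnits ∧
      ((u * y ^ p : (W.under (K := K)).Completionˣ) : (W.under (K := K)).Completion) =
        (W.under (K := K)).embed a) :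
    ramIdx (W.under (K := K)).integers W.integers = 1 := by
  apply Local.ramIdx_eq_one_of_inertia_trivial (W.under (K := K)).integers
    (W.under (K := K)).Completion W.Completion W.integers
  intro τ hτ
  obtain ⟨σ, rfl⟩ := (Place.decompEquiv (K := K) W).surjective τ
  have h1 : (σ : M ≃ₐ[K] M) = 1 := by
    apply hRt.eq_one
    intro α hα
    obtain ⟨a, u, y, hαa, hu, huy⟩ := hloc α hα
    have h2 := apply_embed_eq_of_inertia hℓp W _ hτ hαa u y hu huy
    rw [decompEquiv_apply, decompHom_embed] at h2
    exact embed_injective W h2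
  have h4 : σ = 1 := Subtype.ext h1
  rw [h4, map_one]

end Local

section Idele

variable {K M : Type} [Field K] [NumberField K] [Field M] [NumberField M]
  [Algebra K M] [IsGalois K M] {p : ℕ} [hp : Fact p.Prime]

/-- **Idele norms from a multi-Kummer extension**: if every Kummer generator `α` of `M/K` has
`α ^ p = a` with `a` a `p`-th power at the primes of `S ∋ p` and a unit times a `p`-th power at
the primes outside `S`, then every `S`-idele of `K` is an idele norm from `M`. -/
theorem isIdeleNorm_of_isKummerGenerating {ζ : K} (hζ : IsPrimitiveRoot ζ p) {Rt : Set M}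
    (hRt : IsKummerGenerating (K := K) p Rt) (S : Finset Nat.Primes)
    (hpS : (⟨p, hp.out⟩ : Nat.Primes) ∈ S)
    (hloc : ∀ α ∈ Rt, ∃ a : Kˣ, α ^ p = algebraMap K M (a : K) ∧
      (∀ ℓ ∈ S, ∃ y : (SemiLocal ((ℓ : Nat.Primes) : ℕ) K)ˣ, y ^ p = SemiLocal.ofUnits ℓ a) ∧
      (∀ ℓ : Nat.Primes, ℓ ∉ S → ∃ u ∈ SemiLocal.unitGroup ℓ K,
        ∃ y : (SemiLocal (ℓ : ℕ) K)ˣ, u * y ^ p = SemiLocal.ofUnits ℓ a))
    (x : FinIdele K) (hx : x ∈ sIdeles K (S : Set Nat.Primes)) : IsIdeleNorm K M x := by
  classical
  have hex : ∀ ℓ : Nat.Primes, ∃ y : (SemiLocal (ℓ : ℕ) M)ˣ,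
      (ℓ ∉ S → y ∈ SemiLocal.unitGroup ℓ M) ∧
      ∏ σ : M ≃ₐ[K] M, σ • y = SemiLocal.unitsMap ℓ (algebraMap K M) (x ℓ) := by
    intro ℓ
    by_cases hℓ : ℓ ∈ S
    · -- split
      have hfree : ∀ (W : Place (ℓ : ℕ) M) (σ : M ≃ₐ[K] M), σ • W = W → σ = 1 := by
        intro W σ hσ
        apply hRt.eq_one
        intro α hα
        obtain ⟨a, hαa, h1, -⟩ := hloc α hα
        obtain ⟨y, hy⟩ := h1 ℓ hℓ
        refine apply_eq_of_smul_eq_of_pow_eq hζ W σ hσ a.ne_zero hαa
          (((W.under (K := K)).unitsProj y : (W.under (K := K)).Completionˣ) :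
            (W.under (K := K)).Completion) ?_
        have h2 := congrArg (fun v : (W.under (K := K)).Completionˣ =>
          (v : (W.under (K := K)).Completion))
          ((map_pow (W.under (K := K)).unitsProj y p).symm.trans
            (congrArg (W.under (K := K)).unitsProj hy))
        have h5 : (((W.under (K := K)).unitsProj (SemiLocal.ofUnits ℓ a) :
            (W.under (K := K)).Completionˣ) : (W.under (K := K)).Completion) =
            (W.under (K := K)).embed (a : K) := rfl
        rw [← h5]
        simpa using h2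
      obtain ⟨y, hy⟩ := isSemiLocalNorm_of_free hfree (x ℓ)
      exact ⟨y, fun h => absurd hℓ h, hy⟩
    · -- unramified
      have hℓp : ((ℓ : Nat.Primes) : ℕ) ≠ p := by
        intro h
        apply hℓ
        have : ℓ = ⟨p, hp.out⟩ := Subtype.ext h
        rw [this]
        exact hpS
      have hram : ∀ W : Place (ℓ : ℕ) M,
          ramIdx (W.under (K := K)).integers W.integers = 1 := by
        intro W
        apply ramIdx_eq_one_of_isKummerGenerating hℓp hRt W
        intro α hα
        obtain ⟨a, hαa, -, h2⟩ := hloc α hα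
        obtain ⟨u, hu, y, huy⟩ := h2 ℓ hℓ
        refine ⟨(a : K), (W.under (K := K)).unitsProj u, (W.under (K := K)).unitsProj y, hαa,
          (SemiLocal.mem_unitGroup_iff_forall.mp hu) _, ?_⟩
        have h3 := congrArg (fun v : (W.under (K := K)).Completionˣ =>
          (v : (W.under (K := K)).Completion)) (congrArg (W.under (K := K)).unitsProj huy)
        rw [← map_pow, ← map_mul]
        exact h3
      have hxu : x ℓ ∈ SemiLocal.unitGroup ℓ K := hx ℓ (by rwa [Finset.mem_coe])
      obtain ⟨y, hy1, hy2⟩ :=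
        exists_mem_unitGroup_prod_smul_eq_unitsMap_of_unramified hram (x ℓ) hxu
      exact ⟨y, fun _ => hy1, hy2⟩
  choose y hy1 hy2 using hex
  have hyU : ∀ᶠ ℓ : Nat.Primes in Filter.cofinite,
      y ℓ ∈ (SemiLocal.unitGroup ℓ M : Set (SemiLocal (ℓ : ℕ) M)ˣ) := by
    rw [Filter.eventually_cofinite]
    refine S.finite_toSet.subset ?_
    intro ℓ hℓ
    by_contra h
    exact hℓ (hy1 ℓ h)
  let Y : FinIdele M := ⟨y, hyU⟩
  refine ⟨Y, ?_⟩
  apply RestrictedProduct.ext
  intro ℓ
  have : (∏ σ : M ≃ₐ[K] M, σ • Y) ℓ = ∏ σ : M ≃ₐ[K] M, σ • y ℓ := by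
    rw [← RestrictedProduct.evalMonoidHom_apply, map_prod]
    rfl
  rw [this, hy2]
  rfl

end Idele

end Fermat.Agent.CFT.PT6
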