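import Mathlib
import Fermat.Agent.CFT.Global.PT6_helper1_Indices
import Fermat.Agent.CFT.Global.PT6_helper1_LocalNorm
import Fermat.Agent.CFT.Global.G3f_helper8_SUnitIndex
import Fermat.Agent.CFT.Global.G4_helper9_IdeleCoh
import Fermat.Agent.CFT.Coh.Nakayama_helper9

/-!
# CFT (PT6): the existence theorem mod `p` (counting form)

For a number field `K ∋ ζ_p` (`p` odd) and a finite set `S ∋ p` of rational primes, the group
`J_K / (K^× · U^S · J_K^p)` (`= C_S(K)/p`) is finite of order at most `[Δ : Δ ∩ K^{×p}]` for a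
subgroup `Δ` of the Kummer group `{a ∈ K^× : a ∈ U_v K_v^{×p} for all v ∤ S}`.

Input: `AbelianNormIndex p` (the norm index equality for abelian extensions of exponent `p`,
a consequence of the existence of fundamental classes for `p`-extensions and Tate's theorem).
-/

set_option autoImplicit false
set_option linter.unusedSectionVars false
set_option linter.style.haveILetI false

open scoped TensorProduct NumberField RestrictedProduct

namespace Fermat.Agent.CFT.PT6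

open Fermat.Agent.CFT Fermat.Agent.CFT.Coh Fermat.Agent.CFT.T2

/-- **Input**: for an abelian extension `M/K` of exponent `p` (`ζ_p ∈ K`), `[M : K] ≤
|Ĥ⁰(Gal(M/K), C_M)|` and `Ĥ⁰` has exponent `p`. -/
def AbelianNormIndex (p : ℕ) : Prop :=
  ∀ (K M : Type) [Field K] [NumberField K] [Field M] [NumberField M] [Algebra K M] [IsGalois K M],
    (∃ ζ : K, IsPrimitiveRoot ζ p) → (∀ σ τ : M ≃ₐ[K] M, σ * τ = τ * σ) →
    (∀ σ : M ≃ₐ[K] M, σ ^ p = 1) →
    Module.finrank K M ≤ Nat.card (TateH0 (ideleClassRep K M)) ∧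
      ∀ x : TateH0 (ideleClassRep K M), p • x = 0

/-- Claim A for `p`-extensions of fields containing `ζ_p`. -/
def ClaimAKummer (p : ℕ) : Prop :=
  ∀ (K M : Type) [Field K] [NumberField K] [Field M] [NumberField M] [Algebra K M] [IsGalois K M],
    (∃ ζ : K, IsPrimitiveRoot ζ p) → IsPGroup p (M ≃ₐ[K] M) →
    ∃ f : groupCohomology.cocycles₂ (ideleClassRep K M), IsFundamentalCocycle (ideleClassRep K M) f

theorem abelianNormIndex_of_claimA {p : ℕ} (h : ClaimAKummer p) :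
    AbelianNormIndex p := by
  intro K M _ _ _ _ _ _ hζ hcomm hexp
  have hpg : IsPGroup p (M ≃ₐ[K] M) := fun σ => ⟨1, by rw [pow_one]; exact hexp σ⟩
  obtain ⟨f, hf⟩ := h K M hζ hpg
  letI : CommGroup (M ≃ₐ[K] M) := { (inferInstance : Group (M ≃ₐ[K] M)) with mul_comm := hcomm }
  have e := (Abelianization.equivOfComm (H := M ≃ₐ[K] M)).trans (nakayamaEquiv hf)
  constructor
  · rw [← IsGalois.card_aut_eq_finrank, Nat.card_congr e.toEquiv]
    exact le_of_eq (Nat.card_congr Multiplicative.toAdd)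
  · intro x
    obtain ⟨σ, hσ⟩ := e.surjective (Multiplicative.ofAdd x)
    have h1 : (Multiplicative.ofAdd x) ^ p = 1 := by
      rw [← hσ, ← map_pow, hexp σ, map_one]
    exact congrArg Multiplicative.toAdd h1

section Kummer

variable (K : Type) [Field K] [NumberField K]

/-- the Kummer group `Δ_S = {a ∈ K^× : a ∈ U_ℓ · K_ℓ^{×p} for all ℓ ∉ S}`. -/
def kummerGroup (S : Set Nat.Primes) (p : ℕ) : Subgroup Kˣ where
  carrier := {a | ∀ ℓ : Nat.Primes, ℓ ∉ S → ∃ u ∈ SemiLocal.unitGroup ℓ K,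
    ∃ y : (SemiLocal (ℓ : ℕ) K)ˣ, u * y ^ p = SemiLocal.ofUnits ℓ a}
  mul_mem' := by
    intro a b ha hb ℓ hℓ
    obtain ⟨u, hu, y, hy⟩ := ha ℓ hℓ
    obtain ⟨u', hu', y', hy'⟩ := hb ℓ hℓ
    refine ⟨u * u', (SemiLocal.unitGroup ℓ K).mul_mem hu hu', y * y', ?_⟩
    rw [map_mul, ← hy, ← hy', mul_pow]
    exact mul_mul_mul_comm _ _ _ _
  one_mem' := fun ℓ _ => ⟨1, (SemiLocal.unitGroup ℓ K).one_mem, 1, by rw [map_one, one_pow, one_mul]⟩
  inv_mem' := by
    intro a ha ℓ hℓ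
    obtain ⟨u, hu, y, hy⟩ := ha ℓ hℓ
    refine ⟨u⁻¹, (SemiLocal.unitGroup ℓ K).inv_mem hu, y⁻¹, ?_⟩
    rw [map_inv, ← hy, mul_inv, inv_pow]

variable {K}

lemma mem_kummerGroup_iff {S : Set Nat.Primes} {p : ℕ} {a : Kˣ} :
    a ∈ kummerGroup K S p ↔ ∀ ℓ : Nat.Primes, ℓ ∉ S → ∃ u ∈ SemiLocal.unitGroup ℓ K,
      ∃ y : (SemiLocal (ℓ : ℕ) K)ˣ, u * y ^ p = SemiLocal.ofUnits ℓ a := Iff.rfl

end Kummer

section Kappa

variable {K : Type} [Field K] [NumberField K] {p : ℕ} [hp : Fact p.Prime]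

/-- **(ii)** the everywhere unramified, `S`-split part of the Kummer group is bounded by the
`S`-class group mod `p`: `[E ∩ U^S J_T^p : E^p] ≤ [J : K^× J_S J^p]`. -/
theorem relIndex_le_index (hA : AbelianNormIndex p) {ζ : K} (hζ : IsPrimitiveRoot ζ p)
    (S : Finset Nat.Primes) (T : Set Nat.Primes) (hpS : (⟨p, hp.out⟩ : Nat.Primes) ∈ S)
    (hκ0 : (powSub (principal K ⊓ sIdeles K T) p).relIndex
      ((principal K ⊓ sIdeles K T) ⊓
        (exUnits K (S : Set Nat.Primes) ⊔ powSub (sIdeles K T) p)) ≠ 0)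
    (hc0 : (principal K ⊔ sIdeles K (S : Set Nat.Primes) ⊔ powSub ⊤ p).index ≠ 0) :
    (powSub (principal K ⊓ sIdeles K T) p).relIndex
      ((principal K ⊓ sIdeles K T) ⊓
        (exUnits K (S : Set Nat.Primes) ⊔ powSub (sIdeles K T) p)) ≤
      (principal K ⊔ sIdeles K (S : Set Nat.Primes) ⊔ powSub ⊤ p).index := by
  classical
  set E := principal K ⊓ sIdeles K T with hE
  set B := exUnits K (S : Set Nat.Primes) ⊔ powSub (sIdeles K T) p with hB
  set Kt : Subgroup Kˣ := (E ⊓ B).comap (FinIdele.diag K) with hKt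
  have h1 : (powSub E p).relIndex (E ⊓ B) = (unitPowers K p).relIndex Kt :=
    relIndex_powSub_eq_relIndex_comap hp.out.pos T (E ⊓ B) inf_le_left
  rw [h1] at hκ0 ⊢
  -- local description of the elements of `Kt`
  have hKtloc : ∀ a ∈ Kt,
      (∀ ℓ ∈ S, ∃ y : (SemiLocal ((ℓ : Nat.Primes) : ℕ) K)ˣ, y ^ p = SemiLocal.ofUnits ℓ a) ∧
      (∀ ℓ : Nat.Primes, ℓ ∉ S → ∃ u ∈ SemiLocal.unitGroup ℓ K,
        ∃ y : (SemiLocal (ℓ : ℕ) K)ˣ, u * y ^ p = SemiLocal.ofUnits ℓ a) := by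
    intro a ha
    have ha' : FinIdele.diag K a ∈ B := (Subgroup.mem_inf.mp ha).2
    obtain ⟨u, hu, _, ⟨y, -, rfl⟩, huy⟩ := Subgroup.mem_sup.mp ha'
    have hcomp : ∀ ℓ : Nat.Primes, u ℓ * (y ℓ) ^ p = SemiLocal.ofUnits ℓ a := by
      intro ℓ
      have h2 : (u * powMonoidHom p y) ℓ = u ℓ * (y ^ p) ℓ := rfl
      have h3 := congrArg (fun x : FinIdele K => x ℓ) huy
      simp only [h2, pow_apply] at h3
      exact h3
    constructor
    · intro ℓ hℓ
      refine ⟨y ℓ, ?_⟩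
      rw [← hcomp ℓ, hu.2 ℓ (Finset.mem_coe.mpr hℓ), one_mul]
    · intro ℓ hℓ
      exact ⟨u ℓ, hu.1 ℓ (fun h => hℓ (Finset.mem_coe.mp h)), y ℓ, hcomp ℓ⟩
  -- coset representatives of `Kt` modulo `p`-th powers
  haveI hfi : ((unitPowers K p).subgroupOf Kt).FiniteIndex := ⟨hκ0⟩
  letI : Fintype (↥Kt ⧸ (unitPowers K p).subgroupOf Kt) :=
    Subgroup.fintypeQuotientOfFiniteIndex
  set R : Finset Kˣ := Finset.univ.image
    (fun q : ↥Kt ⧸ (unitPowers K p).subgroupOf Kt => ((Quotient.out q : ↥Kt) : Kˣ)) with hR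
  have hR1 : ∀ r ∈ R, r ∈ Kt := by
    intro r hr
    obtain ⟨q, -, rfl⟩ := Finset.mem_image.mp hr
    exact (Quotient.out q : ↥Kt).2
  have hR2 : ∀ a ∈ Kt, ∃ r ∈ R, ∃ b : Kˣ, a = r * b ^ p := by
    intro a ha
    set q : ↥Kt ⧸ (unitPowers K p).subgroupOf Kt := QuotientGroup.mk ⟨a, ha⟩ with hq
    have h2 : (QuotientGroup.mk (Quotient.out q) : ↥Kt ⧸ (unitPowers K p).subgroupOf Kt) =
        QuotientGroup.mk ⟨a, ha⟩ := QuotientGroup.out_eq' q
    rw [QuotientGroup.eq, Subgroup.mem_subgroupOf] at h2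
    obtain ⟨b, hb⟩ := h2
    refine ⟨((Quotient.out q : ↥Kt) : Kˣ), Finset.mem_image.mpr ⟨q, Finset.mem_univ _, rfl⟩, b, ?_⟩
    have h3 : b ^ p = ((Quotient.out q : ↥Kt) : Kˣ)⁻¹ * a := hb
    rw [h3, mul_inv_cancel_left]
  -- the multi-Kummer extension
  obtain ⟨M, _, _, _, _, Rt, hRt, hRt1, hRt2⟩ := exists_multiKummer (p := p) K R
  have hcomm := hRt.gal_comm hζ
  have hexp := hRt.gal_pow_eq_one hζ
  have hKtle : Kt ≤ powersIn K M p := by
    intro a ha
    obtain ⟨r, hr, b, rfl⟩ := hR2 a ha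
    obtain ⟨α, -, hα⟩ := hRt2 r hr
    refine ⟨α * algebraMap K M (b : K), ?_⟩
    rw [mul_pow, hα, ← map_pow, ← map_mul, Units.val_mul, Units.val_pow_eq_pow_val]
  obtain ⟨h20, h2⟩ := relIndex_unitPowers_powersIn_le (M := M) hζ hcomm hexp
  have h3 : (unitPowers K p).relIndex Kt ≤ (unitPowers K p).relIndex (powersIn K M p) :=
    Subgroup.relIndex_le_of_le_right hKtle h20
  obtain ⟨h4, h5⟩ := hA K M ⟨ζ, hζ⟩ hcomm hexp
  rw [IsGalois.card_aut_eq_finrank] at h2
  -- the norm residue map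
  let ψ : FinIdele K →* Multiplicative (TateH0 (ideleClassRep K M)) :=
    AddMonoidHom.toMultiplicativeRight (ideleToTateH0 K M)
  have hψ_apply : ∀ x, ψ x = Multiplicative.ofAdd (ideleToTateH0 K M (Additive.ofMul x)) :=
    fun x => rfl
  have hψ_surj : Function.Surjective ψ := fun t => by
    obtain ⟨x, hx⟩ := ideleToTateH0_surjective K M (Multiplicative.toAdd t)
    exact ⟨Additive.toMul x, by rw [hψ_apply]; exact congrArg Multiplicative.ofAdd hx⟩
  have hnorm : ∀ x ∈ sIdeles K (S : Set Nat.Primes), IsIdeleNorm K M x := by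
    intro x hx
    refine isIdeleNorm_of_isKummerGenerating hζ hRt S hpS ?_ x hx
    intro α hα
    obtain ⟨r, hr, hαr⟩ := hRt1 α hα
    exact ⟨r, hαr, hKtloc r (hR1 r hr)⟩
  have hD' : principal K ⊔ sIdeles K (S : Set Nat.Primes) ⊔ powSub ⊤ p ≤ ψ.ker := by
    refine sup_le (sup_le ?_ ?_) ?_
    · rintro _ ⟨a, rfl⟩
      rw [MonoidHom.mem_ker, hψ_apply, ideleToTateH0_diag]; rfl
    · intro x hx
      rw [MonoidHom.mem_ker, hψ_apply, ideleToTateH0_of_isIdeleNorm K M (hnorm x hx)]; rfl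
    · rintro _ ⟨y, -, rfl⟩
      rw [MonoidHom.mem_ker, powMonoidHom_apply, map_pow, hψ_apply]
      exact congrArg Multiplicative.ofAdd (h5 _)
  have h6 : ψ.ker.index = Nat.card (TateH0 (ideleClassRep K M)) := by
    rw [Subgroup.index_ker, MonoidHom.range_eq_top.mpr hψ_surj,
      Nat.card_congr Subgroup.topEquiv.toEquiv]
    exact Nat.card_congr Multiplicative.toAdd
  have h7 : ψ.ker.index ≤ (principal K ⊔ sIdeles K (S : Set Nat.Primes) ⊔ powSub ⊤ p).index :=
    Nat.le_of_dvd (Nat.pos_of_ne_zero hc0) (Subgroup.index_dvd_of_le hD')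
  calc (unitPowers K p).relIndex Kt ≤ (unitPowers K p).relIndex (powersIn K M p) := h3
    _ ≤ Module.finrank K M := h2
    _ ≤ Nat.card (TateH0 (ideleClassRep K M)) := h4
    _ = ψ.ker.index := h6.symm
    _ ≤ _ := h7

end Kappa

section Final

variable {p : ℕ} [hp : Fact p.Prime]

/-- **Existence theorem mod `p`, counting form.** For a number field `K ∋ ζ_p` (`p` odd) and a
finite set `S ∋ p` of rational primes, `K^× · U^S · J_K^p` has finite index in `J_K`, bounded by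
`[Δ : Δ ∩ K^{×p}]` for a subgroup `Δ` of the Kummer group `Δ_S` (whose `p`-th roots generate
extensions of `K` unramified outside `S`). -/
theorem index_exD_le (hp2 : p ≠ 2) (hA : AbelianNormIndex p) (K : Type) [Field K] [NumberField K]
    {ζ : K} (hζ : IsPrimitiveRoot ζ p) (S : Finset Nat.Primes)
    (hpS : (⟨p, hp.out⟩ : Nat.Primes) ∈ S) :
    (exD K (S : Set Nat.Primes) p).index ≠ 0 ∧
    ∃ Δ : Subgroup Kˣ, Δ ≤ kummerGroup K (S : Set Nat.Primes) p ∧
      (unitPowers K p).relIndex Δ ≠ 0 ∧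
      (exD K (S : Set Nat.Primes) p).index ≤ (unitPowers K p).relIndex Δ := by
  classical
  obtain ⟨S₀, hS₀⟩ := exists_finset_idelesGeneratedBy (F := K)
  set T : Finset Nat.Primes := S ∪ S₀ with hT
  have hST : S ⊆ T := Finset.subset_union_left
  have hgenT : IdelesGeneratedBy K (T : Set Nat.Primes) := fun x => by
    obtain ⟨c, hc⟩ := hS₀ x
    refine ⟨c, sIdeles_mono ?_ hc⟩
    intro ℓ hℓ
    exact Finset.mem_coe.mpr (Finset.mem_union_right _ (Finset.mem_coe.mp hℓ))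
  set P := principal K with hP
  set JT := sIdeles K (T : Set Nat.Primes) with hJT
  set JS := sIdeles K (S : Set Nat.Primes) with hJS'
  set US := exUnits K (S : Set Nat.Primes) with hUS'
  have hUS : US ≤ JS := exUnits_le_sIdeles _
  have hJS : JS ≤ JT := sIdeles_mono (by
    intro ℓ hℓ
    exact Finset.mem_coe.mpr (hST (Finset.mem_coe.mp hℓ)))
  have hgen : P ⊔ JT = ⊤ := principal_sup_sIdeles hgenT
  have hsat : ∀ y ∈ JT, y ^ p ∈ JS → y ∈ JS := fun y _ h => mem_sIdeles_of_pow_mem hp.out.pos h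
  set E := P ⊓ JT with hE
  set B := US ⊔ powSub JT p with hB
  set N := JS ⊔ powSub JT p with hN
  -- `[E : E^p] = p ^ k`
  obtain ⟨k, hk2, hkidx⟩ := sUnitIndexStatement hp.out hp2 K ⟨ζ, hζ⟩ T ∅ (by simp)
  have he : (powSub E p).relIndex E = p ^ k := by
    rw [hE, hP, hJT, relIndex_powSub_principal_inf, ← hkidx]
    have h0 : placeUnits K (T : Set Nat.Primes) ((∅ : Finset (FinPlace K)) : Set (FinPlace K)) =
        sUnits K (T : Set Nat.Primes) := by
      rw [Finset.coe_empty, placeUnits_empty]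
    exact (index_range_powMonoidHom_congr (MulEquiv.subgroupCongr h0) p)
  have he0 : (powSub E p).relIndex E ≠ 0 := by
    rw [he]; exact pow_ne_zero _ hp.out.ne_zero
  -- the local bounds
  obtain ⟨hxT0, hxT⟩ := relIndex_sIdeles_le (K := K) hp.out S T
  obtain ⟨hxS0, hxS⟩ := relIndex_exUnits_le (K := K) hp.out S
  have hQ := (SemiLocal.card_pi_units_quotient_pow_le K hp.out S).2
  -- nonvanishing
  have hc0 : (P ⊔ JS ⊔ powSub ⊤ p).index ≠ 0 := by
    intro h
    have := index_mul_relIndex P JT JS p hJS hgen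
    rw [h, zero_mul] at this
    exact hxT0 this.symm
  have hκ0 : (powSub E p).relIndex (E ⊓ B) ≠ 0 := fun h =>
    he0 (Subgroup.relIndex_eq_zero_of_le_right inf_le_left h)
  have hκ := relIndex_le_index hA hζ S (T : Set Nat.Primes) hpS hκ0 hc0
  -- the numerical bound
  have hsum : ∑ q ∈ T \ S, Nat.card (Place ((q : Nat.Primes) : ℕ) K) +
      ∑ q ∈ S, Nat.card (Place ((q : Nat.Primes) : ℕ) K) =
      ∑ q ∈ T, Nat.card (Place ((q : Nat.Primes) : ℕ) K) := Finset.sum_sdiff hST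
  have hbound : (N.relIndex JT) ^ 2 * (US ⊔ powSub JS p).relIndex JS ≤
      ((powSub E p).relIndex E) ^ 2 := by
    rw [he]
    calc (N.relIndex JT) ^ 2 * (US ⊔ powSub JS p).relIndex JS
        ≤ (p ^ (∑ q ∈ T \ S, Nat.card (Place ((q : Nat.Primes) : ℕ) K))) ^ 2 *
          p ^ (2 * ∑ q ∈ S, Nat.card (Place ((q : Nat.Primes) : ℕ) K) + Module.finrank ℚ K) :=
          Nat.mul_le_mul (Nat.pow_le_pow_left hxT 2) (hxS.trans hQ)
      _ = (p ^ k) ^ 2 := by
          rw [← pow_mul, ← pow_add, ← pow_mul]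
          congr 1
          simp only [Finset.card_empty, add_zero] at hk2
          omega
  have hmain := index_le_relIndex P JT JS US p hUS hJS hgen hsat he0 hκ hbound
  -- nonvanishing of the index
  have ha0 : (P ⊔ US ⊔ powSub ⊤ p).index ≠ 0 := by
    intro h
    have h1 := index_mul_relIndex P JT US p (hUS.trans hJS) hgen
    rw [h, zero_mul] at h1
    have h2 : B.relIndex N ≠ 0 := by
      rw [hB, hN, relIndex_sup_powSub JT JS US p hUS hJS hsat]
      exact hxS0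
    exact Subgroup.relIndex_ne_zero_trans h2 hxT0 h1.symm
  -- translation to `K^×`
  set Δ : Subgroup Kˣ := (E ⊓ N).comap (FinIdele.diag K) with hΔ
  have hd : (powSub E p).relIndex (E ⊓ N) = (unitPowers K p).relIndex Δ :=
    relIndex_powSub_eq_relIndex_comap hp.out.pos (T : Set Nat.Primes) (E ⊓ N) inf_le_left
  rw [hd] at hmain
  refine ⟨ha0, Δ, ?_, ?_, hmain⟩
  · intro a ha ℓ hℓ
    have ha' : FinIdele.diag K a ∈ N := (Subgroup.mem_inf.mp ha).2
    obtain ⟨u, hu, _, ⟨y, -, rfl⟩, huy⟩ := Subgroup.mem_sup.mp ha'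
    refine ⟨u ℓ, hu ℓ hℓ, y ℓ, ?_⟩
    have h2 : (u * powMonoidHom p y) ℓ = u ℓ * (y ^ p) ℓ := rfl
    have h3 := congrArg (fun x : FinIdele K => x ℓ) huy
    simp only [h2, pow_apply] at h3
    exact h3
  · intro h
    rw [h] at hmain
    exact ha0 (Nat.le_zero.mp hmain)

end Final

end Fermat.Agent.CFT.PT6
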