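import Mathlib
import Fermat.Agent.CFT.Global.PT6_helper1_Main
import Fermat.Agent.CFT.Global.G04_helper6_Integral
import Fermat.Agent.CFT.Global.G04_lead_Density
import Fermat.Agent.CFT.Global.G04_lead_Content

/-!
# CFT (PT6): multi-Kummer extensions are unramified outside `S` (ideal form)

For `M/K` a multi-Kummer extension generated by `p`-th roots of elements of the Kummer group
`kummerGroup K S p` (`p ∈ S`): every inertia group at a prime of `𝓞 M` not over `S` is trivial
(the unramifiedness predicate of the (S14)-interface / of the level bridge).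
-/

set_option autoImplicit false
set_option linter.unusedSectionVars false
set_option linter.style.haveILetI false

open scoped TensorProduct NumberField Pointwise RestrictedProduct
open IsLocalRing

namespace Fermat.Agent.CFT.PT6

open scoped SemiLocalRel
open scoped Fermat.Agent.CFT.Local.PadicBridge
open Fermat.Agent.CFT Fermat.Agent.CFT.Local Fermat.Agent.CFT.Place Fermat.Agent.CFT.T2

section Density

variable {ℓ : ℕ} [hℓ : Fact ℓ.Prime] {M : Type} [Field M] [NumberField M]

/-- an integer prime to `ℓ` is a unit of the valuation ring of `M_W` -/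
theorem isUnit_intCast_integers (W : Place ℓ M) {d : ℤ} (hd : ¬ ((ℓ : ℕ) : ℤ) ∣ d) :
    IsUnit ((d : ℤ) : W.integers) := by
  have h1 : IsUnit ((d : ℤ) : ℤ_[ℓ]) := by
    rw [PadicInt.isUnit_iff]
    rcases lt_or_eq_of_le (PadicInt.norm_le_one ((d : ℤ) : ℤ_[ℓ])) with h | h
    · exact absurd (PadicInt.norm_int_lt_one_iff_dvd d |>.mp h) hd
    · exact h
  have := h1.map (algebraMap ℤ_[ℓ] W.integers)
  rwa [map_intCast] at this

/-- **Density of `𝓞 M`**: every element of the valuation ring of `M_W` is congruent modulo the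
maximal ideal to `d⁻¹ x` with `x ∈ 𝓞 M` and `d` an integer prime to `ℓ`. -/
theorem exists_intEmbed_sub_mem (W : Place ℓ M) (b : W.integers) :
    ∃ (d : ℤ) (x : 𝓞 M), ¬ ((ℓ : ℕ) : ℤ) ∣ d ∧
      ((d : ℤ) : W.integers) * b - W.intEmbed x ∈ maximalIdeal W.integers := by
  classical
  -- an integral element of the semi-local algebra with `W`-component `b`
  obtain ⟨z, hz⟩ := SemiLocal.exists_proj_eq ℓ M
    (fun W' => if h : W' = W then (h ▸ (b : W.Completion) : W'.Completion) else 0)
  have hzW : W.proj z = (b : W.Completion) := by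
    rw [hz W, dif_pos rfl]
  have hzint : z ∈ SemiLocal.integers ℓ M := by
    rw [SemiLocal.mem_integers_iff_proj]
    intro W'
    rw [hz W']
    by_cases h : W' = W
    · subst h
      rw [dif_pos rfl]
      exact b.2
    · rw [dif_neg h]
      exact Subalgebra.zero_mem _
  obtain ⟨y, t, ht, hzt⟩ := SemiLocal.exists_of_add_smul ℓ M z 1
  have hyint : SemiLocal.of ℓ M y ∈ SemiLocal.integers ℓ M := by
    have : SemiLocal.of ℓ M y = z - ((ℓ : ℚ_[ℓ]) ^ 1) • t := by rw [hzt]; ring
    rw [this, pow_one]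
    refine Subalgebra.sub_mem _ hzint ?_
    have h1 : ((ℓ : ℚ_[ℓ])) • t = ((ℓ : ℕ) : ℤ_[ℓ]) • t := by
      rw [Algebra.smul_def, Algebra.smul_def]
      congr 1
    rw [h1]
    exact Subalgebra.smul_mem _ ht _
  obtain ⟨d, hd, hdy⟩ := exists_not_dvd_isIntegral_smul (F := M) ⟨ℓ, hℓ.out⟩
    ((of_mem_integers_iff (F := M) ⟨ℓ, hℓ.out⟩).mp hyint)
  refine ⟨d, ⟨d • y, hdy⟩, hd, ?_⟩
  -- the difference is `ℓ · d · t_W`
  have htW : W.proj t ∈ W.integers := (SemiLocal.mem_integers_iff_proj ℓ M).1 ht W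
  have hdiff : ((d : ℤ) : W.integers) * b - W.intEmbed ⟨d • y, hdy⟩ =
      ((ℓ : ℕ) : W.integers) * (((d : ℤ) : W.integers) * ⟨W.proj t, htW⟩) := by
    apply Subtype.ext
    have h2 : ((W.intEmbed ⟨d • y, hdy⟩ : W.integers) : W.Completion) = W.embed (d • y) := rfl
    have h3 : (b : W.Completion) = W.embed y + (ℓ : ℚ_[ℓ]) ^ 1 • W.proj t := by
      rw [← hzW, hzt, map_add, map_smul]
      rfl
    push_cast
    rw [h2, h3, map_zsmul, zsmul_eq_mul, pow_one, Algebra.smul_def]
    have h4 : algebraMap ℚ_[ℓ] W.Completion (ℓ : ℚ_[ℓ]) = ((ℓ : ℕ) : W.Completion) := by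
      rw [map_natCast]
    rw [h4]
    ring
  rw [hdiff]
  exact Ideal.mul_mem_right _ _ W.natCast_mem_maximalIdeal

end Density

section Inertia

variable {ℓ : ℕ} [hℓ : Fact ℓ.Prime] {K M : Type} [Field K] [NumberField K] [Field M]
  [NumberField M] [Algebra K M] [IsGalois K M]

/-- the Galois action on the valuation ring of `M_W`, on the image of `𝓞 M` -/
theorem galRestrict_intEmbed (W : Place ℓ M) (σ : MulAction.stabilizer (M ≃ₐ[K] M) W)
    (x : 𝓞 M) :
    galRestrict (W.under (K := K)).integers (W.under (K := K)).Completion W.Completion W.integers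
      (Place.decompEquiv (K := K) W σ) (W.intEmbed x) = W.intEmbed ((σ : M ≃ₐ[K] M) • x) := by
  apply Subtype.ext
  have := algebraMap_galRestrict_apply (W.under (K := K)).integers
    (Place.decompEquiv (K := K) W σ) (W.intEmbed x) (B := W.integers)
  exact this

/-- **Global inertia is local inertia**: an element of the inertia group of the prime below `W`
acts trivially on the residue field of `M_W`. -/
theorem galRestrict_sub_mem_of_inertia (W : Place ℓ M) (σ : M ≃ₐ[K] M) (hσW : σ • W = W)
    (hσ : ∀ x : 𝓞 M, σ • x - x ∈ W.toPrime) (b : W.integers) :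
    galRestrict (W.under (K := K)).integers (W.under (K := K)).Completion W.Completion W.integers
      (Place.decompEquiv (K := K) W ⟨σ, hσW⟩) b - b ∈ maximalIdeal W.integers := by
  set g := galRestrict (W.under (K := K)).integers (W.under (K := K)).Completion W.Completion
    W.integers (Place.decompEquiv (K := K) W ⟨σ, hσW⟩) with hg
  obtain ⟨d, x, hd, hm⟩ := exists_intEmbed_sub_mem W b
  set m := ((d : ℤ) : W.integers) * b - W.intEmbed x with hm'
  have hgm : g m ∈ maximalIdeal W.integers := by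
    rw [mem_maximalIdeal, mem_nonunits_iff] at hm ⊢
    intro hu
    exact hm ((isUnit_map_iff g.toRingEquiv m).mp hu)
  have hx : g (W.intEmbed x) - W.intEmbed x ∈ maximalIdeal W.integers := by
    rw [hg, galRestrict_intEmbed, ← map_sub, ← Place.mem_toPrime_iff]
    exact hσ x
  have hd' : IsUnit ((d : ℤ) : W.integers) := isUnit_intCast_integers W hd
  have key : ((d : ℤ) : W.integers) * (g b - b) = (g m - m) + (g (W.intEmbed x) - W.intEmbed x) := by
    rw [hm', map_sub, map_mul, map_intCast]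
    ring
  have h1 : ((d : ℤ) : W.integers) * (g b - b) ∈ maximalIdeal W.integers := by
    rw [key]
    exact Ideal.add_mem _ (Ideal.sub_mem _ hgm hm) hx
  exact (Ideal.unit_mul_mem_iff_mem _ hd').mp h1

end Inertia

section Hunr

variable {K M : Type} [Field K] [NumberField K] [Field M] [NumberField M]
  [Algebra K M] [IsGalois K M] {p : ℕ} [hp : Fact p.Prime]

/-- **Multi-Kummer extensions are unramified outside `S`** (ideal form): if `M/K` is generated by
`p`-th roots of elements of the Kummer group `kummerGroup K S p` (`p ∈ S`), every inertia group at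
a nonzero prime of `𝓞 M` not containing a prime of `S` is trivial. -/
theorem inertia_trivial_of_isKummerGenerating {Rt : Set M}
    (hRt : IsKummerGenerating (K := K) p Rt) (S : Finset Nat.Primes)
    (hpS : (⟨p, hp.out⟩ : Nat.Primes) ∈ S)
    (hloc : ∀ α ∈ Rt, ∃ a : Kˣ, α ^ p = algebraMap K M (a : K) ∧
      a ∈ kummerGroup K (S : Set Nat.Primes) p)
    (Q : Ideal (𝓞 M)) (hQ : Q.IsPrime) (hQ0 : Q ≠ ⊥)
    (hQS : ∀ ℓ ∈ S, (((ℓ : Nat.Primes) : ℕ) : 𝓞 M) ∉ Q)
    (σ : M ≃ₐ[K] M) (hσ : ∀ x : 𝓞 M, σ • x - x ∈ Q) : σ = 1 := by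
  obtain ⟨ℓ, hℓQ⟩ := exists_prime_mem (F := M) ⟨Q, hQ, hQ0⟩
  have hℓS : ℓ ∉ S := fun h => hQS ℓ h hℓQ
  have hℓp : ((ℓ : Nat.Primes) : ℕ) ≠ p := by
    intro h
    apply hℓS
    have : ℓ = ⟨p, hp.out⟩ := Subtype.ext h
    rw [this]
    exact hpS
  obtain ⟨W, hW⟩ := Place.exists_toPrime_eq (ℓ := (ℓ : ℕ)) Q hℓQ
  -- `σ` stabilises `W`
  have hσinv : ∀ x : 𝓞 M, σ⁻¹ • x ∈ Q ↔ x ∈ Q := by
    intro x
    have h1 := hσ (σ⁻¹ • x)
    rw [smul_inv_smul] at h1
    constructor
    · intro h
      have : x = (x - σ⁻¹ • x) + σ⁻¹ • x := by ring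
      rw [this]
      exact Ideal.add_mem _ h1 h
    · intro h
      have : σ⁻¹ • x = x - (x - σ⁻¹ • x) := by ring
      rw [this]
      exact Ideal.sub_mem _ h h1
  have hσW : σ • W = W := by
    apply Place.toPrime_injective
    change (σ • W).toPrime = W.toPrime
    ext x
    rw [Place.mem_toPrime_smul_iff, hW, hσinv]
  apply hRt.eq_one
  intro α hα
  obtain ⟨a, hαa, ha⟩ := hloc α hα
  obtain ⟨u, hu, y, huy⟩ := ha ℓ (fun h => hℓS (Finset.mem_coe.mp h))
  have h3 := congrArg (fun v : (W.under (K := K)).Completionˣ =>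
    (v : (W.under (K := K)).Completion)) (congrArg (W.under (K := K)).unitsProj huy)
  have h2 := apply_embed_eq_of_inertia (K := K) hℓp W
    (Place.decompEquiv (K := K) W ⟨σ, hσW⟩)
    (galRestrict_sub_mem_of_inertia W σ hσW (fun x => by rw [hW]; exact hσ x))
    hαa ((W.under (K := K)).unitsProj u) ((W.under (K := K)).unitsProj y)
    ((SemiLocal.mem_unitGroup_iff_forall.mp hu) _) (by
      rw [← map_pow, ← map_mul]
      exact h3)
  rw [Place.decompEquiv_apply, Place.decompHom_embed] at h2
  exact Place.embed_injective W h2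

end Hunr

end Fermat.Agent.CFT.PT6
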