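import Mathlib
import Fermat.Agent.CFT.Global.PT6_helper1_Unram

/-!
# CFT (PT6): the existence theorem mod `p`, field form

For a number field `K ∋ ζ_p` (`p` odd) and a finite set `S ∋ p` of rational primes there is a
finite Galois extension `M/K`, abelian of exponent `p`, unramified outside `S` (all inertia groups
at primes of `𝓞 M` not over `S` are trivial), with
`[M : K] ≥ |J_K / (K^× · U^S · J_K^p)| = |C_S(K)/p|`.
-/

set_option autoImplicit false
set_option linter.unusedSectionVars false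
set_option linter.style.haveILetI false

open scoped TensorProduct NumberField RestrictedProduct

namespace Fermat.Agent.CFT.PT6

open Fermat.Agent.CFT Fermat.Agent.CFT.Coh Fermat.Agent.CFT.T2

/-- finitely many representatives of a subgroup `Δ ≤ K^×` modulo `p`-th powers -/
theorem exists_finset_reps {K : Type} [Field K] {p : ℕ} (Δ : Subgroup Kˣ)
    (h : (unitPowers K p).relIndex Δ ≠ 0) :
    ∃ R : Finset Kˣ, (∀ r ∈ R, r ∈ Δ) ∧ ∀ a ∈ Δ, ∃ r ∈ R, ∃ b : Kˣ, a = r * b ^ p := by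
  classical
  haveI hfi : ((unitPowers K p).subgroupOf Δ).FiniteIndex := ⟨h⟩
  letI : Fintype (↥Δ ⧸ (unitPowers K p).subgroupOf Δ) := Subgroup.fintypeQuotientOfFiniteIndex
  refine ⟨Finset.univ.image
    (fun q : ↥Δ ⧸ (unitPowers K p).subgroupOf Δ => ((Quotient.out q : ↥Δ) : Kˣ)), ?_, ?_⟩
  · intro r hr
    obtain ⟨q, -, rfl⟩ := Finset.mem_image.mp hr
    exact (Quotient.out q : ↥Δ).2
  · intro a ha
    set q : ↥Δ ⧸ (unitPowers K p).subgroupOf Δ := QuotientGroup.mk ⟨a, ha⟩ with hq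
    have h2 : (QuotientGroup.mk (Quotient.out q) : ↥Δ ⧸ (unitPowers K p).subgroupOf Δ) =
        QuotientGroup.mk ⟨a, ha⟩ := QuotientGroup.out_eq' q
    rw [QuotientGroup.eq, Subgroup.mem_subgroupOf] at h2
    obtain ⟨b, hb⟩ := h2
    refine ⟨((Quotient.out q : ↥Δ) : Kˣ), Finset.mem_image.mpr ⟨q, Finset.mem_univ _, rfl⟩, b, ?_⟩
    have h3 : b ^ p = ((Quotient.out q : ↥Δ) : Kˣ)⁻¹ * a := hb
    rw [h3, mul_inv_cancel_left]

/-- The unramifiedness predicate (outside `S`) of the (S14)-interface and of the level bridge. -/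
def UnramifiedOutside (K M : Type) [Field K] [Field M] [NumberField M] [Algebra K M]
    (S : Finset Nat.Primes) : Prop :=
  ∀ Q : Ideal (𝓞 M), Q.IsPrime → Q ≠ ⊥ → (∀ ℓ ∈ S, (((ℓ : Nat.Primes) : ℕ) : 𝓞 M) ∉ Q) →
    ∀ σ : M ≃ₐ[K] M, (∀ x : 𝓞 M, σ • x - x ∈ Q) → σ = 1

/-- **Existence theorem mod `p`, field form.** -/
theorem exists_unramified_abelian_card_ge {p : ℕ} [hp : Fact p.Prime] (hp2 : p ≠ 2)
    (hA : AbelianNormIndex p) (K : Type) [Field K] [NumberField K] {ζ : K}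
    (hζ : IsPrimitiveRoot ζ p) (S : Finset Nat.Primes) (hpS : (⟨p, hp.out⟩ : Nat.Primes) ∈ S) :
    (exD K (S : Set Nat.Primes) p).index ≠ 0 ∧
    ∃ (M : Type) (_ : Field M) (_ : NumberField M) (_ : Algebra K M) (_ : IsGalois K M),
      (∀ σ τ : M ≃ₐ[K] M, σ * τ = τ * σ) ∧ (∀ σ : M ≃ₐ[K] M, σ ^ p = 1) ∧
      UnramifiedOutside K M S ∧
      (exD K (S : Set Nat.Primes) p).index ≤ Nat.card (M ≃ₐ[K] M) := by
  obtain ⟨h0, Δ, hΔ, hΔ0, hle⟩ := index_exD_le hp2 hA K hζ S hpS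
  refine ⟨h0, ?_⟩
  obtain ⟨R, hR1, hR2⟩ := exists_finset_reps Δ hΔ0
  obtain ⟨M, _, _, _, _, Rt, hRt, hRt1, hRt2⟩ := exists_multiKummer (p := p) K R
  have hcomm := hRt.gal_comm hζ
  have hexp := hRt.gal_pow_eq_one hζ
  refine ⟨M, inferInstance, inferInstance, inferInstance, inferInstance, hcomm, hexp, ?_, ?_⟩
  · intro Q hQ hQ0 hQS σ hσ
    refine inertia_trivial_of_isKummerGenerating hRt S hpS ?_ Q hQ hQ0 hQS σ hσ
    intro α hα
    obtain ⟨r, hr, hαr⟩ := hRt1 α hα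
    exact ⟨r, hαr, hΔ (hR1 r hr)⟩
  · have hΔle : Δ ≤ powersIn K M p := by
      intro a ha
      obtain ⟨r, hr, b, rfl⟩ := hR2 a ha
      obtain ⟨α, -, hα⟩ := hRt2 r hr
      refine ⟨α * algebraMap K M (b : K), ?_⟩
      rw [mul_pow, hα, ← map_pow, ← map_mul, Units.val_mul, Units.val_pow_eq_pow_val]
    obtain ⟨h20, h2⟩ := relIndex_unitPowers_powersIn_le (M := M) hζ hcomm hexp
    exact hle.trans ((Subgroup.relIndex_le_of_le_right hΔle h20).trans h2)

end Fermat.Agent.CFT.PT6
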