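import Mathlib
import Fermat.Agent.CFT.Global.PT6_helper1_Final
import Fermat.Agent.CFT.Arith.LevelBridge_helper7
import Fermat.Agent.CFT.Arith.Basis_helper7
import Fermat.Agent.CFT.Sm.TrivH1_helper1

/-!
# CFT (PT6, step 3): the existence theorem mod `p` against smooth `H¹`

For a finite extension `F ⊆ Ω = ℚ̄` of `ℚ`, unramified outside `S ∋ p` and containing `ζ_p`
(`p` odd), with `U = Gal(Ω/F)`: there are at least `[J_F : F^× U^S J_F^p]` classes in
`H¹(U, ℤ/p)` (smooth cohomology w.r.t. the basis of levels of `S`).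
-/

set_option autoImplicit false
set_option linter.unusedSectionVars false
set_option linter.style.haveILetI false

open scoped NumberField

namespace Fermat.Agent.CFT.PT6

open Fermat.Agent.CFT Fermat.Agent.CFT.Arith Fermat.Agent.CFT.Sm

local notation "Ω" => AlgebraicClosure ℚ
local notation "Γ" => (AlgebraicClosure ℚ ≃ₐ[ℚ] AlgebraicClosure ℚ)

section Card

theorem card_addMonoidHom_zmod_of_module {V : Type*} [AddCommGroup V] {p : ℕ} [hp : Fact p.Prime]
    [Module (ZMod p) V] [Finite V] :
    Nat.card (V →+ ZMod p) = Nat.card V := by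
  haveI : Module.Finite (ZMod p) V := Module.Finite.of_finite
  have h := Subspace.dual_finrank_eq (K := ZMod p) (V := V)
  have e : (V →+ ZMod p) ≃ (V →ₗ[ZMod p] ZMod p) :=
    { toFun := AddMonoidHom.toZModLinearMap p
      invFun := fun f => f.toAddMonoidHom
      left_inv := fun f => by
        ext v
        rfl
      right_inv := fun f => by
        ext v
        rfl }
  rw [Nat.card_congr e, Module.natCard_eq_pow_finrank (K := ZMod p) (V := V →ₗ[ZMod p] ZMod p),
      Module.natCard_eq_pow_finrank (K := ZMod p) (V := V)]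
  exact congrArg _ h

theorem card_addMonoidHom_zmod {V : Type*} [AddCommGroup V] {p : ℕ} [hp : Fact p.Prime]
    [Finite V] (h : ∀ v : V, p • v = 0) :
    Nat.card (V →+ ZMod p) = Nat.card V := by
  letI : Module (ZMod p) V := AddCommGroup.zmodModule h
  exact card_addMonoidHom_zmod_of_module

/-- a finite abelian group of exponent `p` has as many characters with values in `ℤ/p` as
elements. -/
theorem card_monoidHom_zmod {G : Type*} [Group G] [Finite G] {p : ℕ} [hp : Fact p.Prime]
    (hcomm : ∀ σ τ : G, σ * τ = τ * σ) (hexp : ∀ σ : G, σ ^ p = 1) :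
    Nat.card (G →* Multiplicative (ZMod p)) = Nat.card G := by
  letI : CommGroup G := { (inferInstance : Group G) with mul_comm := hcomm }
  have h1 : Nat.card (Additive G →+ ZMod p) = Nat.card (Additive G) :=
    card_addMonoidHom_zmod (fun v => by
      change Additive.ofMul (v.toMul ^ p) = 0
      rw [hexp]
      rfl)
  have h2 : Nat.card (G →* Multiplicative (ZMod p)) = Nat.card (Additive G →+ ZMod p) :=
    Nat.card_congr (MonoidHom.toAdditiveLeft (α := G) (β := ZMod p))
  rw [h2, h1]
  exact Nat.card_congr Additive.toMul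

end Card

section Restriction

/-- restriction of automorphisms of `Ω` fixing `F` to a finite normal extension `M/F` embedded
in `Ω`. -/
theorem exists_resHom (F : IntermediateField ℚ Ω) (M : Type) [Field M] [Algebra ↥F M]
    [Normal ↥F M] (φ : M →ₐ[↥F] Ω) :
    ∃ r : ↥F.fixingSubgroup →* (M ≃ₐ[↥F] M), Function.Surjective r ∧
      ∀ (σ : ↥F.fixingSubgroup) (x : M), φ (r σ x) = (σ : Γ) (φ x) := by
  letI : Algebra M Ω := φ.toRingHom.toAlgebra
  haveI : IsScalarTower ↥F M Ω := IsScalarTower.of_algebraMap_eq (fun x => (φ.commutes x).symm)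
  haveI : Normal ↥F Ω := Normal.tower_top_of_normal ℚ ↥F Ω
  refine ⟨(AlgEquiv.restrictNormalHom M).comp (IntermediateField.fixingSubgroupEquiv F).toMonoidHom,
    ?_, ?_⟩
  · exact (AlgEquiv.restrictNormalHom_surjective (F := ↥F) (K₁ := M) Ω).comp
      (IntermediateField.fixingSubgroupEquiv F).surjective
  · intro σ x
    exact AlgEquiv.restrictNormal_commutes (IntermediateField.fixingSubgroupEquiv F σ) M x

end Restriction

section Main

variable {S : Finset Nat.Primes}

/-- **Characters of unramified extensions are smooth classes.** For a finite Galois extension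
`M/F` (abstract number field) unramified outside `S`, `F ⊆ Ω` unramified outside `S`: the
characters `Gal(M/F) → ℤ/p` inject into `H¹(Gal(Ω/F), ℤ/p)` (smooth for the levels of `S`). -/
theorem exists_injective_monoidHom_smH (p : ℕ) {F : IntermediateField ℚ Ω}
    (hF : F.IsUnramifiedOutside S)
    (M : Type) [Field M] [NumberField M] [Algebra ↥F M] [IsGalois ↥F M]
    (hunr : UnramifiedOutside ↥F M S) :
    ∃ f : ((M ≃ₐ[↥F] M) →* Multiplicative (ZMod p)) →
      smH ((levelBasis S).sub F.fixingSubgroup)
        (trivSm ℤ ((levelBasis S).sub F.fixingSubgroup) (ZMod p)) 1, Function.Injective f := by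
  haveI := hF.1
  obtain ⟨φ⟩ := exists_algHom_of_finite (F := F) M
  obtain ⟨F', hF', hFF', hφF'⟩ := exists_isLevel_ge_of_unramified hF M hunr φ
  obtain ⟨r, hr, hrφ⟩ := exists_resHom F M φ
  -- the composite characters are trivial on the basic open subgroup of `F'`
  have hker : ∀ χ : (M ≃ₐ[↥F] M) →* Multiplicative (ZMod p),
      ∃ V ∈ ((levelBasis S).sub F.fixingSubgroup).sets, V ≤ (χ.comp r).ker := by
    intro χ
    refine ⟨F'.fixingSubgroup.comap F.fixingSubgroup.subtype,
      ⟨F'.fixingSubgroup, fixingSubgroup_mem_levelBasis hF', rfl⟩, fun σ hσ => ?_⟩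
    rw [MonoidHom.mem_ker, MonoidHom.comp_apply]
    have h1 : r σ = 1 := by
      ext x
      apply φ.injective
      change φ (r σ x) = φ x
      rw [hrφ]
      have h2 : (σ : Γ) ∈ F'.fixingSubgroup := hσ
      rw [IntermediateField.mem_fixingSubgroup_iff] at h2
      exact h2 _ (hφF' x)
    rw [h1, map_one]
  refine ⟨fun χ => homClass _ (ZMod p) (χ.comp r) (hker χ), fun χ χ' h => ?_⟩
  rw [homClass_eq_iff] at h
  ext σ
  obtain ⟨g, rfl⟩ := hr σ
  exact congrArg Multiplicative.toAdd (DFunLike.congr_fun h g)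

variable {p : ℕ} [hp : Fact p.Prime]

/-- **Existence theorem mod `p`, smooth-cohomology form.** `F ⊆ Ω` finite over `ℚ`, unramified
outside `S ∋ p`, `ζ_p ∈ F`, `p` odd: there is a finite set of classes in `H¹(Gal(Ω/F), ℤ/p)` of
cardinality at least `[J_F : F^× U^S J_F^p]` (which is finite). -/
theorem exists_injective_smH_card_ge (hp2 : p ≠ 2) (hA : AbelianNormIndex p)
    (hpS : (⟨p, hp.out⟩ : Nat.Primes) ∈ S) {F : IntermediateField ℚ Ω} [NumberField ↥F]
    (hF : F.IsUnramifiedOutside S) {ζ : ↥F} (hζ : IsPrimitiveRoot ζ p) :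
    (exD ↥F (S : Set Nat.Primes) p).index ≠ 0 ∧
    ∃ (X : Type) (_ : Finite X) (f : X → smH ((levelBasis S).sub F.fixingSubgroup)
        (trivSm ℤ ((levelBasis S).sub F.fixingSubgroup) (ZMod p)) 1),
      Function.Injective f ∧ (exD ↥F (S : Set Nat.Primes) p).index ≤ Nat.card X := by
  obtain ⟨h0, M, _, _, _, _, hcomm, hexp, hunr, hle⟩ :=
    exists_unramified_abelian_card_ge hp2 hA ↥F hζ S hpS
  refine ⟨h0, ?_⟩
  obtain ⟨f, hf⟩ := exists_injective_monoidHom_smH p hF M hunr
  have hcard := card_monoidHom_zmod (G := M ≃ₐ[↥F] M) (p := p) hcomm hexp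
  haveI : Finite ((M ≃ₐ[↥F] M) →* Multiplicative (ZMod p)) :=
    Nat.finite_of_card_ne_zero (by rw [hcard]; exact Nat.card_pos.ne')
  exact ⟨_, inferInstance, f, hf, hle.trans hcard.ge⟩

end Main

end Fermat.Agent.CFT.PT6
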