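import Mathlib
import Fermat.Agent.CFT.Global.PT6_helper1_Level
import Fermat.Agent.CFT.Global.PT4d_helper3_Final

/-!
# CFT (PT6): the existence theorem mod `p`, unconditional forms

Wiring of the counting / field / smooth-cohomology forms of the existence theorem mod `p` with
Claim A (helper3's `PT4.exists_isFundamentalCocycle`), and the finiteness of
`J_K / (K^× U^S J_K^p)` for an arbitrary number field `K`.
-/

set_option autoImplicit false
set_option linter.unusedSectionVars false
set_option linter.style.haveILetI false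

open scoped NumberField

namespace Fermat.Agent.CFT.PT6

open Fermat.Agent.CFT Fermat.Agent.CFT.Arith Fermat.Agent.CFT.Sm Fermat.Agent.CFT.T2

local notation "Ω" => AlgebraicClosure ℚ
local notation "Γ" => (AlgebraicClosure ℚ ≃ₐ[ℚ] AlgebraicClosure ℚ)

/-- **Finiteness**: `J_K / (K^× · U^S · J_K^p)` is finite, for every number field `K`, every prime
`p` and every finite set `S` of primes. -/
theorem exD_index_ne_zero {p : ℕ} (hp : p.Prime) (K : Type) [Field K] [NumberField K]
    (S : Finset Nat.Primes) : (exD K (S : Set Nat.Primes) p).index ≠ 0 := by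
  classical
  obtain ⟨S₀, hS₀⟩ := exists_finset_idelesGeneratedBy (F := K)
  set T : Finset Nat.Primes := S ∪ S₀ with hT
  have hST : S ⊆ T := Finset.subset_union_left
  have hgenT : IdelesGeneratedBy K (T : Set Nat.Primes) := fun x => by
    obtain ⟨c, hc⟩ := hS₀ x
    refine ⟨c, sIdeles_mono ?_ hc⟩
    intro ℓ hℓ
    exact Finset.mem_coe.mpr (Finset.mem_union_right _ (Finset.mem_coe.mp hℓ))
  set P := principal K with hP
  set JT := sIdeles K (T : Set Nat.Primes) with hJT
  set JS := sIdeles K (S : Set Nat.Primes) with hJS'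
  set US := exUnits K (S : Set Nat.Primes) with hUS'
  have hUS : US ≤ JS := exUnits_le_sIdeles _
  have hJS : JS ≤ JT := sIdeles_mono (by
    intro ℓ hℓ
    exact Finset.mem_coe.mpr (hST (Finset.mem_coe.mp hℓ)))
  have hgen : P ⊔ JT = ⊤ := principal_sup_sIdeles hgenT
  have hsat : ∀ y ∈ JT, y ^ p ∈ JS → y ∈ JS := fun y _ h => mem_sIdeles_of_pow_mem hp.pos h
  obtain ⟨hxT0, -⟩ := relIndex_sIdeles_le (K := K) hp S T
  obtain ⟨hxS0, -⟩ := relIndex_exUnits_le (K := K) hp S
  intro h
  have h1 := index_mul_relIndex P JT US p (hUS.trans hJS) hgen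
  have h' : (P ⊔ US ⊔ powSub ⊤ p).index = 0 := h
  rw [h', zero_mul] at h1
  have h2 : (US ⊔ powSub JT p).relIndex (JS ⊔ powSub JT p) ≠ 0 := by
    rw [relIndex_sup_powSub JT JS US p hUS hJS hsat]
    exact hxS0
  exact Subgroup.relIndex_ne_zero_trans h2 hxT0 h1.symm

variable {p : ℕ} [hp : Fact p.Prime]

/-- Claim A in the shape consumed by PT6. -/
theorem claimAKummer (hp2 : p ≠ 2) : ClaimAKummer p := by
  intro K M _ _ _ _ _ _ hζ hP
  exact PT4.exists_isFundamentalCocycle hp2 K M hP hζ

/-- The norm index inequality for abelian extensions of exponent `p` (`ζ_p` in the base). -/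
theorem abelianNormIndex (hp2 : p ≠ 2) : AbelianNormIndex p :=
  abelianNormIndex_of_claimA (claimAKummer hp2)

/-- **Existence theorem mod `p`, counting form (unconditional).** -/
theorem index_exD_le' (hp2 : p ≠ 2) (K : Type) [Field K] [NumberField K]
    {ζ : K} (hζ : IsPrimitiveRoot ζ p) (S : Finset Nat.Primes)
    (hpS : (⟨p, hp.out⟩ : Nat.Primes) ∈ S) :
    (exD K (S : Set Nat.Primes) p).index ≠ 0 ∧
    ∃ Δ : Subgroup Kˣ, Δ ≤ kummerGroup K (S : Set Nat.Primes) p ∧
      (unitPowers K p).relIndex Δ ≠ 0 ∧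
      (exD K (S : Set Nat.Primes) p).index ≤ (unitPowers K p).relIndex Δ :=
  index_exD_le hp2 (abelianNormIndex hp2) K hζ S hpS

/-- **Existence theorem mod `p`, field form (unconditional).** -/
theorem exists_unramified_abelian_card_ge' (hp2 : p ≠ 2) (K : Type) [Field K] [NumberField K]
    {ζ : K} (hζ : IsPrimitiveRoot ζ p) (S : Finset Nat.Primes)
    (hpS : (⟨p, hp.out⟩ : Nat.Primes) ∈ S) :
    (exD K (S : Set Nat.Primes) p).index ≠ 0 ∧
    ∃ (M : Type) (_ : Field M) (_ : NumberField M) (_ : Algebra K M) (_ : IsGalois K M),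
      (∀ σ τ : M ≃ₐ[K] M, σ * τ = τ * σ) ∧ (∀ σ : M ≃ₐ[K] M, σ ^ p = 1) ∧
      UnramifiedOutside K M S ∧
      (exD K (S : Set Nat.Primes) p).index ≤ Nat.card (M ≃ₐ[K] M) :=
  exists_unramified_abelian_card_ge hp2 (abelianNormIndex hp2) K hζ S hpS

variable {S : Finset Nat.Primes}

/-- **Existence theorem mod `p`, smooth-cohomology form (unconditional).** `F ⊆ Ω` finite over `ℚ`,
unramified outside `S ∋ p`, `ζ_p ∈ F`, `p` odd: there is a finite set of classes in
`H¹(Gal(Ω/F), ℤ/p)` of cardinality at least `[J_F : F^× U^S J_F^p]` (which is finite). -/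
theorem exists_injective_smH_card_ge' (hp2 : p ≠ 2)
    (hpS : (⟨p, hp.out⟩ : Nat.Primes) ∈ S) {F : IntermediateField ℚ Ω} [NumberField ↥F]
    (hF : F.IsUnramifiedOutside S) {ζ : ↥F} (hζ : IsPrimitiveRoot ζ p) :
    (exD ↥F (S : Set Nat.Primes) p).index ≠ 0 ∧
    ∃ (X : Type) (_ : Finite X) (f : X → smH ((levelBasis S).sub F.fixingSubgroup)
        (trivSm ℤ ((levelBasis S).sub F.fixingSubgroup) (ZMod p)) 1),
      Function.Injective f ∧ (exD ↥F (S : Set Nat.Primes) p).index ≤ Nat.card X :=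
  exists_injective_smH_card_ge hp2 (abelianNormIndex hp2) hpS hF hζ

end Fermat.Agent.CFT.PT6

namespace Fermat.Agent.CFT.PT6

open Fermat.Agent.CFT Fermat.Agent.CFT.Arith Fermat.Agent.CFT.Sm

/-- **Existence theorem mod `p`, literal counting form** (under finiteness of `H¹`, which follows
from surjectivity of reciprocity: `Sm.finite_smH1_of_isBaseCF`). -/
theorem card_quotient_exD_le {p : ℕ} [hp : Fact p.Prime] {S : Finset Nat.Primes} (hp2 : p ≠ 2)
    (hpS : (⟨p, hp.out⟩ : Nat.Primes) ∈ S)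
    {F : IntermediateField ℚ (AlgebraicClosure ℚ)} [NumberField ↥F]
    (hF : F.IsUnramifiedOutside S) {ζ : ↥F} (hζ : IsPrimitiveRoot ζ p)
    [Finite (smH ((levelBasis S).sub F.fixingSubgroup)
      (trivSm ℤ ((levelBasis S).sub F.fixingSubgroup) (ZMod p)) 1)] :
    Nat.card (FinIdele ↥F ⧸ exD ↥F (S : Set Nat.Primes) p) ≤
      Nat.card (smH ((levelBasis S).sub F.fixingSubgroup)
        (trivSm ℤ ((levelBasis S).sub F.fixingSubgroup) (ZMod p)) 1) := by
  obtain ⟨-, X, _, f, hf, hle⟩ := exists_injective_smH_card_ge' hp2 hpS hF hζ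
  exact hle.trans (Nat.card_le_card_of_injective f hf)

end Fermat.Agent.CFT.PT6
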