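import Mathlib
import Fermat.Agent.CFT.Global.PT6_helper1_Wire
import Fermat.Agent.CFT.Sm.RecKer_helper1

/-!
# CFT (PT6): the existence theorem mod `p` in kernel form for the open subgroups below `G_{ℚ(ζ_p)}`

Assembly of the counting form of the existence theorem mod `p` with the abstract
`rec_ker`-from-counting constructor: for a smooth module `C` of `U = Gal(Ω/E)` (`E` finite over `ℚ`,
unramified outside `S ∋ p`, `ζ_p ∈ E`, `p` odd) whose invariants are identified with
`J_E / (E^× U^S)`, surjectivity of reciprocity mod `p` implies that its kernel is `p C^U`.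
-/

set_option autoImplicit false
set_option linter.unusedSectionVars false
set_option linter.style.haveILetI false

open scoped NumberField

namespace Fermat.Agent.CFT.PT6

open Fermat.Agent.CFT Fermat.Agent.CFT.Arith Fermat.Agent.CFT.Sm

local notation "Ω" => AlgebraicClosure ℚ

section Abstract

variable {J : Type*} [CommGroup J]

/-- if `x` and `y` have the same class modulo `N · J^p` then `x / y` is a `p`-th power modulo
`N`. -/
theorem exists_div_eq_pow_of_mk_eq (N : Subgroup J) (p : ℕ) (x y : J)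
    (h : (QuotientGroup.mk x : J ⧸ (N ⊔ powSub ⊤ p)) = QuotientGroup.mk y) :
    ∃ z : J, (QuotientGroup.mk (x / y) : J ⧸ N) = (QuotientGroup.mk z) ^ p := by
  rw [QuotientGroup.eq] at h
  obtain ⟨n, hn, _, ⟨z, -, rfl⟩, hnz⟩ := Subgroup.mem_sup.mp h
  refine ⟨z⁻¹, ?_⟩
  rw [← QuotientGroup.mk_pow, QuotientGroup.eq]
  have hnz' : n * z ^ p = x⁻¹ * y := hnz
  have h1 : (x / y)⁻¹ * z⁻¹ ^ p = n := by
    rw [inv_div, div_eq_mul_inv, mul_comm y x⁻¹, ← hnz', inv_pow, mul_inv_cancel_right]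
  rw [h1]
  exact hn

end Abstract

variable {p : ℕ} [hp : Fact p.Prime] {S : Finset Nat.Primes}

/-- **Existence theorem mod `p`, kernel form.** `E ⊆ Ω` finite over `ℚ`, unramified outside
`S ∋ p`, `ζ_p ∈ E`, `p` odd, `U = Gal(Ω/E)`; `C` a smooth `U`-module (for the basis induced by the
levels of `S`) with an additive bijection `ψ : C^U ≃ J_E / N`, `N = E^× · U^S`. If reciprocity
mod `p` (for any additive map `inv` on `H²(U, C)`) is surjective, its kernel is `p C^U`. -/
theorem rec_ker_of_addEquiv (hp2 : p ≠ 2) (hpS : (⟨p, hp.out⟩ : Nat.Primes) ∈ S)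
    {E : IntermediateField ℚ Ω} [NumberField ↥E] (hE : E.IsUnramifiedOutside S)
    {ζ : ↥E} (hζ : IsPrimitiveRoot ζ p)
    (C : SmRep ℤ ((levelBasis S).sub E.fixingSubgroup))
    (inv : smH ((levelBasis S).sub E.fixingSubgroup) C 2 →+ AddCircle (1 : ℚ))
    (hsurj : ∀ φ : CharacterModule (smH ((levelBasis S).sub E.fixingSubgroup)
        (trivSm ℤ ((levelBasis S).sub E.fixingSubgroup) (ZMod p)) 1),
      ∃ (c : C.obj.V) (hc : ∀ g, C.obj.ρ g c = c),
        recMap ((levelBasis S).sub E.fixingSubgroup) p C inv c hc = φ)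
    (N : Subgroup (FinIdele ↥E)) (hN : N = principal ↥E ⊔ exUnits ↥E (S : Set Nat.Primes))
    (ψ : ↥(smInvariants C) ≃+ Additive (FinIdele ↥E ⧸ N)) :
    ∀ (c : C.obj.V) (hc : ∀ g, C.obj.ρ g c = c),
      recMap ((levelBasis S).sub E.fixingSubgroup) p C inv c hc = 0 →
      ∃ c' : C.obj.V, (∀ g, C.obj.ρ g c' = c') ∧ p • c' = c := by
  subst hN
  obtain ⟨h0, X, _, f, hf, hle⟩ := exists_injective_smH_card_ge' hp2 hpS hE hζ
  haveI : Finite (FinIdele ↥E ⧸ exD ↥E (S : Set Nat.Primes) p) :=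
    Nat.finite_of_card_ne_zero (by rw [← Subgroup.index_eq_card]; exact h0)
  have hinv : ∀ c : {c : C.obj.V // ∀ g, C.obj.ρ g c = c}, c.1 ∈ smInvariants C := fun c => c.2
  -- the class-separating map
  let q : {c : C.obj.V // ∀ g, C.obj.ρ g c = c} →
      FinIdele ↥E ⧸ exD ↥E (S : Set Nat.Primes) p := fun c =>
    QuotientGroup.mk (Quotient.out (Additive.toMul (ψ ⟨c.1, hinv c⟩)))
  refine rec_ker_of_card _ p C inv hsurj q ?_ f hf ?_
  · intro c c' hcc'
    obtain ⟨z, hz⟩ := exists_div_eq_pow_of_mk_eq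
      (principal ↥E ⊔ exUnits ↥E (S : Set Nat.Primes)) p _ _ hcc'
    rw [QuotientGroup.mk_div, QuotientGroup.out_eq', QuotientGroup.out_eq'] at hz
    have h1 : ψ (⟨c.1, hinv c⟩ - ⟨c'.1, hinv c'⟩) =
        p • Additive.ofMul (QuotientGroup.mk z : FinIdele ↥E ⧸
          (principal ↥E ⊔ exUnits ↥E (S : Set Nat.Primes))) := by
      rw [map_sub]
      exact congrArg Additive.ofMul hz
    set d : ↥(smInvariants C) := ψ.symm (Additive.ofMul (QuotientGroup.mk z)) with hd
    have h2 : (⟨c.1, hinv c⟩ - ⟨c'.1, hinv c'⟩ : ↥(smInvariants C)) = p • d := by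
      apply ψ.injective
      rw [h1, map_nsmul, hd, AddEquiv.apply_symm_apply]
    refine ⟨d.1, d.2, ?_⟩
    exact congrArg Subtype.val h2
  · rw [← Subgroup.index_eq_card]
    exact hle

/-- **Finiteness of `C^U / p`** (helper4's `fin`) for a smooth module whose invariants are
identified with `J_K / (K^× U^S)`; `K` any number field, `p` any prime. -/
theorem fin_of_addEquiv {Γ' : Type} [Group Γ'] {𝒰 : OpenBasis Γ'} (C : SmRep ℤ 𝒰)
    (K : Type) [Field K] [NumberField K]
    (N : Subgroup (FinIdele K)) (hN : N = principal K ⊔ exUnits K (S : Set Nat.Primes))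
    (ψ : ↥(smInvariants C) ≃+ Additive (FinIdele K ⧸ N)) :
    ∃ T : Finset C.obj.V, ∀ c : C.obj.V, (∀ g, C.obj.ρ g c = c) →
      ∃ t ∈ T, ∃ c' : C.obj.V, (∀ g, C.obj.ρ g c' = c') ∧ c = t + p • c' := by
  classical
  subst hN
  have h0 := exD_index_ne_zero hp.out K S
  haveI : Finite (FinIdele K ⧸ exD K (S : Set Nat.Primes) p) :=
    Nat.finite_of_card_ne_zero (by rw [← Subgroup.index_eq_card]; exact h0)
  haveI : Fintype (FinIdele K ⧸ exD K (S : Set Nat.Primes) p) := Fintype.ofFinite _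
  let t : FinIdele K ⧸ exD K (S : Set Nat.Primes) p → ↥(smInvariants C) := fun a =>
    ψ.symm (Additive.ofMul (QuotientGroup.mk (Quotient.out a)))
  refine ⟨Finset.univ.image (fun a => (t a).1), fun c hc => ?_⟩
  set a : FinIdele K ⧸ exD K (S : Set Nat.Primes) p :=
    QuotientGroup.mk (Quotient.out (Additive.toMul (ψ ⟨c, hc⟩))) with ha
  have hcc' : (QuotientGroup.mk (Quotient.out (Additive.toMul (ψ ⟨c, hc⟩))) :
      FinIdele K ⧸ exD K (S : Set Nat.Primes) p) = QuotientGroup.mk (Quotient.out a) :=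
    (QuotientGroup.out_eq' a).symm
  obtain ⟨z, hz⟩ := exists_div_eq_pow_of_mk_eq
    (principal K ⊔ exUnits K (S : Set Nat.Primes)) p _ _ hcc'
  rw [QuotientGroup.mk_div, QuotientGroup.out_eq'] at hz
  set d : ↥(smInvariants C) := ψ.symm (Additive.ofMul (QuotientGroup.mk z)) with hd
  have h2 : (⟨c, hc⟩ - t a : ↥(smInvariants C)) = p • d := by
    apply ψ.injective
    rw [map_sub, map_nsmul, hd, AddEquiv.apply_symm_apply, AddEquiv.apply_symm_apply]
    exact congrArg Additive.ofMul hz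
  refine ⟨(t a).1, Finset.mem_image.mpr ⟨a, Finset.mem_univ _, rfl⟩, d.1, d.2, ?_⟩
  have h3 := congrArg Subtype.val h2
  change c - (t a).1 = p • d.1 at h3
  rw [← h3]
  abel

end Fermat.Agent.CFT.PT6
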