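/-
CFT global part, S55 package PT4 (b), helper3: the second inequality for cyclic extensions of odd
prime degree `p` WITHOUT roots of unity in the base field (`secondInequalityGen`), by passing to
`K(ζ_p)` (degree prime to `p`), and the consequence `H¹(G, C_L) = 0`, `|H²(G, C_L)| = p`
(`cyclic_prime_classFormation`).
-/
import Fermat.Agent.CFT.Global.G4_helper9_IdeleCoh
import Fermat.Agent.CFT.Global.Crossing_helper3_Cup
import Fermat.Agent.CFT.Global.G5f_helper6
import Fermat.Agent.CFT.Global.T2_helper1_Final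
import Fermat.Agent.CFT.Coh.Cyclic_helper6_H1
import Fermat.Agent.CFT.Coh.Cyclic_helper6_H2

set_option autoImplicit false
set_option linter.unusedSectionVars false
set_option linter.style.haveILetI false

open scoped NumberField Pointwise
open CategoryTheory
open Fermat.Agent.CFT.Coh Fermat.Agent.CFT.Local Fermat.Agent.CFT.Crossing

namespace Fermat.Agent.CFT.PT4

section idelefunct

variable {F F' F'' : Type*} [Field F] [CharZero F] [Field F'] [CharZero F'] [Field F'']
  [CharZero F''] {G G' : Type*} [Group G] [Group G']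

lemma finIdele_map_map (g : F' →+* F'') (f : F →+* F') (x : FinIdele F) :
    FinIdele.map g (FinIdele.map f x) = FinIdele.map (g.comp f) x := by
  apply RestrictedProduct.ext
  intro ℓ
  apply Units.ext
  exact SemiLocal.map_map (ℓ : ℕ) g f _

lemma finIdele_smul_congr [MulSemiringAction G F] [MulSemiringAction G' F] (g : G) (g' : G')
    (h : ∀ a : F, g • a = g' • a) (x : FinIdele F) : g • x = g' • x := by
  rw [FinIdele.smul_eq_map, FinIdele.smul_eq_map]
  have h1 : MulSemiringAction.toRingHom G F g = MulSemiringAction.toRingHom G' F g' :=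
    RingHom.ext h
  rw [h1]

lemma finIdele_map_smul [MulSemiringAction G F] [MulSemiringAction G' F'] (f : F →+* F') (g : G)
    (g' : G') (h : ∀ a : F, f (g • a) = g' • f a) (x : FinIdele F) :
    FinIdele.map f (g • x) = g' • FinIdele.map f x := by
  rw [FinIdele.smul_eq_map, FinIdele.smul_eq_map, finIdele_map_map, finIdele_map_map]
  have h1 : f.comp (MulSemiringAction.toRingHom G F g) =
      (MulSemiringAction.toRingHom G' F' g').comp f := RingHom.ext h
  rw [h1]

end idelefunct

lemma exists_mem_ker_of_coprime {𝔊 G C : Type*} [Group 𝔊] [Group G] [Group C] [Finite C]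
    (ρ : 𝔊 →* G) (hρ : Function.Surjective ρ) (κ : 𝔊 →* C) {p : ℕ} (hp : p.Prime)
    (hcard : Nat.card G = p) (hC : (Nat.card C).Coprime p) (g : G) :
    ∃ t ∈ κ.ker, ρ t = g := by
  obtain ⟨t₀, rfl⟩ := hρ g
  obtain ⟨u, -, hu⟩ := Nat.exists_mul_mod_eq_one_of_coprime hC hp.one_lt
  refine ⟨t₀ ^ (Nat.card C * u), ?_, ?_⟩
  · rw [MonoidHom.mem_ker, map_pow, pow_mul, pow_card_eq_one', one_pow]
  · rw [map_pow, ← pow_mod_natCard, hcard, hu, pow_one]

section setup

variable {p : ℕ} [hp : Fact p.Prime]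
variable {K L M : Type} [Field K] [NumberField K] [Field L] [NumberField L] [Field M]
  [NumberField M] [Algebra K L] [Algebra K M] [Algebra L M] [IsScalarTower K L M]
  [IsGalois K L] [IsGalois K M]
variable {ζ : M} (hζ : IsPrimitiveRoot ζ (p ^ (0 + 1)))

lemma card_units_coprime : (Nat.card (ZMod (p ^ (0 + 1)))ˣ).Coprime p := by
  haveI : NeZero (p ^ (0 + 1)) := ⟨(pow_pos hp.out.pos _).ne'⟩
  rw [Nat.card_eq_fintype_card, ZMod.card_units_eq_totient, zero_add, pow_one,
    Nat.totient_prime hp.out]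
  have h1 : ¬ p ∣ p - 1 :=
    Nat.not_dvd_of_pos_of_lt (Nat.sub_pos_of_lt hp.out.one_lt) (Nat.sub_lt hp.out.pos one_pos)
  exact ((Nat.Prime.coprime_iff_not_dvd hp.out).2 h1).symm

include hζ in
/-- `Gal(M/K(ζ_p)) → Gal(L/K)` is bijective for `L/K` of degree `p`. -/
lemma bijective_rho_galIncl (htop : IntermediateField.adjoin L {ζ} = ⊤)
    (hcard : Nat.card (L ≃ₐ[K] L) = p) :
    Function.Bijective (fun t : M ≃ₐ[IntermediateField.adjoin K {ζ}] M =>
      rho K L (galIncl K (IntermediateField.adjoin K {ζ}) M t)) := by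
  constructor
  · intro σ τ h
    apply galIncl_injective K (IntermediateField.adjoin K {ζ}) M
    apply eq_of_rho_eq_of_kappa_eq hζ htop _ _ h
    have h1 : galIncl K (IntermediateField.adjoin K {ζ}) M σ ∈ (kappa K hζ).ker := by
      rw [ker_kappa_eq_range]; exact ⟨σ, rfl⟩
    have h2 : galIncl K (IntermediateField.adjoin K {ζ}) M τ ∈ (kappa K hζ).ker := by
      rw [ker_kappa_eq_range]; exact ⟨τ, rfl⟩
    rw [MonoidHom.mem_ker.mp h1, MonoidHom.mem_ker.mp h2]
  · intro g
    obtain ⟨t, ht, hρt⟩ := exists_mem_ker_of_coprime (rho K L (M := M))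
      (AlgEquiv.restrictNormalHom_surjective M) (kappa K hζ) hp.out hcard card_units_coprime g
    rw [ker_kappa_eq_range] at ht
    obtain ⟨σ, rfl⟩ := ht
    exact ⟨σ, hρt⟩

variable (K) in
include hζ K in
/-- `[M : L]` is prime to `p`. -/
lemma card_gal_coprime (htop : IntermediateField.adjoin L {ζ} = ⊤) :
    (Nat.card (M ≃ₐ[L] M)).Coprime p := by
  have hinj : Function.Injective ((kappa K hζ).comp (galIncl K L M)) := by
    intro σ τ h
    apply galIncl_injective K L M
    apply eq_of_rho_eq_of_kappa_eq hζ htop _ _ _ h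
    have h1 : ∀ t : M ≃ₐ[L] M, rho K L (galIncl K L M t) = 1 := by
      intro t
      rw [← MonoidHom.mem_ker, ker_rho_eq_range]
      exact ⟨t, rfl⟩
    rw [h1, h1]
  have hdvd := Subgroup.card_dvd_of_injective _ hinj
  exact Nat.Coprime.coprime_dvd_left hdvd card_units_coprime


end setup

section key

variable {K L M E : Type} [Field K] [NumberField K] [Field L] [NumberField L] [Field M]
  [NumberField M] [Field E] [NumberField E] [Algebra K L] [Algebra K M] [Algebra L M]
  [IsScalarTower K L M] [Algebra K E] [Algebra E M] [IsScalarTower K E M]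
  [IsGalois K L] [IsGalois K M]

/-- **Key step of the second inequality without roots of unity**: let `K ⊆ E ⊆ M ⊇ L ⊇ K` with
`Gal(M/K)` abelian and `Gal(M/E) → Gal(L/K)` bijective.  If `x ∈ J_K` becomes a norm (times a
principal idele) in `M/E`, then `x ^ [M:L]` is a norm (times a principal idele) in `L/K`. -/
lemma exists_isIdeleNorm_pow
    (hcommM : ∀ σ τ : M ≃ₐ[K] M, σ * τ = τ * σ)
    (hbij : Function.Bijective (fun t : M ≃ₐ[E] M => rho K L (galIncl K E M t)))
    (x : FinIdele K) (a' : Eˣ)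
    (h : IsIdeleNorm E M (FinIdele.map (algebraMap K E) x / FinIdele.diag E a')) :
    ∃ a : Kˣ, IsIdeleNorm K L (x ^ Nat.card (M ≃ₐ[L] M) / FinIdele.diag K a) := by
  classical
  obtain ⟨y', hy'⟩ := h
  obtain ⟨hinj, hsurj⟩ := hbij
  haveI : IsGalois L M := IsGalois.tower_top_of_isGalois K L M
  -- the actions of `Gal(M/E)` and `Gal(M/L)` on ideles commute
  have hcomm : ∀ (σ : M ≃ₐ[E] M) (τ : M ≃ₐ[L] M) (w : FinIdele M), σ • τ • w = τ • σ • w := by
    intro σ τ w
    rw [finIdele_smul_congr σ (galIncl K E M σ) (fun a => (galIncl_apply K E M σ a).symm),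
      finIdele_smul_congr τ (galIncl K L M τ) (fun a => (galIncl_apply K L M τ a).symm),
      finIdele_smul_congr σ (galIncl K E M σ) (fun a => (galIncl_apply K E M σ a).symm),
      finIdele_smul_congr τ (galIncl K L M τ) (fun a => (galIncl_apply K L M τ a).symm),
      ← mul_smul, ← mul_smul, hcommM]
  set X : FinIdele M := FinIdele.map (algebraMap K M) x with hX
  set u : Mˣ := Units.map (algebraMap E M : E →* M) a' with hu
  have hrhs : FinIdele.map (algebraMap E M)
      (FinIdele.map (algebraMap K E) x / FinIdele.diag E a') = X / FinIdele.diag M u := by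
    rw [map_div, finIdele_map_map, FinIdele.map_diag, ← IsScalarTower.algebraMap_eq]
  rw [hrhs] at hy'
  set z' : FinIdele M := ∏ τ : M ≃ₐ[L] M, τ • y' with hz'
  have hz'fix : ∀ τ' : M ≃ₐ[L] M, τ' • z' = z' := by
    intro τ'
    rw [hz', Finset.smul_prod']
    apply Fintype.prod_equiv (Equiv.mulLeft τ')
    intro τ
    rw [Equiv.coe_mulLeft, mul_smul]
  obtain ⟨z, hz⟩ := (FinIdele.mem_range_map_iff_fixed L M).mpr hz'fix
  have h1 : FinIdele.map (algebraMap L M) (∏ σ' : L ≃ₐ[K] L, σ' • z) =
      ∏ τ : M ≃ₐ[L] M, τ • ∏ σ : M ≃ₐ[E] M, σ • y' := by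
    rw [map_prod, ← Function.Bijective.prod_comp ⟨hinj, hsurj⟩
      (fun σ' => FinIdele.map (algebraMap L M) (σ' • z))]
    have h2 : ∀ σ : M ≃ₐ[E] M,
        FinIdele.map (algebraMap L M) (rho K L (galIncl K E M σ) • z) = σ • z' := by
      intro σ
      rw [finIdele_map_smul (algebraMap L M) (rho K L (galIncl K E M σ)) σ
        (fun a => (rho_apply _ a).trans (galIncl_apply K E M σ _)), hz]
    rw [Finset.prod_congr rfl (fun σ _ => h2 σ), hz']
    simp_rw [Finset.smul_prod']
    rw [Finset.prod_comm]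
    apply Finset.prod_congr rfl
    intro τ _
    apply Finset.prod_congr rfl
    intro σ _
    exact hcomm σ τ y'
  rw [hy'] at h1
  have hXfix : ∀ τ : M ≃ₐ[L] M, τ • X = X := by
    intro τ
    have h2 : X = FinIdele.map (algebraMap L M) (FinIdele.map (algebraMap K L) x) := by
      rw [finIdele_map_map, ← IsScalarTower.algebraMap_eq]
    rw [h2]
    exact (FinIdele.mem_range_map_iff_fixed L M).mp ⟨_, rfl⟩ τ
  have h3 : ∏ τ : M ≃ₐ[L] M, τ • (X / FinIdele.diag M u) =
      X ^ Nat.card (M ≃ₐ[L] M) / FinIdele.diag M (∏ τ : M ≃ₐ[L] M, τ • u) := by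
    simp_rw [smul_div', hXfix]
    rw [Finset.prod_div_distrib, Finset.prod_const, Finset.card_univ, ← Nat.card_eq_fintype_card,
      map_prod]
    congr 1
  obtain ⟨a, ha⟩ : ∃ a : Kˣ, Units.map (algebraMap K M : K →* M) a =
      ∏ τ : M ≃ₐ[L] M, τ • u := by
    set b : Mˣ := ∏ τ : M ≃ₐ[L] M, τ • u with hb
    have hbT : ∀ τ' : M ≃ₐ[L] M, τ' • b = b := by
      intro τ'
      rw [hb, Finset.smul_prod']
      apply Fintype.prod_equiv (Equiv.mulLeft τ')
      intro τ
      rw [Equiv.coe_mulLeft, mul_smul]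
    have hbH : ∀ σ : M ≃ₐ[E] M, σ • b = b := by
      intro σ
      rw [hb, Finset.smul_prod']
      apply Finset.prod_congr rfl
      intro τ _
      apply Units.ext
      have e1 : σ (τ (u : M)) = τ (σ (u : M)) := by
        have h4 := hcommM (galIncl K E M σ) (galIncl K L M τ)
        have h5 := congrArg (fun g : M ≃ₐ[K] M => g (u : M)) h4
        simpa [AlgEquiv.mul_apply, galIncl_apply] using h5
      have e2 : σ (u : M) = u := σ.commutes (a' : E)
      change σ (τ (u : M)) = τ (u : M)
      rw [e1, e2]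
    obtain ⟨b₀, hb₀⟩ := (IsGalois.mem_range_algebraMap_iff_fixed (F := L) (E := M) (b : M)).2
      (fun τ => congrArg Units.val (hbT τ))
    have hb₀fix : ∀ σ' : L ≃ₐ[K] L, σ' b₀ = b₀ := by
      intro σ'
      obtain ⟨σ, rfl⟩ := hsurj σ'
      apply (algebraMap L M).injective
      change algebraMap L M (rho K L (galIncl K E M σ) b₀) = _
      rw [rho_apply, galIncl_apply, hb₀]
      exact congrArg Units.val (hbH σ)
    obtain ⟨a₀, ha₀⟩ := (IsGalois.mem_range_algebraMap_iff_fixed (F := K) (E := L) b₀).2 hb₀fix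
    have hab : algebraMap K M a₀ = (b : M) := by
      rw [IsScalarTower.algebraMap_apply K L M, ha₀, hb₀]
    have ha₀0 : a₀ ≠ 0 := by
      rintro rfl
      rw [map_zero] at hab
      exact b.ne_zero hab.symm
    exact ⟨Units.mk0 a₀ ha₀0, Units.ext hab⟩
  refine ⟨a, z, ?_⟩
  apply FinIdele.map_algebraMap_injective L M
  rw [h1, h3, ← ha, finIdele_map_map, ← IsScalarTower.algebraMap_eq, map_div, map_pow,
    FinIdele.map_diag]


end key

section final

/-- `Ĥ⁰(G, A)` is killed by the order of `G`. -/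
lemma card_nsmul_tateH0 {k G : Type} [CommRing k] [Group G] [Finite G] (A : Rep k G)
    (t : TateH0 A) : Nat.card G • t = 0 := by
  obtain ⟨c, rfl⟩ := TateH0.mk_surjective A t
  rw [← map_nsmul, TateH0.mk_eq_zero_iff]
  exact ⟨c.1, normMap_of_mem_invariants A c.2⟩

/-- (T2') The second inequality for cyclic extensions of odd prime degree `p`, WITHOUT assuming
`ζ_p` in the base field. -/
def SecondInequalityGen (p : ℕ) : Prop :=
  ∀ (K L : Type) [Field K] [NumberField K] [Field L] [NumberField L] [Algebra K L] [IsGalois K L],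
    Nat.card (L ≃ₐ[K] L) = p →
    Finite (TateH0 (ideleClassRep K L)) ∧ Nat.card (TateH0 (ideleClassRep K L)) ≤ p

theorem secondInequalityGen {p : ℕ} (hp : p.Prime) (hp2 : p ≠ 2) : SecondInequalityGen p := by
  intro K L _ _ _ _ _ _ hcard
  haveI : Fact p.Prime := ⟨hp⟩
  haveI : NeZero p := ⟨hp.ne_zero⟩
  obtain ⟨M, _, _, _, _, _, _, ζ, hζ', htop⟩ := exists_cyclotomic_tower p K L
  have hζ : IsPrimitiveRoot ζ (p ^ (0 + 1)) := by simpa using hζ'
  -- the field `E = K(ζ_p)`
  have hbij := bijective_rho_galIncl hζ htop hcard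
  haveI : IsCyclic (L ≃ₐ[K] L) := isCyclic_of_prime_card hcard
  have hcommL : ∀ σ τ : L ≃ₐ[K] L, σ * τ = τ * σ := by
    letI := IsCyclic.commGroup (α := L ≃ₐ[K] L)
    exact fun σ τ => mul_comm σ τ
  have hcommM := gal_comm hζ htop hcommL
  have hcardE : Nat.card (M ≃ₐ[IntermediateField.adjoin K {ζ}] M) = p := by
    rw [← hcard]
    exact Nat.card_eq_of_bijective _ hbij
  have hζE : ∃ ζ' : IntermediateField.adjoin K {ζ}, IsPrimitiveRoot ζ' p :=
    ⟨⟨ζ, IntermediateField.mem_adjoin_simple_self K ζ⟩,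
      IsPrimitiveRoot.of_map_of_injective (f := algebraMap (IntermediateField.adjoin K {ζ}) M)
        (by simpa using hζ') (algebraMap (IntermediateField.adjoin K {ζ}) M).injective⟩
  obtain ⟨hfin, hle⟩ := secondInequality hp hp2 (IntermediateField.adjoin K {ζ}) M hcardE hζE
  have hcop := card_gal_coprime K hζ htop
  -- the comparison map
  have hkey : ∀ x : Additive (FinIdele K),
      ideleToTateH0 (IntermediateField.adjoin K {ζ}) M
        (Additive.ofMul (FinIdele.map (algebraMap K (IntermediateField.adjoin K {ζ})) x.toMul)) = 0 →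
      ideleToTateH0 K L x = 0 := by
    intro x hx
    rw [ideleToTateH0_eq_zero_iff] at hx
    obtain ⟨a', ha'⟩ := hx
    obtain ⟨a, ha⟩ := exists_isIdeleNorm_pow hcommM hbij x.toMul a' ha'
    have h1 : Nat.card (M ≃ₐ[L] M) • ideleToTateH0 K L x = 0 := by
      rw [← map_nsmul, ideleToTateH0_eq_zero_iff]
      exact ⟨a, ha⟩
    have h2 : p • ideleToTateH0 K L x = 0 := by
      have := card_nsmul_tateH0 (ideleClassRep K L) (ideleToTateH0 K L x)
      rwa [hcard] at this
    have h3 : addOrderOf (ideleToTateH0 K L x) ∣ Nat.gcd (Nat.card (M ≃ₐ[L] M)) p :=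
      Nat.dvd_gcd (addOrderOf_dvd_of_nsmul_eq_zero h1) (addOrderOf_dvd_of_nsmul_eq_zero h2)
    rw [Nat.Coprime.gcd_eq_one hcop, Nat.dvd_one] at h3
    exact AddMonoid.addOrderOf_eq_one_iff.mp h3
  set φ : Additive (FinIdele K) →+ TateH0 (ideleClassRep (IntermediateField.adjoin K {ζ}) M) :=
    (ideleToTateH0 (IntermediateField.adjoin K {ζ}) M).comp
      (MonoidHom.toAdditive (FinIdele.map (algebraMap K (IntermediateField.adjoin K {ζ})))) with hφ
  choose s hs using ideleToTateH0_surjective K L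
  have hinj : Function.Injective (fun t : TateH0 (ideleClassRep K L) => φ (s t)) := by
    intro t₁ t₂ h
    have h1 : φ (s t₁ - s t₂) = 0 := by
      rw [map_sub, sub_eq_zero]
      exact h
    have h2 := hkey (s t₁ - s t₂) h1
    rw [map_sub, sub_eq_zero, hs, hs] at h2
    exact h2
  exact ⟨Finite.of_injective _ hinj, (Nat.card_le_card_of_injective _ hinj).trans hle⟩

/-- **Cyclic extensions of odd prime degree**: `H¹(G, C_L) = 0` and `|H²(G, C_L)| = p`. -/
theorem cyclic_prime_classFormation {p : ℕ} (hp : p.Prime) (hp2 : p ≠ 2)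
    (K L : Type) [Field K] [NumberField K] [Field L] [NumberField L] [Algebra K L] [IsGalois K L]
    (hcard : Nat.card (L ≃ₐ[K] L) = p) :
    Limits.IsZero (groupCohomology (ideleClassRep K L) 1) ∧
      Nat.card (groupCohomology (ideleClassRep K L) 2) = p := by
  haveI : Fact p.Prime := ⟨hp⟩
  haveI : IsCyclic (L ≃ₐ[K] L) := isCyclic_of_prime_card hcard
  obtain ⟨g, hg⟩ := IsCyclic.exists_generator (α := L ≃ₐ[K] L)
  obtain ⟨hfin, hh⟩ := firstInequality hp hp2 K L hcard
  obtain ⟨hfin0, hle⟩ := secondInequalityGen hp hp2 K L hcard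
  have hsub : Subsingleton (TateHm1 (ideleClassRep K L)) :=
    subsingleton_tateHm1_of_inequalities _ p hp.pos hfin hh hle
  have h3 := (herbrand_eq_iff hfin (p : ℚ)).1 hh
  have h4 : Nat.card (TateHm1 (ideleClassRep K L)) = 1 := Nat.card_of_subsingleton 0
  rw [h4, Nat.cast_one, mul_one] at h3
  have h5 : Nat.card (TateH0 (ideleClassRep K L)) = p := by exact_mod_cast h3
  constructor
  · rw [ModuleCat.isZero_iff_subsingleton]
    exact (H1EquivTateHm1 hg (ideleClassRep K L)).toEquiv.subsingleton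
  · rw [← h5]
    exact Nat.card_congr (H2EquivTateH0 hg (ideleClassRep K L)).toEquiv

end final

end Fermat.Agent.CFT.PT4
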