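/-
CFT global part, S55 package PT8 (LG'), helper2: (LG'.c) the cyclotomic fields `ℚ(ζ_{p^n})` and
their `p`-layers inside `Ω = AlgebraicClosure ℚ` are levels of `ℚ_S` for `p ∈ S`.

* `mem_ES_of_pow_prime_pow_eq_one`: `μ_{p^∞} ⊆ E_S`;
* `isLevel_adjoin_of_isPrimitiveRoot`: `ℚ(ζ_{p^n})` is a level;
* `IsLevel.of_le_of_stable`: a Galois-stable subfield of a level is a level;
* `exists_cyclotomic_layer`: for every `r` there are levels `F ≤ E` with
  `E = ℚ(ζ_{p^{r+1}})` cyclotomic and `[F:ℚ] = p^r`, `Gal(F/ℚ)` cyclic.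
-/
import Fermat.Agent.CFT.Arith.ES_helper7

set_option autoImplicit false
set_option linter.unusedSectionVars false
set_option linter.style.haveILetI false

namespace Fermat.Agent.CFT.PT4

open Fermat.Agent.CFT.Arith

/-- `Ω = AlgebraicClosure ℚ`. -/
local notation "Ω" => AlgebraicClosure ℚ
/-- `Γ = Gal(Ω/ℚ)`. -/
local notation "Γ" => (AlgebraicClosure ℚ ≃ₐ[ℚ] AlgebraicClosure ℚ)

section roots

variable {S : Finset Nat.Primes} {p : ℕ} (hp : p.Prime) (hpS : (⟨p, hp⟩ : Nat.Primes) ∈ S)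

include hpS in
/-- `μ_{p^∞} ⊆ E_S` for `p ∈ S`. -/
theorem mem_ES_of_pow_prime_pow_eq_one (n : ℕ) {y : Ωˣ} (hy : y ^ (p ^ n) = 1) : y ∈ ES S := by
  induction n generalizing y with
  | zero =>
    rw [pow_zero, pow_one] at hy
    rw [hy]
    exact one_mem _
  | succ n ih =>
    apply mem_ES_of_pow_mem hp hpS
    apply ih
    rw [← pow_mul, ← pow_succ']
    exact hy

include hpS in
/-- `ℚ(ζ_{p^n})` is a level of `ℚ_S` for `p ∈ S`. -/
theorem isLevel_adjoin_of_isPrimitiveRoot {n : ℕ} {ζ : Ω} (hζ : IsPrimitiveRoot ζ (p ^ n)) :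
    IsLevel S (IntermediateField.adjoin ℚ {ζ}) := by
  have hn0 : p ^ n ≠ 0 := pow_ne_zero _ hp.ne_zero
  have hζ0 : ζ ≠ 0 := hζ.ne_zero hn0
  have hζint : IsIntegral ℚ ζ := (Algebra.IsAlgebraic.isAlgebraic ζ).isIntegral
  haveI : FiniteDimensional ℚ (IntermediateField.adjoin ℚ {ζ}) :=
    IntermediateField.adjoin.finiteDimensional hζint
  refine ⟨?_, ?_⟩
  · apply isUnramifiedOutside_of_le_QS
    rw [IntermediateField.adjoin_le_iff]
    intro x hx
    rw [Set.mem_singleton_iff.mp hx]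
    have h1 : (Units.mk0 ζ hζ0) ^ (p ^ n) = 1 := by
      apply Units.ext
      rw [Units.val_pow_eq_pow_val, Units.val_mk0, hζ.pow_eq_one, Units.val_one]
    exact (mem_ES_of_pow_prime_pow_eq_one hp hpS n h1).1
  · intro σ x hx
    have hσζ : σ ζ ∈ IntermediateField.adjoin ℚ {ζ} := by
      haveI : NeZero (p ^ n) := ⟨hn0⟩
      have h1 : (σ ζ) ^ (p ^ n) = 1 := by rw [← map_pow, hζ.pow_eq_one, map_one]
      obtain ⟨i, -, hi⟩ := hζ.eq_pow_of_pow_eq_one h1
      rw [← hi]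
      exact pow_mem (IntermediateField.mem_adjoin_simple_self ℚ ζ) i
    induction hx using IntermediateField.adjoin_induction with
    | mem x hx => rw [Set.mem_singleton_iff.mp hx]; exact hσζ
    | algebraMap x => rw [σ.commutes]; exact algebraMap_mem _ x
    | add x y _ _ hx hy => rw [map_add]; exact add_mem hx hy
    | inv x _ hx => rw [map_inv₀]; exact inv_mem hx
    | mul x y _ _ hx hy => rw [map_mul]; exact mul_mem hx hy

end roots

section sub

variable {S : Finset Nat.Primes}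

/-- a Galois-stable subfield of a level is a level. -/
theorem IsLevel.of_le_of_stable {F E : IntermediateField ℚ Ω} (hE : IsLevel S E) (h : F ≤ E)
    (hst : ∀ σ : Γ, ∀ x ∈ F, σ x ∈ F) : IsLevel S F :=
  ⟨hE.1.of_le h, hst⟩

end sub

section layer

variable {S : Finset Nat.Primes} {p : ℕ} [hpF : Fact p.Prime]

/-- **(LG'.c)** the cyclotomic `p`-layers as levels: for `p ∈ S` odd and every `r` there are levels
`F ≤ E` of `ℚ_S` inside `Ω` with `E = ℚ(ζ_{p^{r+1}})`, `[F:ℚ] = p^r` and `Gal(F/ℚ)` cyclic. -/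
theorem exists_cyclotomic_layer (hp2 : p ≠ 2) (hpS : (⟨p, hpF.out⟩ : Nat.Primes) ∈ S) (r : ℕ) :
    ∃ (E F : IntermediateField ℚ Ω), F ≤ E ∧ IsLevel S E ∧ IsLevel S F ∧
      IsCyclotomicExtension {p ^ (r + 1)} ℚ E ∧ Module.finrank ℚ F = p ^ r ∧
      IsCyclic (F ≃ₐ[ℚ] F) := by
  have hp := hpF.out
  have hn0 : p ^ (r + 1) ≠ 0 := pow_ne_zero _ hp.ne_zero
  haveI : NeZero (p ^ (r + 1)) := ⟨hn0⟩
  haveI : NeZero ((p ^ (r + 1) : ℕ) : Ω) := ⟨by exact_mod_cast hn0⟩
  obtain ⟨ζ, hζ⟩ := HasEnoughRootsOfUnity.exists_primitiveRoot Ω (p ^ (r + 1))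
  set E : IntermediateField ℚ Ω := IntermediateField.adjoin ℚ {ζ} with hE
  have hEl : IsLevel S E := isLevel_adjoin_of_isPrimitiveRoot hp hpS hζ
  haveI hcyc : IsCyclotomicExtension {p ^ (r + 1)} ℚ E :=
    hζ.intermediateField_adjoin_isCyclotomicExtension ℚ
  haveI : FiniteDimensional ℚ E := hEl.finiteDimensional
  haveI hgal : IsGalois ℚ E := IsCyclotomicExtension.isGalois {p ^ (r + 1)} ℚ E
  have hirr : Irreducible (Polynomial.cyclotomic (p ^ (r + 1)) ℚ) :=
    Polynomial.cyclotomic.irreducible_rat (pow_pos hp.pos _)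
  -- the Galois group is cyclic of order `p^r (p-1)`
  let e : (E ≃ₐ[ℚ] E) ≃* (ZMod (p ^ (r + 1)))ˣ := IsCyclotomicExtension.autEquivPow E hirr
  haveI : IsCyclic (ZMod (p ^ (r + 1)))ˣ := ZMod.isCyclic_units_of_prime_pow p hp hp2 (r + 1)
  haveI hGc : IsCyclic (E ≃ₐ[ℚ] E) := isCyclic_of_surjective e.symm e.symm.surjective
  letI : CommGroup (E ≃ₐ[ℚ] E) := hGc.commGroup
  have hcardG : Nat.card (E ≃ₐ[ℚ] E) = p ^ r * (p - 1) := by
    rw [IsGalois.card_aut_eq_finrank, IsCyclotomicExtension.finrank E hirr,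
      Nat.totient_prime_pow_succ hp]
  -- the subgroup of order `p - 1`
  set H : Subgroup (E ≃ₐ[ℚ] E) := (powMonoidHom (p - 1) : (E ≃ₐ[ℚ] E) →* (E ≃ₐ[ℚ] E)).ker with hH
  have hcardH : Nat.card H = p - 1 := by
    rw [hH, IsCyclic.card_powMonoidHom_ker, hcardG]
    exact Nat.gcd_eq_right (Dvd.intro_left _ rfl)
  haveI hHn : H.Normal := inferInstance
  set F₀ : IntermediateField ℚ E := IntermediateField.fixedField H with hF₀
  haveI hF₀gal : IsGalois ℚ F₀ := IsGalois.of_fixedField_normal_subgroup H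
  have hF₀rank : Module.finrank ℚ F₀ = p ^ r := by
    have h1 : Module.finrank F₀ E = Nat.card H := IntermediateField.finrank_fixedField_eq_card H
    have h2 := Module.finrank_mul_finrank ℚ F₀ E
    rw [h1, hcardH, ← IsGalois.card_aut_eq_finrank ℚ E, hcardG] at h2
    have hp1 : 0 < p - 1 := by have := hp.two_le; omega
    exact Nat.eq_of_mul_eq_mul_right hp1 h2
  set F : IntermediateField ℚ Ω := IntermediateField.lift F₀ with hF
  have hFE : F ≤ E := IntermediateField.lift_le F₀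
  let eF : F₀ ≃ₐ[ℚ] F := IntermediateField.liftAlgEquiv F₀
  have hFrank : Module.finrank ℚ F = p ^ r := by
    rw [← hF₀rank]
    exact (eF.toLinearEquiv.finrank_eq).symm
  -- stability of `F` under `Γ`
  have hst : ∀ σ : Γ, ∀ x ∈ F, σ x ∈ F := by
    intro σ x hx
    have hxE : x ∈ E := hFE hx
    have hx' : (⟨x, hxE⟩ : E) ∈ F₀ := (IntermediateField.mem_lift (⟨x, hxE⟩ : E)).mp hx
    set τ : E ≃ₐ[ℚ] E := AlgEquiv.restrictNormal σ E with hτ
    have hτx : ((τ ⟨x, hxE⟩ : E) : Ω) = σ x := AlgEquiv.restrictNormal_commutes σ E ⟨x, hxE⟩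
    have hmem : τ ⟨x, hxE⟩ ∈ F₀ := by
      rw [hF₀, IntermediateField.mem_fixedField_iff] at hx' ⊢
      intro h hh
      have h2 := hx' h hh
      have h3 : h (τ ⟨x, hxE⟩) = τ (h ⟨x, hxE⟩) := by
        rw [← AlgEquiv.mul_apply, ← AlgEquiv.mul_apply, mul_comm]
      rw [h3, h2]
    have : σ x ∈ F := by
      rw [← hτx]
      exact (IntermediateField.mem_lift (τ ⟨x, hxE⟩)).mpr hmem
    exact this
  have hFl : IsLevel S F := IsLevel.of_le_of_stable hEl hFE hst
  -- `Gal(F/ℚ)` is cyclic, as a quotient of `Gal(E/ℚ)`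
  have hcycF : IsCyclic (F ≃ₐ[ℚ] F) := by
    haveI : IsCyclic (F₀ ≃ₐ[ℚ] F₀) :=
      isCyclic_of_surjective (AlgEquiv.restrictNormalHom (F := ℚ) (K₁ := E) F₀)
        (AlgEquiv.restrictNormalHom_surjective E)
    exact isCyclic_of_surjective (AlgEquiv.autCongr eF) (AlgEquiv.autCongr eF).surjective
  exact ⟨E, F, hFE, hEl, hFl, hcyc, hFrank, hcycF⟩

end layer

end Fermat.Agent.CFT.PT4
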