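/-
CFT global part (G5), helper3: Step 2 of the crossing: `b ∈ K^×` is a norm from `M = L(ζ)` to `K(ζ)`
(`exists_prod_gal_adjoin_eq`), by the Hasse norm theorem for the cyclic extension `M/K(ζ)` of degree
`p`, the split norm criterion at `p` and the unramified norm criterion at `ℓ ≠ p`.
-/
import Fermat.Agent.CFT.Global.Crossing_helper3_Frob

set_option autoImplicit false
set_option linter.unusedSectionVars false
set_option linter.style.haveILetI false

open scoped NumberField Pointwise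
open IsDedekindDomain
open CategoryTheory groupCohomology Rep
open Fermat.Agent.CFT.Coh Fermat.Agent.CFT.Local

namespace Fermat.Agent.CFT.Crossing

section hasse

variable {p : ℕ} [hp : Fact p.Prime] {r : ℕ}
variable {K L M : Type} [Field K] [NumberField K] [Field L] [NumberField L] [Field M]
  [NumberField M] [Algebra K L] [Algebra K M] [Algebra L M] [IsScalarTower K L M]
  [IsGalois K L] [IsGalois K M] [IsCyclotomicExtension {p} ℚ K]
variable {ζ : M} (hζ : IsPrimitiveRoot ζ (p ^ (r + 1)))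

/-- compatibility of the actions of `Gal(M/F)` and `Gal(M/K)` on `𝓞 M` -/
lemma galIncl_smul (F : Type) [Field F] [Algebra K F] [Algebra F M] [IsScalarTower K F M]
    (σ : M ≃ₐ[F] M) (x : 𝓞 M) : galIncl K F M σ • x = σ • x := by
  apply NumberField.RingOfIntegers.ext
  exact galIncl_apply K F M σ (x : M)

lemma galIncl_smul_ideal (F : Type) [Field F] [Algebra K F] [Algebra F M] [IsScalarTower K F M]
    (σ : M ≃ₐ[F] M) (Q : Ideal (𝓞 M)) : galIncl K F M σ • Q = σ • Q := by
  rw [Ideal.pointwise_smul_def, Ideal.pointwise_smul_def]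
  congr 1
  ext x
  exact congrArg (fun y : 𝓞 M => (y : M)) (galIncl_smul F σ x)

include hζ in
lemma card_gal_top (htop : IntermediateField.adjoin L {ζ} = ⊤)
    (hcard : Nat.card (L ≃ₐ[K] L) = p)
    (hsplit : ∀ Q : Ideal (𝓞 L), Q.IsPrime → (p : 𝓞 L) ∈ Q →
      ∀ σ : L ≃ₐ[K] L, (∀ x ∈ Q, σ • x ∈ Q) → σ = 1) :
    Nat.card (M ≃ₐ[IntermediateField.adjoin K {ζ}] M) = p := by
  have hG1 : ∃ σ : L ≃ₐ[K] L, σ ≠ 1 := by
    by_contra hcon
    push Not at hcon
    haveI : Subsingleton (L ≃ₐ[K] L) := ⟨fun a b => (hcon a).trans (hcon b).symm⟩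
    have := Nat.card_of_subsingleton (1 : L ≃ₐ[K] L)
    rw [hcard] at this
    exact hp.out.one_lt.ne' this
  have hne := ker_kappa_ne_bot hζ hG1 hsplit
  have hinf := eq_one_of_mem_ker_rho_of_mem_ker_kappa (K := K) (L := L) hζ htop
  have hex := exists_mem_ker_of_prime_card (rho K L (M := M)) (kappa K hζ) hcard hinf hne
  rw [← hcard]
  apply Nat.card_eq_of_bijective
    (fun σ : M ≃ₐ[IntermediateField.adjoin K {ζ}] M =>
      rho K L (galIncl K (IntermediateField.adjoin K {ζ}) M σ))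
  constructor
  · intro σ τ h
    apply galIncl_injective K (IntermediateField.adjoin K {ζ}) M
    apply eq_of_rho_eq_of_kappa_eq hζ htop _ _ h
    have h1 : galIncl K (IntermediateField.adjoin K {ζ}) M σ ∈ (kappa K hζ).ker := by
      rw [ker_kappa_eq_range]; exact ⟨σ, rfl⟩
    have h2 : galIncl K (IntermediateField.adjoin K {ζ}) M τ ∈ (kappa K hζ).ker := by
      rw [ker_kappa_eq_range]; exact ⟨τ, rfl⟩
    rw [MonoidHom.mem_ker.mp h1, MonoidHom.mem_ker.mp h2]
  · intro g
    obtain ⟨t, ht, hρt⟩ := hex g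
    rw [ker_kappa_eq_range] at ht
    obtain ⟨σ, rfl⟩ := ht
    exact ⟨σ, hρt⟩


include hζ in
/-- **Step 2 of the crossing**: `b ∈ K^×` is a norm from `M` to `K(ζ)` as soon as the norms of the
primes of `K` dividing `b` (and not over `p`) are not `≡ 1 mod p^(r+1)`. -/
theorem exists_prod_gal_adjoin_eq (hH : HasseNormTheorem p) (hT4 : UnramifiedNormCriterion)
    (hT4' : SplitNormCriterion) (htop : IntermediateField.adjoin L {ζ} = ⊤)
    (hcard : Nat.card (L ≃ₐ[K] L) = p)
    (hunr : ∀ Q' : Ideal (𝓞 L), Q'.IsPrime → Q' ≠ ⊥ →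
      ∀ σ : L ≃ₐ[K] L, (∀ x : 𝓞 L, σ • x - x ∈ Q') → σ = 1)
    (hsplit : ∀ Q : Ideal (𝓞 L), Q.IsPrime → (p : 𝓞 L) ∈ Q →
      ∀ σ : L ≃ₐ[K] L, (∀ x ∈ Q, σ • x ∈ Q) → σ = 1)
    (b : Kˣ)
    (hb : ∀ v : HeightOneSpectrum (𝓞 K), (p : 𝓞 K) ∉ v.asIdeal → ordAt K v.asIdeal (b : K) ≠ 0 →
      (Nat.card (𝓞 K ⧸ v.asIdeal) : ZMod (p ^ (r + 1))) ≠ 1) :
    ∃ y : Mˣ, ∏ σ : M ≃ₐ[IntermediateField.adjoin K {ζ}] M, σ • y =
      Units.map (algebraMap K M : K →* M) b := by
  set E : IntermediateField K M := IntermediateField.adjoin K {ζ} with hE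
  have hinf := eq_one_of_mem_ker_rho_of_mem_ker_kappa (K := K) (L := L) hζ htop
  have hmemκ : ∀ σ : M ≃ₐ[E] M, galIncl K E M σ ∈ (kappa K hζ).ker := by
    intro σ
    rw [ker_kappa_eq_range]; exact ⟨σ, rfl⟩
  -- a primitive `p`-th root of unity in `E`
  obtain ⟨η, hη⟩ := IsCyclotomicExtension.exists_isPrimitiveRoot ℚ K (Set.mem_singleton p)
    hp.out.ne_zero
  have hηE : ∃ ζ' : E, IsPrimitiveRoot ζ' p :=
    ⟨algebraMap K E η, hη.map_of_injective (algebraMap K E).injective⟩
  set b' : Eˣ := Units.map (algebraMap K E : K →* E) b with hb'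
  have key := hH E M (card_gal_top hζ htop hcard hsplit) hηE b' ?_
  · obtain ⟨y, hy⟩ := key
    refine ⟨y, hy.trans ?_⟩
    apply Units.ext
    rfl
  intro ℓ
  by_cases hℓ : (ℓ : ℕ) = p
  · -- the split case
    apply hT4' E M ℓ
    intro Q hQ hℓQ σ hσ
    haveI := hQ
    apply galIncl_injective K E M
    rw [map_one]
    apply hinf _ _ (hmemκ σ)
    rw [MonoidHom.mem_ker]
    apply hsplit (Q.under (𝓞 L)) inferInstance
    · change algebraMap (𝓞 L) (𝓞 M) _ ∈ Q
      rw [map_natCast, ← hℓ]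
      exact hℓQ
    · apply rho_smul_mem_under
      intro x hx
      rw [galIncl_smul]
      exact hσ x hx
  · -- the unramified case
    apply hT4 E M ℓ b'
    intro Q hQ hℓQ
    haveI := hQ
    have hQ0 : Q ≠ ⊥ := by
      rintro rfl
      have : ((ℓ : ℕ) : 𝓞 M) = 0 := hℓQ
      exact ℓ.2.ne_zero (Nat.cast_eq_zero.mp this)
    have hpQ : (p : 𝓞 M) ∉ Q := by
      intro hpQ
      have hcop : Nat.Coprime (ℓ : ℕ) p := (Nat.coprime_primes ℓ.2 hp.out).mpr hℓ
      have h1 : ((1 : ℕ) : 𝓞 M) ∈ Q := by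
        have := Nat.Coprime.isCoprime hcop
        obtain ⟨a, c, hac⟩ := this
        have h2 : ((a * (ℓ : ℕ) + c * p : ℤ) : 𝓞 M) ∈ Q := by
          push_cast
          exact Q.add_mem (Q.mul_mem_left _ hℓQ) (Q.mul_mem_left _ hpQ)
        rw [hac] at h2
        simpa using h2
      rw [Nat.cast_one] at h1
      exact hQ.ne_top ((Ideal.eq_top_iff_one Q).mpr h1)
    have hin := inertia_trivial_of_not_mem (L := L) hζ htop hunr hQ0 hpQ
    refine ⟨?_, ?_⟩
    · intro σ hσ
      apply galIncl_injective K E M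
      rw [map_one]
      apply hin
      intro x
      rw [galIncl_smul]
      exact hσ x
    · intro σ hσ
      -- the prime of `K` below `Q`
      set v : HeightOneSpectrum (𝓞 K) :=
        ⟨Q.under (𝓞 K), inferInstance, Ideal.under_ne_bot (𝓞 K) hQ0⟩ with hv
      set w' : HeightOneSpectrum (𝓞 E) :=
        ⟨Q.under (𝓞 E), inferInstance, Ideal.under_ne_bot (𝓞 E) hQ0⟩ with hw'
      have hvw' : w'.asIdeal.under (𝓞 K) = v.asIdeal := Ideal.under_under Q
      by_cases hord : ordAt K v.asIdeal (b : K) = 0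
      · have h1 := ordAt_algebraMap_eq_mul v w' hvw' (b : K)
        rw [hord, mul_zero] at h1
        have h2 : ordAt E (Q.under (𝓞 E)) ((b' : Eˣ) : E) = 0 := h1
        rw [h2, zpow_zero]
      · have hpv : (p : 𝓞 K) ∉ v.asIdeal := by
          intro h
          apply hpQ
          have : algebraMap (𝓞 K) (𝓞 M) (p : 𝓞 K) ∈ Q := h
          rwa [map_natCast] at this
        have hN := hb v hpv hord
        have hσQ : σ • Q = Q := MulAction.mem_stabilizer_iff.mp (IsArithFrobAt.mem_stabilizer hσ)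
        have h1 : galIncl K E M σ = 1 :=
          eq_one_of_smul_eq_of_kappa_ne_one (L := L) hζ htop hcard hunr hQ0 hpQ hN _ (hmemκ σ)
            (by rw [galIncl_smul_ideal, hσQ])
        have h2 : σ = 1 := by
          apply galIncl_injective K E M
          rw [map_one, h1]
        rw [h2, one_zpow]

end hasse

end Fermat.Agent.CFT.Crossing
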