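/-
CFT global part (G5g), helper5: small inputs of the final assembly of the crossing argument:
finiteness of the support of a principal divisor, uniqueness of Frobenius at unramified primes,
triviality of Frobenius at split primes, existence of primes above.
-/
import Mathlib
import Fermat.Agent.CFT.Global.Crossing_helper3_Hasse
import Fermat.Agent.CFT.Global.G04_lead_Content

set_option autoImplicit false
set_option linter.unusedSectionVars false
set_option linter.style.haveILetI false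

open scoped NumberField Pointwise
open IsDedekindDomain

namespace Fermat.Agent.CFT.Crossing

section finite

variable (K : Type) [Field K] [NumberField K]

/-- **(i)** a nonzero element of a number field has nonzero valuation at only finitely many
primes. -/
theorem finite_setOf_ordAt_ne_zero (b : Kˣ) :
    {v : HeightOneSpectrum (𝓞 K) | ordAt K v.asIdeal (b : K) ≠ 0}.Finite := by
  refine (FinIdele.finite_setOf_ordP_ne_zero (FinIdele.diag K b)).subset ?_
  intro v hv
  rw [Set.mem_ofPred_eq] at hv ⊢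
  rw [FinIdele.ordP_diag]
  unfold ordAt at hv
  rwa [dif_pos ⟨v.isPrime, v.ne_bot⟩] at hv

end finite

section frob

variable {K L : Type} [Field K] [NumberField K] [Field L] [NumberField L] [Algebra K L]
  [IsGalois K L]

/-- **(ii)** uniqueness of the Frobenius element at an unramified prime. -/
theorem eq_of_isArithFrobAt
    (hunr : ∀ Q : Ideal (𝓞 L), Q.IsPrime → Q ≠ ⊥ →
      ∀ σ : L ≃ₐ[K] L, (∀ x : 𝓞 L, σ • x - x ∈ Q) → σ = 1)
    {Q : Ideal (𝓞 L)} [hQ : Q.IsPrime] (hQ0 : Q ≠ ⊥) {φ ψ : L ≃ₐ[K] L}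
    (hφ : IsArithFrobAt (𝓞 K) φ Q) (hψ : IsArithFrobAt (𝓞 K) ψ Q) : φ = ψ := by
  have h1 := hφ.mul_inv_mem_inertia hψ
  have h2 := hunr Q hQ hQ0 (φ * ψ⁻¹) (fun x => h1 x)
  exact mul_inv_eq_one.mp h2

/-- **(ii')** at a prime with trivial decomposition group the Frobenius element is trivial. -/
theorem eq_one_of_isArithFrobAt_of_split {p : ℕ}
    (hsplit : ∀ Q : Ideal (𝓞 L), Q.IsPrime → (p : 𝓞 L) ∈ Q →
      ∀ σ : L ≃ₐ[K] L, (∀ x : 𝓞 L, x ∈ Q → σ • x ∈ Q) → σ = 1)
    {Q : Ideal (𝓞 L)} [hQ : Q.IsPrime] (hpQ : (p : 𝓞 L) ∈ Q) {φ : L ≃ₐ[K] L}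
    (hφ : IsArithFrobAt (𝓞 K) φ Q) : φ = 1 := by
  apply hsplit Q hQ hpQ φ
  intro x hx
  have h1 : φ • Q = Q := MulAction.mem_stabilizer_iff.mp hφ.mem_stabilizer
  rw [← h1]
  exact Ideal.smul_mem_pointwise_smul φ x Q hx

end frob

section above

variable (K M : Type) [Field K] [NumberField K] [Field M] [NumberField M] [Algebra K M]

/-- **(iii)** every prime of `𝓞 K` lies below a prime of `𝓞 M`. -/
theorem exists_heightOneSpectrum_under_eq (v : HeightOneSpectrum (𝓞 K)) :
    ∃ w : HeightOneSpectrum (𝓞 M), w.asIdeal.under (𝓞 K) = v.asIdeal := by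
  haveI := v.isPrime
  obtain ⟨P, hP2, hP3⟩ := Ideal.exists_ideal_over_prime_of_isIntegral_of_isDomain
    (S := 𝓞 M) v.asIdeal (by
      rw [(RingHom.injective_iff_ker_eq_bot _).mp (FaithfulSMul.algebraMap_injective (𝓞 K) (𝓞 M))]
      exact bot_le)
  refine ⟨⟨P, hP2, ?_⟩, hP3⟩
  intro h
  apply v.ne_bot
  rw [← hP3, h]
  exact Ideal.comap_bot_of_injective _ (FaithfulSMul.algebraMap_injective (𝓞 K) (𝓞 M))

end above

end Fermat.Agent.CFT.Crossing
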