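import Fermat.Agent.CFT.Global.CycloArtin_lead_Funct
import Fermat.Agent.CFT.Global.G5g_helper5

/-!
# CFT (PT4.d, part 5): the cyclotomic Artin map is trivial on fields containing `ζ_{p^n}`

* **(W4)** `cycloArtin_eq_one_of_cyclotomic`, `cycloArtin_eq_one_of_isPrimitiveRoot`:
  if `L` contains a primitive `p^(r+1)`-th root of unity (`p` odd) then
  `cycloArtin p (r+1) L = 1`;
* **(W5')** `cycloArtin_single_ofUnits`: the value on an idele supported at one prime `ℓ ≠ p` with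
  global component.
-/

set_option autoImplicit false
set_option linter.unusedSectionVars false
set_option linter.style.haveILetI false

open scoped TensorProduct NumberField RestrictedProduct
open IsLocalRing IsDedekindDomain

namespace Fermat.Agent.CFT

open scoped SemiLocalRel


section ratLocal

variable (p : ℕ) [hp : Fact p.Prime] (n : ℕ)

/-- The local component at `ℓ` of the away-part, on rational numbers. -/
noncomputable def ratLocal (ℓ : Nat.Primes) : ℚˣ →* (ZMod (p ^ n))ˣ :=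
  (awayLocal p n ℓ).comp (Units.map ((algebraMap ℚ ℚ_[(ℓ : ℕ)] : ℚ →+* ℚ_[(ℓ : ℕ)]) : ℚ →* ℚ_[(ℓ : ℕ)]))

lemma ratLocal_apply (ℓ : Nat.Primes) (q : ℚˣ) :
    ratLocal p n ℓ q = awayUnit p n ℓ ^ padicValRat ℓ (q : ℚ) := by
  rw [ratLocal, MonoidHom.comp_apply, awayLocal_apply]
  congr 1
  change ((algebraMap ℚ ℚ_[(ℓ : ℕ)] (q : ℚ)) : ℚ_[(ℓ : ℕ)]).valuation = _
  rw [eq_ratCast, Padic.valuation_ratCast]

lemma ratLocal_neg_one (ℓ : Nat.Primes) : ratLocal p n ℓ (-1) = 1 := by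
  rw [ratLocal_apply]
  simp

/-- local norms of global elements -/
lemma awayLocal_normUnits_ofUnits {F : Type*} [Field F] [NumberField F] (ℓ : Nat.Primes) (a : Fˣ) :
    awayLocal p n ℓ (SemiLocal.normUnits ℓ F (SemiLocal.ofUnits ℓ a)) =
      ratLocal p n ℓ (Units.map (Algebra.norm ℚ : F →* ℚ) a) := by
  rw [ratLocal_apply, awayLocal_apply, SemiLocal.coe_normUnits, SemiLocal.coe_ofUnits,
    SemiLocal.norm_of, Padic.valuation_ratCast]
  rfl

end ratLocal

section pStep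

variable (p : ℕ) [hp : Fact p.Prime] (r : ℕ)

/-- `p^k · u` with `u ≡ 1 mod p^(r+1)` has trivial unit part modulo `p^(r+1)`. -/
lemma pLocal_eq_one_of_eq_zpow_mul (x : ℚ_[p]ˣ) (k : ℤ) (u : ℚ_[p])
    (h : (x : ℚ_[p]) = (p : ℚ_[p]) ^ k * u) (hu : ‖u - 1‖ ≤ (p : ℝ) ^ (-((r : ℤ) + 1))) :
    pLocal p (r + 1) x = 1 := by
  have hp0 : (p : ℚ_[p]) ≠ 0 := by exact_mod_cast hp.out.ne_zero
  have hpR : (1 : ℝ) < p := by exact_mod_cast hp.out.one_lt
  have hu1 : ‖u - 1‖ < 1 := by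
    refine hu.trans_lt ?_
    rw [zpow_neg]
    apply inv_lt_one_of_one_lt₀
    apply one_lt_zpow₀ hpR
    positivity
  have hun : ‖u‖ = 1 := norm_eq_one_of_norm_sub_one_lt p hu1
  have hu0 : u ≠ 0 := by rintro rfl; simp at hun
  have hval : (x : ℚ_[p]).valuation = k := by
    rw [h, Padic.valuation_mul (zpow_ne_zero _ hp0) hu0, Padic.valuation_zpow, Padic.valuation_p,
      padic_valuation_eq_zero_of_norm_eq_one hun]
    ring
  have hcoe : (((unitPart p x : ℤ_[p]ˣ) : ℤ_[p]) : ℚ_[p]) = u := by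
    rw [coe_unitPart, hval, h, mul_comm, ← mul_assoc, ← zpow_add₀ hp0, neg_add_cancel, zpow_zero,
      one_mul]
  have hU1 : (((unitPart p x : ℤ_[p]ˣ) : ℤ_[p]) - 1) ∈ Ideal.span {(p : ℤ_[p]) ^ (r + 1)} := by
    rw [← PadicInt.norm_le_pow_iff_mem_span_pow, PadicInt.norm_def]
    push_cast
    rw [hcoe]
    exact_mod_cast hu
  have hker : PadicInt.toZModPow (r + 1) (((unitPart p x : ℤ_[p]ˣ) : ℤ_[p]) - 1) = 0 := by
    rw [← RingHom.mem_ker, PadicInt.ker_toZModPow]
    exact hU1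
  apply Units.ext
  change (PadicInt.toZModPow (r + 1)) ((unitPart p x : ℤ_[p]ˣ) : ℤ_[p]) = 1
  rw [map_sub, map_one, sub_eq_zero] at hker
  exact hker

end pStep


section cycloGlobal

variable (p : ℕ) [hp : Fact p.Prime] (r : ℕ) {E : Type} [Field E] [NumberField E]
  [hE : IsCyclotomicExtension {p ^ (r + 1)} ℚ E]

/-- The norm of a prime of `ℚ(ζ_{p^(r+1)})` has trivial `ℓ`-component for every `ℓ ≠ p`. -/
lemma ratLocal_absNorm_eq_one (ℓ : Nat.Primes) (hℓ : (ℓ : ℕ) ≠ p) (v : HeightOneSpectrum (𝓞 E))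
    (U : ℚˣ) (hU : (U : ℚ) = ((Ideal.absNorm v.asIdeal : ℕ) : ℚ)) :
    ratLocal p (r + 1) ℓ U = 1 := by
  haveI := v.isPrime
  haveI : Fact (ℓ : ℕ).Prime := ⟨ℓ.2⟩
  obtain ⟨q, hq⟩ := exists_prime_mem v
  haveI : Fact (q : ℕ).Prime := ⟨q.2⟩
  obtain ⟨f, hf⟩ := G5c.absNorm_prime_eq_pow (q : ℕ) v.asIdeal v.ne_bot hq
  rw [ratLocal_apply, hU, hf]
  by_cases hqℓ : q = ℓ
  · subst hqℓ
    have hpv : (p : 𝓞 E) ∉ v.asIdeal := by
      intro hpv
      have := prime_mem_unique v hq (ℓ' := ⟨p, hp.out⟩) hpv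
      exact hℓ (congrArg Subtype.val this)
    have hmod := G5c.absNorm_prime_modEq_one p r v.asIdeal v.ne_bot hpv
    rw [hf] at hmod
    have h1 : padicValRat (q : ℕ) (((q : ℕ) ^ f : ℕ) : ℚ) = f := by
      rw [← padicValRat_of_nat, padicValNat.prime_pow]
    rw [h1, zpow_natCast]
    apply Units.ext
    rw [Units.val_pow_eq_pow_val, coe_awayUnit_of_ne p (r + 1) q hℓ, Units.val_one, ← Nat.cast_pow]
    have := (ZMod.natCast_eq_natCast_iff _ _ _).2 hmod
    rw [this, Nat.cast_one]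
  · have hne : (ℓ : ℕ) ≠ (q : ℕ) := fun h => hqℓ (Subtype.ext h).symm
    have h1 : padicValRat (ℓ : ℕ) (((q : ℕ) ^ f : ℕ) : ℚ) = 0 := by
      rw [← padicValRat_of_nat, padicValNat.pow, padicValNat_primes hne, mul_zero,
        Nat.cast_zero]
    rw [h1, zpow_zero]

/-- **Key global input for (W4)**: for `a ∈ ℚ(ζ_{p^(r+1)})ˣ` and `ℓ ≠ p`,
`ℓ^{v_ℓ(N a)} ≡ 1 mod p^(r+1)`. -/
theorem ratLocal_norm_eq_one (ℓ : Nat.Primes) (hℓ : (ℓ : ℕ) ≠ p) (a : Eˣ) :
    ratLocal p (r + 1) ℓ (Units.map (Algebra.norm ℚ : E →* ℚ) a) = 1 := by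
  classical
  have hfin := Crossing.finite_setOf_ordAt_ne_zero (K := E) a
  have habs := abs_norm_eq_finprod (K := E) (c := (a : E)) a.ne_zero
  rw [finprod_eq_prod_of_mulSupport_subset (s := hfin.toFinset)] at habs
  swap
  · intro v hv
    rw [Function.mem_mulSupport] at hv
    rw [Set.Finite.coe_toFinset, Set.mem_ofPred_eq]
    intro h0
    rw [h0, zpow_zero] at hv
    exact hv rfl
  -- units version
  have hne : ∀ v : HeightOneSpectrum (𝓞 E), ((Ideal.absNorm v.asIdeal : ℕ) : ℚ) ≠ 0 := by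
    intro v
    have : Ideal.absNorm v.asIdeal ≠ 0 := by
      rw [Ne, Ideal.absNorm_eq_zero_iff]; exact v.ne_bot
    exact_mod_cast this
  have hN0 : Algebra.norm ℚ (a : E) ≠ 0 := by
    rw [Ne, Algebra.norm_eq_zero_iff]; exact a.ne_zero
  have hunits : Units.mk0 |Algebra.norm ℚ (a : E)| (abs_ne_zero.2 hN0) =
      ∏ v ∈ hfin.toFinset, (Units.mk0 _ (hne v)) ^ ordAt E v.asIdeal (a : E) := by
    apply Units.ext
    rw [Units.val_mk0, habs, Units.coe_prod]
    refine Finset.prod_congr rfl fun v _ => ?_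
    rw [Units.val_zpow_eq_zpow_val, Units.val_mk0]
  have h1 : ratLocal p (r + 1) ℓ (Units.mk0 |Algebra.norm ℚ (a : E)| (abs_ne_zero.2 hN0)) = 1 := by
    rw [hunits, map_prod]
    refine Finset.prod_eq_one fun v _ => ?_
    rw [map_zpow, ratLocal_absNorm_eq_one p r ℓ hℓ v _ (Units.val_mk0 _), one_zpow]
  rw [ratLocal_apply] at h1 ⊢
  rw [Units.val_mk0] at h1
  rw [Units.coe_map]
  rcases abs_choice (Algebra.norm ℚ (a : E)) with h | h
  · rw [h] at h1; exact h1
  · rw [h, padicValRat.neg] at h1; exact h1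

end cycloGlobal


section W4

variable (p : ℕ) [hp : Fact p.Prime] (r : ℕ)

section cyclotomicField

variable {E : Type} [Field E] [NumberField E] [hE : IsCyclotomicExtension {p ^ (r + 1)} ℚ E]

include hE in
lemma awayLocal_normUnits_eq_one_of_cyclotomic (ℓ : Nat.Primes) (z : (SemiLocal ℓ E)ˣ) :
    awayLocal p (r + 1) ℓ (SemiLocal.normUnits ℓ E z) = 1 := by
  by_cases hℓ : (ℓ : ℕ) = p
  · rw [awayLocal_apply, awayUnit_self p (r + 1) ℓ hℓ, one_zpow]
  · obtain ⟨a, u, hu, rfl⟩ := SemiLocal.exists_ofUnits_mul_eq (ℓ : ℕ) E z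
    rw [map_mul, map_mul, awayLocal_normUnits_eq_one p (r + 1) E ℓ hu, mul_one,
      awayLocal_normUnits_ofUnits, ratLocal_norm_eq_one p r ℓ hℓ a]

include hE in
lemma pLocal_normUnits_eq_one_of_cyclotomic (hp2 : p ≠ 2) (z : (SemiLocal p E)ˣ) :
    pLocal p (r + 1) (SemiLocal.normUnits p E z) = 1 := by
  obtain ⟨k, u, h1, h2⟩ := G5c.semiLocal_norm_unit_eq p r hp2 z
  refine pLocal_eq_one_of_eq_zpow_mul p r _ k u h1 ?_
  convert h2 using 2

end cyclotomicField

variable {E L : Type} [Field E] [NumberField E] [hE : IsCyclotomicExtension {p ^ (r + 1)} ℚ E]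
  [Field L] [NumberField L] [Algebra E L]

/-- the relative norm on units of semi-local algebras -/
noncomputable def SemiLocal.relNormUnits (ℓ : ℕ) [Fact ℓ.Prime] (E L : Type) [Field E] [NumberField E]
    [Field L] [NumberField L] [Algebra E L] : (SemiLocal ℓ L)ˣ →* (SemiLocal ℓ E)ˣ :=
  Units.map (Algebra.norm (SemiLocal ℓ E) : SemiLocal ℓ L →* SemiLocal ℓ E)

lemma SemiLocal.normUnits_relNormUnits (ℓ : ℕ) [Fact ℓ.Prime] (z : (SemiLocal ℓ L)ˣ) :
    SemiLocal.normUnits ℓ E (SemiLocal.relNormUnits ℓ E L z) = SemiLocal.normUnits ℓ L z :=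
  Units.ext (SemiLocal.norm_relNorm ℓ (z : SemiLocal ℓ L))

include hE in
/-- **(W4)**: the cyclotomic Artin map modulo `p^(r+1)` is trivial on every number field containing
`ℚ(ζ_{p^(r+1)})` (`p` odd). -/
theorem cycloArtin_eq_one_of_cyclotomic (hp2 : p ≠ 2) (y : FinIdele L) :
    cycloArtin p (r + 1) L y = 1 := by
  have hA : awayPart p (r + 1) L y = 1 := by
    rw [awayPart_apply]
    refine finprod_eq_one_of_forall_eq_one fun ℓ => ?_
    rw [← SemiLocal.normUnits_relNormUnits (E := E) (ℓ : ℕ) (y ℓ)]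
    exact awayLocal_normUnits_eq_one_of_cyclotomic p r ℓ _
  have hP : pPart p (r + 1) L y = 1 := by
    rw [pPart_apply, ← SemiLocal.normUnits_relNormUnits (E := E) p (y ⟨p, hp.out⟩)]
    exact pLocal_normUnits_eq_one_of_cyclotomic p r hp2 _
  rw [cycloArtin_apply, hA, hP, inv_one, mul_one]

omit hE in
/-- **(W4)**, root-of-unity form. -/
theorem cycloArtin_eq_one_of_isPrimitiveRoot (hp2 : p ≠ 2) {ζ : L}
    (hζ : IsPrimitiveRoot ζ (p ^ (r + 1))) (y : FinIdele L) :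
    cycloArtin p (r + 1) L y = 1 := by
  haveI : NeZero (p ^ (r + 1)) := ⟨pow_ne_zero _ hp.out.ne_zero⟩
  haveI : IsCyclotomicExtension {p ^ (r + 1)} ℚ (IntermediateField.adjoin ℚ {ζ}) :=
    hζ.intermediateField_adjoin_isCyclotomicExtension ℚ
  exact cycloArtin_eq_one_of_cyclotomic p r (E := IntermediateField.adjoin ℚ {ζ}) hp2 y

end W4

section W5

variable (p : ℕ) [hp : Fact p.Prime] (n : ℕ) {F : Type*} [Field F] [NumberField F]

/-- **(W5')**: the value of the cyclotomic Artin map on an idele supported at one prime `ℓ ≠ p`. -/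
theorem cycloArtin_single (ℓ : Nat.Primes) (hℓ : (ℓ : ℕ) ≠ p) (z : (SemiLocal ℓ F)ˣ) :
    cycloArtin p n F (FinIdele.single ℓ z) =
      awayUnit p n ℓ ^ (Algebra.norm ℚ_[(ℓ : ℕ)] (z : SemiLocal ℓ F)).valuation := by
  have hA : awayPart p n F (FinIdele.single ℓ z) = awayLocal p n ℓ (SemiLocal.normUnits ℓ F z) :=
    FinIdele.finprodHom_single _ _ ℓ z
  have hne : (⟨p, hp.out⟩ : Nat.Primes) ≠ ℓ := fun h => hℓ (congrArg Subtype.val h).symm
  have hP : pPart p n F (FinIdele.single ℓ z) = 1 := by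
    rw [pPart_apply, FinIdele.single_apply_of_ne hne, map_one, map_one]
  rw [cycloArtin_apply, hA, hP, inv_one, mul_one, awayLocal_apply, SemiLocal.coe_normUnits]

/-- **(W5')** for global components: `ω(a at ℓ) = ℓ^{v_ℓ(N_{F/ℚ} a)}`. -/
theorem cycloArtin_single_ofUnits (ℓ : Nat.Primes) (hℓ : (ℓ : ℕ) ≠ p) (a : Fˣ) :
    cycloArtin p n F (FinIdele.single ℓ (SemiLocal.ofUnits ℓ a)) =
      awayUnit p n ℓ ^ padicValRat ℓ (Algebra.norm ℚ (a : F)) := by
  rw [cycloArtin_single p n ℓ hℓ, SemiLocal.coe_ofUnits, SemiLocal.norm_of, Padic.valuation_ratCast]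

/-- The value of the cyclotomic Artin map on an idele supported at `p`:
`ω(z at p) = ⟨N_p z⟩⁻¹`. -/
theorem cycloArtin_single_self (z : (SemiLocal p F)ˣ) :
    cycloArtin p n F (FinIdele.single ⟨p, hp.out⟩ z) =
      (pLocal p n (SemiLocal.normUnits p F z))⁻¹ := by
  have hA : awayPart p n F (FinIdele.single ⟨p, hp.out⟩ z) = 1 := by
    have := FinIdele.finprodHom_single
      (fun ℓ : Nat.Primes => (awayLocal p n ℓ).comp (SemiLocal.normUnits ℓ F))
      (Filter.Eventually.of_forall fun ℓ _ hu => awayLocal_normUnits_eq_one p n F ℓ hu)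
      ⟨p, hp.out⟩ z
    rw [awayPart, this, MonoidHom.comp_apply, awayLocal_apply, awayUnit_self p n ⟨p, hp.out⟩ rfl,
      one_zpow]
  have hP : pPart p n F (FinIdele.single ⟨p, hp.out⟩ z) =
      pLocal p n (SemiLocal.normUnits p F z) := by
    rw [pPart_apply, FinIdele.single_apply_same]
  rw [cycloArtin_apply, hA, hP, one_mul]

/-- The cyclotomic Artin map kills ideles which are units at all `ℓ ≠ p` and `1` at `p`. -/
theorem cycloArtin_eq_one_of_forall_mem_unitGroup (x : FinIdele F)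
    (hx : ∀ ℓ : Nat.Primes, x ℓ ∈ SemiLocal.unitGroup ℓ F) (hp1 : x ⟨p, hp.out⟩ = 1) :
    cycloArtin p n F x = 1 := by
  have hA : awayPart p n F x = 1 := by
    rw [awayPart_apply]
    exact finprod_eq_one_of_forall_eq_one fun ℓ => awayLocal_normUnits_eq_one p n F ℓ (hx ℓ)
  have hP : pPart p n F x = 1 := by
    rw [pPart_apply, hp1, map_one, map_one]
  rw [cycloArtin_apply, hA, hP, inv_one, mul_one]

end W5

end Fermat.Agent.CFT
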