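import Fermat.Agent.CFT.Global.CycloArtin_lead_Def

/-!
# CFT (PT4.d, part 4): functoriality of the cyclotomic Artin map and triviality on principal ideles

* `cycloArtin_eq_of_norm_eq`, `cycloArtin_eq_of_relNorm_eq`,
  **(W3)** `cycloArtin_eq_of_map_eq_prod_smul` (`ω_F(x) = ω_{F'}(y)` when `x` is the Galois product
  of `y`), `cycloArtin_map` (`ω_{F'}(ι x) = ω_F(x)^{[F':F]}`);
* **(W2)** `cycloArtin_diag`, `cycloArtin_diag_sq` (`ω_F` is trivial on `Fˣ` up to sign).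
-/

set_option autoImplicit false
set_option linter.unusedSectionVars false
set_option linter.style.haveILetI false

open scoped TensorProduct NumberField RestrictedProduct
open IsLocalRing

namespace Fermat.Agent.CFT

section functoriality

variable (p : ℕ) [hp : Fact p.Prime] (n : ℕ)

section general

variable {F F' : Type*} [Field F] [NumberField F] [Field F'] [NumberField F']

lemma awayPart_apply (x : FinIdele F) :
    awayPart p n F x = ∏ᶠ ℓ : Nat.Primes, awayLocal p n ℓ (SemiLocal.normUnits ℓ F (x ℓ)) := rfl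

lemma pPart_apply (x : FinIdele F) :
    pPart p n F x = pLocal p n (SemiLocal.normUnits p F (x ⟨p, hp.out⟩)) := rfl

/-- Ideles with the same local norms have the same image under the cyclotomic Artin map. -/
theorem cycloArtin_eq_of_normUnits_eq (x : FinIdele F) (y : FinIdele F')
    (h : ∀ ℓ : Nat.Primes, SemiLocal.normUnits ℓ F' (y ℓ) = SemiLocal.normUnits ℓ F (x ℓ)) :
    cycloArtin p n F' y = cycloArtin p n F x := by
  rw [cycloArtin_apply, cycloArtin_apply, awayPart_apply, awayPart_apply, pPart_apply, pPart_apply]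
  congr 1
  · exact finprod_congr fun ℓ => by rw [h ℓ]
  · rw [show SemiLocal.normUnits p F' (y ⟨p, hp.out⟩) = SemiLocal.normUnits p F (x ⟨p, hp.out⟩)
      from h ⟨p, hp.out⟩]

/-- Same, with the hypothesis on the underlying norms. -/
theorem cycloArtin_eq_of_norm_eq (x : FinIdele F) (y : FinIdele F')
    (h : ∀ ℓ : Nat.Primes, Algebra.norm ℚ_[(ℓ : ℕ)] ((y ℓ : (SemiLocal ℓ F')ˣ) : SemiLocal ℓ F') =
      Algebra.norm ℚ_[(ℓ : ℕ)] ((x ℓ : (SemiLocal ℓ F)ˣ) : SemiLocal ℓ F)) :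
    cycloArtin p n F' y = cycloArtin p n F x :=
  cycloArtin_eq_of_normUnits_eq p n x y fun ℓ => Units.ext (h ℓ)

end general

section tower

variable {F F' : Type*} [Field F] [NumberField F] [Field F'] [NumberField F'] [Algebra F F']

/-- **(W3)**, norm form: if `x` is componentwise the relative norm of `y` then
`ω_F(x) = ω_{F'}(y)`. -/
theorem cycloArtin_eq_of_relNorm_eq (x : FinIdele F) (y : FinIdele F')
    (h : ∀ ℓ : Nat.Primes, ((x ℓ : (SemiLocal ℓ F)ˣ) : SemiLocal ℓ F) =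
      @Algebra.norm (SemiLocal ℓ F) (SemiLocal ℓ F') _ _ (SemiLocal.relAlgebra ℓ F F')
        ((y ℓ : (SemiLocal ℓ F')ˣ) : SemiLocal ℓ F')) :
    cycloArtin p n F' y = cycloArtin p n F x := by
  refine cycloArtin_eq_of_norm_eq p n x y fun ℓ => ?_
  rw [h ℓ]
  exact (SemiLocal.norm_relNorm (ℓ : ℕ) _).symm

/-- **(W3)**, Galois-product form: if the image of `x ∈ J_F` in `J_{F'}` is the Galois product
of `y`, then `ω_F(x) = ω_{F'}(y)`. -/
theorem cycloArtin_eq_of_map_eq_prod_smul [IsGalois F F'] (x : FinIdele F) (y : FinIdele F')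
    (h : FinIdele.map (algebraMap F F') x = ∏ σ : F' ≃ₐ[F] F', σ • y) :
    cycloArtin p n F' y = cycloArtin p n F x := by
  refine cycloArtin_eq_of_norm_eq p n x y fun ℓ => ?_
  apply SemiLocal.norm_eq_of_prod_smul_eq_map
  have h1 := congrArg (fun z : FinIdele F' => ((z ℓ : (SemiLocal ℓ F')ˣ) : SemiLocal ℓ F')) h
  simp only [FinIdele.map_apply, SemiLocal.coe_unitsMap] at h1
  have h2 : ((∏ σ : F' ≃ₐ[F] F', σ • y : FinIdele F') ℓ) = ∏ σ : F' ≃ₐ[F] F', (σ • y) ℓ :=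
    map_prod (RestrictedProduct.evalMonoidHom (fun ℓ : Nat.Primes => (SemiLocal ℓ F')ˣ) ℓ) _ _
  rw [h2, Units.coe_prod] at h1
  rw [h1]
  rfl

/-- The cyclotomic Artin map of an idele coming from the subfield. -/
theorem cycloArtin_map (x : FinIdele F) :
    cycloArtin p n F' (FinIdele.map (algebraMap F F') x) =
      cycloArtin p n F x ^ Module.finrank F F' := by
  rw [← map_pow]
  refine cycloArtin_eq_of_norm_eq p n _ _ fun ℓ => ?_
  rw [FinIdele.map_apply, SemiLocal.coe_unitsMap, SemiLocal.norm_map]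
  have : ((x ^ Module.finrank F F' : FinIdele F) ℓ) = (x ℓ) ^ Module.finrank F F' :=
    map_pow (RestrictedProduct.evalMonoidHom (fun ℓ : Nat.Primes => (SemiLocal ℓ F)ˣ) ℓ) _ _
  rw [this, Units.val_pow_eq_pow_val, map_pow]

end tower

end functoriality



section diag

variable (p : ℕ) [hp : Fact p.Prime] (n : ℕ)

/-- The norm of `ℚ` over itself (for any algebra instance). -/
lemma norm_rat_self {inst : Algebra ℚ ℚ} (x : ℚ) : @Algebra.norm ℚ ℚ _ _ inst x = x := by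
  have h : inst = Algebra.id ℚ := Subsingleton.elim _ _
  subst h
  rw [Algebra.norm_self]
  rfl

/-- local norm of a diagonal idele. -/
lemma coe_normUnits_diag {F : Type*} [Field F] [NumberField F] (a : Fˣ) (ℓ : Nat.Primes) :
    ((SemiLocal.normUnits ℓ F (FinIdele.diag F a ℓ) : ℚ_[(ℓ : ℕ)]ˣ) : ℚ_[(ℓ : ℕ)]) =
      ((Algebra.norm ℚ (a : F) : ℚ) : ℚ_[(ℓ : ℕ)]) := by
  rw [SemiLocal.coe_normUnits, FinIdele.diag_apply, SemiLocal.coe_ofUnits, SemiLocal.norm_of]

lemma awayPart_diag {F : Type*} [Field F] [NumberField F] (a : Fˣ) :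
    awayPart p n F (FinIdele.diag F a) =
      ∏ᶠ ℓ : Nat.Primes, awayUnit p n ℓ ^ padicValRat ℓ (Algebra.norm ℚ (a : F)) := by
  rw [awayPart_apply]
  refine finprod_congr fun ℓ => ?_
  rw [awayLocal_apply, coe_normUnits_diag, Padic.valuation_ratCast]

lemma coe_unitPart_natCast_of_ne {m : ℕ} (hm : ¬ p ∣ m) (u : ℚ_[p]ˣ) (hu : (u : ℚ_[p]) = (m : ℚ_[p])) :
    ((unitPart p u : ℤ_[p]ˣ) : ℤ_[p]) = (m : ℤ_[p]) := by
  apply Subtype.ext
  rw [coe_unitPart, hu, Padic.valuation_natCast, padicValNat.eq_zero_of_not_dvd hm]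
  simp

lemma pLocal_natCast_of_ne {m : ℕ} (hm : ¬ p ∣ m) (u : ℚ_[p]ˣ) (hu : (u : ℚ_[p]) = (m : ℚ_[p])) :
    ((pLocal p n u : (ZMod (p ^ n))ˣ) : ZMod (p ^ n)) = (m : ZMod (p ^ n)) := by
  change (PadicInt.toZModPow n) ((unitPart p u : ℤ_[p]ˣ) : ℤ_[p]) = _
  rw [coe_unitPart_natCast_of_ne p hm u hu, map_natCast]

lemma pLocal_self (u : ℚ_[p]ˣ) (hu : (u : ℚ_[p]) = (p : ℚ_[p])) : pLocal p n u = 1 := by
  have hp0 : (p : ℚ_[p]) ≠ 0 := by exact_mod_cast hp.out.ne_zero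
  have h1 : unitPart p u = 1 := by
    apply Units.ext
    apply Subtype.ext
    rw [coe_unitPart, hu, Padic.valuation_p, zpow_neg, zpow_one, mul_inv_cancel₀ hp0]
    rfl
  rw [pLocal, MonoidHom.comp_apply, h1, map_one]

/-- The cyclotomic Artin map of `ℚ` on the diagonal ideles. -/
noncomputable def cycloArtinRat : ℚˣ →* (ZMod (p ^ n))ˣ :=
  (cycloArtin p n ℚ).comp (FinIdele.diag ℚ)

lemma awayPart_rat_prime (ℓ' : Nat.Primes) (u : ℚˣ) (hu : (u : ℚ) = ((ℓ' : ℕ) : ℚ)) :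
    awayPart p n ℚ (FinIdele.diag ℚ u) = awayUnit p n ℓ' := by
  haveI : Fact (ℓ' : ℕ).Prime := ⟨ℓ'.2⟩
  rw [awayPart_diag, finprod_eq_single _ ℓ']
  · rw [hu, norm_rat_self, ← padicValRat_of_nat,
      padicValNat_self, Nat.cast_one, zpow_one]
  · intro ℓ hne
    haveI : Fact (ℓ : ℕ).Prime := ⟨ℓ.2⟩
    have hne' : (ℓ : ℕ) ≠ (ℓ' : ℕ) := fun h => hne (Subtype.ext h)
    rw [hu, norm_rat_self, ← padicValRat_of_nat,
      padicValNat_primes hne', Nat.cast_zero, zpow_zero]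

lemma pPart_rat_prime (ℓ' : Nat.Primes) (u : ℚˣ) (hu : (u : ℚ) = ((ℓ' : ℕ) : ℚ)) :
    pPart p n ℚ (FinIdele.diag ℚ u) = awayUnit p n ℓ' := by
  rw [pPart_apply]
  have hv : ((SemiLocal.normUnits p ℚ (FinIdele.diag ℚ u ⟨p, hp.out⟩) : ℚ_[p]ˣ) : ℚ_[p]) =
      ((ℓ' : ℕ) : ℚ_[p]) := by
    have := coe_normUnits_diag (F := ℚ) u ⟨p, hp.out⟩
    rw [hu, norm_rat_self] at this
    rw [this]
    simp
  by_cases hℓ' : (ℓ' : ℕ) = p
  · rw [awayUnit_self p n ℓ' hℓ', pLocal_self p n _ (by rw [hv, hℓ'])]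
  · have hdvd : ¬ p ∣ (ℓ' : ℕ) := fun h => hℓ' ((Nat.prime_dvd_prime_iff_eq hp.out ℓ'.2).1 h).symm
    apply Units.ext
    rw [pLocal_natCast_of_ne p n hdvd _ hv, coe_awayUnit_of_ne p n ℓ' hℓ']

lemma cycloArtinRat_prime (ℓ' : Nat.Primes) :
    cycloArtinRat p n (Units.mk0 ((ℓ' : ℕ) : ℚ) (by exact_mod_cast ℓ'.2.ne_zero)) = 1 := by
  rw [cycloArtinRat, MonoidHom.comp_apply, cycloArtin_apply,
    awayPart_rat_prime p n ℓ' _ (Units.val_mk0 _), pPart_rat_prime p n ℓ' _ (Units.val_mk0 _),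
    mul_inv_cancel]

lemma cycloArtinRat_natCast (m : ℕ) (hm : m ≠ 0) :
    cycloArtinRat p n (Units.mk0 (m : ℚ) (by exact_mod_cast hm)) = 1 := by
  induction m using Nat.recOnMul with
  | zero => exact absurd rfl hm
  | one =>
    have : (Units.mk0 ((1 : ℕ) : ℚ) (by exact_mod_cast hm) : ℚˣ) = 1 := by
      apply Units.ext; simp
    rw [this, map_one]
  | prime q hq => exact cycloArtinRat_prime p n ⟨q, hq⟩
  | mul a b iha ihb =>
    have ha : a ≠ 0 := fun h => hm (by rw [h, zero_mul])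
    have hb : b ≠ 0 := fun h => hm (by rw [h, mul_zero])
    have : (Units.mk0 ((a * b : ℕ) : ℚ) (by exact_mod_cast hm) : ℚˣ) =
        Units.mk0 (a : ℚ) (by exact_mod_cast ha) * Units.mk0 (b : ℚ) (by exact_mod_cast hb) := by
      apply Units.ext; simp
    rw [this, map_mul, iha ha, ihb hb, one_mul]

/-- **(W2) for `ℚ`**: the cyclotomic Artin map is trivial on `ℚˣ`, up to sign. -/
theorem cycloArtinRat_sq (q : ℚˣ) : cycloArtinRat p n q ^ 2 = 1 := by
  have hN : (q : ℚ).num.natAbs ≠ 0 := Int.natAbs_ne_zero.2 (Rat.num_ne_zero.2 q.ne_zero)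
  have hD : (q : ℚ).den ≠ 0 := (q : ℚ).den_nz
  have h1 : q ^ 2 * (Units.mk0 (((q : ℚ).den : ℕ) : ℚ) (by exact_mod_cast hD)) ^ 2 =
      (Units.mk0 (((q : ℚ).num.natAbs : ℕ) : ℚ) (by exact_mod_cast hN)) ^ 2 := by
    apply Units.ext
    simp only [Units.val_mul, Units.val_pow_eq_pow_val, Units.val_mk0]
    have h2 : (((q : ℚ).num.natAbs : ℕ) : ℚ) ^ 2 = ((q : ℚ).num : ℚ) ^ 2 := by
      rw [← Int.cast_natCast, ← Int.cast_pow, Int.natAbs_sq, Int.cast_pow]
    rw [h2, ← mul_pow]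
    congr 1
    exact Rat.mul_den_eq_num (q : ℚ)
  have h3 := congrArg (cycloArtinRat p n) h1
  rw [map_mul, map_pow, map_pow, map_pow, cycloArtinRat_natCast p n _ hD,
    cycloArtinRat_natCast p n _ hN, one_pow, mul_one] at h3
  exact h3

/-- The cyclotomic Artin map of a principal idele is computed from the norm to `ℚ`. -/
theorem cycloArtin_diag {F : Type*} [Field F] [NumberField F] (a : Fˣ) :
    cycloArtin p n F (FinIdele.diag F a) =
      cycloArtinRat p n (Units.map (Algebra.norm ℚ : F →* ℚ) a) := by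
  rw [cycloArtinRat, MonoidHom.comp_apply]
  refine cycloArtin_eq_of_normUnits_eq p n _ _ fun ℓ => ?_
  apply Units.ext
  rw [coe_normUnits_diag, coe_normUnits_diag, Units.coe_map, norm_rat_self]

/-- **(W2)**: the cyclotomic Artin map is trivial on principal ideles, up to sign. -/
theorem cycloArtin_diag_sq {F : Type*} [Field F] [NumberField F] (a : Fˣ) :
    cycloArtin p n F (FinIdele.diag F a) ^ 2 = 1 := by
  rw [cycloArtin_diag, cycloArtinRat_sq]

end diag


end Fermat.Agent.CFT
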