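import Mathlib

/-!
# PT4(e), p-adic input: `1 + p^{r+1} ℤ_p ⊆ (ℤ_p^×)^{p^r (p-1)}` for odd `p`

* `padicInt_pow_prime_sub_one`: for `p` odd and `p ∣ y - 1`,
  `y ^ p - 1 = p * (y - 1) * (1 + (y - 1) * T)`;
* `norm_pow_prime_sub_one`: LTE, `‖y ^ p - 1‖ = p⁻¹ * ‖y - 1‖`;
* `exists_pow_prime_eq`: `p ^ (k + 1) ∣ x - 1`, `1 ≤ k` ⟹ `x = y ^ p` with `p ^ k ∣ y - 1`;
* `exists_pow_eq_of_not_dvd`: `p ∣ y - 1`, `¬ p ∣ n` ⟹ `y = z ^ n`;
* `exists_pow_eq_of_dvd_sub_one`: `p ^ (r + 1) ∣ x - 1` ⟹ `x = z ^ (p ^ r * (p - 1))`.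
-/

namespace Fermat.Agent.CFT.PT4

open Polynomial Finset

variable {p : ℕ} [hp : Fact p.Prime]

theorem padicInt_toZMod_eq_one_of_dvd {y : ℤ_[p]} (hy : (p : ℤ_[p]) ∣ y - 1) :
    PadicInt.toZMod y = 1 := by
  have h : y - 1 ∈ RingHom.ker (PadicInt.toZMod (p := p)) := by
    rw [PadicInt.ker_toZMod, PadicInt.maximalIdeal_eq_span_p, Ideal.mem_span_singleton]
    exact hy
  rw [RingHom.mem_ker, map_sub, map_one, sub_eq_zero] at h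
  exact h

theorem padicInt_dvd_of_toZMod_eq_zero {y : ℤ_[p]} (hy : PadicInt.toZMod y = 0) :
    (p : ℤ_[p]) ∣ y := by
  have h : y ∈ RingHom.ker (PadicInt.toZMod (p := p)) := hy
  rwa [PadicInt.ker_toZMod, PadicInt.maximalIdeal_eq_span_p, Ideal.mem_span_singleton] at h

theorem sum_range_prime_cast_zmod (hp2 : p ≠ 2) : (∑ i ∈ range p, (i : ZMod p)) = 0 := by
  have h2 : (∑ i ∈ range p, (i : ZMod p)) * 2 = 0 := by
    have := Finset.sum_range_id_mul_two p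
    have h3 : (((∑ i ∈ range p, i) * 2 : ℕ) : ZMod p) = ((p * (p - 1) : ℕ) : ZMod p) := by
      rw [this]
    push_cast at h3
    rw [h3]
    simp
  have hunit : (2 : ZMod p) ≠ 0 := by
    intro h
    have : ((2 : ℕ) : ZMod p) = 0 := by exact_mod_cast h
    rw [ZMod.natCast_eq_zero_iff] at this
    have := (Nat.prime_dvd_prime_iff_eq hp.out Nat.prime_two).mp this
    exact hp2 this
  exact (mul_eq_zero.mp h2).resolve_right hunit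

/-- For `p` odd and `y ≡ 1 mod p`: `y ^ p - 1 = p (y - 1) (1 + (y - 1) T)`. -/
theorem padicInt_pow_prime_sub_one (hp2 : p ≠ 2) {y : ℤ_[p]} (hy : (p : ℤ_[p]) ∣ y - 1) :
    ∃ T : ℤ_[p], y ^ p - 1 = (p : ℤ_[p]) * (y - 1) * (1 + (y - 1) * T) := by
  set T₀ : ℤ_[p] := ∑ i ∈ range p, ∑ j ∈ range i, y ^ j with hT₀
  have hy1 := padicInt_toZMod_eq_one_of_dvd hy
  have hT₀p : (p : ℤ_[p]) ∣ T₀ := by
    apply padicInt_dvd_of_toZMod_eq_zero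
    rw [hT₀, map_sum]
    simp only [map_sum, map_pow, hy1, one_pow, sum_const, card_range, nsmul_eq_mul, mul_one]
    exact sum_range_prime_cast_zmod hp2
  obtain ⟨T, hT⟩ := hT₀p
  refine ⟨T, ?_⟩
  have hS : (∑ i ∈ range p, y ^ i) = (p : ℤ_[p]) + T₀ * (y - 1) := by
    rw [hT₀, Finset.sum_mul]
    have : ∀ i ∈ range p, (∑ j ∈ range i, y ^ j) * (y - 1) = y ^ i - 1 := fun i _ =>
      geom_sum_mul y i
    rw [Finset.sum_congr rfl this]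
    simp
  rw [← geom_sum_mul y p, hS, hT]
  ring

theorem padicInt_norm_one_add_mul_of_dvd {s : ℤ_[p]} (hs : (p : ℤ_[p]) ∣ s) (T : ℤ_[p]) :
    ‖1 + s * T‖ = 1 := by
  have h1 : ‖s * T‖ < 1 := by
    rw [PadicInt.norm_lt_one_iff_dvd]
    exact Dvd.dvd.mul_right hs T
  have := PadicInt.norm_add_eq_max_of_ne (q := (1 : ℤ_[p])) (r := s * T)
    (by rw [norm_one]; exact (ne_of_lt h1).symm)
  rw [this, norm_one, max_eq_left h1.le]

/-- LTE for `ℤ_p`, `p` odd. -/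
theorem norm_pow_prime_sub_one (hp2 : p ≠ 2) {y : ℤ_[p]} (hy : (p : ℤ_[p]) ∣ y - 1) :
    ‖y ^ p - 1‖ = (p : ℝ)⁻¹ * ‖y - 1‖ := by
  obtain ⟨T, hT⟩ := padicInt_pow_prime_sub_one hp2 hy
  rw [hT, norm_mul, norm_mul, padicInt_norm_one_add_mul_of_dvd hy, mul_one, PadicInt.norm_p]

theorem padicInt_norm_eq_one_of_dvd_sub_one {y : ℤ_[p]} (hy : (p : ℤ_[p]) ∣ y - 1) : ‖y‖ = 1 := by
  have := padicInt_norm_one_add_mul_of_dvd hy 1
  rwa [mul_one, add_sub_cancel] at this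

/-- `p`-th roots: `x ≡ 1 mod p^{k+1}`, `k ≥ 1` ⟹ `x = y^p` with `y ≡ 1 mod p^k`. -/
theorem exists_pow_prime_eq (hp2 : p ≠ 2) {k : ℕ} (hk : 1 ≤ k) {x : ℤ_[p]}
    (hx : (p : ℤ_[p]) ^ (k + 1) ∣ x - 1) :
    ∃ y : ℤ_[p], y ^ p = x ∧ (p : ℤ_[p]) ^ k ∣ y - 1 := by
  obtain ⟨t, ht⟩ := hx
  set a : ℤ_[p] := 1 + (p : ℤ_[p]) ^ k * t with ha
  have ha1 : a - 1 = (p : ℤ_[p]) ^ k * t := by rw [ha]; ring
  have hpa : (p : ℤ_[p]) ∣ a - 1 := by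
    rw [ha1]
    exact Dvd.dvd.mul_right (dvd_pow_self _ (by omega)) t
  obtain ⟨T, hT⟩ := padicInt_pow_prime_sub_one hp2 hpa
  have hax : a ^ p - x = (p : ℤ_[p]) ^ (2 * k + 1) * (t ^ 2 * T) := by
    have hx' : x = 1 + (p : ℤ_[p]) ^ (k + 1) * t := by rw [← ht]; ring
    have : a ^ p = 1 + (p : ℤ_[p]) * (a - 1) * (1 + (a - 1) * T) := by rw [← hT]; ring
    rw [this, hx', ha1]
    ring
  have hp1 : (1 : ℝ) < p := by exact_mod_cast hp.out.one_lt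
  have hp0 : (0 : ℝ) < p := by linarith
  set F : ℤ_[p][X] := X ^ p - C x with hF
  have hFa : F.aeval a = a ^ p - x := by simp [hF]
  have hF'a : F.derivative.aeval a = (p : ℤ_[p]) * a ^ (p - 1) := by
    simp [hF, derivative_X_pow]
  have hnorma : ‖a‖ = 1 := padicInt_norm_eq_one_of_dvd_sub_one hpa
  have hnormF' : ‖F.derivative.aeval a‖ = (p : ℝ)⁻¹ := by
    rw [hF'a, norm_mul, norm_pow, hnorma, one_pow, mul_one, PadicInt.norm_p]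
  have hnorm : ‖F.aeval a‖ < ‖F.derivative.aeval a‖ ^ 2 := by
    rw [hnormF', hFa, hax, norm_mul]
    have h1 : ‖(p : ℤ_[p]) ^ (2 * k + 1)‖ ≤ (p : ℝ)⁻¹ ^ 3 := by
      rw [norm_pow, PadicInt.norm_p]
      apply pow_le_pow_of_le_one (by positivity) (inv_le_one_of_one_le₀ hp1.le) (by omega)
    have h2 : ‖t ^ 2 * T‖ ≤ 1 := PadicInt.norm_le_one _
    have h3 : (p : ℝ)⁻¹ ^ 3 < (p : ℝ)⁻¹ ^ 2 := by
      apply pow_lt_pow_right_of_lt_one₀ (by positivity) (inv_lt_one_of_one_lt₀ hp1) (by omega)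
    calc ‖(p : ℤ_[p]) ^ (2 * k + 1)‖ * ‖t ^ 2 * T‖ ≤ (p : ℝ)⁻¹ ^ 3 * 1 :=
          mul_le_mul h1 h2 (norm_nonneg _) (by positivity)
      _ < (p : ℝ)⁻¹ ^ 2 := by rw [mul_one]; exact h3
  obtain ⟨y, hy0, hya, -, -⟩ := hensels_lemma hnorm
  have hyx : y ^ p = x := by
    have : F.aeval y = y ^ p - x := by simp [hF]
    rw [this, sub_eq_zero] at hy0
    exact hy0
  have hpy : (p : ℤ_[p]) ∣ y - 1 := by
    have h1 : (p : ℤ_[p]) ∣ y - a := by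
      rw [← PadicInt.norm_lt_one_iff_dvd]
      rw [hnormF'] at hya
      exact lt_trans hya (inv_lt_one_of_one_lt₀ hp1)
    have : y - 1 = (y - a) + (a - 1) := by ring
    rw [this]
    exact dvd_add h1 hpa
  refine ⟨y, hyx, ?_⟩
  have hlte := norm_pow_prime_sub_one hp2 hpy
  rw [hyx] at hlte
  have hxn : ‖x - 1‖ ≤ (p : ℝ) ^ (-((k + 1 : ℕ)) : ℤ) := by
    rw [PadicInt.norm_le_pow_iff_mem_span_pow, Ideal.mem_span_singleton]
    exact ⟨t, ht⟩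
  have hyn : ‖y - 1‖ ≤ (p : ℝ) ^ (-(k : ℕ) : ℤ) := by
    have h1 : ‖y - 1‖ = (p : ℝ) * ‖x - 1‖ := by
      rw [hlte, ← mul_assoc, mul_inv_cancel₀ hp0.ne', one_mul]
    rw [h1]
    calc (p : ℝ) * ‖x - 1‖ ≤ (p : ℝ) * (p : ℝ) ^ (-((k + 1 : ℕ)) : ℤ) :=
          mul_le_mul_of_nonneg_left hxn hp0.le
      _ = (p : ℝ) ^ (-(k : ℕ) : ℤ) := by
          rw [← zpow_one_add₀ hp0.ne']
          congr 1
          push_cast
          ring
  rw [PadicInt.norm_le_pow_iff_mem_span_pow, Ideal.mem_span_singleton] at hyn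
  exact hyn

/-- Iterated `p`-th roots. -/
theorem exists_pow_prime_pow_eq (hp2 : p ≠ 2) (r : ℕ) {x : ℤ_[p]}
    (hx : (p : ℤ_[p]) ^ (r + 1) ∣ x - 1) :
    ∃ y : ℤ_[p], y ^ (p ^ r) = x ∧ (p : ℤ_[p]) ∣ y - 1 := by
  induction r generalizing x with
  | zero => exact ⟨x, by simp, by simpa using hx⟩
  | succ r ih =>
    obtain ⟨y₁, hy₁, hy₁'⟩ := exists_pow_prime_eq hp2 (k := r + 1) (by omega) hx
    obtain ⟨y, hy, hy'⟩ := ih hy₁'
    refine ⟨y, ?_, hy'⟩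
    rw [pow_succ, pow_mul, hy, hy₁]

/-- `n`-th roots for `p ∤ n` of elements `≡ 1 mod p`. -/
theorem exists_pow_eq_of_not_dvd {n : ℕ} (hn : ¬ p ∣ n) {y : ℤ_[p]}
    (hy : (p : ℤ_[p]) ∣ y - 1) : ∃ z : ℤ_[p], z ^ n = y := by
  set F : ℤ_[p][X] := X ^ n - C y with hF
  have hFa : F.aeval (1 : ℤ_[p]) = 1 - y := by simp [hF]
  have hF'a : F.derivative.aeval (1 : ℤ_[p]) = (n : ℤ_[p]) := by
    simp [hF, derivative_X_pow]
  have hn1 : ‖(n : ℤ_[p])‖ = 1 := by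
    apply le_antisymm (PadicInt.norm_le_one _)
    rw [← not_lt]
    intro h
    have : ‖((n : ℤ) : ℤ_[p])‖ < 1 := by simpa using h
    rw [PadicInt.norm_int_lt_one_iff_dvd] at this
    exact hn (by exact_mod_cast this)
  have hnorm : ‖F.aeval (1 : ℤ_[p])‖ < ‖F.derivative.aeval (1 : ℤ_[p])‖ ^ 2 := by
    rw [hFa, hF'a, hn1, one_pow, norm_sub_rev, PadicInt.norm_lt_one_iff_dvd]
    exact hy
  obtain ⟨z, hz0, -⟩ := hensels_lemma hnorm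
  refine ⟨z, ?_⟩
  have : F.aeval z = z ^ n - y := by simp [hF]
  rw [this, sub_eq_zero] at hz0
  exact hz0

/-- `1 + p^{r+1} ℤ_p ⊆ (ℤ_p)^{p^r (p-1)}` for odd `p`. -/
theorem exists_pow_eq_of_dvd_sub_one (hp2 : p ≠ 2) (r : ℕ) {x : ℤ_[p]}
    (hx : (p : ℤ_[p]) ^ (r + 1) ∣ x - 1) :
    ∃ z : ℤ_[p], z ^ (p ^ r * (p - 1)) = x := by
  obtain ⟨y, hy, hy'⟩ := exists_pow_prime_pow_eq hp2 r hx
  have hn : ¬ p ∣ p - 1 := by
    intro h
    have := Nat.le_of_dvd (by have := hp.out.two_le; omega) h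
    have := hp.out.two_le
    omega
  obtain ⟨z, hz⟩ := exists_pow_eq_of_not_dvd hn hy'
  refine ⟨z, ?_⟩
  rw [mul_comm, pow_mul, hz, hy]

/-- Units version. -/
theorem exists_units_pow_eq_of_dvd_sub_one (hp2 : p ≠ 2) (r : ℕ) (u : ℤ_[p]ˣ)
    (hu : (p : ℤ_[p]) ^ (r + 1) ∣ (u : ℤ_[p]) - 1) :
    ∃ z : ℤ_[p]ˣ, z ^ (p ^ r * (p - 1)) = u := by
  obtain ⟨z, hz⟩ := exists_pow_eq_of_dvd_sub_one hp2 r hu
  have hpos : p ^ r * (p - 1) ≠ 0 := by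
    have := hp.out.two_le
    have : 0 < p ^ r := pow_pos (by omega) r
    have : 0 < p - 1 := by omega
    positivity
  have hzu : IsUnit z := by
    have : IsUnit (z ^ (p ^ r * (p - 1))) := by rw [hz]; exact u.isUnit
    exact (isUnit_pow_iff hpos).mp this
  refine ⟨hzu.unit, ?_⟩
  ext
  simpa using hz

end Fermat.Agent.CFT.PT4
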