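import Fermat.Agent.CFT.Global.G6a_lead

/-!
# CFT (G5d): the product formula modulo `p^(r+1)` for norms from `ℚ(ζ_{p^(r+1)})`

`prod_zpow_eq_one_of_semiLocal_norm`: let `K = ℚ(ζ_p) ⊆ E = ℚ(ζ_{p^(r+1)})`, `p` odd. If `c ∈ Kˣ`
is, in `ℚ_p ⊗ E`, the relative Galois product `∏_{γ ∈ Gal(E/K)} γ y` of a unit `y`, then
`∏_{v ∤ p} (N v)^{ord_v c} ≡ 1 mod p^(r+1)`.

Ingredients: the decomposition of `Gal(E/ℚ)` along `Gal(E/K)` (`prod_smul_eq_prod_section_smul`),
so that `Algebra.norm ℚ_p y = N_{K/ℚ} c` (`norm_eq_of_prod_smul_eq`); the cyclotomic norm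
computation (G5c); the factorisation of `|N_{K/ℚ} c|` into norms of primes
(`abs_norm_eq_finprod`); and a `p`-adic comparison (`prod_zpow_eq_one_of_padic`).
-/

set_option autoImplicit false
set_option linter.unusedSectionVars false
set_option linter.style.haveILetI false

open scoped NumberField nonZeroDivisors TensorProduct
open IsDedekindDomain

namespace Fermat.Agent.CFT

section tower

variable {F K E : Type*} [Field F] [Field K] [Field E] [Algebra F K] [Algebra K E] [Algebra F E]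
  [IsScalarTower F K E] [FiniteDimensional F E] [FiniteDimensional F K] [FiniteDimensional K E]
  [IsGalois F E] [IsGalois F K]

/-- The Galois group of `E/F` is the product of (a section of) the Galois group of `K/F` and the
Galois group of `E/K`. -/
theorem bijective_section_mul_restrictScalars (s : (K ≃ₐ[F] K) → (E ≃ₐ[F] E))
    (hs : ∀ ρ, AlgEquiv.restrictNormalHom K (s ρ) = ρ) :
    Function.Bijective (fun p : (K ≃ₐ[F] K) × (E ≃ₐ[K] E) => s p.1 * p.2.restrictScalars F) := by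
  haveI : IsGalois K E := IsGalois.tower_top_of_isGalois F K E
  have hres : ∀ γ : E ≃ₐ[K] E, AlgEquiv.restrictNormalHom K (γ.restrictScalars F) = 1 := by
    intro γ
    ext x
    apply (algebraMap K E).injective
    change algebraMap K E ((γ.restrictScalars F).restrictNormal K x) = _
    rw [AlgEquiv.restrictNormal_commutes]
    simp
  have hinj : Function.Injective
      (fun p : (K ≃ₐ[F] K) × (E ≃ₐ[K] E) => s p.1 * p.2.restrictScalars F) := by
    rintro ⟨ρ, γ⟩ ⟨ρ', γ'⟩ h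
    simp only at h
    have h1 := congrArg (AlgEquiv.restrictNormalHom K) h
    rw [map_mul, map_mul, hs, hs, hres, hres, mul_one, mul_one] at h1
    subst h1
    have h2 : γ.restrictScalars F = γ'.restrictScalars F := mul_left_cancel h
    have h3 : γ = γ' := by
      ext x
      exact DFunLike.congr_fun h2 x
    rw [h3]
  refine (Fintype.bijective_iff_injective_and_card _).2 ⟨hinj, ?_⟩
  rw [Fintype.card_prod, ← Nat.card_eq_fintype_card, ← Nat.card_eq_fintype_card,
    ← Nat.card_eq_fintype_card, IsGalois.card_aut_eq_finrank, IsGalois.card_aut_eq_finrank,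
    IsGalois.card_aut_eq_finrank, Module.finrank_mul_finrank]

theorem prod_smul_eq_prod_section_smul {M : Type*} [CommMonoid M]
    [MulDistribMulAction (E ≃ₐ[F] E) M] (s : (K ≃ₐ[F] K) → (E ≃ₐ[F] E))
    (hs : ∀ ρ, AlgEquiv.restrictNormalHom K (s ρ) = ρ) (y : M) :
    ∏ τ : E ≃ₐ[F] E, τ • y =
      ∏ ρ : K ≃ₐ[F] K, s ρ • ∏ γ : E ≃ₐ[K] E, (γ.restrictScalars F) • y := by
  rw [← (Equiv.ofBijective _ (bijective_section_mul_restrictScalars s hs)).prod_comp,
    Fintype.prod_prod_type]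
  refine Finset.prod_congr rfl fun ρ _ => ?_
  rw [Finset.smul_prod']
  refine Finset.prod_congr rfl fun γ _ => ?_
  rw [Equiv.ofBijective_apply, mul_smul]

end tower

section normTower

variable (p : ℕ) [hp : Fact p.Prime] {K E : Type} [Field K] [NumberField K] [Field E]
  [NumberField E] [Algebra K E] [IsGalois ℚ K] [IsGalois ℚ E]

/-- From the relative Galois product to the absolute norm. -/
theorem norm_eq_of_prod_smul_eq (c : K) (y : SemiLocal p E)
    (hy : ∏ γ : E ≃ₐ[K] E, γ • y = SemiLocal.of p E (algebraMap K E c)) :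
    Algebra.norm ℚ_[p] y = ((Algebra.norm ℚ c : ℚ) : ℚ_[p]) := by
  classical
  haveI : FiniteDimensional K E := FiniteDimensional.right ℚ K E
  have hsurj : Function.Surjective (AlgEquiv.restrictNormalHom (F := ℚ) (K₁ := E) K) :=
    AlgEquiv.restrictNormalHom_surjective E
  choose s hs using hsurj
  have h1 := prod_smul_eq_prod_section_smul (F := ℚ) (K := K) (E := E) (M := SemiLocal p E) s hs y
  have h2 : ∀ γ : E ≃ₐ[K] E, (γ.restrictScalars ℚ) • y = γ • y := by
    intro γ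
    rw [SemiLocal.smul_def, SemiLocal.smul_def]
    congr 1
  simp only [h2] at h1
  rw [hy] at h1
  have h3 : ∀ ρ : K ≃ₐ[ℚ] K, s ρ • SemiLocal.of p E (algebraMap K E c) =
      SemiLocal.of p E (algebraMap K E (ρ c)) := by
    intro ρ
    rw [SemiLocal.smul_of]
    congr 1
    have := AlgEquiv.restrictNormal_commutes (s ρ) K c
    have h4 : (s ρ).restrictNormal K = ρ := hs ρ
    rw [h4] at this
    exact this.symm
  simp only [h3] at h1
  rw [← map_prod, ← map_prod, ← Algebra.norm_eq_prod_automorphisms,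
    G5c.semiLocal_prod_smul_eq_norm] at h1
  have h5 : SemiLocal.of p E (algebraMap K E (algebraMap ℚ K (Algebra.norm ℚ c))) =
      algebraMap ℚ_[p] (SemiLocal p E) ((Algebra.norm ℚ c : ℚ) : ℚ_[p]) := by
    rw [← IsScalarTower.algebraMap_apply, SemiLocal.of_apply,
      Algebra.TensorProduct.algebraMap_apply, Algebra.algebraMap_self_apply,
      Algebra.algebraMap_eq_smul_one, TensorProduct.tmul_smul, TensorProduct.smul_tmul',
      Algebra.smul_def, mul_one]
    rfl
  rw [h5] at h1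
  haveI : Nontrivial (SemiLocal p E) := (SemiLocal.of_injective p E).nontrivial
  exact (algebraMap ℚ_[p] (SemiLocal p E)).injective h1

end normTower

section globalNorm

variable {K : Type} [Field K] [NumberField K]

/-- The absolute value of the norm of `c ∈ Kˣ` is the product of the norms of the primes to the
powers of the valuations. -/
theorem abs_norm_eq_finprod {c : K} (hc : c ≠ 0) :
    |Algebra.norm ℚ c| = ∏ᶠ v : HeightOneSpectrum (𝓞 K),
      ((Ideal.absNorm v.asIdeal : ℕ) : ℚ) ^ (ordAt K v.asIdeal c) := by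
  have hI : FractionalIdeal.spanSingleton (𝓞 K)⁰ c ≠ 0 :=
    FractionalIdeal.spanSingleton_ne_zero_iff.2 hc
  have hfact := FractionalIdeal.finprod_heightOneSpectrum_factorization' (K := K) hI
  have hfin : (Function.mulSupport fun v : HeightOneSpectrum (𝓞 K) =>
      (v.asIdeal : FractionalIdeal (𝓞 K)⁰ K) ^
        FractionalIdeal.count K v (FractionalIdeal.spanSingleton (𝓞 K)⁰ c)).Finite := by
    have := FractionalIdeal.finite_factors (K := K) (FractionalIdeal.spanSingleton (𝓞 K)⁰ c)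
    rw [Filter.eventually_cofinite] at this
    refine this.subset ?_
    intro v hv h0
    rw [Function.mem_mulSupport] at hv
    apply hv
    rw [h0, zpow_zero]
  have h1 := MonoidHom.map_finprod
    (FractionalIdeal.absNorm (R := 𝓞 K) (K := K)).toMonoidHom hfin
  rw [hfact] at h1
  have h2 : FractionalIdeal.absNorm (FractionalIdeal.spanSingleton (𝓞 K)⁰ c) =
      |Algebra.norm ℚ c| := FractionalIdeal.absNorm_span_singleton (R := 𝓞 K) c
  rw [← h2]
  refine h1.trans (finprod_congr fun v => ?_)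
  change FractionalIdeal.absNorm ((v.asIdeal : FractionalIdeal (𝓞 K)⁰ K) ^ _) = _
  rw [map_zpow₀, FractionalIdeal.coeIdeal_absNorm, count_spanSingleton v hc, ordAt_heightOne]

end globalNorm

section padicStep

variable (p : ℕ) [hp : Fact p.Prime] (r : ℕ)

lemma exists_zpow_eq_prod_zpow {ι : Type*} {G₀ : Type*} [CommGroupWithZero G₀] {x : G₀} (hx : x ≠ 0)
    (s : Finset ι) (n : ι → ℤ) : ∃ A : ℤ, ∏ v ∈ s, x ^ n v = x ^ A := by
  classical
  induction s using Finset.induction_on with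
  | empty => exact ⟨0, by simp⟩
  | insert v s hv ih =>
    obtain ⟨A, hA⟩ := ih
    exact ⟨n v + A, by rw [Finset.prod_insert hv, hA, zpow_add₀ hx]⟩

/-- An element of `ℚ_p` congruent to `1` modulo `p` has norm `1`. -/
lemma norm_eq_one_of_norm_sub_one_lt {u : ℚ_[p]} (hu : ‖u - 1‖ < 1) : ‖u‖ = 1 := by
  have h1 : u = (u - 1) + 1 := by ring
  have h2 : ‖u - 1‖ ≠ ‖(1 : ℚ_[p])‖ := by rw [norm_one]; exact hu.ne
  rw [h1, Padic.add_eq_max_of_ne h2, norm_one, max_eq_right hu.le]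

/-- The `p`-adic core of (G5d). -/
theorem prod_zpow_eq_one_of_padic {ι : Type*} (s : Finset ι) (a : ι → ℕ) (e : ι → ℤ)
    (isP : ι → Prop) [DecidablePred isP]
    (ha1 : ∀ v ∈ s, isP v → ∃ f : ℕ, a v = p ^ f)
    (ha2 : ∀ v ∈ s, ¬ isP v → ¬ p ∣ a v)
    (N : ι → (ZMod (p ^ (r + 1)))ˣ)
    (hN : ∀ v ∈ s, ¬ isP v →
      ((N v : (ZMod (p ^ (r + 1)))ˣ) : ZMod (p ^ (r + 1))) = (a v : ZMod (p ^ (r + 1))))
    (hN1 : ∀ v ∈ s, isP v → N v = 1)
    (q : ℚ) (hq : q = ∏ v ∈ s, (a v : ℚ) ^ e v)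
    (k : ℤ) (u : ℚ_[p]) (hu : ‖u - 1‖ ≤ (p : ℝ) ^ (-((r : ℤ) + 1)))
    (hqu : (q : ℚ_[p]) = (p : ℚ_[p]) ^ k * u) :
    ∏ v ∈ s, N v ^ e v = 1 := by
  classical
  have hp0 : (p : ℚ_[p]) ≠ 0 := by exact_mod_cast hp.out.ne_zero
  have hpR : (1 : ℝ) < p := by exact_mod_cast hp.out.one_lt
  -- the `p`-adic units `g v`
  have hunit : ∀ v, v ∈ s → ¬ isP v → IsUnit ((a v : ℕ) : ℤ_[p]) := by
    intro v hv hvP
    rw [PadicInt.isUnit_iff, PadicInt.norm_natCast_eq_one_iff]
    exact (Nat.Prime.coprime_iff_not_dvd hp.out).2 (ha2 v hv hvP)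
  let g : ι → (ℤ_[p])ˣ := fun v =>
    if h : v ∈ s ∧ ¬ isP v then (hunit v h.1 h.2).unit else 1
  have hg : ∀ v ∈ s, ¬ isP v → ((g v : (ℤ_[p])ˣ) : ℤ_[p]) = (a v : ℤ_[p]) := by
    intro v hv hvP
    simp only [g, dif_pos (And.intro hv hvP), IsUnit.unit_spec]
  have hg1 : ∀ v ∈ s, isP v → g v = 1 := by
    intro v hv hvP
    simp only [g, dif_neg (fun h : v ∈ s ∧ ¬ isP v => h.2 hvP)]
  set U : (ℤ_[p])ˣ := ∏ v ∈ s, g v ^ e v with hU
  -- (a) the image of `U` in `ZMod (p^(r+1))`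
  have hmap : Units.map ((PadicInt.toZModPow (r + 1) : ℤ_[p] →+* ZMod (p ^ (r + 1))) :
      ℤ_[p] →* ZMod (p ^ (r + 1))) U = ∏ v ∈ s, N v ^ e v := by
    rw [hU, map_prod]
    refine Finset.prod_congr rfl fun v hv => ?_
    rw [map_zpow]
    congr 1
    by_cases hvP : isP v
    · rw [hg1 v hv hvP, hN1 v hv hvP, map_one]
    · apply Units.ext
      rw [Units.coe_map, MonoidHom.coe_coe, hg v hv hvP, map_natCast, hN v hv hvP]
  -- the units of `ℚ_p`
  let ψ : (ℤ_[p])ˣ →* (ℚ_[p])ˣ := Units.map (PadicInt.Coe.ringHom : ℤ_[p] →+* ℚ_[p])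
  have hψ : ∀ x : (ℤ_[p])ˣ, ((ψ x : (ℚ_[p])ˣ) : ℚ_[p]) = ((x : ℤ_[p]) : ℚ_[p]) := fun _ => rfl
  choose! f hf using ha1
  -- (c) `q = p^A * U` in `ℚ_p`
  obtain ⟨A, hA⟩ := exists_zpow_eq_prod_zpow hp0 s
    (fun v => if isP v then (f v : ℤ) * e v else 0)
  have hqU : (q : ℚ_[p]) = (p : ℚ_[p]) ^ A * ((U : ℤ_[p]) : ℚ_[p]) := by
    rw [← hA, ← hψ U, hU, map_prod, Units.coe_prod, ← Finset.prod_mul_distrib, hq]
    push_cast
    refine Finset.prod_congr rfl fun v hv => ?_
    rw [map_zpow, Units.val_zpow_eq_zpow_val, hψ]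
    by_cases hvP : isP v
    · rw [if_pos hvP, hg1 v hv hvP, hf v hv hvP]
      simp only [Units.val_one, PadicInt.coe_one, one_zpow, mul_one]
      rw [zpow_mul, zpow_natCast]
      push_cast
      rfl
    · rw [if_neg hvP, zpow_zero, one_mul, hg v hv hvP]
      simp
  -- (d) compare norms
  have hu1 : ‖u - 1‖ < 1 := by
    refine hu.trans_lt ?_
    rw [zpow_neg]
    apply inv_lt_one_of_one_lt₀
    apply one_lt_zpow₀ hpR
    positivity
  have hun : ‖u‖ = 1 := norm_eq_one_of_norm_sub_one_lt p hu1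
  have hUn : ‖((U : ℤ_[p]) : ℚ_[p])‖ = 1 := by
    rw [← PadicInt.norm_def]; exact PadicInt.norm_units U  -- check name
  have hAk : A = k := by
    have h1 := congrArg (‖·‖) (hqU.symm.trans hqu)
    simp only [norm_mul, norm_zpow, Padic.norm_p, hUn, hun, mul_one] at h1
    have h2 : ((p : ℝ)⁻¹) ^ A = ((p : ℝ)⁻¹) ^ k := h1
    rw [inv_zpow', inv_zpow'] at h2
    have := zpow_right_injective₀ (by positivity : (0 : ℝ) < p) hpR.ne' h2
    omega
  have hUu : ((U : ℤ_[p]) : ℚ_[p]) = u := by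
    have h1 := hqU.symm.trans hqu
    rw [hAk] at h1
    exact mul_left_cancel₀ (zpow_ne_zero _ hp0) h1
  -- (e) `U ≡ 1 mod p^(r+1)`
  have hU1 : ((U : ℤ_[p]) - 1) ∈ Ideal.span {(p : ℤ_[p]) ^ (r + 1)} := by
    rw [← PadicInt.norm_le_pow_iff_mem_span_pow, PadicInt.norm_def]
    push_cast
    rw [hUu]
    exact_mod_cast hu
  have hker : PadicInt.toZModPow (r + 1) ((U : ℤ_[p]) - 1) = 0 := by
    rw [← RingHom.mem_ker, PadicInt.ker_toZModPow]
    exact hU1
  rw [← hmap]
  apply Units.ext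
  rw [Units.coe_map, MonoidHom.coe_coe, Units.val_one]
  rw [map_sub, map_one, sub_eq_zero] at hker
  exact hker

end padicStep

section G5d

/-- A prime number dividing the norm of a prime ideal lies in it. -/
lemma natCast_mem_of_dvd_absNorm {K : Type} [Field K] [NumberField K]
    (v : HeightOneSpectrum (𝓞 K)) {p : ℕ} (hp : p.Prime) (h : p ∣ Ideal.absNorm v.asIdeal) :
    (p : 𝓞 K) ∈ v.asIdeal := by
  obtain ⟨q, hq⟩ := exists_prime_mem v
  haveI : Fact (q : ℕ).Prime := ⟨q.2⟩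
  haveI := v.isPrime
  obtain ⟨f, hf⟩ := G5c.absNorm_prime_eq_pow (q : ℕ) v.asIdeal v.ne_bot hq
  rw [hf] at h
  have := (Nat.prime_dvd_prime_iff_eq hp q.2).1 (hp.dvd_of_dvd_pow h)
  rw [this]
  exact hq

/-- **(G5d)** the product formula modulo `p^(r+1)`. -/
theorem prod_zpow_eq_one_of_semiLocal_norm (p : ℕ) [hp : Fact p.Prime] (hp2 : p ≠ 2) (r : ℕ)
    (K E : Type) [Field K] [NumberField K] [IsCyclotomicExtension {p} ℚ K] [Field E]
    [NumberField E] [IsCyclotomicExtension {p ^ (r + 1)} ℚ E] [Algebra K E] (c : Kˣ)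
    (y : (SemiLocal p E)ˣ)
    (hy : ∏ γ : E ≃ₐ[K] E, γ • (y : SemiLocal p E) = SemiLocal.of p E (algebraMap K E c))
    (N : HeightOneSpectrum (𝓞 K) → (ZMod (p ^ (r + 1)))ˣ)
    (hN : ∀ v : HeightOneSpectrum (𝓞 K), (p : 𝓞 K) ∉ v.asIdeal →
      ((N v : (ZMod (p ^ (r + 1)))ˣ) : ZMod (p ^ (r + 1))) =
        (Ideal.absNorm v.asIdeal : ZMod (p ^ (r + 1))))
    (hN1 : ∀ v : HeightOneSpectrum (𝓞 K), (p : 𝓞 K) ∈ v.asIdeal → N v = 1) :
    ∏ᶠ v : HeightOneSpectrum (𝓞 K), N v ^ ordAt K v.asIdeal (c : K) = 1 := by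
  classical
  haveI : IsGalois ℚ K := IsCyclotomicExtension.isGalois {p} ℚ K
  haveI : IsGalois ℚ E := IsCyclotomicExtension.isGalois {p ^ (r + 1)} ℚ E
  have h3 : 2 < p := by
    have := hp.out.two_le
    omega
  haveI : NumberField.IsTotallyComplex K := IsCyclotomicExtension.Rat.isTotallyComplex K h3
  have hc0 : (c : K) ≠ 0 := c.ne_zero
  -- the norm of `c`
  have hpos : (0 : ℚ) < Algebra.norm ℚ (c : K) := G5c.norm_pos_of_isTotallyComplex hc0
  have hnorm := norm_eq_of_prod_smul_eq p (c : K) (y : SemiLocal p E) hy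
  obtain ⟨k, u, hku, hu⟩ := G5c.norm_unit_eq p r hp2 y
  rw [hnorm] at hku
  -- the support
  have hfin : {v : HeightOneSpectrum (𝓞 K) | ordAt K v.asIdeal (c : K) ≠ 0}.Finite := by
    have := FractionalIdeal.finite_factors (K := K) (FractionalIdeal.spanSingleton (𝓞 K)⁰ (c : K))
    rw [Filter.eventually_cofinite] at this
    refine this.subset ?_
    intro v hv
    simp only [Set.mem_setOf_eq] at hv ⊢
    rwa [count_spanSingleton v hc0, ← ordAt_heightOne]
  set s := hfin.toFinset with hs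
  have hprod : Algebra.norm ℚ (c : K) =
      ∏ v ∈ s, ((Ideal.absNorm v.asIdeal : ℕ) : ℚ) ^ (ordAt K v.asIdeal (c : K)) := by
    rw [← abs_of_pos hpos, abs_norm_eq_finprod hc0]
    refine finprod_eq_prod_of_mulSupport_subset _ ?_
    intro v hv
    rw [Function.mem_mulSupport] at hv
    rw [hs, Set.Finite.coe_toFinset, Set.mem_setOf_eq]
    intro h0
    rw [h0, zpow_zero] at hv
    exact hv rfl
  have hgoal : ∏ᶠ v : HeightOneSpectrum (𝓞 K), N v ^ ordAt K v.asIdeal (c : K) =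
      ∏ v ∈ s, N v ^ ordAt K v.asIdeal (c : K) := by
    refine finprod_eq_prod_of_mulSupport_subset _ ?_
    intro v hv
    rw [Function.mem_mulSupport] at hv
    rw [hs, Set.Finite.coe_toFinset, Set.mem_setOf_eq]
    intro h0
    rw [h0, zpow_zero] at hv
    exact hv rfl
  rw [hgoal]
  refine prod_zpow_eq_one_of_padic p r s (fun v => Ideal.absNorm v.asIdeal)
    (fun v => ordAt K v.asIdeal (c : K)) (fun v => (p : 𝓞 K) ∈ v.asIdeal) ?_ ?_ N ?_ ?_
    (Algebra.norm ℚ (c : K)) hprod k u ?_ hku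
  · intro v _ hv
    haveI := v.isPrime
    exact G5c.absNorm_prime_eq_pow p v.asIdeal v.ne_bot hv
  · intro v _ hv hdvd
    exact hv (natCast_mem_of_dvd_absNorm v hp.out hdvd)
  · intro v _ hv
    exact hN v hv
  · intro v _ hv
    exact hN1 v hv
  · exact hu

end G5d

end Fermat.Agent.CFT
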