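/-
CFT global part, S55 package PT4 (e), helper2: semi-local norms in towers.

* `isSemiLocalNorm_of_tower`: for `K ⊆ F ⊆ E` (all Galois over `K`), a semi-local norm from `E`
  is a semi-local norm from `F` (transitivity of the norm, in Galois-product form);
* `isSemiLocalNorm_mul`, `isSemiLocalNorm_inv`, `isSemiLocalNorm_pow`, `isSemiLocalNorm_zpow`:
  the semi-local norms form a subgroup;
* `isSemiLocalNorm_of_coprime`: if `b ^ m` and `b ^ n` are norms with `m`, `n` coprime, so is `b`.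
-/
import Fermat.Agent.CFT.Global.G5d_lead
import Fermat.Agent.CFT.Global.T5_helper9_NonNorm
import Fermat.Agent.CFT.Global.G01_helper7_Invariants

set_option autoImplicit false
set_option linter.unusedSectionVars false
set_option linter.style.haveILetI false

open scoped NumberField

namespace Fermat.Agent.CFT.PT4

section group

variable (K L : Type) [Field K] [CharZero K] [Field L] [CharZero L] [Algebra K L]
  [FiniteDimensional K L] (ℓ : ℕ) [Fact ℓ.Prime]

theorem isSemiLocalNorm_one : IsSemiLocalNorm K L ℓ 1 :=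
  ⟨1, by simp⟩

variable {K L ℓ}

theorem isSemiLocalNorm_mul {b c : (SemiLocal ℓ K)ˣ} (hb : IsSemiLocalNorm K L ℓ b)
    (hc : IsSemiLocalNorm K L ℓ c) : IsSemiLocalNorm K L ℓ (b * c) := by
  obtain ⟨y, hy⟩ := hb
  obtain ⟨z, hz⟩ := hc
  refine ⟨y * z, ?_⟩
  simp only [smul_mul']
  rw [Finset.prod_mul_distrib, hy, hz, map_mul]

theorem isSemiLocalNorm_inv {b : (SemiLocal ℓ K)ˣ} (hb : IsSemiLocalNorm K L ℓ b) :
    IsSemiLocalNorm K L ℓ b⁻¹ := by
  obtain ⟨y, hy⟩ := hb
  refine ⟨y⁻¹, ?_⟩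
  simp only [smul_inv']
  rw [Finset.prod_inv_distrib, hy, map_inv]

theorem isSemiLocalNorm_pow {b : (SemiLocal ℓ K)ˣ} (hb : IsSemiLocalNorm K L ℓ b) (n : ℕ) :
    IsSemiLocalNorm K L ℓ (b ^ n) := by
  induction n with
  | zero => rw [pow_zero]; exact isSemiLocalNorm_one K L ℓ
  | succ n ih => rw [pow_succ]; exact isSemiLocalNorm_mul ih hb

theorem isSemiLocalNorm_zpow {b : (SemiLocal ℓ K)ˣ} (hb : IsSemiLocalNorm K L ℓ b) (n : ℤ) :
    IsSemiLocalNorm K L ℓ (b ^ n) := by
  cases n with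
  | ofNat n => rw [Int.ofNat_eq_natCast, zpow_natCast]; exact isSemiLocalNorm_pow hb n
  | negSucc n => rw [zpow_negSucc]; exact isSemiLocalNorm_inv (isSemiLocalNorm_pow hb _)

/-- if `b ^ m` and `b ^ n` are norms with `m`, `n` coprime, then `b` is a norm. -/
theorem isSemiLocalNorm_of_coprime {b : (SemiLocal ℓ K)ˣ} {m n : ℕ} (hmn : m.Coprime n)
    (hm : IsSemiLocalNorm K L ℓ (b ^ m)) (hn : IsSemiLocalNorm K L ℓ (b ^ n)) :
    IsSemiLocalNorm K L ℓ b := by
  have h1 : (m : ℤ) * Nat.gcdA m n + n * Nat.gcdB m n = 1 := by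
    have := Nat.gcd_eq_gcd_ab m n
    rw [hmn] at this
    exact_mod_cast this.symm
  have h2 : b = (b ^ m) ^ (Nat.gcdA m n) * (b ^ n) ^ (Nat.gcdB m n) := by
    rw [← zpow_natCast, ← zpow_natCast, ← zpow_mul, ← zpow_mul, ← zpow_add, h1, zpow_one]
  rw [h2]
  exact isSemiLocalNorm_mul (isSemiLocalNorm_zpow hm _) (isSemiLocalNorm_zpow hn _)

end group

section tower

variable (K F E : Type) [Field K] [NumberField K] [Field F] [NumberField F] [Field E]
  [NumberField E] [Algebra K F] [Algebra K E] [Algebra F E] [IsScalarTower K F E]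
  [IsGalois K F] [IsGalois K E] (ℓ : ℕ) [Fact ℓ.Prime]

/-- the inclusion of semi-local units is equivariant along a lift of Galois elements -/
theorem unitsMap_smul_of_restrictNormal (τ : E ≃ₐ[K] E) (y : (SemiLocal ℓ F)ˣ) :
    SemiLocal.unitsMap ℓ (algebraMap F E) (AlgEquiv.restrictNormalHom F τ • y) =
      τ • SemiLocal.unitsMap ℓ (algebraMap F E) y := by
  apply Units.ext
  rw [SemiLocal.coe_unitsMap, SemiLocal.coe_smul_units, SemiLocal.coe_smul_units,
    SemiLocal.coe_unitsMap, SemiLocal.smul_def, SemiLocal.smul_def, SemiLocal.map_map,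
    SemiLocal.map_map]
  congr 2
  ext x
  exact AlgEquiv.restrictNormal_commutes τ F x

/-- **transitivity**: a semi-local norm from the bigger field is a semi-local norm from the
intermediate field. -/
theorem isSemiLocalNorm_of_tower {b : (SemiLocal ℓ K)ˣ} (h : IsSemiLocalNorm K E ℓ b) :
    IsSemiLocalNorm K F ℓ b := by
  classical
  haveI : IsGalois F E := IsGalois.tower_top_of_isGalois K F E
  obtain ⟨z, hz⟩ := h
  have hsurj : Function.Surjective (AlgEquiv.restrictNormalHom (F := K) (K₁ := E) F) :=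
    AlgEquiv.restrictNormalHom_surjective E
  choose s hs using hsurj
  -- the relative norm of `z`
  set w : (SemiLocal ℓ E)ˣ := ∏ γ : E ≃ₐ[F] E, γ • z with hw
  have hwfix : ∀ γ : E ≃ₐ[F] E, γ • w = w := by
    intro γ
    rw [hw, Finset.smul_prod']
    simp only [← mul_smul]
    exact Fintype.prod_equiv (Equiv.mulLeft γ) _ _ (fun _ => rfl)
  obtain ⟨y, hy⟩ := (SemiLocal.units_mem_range_unitsMap_iff_fixed ℓ F E).mpr hwfix
  refine ⟨y, ?_⟩
  apply SemiLocal.unitsMap_injective ℓ F E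
  rw [map_prod]
  have h1 : ∀ ρ : F ≃ₐ[K] F, SemiLocal.unitsMap ℓ (algebraMap F E) (ρ • y) = s ρ • w := by
    intro ρ
    conv_lhs => rw [← hs ρ]
    rw [unitsMap_smul_of_restrictNormal, hy]
  simp only [h1]
  have h2 : ∀ γ : E ≃ₐ[F] E, (γ.restrictScalars K) • z = γ • z := by
    intro γ
    apply Units.ext
    rw [SemiLocal.coe_smul_units, SemiLocal.coe_smul_units, SemiLocal.smul_def, SemiLocal.smul_def]
    congr 1
  have h3 := prod_smul_eq_prod_section_smul (F := K) (K := F) (E := E)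
    (M := (SemiLocal ℓ E)ˣ) s hs z
  simp only [h2] at h3
  rw [← hw] at h3
  rw [← h3, hz]
  apply Units.ext
  rw [SemiLocal.coe_unitsMap, SemiLocal.coe_unitsMap, SemiLocal.coe_unitsMap, SemiLocal.map_map,
    ← IsScalarTower.algebraMap_eq]

end tower

end Fermat.Agent.CFT.PT4
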