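/-
CFT global part, S55 package PT4 (e), helper2: local sufficiency at `ℓ = p` for the cyclotomic
field `E = ℚ(ζ_{p^{r+1}})`:  `p^ℤ · (1 + p^{r+1} ℤ_p) ⊆ N (ℚ_p ⊗ E)^×` (the converse of (G5c)).

* `padicUnits ℓ : ℚ_[ℓ]ˣ →* (SemiLocal ℓ ℚ)ˣ` and its bijectivity;
* `isSemiLocalNorm_ofUnits_of_norm`: global norms are semi-local norms;
* `isSemiLocalNorm_cyclotomic_prime`: `p` is a semi-local norm from `ℚ(ζ_{p^{r+1}})`;
* `isSemiLocalNorm_cyclotomic_at_p`: (LS2).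
-/
import Fermat.Agent.CFT.Global.PT4e_helper2_Tower
import Fermat.Agent.CFT.Global.PT4e_helper2_Padic

set_option autoImplicit false
set_option linter.unusedSectionVars false
set_option linter.style.haveILetI false

open scoped NumberField TensorProduct

namespace Fermat.Agent.CFT.PT4

section padicUnits

variable (ℓ : ℕ) [Fact ℓ.Prime]

/-- `ℚ_ℓ^× → (ℚ_ℓ ⊗ ℚ)^×`. -/
noncomputable def padicUnits : ℚ_[ℓ]ˣ →* (SemiLocal ℓ ℚ)ˣ :=
  Units.map (algebraMap ℚ_[ℓ] (SemiLocal ℓ ℚ) : ℚ_[ℓ] →* SemiLocal ℓ ℚ)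

@[simp] lemma coe_padicUnits (x : ℚ_[ℓ]ˣ) :
    ((padicUnits ℓ x : (SemiLocal ℓ ℚ)ˣ) : SemiLocal ℓ ℚ) = algebraMap ℚ_[ℓ] (SemiLocal ℓ ℚ) x :=
  rfl

lemma algebraMap_ratCast_eq_of (q : ℚ) :
    algebraMap ℚ_[ℓ] (SemiLocal ℓ ℚ) (q : ℚ_[ℓ]) = SemiLocal.of ℓ ℚ q := by
  rw [Algebra.TensorProduct.algebraMap_apply, SemiLocal.of_apply]
  have h1 : ((q : ℚ_[ℓ]) : ℚ_[ℓ]) = q • (1 : ℚ_[ℓ]) := by
    rw [Algebra.smul_def, mul_one]; rfl
  have h2 : (q : ℚ) = q • (1 : ℚ) := by simp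
  simp only [Algebra.algebraMap_self, RingHom.id_apply]
  rw [h1, TensorProduct.smul_tmul, ← h2]

lemma algebraMap_semiLocalRat_bijective :
    Function.Bijective (algebraMap ℚ_[ℓ] (SemiLocal ℓ ℚ)) := by
  let e : SemiLocal ℓ ℚ ≃ₐ[ℚ_[ℓ]] ℚ_[ℓ] := Algebra.TensorProduct.rid ℚ ℚ_[ℓ] ℚ_[ℓ]
  have h : ∀ a : ℚ_[ℓ], e.symm a = algebraMap ℚ_[ℓ] (SemiLocal ℓ ℚ) a := by
    intro a
    have : a = a • (1 : ℚ_[ℓ]) := by simp
    rw [this, map_smul, map_one, Algebra.algebraMap_eq_smul_one, smul_eq_mul, mul_one]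
  have : (algebraMap ℚ_[ℓ] (SemiLocal ℓ ℚ) : ℚ_[ℓ] → SemiLocal ℓ ℚ) = e.symm := by
    funext a; exact (h a).symm
  rw [this]
  exact e.symm.bijective

lemma padicUnits_bijective : Function.Bijective (padicUnits ℓ) := by
  have hb := algebraMap_semiLocalRat_bijective ℓ
  constructor
  · intro x y hxy
    apply Units.ext
    apply hb.1
    have := congrArg (fun z : (SemiLocal ℓ ℚ)ˣ => (z : SemiLocal ℓ ℚ)) hxy
    simpa using this
  · intro y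
    obtain ⟨a, ha⟩ := hb.2 (y : SemiLocal ℓ ℚ)
    obtain ⟨a', ha'⟩ := hb.2 ((y⁻¹ : (SemiLocal ℓ ℚ)ˣ) : SemiLocal ℓ ℚ)
    have h1 : a * a' = 1 := by
      apply hb.1
      rw [map_mul, ha, ha', map_one, Units.mul_inv]
    have h2 : a' * a = 1 := by rw [mul_comm]; exact h1
    refine ⟨⟨a, a', h1, h2⟩, ?_⟩
    apply Units.ext
    exact ha

lemma padicUnits_ratCast (q : ℚˣ) (x : ℚ_[ℓ]ˣ) (hx : (x : ℚ_[ℓ]) = ((q : ℚ) : ℚ_[ℓ])) :
    padicUnits ℓ x = SemiLocal.ofUnits ℓ q := by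
  apply Units.ext
  rw [coe_padicUnits, hx, algebraMap_ratCast_eq_of, SemiLocal.coe_ofUnits]

end padicUnits

section globalNorm

variable (K L : Type) [Field K] [NumberField K] [Field L] [NumberField L] [Algebra K L]
  [IsGalois K L] (ℓ : ℕ) [Fact ℓ.Prime]

/-- Global norms are semi-local norms. -/
theorem isSemiLocalNorm_ofUnits_of_norm (a : Kˣ) (α : L)
    (h : Algebra.norm K α = (a : K)) : IsSemiLocalNorm K L ℓ (SemiLocal.ofUnits ℓ a) := by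
  have hα0 : α ≠ 0 := by
    intro h0
    rw [h0, Algebra.norm_zero] at h
    exact a.ne_zero h.symm
  refine ⟨SemiLocal.ofUnits ℓ (Units.mk0 α hα0), ?_⟩
  apply Units.ext
  rw [Units.coe_prod, SemiLocal.coe_unitsMap, SemiLocal.coe_ofUnits, SemiLocal.map_of]
  simp only [SemiLocal.coe_smul_units, SemiLocal.coe_ofUnits, Units.val_mk0, SemiLocal.smul_of]
  rw [← map_prod, ← h]
  congr 1
  rw [Algebra.norm_eq_prod_automorphisms]
  rfl

end globalNorm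

section cyclotomic

/-- `p` as a unit of `ℚ`. -/
def primeUnit (p : ℕ) [hp : Fact p.Prime] : ℚˣ :=
  Units.mk0 (p : ℚ) (by exact_mod_cast hp.out.ne_zero)

@[simp] lemma coe_primeUnit (p : ℕ) [Fact p.Prime] : ((primeUnit p : ℚˣ) : ℚ) = p := rfl

lemma isGalois_cyclotomic (p r : ℕ) (E : Type) [Field E] [NumberField E]
    [IsCyclotomicExtension {p ^ (r + 1)} ℚ E] : IsGalois ℚ E :=
  IsCyclotomicExtension.isGalois {p ^ (r + 1)} ℚ E

/-- `p` is a semi-local norm from `ℚ(ζ_{p^{r+1}})` (`p` odd), at every `ℓ`. -/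
theorem isSemiLocalNorm_cyclotomic_prime (p : ℕ) [hp : Fact p.Prime] (r : ℕ) (E : Type) [Field E]
    [NumberField E] [IsCyclotomicExtension {p ^ (r + 1)} ℚ E] (hp2 : p ≠ 2) (ℓ : ℕ)
    [Fact ℓ.Prime] :
    IsSemiLocalNorm ℚ E ℓ (SemiLocal.ofUnits ℓ (primeUnit p)) := by
  haveI := isGalois_cyclotomic p r E
  have hirr : Irreducible (Polynomial.cyclotomic (p ^ (r + 1)) ℚ) :=
    Polynomial.cyclotomic.irreducible_rat (pow_pos hp.out.pos _)
  have hζ := IsCyclotomicExtension.zeta_spec (p ^ (r + 1)) ℚ E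
  have hnorm := hζ.norm_sub_one_of_prime_ne_two hirr hp2
  exact isSemiLocalNorm_ofUnits_of_norm ℚ E ℓ (primeUnit p) _ hnorm

lemma card_aut_cyclotomic (p : ℕ) [hp : Fact p.Prime] (r : ℕ) (E : Type) [Field E]
    [NumberField E] [IsCyclotomicExtension {p ^ (r + 1)} ℚ E] :
    Nat.card (E ≃ₐ[ℚ] E) = p ^ r * (p - 1) := by
  haveI := isGalois_cyclotomic p r E
  have hirr : Irreducible (Polynomial.cyclotomic (p ^ (r + 1)) ℚ) :=
    Polynomial.cyclotomic.irreducible_rat (pow_pos hp.out.pos _)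
  rw [IsGalois.card_aut_eq_finrank, IsCyclotomicExtension.finrank E hirr,
    Nat.totient_prime_pow_succ hp.out]

/-- **(LS2)** `p^ℤ · (1 + p^{r+1} ℤ_p)` consists of semi-local norms from `ℚ(ζ_{p^{r+1}})`. -/
theorem isSemiLocalNorm_cyclotomic_at_p (p : ℕ) [hp : Fact p.Prime] (r : ℕ) (E : Type) [Field E]
    [NumberField E] [IsCyclotomicExtension {p ^ (r + 1)} ℚ E] (hp2 : p ≠ 2) (m : ℤ) (u : ℤ_[p]ˣ)
    (hu : (p : ℤ_[p]) ^ (r + 1) ∣ (u : ℤ_[p]) - 1) :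
    IsSemiLocalNorm ℚ E p (SemiLocal.ofUnits p (primeUnit p) ^ m *
      padicUnits p (Units.map (PadicInt.Coe.ringHom (p := p) : ℤ_[p] →* ℚ_[p]) u)) := by
  haveI := isGalois_cyclotomic p r E
  refine isSemiLocalNorm_mul (isSemiLocalNorm_zpow (isSemiLocalNorm_cyclotomic_prime p r E hp2 p) m)
    ?_
  obtain ⟨z, hz⟩ := exists_units_pow_eq_of_dvd_sub_one hp2 r u hu
  rw [← hz, map_pow, map_pow, ← card_aut_cyclotomic p r E]
  exact isSemiLocalNorm_pow_card ℚ E p _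

end cyclotomic

end Fermat.Agent.CFT.PT4
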