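/-
CFT global part, S55 package PT4 (e), helper2: Frobenius elements of cyclotomic extensions over a
general base (no `ζ_p ∈ K` hypothesis), and the base `ℚ`.

* `kappa_of_isArithFrobAt_general`: `κ(Frob_Q) = N(Q ∩ K)` for every number field `K`
  (helper3's `Crossing.kappa_of_isArithFrobAt` without the hypothesis on `K`);
* `inertia_trivial_of_kappa_injective`: `K(ζ_{p^{r+1}})/K` has trivial inertia at `Q ∤ p`;
* `natCard_quotient_under_rat`: `|𝓞 ℚ / (Q ∩ 𝓞 ℚ)| = ℓ` for a prime `Q ∋ ℓ`.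
-/
import Fermat.Agent.CFT.Global.Crossing_helper3_Frob

set_option autoImplicit false
set_option linter.unusedSectionVars false
set_option linter.style.haveILetI false

open scoped NumberField

namespace Fermat.Agent.CFT.PT4

open Crossing

section frobGeneral

variable {p : ℕ} [hp : Fact p.Prime] {r : ℕ}
variable {K M : Type} [Field K] [NumberField K] [Field M] [NumberField M] [Algebra K M]
  [IsGalois K M]
variable {ζ : M} (hζ : IsPrimitiveRoot ζ (p ^ (r + 1)))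

/-- The cyclotomic character of a Frobenius at a prime not over `p` is the norm of the prime
below (any base field `K`). -/
lemma kappa_of_isArithFrobAt_general {Q : Ideal (𝓞 M)} [Q.IsPrime] (hpQ : (p : 𝓞 M) ∉ Q)
    {φ : M ≃ₐ[K] M} (hφ : IsArithFrobAt (𝓞 K) φ Q) :
    ((kappa K hζ φ : (ZMod (p ^ (r + 1)))ˣ) : ZMod (p ^ (r + 1))) =
      (Nat.card (𝓞 K ⧸ Q.under (𝓞 K)) : ZMod (p ^ (r + 1))) := by
  have e1 : ((hζ.toInteger : 𝓞 M) : M) = ζ := hζ.coe_toInteger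
  have h1 : hζ.toInteger ^ (p ^ (r + 1)) = 1 := by
    apply NumberField.RingOfIntegers.ext
    change ((hζ.toInteger : 𝓞 M) : M) ^ (p ^ (r + 1)) = 1
    rw [e1, hζ.pow_eq_one]
  have h2 : ((p ^ (r + 1) : ℕ) : 𝓞 M) ∉ Q := by
    rw [Nat.cast_pow]
    exact fun h => hpQ (Ideal.IsPrime.mem_of_pow_mem inferInstance _ h)
  have h3 := AlgHom.IsArithFrobAt.apply_of_pow_eq_one hφ h1 h2
  have h4 : φ ζ = ζ ^ Nat.card (𝓞 K ⧸ Q.under (𝓞 K)) := by
    have h5 := congrArg (fun x : 𝓞 M => (x : M)) h3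
    calc φ ζ = φ ((hζ.toInteger : 𝓞 M) : M) := by rw [e1]
      _ = (((MulSemiringAction.toAlgHom (𝓞 K) (𝓞 M) φ) hζ.toInteger : 𝓞 M) : M) := rfl
      _ = ((hζ.toInteger ^ Nat.card (𝓞 K ⧸ Q.under (𝓞 K)) : 𝓞 M) : M) := h5
      _ = ((hζ.toInteger : 𝓞 M) : M) ^ Nat.card (𝓞 K ⧸ Q.under (𝓞 K)) := rfl
      _ = ζ ^ Nat.card (𝓞 K ⧸ Q.under (𝓞 K)) := by rw [e1]
  haveI : NeZero (p ^ (r + 1)) := ⟨pow_ne_zero _ hp.out.ne_zero⟩
  rw [← kappa_spec hζ φ, pow_eq_pow_iff_of_isPrimitiveRoot hζ,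
    ← ZMod.natCast_eq_natCast_iff, ZMod.natCast_zmod_val] at h4
  exact h4

include hζ in
/-- `M = K(ζ_{p^{r+1}})` (in the form: the cyclotomic character is injective) has trivial inertia
at the primes not over `p`. -/
lemma inertia_trivial_of_kappa_injective (hinj : Function.Injective (kappa K hζ))
    {Q : Ideal (𝓞 M)} [Q.IsPrime] (hQ0 : Q ≠ ⊥) (hpQ : (p : 𝓞 M) ∉ Q) (σ : M ≃ₐ[K] M)
    (hσ : ∀ x : 𝓞 M, σ • x - x ∈ Q) : σ = 1 := by
  apply hinj
  rw [map_one]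
  obtain ⟨φ, hφ⟩ := exists_isArithFrobAt (K := K) Q hQ0
  have hσφ : IsArithFrobAt (𝓞 K) (σ * φ) Q := by
    intro x
    have h1 := hσ (φ • x)
    have h2 := hφ x
    have h3 : (MulSemiringAction.toAlgHom (𝓞 K) (𝓞 M) (σ * φ)) x -
        x ^ Nat.card (𝓞 K ⧸ Q.under (𝓞 K)) =
        (σ • (φ • x) - φ • x) + (φ • x - x ^ Nat.card (𝓞 K ⧸ Q.under (𝓞 K))) := by
      rw [sub_add_sub_cancel]
      rfl
    rw [h3]
    exact Q.add_mem h1 h2
  have h4 := kappa_of_isArithFrobAt_general hζ hpQ hφ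
  have h5 := kappa_of_isArithFrobAt_general hζ hpQ hσφ
  have h6 : kappa K hζ (σ * φ) = kappa K hζ φ := Units.ext (h5.trans h4.symm)
  rw [map_mul] at h6
  exact mul_eq_right.mp h6

end frobGeneral

section rat

variable {M : Type} [Field M] [NumberField M]

/-- The residue field of `ℚ` at the prime below a prime `Q ∋ ℓ` has `ℓ` elements. -/
lemma natCard_quotient_under_rat {ℓ : ℕ} (hℓ : ℓ.Prime) (Q : Ideal (𝓞 M)) [Q.IsPrime]
    (hQ : (ℓ : 𝓞 M) ∈ Q) : Nat.card (𝓞 ℚ ⧸ Q.under (𝓞 ℚ)) = ℓ := by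
  set P : Ideal (𝓞 ℚ) := Q.under (𝓞 ℚ) with hP
  set I : Ideal (𝓞 ℚ) := Ideal.span {(ℓ : 𝓞 ℚ)} with hI
  have hIP : I ≤ P := by
    rw [hI, Ideal.span_singleton_le_iff_mem, hP, Ideal.mem_comap, map_natCast]
    exact hQ
  have hnorm : Ideal.absNorm I = ℓ := by
    rw [hI, Ideal.absNorm_span_singleton]
    have : ((ℓ : 𝓞 ℚ)) = algebraMap ℤ (𝓞 ℚ) (ℓ : ℤ) := by simp
    rw [this, Algebra.norm_algebraMap, NumberField.RingOfIntegers.rank, Module.finrank_self,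
      pow_one, Int.natAbs_natCast]
  have hIprime : I.IsPrime := by
    apply Ideal.isPrime_of_irreducible_absNorm
    rw [hnorm]
    exact hℓ.prime.irreducible
  have hI0 : I ≠ ⊥ := by
    intro h
    rw [h, Ideal.absNorm_bot] at hnorm
    exact hℓ.ne_zero hnorm.symm
  have hImax : I.IsMaximal := hIprime.isMaximal hI0
  have hPne : P ≠ ⊤ := (Ideal.IsPrime.under (𝓞 ℚ) Q).ne_top
  have hPI : I = P := hImax.eq_of_le hPne hIP
  rw [← hPI, ← Submodule.cardQuot_apply, ← Ideal.absNorm_apply, hnorm]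

end rat

end Fermat.Agent.CFT.PT4
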