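/-
CFT global part, S55 package PT4 (e), helper2: local sufficiency at `ℓ ≠ p` for the cyclotomic
field `E = ℚ(ζ_{p^{r+1}})`:  `b ∈ ℚ_ℓ^×` with `ℓ^{v_ℓ(b)} ≡ 1 mod p^{r+1}` is a norm from
`(ℚ_ℓ ⊗ E)^×`.

* `padicUnits_mem_unitGroup`: norm-one elements of `ℚ_ℓ` give elements of `unitGroup ℓ ℚ`;
* `normUnits_padicUnits`: `N (padicUnits β) = β`;
* `isSemiLocalNorm_cyclotomic_of_mem_unitGroup`: units are norms (`ℓ ≠ p`);
* `isSemiLocalNorm_cyclotomic_prime_zpow`: `ℓ^m` is a norm if `ℓ^m ≡ 1 mod p^{r+1}`;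
* `isSemiLocalNorm_cyclotomic_away`: (LS1).
-/
import Fermat.Agent.CFT.Global.PT4e_helper2_AtP
import Fermat.Agent.CFT.Global.PT4e_helper2_Frob
import Fermat.Agent.CFT.Global.CycloArtin_lead_Funct
import Fermat.Agent.CFT.Global.G02_helper5_Unram
import Fermat.Agent.CFT.Global.G01_helper7_Local

set_option autoImplicit false
set_option linter.unusedSectionVars false
set_option linter.style.haveILetI false

open scoped NumberField TensorProduct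
open IsDedekindDomain

namespace Fermat.Agent.CFT.PT4

open Crossing

section unitGroupRat

variable (ℓ : ℕ) [hℓ : Fact ℓ.Prime]

lemma algebraMap_mem_integers_of_norm_le_one {x : ℚ_[ℓ]} (hx : ‖x‖ ≤ 1) :
    algebraMap ℚ_[ℓ] (SemiLocal ℓ ℚ) x ∈ SemiLocal.integers ℓ ℚ := by
  rw [SemiLocal.mem_integers_iff]
  have h1 : algebraMap ℚ_[ℓ] (SemiLocal ℓ ℚ) x =
      algebraMap ℤ_[ℓ] (SemiLocal ℓ ℚ) (⟨x, hx⟩ : ℤ_[ℓ]) := by
    rw [IsScalarTower.algebraMap_apply ℤ_[ℓ] ℚ_[ℓ] (SemiLocal ℓ ℚ)]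
    rfl
  rw [h1]
  exact isIntegral_algebraMap

lemma padicUnits_mem_unitGroup {x : ℚ_[ℓ]ˣ} (hx : ‖(x : ℚ_[ℓ])‖ = 1) :
    padicUnits ℓ x ∈ SemiLocal.unitGroup ℓ ℚ := by
  rw [SemiLocal.mem_unitGroup_iff]
  refine ⟨algebraMap_mem_integers_of_norm_le_one ℓ hx.le, ?_⟩
  have h1 : ((padicUnits ℓ x)⁻¹ : (SemiLocal ℓ ℚ)ˣ) = padicUnits ℓ x⁻¹ := (map_inv _ _).symm
  rw [h1, coe_padicUnits]
  apply algebraMap_mem_integers_of_norm_le_one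
  rw [Units.val_inv_eq_inv_val, norm_inv, hx, inv_one]

lemma finrank_semiLocal_rat : Module.finrank ℚ_[ℓ] (SemiLocal ℓ ℚ) = 1 := by
  have h := Module.finrank_baseChange (R := ℚ_[ℓ]) (S := ℚ) (M' := ℚ)
  rw [Module.finrank_self] at h
  exact h

lemma normUnits_padicUnits (β : ℚ_[ℓ]ˣ) : SemiLocal.normUnits ℓ ℚ (padicUnits ℓ β) = β := by
  apply Units.ext
  rw [SemiLocal.coe_normUnits, coe_padicUnits, Algebra.norm_algebraMap, finrank_semiLocal_rat,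
    pow_one]

/-- `ℓ` as a unit of `ℚ_ℓ`. -/
noncomputable def padicPrimeUnit : ℚ_[ℓ]ˣ :=
  Units.mk0 (ℓ : ℚ_[ℓ]) (by exact_mod_cast hℓ.out.ne_zero)

lemma padicUnits_padicPrimeUnit :
    padicUnits ℓ (padicPrimeUnit ℓ) = SemiLocal.ofUnits ℓ (primeUnit ℓ) := by
  apply padicUnits_ratCast
  simp [padicPrimeUnit]

/-- every unit of `ℚ_ℓ ⊗ ℚ` is `ℓ^m` times a unit of the maximal order, `m = v_ℓ(N b)`. -/
lemma exists_eq_prime_zpow_mul (b : (SemiLocal ℓ ℚ)ˣ) :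
    ∃ u ∈ SemiLocal.unitGroup ℓ ℚ,
      b = SemiLocal.ofUnits ℓ (primeUnit ℓ) ^
        ((SemiLocal.normUnits ℓ ℚ b : ℚ_[ℓ]ˣ) : ℚ_[ℓ]).valuation * u := by
  obtain ⟨β, rfl⟩ := (padicUnits_bijective ℓ).2 b
  rw [normUnits_padicUnits]
  set m : ℤ := (β : ℚ_[ℓ]).valuation with hm
  refine ⟨padicUnits ℓ (β * (padicPrimeUnit ℓ) ^ (-m)), ?_, ?_⟩
  · apply padicUnits_mem_unitGroup
    have := norm_mul_zpow_neg_valuation ℓ β
    rw [Units.val_mul, Units.val_zpow_eq_zpow_val]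
    exact this
  · rw [← padicUnits_padicPrimeUnit, ← map_zpow, ← map_mul]
    congr 1
    rw [mul_comm, mul_assoc, ← zpow_add, neg_add_cancel, zpow_zero, mul_one]

end unitGroupRat

section away

lemma kappa_injective_cyclotomic (p : ℕ) [hp : Fact p.Prime] (r : ℕ) (E : Type) [Field E]
    [NumberField E] [IsCyclotomicExtension {p ^ (r + 1)} ℚ E] {ζ : E}
    (hζ : IsPrimitiveRoot ζ (p ^ (r + 1))) :
    Function.Injective (kappa ℚ hζ) :=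
  hζ.autToPow_injective ℚ

lemma prime_not_mem_of_ne (p : ℕ) [hp : Fact p.Prime] (E : Type) [Field E]
    [NumberField E] {ℓ : ℕ} (hℓ : ℓ.Prime) (hne : ℓ ≠ p) (Q : Ideal (𝓞 E)) [Q.IsPrime]
    (hQ : (ℓ : 𝓞 E) ∈ Q) : (p : 𝓞 E) ∉ Q := by
  intro hpQ
  have hcop : Nat.Coprime ℓ p := (Nat.coprime_primes hℓ hp.out).2 hne
  have h1 : ((ℓ : ℤ) * Nat.gcdA ℓ p + (p : ℤ) * Nat.gcdB ℓ p) = 1 := by
    have := Nat.gcd_eq_gcd_ab ℓ p
    rw [hcop] at this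
    exact_mod_cast this.symm
  have h2 : ((1 : ℤ) : 𝓞 E) ∈ Q := by
    rw [← h1]
    push_cast
    exact Q.add_mem (Q.mul_mem_right _ hQ) (Q.mul_mem_right _ hpQ)
  rw [Int.cast_one] at h2
  exact (Ideal.IsPrime.ne_top inferInstance) ((Ideal.eq_top_iff_one Q).2 h2)

/-- inertia is trivial at the primes over `ℓ ≠ p` in `ℚ(ζ_{p^{r+1}})/ℚ`. -/
lemma inertia_trivial_cyclotomic (p : ℕ) [hp : Fact p.Prime] (r : ℕ) (E : Type) [Field E]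
    [NumberField E] [IsCyclotomicExtension {p ^ (r + 1)} ℚ E] {ℓ : ℕ} (hℓ : ℓ.Prime)
    (hne : ℓ ≠ p) (Q : Ideal (𝓞 E))
    [Q.IsPrime] (hQ : (ℓ : 𝓞 E) ∈ Q) (σ : E ≃ₐ[ℚ] E) (hσ : ∀ x : 𝓞 E, σ • x - x ∈ Q) : σ = 1 := by
  haveI := isGalois_cyclotomic p r E
  have hζ := IsCyclotomicExtension.zeta_spec (p ^ (r + 1)) ℚ E
  have hQ0 : Q ≠ ⊥ := by
    intro h
    rw [h, Ideal.mem_bot] at hQ
    have : (ℓ : 𝓞 E) ≠ 0 := by exact_mod_cast hℓ.ne_zero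
    exact this hQ
  exact inertia_trivial_of_kappa_injective hζ (kappa_injective_cyclotomic p r E hζ) hQ0
    (prime_not_mem_of_ne p E hℓ hne Q hQ) σ hσ

/-- units of the maximal order of `ℚ_ℓ ⊗ ℚ` are norms from `ℚ_ℓ ⊗ ℚ(ζ_{p^{r+1}})`, `ℓ ≠ p`. -/
theorem isSemiLocalNorm_cyclotomic_of_mem_unitGroup (p : ℕ) [hp : Fact p.Prime] (r : ℕ)
    (E : Type) [Field E] [NumberField E] [IsCyclotomicExtension {p ^ (r + 1)} ℚ E]
    (ℓ : ℕ) [hℓ : Fact ℓ.Prime] (hne : ℓ ≠ p)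
    {u : (SemiLocal ℓ ℚ)ˣ} (hu : u ∈ SemiLocal.unitGroup ℓ ℚ) : IsSemiLocalNorm ℚ E ℓ u := by
  haveI := isGalois_cyclotomic p r E
  obtain ⟨y, -, hy⟩ := Place.exists_mem_unitGroup_prod_smul_eq_unitsMap_of_unramified
    (K := ℚ) (L := E) (ℓ := ℓ) (fun W => Place.ramIdx_eq_one_of_inertia_trivial W
      (inertia_trivial_cyclotomic p r E hℓ.out hne W.toPrime W.natCast_mem_toPrime)) u hu
  exact ⟨y, hy⟩

/-- `ℓ^m` is a semi-local norm from `ℚ(ζ_{p^{r+1}})` at `ℓ ≠ p` if `ℓ^m ≡ 1 mod p^{r+1}`. -/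
theorem isSemiLocalNorm_cyclotomic_prime_zpow (p : ℕ) [hp : Fact p.Prime] (r : ℕ)
    (E : Type) [Field E] [NumberField E] [IsCyclotomicExtension {p ^ (r + 1)} ℚ E]
    (ℓ : Nat.Primes) (hne : (ℓ : ℕ) ≠ p) (m : ℤ)
    (hm : awayUnit p (r + 1) ℓ ^ m = 1) :
    IsSemiLocalNorm ℚ E ℓ (SemiLocal.ofUnits ℓ (primeUnit ℓ) ^ m) := by
  haveI := isGalois_cyclotomic p r E
  have hζ := IsCyclotomicExtension.zeta_spec (p ^ (r + 1)) ℚ E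
  rw [← map_zpow]
  apply unramifiedNormCriterion ℚ E ℓ (primeUnit ℓ ^ m)
  intro Q hQp hQ
  haveI := hQp
  refine ⟨inertia_trivial_cyclotomic p r E ℓ.2 hne Q hQ, ?_⟩
  intro σ hσ
  have hQ0 : Q ≠ ⊥ := by
    intro h
    rw [h, Ideal.mem_bot] at hQ
    have : ((ℓ : ℕ) : 𝓞 E) ≠ 0 := by exact_mod_cast ℓ.2.ne_zero
    exact this hQ
  have hpQ := prime_not_mem_of_ne p E ℓ.2 hne Q hQ
  -- `κ(σ) = ℓ`
  have hκ : kappa ℚ hζ σ = awayUnit p (r + 1) ℓ := by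
    apply Units.ext
    rw [kappa_of_isArithFrobAt_general hζ hpQ hσ, natCard_quotient_under_rat ℓ.2 Q hQ,
      coe_awayUnit_of_ne p (r + 1) ℓ hne]
  have hσm : σ ^ m = 1 := by
    apply kappa_injective_cyclotomic p r E hζ
    rw [map_zpow, hκ, hm, map_one]
  -- the order of `ℓ^m` is a multiple of `m`
  set P : Ideal (𝓞 ℚ) := Q.under (𝓞 ℚ) with hP
  have hP0 : P ≠ ⊥ := Ideal.under_ne_bot (𝓞 ℚ) hQ0
  let v : HeightOneSpectrum (𝓞 ℚ) := ⟨P, inferInstance, hP0⟩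
  have h1 : ordAt ℚ P (((primeUnit ℓ ^ m : ℚˣ)) : ℚ) = m * ordAt ℚ P ((primeUnit ℓ : ℚˣ) : ℚ) := by
    have h2 := Crossing.ordHom_apply ℚ v (primeUnit ℓ ^ m)
    have h3 := Crossing.ordHom_apply ℚ v (primeUnit ℓ)
    change _ = ordAt ℚ P _ at h2
    change _ = ordAt ℚ P _ at h3
    rw [← h2, ← h3, ofMul_zpow, map_zsmul, smul_eq_mul]
  rw [h1, zpow_mul, hσm, one_zpow]

/-- **(LS1)** `b ∈ (ℚ_ℓ ⊗ ℚ)^×`, `ℓ ≠ p`, with `ℓ^{v_ℓ(N b)} ≡ 1 mod p^{r+1}` is a semi-local norm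
from `ℚ(ζ_{p^{r+1}})`. -/
theorem isSemiLocalNorm_cyclotomic_away (p : ℕ) [hp : Fact p.Prime] (r : ℕ)
    (E : Type) [Field E] [NumberField E] [IsCyclotomicExtension {p ^ (r + 1)} ℚ E]
    (ℓ : Nat.Primes) (hne : (ℓ : ℕ) ≠ p)
    (b : (SemiLocal ℓ ℚ)ˣ) (hb : awayLocal p (r + 1) ℓ (SemiLocal.normUnits ℓ ℚ b) = 1) :
    IsSemiLocalNorm ℚ E ℓ b := by
  obtain ⟨u, hu, hbu⟩ := exists_eq_prime_zpow_mul ℓ b
  rw [hbu]
  rw [awayLocal_apply] at hb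
  exact isSemiLocalNorm_mul (isSemiLocalNorm_cyclotomic_prime_zpow p r E ℓ hne _ hb)
    (isSemiLocalNorm_cyclotomic_of_mem_unitGroup p r E ℓ hne hu)

end away

end Fermat.Agent.CFT.PT4
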