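/-
CFT global part, S55 package PT4 (e), helper2: LOCAL SUFFICIENCY for the cyclotomic `p`-layers
over `ℚ`, in terms of lead's cyclotomic Artin map `cycloArtin`.

`E = ℚ(ζ_{p^{r+1}})`, `p` odd, `ℚ ⊆ F ⊆ E` with `[F:ℚ]` prime to `p - 1` (e.g. `[F:ℚ] = p^r`).

* `isSemiLocalNorm_cyclotomic_of_cycloArtin_single`: `b ∈ (ℚ_ℓ ⊗ ℚ)^×` with
  `cycloArtin p (r+1) ℚ (single ℓ b) = 1` is a semi-local norm from `E`;
* `isSemiLocalNorm_of_cycloArtin_single_pow`: `b ∈ (ℚ_ℓ ⊗ ℚ)^×` with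
  `cycloArtin p (r+1) ℚ (single ℓ b) ^ (p - 1) = 1` is a semi-local norm from `F`.
-/
import Fermat.Agent.CFT.Global.PT4e_helper2_Away
import Fermat.Agent.CFT.Global.CycloArtin_lead_Cyclo
import Fermat.Agent.CFT.Global.G4_helper9_IdeleCoh

set_option autoImplicit false
set_option linter.unusedSectionVars false
set_option linter.style.haveILetI false

open scoped NumberField TensorProduct

namespace Fermat.Agent.CFT.PT4

section single

variable {F F' : Type*} [Field F] [CharZero F] [Field F'] [CharZero F']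

lemma map_single (f : F →+* F') (ℓ : Nat.Primes) (z : (SemiLocal ℓ F)ˣ) :
    FinIdele.map f (FinIdele.single ℓ z) = FinIdele.single ℓ (SemiLocal.unitsMap ℓ f z) := by
  apply RestrictedProduct.ext
  intro ℓ'
  rw [FinIdele.map_apply]
  by_cases h : ℓ' = ℓ
  · subst h
    rw [FinIdele.single_apply_same, FinIdele.single_apply_same]
  · rw [FinIdele.single_apply_of_ne h, FinIdele.single_apply_of_ne h, map_one]

lemma smul_single {G : Type*} [Group G] [MulSemiringAction G F] (g : G) (ℓ : Nat.Primes)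
    (z : (SemiLocal ℓ F)ˣ) : g • FinIdele.single ℓ z = FinIdele.single ℓ (g • z) := by
  rw [FinIdele.smul_eq_map, map_single, SemiLocal.smul_units_eq_unitsMap]

end single

section main

/-- `pLocal = 1` means that the unit part is `≡ 1 mod p^n`. -/
lemma dvd_unitPart_sub_one_of_pLocal_eq_one (p : ℕ) [hp : Fact p.Prime] (n : ℕ) (γ : ℚ_[p]ˣ)
    (h : pLocal p n γ = 1) : (p : ℤ_[p]) ^ n ∣ ((unitPart p γ : ℤ_[p]ˣ) : ℤ_[p]) - 1 := by
  have h1 : PadicInt.toZModPow n ((unitPart p γ : ℤ_[p]ˣ) : ℤ_[p]) = 1 := by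
    have := congrArg (fun z : (ZMod (p ^ n))ˣ => (z : ZMod (p ^ n))) h
    simpa [pLocal] using this
  have h2 : ((unitPart p γ : ℤ_[p]ˣ) : ℤ_[p]) - 1 ∈ RingHom.ker (PadicInt.toZModPow (p := p) n) := by
    rw [RingHom.mem_ker, map_sub, h1, map_one, sub_self]
  rw [PadicInt.ker_toZModPow, Ideal.mem_span_singleton] at h2
  exact h2

/-- at `ℓ = p`: `b` with trivial unit part mod `p^{r+1}` is a norm from `ℚ(ζ_{p^{r+1}})`. -/
theorem isSemiLocalNorm_cyclotomic_self (p : ℕ) [hp : Fact p.Prime] (r : ℕ)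
    (E : Type) [Field E] [NumberField E] [IsCyclotomicExtension {p ^ (r + 1)} ℚ E] (hp2 : p ≠ 2)
    (b : (SemiLocal p ℚ)ˣ) (hb : pLocal p (r + 1) (SemiLocal.normUnits p ℚ b) = 1) :
    IsSemiLocalNorm ℚ E p b := by
  obtain ⟨γ, rfl⟩ := (padicUnits_bijective p).2 b
  rw [normUnits_padicUnits] at hb
  have hdvd := dvd_unitPart_sub_one_of_pLocal_eq_one p (r + 1) γ hb
  have h1 := isSemiLocalNorm_cyclotomic_at_p p r E hp2 (γ : ℚ_[p]).valuation (unitPart p γ) hdvd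
  have h2 : padicUnits p γ = SemiLocal.ofUnits p (primeUnit p) ^ (γ : ℚ_[p]).valuation *
      padicUnits p (Units.map (PadicInt.Coe.ringHom (p := p) : ℤ_[p] →* ℚ_[p]) (unitPart p γ)) := by
    rw [← padicUnits_padicPrimeUnit, ← map_zpow, ← map_mul]
    congr 1
    apply Units.ext
    have hp0 : (p : ℚ_[p]) ≠ 0 := by exact_mod_cast hp.out.ne_zero
    rw [Units.val_mul, Units.val_zpow_eq_zpow_val]
    change (γ : ℚ_[p]) = (p : ℚ_[p]) ^ (γ : ℚ_[p]).valuation *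
      (((unitPart p γ : ℤ_[p]ˣ) : ℤ_[p]) : ℚ_[p])
    rw [coe_unitPart, mul_comm, mul_assoc, ← zpow_add₀ hp0, neg_add_cancel, zpow_zero, mul_one]
  rw [h2]
  exact h1

/-- **local sufficiency for `E = ℚ(ζ_{p^{r+1}})`**: `b ∈ (ℚ_ℓ ⊗ ℚ)^×` such that the idele
`(b at ℓ)` is killed by the cyclotomic Artin map mod `p^{r+1}` is a semi-local norm from `E`. -/
theorem isSemiLocalNorm_cyclotomic_of_cycloArtin_single (p : ℕ) [hp : Fact p.Prime] (r : ℕ)
    (E : Type) [Field E] [NumberField E] [IsCyclotomicExtension {p ^ (r + 1)} ℚ E] (hp2 : p ≠ 2)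
    (ℓ : Nat.Primes) (b : (SemiLocal ℓ ℚ)ˣ)
    (h : cycloArtin p (r + 1) ℚ (FinIdele.single ℓ b) = 1) :
    IsSemiLocalNorm ℚ E ℓ b := by
  by_cases hℓ : (ℓ : ℕ) = p
  · obtain ⟨ℓ', hℓ'⟩ := ℓ
    change ℓ' = p at hℓ
    subst hℓ
    have h1 := cycloArtin_single_self ℓ' (r + 1) (F := ℚ) b
    change cycloArtin ℓ' (r + 1) ℚ (FinIdele.single ⟨ℓ', hℓ'⟩ b) = _ at h1
    rw [h, eq_comm, inv_eq_one] at h1
    exact isSemiLocalNorm_cyclotomic_self ℓ' r E hp2 b h1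
  · rw [cycloArtin_single p (r + 1) ℓ hℓ] at h
    apply isSemiLocalNorm_cyclotomic_away p r E ℓ hℓ b
    rw [awayLocal_apply, SemiLocal.coe_normUnits]
    exact h

/-- **(e) LOCAL SUFFICIENCY** for the `p`-layers `F ⊆ E = ℚ(ζ_{p^{r+1}})` (`[F:ℚ]` prime to
`p - 1`): `b ∈ (ℚ_ℓ ⊗ ℚ)^×` with `cycloArtin (b at ℓ) ^ (p-1) = 1` is a semi-local norm from `F`. -/
theorem isSemiLocalNorm_of_cycloArtin_single_pow (p : ℕ) [hp : Fact p.Prime] (r : ℕ)
    (E : Type) [Field E] [NumberField E] [IsCyclotomicExtension {p ^ (r + 1)} ℚ E] (hp2 : p ≠ 2)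
    (F : Type) [Field F] [NumberField F] [Algebra F E] [IsGalois ℚ F]
    (hF : (Module.finrank ℚ F).Coprime (p - 1))
    (ℓ : Nat.Primes) (b : (SemiLocal ℓ ℚ)ˣ)
    (h : cycloArtin p (r + 1) ℚ (FinIdele.single ℓ b) ^ (p - 1) = 1) :
    IsSemiLocalNorm ℚ F ℓ b := by
  haveI := isGalois_cyclotomic p r E
  have h1 : IsSemiLocalNorm ℚ E ℓ (b ^ (p - 1)) := by
    apply isSemiLocalNorm_cyclotomic_of_cycloArtin_single p r E hp2
    rw [map_pow, map_pow]
    exact h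
  have h2 : IsSemiLocalNorm ℚ F ℓ (b ^ (p - 1)) := isSemiLocalNorm_of_tower ℚ F E ℓ h1
  have h3 : IsSemiLocalNorm ℚ F ℓ (b ^ Module.finrank ℚ F) := by
    rw [← IsGalois.card_aut_eq_finrank ℚ F]
    exact isSemiLocalNorm_pow_card ℚ F ℓ b
  exact isSemiLocalNorm_of_coprime hF h3 h2

/-- a semi-local norm gives an idele norm supported at one prime. -/
theorem isIdeleNorm_single_of_isSemiLocalNorm (K L : Type) [Field K] [CharZero K] [Field L]
    [CharZero L] [Algebra K L] [FiniteDimensional K L] (ℓ : Nat.Primes) {b : (SemiLocal ℓ K)ˣ}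
    (h : IsSemiLocalNorm K L ℓ b) : IsIdeleNorm K L (FinIdele.single ℓ b) := by
  obtain ⟨y, hy⟩ := h
  refine ⟨FinIdele.single ℓ y, ?_⟩
  simp only [smul_single]
  rw [← map_prod, hy, map_single]

/-- **necessity**: if `(b at ℓ) ∈ ℚ^× · N J_F` for the `p`-layer `F ⊆ ℚ(ζ_{p^{r+1}})` of degree
`p^r` then `cycloArtin (b at ℓ) ^ (p - 1) = 1`. -/
theorem cycloArtin_single_pow_eq_one_of_isIdeleNorm (p : ℕ) [hp : Fact p.Prime] (r : ℕ)
    (E : Type) [Field E] [NumberField E] [IsCyclotomicExtension {p ^ (r + 1)} ℚ E] (hp2 : p ≠ 2)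
    (F : Type) [Field F] [NumberField F] [Algebra F E] [IsGalois ℚ F]
    (hF : Module.finrank ℚ F = p ^ r) (x : FinIdele ℚ)
    (h : ∃ a : ℚˣ, IsIdeleNorm ℚ F (x / FinIdele.diag ℚ a)) :
    cycloArtin p (r + 1) ℚ x ^ (p - 1) = 1 := by
  obtain ⟨a, y, hy⟩ := h
  have hirr : Irreducible (Polynomial.cyclotomic (p ^ (r + 1)) ℚ) :=
    Polynomial.cyclotomic.irreducible_rat (pow_pos hp.out.pos _)
  have hFE : Module.finrank F E = p - 1 := by
    have h1 := Module.finrank_mul_finrank ℚ F E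
    rw [hF, IsCyclotomicExtension.finrank E hirr, Nat.totient_prime_pow_succ hp.out] at h1
    exact Nat.eq_of_mul_eq_mul_left (pow_pos hp.out.pos r) h1
  have hW3 := cycloArtin_eq_of_map_eq_prod_smul p (r + 1) (x / FinIdele.diag ℚ a) y hy.symm
  have hW6 := cycloArtin_map p (r + 1) (F := F) (F' := E) y
  have hW4 := cycloArtin_eq_one_of_cyclotomic p r (E := E) (L := E) hp2
    (FinIdele.map (algebraMap F E) y)
  rw [hW4, hW3, hFE, map_div] at hW6
  have hodd : p - 1 = 2 * ((p - 1) / 2) := by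
    have := hp.out.eq_two_or_odd'
    rcases this with h | h
    · exact absurd h hp2
    · obtain ⟨k, hk⟩ := h
      omega
  have hdiag : cycloArtin p (r + 1) ℚ (FinIdele.diag ℚ a) ^ (p - 1) = 1 := by
    rw [hodd, pow_mul, cycloArtin_diag_sq, one_pow]
  rw [div_pow, hdiag, div_one] at hW6
  exact hW6.symm

/-- **(e) LOCAL→GLOBAL INJECTIVITY at base `ℚ`** for the `p`-layer `F ⊆ E = ℚ(ζ_{p^{r+1}})` of
degree `p^r` (`p` odd): the idele `(b at ℓ)` lies in `ℚ^× · N J_F` iff `b` is a semi-local norm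
from `F`. -/
theorem exists_isIdeleNorm_single_div_diag_iff (p : ℕ) [hp : Fact p.Prime] (r : ℕ)
    (E : Type) [Field E] [NumberField E] [IsCyclotomicExtension {p ^ (r + 1)} ℚ E] (hp2 : p ≠ 2)
    (F : Type) [Field F] [NumberField F] [Algebra F E] [IsGalois ℚ F]
    (hF : Module.finrank ℚ F = p ^ r) (ℓ : Nat.Primes) (b : (SemiLocal ℓ ℚ)ˣ) :
    (∃ a : ℚˣ, IsIdeleNorm ℚ F (FinIdele.single ℓ b / FinIdele.diag ℚ a)) ↔
      IsSemiLocalNorm ℚ F ℓ b := by
  constructor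
  · intro h
    have hcop : (Module.finrank ℚ F).Coprime (p - 1) := by
      rw [hF]
      apply Nat.Coprime.pow_left
      rw [Nat.Prime.coprime_iff_not_dvd hp.out]
      have := hp.out.two_le
      exact Nat.not_dvd_of_pos_of_lt (by omega) (by omega)
    exact isSemiLocalNorm_of_cycloArtin_single_pow p r E hp2 F hcop ℓ b
      (cycloArtin_single_pow_eq_one_of_isIdeleNorm p r E hp2 F hF _ h)
  · intro h
    refine ⟨1, ?_⟩
    rw [map_one, div_one]
    exact isIdeleNorm_single_of_isSemiLocalNorm ℚ F ℓ h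

/-- **(e)** in `Ĥ⁰` form: the class of `(b at ℓ)` in `Ĥ⁰(Gal(F/ℚ), C_F)` vanishes iff `b` is a
semi-local norm. -/
theorem ideleToTateH0_single_eq_zero_iff (p : ℕ) [hp : Fact p.Prime] (r : ℕ)
    (E : Type) [Field E] [NumberField E] [IsCyclotomicExtension {p ^ (r + 1)} ℚ E] (hp2 : p ≠ 2)
    (F : Type) [Field F] [NumberField F] [Algebra F E] [IsGalois ℚ F]
    (hF : Module.finrank ℚ F = p ^ r) (ℓ : Nat.Primes) (b : (SemiLocal ℓ ℚ)ˣ) :
    ideleToTateH0 ℚ F (Additive.ofMul (FinIdele.single ℓ b)) = 0 ↔ IsSemiLocalNorm ℚ F ℓ b := by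
  rw [ideleToTateH0_eq_zero_iff]
  exact exists_isIdeleNorm_single_div_diag_iff p r E hp2 F hF ℓ b

end main

end Fermat.Agent.CFT.PT4
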