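/-
CFT global part, S55 package PT8 (LG'), helper2: finite-level local→global injectivity on `H²`
for the cyclotomic `p`-layers over `ℚ`.

* `H2EquivTateH0_map`: helper6's `H²(G, A) ≃ Ĥ⁰(G, A)` (cyclic `G`) is natural in the module;
* `H2map_injective_of_tateH0_map_injective`;
* `semiLocalToIdele ℓ`, `semiLocalToClass ℓ`: the morphisms of representations
  `(ℚ_ℓ ⊗ L)^× → J_L → C_L` of `Gal(L/K)`;
* `tateH0_map_semiLocalToClass_injective`, `H2map_semiLocalToClass_injective`: for the `p`-layer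
  `F ⊆ ℚ(ζ_{p^{r+1}})` of degree `p^r` the induced maps on `Ĥ⁰` and (cyclic case) on `H²` are
  injective.
-/
import Fermat.Agent.CFT.Global.PT4e_helper2_Main
import Fermat.Agent.CFT.Coh.Cup_helper2_Nat

set_option autoImplicit false
set_option linter.unusedSectionVars false
set_option linter.style.haveILetI false

open scoped NumberField TensorProduct
open CategoryTheory groupCohomology

namespace Fermat.Agent.CFT.PT4

open Coh

section cyclicNat

variable {k G : Type} [CommRing k] [Group G] [Finite G] {g : G}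
  (hg : ∀ x, x ∈ Subgroup.zpowers g)

/-- naturality of `H²(G, A) ≃ Ĥ⁰(G, A)` (cyclic `G`) in the module. -/
theorem H2EquivTateH0_map {A B : Rep k G} (φ : A ⟶ B) (y : H2 A) :
    H2EquivTateH0 hg B ((map (MonoidHom.id G) φ 2).hom y) =
      TateH0.map φ (H2EquivTateH0 hg A y) := by
  obtain ⟨x, rfl⟩ := (H2EquivTateH0 hg A).symm.surjective y
  rw [LinearEquiv.apply_symm_apply, ← cupδ_cycChar_eq_symm, map_id_cupδ,
    H2EquivTateH0_cupδ_cycChar]

include hg in
theorem H2map_injective_of_tateH0_map_injective {A B : Rep k G} (φ : A ⟶ B)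
    (h : Function.Injective (TateH0.map φ)) :
    Function.Injective (map (MonoidHom.id G) φ 2).hom := by
  intro y₁ y₂ h12
  apply (H2EquivTateH0 hg A).injective
  apply h
  rw [← H2EquivTateH0_map hg, ← H2EquivTateH0_map hg]
  exact congrArg _ h12

end cyclicNat

section maps

variable (K L : Type) [Field K] [NumberField K] [Field L] [NumberField L] [Algebra K L]
  (ℓ : Nat.Primes)

/-- The representation `(ℚ_ℓ ⊗ L)^×` of `Gal(L/K)`. -/
noncomputable abbrev semiLocalRep : Rep ℤ (L ≃ₐ[K] L) :=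
  Rep.ofMulDistribMulAction (L ≃ₐ[K] L) (SemiLocal ℓ L)ˣ

/-- `(ℚ_ℓ ⊗ L)^× → J_L`, the component at `ℓ`. -/
noncomputable def semiLocalToIdele : semiLocalRep K L ℓ ⟶ ideleRep K L :=
  Rep.ofHom
    { toLinearMap := (MonoidHom.toAdditive (FinIdele.single (F := L) ℓ)).toIntLinearMap
      isIntertwining' := fun σ => LinearMap.ext fun x => by
        change Additive.ofMul (FinIdele.single ℓ (σ • x.toMul)) =
          Additive.ofMul (σ • FinIdele.single ℓ x.toMul)
        rw [smul_single] }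

/-- `(ℚ_ℓ ⊗ L)^× → C_L`. -/
noncomputable def semiLocalToClass : semiLocalRep K L ℓ ⟶ ideleClassRep K L :=
  semiLocalToIdele K L ℓ ≫ classHom K L

lemma semiLocalToClass_hom_apply (x : (semiLocalRep K L ℓ).V) :
    (semiLocalToClass K L ℓ).hom x =
      Additive.ofMul (FinIdeleClass.mk (FinIdele.single ℓ (Additive.toMul x))) := rfl

end maps

section inj

variable (K L : Type) [Field K] [NumberField K] [Field L] [NumberField L] [Algebra K L]
  [IsGalois K L] (ℓ : Nat.Primes)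

/-- the invariants of `(ℚ_ℓ ⊗ L)^×` come from `(ℚ_ℓ ⊗ K)^×`. -/
lemma exists_unitsMap_eq_of_mem_invariants (a : (semiLocalRep K L ℓ).ρ.invariants) :
    ∃ b : (SemiLocal ℓ K)ˣ,
      (a : (semiLocalRep K L ℓ).V) = Additive.ofMul (SemiLocal.unitsMap ℓ (algebraMap K L) b) := by
  have h := (mem_invariants_ofMulDistribMulAction_iff (G := L ≃ₐ[K] L) (M := (SemiLocal ℓ L)ˣ)
    a.1).1 a.2
  obtain ⟨b, hb⟩ := (SemiLocal.units_mem_range_unitsMap_iff_fixed ℓ K L).2 h
  exact ⟨b, congrArg Additive.ofMul hb.symm⟩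

/-- the class in `Ĥ⁰(G, C_L)` of the image of `b ∈ (ℚ_ℓ ⊗ K)^×`. -/
lemma tateH0_map_semiLocalToClass_mk (a : (semiLocalRep K L ℓ).ρ.invariants)
    (b : (SemiLocal ℓ K)ˣ)
    (hab : (a : (semiLocalRep K L ℓ).V) =
      Additive.ofMul (SemiLocal.unitsMap ℓ (algebraMap K L) b)) :
    TateH0.map (semiLocalToClass K L ℓ) (TateH0.mk _ a) =
      ideleToTateH0 K L (Additive.ofMul (FinIdele.single ℓ b)) := by
  rw [TateH0.map_mk]
  change _ = TateH0.mk (ideleClassRep K L) (classInvHom K L _)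
  congr 1
  apply Subtype.ext
  rw [coe_invMap, coe_classInvHom, semiLocalToClass_hom_apply, hab]
  change _ = Additive.ofMul (FinIdeleClass.mk (FinIdele.map (algebraMap K L) (FinIdele.single ℓ b)))
  rw [map_single]
  rfl

/-- **general principle**: if `(b at ℓ) ∈ K^× N J_L` implies that `b` is a semi-local norm, then
`Ĥ⁰(G, (ℚ_ℓ ⊗ L)^×) → Ĥ⁰(G, C_L)` is injective. -/
theorem tateH0_map_semiLocalToClass_injective_of
    (h : ∀ b : (SemiLocal ℓ K)ˣ, ideleToTateH0 K L (Additive.ofMul (FinIdele.single ℓ b)) = 0 →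
      IsSemiLocalNorm K L ℓ b) :
    Function.Injective (TateH0.map (semiLocalToClass K L ℓ)) := by
  rw [injective_iff_map_eq_zero]
  intro x hx
  obtain ⟨a, rfl⟩ := TateH0.mk_surjective _ x
  obtain ⟨b, hab⟩ := exists_unitsMap_eq_of_mem_invariants K L ℓ a
  rw [tateH0_map_semiLocalToClass_mk K L ℓ a b hab] at hx
  obtain ⟨y, hy⟩ := h b hx
  rw [TateH0.mk_eq_zero_iff]
  refine ⟨Additive.ofMul y, ?_⟩
  rw [normMap_ofMulDistribMulAction, hab]
  exact congrArg Additive.ofMul hy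

end inj

section cyclotomic

/-- **(LG'.a), `Ĥ⁰` form**: for the `p`-layer `F ⊆ ℚ(ζ_{p^{r+1}})` of degree `p^r` the map
`Ĥ⁰(Gal(F/ℚ), (ℚ_ℓ ⊗ F)^×) → Ĥ⁰(Gal(F/ℚ), C_F)` is injective (every `ℓ`). -/
theorem tateH0_map_semiLocalToClass_injective (p : ℕ) [hp : Fact p.Prime] (r : ℕ)
    (E : Type) [Field E] [NumberField E] [IsCyclotomicExtension {p ^ (r + 1)} ℚ E] (hp2 : p ≠ 2)
    (F : Type) [Field F] [NumberField F] [Algebra F E] [IsGalois ℚ F]
    (hF : Module.finrank ℚ F = p ^ r) (ℓ : Nat.Primes) :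
    Function.Injective (TateH0.map (semiLocalToClass ℚ F ℓ)) :=
  tateH0_map_semiLocalToClass_injective_of ℚ F ℓ fun b hb =>
    (ideleToTateH0_single_eq_zero_iff p r E hp2 F hF ℓ b).1 hb

/-- **(LG'.a), `H²` form**: for the `p`-layer `F ⊆ ℚ(ζ_{p^{r+1}})` of degree `p^r` (with a chosen
generator `g` of `Gal(F/ℚ)`) the map `H²(Gal(F/ℚ), (ℚ_ℓ ⊗ F)^×) → H²(Gal(F/ℚ), C_F)` is injective
(every `ℓ`): a local class at one place is not a global class. -/
theorem H2map_semiLocalToClass_injective (p : ℕ) [hp : Fact p.Prime] (r : ℕ)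
    (E : Type) [Field E] [NumberField E] [IsCyclotomicExtension {p ^ (r + 1)} ℚ E] (hp2 : p ≠ 2)
    (F : Type) [Field F] [NumberField F] [Algebra F E] [IsGalois ℚ F]
    (hF : Module.finrank ℚ F = p ^ r) (ℓ : Nat.Primes) {g : F ≃ₐ[ℚ] F}
    (hg : ∀ x, x ∈ Subgroup.zpowers g) :
    Function.Injective
      (map (MonoidHom.id (F ≃ₐ[ℚ] F)) (A := semiLocalRep ℚ F ℓ) (B := ideleClassRep ℚ F)
        (semiLocalToClass ℚ F ℓ) 2).hom :=
  H2map_injective_of_tateH0_map_injective hg _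
    (tateH0_map_semiLocalToClass_injective p r E hp2 F hF ℓ)

end cyclotomic

end Fermat.Agent.CFT.PT4
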