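/-
CFT global part, S55 package PT8 (LG'), helper2: (LG'.b) the cyclotomic `p`-layers over `ℚ` have
non-trivial local norm residue groups at every prime `ℓ` (deep enough in the tower), hence classes
of exact order `p` in `H²(Gal(F_r/ℚ), (ℚ_ℓ ⊗ F_r)^×)`.

* `isSemiLocalNorm_iff_cycloArtin_single_pow`: the norm criterion as an iff;
* `not_isSemiLocalNorm_prime`: `ℓ ≠ p`, `ℓ^{p-1} < p^{r+1}`: `ℓ` is not a norm from `ℚ_ℓ ⊗ F_r`;
* `not_isSemiLocalNorm_one_add_p`: `ℓ = p`, `r ≥ 1`: `1 + p` is not a norm from `ℚ_p ⊗ F_r`;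
* `exists_not_isSemiLocalNorm`: for every `ℓ` there is `r₀` such that for all `r ≥ r₀` some unit of
  `ℚ_ℓ ⊗ ℚ` is not a norm from `ℚ_ℓ ⊗ F_r`;
* `exists_H2_semiLocalRep_order_p`: a class of order exactly `p` in `H²(Gal(F_r/ℚ), (ℚ_ℓ⊗F_r)^×)`.
-/
import Fermat.Agent.CFT.Global.LG_helper2_Finite

set_option autoImplicit false
set_option linter.unusedSectionVars false
set_option linter.style.haveILetI false

open scoped NumberField TensorProduct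
open CategoryTheory groupCohomology

namespace Fermat.Agent.CFT.PT4

open Coh

section criterion

/-- the local norm criterion for the `p`-layer `F ⊆ ℚ(ζ_{p^{r+1}})` of degree `p^r`. -/
theorem isSemiLocalNorm_iff_cycloArtin_single_pow (p : ℕ) [hp : Fact p.Prime] (r : ℕ)
    (E : Type) [Field E] [NumberField E] [IsCyclotomicExtension {p ^ (r + 1)} ℚ E] (hp2 : p ≠ 2)
    (F : Type) [Field F] [NumberField F] [Algebra F E] [IsGalois ℚ F]
    (hF : Module.finrank ℚ F = p ^ r) (ℓ : Nat.Primes) (b : (SemiLocal ℓ ℚ)ˣ) :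
    IsSemiLocalNorm ℚ F ℓ b ↔ cycloArtin p (r + 1) ℚ (FinIdele.single ℓ b) ^ (p - 1) = 1 := by
  constructor
  · intro h
    apply cycloArtin_single_pow_eq_one_of_isIdeleNorm p r E hp2 F hF
    refine ⟨1, ?_⟩
    rw [map_one, div_one]
    exact isIdeleNorm_single_of_isSemiLocalNorm ℚ F ℓ h
  · intro h
    have hcop : (Module.finrank ℚ F).Coprime (p - 1) := by
      rw [hF]
      apply Nat.Coprime.pow_left
      rw [Nat.Prime.coprime_iff_not_dvd hp.out]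
      have := hp.out.two_le
      exact Nat.not_dvd_of_pos_of_lt (by omega) (by omega)
    exact isSemiLocalNorm_of_cycloArtin_single_pow p r E hp2 F hcop ℓ b h

end criterion

section nonNorm

lemma one_add_pow_eq_add_sq_mul {R : Type*} [CommRing R] (x : R) (n : ℕ) :
    ∃ c : R, (1 + x) ^ n = 1 + n * x + x ^ 2 * c := by
  induction n with
  | zero => exact ⟨0, by simp⟩
  | succ n ih =>
    obtain ⟨c, hc⟩ := ih
    refine ⟨n + c + c * x, ?_⟩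
    rw [pow_succ, hc]
    push_cast
    ring

/-- `(1 + p)^{p-1} ≢ 1 mod p^2`. -/
lemma one_add_prime_pow_ne_one (p : ℕ) [hp : Fact p.Prime] {n : ℕ} (hn : 2 ≤ n) :
    ((1 + p : ℕ) : ZMod (p ^ n)) ^ (p - 1) ≠ 1 := by
  intro h
  obtain ⟨c, hc⟩ := one_add_pow_eq_add_sq_mul (p : ℤ) (p - 1)
  have h1 : (((1 + (p : ℤ)) ^ (p - 1) - 1 : ℤ) : ZMod (p ^ n)) = 0 := by
    push_cast
    have : ((1 + p : ℕ) : ZMod (p ^ n)) = 1 + (p : ZMod (p ^ n)) := by push_cast; ring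
    rw [← this, h, sub_self]
  rw [ZMod.intCast_zmod_eq_zero_iff_dvd] at h1
  have h2 : ((p : ℤ) ^ 2) ∣ (1 + (p : ℤ)) ^ (p - 1) - 1 := by
    refine Dvd.dvd.trans ?_ h1
    push_cast
    exact pow_dvd_pow _ hn
  rw [hc] at h2
  have h3 : ((p : ℤ) ^ 2) ∣ ((p - 1 : ℕ) : ℤ) * p := by
    have h4 : (1 + ((p - 1 : ℕ) : ℤ) * p + (p : ℤ) ^ 2 * c - 1) =
        ((p - 1 : ℕ) : ℤ) * p + (p : ℤ) ^ 2 * c := by ring
    rw [h4] at h2
    exact (Int.dvd_add_left (Dvd.intro _ rfl)).mp h2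
  have hp0 : (p : ℤ) ≠ 0 := by exact_mod_cast hp.out.ne_zero
  have h5 : (p : ℤ) ∣ ((p - 1 : ℕ) : ℤ) := by
    rw [sq] at h3
    exact (mul_dvd_mul_iff_right hp0).mp h3
  have h6 : p ∣ p - 1 := by exact_mod_cast h5
  have := hp.out.two_le
  exact absurd (Nat.le_of_dvd (by omega) h6) (by omega)

/-- `ℓ ≠ p`, `ℓ^{p-1} < p^{r+1}`: the uniformiser `ℓ` is not a norm from `ℚ_ℓ ⊗ F_r`. -/
theorem not_isSemiLocalNorm_prime (p : ℕ) [hp : Fact p.Prime] (r : ℕ)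
    (E : Type) [Field E] [NumberField E] [IsCyclotomicExtension {p ^ (r + 1)} ℚ E] (hp2 : p ≠ 2)
    (F : Type) [Field F] [NumberField F] [Algebra F E] [IsGalois ℚ F]
    (hF : Module.finrank ℚ F = p ^ r) (ℓ : Nat.Primes) (hne : (ℓ : ℕ) ≠ p)
    (hr : (ℓ : ℕ) ^ (p - 1) < p ^ (r + 1)) :
    ¬ IsSemiLocalNorm ℚ F ℓ (SemiLocal.ofUnits ℓ (primeUnit ℓ)) := by
  rw [isSemiLocalNorm_iff_cycloArtin_single_pow p r E hp2 F hF,
    cycloArtin_single_ofUnits p (r + 1) ℓ hne, coe_primeUnit, norm_rat_self]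
  intro h
  have h0 : padicValRat (ℓ : ℕ) (((ℓ : ℕ) : ℚ)) = 1 := by
    rw [padicValRat.of_nat, padicValNat_self, Nat.cast_one]
  rw [h0, zpow_one] at h
  have h1 := congrArg (fun z : (ZMod (p ^ (r + 1)))ˣ => (z : ZMod (p ^ (r + 1)))) h
  simp only [Units.val_pow_eq_pow_val, Units.val_one] at h1
  rw [coe_awayUnit_of_ne p (r + 1) ℓ hne] at h1
  have h2 : (((ℓ : ℕ) ^ (p - 1) : ℕ) : ZMod (p ^ (r + 1))) = ((1 : ℕ) : ZMod (p ^ (r + 1))) := by
    push_cast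
    exact h1
  rw [ZMod.natCast_eq_natCast_iff, Nat.ModEq, Nat.mod_eq_of_lt hr] at h2
  have hp1 : 1 < p ^ (r + 1) := Nat.one_lt_pow (Nat.succ_ne_zero r) hp.out.one_lt
  rw [Nat.mod_eq_of_lt hp1] at h2
  have h3 : 2 ≤ (ℓ : ℕ) := ℓ.2.two_le
  have h4 : 0 < p - 1 := by have := hp.out.two_le; omega
  have h5 : 1 < (ℓ : ℕ) ^ (p - 1) := Nat.one_lt_pow h4.ne' h3
  omega

/-- `1 + p` as a unit of `ℚ_p`. -/
noncomputable def padicOneAddPrime (p : ℕ) [hp : Fact p.Prime] : ℚ_[p]ˣ :=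
  Units.mk0 ((1 + p : ℕ) : ℚ_[p]) (by
    have : (1 + p : ℕ) ≠ 0 := by omega
    exact_mod_cast this)

/-- `ℓ = p`, `r ≥ 1`: the unit `1 + p` is not a norm from `ℚ_p ⊗ F_r`. -/
theorem not_isSemiLocalNorm_one_add_p (p : ℕ) [hp : Fact p.Prime] (r : ℕ) (hr : 1 ≤ r)
    (E : Type) [Field E] [NumberField E] [IsCyclotomicExtension {p ^ (r + 1)} ℚ E] (hp2 : p ≠ 2)
    (F : Type) [Field F] [NumberField F] [Algebra F E] [IsGalois ℚ F]
    (hF : Module.finrank ℚ F = p ^ r) :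
    ¬ IsSemiLocalNorm ℚ F p (padicUnits p (padicOneAddPrime p)) := by
  have hiff := isSemiLocalNorm_iff_cycloArtin_single_pow p r E hp2 F hF ⟨p, hp.out⟩
    (padicUnits p (padicOneAddPrime p))
  change IsSemiLocalNorm ℚ F p _ ↔ _ at hiff
  rw [hiff, cycloArtin_single_self, normUnits_padicUnits]
  intro h
  rw [inv_pow, inv_eq_one] at h
  have h1 := congrArg (fun z : (ZMod (p ^ (r + 1)))ˣ => (z : ZMod (p ^ (r + 1)))) h
  simp only [Units.val_pow_eq_pow_val, Units.val_one] at h1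
  have hnd : ¬ p ∣ 1 + p := by
    intro hd
    have := (Nat.dvd_add_left (dvd_refl p)).mp hd
    exact hp.out.one_lt.ne' (Nat.dvd_one.mp this)
  rw [pLocal_natCast_of_ne p (r + 1) hnd (padicOneAddPrime p) rfl] at h1
  exact one_add_prime_pow_ne_one p (by omega) h1

/-- **(LG'.b)** for every prime `ℓ` there is `r₀` such that for every `r ≥ r₀` the `p`-layer
`F_r ⊆ ℚ(ζ_{p^{r+1}})` of degree `p^r` has a non-norm at `ℓ`. -/
theorem exists_not_isSemiLocalNorm (p : ℕ) [hp : Fact p.Prime] (hp2 : p ≠ 2) (ℓ : Nat.Primes) :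
    ∃ r₀ : ℕ, ∀ r : ℕ, r₀ ≤ r → ∀ (E : Type) [Field E] [NumberField E]
      [IsCyclotomicExtension {p ^ (r + 1)} ℚ E] (F : Type) [Field F] [NumberField F]
      [Algebra F E] [IsGalois ℚ F], Module.finrank ℚ F = p ^ r →
      ∃ b : (SemiLocal ℓ ℚ)ˣ, ¬ IsSemiLocalNorm ℚ F ℓ b := by
  by_cases hℓ : (ℓ : ℕ) = p
  · refine ⟨1, fun r hr E _ _ _ F _ _ _ _ hF => ?_⟩
    obtain ⟨ℓ', hℓ'⟩ := ℓ
    change ℓ' = p at hℓ
    subst hℓ
    exact ⟨padicUnits ℓ' (padicOneAddPrime ℓ'),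
      not_isSemiLocalNorm_one_add_p ℓ' r hr E hp2 F hF⟩
  · refine ⟨(ℓ : ℕ) ^ (p - 1), fun r hr E _ _ _ F _ _ _ _ hF => ?_⟩
    refine ⟨SemiLocal.ofUnits ℓ (primeUnit ℓ),
      not_isSemiLocalNorm_prime p r E hp2 F hF ℓ hℓ ?_⟩
    calc (ℓ : ℕ) ^ (p - 1) ≤ r := hr
      _ < r + 1 := Nat.lt_succ_self r
      _ < p ^ (r + 1) := Nat.lt_pow_self hp.out.one_lt

end nonNorm

section orderP

/-- in an additive group: a nonzero element killed by `p^r` has a multiple of exact order `p`. -/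
lemma exists_nsmul_ne_zero_of_pow_nsmul_eq_zero {M : Type*} [AddCommGroup M] (p : ℕ) {x : M}
    (hx : x ≠ 0) (r : ℕ) (hr : p ^ r • x = 0) : ∃ i : ℕ, p ^ i • x ≠ 0 ∧ p • (p ^ i • x) = 0 := by
  induction r with
  | zero => rw [pow_zero, one_smul] at hr; exact absurd hr hx
  | succ r ih =>
    by_cases h : p ^ r • x = 0
    · exact ih h
    · refine ⟨r, h, ?_⟩
      rw [← mul_smul, ← pow_succ']
      exact hr

/-- **(LG'.b), `H²` form**: if `b` is not a norm from `ℚ_ℓ ⊗ F` (`F/ℚ` cyclic of degree `p^r`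
with generator `g`), there is a class of exact order `p` in `H²(Gal(F/ℚ), (ℚ_ℓ ⊗ F)^×)`. -/
theorem exists_H2_semiLocalRep_order_p (p r : ℕ) (F : Type) [Field F] [NumberField F]
    [IsGalois ℚ F] (hF : Module.finrank ℚ F = p ^ r) (ℓ : Nat.Primes) {g : F ≃ₐ[ℚ] F}
    (hg : ∀ x, x ∈ Subgroup.zpowers g) (b : (SemiLocal ℓ ℚ)ˣ)
    (hb : ¬ IsSemiLocalNorm ℚ F ℓ b) :
    ∃ z : H2 (semiLocalRep ℚ F ℓ), z ≠ 0 ∧ p • z = 0 := by
  -- the class of `b` in `Ĥ⁰`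
  have hinv : Additive.ofMul (SemiLocal.unitsMap ℓ (algebraMap ℚ F) b) ∈
      (semiLocalRep ℚ F ℓ).ρ.invariants :=
    (mem_invariants_ofMulDistribMulAction_iff (G := F ≃ₐ[ℚ] F) (M := (SemiLocal ℓ F)ˣ) _).2
      fun σ => (SemiLocal.units_mem_range_unitsMap_iff_fixed ℓ ℚ F).1 ⟨b, rfl⟩ σ
  set a : (semiLocalRep ℚ F ℓ).ρ.invariants := ⟨_, hinv⟩ with ha
  set x : TateH0 (semiLocalRep ℚ F ℓ) := TateH0.mk _ a with hx
  have hx0 : x ≠ 0 := by
    intro h0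
    rw [hx, TateH0.mk_eq_zero_iff] at h0
    obtain ⟨y, hy⟩ := h0
    apply hb
    refine ⟨Additive.toMul y, ?_⟩
    have h1 := normMap_ofMulDistribMulAction (G := F ≃ₐ[ℚ] F) (M := (SemiLocal ℓ F)ˣ) y
    have h2 : normMap (semiLocalRep ℚ F ℓ) y =
        Additive.ofMul (SemiLocal.unitsMap ℓ (algebraMap ℚ F) b) := hy
    exact congrArg Additive.toMul (h1.symm.trans h2)
  have hcard : p ^ r • x = 0 := by
    rw [hx, ← map_nsmul, TateH0.mk_eq_zero_iff]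
    refine ⟨(a : (semiLocalRep ℚ F ℓ).V), ?_⟩
    rw [normMap_of_mem_invariants _ a.2, IsGalois.card_aut_eq_finrank, hF]
    rfl
  obtain ⟨i, hi0, hip⟩ := exists_nsmul_ne_zero_of_pow_nsmul_eq_zero p hx0 r hcard
  refine ⟨(H2EquivTateH0 hg (semiLocalRep ℚ F ℓ)).symm (p ^ i • x), ?_, ?_⟩
  · intro h
    apply hi0
    have := congrArg (H2EquivTateH0 hg (semiLocalRep ℚ F ℓ)) h
    rwa [LinearEquiv.apply_symm_apply, map_zero] at this
  · rw [← map_nsmul, hip, map_zero]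

end orderP

end Fermat.Agent.CFT.PT4
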