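/-
CFT global part, S55 package PT8 (LG'), helper2: ASSEMBLY of the local–global injectivity (LG').

`D : SmRep ℤ (levelBasis S)` any smooth module with a morphism `j : (ℚ_ℓ ⊗ ℚ_S)ˣ ⟶ D` such that
for the cyclotomic levels `F` the idele classes `C_F` map to `D^{Gal(Ω/F)}` compatibly with `j`
and injectively on `H²` (data `LevelClassData`).  If `smH²(Γ, (ℚ_ℓ ⊗ ℚ_S)ˣ)[p]` is cyclic and
`smH¹(V, D)` has no `p`-torsion for open `V`, then `smH²(j)` is injective on the `p`-torsion.
-/
import Fermat.Agent.CFT.Global.LG_helper2_Level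
import Fermat.Agent.CFT.Global.LG_helper2_NonNorm
import Fermat.Agent.CFT.Global.LG_helper2_Layers
import Fermat.Agent.CFT.Sm.LGAbstract_helper2
import Fermat.Agent.CFT.Coh.MapIso_helper2

set_option autoImplicit false
set_option linter.unusedSectionVars false
set_option linter.style.haveILetI false

open scoped NumberField TensorProduct
open CategoryTheory groupCohomology

namespace Fermat.Agent.CFT.PT4

open Fermat.Agent.CFT.Arith Fermat.Agent.CFT.Sm

/-- `Ω = AlgebraicClosure ℚ`. -/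
local notation "Ω" => AlgebraicClosure ℚ
/-- `Γ = Gal(Ω/ℚ)`. -/
local notation "Γ" => (AlgebraicClosure ℚ ≃ₐ[ℚ] AlgebraicClosure ℚ)

section layer

variable (S : Finset Nat.Primes) (ℓ : Nat.Primes) {D : SmRep ℤ (levelBasis S)}
  (j : JSlSm S (ℓ : ℕ) ⟶ D) (F : IntermediateField ℚ Ω) [NumberField F] [IsGalois ℚ F]
  [hN : (F.fixingSubgroup).Normal] (hF : F.IsUnramifiedOutside S)

/-- The finite-level datum for `D` at the level `F`: a morphism `C_F ⟶ D^{Gal(Ω/F)}` of
`Γ ⧸ Gal(Ω/F)`-representations, injective on `H²` and compatible with `j`. -/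
structure LevelClassData where
  /-- the morphism `C_F ⟶ D^V` -/
  φ : Rep.res (galQuot F).toMonoidHom (ideleClassRep ℚ F) ⟶ levelRep D F.fixingSubgroup
  /-- injectivity on `H²` -/
  inj : Function.Injective (groupCohomology.map (galQuot F).toMonoidHom φ 2).hom
  /-- compatibility with `j` -/
  comm : semiLocalLevelMor S ℓ F hF ≫ levelMap j F.fixingSubgroup =
    (Rep.resFunctor (galQuot F).toMonoidHom).map (semiLocalToClass ℚ F ℓ) ≫ φ

variable {S ℓ j F hF}

/-- the compatibility square on `H²`. -/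
lemma LevelClassData.map_comm (d : LevelClassData S ℓ j F hF) :
    groupCohomology.map (galQuot F).toMonoidHom (semiLocalLevelMor S ℓ F hF) 2 ≫
        levelHMap j F.fixingSubgroup 2 =
      groupCohomology.map (MonoidHom.id (F ≃ₐ[ℚ] F)) (A := semiLocalRep ℚ F ℓ)
          (B := ideleClassRep ℚ F) (semiLocalToClass ℚ F ℓ) 2 ≫
        groupCohomology.map (galQuot F).toMonoidHom d.φ 2 := by
  unfold levelHMap
  rw [← groupCohomology.map_comp, ← groupCohomology.map_comp]
  exact groupCohomology.map_congr rfl (by rw [← d.comm]; rfl) 2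

/-- at a level with a `LevelClassData`, `H²(Γ ⧸ V, j^V)` is injective as soon as
`H²(Gal(F/ℚ), (ℚ_ℓ ⊗ F)ˣ) → H²(Gal(F/ℚ), C_F)` is. -/
lemma LevelClassData.levelHMap_injective (d : LevelClassData S ℓ j F hF)
    (h : Function.Injective
      (groupCohomology.map (MonoidHom.id (F ≃ₐ[ℚ] F)) (A := semiLocalRep ℚ F ℓ)
        (B := ideleClassRep ℚ F) (semiLocalToClass ℚ F ℓ) 2).hom) :
    Function.Injective (levelHMap j F.fixingSubgroup 2).hom := by
  intro x y hxy
  obtain ⟨x', rfl⟩ := (map_semiLocalLevelMor_bijective S ℓ F hF 2).2 x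
  obtain ⟨y', rfl⟩ := (map_semiLocalLevelMor_bijective S ℓ F hF 2).2 y
  have h1 := congrArg (fun t => t.hom x') d.map_comm
  have h2 := congrArg (fun t => t.hom y') d.map_comm
  simp only [ModuleCat.hom_comp, LinearMap.comp_apply] at h1 h2
  rw [h1, h2] at hxy
  rw [h (d.inj hxy)]

/-- Constructor: a quotient `q : C_F ⟶ B` of `Gal(F/ℚ)`-representations injective on `H²`
(e.g. `B = B_F = J_F/(F^× U^S)`) and an isomorphism `B ≅ D^V` along `Γ ⧸ V ≃* Gal(F/ℚ)`. -/
noncomputable def LevelClassData.ofIso {B : Rep ℤ (F ≃ₐ[ℚ] F)} (q : ideleClassRep ℚ F ⟶ B)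
    (hq : Function.Injective (groupCohomology.map (MonoidHom.id (F ≃ₐ[ℚ] F))
      (A := ideleClassRep ℚ F) (B := B) q 2).hom)
    (ι : Rep.res (galQuot F).toMonoidHom B ≅ levelRep D F.fixingSubgroup)
    (comm : semiLocalLevelMor S ℓ F hF ≫ levelMap j F.fixingSubgroup =
      (Rep.resFunctor (galQuot F).toMonoidHom).map (semiLocalToClass ℚ F ℓ ≫ q) ≫ ι.hom) :
    LevelClassData S ℓ j F hF where
  φ := (Rep.resFunctor (galQuot F).toMonoidHom).map q ≫ ι.hom
  inj := by
    rw [← Coh.map_id_comp_map]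
    intro x y hxy
    simp only [ModuleCat.hom_comp, LinearMap.comp_apply] at hxy
    exact hq ((Coh.map_bijective_of_mulEquiv_of_iso (galQuot F) ι 2).1 hxy)
  comm := by
    rw [comm, Functor.map_comp, Category.assoc]

end layer

section main

variable {S : Finset Nat.Primes} {p : ℕ} [hp : Fact p.Prime]

/-- **(LG') from finite-level data.**  `p ∈ S` odd, `ℓ` any prime; `j : (ℚ_ℓ ⊗ ℚ_S)ˣ ⟶ D`.
Hypotheses: `smH²(Γ, (ℚ_ℓ ⊗ ℚ_S)ˣ)[p]` is cyclic (an invariant map injective on it); every level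
`F` carries a `LevelClassData` (idele classes of `F` map to `D^{Gal(Ω/F)}`, injectively on `H²`,
compatibly with `j`); `smH¹(V, D)` has no `p`-torsion for the open subgroups `V`.  Then `smH²(j)`
is injective on the `p`-torsion. -/
theorem smH_two_map_JSl_eq_zero_imp (hp2 : p ≠ 2) (hpS : (⟨p, hp.out⟩ : Nat.Primes) ∈ S)
    (ℓ : Nat.Primes) {D : SmRep ℤ (levelBasis S)} (j : JSlSm S (ℓ : ℕ) ⟶ D)
    (inv : smH (levelBasis S) (JSlSm S (ℓ : ℕ)) 2 →+ AddCircle (1 : ℚ))
    (hinv : ∀ x : smH (levelBasis S) (JSlSm S (ℓ : ℕ)) 2, p • x = 0 → inv x = 0 → x = 0)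
    (hD : ∀ (F : IntermediateField ℚ Ω) [NumberField F] [IsGalois ℚ F]
      [(F.fixingSubgroup).Normal] (hF : IsLevel S F), Nonempty (LevelClassData S ℓ j F hF.1))
    (h1 : ∀ (V : Subgroup Γ), (levelBasis S).IsOpen V →
      ∀ x : smH ((levelBasis S).comap V.subtype) (resSub D V) 1, p • x = 0 → x = 0)
    (z : smH (levelBasis S) (JSlSm S (ℓ : ℕ)) 2) (hz : p • z = 0)
    (hjz : ((smHFunctor ℤ (levelBasis S) 2).map j).hom z = 0) : z = 0 := by
  obtain ⟨r₀, hr₀⟩ := exists_not_isSemiLocalNorm p hp2 ℓ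
  obtain ⟨E, F, hFE, hEl, hFl, hcyc, hdeg, hcycG⟩ := exists_cyclotomic_layer (S := S) hp2 hpS r₀
  haveI : FiniteDimensional ℚ E := hEl.finiteDimensional
  haveI : FiniteDimensional ℚ F := hFl.finiteDimensional
  haveI : NumberField E := { to_charZero := inferInstance, to_finiteDimensional := inferInstance }
  haveI : NumberField F := { to_charZero := inferInstance, to_finiteDimensional := inferInstance }
  haveI : IsGalois ℚ F := hFl.isGalois
  haveI : (F.fixingSubgroup).Normal := hFl.normal_fixingSubgroup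
  letI : Algebra F E := (IntermediateField.inclusion hFE).toRingHom.toAlgebra
  obtain ⟨b, hb⟩ := hr₀ r₀ le_rfl E F hdeg
  obtain ⟨g, hg⟩ := hcycG.exists_generator
  obtain ⟨z₀, hz₀, hpz₀⟩ := exists_H2_semiLocalRep_order_p p r₀ F hdeg ℓ hg b hb
  have hinj := H2map_semiLocalToClass_injective p r₀ E hp2 F hdeg ℓ hg
  obtain ⟨d⟩ := hD F hFl
  have hV : (levelBasis S).IsOpen F.fixingSubgroup :=
    (levelBasis S).isOpen_of_mem (fixingSubgroup_mem_levelBasis hFl)
  set zV := (groupCohomology.map (galQuot F).toMonoidHom (semiLocalLevelMor S ℓ F hFl.1) 2).hom z₀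
    with hzV
  have hzV0 : zV ≠ 0 := by
    intro h
    apply hz₀
    apply (map_semiLocalLevelMor_bijective S ℓ F hFl.1 2).1
    rw [map_zero]
    exact h
  have hpzV : p • zV = 0 := by rw [hzV, ← map_nsmul, hpz₀, map_zero]
  exact smH_two_map_eq_zero_imp_of_level'' j p inv hinv F.fixingSubgroup hV zV hzV0 hpzV
    (d.levelHMap_injective hinj) (h1 _ hV) z hz hjz

end main

end Fermat.Agent.CFT.PT4
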