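/-
CFT global part (G5), helper3: the two restriction bijections in `Gal(M/K) = Gal(M/L) × Gal(M/K(ζ))`:
`Gal(M/K(ζ)) → Gal(L/K)` (`bijective_rho_galIncl_adjoin`) and `Gal(M/L) → Gal(K(ζ)/K)`
(`existsUnique_restrict_eq`).
-/
import Fermat.Agent.CFT.Global.Crossing_helper3_Hasse

set_option autoImplicit false
set_option linter.unusedSectionVars false
set_option linter.style.haveILetI false

open scoped NumberField Pointwise
open IsDedekindDomain
open Fermat.Agent.CFT.Coh Fermat.Agent.CFT.Local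

namespace Fermat.Agent.CFT.Crossing

section bij

variable {p : ℕ} [hp : Fact p.Prime] {r : ℕ}
variable {K L M : Type} [Field K] [NumberField K] [Field L] [NumberField L] [Field M]
  [NumberField M] [Algebra K L] [Algebra K M] [Algebra L M] [IsScalarTower K L M]
  [IsGalois K L] [IsGalois K M] [IsCyclotomicExtension {p} ℚ K]
variable {ζ : M} (hζ : IsPrimitiveRoot ζ (p ^ (r + 1)))

include hζ in
/-- `Gal(M/K(ζ)) → Gal(L/K)`, `t ↦ t|_L`, is bijective. -/
lemma bijective_rho_galIncl_adjoin (htop : IntermediateField.adjoin L {ζ} = ⊤)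
    (hcard : Nat.card (L ≃ₐ[K] L) = p)
    (hsplit : ∀ Q : Ideal (𝓞 L), Q.IsPrime → (p : 𝓞 L) ∈ Q →
      ∀ σ : L ≃ₐ[K] L, (∀ x ∈ Q, σ • x ∈ Q) → σ = 1) :
    Function.Bijective (fun t : M ≃ₐ[IntermediateField.adjoin K {ζ}] M =>
      rho K L (galIncl K (IntermediateField.adjoin K {ζ}) M t)) := by
  have hG1 : ∃ σ : L ≃ₐ[K] L, σ ≠ 1 := by
    by_contra hcon
    push Not at hcon
    haveI : Subsingleton (L ≃ₐ[K] L) := ⟨fun a b => (hcon a).trans (hcon b).symm⟩
    have := Nat.card_of_subsingleton (1 : L ≃ₐ[K] L)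
    rw [hcard] at this
    exact hp.out.one_lt.ne' this
  have hne := ker_kappa_ne_bot hζ hG1 hsplit
  have hinf := eq_one_of_mem_ker_rho_of_mem_ker_kappa (K := K) (L := L) hζ htop
  have hex := exists_mem_ker_of_prime_card (rho K L (M := M)) (kappa K hζ) hcard hinf hne
  constructor
  · intro σ τ h
    apply galIncl_injective K (IntermediateField.adjoin K {ζ}) M
    apply eq_of_rho_eq_of_kappa_eq hζ htop _ _ h
    have h1 : galIncl K (IntermediateField.adjoin K {ζ}) M σ ∈ (kappa K hζ).ker := by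
      rw [ker_kappa_eq_range]; exact ⟨σ, rfl⟩
    have h2 : galIncl K (IntermediateField.adjoin K {ζ}) M τ ∈ (kappa K hζ).ker := by
      rw [ker_kappa_eq_range]; exact ⟨τ, rfl⟩
    rw [MonoidHom.mem_ker.mp h1, MonoidHom.mem_ker.mp h2]
  · intro g
    obtain ⟨t, ht, hρt⟩ := hex g
    rw [ker_kappa_eq_range] at ht
    obtain ⟨σ, rfl⟩ := ht
    exact ⟨σ, hρt⟩

include hζ in
/-- `Gal(M/L) → Gal(K(ζ)/K)`, `h ↦ h|_{K(ζ)}`, is bijective: every `γ ∈ Gal(K(ζ)/K)` is the
restriction of a unique `h ∈ Gal(M/L)`. -/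
lemma existsUnique_restrict_eq (htop : IntermediateField.adjoin L {ζ} = ⊤)
    (hcard : Nat.card (L ≃ₐ[K] L) = p)
    (hsplit : ∀ Q : Ideal (𝓞 L), Q.IsPrime → (p : 𝓞 L) ∈ Q →
      ∀ σ : L ≃ₐ[K] L, (∀ x ∈ Q, σ • x ∈ Q) → σ = 1)
    (γ : (IntermediateField.adjoin K {ζ}) ≃ₐ[K] (IntermediateField.adjoin K {ζ})) :
    ∃! h : M ≃ₐ[L] M, ∀ x : IntermediateField.adjoin K {ζ}, h (x : M) = ((γ x : _) : M) := by
  have hinf := eq_one_of_mem_ker_rho_of_mem_ker_kappa (K := K) (L := L) hζ htop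
  obtain ⟨hbij1, hbij2⟩ := bijective_rho_galIncl_adjoin hζ htop hcard hsplit
  -- lift `γ` to `M`
  set σ : M ≃ₐ[K] M := γ.liftNormal M with hσ
  have hσx : ∀ x : IntermediateField.adjoin K {ζ}, σ (x : M) = ((γ x : _) : M) :=
    fun x => γ.liftNormal_commutes M x
  obtain ⟨t, ht⟩ := hbij2 (rho K L σ)
  replace ht : rho K L (galIncl K (IntermediateField.adjoin K {ζ}) M t) = rho K L σ := ht
  set t' : M ≃ₐ[K] M := galIncl K (IntermediateField.adjoin K {ζ}) M t with ht'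
  have ht'x : ∀ x : IntermediateField.adjoin K {ζ}, t'⁻¹ (x : M) = x := by
    intro x
    have h1 : t' (x : M) = x := by
      rw [ht', galIncl_apply]
      exact t.commutes x
    have h2 : t'⁻¹ (t' (x : M)) = x := by
      rw [← AlgEquiv.mul_apply, inv_mul_cancel]; rfl
    rw [h1] at h2
    exact h2
  have hmem : t'⁻¹ * σ ∈ (galIncl K L M).range := by
    rw [← ker_rho_eq_range, MonoidHom.mem_ker, map_mul, map_inv, ht', ht, inv_mul_cancel]
  obtain ⟨h, hh⟩ := hmem
  refine ⟨h, ?_, ?_⟩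
  · intro x
    rw [← galIncl_apply K L M h, hh, AlgEquiv.mul_apply, hσx, ht'x]
  · intro h₂ hh₂
    apply galIncl_injective K L M
    have hζE : ζ ∈ IntermediateField.adjoin K {ζ} := IntermediateField.mem_adjoin_simple_self K ζ
    have hmem : ∀ h' : M ≃ₐ[L] M, rho K L (galIncl K L M h') = 1 := by
      intro h'
      rw [← MonoidHom.mem_ker, ker_rho_eq_range]
      exact ⟨_, rfl⟩
    apply eq_of_rho_eq_of_kappa_eq hζ htop
    · rw [hmem, hmem]
    · rw [kappa_eq_iff, kappa_spec, galIncl_apply, galIncl_apply]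
      have e1 := hh₂ ⟨ζ, hζE⟩
      have e2 : h ζ = ((γ ⟨ζ, hζE⟩ : _) : M) := by
        have e3 := hσx ⟨ζ, hζE⟩
        have e4 := ht'x (γ ⟨ζ, hζE⟩)
        rw [← galIncl_apply K L M h, hh, AlgEquiv.mul_apply]
        change t'⁻¹ (σ ζ) = _
        change σ ζ = _ at e3
        rw [e3, e4]
      rw [e2]
      exact e1

end bij

end Fermat.Agent.CFT.Crossing
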