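import Fermat.Agent.CFT.Global.Interface_helper3
import Fermat.Agent.CFT.Global.G02_helper5_Frobenius
import Fermat.Agent.CFT.Global.G04_lead_Content

/-!
# CFT (G6a): the Artin map on the class group, from reciprocity on principal ideals

* `exists_frob` (G6a-1): in an abelian extension of number fields the Frobenius element depends
  only on the prime below;
* `exists_art_of_reciprocity` (G6a-2): if `∏ᵥ Frob_v ^ ord_v b = 1` for all `b ∈ Kˣ` and the
  Frobenius elements generate the Galois group, then `P ↦ Frob_P` induces a surjective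
  homomorphism `ClassGroup (𝓞 K) →* Gal(L/K)`;
* `frob_ne_one_of_stabilizer` (G6a-3): in an unramified extension, the Frobenius at a prime with
  nontrivial decomposition group is nontrivial.
-/

set_option autoImplicit false
set_option linter.unusedSectionVars false
set_option linter.style.haveILetI false

open scoped NumberField Pointwise nonZeroDivisors
open IsDedekindDomain

namespace Fermat.Agent.CFT

section G6a

variable (K L : Type) [Field K] [NumberField K] [Field L] [NumberField L] [Algebra K L]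
  [IsGalois K L]

/-- **(G6a-1)** For an abelian extension the Frobenius element only depends on the prime below. -/
theorem exists_frob (hcomm : ∀ σ τ : L ≃ₐ[K] L, σ * τ = τ * σ) :
    ∃ frob : HeightOneSpectrum (𝓞 K) → (L ≃ₐ[K] L),
      ∀ (v : HeightOneSpectrum (𝓞 K)) (Q : Ideal (𝓞 L)), Q.IsPrime → Q.under (𝓞 K) = v.asIdeal →
        IsArithFrobAt (𝓞 K) (frob v) Q := by
  classical
  have key : ∀ v : HeightOneSpectrum (𝓞 K), ∃ σ : L ≃ₐ[K] L,
      ∀ Q : Ideal (𝓞 L), Q.IsPrime → Q.under (𝓞 K) = v.asIdeal → IsArithFrobAt (𝓞 K) σ Q := by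
    intro v
    -- a prime above `v`
    obtain ⟨Q₀, hQ₀max, hQ₀⟩ : ∃ Q₀ : Ideal (𝓞 L), Q₀.IsMaximal ∧ Q₀.under (𝓞 K) = v.asIdeal := by
      haveI := v.isMaximal
      obtain ⟨Q₀, hQ₀, hQ₀'⟩ := Ideal.exists_maximal_ideal_liesOver_of_isIntegral (S := 𝓞 L)
        (v.asIdeal)
      exact ⟨Q₀, hQ₀, hQ₀'.over.symm⟩
    haveI : Q₀.IsPrime := hQ₀max.isPrime
    have hQ₀0 : Q₀ ≠ ⊥ := by
      intro h
      rw [h] at hQ₀
      exact v.ne_bot (by rw [← hQ₀]; exact Ideal.under_bot _ _)
    haveI : Finite (𝓞 L ⧸ Q₀) := Ideal.finiteQuotientOfFreeOfNeBot Q₀ hQ₀0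
    obtain ⟨σ, hσ⟩ := IsArithFrobAt.exists_of_isInvariant (𝓞 K) (L ≃ₐ[K] L) Q₀
    refine ⟨σ, fun Q hQ hQv => ?_⟩
    obtain ⟨τ, hτ⟩ := Algebra.IsInvariant.exists_smul_of_under_eq (𝓞 K) (𝓞 L) (L ≃ₐ[K] L) Q₀ Q
      (by rw [hQ₀, hQv])
    have h1 := hσ.conj τ
    rw [hcomm τ σ, mul_inv_cancel_right, ← hτ] at h1
    exact h1
  choose frob hfrob using key
  exact ⟨frob, hfrob⟩

/-- **(G6a-3)** In an unramified extension, the Frobenius at a prime with nontrivial decomposition
group is nontrivial. -/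
theorem frob_ne_one_of_stabilizer
    (hunr : ∀ Q : Ideal (𝓞 L), Q.IsPrime → Q ≠ ⊥ →
      ∀ σ : L ≃ₐ[K] L, (∀ x : 𝓞 L, σ • x - x ∈ Q) → σ = 1)
    (Q : Ideal (𝓞 L)) (hQ : Q.IsPrime) (hQ0 : Q ≠ ⊥) (σ : L ≃ₐ[K] L) (hσ1 : σ ≠ 1)
    (hσ : ∀ x ∈ Q, σ • x ∈ Q) (φ : L ≃ₐ[K] L) (hφ : IsArithFrobAt (𝓞 K) φ Q) : φ ≠ 1 := by
  rintro rfl
  apply hσ1
  have hle : σ • Q ≤ Q := by
    intro y hy
    rw [Ideal.mem_pointwise_smul_iff_inv_smul_mem] at hy
    have := hσ _ hy
    rwa [smul_inv_smul] at this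
  have hpow : ∀ k : ℕ, σ ^ k • Q ≤ Q := by
    intro k
    induction k with
    | zero => simp
    | succ k ih =>
      rw [pow_succ, mul_smul]
      exact (Ideal.pointwise_smul_le_pointwise_smul_iff.2 hle).trans ih
  have hσQ : σ • Q = Q := by
    refine le_antisymm hle ?_
    have hn : 0 < orderOf σ := orderOf_pos σ
    have h1 := hpow (orderOf σ - 1)
    have h2 : σ • (σ ^ (orderOf σ - 1) • Q) ≤ σ • Q := Ideal.pointwise_smul_le_pointwise_smul_iff.2 h1
    rw [← mul_smul, ← pow_succ', Nat.sub_add_cancel hn, pow_orderOf_eq_one, one_smul] at h2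
    exact h2
  have := mem_zpowers_of_smul_eq (K := K) hQ0 (hunr Q hQ hQ0) hφ hσQ
  rw [Subgroup.zpowers_one_eq_bot, Subgroup.mem_bot] at this
  exact this

lemma ordAt_heightOne (v : HeightOneSpectrum (𝓞 K)) (x : K) :
    ordAt K v.asIdeal x = -(WithZero.log (v.valuation K x)) := by
  unfold ordAt
  rw [dif_pos ⟨v.isPrime, v.ne_bot⟩]

/-- The product `∏ᶠ v, g v ^ count v I` as a homomorphism on invertible fractional ideals. -/
noncomputable def idealProdHom {A : Type} [CommGroup A] (g : HeightOneSpectrum (𝓞 K) → A) :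
    (FractionalIdeal (𝓞 K)⁰ K)ˣ →* A where
  toFun I := ∏ᶠ v : HeightOneSpectrum (𝓞 K),
    g v ^ FractionalIdeal.count K v (I : FractionalIdeal (𝓞 K)⁰ K)
  map_one' := by
    simp [FractionalIdeal.count_one]
  map_mul' I J := by
    have hfin : ∀ I : (FractionalIdeal (𝓞 K)⁰ K)ˣ, (Function.mulSupport fun v =>
        g v ^ FractionalIdeal.count K v (I : FractionalIdeal (𝓞 K)⁰ K)).Finite := by
      intro I
      have := FractionalIdeal.finite_factors (K := K) (I : FractionalIdeal (𝓞 K)⁰ K)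
      rw [Filter.eventually_cofinite] at this
      refine this.subset ?_
      intro v hv h0
      rw [Function.mem_mulSupport] at hv
      apply hv
      rw [h0, zpow_zero]
    rw [← finprod_mul_distrib (hfin I) (hfin J)]
    refine finprod_congr fun v => ?_
    rw [Units.val_mul, FractionalIdeal.count_mul K v (Units.ne_zero I) (Units.ne_zero J), zpow_add]

lemma idealProdHom_apply {A : Type} [CommGroup A] (g : HeightOneSpectrum (𝓞 K) → A)
    (I : (FractionalIdeal (𝓞 K)⁰ K)ˣ) :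
    idealProdHom K g I = ∏ᶠ v : HeightOneSpectrum (𝓞 K),
      g v ^ FractionalIdeal.count K v (I : FractionalIdeal (𝓞 K)⁰ K) := rfl

open Classical in
lemma idealProdHom_mk0_prime {A : Type} [CommGroup A] (g : HeightOneSpectrum (𝓞 K) → A)
    (v : HeightOneSpectrum (𝓞 K)) :
    idealProdHom K g (FractionalIdeal.mk0 K ⟨v.asIdeal, mem_nonZeroDivisors_of_ne_zero v.ne_bot⟩) =
      g v := by
  rw [idealProdHom_apply, finprod_eq_single _ v]
  · rw [FractionalIdeal.coe_mk0]
    change g v ^ FractionalIdeal.count K v ((v.asIdeal : Ideal (𝓞 K)) : FractionalIdeal (𝓞 K)⁰ K) = _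
    rw [FractionalIdeal.count_self, zpow_one]
  · intro w hw
    rw [FractionalIdeal.coe_mk0]
    change g w ^ FractionalIdeal.count K w ((v.asIdeal : Ideal (𝓞 K)) : FractionalIdeal (𝓞 K)⁰ K) = _
    rw [FractionalIdeal.count_maximal_coprime K w (Ne.symm hw), zpow_zero]

/-- **(G6a-2)** The Artin map on the class group, from the reciprocity law on principal ideals. -/
theorem exists_art_of_reciprocity
    (frob : HeightOneSpectrum (𝓞 K) → (L ≃ₐ[K] L))
    (hfrob : ∀ (v : HeightOneSpectrum (𝓞 K)) (Q : Ideal (𝓞 L)), Q.IsPrime →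
      Q.under (𝓞 K) = v.asIdeal → IsArithFrobAt (𝓞 K) (frob v) Q)
    {A : Type} [CommGroup A] (f : (L ≃ₐ[K] L) →* A) (hf : Function.Injective f)
    (hrec : ∀ b : Kˣ, ∏ᶠ v : HeightOneSpectrum (𝓞 K),
      f (frob v) ^ ordAt K v.asIdeal (b : K) = 1)
    (hgen : Subgroup.closure (Set.range frob) = ⊤) :
    ∃ Art : ClassGroup (𝓞 K) →* (L ≃ₐ[K] L), Function.Surjective Art ∧
      ∀ (P : Ideal (𝓞 K)) (_ : P.IsPrime) (hP0 : P ≠ ⊥) (Q : Ideal (𝓞 L)), Q.IsPrime →
        Q.under (𝓞 K) = P →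
        IsArithFrobAt (𝓞 K) (Art (ClassGroup.mk0 ⟨P, mem_nonZeroDivisors_of_ne_zero hP0⟩)) Q := by
  classical
  set Φ := idealProdHom K (fun v => f (frob v)) with hΦ
  -- `Φ` kills principal ideals
  have hker : (toPrincipalIdeal (𝓞 K) K).range ≤ Φ.ker := by
    rintro _ ⟨b, rfl⟩
    rw [MonoidHom.mem_ker, hΦ, idealProdHom_apply, ← hrec b]
    refine finprod_congr fun v => ?_
    rw [coe_toPrincipalIdeal, count_spanSingleton v b.ne_zero, ordAt_heightOne]
  -- the induced map on the class group, with values in `A`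
  set Ψ : ClassGroup (𝓞 K) →* A :=
    (QuotientGroup.lift _ Φ hker).comp (ClassGroup.equiv K).toMonoidHom with hΨ
  have hΨprime : ∀ v : HeightOneSpectrum (𝓞 K),
      Ψ (ClassGroup.mk0 ⟨v.asIdeal, mem_nonZeroDivisors_of_ne_zero v.ne_bot⟩) = f (frob v) := by
    intro v
    rw [hΨ, MonoidHom.comp_apply]
    change QuotientGroup.lift _ Φ hker (ClassGroup.equiv K (ClassGroup.mk0 _)) = _
    rw [ClassGroup.equiv_mk0, QuotientGroup.mk'_apply, QuotientGroup.lift_mk, hΦ,
      idealProdHom_mk0_prime]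
  -- the image of `Ψ` lies in the range of `f`
  have hrange : ∀ c, Ψ c ∈ f.range := by
    intro c
    obtain ⟨I, rfl⟩ := (ClassGroup.equiv K).symm.surjective c
    induction I using QuotientGroup.induction_on with
    | H I =>
      rw [hΨ, MonoidHom.comp_apply]
      change QuotientGroup.lift _ Φ hker (ClassGroup.equiv K ((ClassGroup.equiv K).symm _)) ∈ _
      rw [MulEquiv.apply_symm_apply, QuotientGroup.lift_mk, hΦ, idealProdHom_apply]
      refine finprod_induction (p := fun a => a ∈ f.range) (one_mem _) (fun _ _ => mul_mem) ?_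
      intro v
      exact zpow_mem (MonoidHom.mem_range.2 ⟨frob v, rfl⟩) _
  set e := MonoidHom.ofInjective hf with he
  set Art : ClassGroup (𝓞 K) →* (L ≃ₐ[K] L) :=
    e.symm.toMonoidHom.comp (Ψ.codRestrict f.range hrange) with hArt
  have hArtf : ∀ c, f (Art c) = Ψ c := by
    intro c
    have h1 : (e (Art c) : A) = f (Art c) := rfl
    rw [← h1, hArt, MonoidHom.comp_apply]
    change ((e (e.symm _) : f.range) : A) = _
    rw [MulEquiv.apply_symm_apply]
    rfl
  have hArtprime : ∀ v : HeightOneSpectrum (𝓞 K),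
      Art (ClassGroup.mk0 ⟨v.asIdeal, mem_nonZeroDivisors_of_ne_zero v.ne_bot⟩) = frob v := by
    intro v
    apply hf
    rw [hArtf, hΨprime]
  refine ⟨Art, ?_, ?_⟩
  · -- surjectivity
    rw [← MonoidHom.range_eq_top, eq_top_iff, ← hgen, Subgroup.closure_le]
    rintro _ ⟨v, rfl⟩
    exact ⟨_, hArtprime v⟩
  · intro P hP hP0 Q hQ hQP
    have := hArtprime ⟨P, hP, hP0⟩
    rw [this]
    exact hfrob ⟨P, hP, hP0⟩ Q hQ hQP

end G6a

end Fermat.Agent.CFT
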