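/-
CFT global part (G6b), helper9: the Frobenius elements generate the Galois group of an unramified
cyclic extension of prime degree (from the existence of non-norms (T5), the split norm criterion
(T4') and `frob_ne_one_of_stabilizer`).
-/
import Fermat.Agent.CFT.Global.G6a_lead
import Fermat.Agent.CFT.Global.G02_helper5_Split

set_option autoImplicit false

open scoped TensorProduct NumberField
open IsDedekindDomain

namespace Fermat.Agent.CFT.Crossing

/-- **(G6b)** In an unramified cyclic extension `L/K` of prime degree `p`, the Frobenius elements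
generate `Gal(L/K)`. -/
theorem closure_range_frob_eq_top {p : ℕ} [Fact p.Prime] (hNN : ExistsNonNorm p) (K L : Type)
    [Field K] [NumberField K] [Field L] [NumberField L] [Algebra K L] [IsGalois K L]
    (hcard : Nat.card (L ≃ₐ[K] L) = p)
    (hunr : ∀ Q : Ideal (𝓞 L), Q.IsPrime → Q ≠ ⊥ →
      ∀ σ : L ≃ₐ[K] L, (∀ x : 𝓞 L, σ • x - x ∈ Q) → σ = 1)
    (frob : HeightOneSpectrum (𝓞 K) → (L ≃ₐ[K] L))
    (hfrob : ∀ (v : HeightOneSpectrum (𝓞 K)) (Q : Ideal (𝓞 L)), Q.IsPrime →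
      Q.under (𝓞 K) = v.asIdeal → IsArithFrobAt (𝓞 K) (frob v) Q) :
    Subgroup.closure (Set.range frob) = ⊤ := by
  obtain ⟨ℓ, -, b, hb⟩ := hNN K L hcard ∅
  -- a prime over `ℓ` with nontrivial decomposition group
  have hex : ∃ Q : Ideal (𝓞 L), Q.IsPrime ∧ (((ℓ : ℕ) : 𝓞 L) ∈ Q) ∧
      ∃ σ : L ≃ₐ[K] L, (∀ x : 𝓞 L, x ∈ Q → σ • x ∈ Q) ∧ σ ≠ 1 := by
    by_contra hcon
    apply hb
    apply splitNormCriterion K L ℓ
    intro Q hQ hℓQ σ hσ
    by_contra hσ1
    exact hcon ⟨Q, hQ, hℓQ, σ, hσ, hσ1⟩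
  obtain ⟨Q, hQ, hℓQ, σ, hσ, hσ1⟩ := hex
  have hQ0 : Q ≠ ⊥ := by
    rintro rfl
    have h0 : (((ℓ : ℕ) : 𝓞 L)) = 0 := by simpa using hℓQ
    exact ℓ.2.ne_zero (by exact_mod_cast h0)
  -- the prime of `K` below `Q`
  have hP : (Q.under (𝓞 K)).IsPrime := Ideal.IsPrime.under (𝓞 K) Q
  have hP0 : Q.under (𝓞 K) ≠ ⊥ := by
    intro h
    have h1 : (((ℓ : ℕ) : 𝓞 K)) ∈ Q.under (𝓞 K) := by
      rw [Ideal.under_def, Ideal.mem_comap, map_natCast]
      exact hℓQ
    rw [h] at h1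
    have h0 : (((ℓ : ℕ) : 𝓞 K)) = 0 := by simpa using h1
    exact ℓ.2.ne_zero (by exact_mod_cast h0)
  let v : HeightOneSpectrum (𝓞 K) := ⟨Q.under (𝓞 K), hP, hP0⟩
  have hne : frob v ≠ 1 :=
    frob_ne_one_of_stabilizer K L hunr Q hQ hQ0 σ hσ1 hσ (frob v) (hfrob v Q hQ rfl)
  -- a nontrivial subgroup of a group of prime order is everything
  have : Fact (Nat.card (L ≃ₐ[K] L)).Prime := by rw [hcard]; infer_instance
  rcases Subgroup.eq_bot_or_eq_top_of_prime_card (Subgroup.closure (Set.range frob)) with h | h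
  · exfalso
    apply hne
    have : frob v ∈ Subgroup.closure (Set.range frob) := Subgroup.subset_closure ⟨v, rfl⟩
    rw [h] at this
    exact Subgroup.mem_bot.1 this
  · exact h

end Fermat.Agent.CFT.Crossing
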