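/-
CFT global part (G5)/(G6), helper3: final assembly.  Tate's crossing argument gives the reciprocity
law `∏_v Frob_v^{ord_v b} = 1` for unramified cyclic extensions `L/K` of degree `p`, `K = ℚ(ζ_p)`,
in which the primes over `p` split completely (`sum_ordAt_smul_cycChar_frob_eq_zero`), hence the
Artin map on the class group (`unramifiedReciprocityPrime`), from the two inequalities.
-/
import Fermat.Agent.CFT.Global.Crossing_helper3_Hasse
import Fermat.Agent.CFT.Global.G5p_helper7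
import Fermat.Agent.CFT.Global.G5f_helper6
import Fermat.Agent.CFT.Global.G6b_helper9
import Fermat.Agent.CFT.Global.G5g_helper5
import Fermat.Agent.CFT.Global.G6a_lead
import Fermat.Agent.CFT.Global.G5d_lead
import Fermat.Agent.CFT.Global.G4_helper9_Hasse
import Fermat.Agent.CFT.Global.T5_helper9_NonNorm
import Fermat.Agent.CFT.Global.G02_helper5_Unram
import Fermat.Agent.CFT.Global.G02_helper5_Split

set_option autoImplicit false
set_option linter.unusedSectionVars false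
set_option linter.style.haveILetI false

open scoped NumberField Pointwise
open IsDedekindDomain
open CategoryTheory groupCohomology Rep
open Fermat.Agent.CFT.Coh Fermat.Agent.CFT.Local

namespace Fermat.Agent.CFT.Crossing

section summation

/-- Abstract summation lemma: a `ℤ`-combination of values of a character is the value at a
product. -/
lemma exists_prod_zpow_eq {𝔊 C A ι : Type*} [Group 𝔊] [CommGroup C] [AddCommGroup A]
    (κ : 𝔊 →* C) (χ : Additive 𝔊 →+ A) (s : Finset ι) (φ : ι → 𝔊) (n : ι → ℤ) :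
    ∃ x : 𝔊, κ x = ∏ v ∈ s, κ (φ v) ^ n v ∧
      χ (Additive.ofMul x) = ∑ v ∈ s, n v • χ (Additive.ofMul (φ v)) := by
  classical
  induction s using Finset.induction_on with
  | empty => exact ⟨1, by simp, by simp⟩
  | insert v s hv ih =>
    obtain ⟨x, hx1, hx2⟩ := ih
    refine ⟨x * φ v ^ n v, ?_, ?_⟩
    · rw [Finset.prod_insert hv, map_mul, map_zpow, hx1, mul_comm]
    · rw [Finset.sum_insert hv, ofMul_mul, map_add, hx2, ofMul_zpow, map_zsmul, add_comm]

end summation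

section perprime

variable {p : ℕ} [hp : Fact p.Prime] {r : ℕ}
variable {K L M : Type} [Field K] [NumberField K] [Field L] [NumberField L] [Field M]
  [NumberField M] [Algebra K L] [Algebra K M] [Algebra L M] [IsScalarTower K L M]
  [IsGalois K L] [IsGalois K M] [IsCyclotomicExtension {p} ℚ K]
variable {ζ : M} (hζ : IsPrimitiveRoot ζ (p ^ (r + 1)))

include hζ in
/-- The local identity at a prime `v ∤ p` of `K`. -/
lemma ordAt_smul_cycChar_frob_eq (htop : IntermediateField.adjoin L {ζ} = ⊤)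
    (hunr : ∀ Q' : Ideal (𝓞 L), Q'.IsPrime → Q' ≠ ⊥ →
      ∀ σ : L ≃ₐ[K] L, (∀ x : 𝓞 L, σ • x - x ∈ Q') → σ = 1)
    {g : L ≃ₐ[K] L} (hg : ∀ x, x ∈ Subgroup.zpowers g)
    (frob : HeightOneSpectrum (𝓞 K) → (L ≃ₐ[K] L))
    (hfrob : ∀ (v : HeightOneSpectrum (𝓞 K)) (Q : Ideal (𝓞 L)), Q.IsPrime →
      Q.under (𝓞 K) = v.asIdeal → IsArithFrobAt (𝓞 K) (frob v) Q)
    (b c : Kˣ) (χ₂ : QZChar (M ≃ₐ[K] M))
    (heq : cupδInv (Rep.ofAlgebraAutOnUnits K M) (invOfUnits K M (Additive.ofMul b))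
          ((cycChar hg).comp (rho K L)) =
        cupδInv (Rep.ofAlgebraAutOnUnits K M) (invOfUnits K M (Additive.ofMul c)) χ₂)
    (v : HeightOneSpectrum (𝓞 K)) (w : HeightOneSpectrum (𝓞 M))
    (hvw : w.asIdeal.under (𝓞 K) = v.asIdeal) (hpv : (p : 𝓞 K) ∉ v.asIdeal)
    (φ : M ≃ₐ[K] M) (hφ : IsArithFrobAt (𝓞 K) φ w.asIdeal) :
    ordAt K v.asIdeal (b : K) • cycChar hg (Additive.ofMul (frob v)) =
      ordAt K v.asIdeal (c : K) • χ₂ (Additive.ofMul φ) := by
  haveI := w.isPrime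
  have hpw : (p : 𝓞 M) ∉ w.asIdeal := by
    intro h
    apply hpv
    rw [← hvw]
    change algebraMap (𝓞 K) (𝓞 M) _ ∈ w.asIdeal
    rwa [map_natCast]
  have hin := inertia_trivial_of_not_mem (L := L) hζ htop hunr w.ne_bot hpw
  have hstab : φ • w.asIdeal = w.asIdeal :=
    MulAction.mem_stabilizer_iff.mp (IsArithFrobAt.mem_stabilizer hφ)
  have h1 := ordAt_smul_eq_of_cupδInv_eq b c _ χ₂ heq w φ hstab
  rw [ordAt_algebraMap_of_inertia_trivial v w hvw hin, ordAt_algebraMap_of_inertia_trivial v w hvw hin,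
    QZChar.comp_apply] at h1
  have h2 : rho K L φ = frob v := by
    have hQ0 : w.asIdeal.under (𝓞 L) ≠ ⊥ := Ideal.under_ne_bot (𝓞 L) w.ne_bot
    refine eq_of_isArithFrobAt hunr hQ0 (isArithFrobAt_rho hφ) (hfrob v _ inferInstance ?_)
    rw [Ideal.under_under, hvw]
  rw [h2] at h1
  exact h1


include hζ in
/-- **Reciprocity for `b`**, given the auxiliary field `M = L(ζ)` with `r` large enough for `b`. -/
theorem sum_ordAt_smul_cycChar_frob_eq_zero (hp2 : p ≠ 2)
    (hH : HasseNormTheorem p) (hT4 : UnramifiedNormCriterion) (hT4' : SplitNormCriterion)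
    (htop : IntermediateField.adjoin L {ζ} = ⊤) (hcard : Nat.card (L ≃ₐ[K] L) = p)
    (hunr : ∀ Q' : Ideal (𝓞 L), Q'.IsPrime → Q' ≠ ⊥ →
      ∀ σ : L ≃ₐ[K] L, (∀ x : 𝓞 L, σ • x - x ∈ Q') → σ = 1)
    (hsplit : ∀ Q : Ideal (𝓞 L), Q.IsPrime → (p : 𝓞 L) ∈ Q →
      ∀ σ : L ≃ₐ[K] L, (∀ x ∈ Q, σ • x ∈ Q) → σ = 1)
    {g : L ≃ₐ[K] L} (hg : ∀ x, x ∈ Subgroup.zpowers g)
    (frob : HeightOneSpectrum (𝓞 K) → (L ≃ₐ[K] L))
    (hfrob : ∀ (v : HeightOneSpectrum (𝓞 K)) (Q : Ideal (𝓞 L)), Q.IsPrime →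
      Q.under (𝓞 K) = v.asIdeal → IsArithFrobAt (𝓞 K) (frob v) Q)
    (b : Kˣ)
    (hb : ∀ v : HeightOneSpectrum (𝓞 K), (p : 𝓞 K) ∉ v.asIdeal → ordAt K v.asIdeal (b : K) ≠ 0 →
      (Nat.card (𝓞 K ⧸ v.asIdeal) : ZMod (p ^ (r + 1))) ≠ 1)
    (T : Finset (HeightOneSpectrum (𝓞 K)))
    (hT : ∀ v : HeightOneSpectrum (𝓞 K), ordAt K v.asIdeal (b : K) ≠ 0 → v ∈ T) :
    ∑ v ∈ T, ordAt K v.asIdeal (b : K) • cycChar hg (Additive.ofMul (frob v)) = 0 := by
  classical
  -- Step 2 and the crossing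
  have hb' := exists_prod_gal_adjoin_eq hζ hH hT4 hT4' htop hcard hunr hsplit b hb
  obtain ⟨χ₂, c, y, hχ₂, heq, hy⟩ := exists_crossing hζ hp2 htop hcard hsplit hg b hb'
  -- the computation at `p`
  obtain ⟨y', hy'⟩ := G5pH7.exists_semiLocal_prod_eq hζ htop hcard hsplit c y hy
  -- Frobenius elements in `Gal(M/K)`
  have hex : ∀ v : HeightOneSpectrum (𝓞 K), ∃ φ : M ≃ₐ[K] M,
      ((p : 𝓞 K) ∉ v.asIdeal → ∃ w : HeightOneSpectrum (𝓞 M),
        w.asIdeal.under (𝓞 K) = v.asIdeal ∧ IsArithFrobAt (𝓞 K) φ w.asIdeal) ∧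
      ((p : 𝓞 K) ∈ v.asIdeal → φ = 1) := by
    intro v
    by_cases hpv : (p : 𝓞 K) ∈ v.asIdeal
    · exact ⟨1, fun h => absurd hpv h, fun _ => rfl⟩
    · obtain ⟨w, hw⟩ := exists_heightOneSpectrum_under_eq K M v
      haveI := w.isPrime
      obtain ⟨φ, hφ⟩ := exists_isArithFrobAt (K := K) w.asIdeal w.ne_bot
      exact ⟨φ, fun _ => ⟨w, hw, hφ⟩, fun h => absurd h hpv⟩
  choose φ hφ1 hφ2 using hex
  -- the local identities
  have hloc : ∀ v : HeightOneSpectrum (𝓞 K),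
      ordAt K v.asIdeal (b : K) • cycChar hg (Additive.ofMul (frob v)) =
        ordAt K v.asIdeal (c : K) • χ₂ (Additive.ofMul (φ v)) := by
    intro v
    by_cases hpv : (p : 𝓞 K) ∈ v.asIdeal
    · obtain ⟨Q, hQ⟩ := exists_heightOneSpectrum_under_eq K L v
      haveI := Q.isPrime
      have hpQ : (p : 𝓞 L) ∈ Q.asIdeal := by
        have : algebraMap (𝓞 K) (𝓞 L) (p : 𝓞 K) ∈ Q.asIdeal := by
          rw [← hQ] at hpv
          exact hpv
        rwa [map_natCast] at this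
      have h1 : frob v = 1 :=
        eq_one_of_isArithFrobAt_of_split hsplit hpQ (hfrob v Q.asIdeal inferInstance hQ)
      rw [h1, hφ2 v hpv, ofMul_one, map_zero, smul_zero]
      have : χ₂ (Additive.ofMul (1 : M ≃ₐ[K] M)) = 0 := map_zero χ₂
      rw [this, smul_zero]
    · obtain ⟨w, hw, hφw⟩ := hφ1 v hpv
      exact ordAt_smul_cycChar_frob_eq hζ htop hunr hg frob hfrob b c χ₂ heq v w hw hpv (φ v) hφw
  -- the product formula
  haveI : IsCyclotomicExtension {p ^ (r + 1)} ℚ (IntermediateField.adjoin K {ζ}) := by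
    haveI : NeZero (p ^ (r + 1)) := ⟨(pow_pos hp.out.pos _).ne'⟩
    have h1 : IsCyclotomicExtension {p ^ (r + 1)} K (IntermediateField.adjoin K {ζ}) :=
      hζ.intermediateField_adjoin_isCyclotomicExtension K
    have h3 : IsCyclotomicExtension ({p} ∪ {p ^ (r + 1)}) ℚ (IntermediateField.adjoin K {ζ}) :=
      IsCyclotomicExtension.trans {p} {p ^ (r + 1)} ℚ K (IntermediateField.adjoin K {ζ})
        (algebraMap K (IntermediateField.adjoin K {ζ})).injective
    rw [Set.union_comm] at h3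
    exact (IsCyclotomicExtension.iff_union_of_dvd (S := {p ^ (r + 1)}) ℚ
      (IntermediateField.adjoin K {ζ})
      ⟨p ^ (r + 1), Set.mem_singleton _, (pow_pos hp.out.pos _).ne',
        dvd_pow_self p (Nat.succ_ne_zero r)⟩).mpr h3
  have hprod := prod_zpow_eq_one_of_semiLocal_norm p hp2 r K (IntermediateField.adjoin K {ζ}) c y'
    hy' (fun v => kappa K hζ (φ v)) ?_ ?_
  rotate_left
  · intro v hpv
    obtain ⟨w, hw, hφw⟩ := hφ1 v hpv
    haveI := w.isPrime
    have hpw : (p : 𝓞 M) ∉ w.asIdeal := by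
      intro h
      apply hpv
      rw [← hw]
      change algebraMap (𝓞 K) (𝓞 M) _ ∈ w.asIdeal
      rwa [map_natCast]
    rw [kappa_of_isArithFrobAt hζ hpw hφw, hw]
    rfl
  · intro v hpv
    rw [hφ2 v hpv, map_one]
  -- summation
  obtain ⟨T', hT'⟩ : ∃ T' : Finset (HeightOneSpectrum (𝓞 K)), T ⊆ T' ∧
      ∀ v : HeightOneSpectrum (𝓞 K), ordAt K v.asIdeal (c : K) ≠ 0 → v ∈ T' :=
    ⟨T ∪ (finite_setOf_ordAt_ne_zero K c).toFinset, Finset.subset_union_left,
      fun v hv => Finset.mem_union_right _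
        ((Set.Finite.mem_toFinset (finite_setOf_ordAt_ne_zero K c)).mpr hv)⟩
  have hsum1 : ∑ v ∈ T, ordAt K v.asIdeal (b : K) • cycChar hg (Additive.ofMul (frob v)) =
      ∑ v ∈ T', ordAt K v.asIdeal (b : K) • cycChar hg (Additive.ofMul (frob v)) := by
    apply Finset.sum_subset hT'.1
    intro v _ hv
    have : ordAt K v.asIdeal (b : K) = 0 := by
      by_contra h
      exact hv (hT v h)
    rw [this, zero_smul]
  rw [hsum1, Finset.sum_congr rfl (fun v _ => hloc v)]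
  obtain ⟨x, hx1, hx2⟩ := exists_prod_zpow_eq (kappa K hζ) χ₂ T' φ
    (fun v => ordAt K v.asIdeal (c : K))
  rw [← hx2]
  apply hχ₂
  rw [← mem_ker_kappa_iff hζ, MonoidHom.mem_ker, hx1, ← hprod]
  symm
  apply finprod_eq_prod_of_mulSupport_subset
  intro v hv
  rw [Function.mem_mulSupport] at hv
  apply hT'.2
  intro h
  apply hv
  rw [h, zpow_zero]

end perprime

section final

/-- **(M1')**: Artin reciprocity for unramified cyclic extensions of degree `p` of `ℚ(ζ_p)` in which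
the primes over `p` split completely, from the two inequalities. -/
theorem unramifiedReciprocityPrime (p : ℕ) [hp : Fact p.Prime] (hp2 : p ≠ 2)
    (h1 : FirstInequality p) (h2 : SecondInequality p) : UnramifiedReciprocityPrime p := by
  classical
  intro K L _ _ _ _ _ _ _ hcard hunr hsplit
  have hH : HasseNormTheorem p := hasseNormTheorem_of_inequalities p hp.out.pos h1 h2
  have hNN : ExistsNonNorm p := existsNonNorm_of_firstInequality p hp.out h1
  haveI : IsCyclic (L ≃ₐ[K] L) := isCyclic_of_prime_card hcard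
  obtain ⟨g, hg⟩ := IsCyclic.exists_generator (α := L ≃ₐ[K] L)
  have hcomm : ∀ σ τ : L ≃ₐ[K] L, σ * τ = τ * σ := by
    letI := IsCyclic.commGroup (α := L ≃ₐ[K] L)
    exact fun σ τ => mul_comm σ τ
  obtain ⟨frob, hfrob⟩ := exists_frob K L hcomm
  set f : (L ≃ₐ[K] L) →* Multiplicative (AddCircle (1 : ℚ)) :=
    AddMonoidHom.toMultiplicativeRight (cycChar hg) with hf
  have hfapp : ∀ σ : L ≃ₐ[K] L, f σ = Multiplicative.ofAdd (cycChar hg (Additive.ofMul σ)) :=
    fun σ => rfl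
  have hfinj : Function.Injective f := by
    intro σ τ h
    have h' : cycChar hg (Additive.ofMul σ) = cycChar hg (Additive.ofMul τ) := by
      have := congrArg Multiplicative.toAdd h
      simpa [hfapp] using this
    exact Additive.ofMul.injective (cycChar_injective hg h')
  refine exists_art_of_reciprocity K L frob hfrob f hfinj ?_
    (closure_range_frob_eq_top hNN K L hcard hunr frob hfrob)
  intro b
  set Sb : Finset (HeightOneSpectrum (𝓞 K)) := (finite_setOf_ordAt_ne_zero K b).toFinset with hSb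
  have hSb' : ∀ v : HeightOneSpectrum (𝓞 K), ordAt K v.asIdeal (b : K) ≠ 0 → v ∈ Sb :=
    fun v hv => (Set.Finite.mem_toFinset _).mpr hv
  set r : ℕ := ∑ v ∈ Sb, Nat.card (𝓞 K ⧸ v.asIdeal) with hr
  haveI : NeZero (p ^ (r + 1)) := ⟨(pow_pos hp.out.pos _).ne'⟩
  obtain ⟨M, iF, iN, iA, iAL, iST, iG, ζ, hζ, htop⟩ := exists_cyclotomic_tower (p ^ (r + 1)) K L
  have hb : ∀ v : HeightOneSpectrum (𝓞 K), (p : 𝓞 K) ∉ v.asIdeal →
      ordAt K v.asIdeal (b : K) ≠ 0 → (Nat.card (𝓞 K ⧸ v.asIdeal) : ZMod (p ^ (r + 1))) ≠ 1 := by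
    intro v _ hv hN
    have hvS := hSb' v hv
    have hle : Nat.card (𝓞 K ⧸ v.asIdeal) ≤ r :=
      Finset.single_le_sum (f := fun v : HeightOneSpectrum (𝓞 K) => Nat.card (𝓞 K ⧸ v.asIdeal))
        (fun _ _ => Nat.zero_le _) hvS
    have hlt : r < p ^ (r + 1) :=
      lt_trans (Nat.lt_succ_self r) (Nat.lt_pow_self hp.out.one_lt)
    haveI : Finite (𝓞 K ⧸ v.asIdeal) := Ideal.finiteQuotientOfFreeOfNeBot v.asIdeal v.ne_bot
    haveI : Nontrivial (𝓞 K ⧸ v.asIdeal) := Ideal.Quotient.nontrivial_iff.mpr v.isPrime.ne_top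
    have hgt : 1 < Nat.card (𝓞 K ⧸ v.asIdeal) := Finite.one_lt_card
    have h3 : ((Nat.card (𝓞 K ⧸ v.asIdeal) : ℕ) : ZMod (p ^ (r + 1))) = ((1 : ℕ) : ZMod _) := by
      rw [hN, Nat.cast_one]
    rw [ZMod.natCast_eq_natCast_iff] at h3
    have := Nat.ModEq.eq_of_lt_of_lt h3 (lt_of_le_of_lt hle hlt) (Nat.one_lt_pow (Nat.succ_ne_zero r) hp.out.one_lt)
    omega
  have key := sum_ordAt_smul_cycChar_frob_eq_zero hζ hp2 hH unramifiedNormCriterion
    splitNormCriterion htop hcard hunr hsplit hg frob hfrob b hb Sb hSb'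
  rw [finprod_eq_prod_of_mulSupport_subset (s := Sb)]
  · have h4 : ∀ v ∈ Sb, f (frob v) ^ ordAt K v.asIdeal (b : K) =
        Multiplicative.ofAdd (ordAt K v.asIdeal (b : K) • cycChar hg (Additive.ofMul (frob v))) :=
      fun v _ => rfl
    rw [Finset.prod_congr rfl h4, ← ofAdd_sum, key]
    rfl
  · intro v hv
    rw [Function.mem_mulSupport] at hv
    apply hSb'
    intro h
    apply hv
    rw [h, zpow_zero]

end final

end Fermat.Agent.CFT.Crossing
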