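import Fermat.Agent.CFT.Global.CycloArtin_lead_Units

/-!
# CFT (PT4.d, part 3): the cyclotomic Artin map modulo `p^n` on finite ideles

`cycloArtin p n F : FinIdele F →* (ZMod (p ^ n))ˣ`,
`x ↦ ∏_{ℓ ≠ p} ℓ^{v_ℓ(N_ℓ x_ℓ)} · ⟨N_p x_p⟩⁻¹ mod p^n`, where `N_ℓ` is the norm
`(ℚ_ℓ ⊗ F)ˣ → ℚ_ℓˣ` and `⟨u⟩ = u / p^{v_p(u)}` is the unit part.
-/

set_option autoImplicit false
set_option linter.unusedSectionVars false
set_option linter.style.haveILetI false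

open scoped TensorProduct NumberField RestrictedProduct
open IsLocalRing

namespace Fermat.Agent.CFT


section localHoms

/-- The `ℓ`-adic valuation of a unit, as a homomorphism. -/
noncomputable def padicValUnits (ℓ : ℕ) [Fact ℓ.Prime] : ℚ_[ℓ]ˣ →* Multiplicative ℤ where
  toFun u := Multiplicative.ofAdd (u : ℚ_[ℓ]).valuation
  map_one' := by rw [Units.val_one, Padic.valuation_one]; rfl
  map_mul' u v := by rw [Units.val_mul, Padic.valuation_mul u.ne_zero v.ne_zero]; rfl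

lemma padicValUnits_apply (ℓ : ℕ) [Fact ℓ.Prime] (u : ℚ_[ℓ]ˣ) :
    padicValUnits ℓ u = Multiplicative.ofAdd (u : ℚ_[ℓ]).valuation := rfl

lemma padic_valuation_eq_zero_of_norm_eq_one {ℓ : ℕ} [hℓ : Fact ℓ.Prime] {x : ℚ_[ℓ]}
    (hx : ‖x‖ = 1) : x.valuation = 0 := by
  have hx0 : x ≠ 0 := by rintro rfl; simp at hx
  have h1 := Padic.norm_eq_zpow_neg_valuation hx0
  rw [hx] at h1
  have hℓ1 : (1 : ℝ) < ℓ := by exact_mod_cast hℓ.out.one_lt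
  have h2 : ((ℓ : ℝ)) ^ (-x.valuation) = (ℓ : ℝ) ^ (0 : ℤ) := by rw [← h1, zpow_zero]
  have := zpow_right_injective₀ (by positivity : (0 : ℝ) < ℓ) hℓ1.ne' h2
  omega

variable (p : ℕ) [hp : Fact p.Prime] (n : ℕ)

/-- The class of `ℓ` modulo `p^n` for `ℓ ≠ p`, and `1` for `ℓ = p`. -/
noncomputable def awayUnit (ℓ : Nat.Primes) : (ZMod (p ^ n))ˣ :=
  if h : (ℓ : ℕ) = p then 1
  else ZMod.unitOfCoprime (ℓ : ℕ) (((Nat.coprime_primes ℓ.2 hp.out).2 h).pow_right n)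

lemma awayUnit_self (ℓ : Nat.Primes) (h : (ℓ : ℕ) = p) : awayUnit p n ℓ = 1 := dif_pos h

lemma coe_awayUnit_of_ne (ℓ : Nat.Primes) (h : (ℓ : ℕ) ≠ p) :
    ((awayUnit p n ℓ : (ZMod (p ^ n))ˣ) : ZMod (p ^ n)) = ((ℓ : ℕ) : ZMod (p ^ n)) := by
  rw [awayUnit, dif_neg h]
  rfl

/-- The local component at `ℓ` of the "away from `p`" part. -/
noncomputable def awayLocal (ℓ : Nat.Primes) : ℚ_[(ℓ : ℕ)]ˣ →* (ZMod (p ^ n))ˣ :=
  (zpowersHom (ZMod (p ^ n))ˣ (awayUnit p n ℓ)).comp (padicValUnits (ℓ : ℕ))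

lemma awayLocal_apply (ℓ : Nat.Primes) (u : ℚ_[(ℓ : ℕ)]ˣ) :
    awayLocal p n ℓ u = awayUnit p n ℓ ^ (u : ℚ_[(ℓ : ℕ)]).valuation := rfl

lemma norm_mul_zpow_neg_valuation (u : ℚ_[p]ˣ) :
    ‖(u : ℚ_[p]) * (p : ℚ_[p]) ^ (-(u : ℚ_[p]).valuation)‖ = 1 := by
  have hp0 : (0 : ℝ) < p := by exact_mod_cast hp.out.pos
  rw [norm_mul, norm_zpow, Padic.norm_p, Padic.norm_eq_zpow_neg_valuation u.ne_zero, inv_zpow',
    neg_neg, ← zpow_add₀ hp0.ne', neg_add_cancel, zpow_zero]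

/-- The unit part `u / p^{v(u)}` of a `p`-adic number, as a homomorphism. -/
noncomputable def unitPart : ℚ_[p]ˣ →* ℤ_[p]ˣ where
  toFun u := PadicInt.mkUnits (norm_mul_zpow_neg_valuation p u)
  map_one' := by
    apply Units.ext
    apply Subtype.ext
    simp [PadicInt.mkUnits, Padic.valuation_one]
  map_mul' u v := by
    have hp0 : (p : ℚ_[p]) ≠ 0 := by exact_mod_cast hp.out.ne_zero
    apply Units.ext
    apply Subtype.ext
    simp only [PadicInt.mkUnits, Units.val_mul, PadicInt.coe_mul]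
    rw [Padic.valuation_mul u.ne_zero v.ne_zero, neg_add, zpow_add₀ hp0]
    ring

lemma coe_unitPart (u : ℚ_[p]ˣ) :
    (((unitPart p u : ℤ_[p]ˣ) : ℤ_[p]) : ℚ_[p]) =
      (u : ℚ_[p]) * (p : ℚ_[p]) ^ (-(u : ℚ_[p]).valuation) := rfl

/-- The local component at `p`: the unit part modulo `p^n`. -/
noncomputable def pLocal : ℚ_[p]ˣ →* (ZMod (p ^ n))ˣ :=
  (Units.map ((PadicInt.toZModPow n : ℤ_[p] →+* ZMod (p ^ n)) : ℤ_[p] →* ZMod (p ^ n))).comp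
    (unitPart p)

end localHoms

namespace SemiLocal

/-- The norm on units. -/
noncomputable def normUnits (ℓ : ℕ) [Fact ℓ.Prime] (F : Type*) [Field F] [CharZero F] :
    (SemiLocal ℓ F)ˣ →* ℚ_[ℓ]ˣ :=
  Units.map (Algebra.norm ℚ_[ℓ] : SemiLocal ℓ F →* ℚ_[ℓ])

@[simp] lemma coe_normUnits (ℓ : ℕ) [Fact ℓ.Prime] (F : Type*) [Field F] [CharZero F]
    (z : (SemiLocal ℓ F)ˣ) :
    ((normUnits ℓ F z : ℚ_[ℓ]ˣ) : ℚ_[ℓ]) = Algebra.norm ℚ_[ℓ] (z : SemiLocal ℓ F) := rfl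

end SemiLocal

section cycloArtin

variable (p : ℕ) [hp : Fact p.Prime] (n : ℕ) (F : Type*) [Field F] [NumberField F]

lemma awayLocal_normUnits_eq_one (ℓ : Nat.Primes) {u : (SemiLocal ℓ F)ˣ}
    (hu : u ∈ SemiLocal.unitGroup ℓ F) :
    awayLocal p n ℓ (SemiLocal.normUnits ℓ F u) = 1 := by
  rw [awayLocal_apply, SemiLocal.coe_normUnits,
    padic_valuation_eq_zero_of_norm_eq_one (SemiLocal.norm_norm_eq_one ℓ F hu), zpow_zero]

/-- The part of the cyclotomic Artin map away from `p`: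
`x ↦ ∏_{ℓ ≠ p} ℓ^{v_ℓ(N_ℓ x_ℓ)} mod p^n`. -/
noncomputable def awayPart : FinIdele F →* (ZMod (p ^ n))ˣ :=
  FinIdele.finprodHom (fun ℓ : Nat.Primes => (awayLocal p n ℓ).comp (SemiLocal.normUnits ℓ F))
    (Filter.Eventually.of_forall fun ℓ _ hu => awayLocal_normUnits_eq_one p n F ℓ hu)

/-- The `p`-component of a finite idele. -/
noncomputable def FinIdele.atP : FinIdele F →* (SemiLocal p F)ˣ :=
  RestrictedProduct.evalMonoidHom (fun ℓ : Nat.Primes => (SemiLocal ℓ F)ˣ) ⟨p, hp.out⟩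

/-- The part of the cyclotomic Artin map at `p`: `x ↦ ⟨N_p x_p⟩ mod p^n`. -/
noncomputable def pPart : FinIdele F →* (ZMod (p ^ n))ˣ :=
  (pLocal p n).comp ((SemiLocal.normUnits p F).comp (FinIdele.atP p F))

/-- **The cyclotomic Artin map modulo `p^n`**:
`x ↦ ∏_{ℓ ≠ p} ℓ^{v_ℓ(N_ℓ x_ℓ)} · ⟨N_p x_p⟩⁻¹ mod p^n`. -/
noncomputable def cycloArtin : FinIdele F →* (ZMod (p ^ n))ˣ :=
  awayPart p n F * (pPart p n F)⁻¹

lemma cycloArtin_apply (x : FinIdele F) :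
    cycloArtin p n F x = awayPart p n F x * (pPart p n F x)⁻¹ := rfl

end cycloArtin


end Fermat.Agent.CFT
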