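import Fermat.Agent.CFT.Global.G5d_lead
import Fermat.Agent.CFT.Global.G01_helper7_Places

/-!
# CFT (PT4.d, part 1): norms of semi-local algebras

* `SemiLocal.norm_eq_prod_proj`, `SemiLocal.norm_norm_le_one`, `SemiLocal.norm_norm_eq_one`
  (the norm `ℚ_ℓ ⊗ F → ℚ_ℓ` of an integral element / a unit of the maximal order),
  `SemiLocal.norm_of` (norm of a global element).
* relative situation `F ⊆ F'`: `SemiLocal.relBasis` (`ℚ_ℓ ⊗ F'` is free over `ℚ_ℓ ⊗ F`),
  `SemiLocal.norm_map`, `SemiLocal.norm_relNorm` (transitivity),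
  `SemiLocal.prod_smul_eq_map_relNorm` (Galois product = relative norm),
  `SemiLocal.norm_eq_of_prod_smul_eq_map`.
-/

set_option autoImplicit false
set_option linter.unusedSectionVars false
set_option linter.style.haveILetI false

open scoped TensorProduct NumberField

namespace Fermat.Agent.CFT


open Matrix in
/-- Determinant of a dependent block diagonal matrix. -/
theorem det_blockDiagonal'_eq {R o : Type*} [CommRing R] [Fintype o] [DecidableEq o]
    {m' : o → Type*} [∀ k, Fintype (m' k)] [∀ k, DecidableEq (m' k)]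
    (M : ∀ k, Matrix (m' k) (m' k) R) :
    (blockDiagonal' M).det = ∏ k, (M k).det := by
  classical
  letI : LinearOrder o := LinearOrder.lift' (Fintype.equivFin o) (Fintype.equivFin o).injective
  rw [(blockTriangular_blockDiagonal' M).det_fintype]
  refine Finset.prod_congr rfl fun k _ => ?_
  let e : m' k ≃ { a : Σ i, m' i // a.1 = k } :=
    { toFun := fun x => ⟨⟨k, x⟩, rfl⟩
      invFun := fun a => a.2 ▸ a.1.2
      left_inv := fun x => rfl
      right_inv := by
        rintro ⟨⟨i, x⟩, h⟩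
        cases h
        rfl }
  rw [← Matrix.det_reindex_self e (M k)]
  congr 1
  ext ⟨⟨i, x⟩, hi⟩ ⟨⟨j, y⟩, hj⟩
  cases hi
  cases hj
  simp only [toSquareBlock_def, of_apply, blockDiagonal'_apply_eq, reindex_apply, submatrix_apply]
  rfl

/-- The norm of a finite product of finite free algebras is the product of the norms. -/
theorem norm_pi_eq_prod {R ι : Type*} [CommRing R] [Fintype ι] {A : ι → Type*}
    [∀ i, CommRing (A i)] [∀ i, Algebra R (A i)] [∀ i, Module.Free R (A i)]
    [∀ i, Module.Finite R (A i)] (x : Π i, A i) :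
    Algebra.norm R x = ∏ i, Algebra.norm R (x i) := by
  classical
  let s : ∀ i, Module.Basis (Module.Free.ChooseBasisIndex R (A i)) R (A i) :=
    fun i => Module.Free.chooseBasis R (A i)
  let B := Pi.basis s
  rw [Algebra.norm_eq_matrix_det B x]
  have h : Algebra.leftMulMatrix B x =
      Matrix.blockDiagonal' (fun i => Algebra.leftMulMatrix (s i) (x i)) := by
    ext ⟨i, a⟩ ⟨j, b⟩
    rw [Algebra.leftMulMatrix_eq_repr_mul, Matrix.blockDiagonal'_apply]
    have hB : B ⟨j, b⟩ = Pi.single j (s j b) := Pi.basis_apply s ⟨j, b⟩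
    rw [hB, Pi.basis_repr]
    by_cases hij : i = j
    · subst hij
      simp only [Pi.mul_apply, Pi.single_eq_same, dif_pos]
      rw [Algebra.leftMulMatrix_eq_repr_mul]
      rfl
    · rw [dif_neg hij]
      simp only [Pi.mul_apply]
      rw [Pi.single_eq_of_ne hij, mul_zero, map_zero]
      rfl
  rw [h, det_blockDiagonal'_eq]
  refine Finset.prod_congr rfl fun i _ => ?_
  rw [Algebra.norm_eq_matrix_det (s i)]

namespace SemiLocal

section absolute

variable (ℓ : ℕ) [hℓ : Fact ℓ.Prime] (F : Type*) [Field F] [NumberField F]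

/-- The norm of `ℚ_ℓ ⊗ F` over `ℚ_ℓ` is the product of the local norms. -/
theorem norm_eq_prod_proj [Fintype (Place ℓ F)] (x : SemiLocal ℓ F) :
    Algebra.norm ℚ_[ℓ] x = ∏ w : Place ℓ F, Algebra.norm ℚ_[ℓ] (w.proj x) := by
  rw [← Algebra.norm_eq_of_algEquiv (equivPi ℓ F) x, norm_pi_eq_prod]
  rfl

/-- The norm of an integral element of `ℚ_ℓ ⊗ F` is a `ℓ`-adic integer. -/
theorem norm_norm_le_one {x : SemiLocal ℓ F} (hx : x ∈ integers ℓ F) :
    ‖Algebra.norm ℚ_[ℓ] x‖ ≤ 1 := by
  classical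
  letI := Fintype.ofFinite (Place ℓ F)
  rw [norm_eq_prod_proj]
  have h1 : ∀ w : Place ℓ F, IsIntegral ℤ_[ℓ] (Algebra.norm ℚ_[ℓ] (w.proj x)) := by
    intro w
    apply Algebra.isIntegral_norm
    exact (mem_integers_iff_proj ℓ F).1 hx w
  have h2 : IsIntegral ℤ_[ℓ] (∏ w : Place ℓ F, Algebra.norm ℚ_[ℓ] (w.proj x)) :=
    IsIntegral.prod _ fun w _ => h1 w
  obtain ⟨z, hz⟩ := (IsIntegrallyClosed.isIntegral_iff (R := ℤ_[ℓ]) (K := ℚ_[ℓ])).1 h2
  rw [← hz]
  exact z.2

/-- The norm of a unit of the maximal order is an `ℓ`-adic unit. -/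
theorem norm_norm_eq_one {u : (SemiLocal ℓ F)ˣ} (hu : u ∈ unitGroup ℓ F) :
    ‖Algebra.norm ℚ_[ℓ] (u : SemiLocal ℓ F)‖ = 1 := by
  rw [mem_unitGroup_iff] at hu
  have h1 := norm_norm_le_one ℓ F hu.1
  have h2 := norm_norm_le_one ℓ F hu.2
  have h3 : Algebra.norm ℚ_[ℓ] (u : SemiLocal ℓ F) *
      Algebra.norm ℚ_[ℓ] ((u⁻¹ : (SemiLocal ℓ F)ˣ) : SemiLocal ℓ F) = 1 := by
    rw [← map_mul, Units.mul_inv, map_one]
  have h4 := congrArg (‖·‖) h3
  simp only [norm_mul, norm_one] at h4
  have h5 : 0 ≤ ‖Algebra.norm ℚ_[ℓ] (u : SemiLocal ℓ F)‖ := norm_nonneg _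
  nlinarith [norm_nonneg (Algebra.norm ℚ_[ℓ] ((u⁻¹ : (SemiLocal ℓ F)ˣ) : SemiLocal ℓ F))]

/-- The norm of a global element. -/
theorem norm_of (a : F) :
    Algebra.norm ℚ_[ℓ] (of ℓ F a) = ((Algebra.norm ℚ a : ℚ) : ℚ_[ℓ]) := by
  rw [of_apply, Algebra.norm_apply, ← Algebra.baseChange_lmul, LinearMap.det_baseChange,
    ← Algebra.norm_apply]
  rfl

end absolute

end SemiLocal



open scoped SemiLocalRel

section dedekind

variable {K E A B : Type*} [Field K] [Field E] [Algebra K E] [FiniteDimensional K E]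
  [CommRing A] [CommRing B] [Algebra A B]

open Classical in
/-- Abstract form of `G5c.prod_eq_algebraMap_norm`: if `B` has an `A`-basis which is the image of a
`K`-basis of the Galois extension `E/K` under a ring homomorphism `E → B`, and the Galois group
acts on `B` by `A`-algebra maps compatibly, then the Galois product is the norm. -/
theorem prod_eq_algebraMap_norm_of_basis [IsGalois K E] (ι : E →+* B)
    (b : Module.Basis (E ≃ₐ[K] E) K E) (Bas : Module.Basis (E ≃ₐ[K] E) A B)
    (hB : ∀ j, Bas j = ι (b j))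
    (φ : (E ≃ₐ[K] E) → (B →ₐ[A] B)) (hφ : ∀ τ e, φ τ (ι e) = ι (τ e)) (y : B) :
    ∏ τ : E ≃ₐ[K] E, φ τ y = algebraMap A B (Algebra.norm A y) := by
  let T₀ : Matrix (E ≃ₐ[K] E) (E ≃ₐ[K] E) E := Matrix.of fun τ j => τ (b j)
  have hT₀ : T₀.det ≠ 0 := G5c.det_aut_basis_ne_zero b
  let T : Matrix (E ≃ₐ[K] E) (E ≃ₐ[K] E) B := T₀.map ι
  have hT : IsUnit T.det := by
    have : T.det = ι T₀.det := (RingHom.map_det ι T₀).symm
    rw [this]
    exact (IsUnit.mk0 _ hT₀).map ι
  let M : Matrix (E ≃ₐ[K] E) (E ≃ₐ[K] E) A := Algebra.leftMulMatrix Bas y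
  let D : Matrix (E ≃ₐ[K] E) (E ≃ₐ[K] E) B := Matrix.diagonal fun τ => φ τ y
  have key : D * T = T * M.map (algebraMap A B) := by
    ext τ j
    rw [Matrix.diagonal_mul, Matrix.mul_apply]
    have h1 : y * Bas j = ∑ k, M k j • Bas k := by
      have := Bas.sum_repr (y * Bas j)
      rw [← this]
      refine Finset.sum_congr rfl fun k _ => ?_
      change _ = (Algebra.leftMulMatrix Bas y) k j • Bas k
      rw [Algebra.leftMulMatrix_eq_repr_mul]
    have h2 := congrArg (φ τ) h1
    rw [map_mul, map_sum, hB, hφ] at h2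
    simp only [Matrix.map_apply, T, T₀, Matrix.of_apply]
    rw [h2]
    refine Finset.sum_congr rfl fun k _ => ?_
    rw [map_smul, hB, hφ, Algebra.smul_def, mul_comm]
  have h3 := congrArg Matrix.det key
  rw [Matrix.det_mul, Matrix.det_mul, Matrix.det_diagonal, mul_comm] at h3
  have h4 := hT.mul_left_cancel h3
  have h5 : (M.map (algebraMap A B)).det = algebraMap A B M.det :=
    (RingHom.map_det (algebraMap A B) M).symm
  rw [h4, h5, Algebra.norm_eq_matrix_det Bas]

end dedekind

namespace SemiLocal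

section relative

variable (ℓ : ℕ) [hℓ : Fact ℓ.Prime] {F F' : Type*} [Field F] [NumberField F] [Field F']
  [NumberField F'] [Algebra F F']

lemma rel_smul_tmul (c a : ℚ_[ℓ]) (f : F) (f' : F') :
    ((c ⊗ₜ[ℚ] f : SemiLocal ℓ F) • (a ⊗ₜ[ℚ] f' : SemiLocal ℓ F')) =
      (c * a) ⊗ₜ[ℚ] (algebraMap F F' f * f') := by
  rw [Algebra.smul_def, algebraMap_rel_apply, map_tmul, Algebra.TensorProduct.tmul_mul_tmul]

/-- The span over `ℚ_ℓ ⊗ F` of the image of an `F`-basis of `F'` is everything. -/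
lemma span_of_basis_eq_top {ι : Type*} [Fintype ι] (b : Module.Basis ι F F') :
    Submodule.span (SemiLocal ℓ F) (Set.range fun j => of ℓ F' (b j)) = ⊤ := by
  rw [eq_top_iff]
  rintro z -
  induction z using TensorProduct.induction_on with
  | zero => exact Submodule.zero_mem _
  | tmul c f' =>
    have h1 : (c ⊗ₜ[ℚ] f' : SemiLocal ℓ F') =
        ∑ j, ((c ⊗ₜ[ℚ] b.repr f' j : SemiLocal ℓ F) • of ℓ F' (b j)) := by
      conv_lhs => rw [← b.sum_repr f']
      rw [TensorProduct.tmul_sum]
      refine Finset.sum_congr rfl fun j _ => ?_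
      rw [of_apply, rel_smul_tmul, mul_one, Algebra.smul_def]
    rw [h1]
    exact Submodule.sum_mem _ fun j _ =>
      Submodule.smul_mem _ _ (Submodule.subset_span ⟨j, rfl⟩)
  | add z₁ z₂ h₁ h₂ => exact Submodule.add_mem _ h₁ h₂

/-- The linear combination map attached to an `F`-basis of `F'`. -/
noncomputable def relComb {ι : Type*} [Fintype ι] (b : Module.Basis ι F F') :
    (ι → SemiLocal ℓ F) →ₗ[SemiLocal ℓ F] SemiLocal ℓ F' :=
  Fintype.linearCombination (SemiLocal ℓ F) fun j => of ℓ F' (b j)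

lemma relComb_surjective {ι : Type*} [Fintype ι] (b : Module.Basis ι F F') :
    Function.Surjective (relComb ℓ b) := by
  rw [← LinearMap.range_eq_top, relComb, Fintype.range_linearCombination]
  exact span_of_basis_eq_top ℓ b

lemma relComb_injective {ι : Type*} [Fintype ι] (b : Module.Basis ι F F') :
    Function.Injective (relComb ℓ b) := by
  have hfin : Module.finrank ℚ_[ℓ] (ι → SemiLocal ℓ F) = Module.finrank ℚ_[ℓ] (SemiLocal ℓ F') := by
    rw [Module.finrank_pi_fintype, Finset.sum_const, Finset.card_univ, smul_eq_mul,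
      finrank_eq, finrank_eq, ← Module.finrank_mul_finrank ℚ F F',
      Module.finrank_eq_card_basis b, mul_comm]
  have h := (LinearMap.injective_iff_surjective_of_finrank_eq_finrank
    (f := (relComb ℓ b).restrictScalars ℚ_[ℓ]) hfin).2 (relComb_surjective ℓ b)
  exact fun x y hxy => h hxy

/-- An `F`-basis of `F'` gives a basis of `ℚ_ℓ ⊗ F'` over `ℚ_ℓ ⊗ F`. -/
noncomputable def relBasis {ι : Type*} [Fintype ι] [DecidableEq ι] (b : Module.Basis ι F F') :
    Module.Basis ι (SemiLocal ℓ F) (SemiLocal ℓ F') :=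
  Module.Basis.ofEquivFun (LinearEquiv.ofBijective (relComb ℓ b)
    ⟨relComb_injective ℓ b, relComb_surjective ℓ b⟩).symm

lemma relBasis_apply {ι : Type*} [Fintype ι] [DecidableEq ι] (b : Module.Basis ι F F') (j : ι) :
    relBasis ℓ b j = of ℓ F' (b j) := by
  rw [relBasis, Module.Basis.coe_ofEquivFun]
  simp only [LinearEquiv.symm_symm, LinearEquiv.ofBijective_apply, relComb,
    Fintype.linearCombination_apply_single, one_smul]

instance rel_free : Module.Free (SemiLocal ℓ F) (SemiLocal ℓ F') := by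
  classical
  exact Module.Free.of_basis (relBasis ℓ (Module.finBasis F F'))

instance rel_finite : Module.Finite (SemiLocal ℓ F) (SemiLocal ℓ F') := by
  classical
  exact Module.Finite.of_basis (relBasis ℓ (Module.finBasis F F'))

/-- The norm of an element coming from the subfield. -/
theorem norm_map (x : SemiLocal ℓ F) :
    Algebra.norm ℚ_[ℓ] (map ℓ (algebraMap F F') x) =
      Algebra.norm ℚ_[ℓ] x ^ Module.finrank F F' := by
  classical
  rw [← algebraMap_rel_apply, ← Algebra.norm_norm (S := SemiLocal ℓ F),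
    Algebra.norm_algebraMap_of_basis (relBasis ℓ (Module.finBasis F F')), map_pow,
    Fintype.card_fin]

/-- Transitivity of the norm. -/
theorem norm_relNorm (y : SemiLocal ℓ F') :
    Algebra.norm ℚ_[ℓ] (Algebra.norm (SemiLocal ℓ F) y) = Algebra.norm ℚ_[ℓ] y :=
  Algebra.norm_norm


section galois

variable [IsGalois F F']

/-- The action of the Galois group as algebra homomorphisms over `ℚ_ℓ ⊗ F`. -/
noncomputable def galAlgHom (τ : F' ≃ₐ[F] F') : SemiLocal ℓ F' →ₐ[SemiLocal ℓ F] SemiLocal ℓ F' :=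
  { (map ℓ (MulSemiringAction.toRingHom (F' ≃ₐ[F] F') F' τ)).toRingHom with
    commutes' := fun a => by
      change map ℓ (MulSemiringAction.toRingHom (F' ≃ₐ[F] F') F' τ)
        (map ℓ (algebraMap F F') a) = map ℓ (algebraMap F F') a
      rw [map_map]
      congr 2
      ext z
      simp }

lemma galAlgHom_apply (τ : F' ≃ₐ[F] F') (y : SemiLocal ℓ F') : galAlgHom ℓ τ y = τ • y := rfl

/-- **Relative Galois product = relative norm** for semi-local algebras. -/
theorem prod_smul_eq_map_relNorm (y : SemiLocal ℓ F') :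
    ∏ γ : F' ≃ₐ[F] F', γ • y = map ℓ (algebraMap F F') (Algebra.norm (SemiLocal ℓ F) y) := by
  classical
  have hcard : Fintype.card (F' ≃ₐ[F] F') = Module.finrank F F' := by
    rw [← Nat.card_eq_fintype_card]; exact IsGalois.card_aut_eq_finrank F F'
  let b : Module.Basis (F' ≃ₐ[F] F') F F' :=
    (Module.finBasis F F').reindex (Fintype.equivFinOfCardEq hcard).symm
  have := prod_eq_algebraMap_norm_of_basis (K := F) (E := F') (A := SemiLocal ℓ F)
    (B := SemiLocal ℓ F') ((of ℓ F' : F' →ₐ[ℚ] SemiLocal ℓ F') : F' →+* SemiLocal ℓ F')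
    b (relBasis ℓ b) (fun j => relBasis_apply ℓ b j) (galAlgHom ℓ) (fun τ e => rfl) y
  rw [algebraMap_rel_apply] at this
  rw [← this]
  rfl

/-- If the relative Galois product of `y` is the image of `x`, then `x` and `y` have the same
norm to `ℚ_ℓ`. -/
theorem norm_eq_of_prod_smul_eq_map (x : SemiLocal ℓ F) (y : SemiLocal ℓ F')
    (h : ∏ γ : F' ≃ₐ[F] F', γ • y = map ℓ (algebraMap F F') x) :
    Algebra.norm ℚ_[ℓ] y = Algebra.norm ℚ_[ℓ] x := by
  rw [prod_smul_eq_map_relNorm] at h
  have hx : Algebra.norm (SemiLocal ℓ F) y = x := map_injective ℓ (algebraMap F F') h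
  rw [← hx, norm_relNorm]

end galois

end relative

end SemiLocal


end Fermat.Agent.CFT
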