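/-
CFT global part (G0.1), helper7, part G: the general semi-local norm formula.  For a finite Galois
extension `L/K` of number fields, `y ∈ ℚ_ℓ ⊗ L` and a place `W` of `L` over `w`, the `w`-component
of the Galois product `∏ σ, σ • y` is the product over the cosets `q ∈ G ⧸ D_W` of the local norms
`N_{L_W/K_w}` of the `W`-components of the conjugates `q⁻¹ • y`; consequences for `ord`.
-/
import Mathlib
import Fermat.Agent.CFT.Global.G01_helper7_Local

set_option autoImplicit false
set_option linter.unusedSectionVars false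
set_option linter.style.haveILetI false

open scoped TensorProduct NumberField Pointwise

namespace Fermat.Agent.CFT

open scoped SemiLocalRel
open scoped Fermat.Agent.CFT.Local.PadicBridge

open Local

/-- a group is the product of the set of left cosets of a subgroup and the subgroup (via the
chosen representatives `Quotient.out`). -/
noncomputable def cosetOutProdEquiv {G : Type*} [Group G] (D : Subgroup G) : (G ⧸ D) × D ≃ G where
  toFun x := x.1.out * x.2
  invFun σ := ((σ : G ⧸ D), ⟨((σ : G ⧸ D).out)⁻¹ * σ, by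
    rw [← QuotientGroup.eq, QuotientGroup.out_eq']⟩)
  left_inv := by
    rintro ⟨q, δ⟩
    have h1 : ((q.out * (δ : G) : G) : G ⧸ D) = q := by
      rw [QuotientGroup.mk_mul_of_mem _ δ.2, QuotientGroup.out_eq']
    apply Prod.ext
    · exact h1
    · apply Subtype.ext
      change (((q.out * (δ : G) : G) : G ⧸ D).out)⁻¹ * (q.out * δ) = δ
      rw [h1, inv_mul_cancel_left]
  right_inv σ := by
    change (σ : G ⧸ D).out * (((σ : G ⧸ D).out)⁻¹ * σ) = σ
    rw [mul_inv_cancel_left]

@[simp] theorem cosetOutProdEquiv_apply {G : Type*} [Group G] (D : Subgroup G) (q : G ⧸ D) (δ : D) :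
    cosetOutProdEquiv D (q, δ) = q.out * δ := rfl

section OrdGeneral

variable (R : Type*) [CommRing R] [IsDomain R] [IsDiscreteValuationRing R]
  {F : Type*} [Field F] [Algebra R F] [IsFractionRing R F]

theorem ord_finset_prod {ι : Type*} (s : Finset ι) (f : ι → F) (hf : ∀ i ∈ s, f i ≠ 0) :
    ord R (∏ i ∈ s, f i) = ∑ i ∈ s, ord R (f i) := by
  classical
  induction s using Finset.induction_on with
  | empty => simp
  | insert a s ha ih =>
    rw [Finset.prod_insert ha, Finset.sum_insert ha,
      ord_mul R (hf a (Finset.mem_insert_self a s))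
        (Finset.prod_ne_zero_iff.mpr fun i hi => hf i (Finset.mem_insert_of_mem hi)),
      ih fun i hi => hf i (Finset.mem_insert_of_mem hi)]

/-- `ord` is transported by a field isomorphism which identifies the valuation rings. -/
theorem ord_ringEquiv_apply {R₂ : Type*} [CommRing R₂] [IsDomain R₂] [IsDiscreteValuationRing R₂]
    {F₂ : Type*} [Field F₂] [Algebra R₂ F₂] [IsFractionRing R₂ F₂] (e : F ≃+* F₂)
    (he : ∀ z : F, (∃ r : R, algebraMap R F r = z) ↔ ∃ r : R₂, algebraMap R₂ F₂ r = e z)
    (z : F) : ord R₂ (e z) = ord R z := by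
  have hnn : ∀ z : F, 0 ≤ ord R z ↔ 0 ≤ ord R₂ (e z) := fun z => by
    rw [ord_nonneg_iff, ord_nonneg_iff, he]
  have hzero : ∀ z : F, z ≠ 0 → ord R z = 0 → ord R₂ (e z) = 0 := by
    intro z hz h
    have h1 := (hnn z).mp h.ge
    have h2 := (hnn z⁻¹).mp (by rw [ord_inv, h, neg_zero])
    rw [map_inv₀, ord_inv] at h2
    omega
  obtain ⟨π, hπ⟩ := ord_surjective R (F := F) 1
  have hπ0 : π ≠ 0 := by
    rintro rfl
    simp [ord] at hπ
  -- `ord R₂ (e z) = ord R z * c`
  have key : ∀ z : F, z ≠ 0 → ord R₂ (e z) = ord R z * ord R₂ (e π) := by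
    intro z hz
    have h1 : ord R (z * (π ^ (ord R z))⁻¹) = 0 := by
      rw [ord_mul R hz (inv_ne_zero (zpow_ne_zero _ hπ0)), ord_inv, ord_zpow, hπ]
      ring
    have h2 := hzero _ (mul_ne_zero hz (inv_ne_zero (zpow_ne_zero _ hπ0))) h1
    rw [map_mul, map_inv₀, map_zpow₀, ord_mul R₂ ((map_ne_zero e).mpr hz)
      (inv_ne_zero (zpow_ne_zero _ ((map_ne_zero e).mpr hπ0))), ord_inv, ord_zpow] at h2
    linarith
  have hc0 : 0 ≤ ord R₂ (e π) := (hnn π).mp (by rw [hπ]; exact zero_le_one)
  obtain ⟨t, ht⟩ := ord_surjective R₂ (F := F₂) 1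
  have ht0 : t ≠ 0 := by
    rintro rfl
    simp [ord] at ht
  have h3 := key (e.symm t) ((map_ne_zero e.symm).mpr ht0)
  rw [RingEquiv.apply_symm_apply, ht] at h3
  have hc1 : ord R₂ (e π) = 1 := by
    have hdvd : ord R₂ (e π) ∣ 1 := Dvd.intro_left _ h3.symm
    rcases Int.isUnit_iff.mp (isUnit_of_dvd_one hdvd) with h | h
    · exact h
    · omega
  by_cases hz : z = 0
  · subst hz
    rw [map_zero]
    simp [ord]
  · rw [key z hz, hc1, mul_one]

end OrdGeneral

namespace Place

section Formula

variable {ℓ : ℕ} [Fact ℓ.Prime] {K L : Type*} [Field K] [NumberField K] [Field L] [NumberField L]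
  [Algebra K L] [FiniteDimensional K L] [IsGalois K L]

/-- the product of the conjugates under the decomposition group is the local norm. -/
theorem prod_decompHom (W : Place ℓ L) (z : W.Completion)
    [Fintype (MulAction.stabilizer (L ≃ₐ[K] L) W)] :
    ∏ δ : MulAction.stabilizer (L ≃ₐ[K] L) W, decompHom (K := K) W δ z =
      algebraMap (W.under (K := K)).Completion W.Completion
        (Algebra.norm (W.under (K := K)).Completion z) := by
  rw [Algebra.norm_eq_prod_automorphisms]
  exact Fintype.prod_equiv (decompEquiv (K := K) W).toEquiv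
    (fun δ => decompHom (K := K) W δ z) (fun τ => τ z) (fun δ => rfl)

/-- GENERAL SEMI-LOCAL NORM FORMULA: the `W`-component of the Galois product of `y`. -/
theorem proj_prod_smul_eq (W : Place ℓ L) (y : SemiLocal ℓ L)
    [Fintype ((L ≃ₐ[K] L) ⧸ MulAction.stabilizer (L ≃ₐ[K] L) W)] :
    W.proj (∏ σ : L ≃ₐ[K] L, σ • y) =
      algebraMap (W.under (K := K)).Completion W.Completion
        (∏ q : (L ≃ₐ[K] L) ⧸ MulAction.stabilizer (L ≃ₐ[K] L) W,
          Algebra.norm (W.under (K := K)).Completion (W.proj ((q.out)⁻¹ • y))) := by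
  classical
  letI : Fintype (MulAction.stabilizer (L ≃ₐ[K] L) W) := Fintype.ofFinite _
  rw [map_prod, map_prod, ← Equiv.prod_comp (Equiv.inv (L ≃ₐ[K] L)),
    ← Equiv.prod_comp (cosetOutProdEquiv (MulAction.stabilizer (L ≃ₐ[K] L) W)),
    Fintype.prod_prod_type]
  refine Finset.prod_congr rfl fun q _ => ?_
  rw [← prod_decompHom (K := K) W, ← Equiv.prod_comp (Equiv.inv _)]
  refine Finset.prod_congr rfl fun δ _ => ?_
  rw [decompHom_proj]
  simp only [Equiv.inv_apply, cosetOutProdEquiv_apply, mul_inv_rev, mul_smul]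
  rfl

/-- GENERAL SEMI-LOCAL NORM FORMULA, `K`-side: if `x ∈ ℚ_ℓ ⊗ K` is the Galois product of `y`, its
component below `W` is the product of the local norms of the `W`-components of the conjugates of
`y` under coset representatives. -/
theorem under_proj_eq_prod_norm (W : Place ℓ L) (y : SemiLocal ℓ L) (x : SemiLocal ℓ K)
    (hx : SemiLocal.map ℓ (algebraMap K L) x = ∏ σ : L ≃ₐ[K] L, σ • y)
    [Fintype ((L ≃ₐ[K] L) ⧸ MulAction.stabilizer (L ≃ₐ[K] L) W)] :
    (W.under (K := K)).proj x =
      ∏ q : (L ≃ₐ[K] L) ⧸ MulAction.stabilizer (L ≃ₐ[K] L) W,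
        Algebra.norm (W.under (K := K)).Completion (W.proj ((q.out)⁻¹ • y)) := by
  apply (algebraMap (W.under (K := K)).Completion W.Completion).injective
  rw [algebraMap_completion_proj, hx, proj_prod_smul_eq W y]

end Formula

section OrdTransport

variable {ℓ : ℕ} [Fact ℓ.Prime] {F : Type*} [Field F] [NumberField F]
  {G : Type*} [Group G] [MulSemiringAction G F]

/-- the Galois transport of completions preserves the normalised valuations. -/
theorem ord_smulEquiv (σ : G) {W W' : Place ℓ F} (h : σ • W = W') (z : W.Completion) :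
    ord W'.integers (smulEquiv σ h z) = ord W.integers z := by
  refine ord_ringEquiv_apply W.integers (smulEquiv σ h).toRingEquiv (fun z => ?_) z
  have hint : IsIntegral ℤ_[ℓ] ((smulEquiv σ h) z) ↔ IsIntegral ℤ_[ℓ] z :=
    isIntegral_algEquiv ((smulEquiv σ h).restrictScalars ℤ_[ℓ])
  constructor
  · rintro ⟨r, rfl⟩
    exact ⟨⟨smulEquiv σ h (r : W.Completion), hint.mpr r.2⟩, rfl⟩
  · rintro ⟨r, hr⟩
    have hr' : ((r : W'.integers) : W'.Completion) = smulEquiv σ h z := hr
    exact ⟨⟨z, hint.mp (hr' ▸ r.2)⟩, rfl⟩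

theorem ord_proj_smul (σ : G) {W W' : Place ℓ F} (h : σ • W = W') (x : SemiLocal ℓ F) :
    ord W'.integers (W'.proj (σ • x)) = ord W.integers (W.proj x) := by
  rw [← smulEquiv_proj σ h, ord_smulEquiv]

end OrdTransport

section OrdFormula

variable {ℓ : ℕ} [Fact ℓ.Prime] {K L : Type*} [Field K] [NumberField K] [Field L] [NumberField L]
  [Algebra K L] [FiniteDimensional K L] [IsGalois K L]

/-- ORD OF A SEMI-LOCAL NORM, coset form: if `x` is the Galois product of the unit `y`, then
`ord_w (x_w) = f(W|w) * ∑_q ord_W ((q⁻¹ • y)_W)`, `q` running over `G ⧸ D_W`. -/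
theorem ord_under_proj_eq (W : Place ℓ L) (y : (SemiLocal ℓ L)ˣ) (x : SemiLocal ℓ K)
    (hx : SemiLocal.map ℓ (algebraMap K L) x = ∏ σ : L ≃ₐ[K] L, σ • (y : SemiLocal ℓ L))
    [Fintype ((L ≃ₐ[K] L) ⧸ MulAction.stabilizer (L ≃ₐ[K] L) W)] :
    ord (W.under (K := K)).integers ((W.under (K := K)).proj x) =
      (resDeg (W.under (K := K)).integers W.integers : ℤ) *
        ∑ q : (L ≃ₐ[K] L) ⧸ MulAction.stabilizer (L ≃ₐ[K] L) W,
          ord W.integers (W.proj ((q.out)⁻¹ • (y : SemiLocal ℓ L))) := by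
  rw [under_proj_eq_prod_norm W (y : SemiLocal ℓ L) x hx, ord_finset_prod, Finset.mul_sum]
  · refine Finset.sum_congr rfl fun q _ => ?_
    exact ord_norm (W.under (K := K)).integers (W.under (K := K)).Completion W.Completion
      W.integers _
  · intro q _
    rw [Ne, Algebra.norm_eq_zero_iff]
    exact (W.unitsProj ((q.out)⁻¹ • y)).ne_zero

/-- the residue degree divides the valuation of (a component of) a semi-local norm. -/
theorem resDeg_dvd_ord_under_proj (W : Place ℓ L) (y : (SemiLocal ℓ L)ˣ) (x : SemiLocal ℓ K)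
    (hx : SemiLocal.map ℓ (algebraMap K L) x = ∏ σ : L ≃ₐ[K] L, σ • (y : SemiLocal ℓ L)) :
    (resDeg (W.under (K := K)).integers W.integers : ℤ) ∣
      ord (W.under (K := K)).integers ((W.under (K := K)).proj x) := by
  classical
  letI : Fintype ((L ≃ₐ[K] L) ⧸ MulAction.stabilizer (L ≃ₐ[K] L) W) := Fintype.ofFinite _
  rw [ord_under_proj_eq W y x hx]
  exact Dvd.intro _ rfl

/-- ONLY-IF companion of the unramified norm criterion: at an unramified place the local degree
divides the valuation of a semi-local norm. -/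
theorem finrank_dvd_ord_under_proj_of_unramified (W : Place ℓ L)
    (h : ramIdx (W.under (K := K)).integers W.integers = 1)
    (y : (SemiLocal ℓ L)ˣ) (x : SemiLocal ℓ K)
    (hx : SemiLocal.map ℓ (algebraMap K L) x = ∏ σ : L ≃ₐ[K] L, σ • (y : SemiLocal ℓ L)) :
    (Module.finrank (W.under (K := K)).Completion W.Completion : ℤ) ∣
      ord (W.under (K := K)).integers ((W.under (K := K)).proj x) := by
  have h1 := ramIdx_mul_resDeg (W.under (K := K)).integers (W.under (K := K)).Completion
    W.Completion W.integers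
  rw [h, one_mul] at h1
  rw [← h1]
  exact resDeg_dvd_ord_under_proj W y x hx

/-- the cosets of the decomposition group of `W` parametrise the places above `W.under`. -/
noncomputable def quotientStabilizerEquivFibre (W : Place ℓ L) :
    ((L ≃ₐ[K] L) ⧸ MulAction.stabilizer (L ≃ₐ[K] L) W) ≃
      {W' : Place ℓ L // W'.under (K := K) = W.under} :=
  (MulAction.orbitEquivQuotientStabilizer (L ≃ₐ[K] L) W).symm.trans
    (Equiv.setCongr (fibre_eq_orbit (K := K) W).symm)

theorem coe_quotientStabilizerEquivFibre (W : Place ℓ L)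
    (q : (L ≃ₐ[K] L) ⧸ MulAction.stabilizer (L ≃ₐ[K] L) W) :
    ((quotientStabilizerEquivFibre (K := K) W q : {W' : Place ℓ L // W'.under (K := K) = W.under}) :
      Place ℓ L) = q.out • W := by
  have : ((MulAction.orbitEquivQuotientStabilizer (L ≃ₐ[K] L) W).symm q : Place ℓ L) =
      q.out • W := by
    conv_lhs => rw [← QuotientGroup.out_eq' q]
    rfl
  exact this

/-- ORD OF A SEMI-LOCAL NORM: if `x` is the Galois product of the unit `y`, then
`ord_w (x_w) = f(W|w) * ∑_{W' | w} ord_{W'} (y_{W'})`. -/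
theorem ord_under_proj_eq_sum_fibre (W : Place ℓ L) (y : (SemiLocal ℓ L)ˣ) (x : SemiLocal ℓ K)
    (hx : SemiLocal.map ℓ (algebraMap K L) x = ∏ σ : L ≃ₐ[K] L, σ • (y : SemiLocal ℓ L))
    [Fintype {W' : Place ℓ L // W'.under (K := K) = W.under}] :
    ord (W.under (K := K)).integers ((W.under (K := K)).proj x) =
      (resDeg (W.under (K := K)).integers W.integers : ℤ) *
        ∑ W' : {W' : Place ℓ L // W'.under (K := K) = W.under},
          ord W'.1.integers (W'.1.proj (y : SemiLocal ℓ L)) := by
  classical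
  letI : Fintype ((L ≃ₐ[K] L) ⧸ MulAction.stabilizer (L ≃ₐ[K] L) W) := Fintype.ofFinite _
  rw [ord_under_proj_eq W y x hx]
  congr 1
  refine Fintype.sum_equiv (quotientStabilizerEquivFibre (K := K) W) _ _ fun q => ?_
  have h1 : (q.out)⁻¹ • (q.out • W) = W := inv_smul_smul _ _
  rw [ord_proj_smul (q.out)⁻¹ h1 (y : SemiLocal ℓ L)]
  have h2 := coe_quotientStabilizerEquivFibre (K := K) W q
  generalize quotientStabilizerEquivFibre (K := K) W q = W' at h2 ⊢
  obtain ⟨W', hW'⟩ := W'
  simp only at h2
  subst h2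
  rfl

end OrdFormula

end Place

end Fermat.Agent.CFT
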