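/-
CFT global part (G0.2), helper5: the split idempotent.  If the Galois group acts freely on the
places of `L` over `ℓ`, then `ℚ_ℓ ⊗ L` is induced from `ℚ_ℓ ⊗ K`: there is an idempotent `e` whose
Galois conjugates are orthogonal with sum `1`, and `e (ℚ_ℓ ⊗ L) = e (ℚ_ℓ ⊗ K)`.
-/
import Mathlib
import Fermat.Agent.CFT.Global.G02_helper5_Split
import Fermat.Agent.CFT.Global.G01_helper7_Dichotomy

set_option autoImplicit false
set_option linter.unusedSectionVars false
set_option linter.style.haveILetI false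

open scoped TensorProduct NumberField Pointwise
open IsLocalRing IsDedekindDomain

namespace Fermat.Agent.CFT

section Idempotent

open scoped SemiLocalRel

variable {ℓ : ℕ} [Fact ℓ.Prime] {K L : Type} [Field K] [NumberField K] [Field L] [NumberField L]
  [Algebra K L] [IsGalois K L]

/-- **The split idempotent, abstract form.** -/
theorem exists_split_idempotent_of_free
    (hfree : ∀ (W : Place ℓ L) (σ : L ≃ₐ[K] L), σ • W = W → σ = 1) :
    ∃ e : SemiLocal ℓ L, e * e = e ∧ (∀ σ : L ≃ₐ[K] L, σ ≠ 1 → σ • e * e = 0) ∧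
      ∑ σ : L ≃ₐ[K] L, σ • e = 1 ∧
      ∀ x : SemiLocal ℓ L, ∃ k : SemiLocal ℓ K, e * x = e * SemiLocal.map ℓ (algebraMap K L) k := by
  classical
  choose rep hrep using (Place.under_surjective : Function.Surjective
    (Place.under : Place ℓ L → Place ℓ K))
  obtain ⟨e, he⟩ := SemiLocal.exists_proj_eq ℓ L
    (fun W => if rep (W.under (K := K)) = W then 1 else 0)
  -- components of the conjugates of `e`
  have hcomp : ∀ (σ : L ≃ₐ[K] L) (W : Place ℓ L), W.proj (σ • e) =
      if rep (W.under (K := K)) = σ⁻¹ • W then 1 else 0 := by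
    intro σ W
    have hunder : (σ⁻¹ • W).under (K := K) = W.under := Place.under_smul σ⁻¹ W
    have h0 := he (σ⁻¹ • W)
    rw [hunder] at h0
    by_cases h : rep (W.under (K := K)) = σ⁻¹ • W
    · rw [if_pos h] at h0 ⊢
      have h1 : (σ⁻¹ • W).proj e = (σ⁻¹ • W).proj 1 := by rw [h0, map_one]
      have := (Place.proj_smul_eq_iff σ (smul_inv_smul σ W) e 1).mpr h1
      rw [this, smul_one, map_one]
    · rw [if_neg h] at h0 ⊢
      have h1 : (σ⁻¹ • W).proj e = (σ⁻¹ • W).proj 0 := by rw [h0, map_zero]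
      have := (Place.proj_smul_eq_iff σ (smul_inv_smul σ W) e 0).mpr h1
      rw [this, smul_zero, map_zero]
  have hee : e * e = e := by
    apply SemiLocal.ext_proj ℓ L
    intro W
    rw [map_mul, he W]
    split_ifs <;> simp
  have horth : ∀ σ : L ≃ₐ[K] L, σ ≠ 1 → σ • e * e = 0 := by
    intro σ hσ
    apply SemiLocal.ext_proj ℓ L
    intro W
    rw [map_mul, hcomp σ W, he W, map_zero]
    by_cases h1 : rep (W.under (K := K)) = W
    · by_cases h2 : rep (W.under (K := K)) = σ⁻¹ • W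
      · exfalso
        apply hσ
        have h3 : σ⁻¹ • W = W := h2.symm.trans h1
        have := hfree W σ⁻¹ h3
        exact inv_eq_one.mp this
      · rw [if_neg h2, zero_mul]
    · rw [if_neg h1, mul_zero]
  have hsum : ∑ σ : L ≃ₐ[K] L, σ • e = 1 := by
    apply SemiLocal.ext_proj ℓ L
    intro W
    obtain ⟨τ, hτ⟩ := Place.exists_smul_eq_of_under_eq (K := K)
      (W := rep (W.under (K := K))) (W' := W) (hrep _)
    rw [map_sum, map_one, Finset.sum_congr rfl (fun σ _ => hcomp σ W)]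
    have hiff : ∀ σ : L ≃ₐ[K] L, rep (W.under (K := K)) = σ⁻¹ • W ↔ σ = τ := by
      intro σ
      constructor
      · intro h
        have h3 : σ • rep (W.under (K := K)) = W := eq_inv_smul_iff.mp h
        have h4 : (τ⁻¹ * σ) • rep (W.under (K := K)) = rep (W.under (K := K)) := by
          rw [mul_smul, h3]
          exact (eq_inv_smul_iff.mpr hτ).symm
        have h5 := hfree _ _ h4
        exact (inv_mul_eq_one.mp h5).symm
      · rintro rfl
        exact eq_inv_smul_iff.mpr hτ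
    simp only [hiff, Finset.sum_ite_eq', Finset.mem_univ, if_true]
  refine ⟨e, hee, horth, hsum, fun x => ?_⟩
  -- the trace of `e x`
  have hfix : ∀ τ : L ≃ₐ[K] L, τ • (∑ σ : L ≃ₐ[K] L, σ • (e * x)) = ∑ σ : L ≃ₐ[K] L, σ • (e * x) := by
    intro τ
    rw [Finset.smul_sum]
    exact Fintype.sum_equiv (Equiv.mulLeft τ) _ _ (fun σ => by simp [mul_smul])
  obtain ⟨k, hk⟩ := (SemiLocal.mem_range_map_iff_fixed ℓ K L).mpr hfix
  refine ⟨k, ?_⟩
  have hk' : SemiLocal.map ℓ (algebraMap K L) k = ∑ σ : L ≃ₐ[K] L, σ • (e * x) := hk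
  rw [hk', Finset.mul_sum, Finset.sum_eq_single (1 : L ≃ₐ[K] L)]
  · rw [one_smul, ← mul_assoc, hee]
  · intro σ _ hσ
    rw [smul_mul', ← mul_assoc, mul_comm e (σ • e), horth σ hσ, zero_mul]
  · intro h
    exact absurd (Finset.mem_univ _) h

end Idempotent

/-- **SplitIdempotent** (helper3's statement). -/
theorem splitIdempotent (K L : Type) [Field K] [NumberField K] [Field L] [NumberField L]
    [Algebra K L] [IsGalois K L] (ℓ : Nat.Primes)
    (h : ∀ Q : Ideal (𝓞 L), Q.IsPrime → ((ℓ : ℕ) : 𝓞 L) ∈ Q →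
      ∀ σ : L ≃ₐ[K] L, (∀ x : 𝓞 L, x ∈ Q → σ • x ∈ Q) → σ = 1) :
    ∃ e : SemiLocal ℓ L, e * e = e ∧ (∀ σ : L ≃ₐ[K] L, σ ≠ 1 → σ • e * e = 0) ∧
      ∑ σ : L ≃ₐ[K] L, σ • e = 1 ∧
      ∀ x : SemiLocal ℓ L, ∃ k : SemiLocal ℓ K, e * x = e * SemiLocal.map ℓ (algebraMap K L) k :=
  exists_split_idempotent_of_free (Place.eq_one_of_smul_eq h)

end Fermat.Agent.CFT
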