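/-
CFT global part (G0.2), helper5: UniquePlace.  If exactly one prime of `𝓞 F` lies over `ℓ`, then
`ℚ_ℓ ⊗ F` is a field.
-/
import Mathlib
import Fermat.Agent.CFT.Global.G04_lead_Density
import Fermat.Agent.CFT.Global.G01_helper7_Structure

set_option autoImplicit false
set_option linter.unusedSectionVars false
set_option linter.style.haveILetI false

open scoped TensorProduct NumberField

namespace Fermat.Agent.CFT

section UniquePlace

variable (ℓ : ℕ) [Fact ℓ.Prime] (F : Type) [Field F] [NumberField F]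

/-- if there is only one place over `ℓ`, the projection to its completion is an isomorphism. -/
theorem Place.proj_bijective_of_subsingleton [Subsingleton (Place ℓ F)] (w : Place ℓ F) :
    Function.Bijective w.proj := by
  refine ⟨fun x y h => ?_, w.proj_surjective⟩
  apply SemiLocal.ext_proj ℓ F
  intro w'
  rw [Subsingleton.elim w' w]
  exact h

/-- **UniquePlace, abstract half**: if there is only one place of `F` over `ℓ`, then `ℚ_ℓ ⊗ F` is a
field. -/
theorem SemiLocal.isField_of_subsingleton_place [Subsingleton (Place ℓ F)] :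
    IsField (SemiLocal ℓ F) := by
  obtain ⟨w⟩ := (inferInstance : Nonempty (Place ℓ F))
  exact MulEquiv.isField (Field.toIsField w.Completion)
    (RingEquiv.ofBijective w.proj (Place.proj_bijective_of_subsingleton ℓ F w)).toMulEquiv

/-- uniqueness of the prime over `ℓ` gives uniqueness of the place over `ℓ`. -/
theorem Place.subsingleton_of_unique_prime
    (h : ∀ P Q : Ideal (𝓞 F), P.IsPrime → Q.IsPrime → ((ℓ : ℕ) : 𝓞 F) ∈ P →
      ((ℓ : ℕ) : 𝓞 F) ∈ Q → P = Q) : Subsingleton (Place ℓ F) :=
  ⟨fun w w' => Place.toPrime_injective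
    (h w.toPrime w'.toPrime inferInstance inferInstance w.natCast_mem_toPrime
      w'.natCast_mem_toPrime)⟩

/-- **UniquePlace**: if exactly one prime of `𝓞 F` lies over `ℓ`, then `ℚ_ℓ ⊗ F` is a field. -/
theorem SemiLocal.isField_of_unique_prime
    (h : ∀ P Q : Ideal (𝓞 F), P.IsPrime → Q.IsPrime → ((ℓ : ℕ) : 𝓞 F) ∈ P →
      ((ℓ : ℕ) : 𝓞 F) ∈ Q → P = Q) : IsField (SemiLocal ℓ F) := by
  haveI := Place.subsingleton_of_unique_prime ℓ F h
  exact SemiLocal.isField_of_subsingleton_place ℓ F

/-- in that case the unique place is `⊥`. -/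
theorem Place.asIdeal_eq_bot_of_subsingleton [Subsingleton (Place ℓ F)] (w : Place ℓ F) :
    w.asIdeal = ⊥ := by
  rw [eq_bot_iff]
  intro x hx
  have h1 : w.proj x = w.proj 0 := by
    rw [map_zero]
    exact Ideal.Quotient.eq_zero_iff_mem.mpr hx
  exact (Place.proj_bijective_of_subsingleton ℓ F w).1 h1

end UniquePlace

section Cyclotomic

/-- a prime of `𝓞 E` containing the rational prime `p` lies over `(p)`. -/
theorem liesOver_span_of_natCast_mem {E : Type} [Field E] [NumberField E] {p : ℕ} (hp : p.Prime)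
    (P : Ideal (𝓞 E)) [hP : P.IsPrime] (hpP : ((p : ℕ) : 𝓞 E) ∈ P) :
    P.LiesOver (Ideal.span {(p : ℤ)}) := by
  constructor
  have hmax : (Ideal.span {(p : ℤ)}).IsMaximal :=
    PrincipalIdealRing.isMaximal_of_irreducible
      (Nat.prime_iff_prime_int.mp hp).irreducible
  have hle : Ideal.span {(p : ℤ)} ≤ P.under ℤ := by
    rw [Ideal.span_singleton_le_iff_mem, Ideal.under, Ideal.mem_comap]
    simpa using hpP
  have hne : P.under ℤ ≠ ⊤ := (Ideal.IsPrime.under ℤ P).ne_top
  exact hmax.eq_of_le hne hle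

/-- **UniquePlace for `ℚ(ζ_{p^(k+1)})` at `p`**: `ℚ_p ⊗ ℚ(ζ_{p^(k+1)})` is a field. -/
theorem SemiLocal.isField_of_isCyclotomicExtension (p k : ℕ) [hp : Fact p.Prime] (E : Type)
    [Field E] [NumberField E] [hE : IsCyclotomicExtension {p ^ (k + 1)} ℚ E] :
    IsField (SemiLocal p E) := by
  apply SemiLocal.isField_of_unique_prime
  intro P Q hP hQ hpP hpQ
  haveI := hP
  haveI := hQ
  haveI := liesOver_span_of_natCast_mem hp.out P hpP
  haveI := liesOver_span_of_natCast_mem hp.out Q hpQ
  have hζ := hE.zeta_spec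
  rw [IsCyclotomicExtension.Rat.eq_span_zeta_sub_one_of_liesOver p k E hζ P,
    IsCyclotomicExtension.Rat.eq_span_zeta_sub_one_of_liesOver p k E hζ Q]

/-- in particular there is exactly one place of `ℚ(ζ_{p^(k+1)})` over `p`. -/
theorem Place.subsingleton_of_isCyclotomicExtension (p k : ℕ) [hp : Fact p.Prime] (E : Type)
    [Field E] [NumberField E] [hE : IsCyclotomicExtension {p ^ (k + 1)} ℚ E] :
    Subsingleton (Place p E) := by
  apply Place.subsingleton_of_unique_prime
  intro P Q hP hQ hpP hpQ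
  haveI := hP
  haveI := hQ
  haveI := liesOver_span_of_natCast_mem hp.out P hpP
  haveI := liesOver_span_of_natCast_mem hp.out Q hpQ
  have hζ := hE.zeta_spec
  rw [IsCyclotomicExtension.Rat.eq_span_zeta_sub_one_of_liesOver p k E hζ P,
    IsCyclotomicExtension.Rat.eq_span_zeta_sub_one_of_liesOver p k E hζ Q]

end Cyclotomic

end Fermat.Agent.CFT
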