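/-
CFT global part (G2), helper2: counting places in a Galois extension of prime degree:
`#Place ℓ L + (p - 1) · #nonsplit = p · #Place ℓ K`.
-/
import Fermat.Agent.CFT.Global.G01_helper7_Dichotomy

set_option autoImplicit false
set_option linter.unusedSectionVars false

open scoped TensorProduct NumberField

namespace Fermat.Agent.CFT

open scoped SemiLocalRel

section Count

variable (K L : Type*) [Field K] [NumberField K] [Field L] [NumberField L]
  [Algebra K L] [FiniteDimensional K L] [IsGalois K L] (ℓ : ℕ) [Fact ℓ.Prime]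

/-- the places of `K` over `ℓ` which do not split in `L`: some (equivalently every) place of `L`
above has the full Galois group as decomposition group. -/
def nonsplitPlaces : Set (Place ℓ K) :=
  {w | ∃ W : Place ℓ L, W.under = w ∧ MulAction.stabilizer (L ≃ₐ[K] L) W = ⊤}

variable {K L ℓ}

lemma mem_nonsplitPlaces_iff {w : Place ℓ K} :
    w ∈ nonsplitPlaces K L ℓ ↔
      ∃ W : Place ℓ L, W.under = w ∧ MulAction.stabilizer (L ≃ₐ[K] L) W = ⊤ := Iff.rfl

lemma under_mem_nonsplitPlaces_iff (W : Place ℓ L) :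
    W.under ∈ nonsplitPlaces K L ℓ ↔ MulAction.stabilizer (L ≃ₐ[K] L) W = ⊤ := by
  constructor
  · rintro ⟨W', hW', h⟩
    exact Place.stabilizer_eq_top_of_under_eq hW' h
  · intro h
    exact ⟨W, rfl, h⟩

/-- the number of places of `L` above a place of `K`, in prime degree. -/
theorem card_fibre_eq_ite {p : ℕ} (hp : p.Prime) (hcard : Nat.card (L ≃ₐ[K] L) = p)
    (w : Place ℓ K) [Decidable (w ∈ nonsplitPlaces K L ℓ)] :
    Nat.card {W : Place ℓ L // W.under = w} = if w ∈ nonsplitPlaces K L ℓ then 1 else p := by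
  obtain ⟨W, rfl⟩ := Place.under_surjective (K := K) (L := L) w
  rcases Place.split_or_nonsplit hp hcard W with ⟨h1, -, h3, -⟩ | ⟨h1, -, h3⟩
  · have hn : ¬ W.under ∈ nonsplitPlaces K L ℓ := by
      rw [under_mem_nonsplitPlaces_iff, h1]
      intro h
      have h2 := congrArg (fun H : Subgroup (L ≃ₐ[K] L) => Nat.card H) h
      simp only [Subgroup.card_bot, Subgroup.card_top, hcard] at h2
      exact hp.one_lt.ne h2
    rw [if_neg hn, h3]
  · have hn : W.under ∈ nonsplitPlaces K L ℓ := (under_mem_nonsplitPlaces_iff W).2 h1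
    rw [if_pos hn]
    have : Unique {W' : Place ℓ L // W'.under (K := K) = W.under} :=
      ⟨⟨⟨W, rfl⟩⟩, fun W' => Subtype.ext (h3 W'.1 W'.2)⟩
    exact Nat.card_unique

/-- **Counting places in prime degree**:
`#Place ℓ L + (p - 1) · #nonsplit = p · #Place ℓ K`. -/
theorem card_place_add {p : ℕ} (hp : p.Prime) (hcard : Nat.card (L ≃ₐ[K] L) = p) :
    Nat.card (Place ℓ L) + (p - 1) * Nat.card (nonsplitPlaces K L ℓ) =
      p * Nat.card (Place ℓ K) := by
  classical
  letI : Fintype (Place ℓ K) := Fintype.ofFinite _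
  have h1 : Nat.card (Place ℓ L) = ∑ w : Place ℓ K, Nat.card {W : Place ℓ L // W.under = w} := by
    rw [← Nat.card_sigma]
    exact Nat.card_congr (Equiv.sigmaFiberEquiv (Place.under (K := K) (L := L))).symm
  have h2 : ∀ w : Place ℓ K, Nat.card {W : Place ℓ L // W.under = w} =
      if w ∈ nonsplitPlaces K L ℓ then 1 else p := fun w => card_fibre_eq_ite hp hcard w
  rw [h1, Finset.sum_congr rfl fun w _ => h2 w, Finset.sum_ite, Finset.sum_const, Finset.sum_const,
    smul_eq_mul, smul_eq_mul, mul_one]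
  have h3 : Nat.card (nonsplitPlaces K L ℓ) =
      (Finset.univ.filter fun w : Place ℓ K => w ∈ nonsplitPlaces K L ℓ).card := by
    rw [Nat.card_eq_fintype_card, ← Set.toFinset_card]
    congr 1
    ext w
    simp
  have h4 : (Finset.univ.filter fun w : Place ℓ K => w ∈ nonsplitPlaces K L ℓ).card +
      (Finset.univ.filter fun w : Place ℓ K => ¬ w ∈ nonsplitPlaces K L ℓ).card =
        Nat.card (Place ℓ K) := by
    rw [Finset.card_filter_add_card_filter_not, Finset.card_univ, Nat.card_eq_fintype_card]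
  rw [h3, ← h4]
  obtain ⟨q, rfl⟩ : ∃ q, p = q + 1 := ⟨p - 1, (Nat.sub_add_cancel hp.one_le).symm⟩
  rw [Nat.add_sub_cancel]
  ring

end Count

end Fermat.Agent.CFT
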