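import Fermat.Agent.CFT.Global.G04_lead_SUnits
import Fermat.Agent.CFT.Global.G04_helper6_SUnitBridge
import Fermat.Agent.CFT.Global.G2_helper2_Count

/-!
# CFT (G0.4)/(G2): glue between the idelic and the ideal-theoretic `S`-unit statements

* `primesOver_eq_primesOverRat`: lead's `primesOver F S` is `SUnit.primesOverRat F S`;
* `ncard_ratFiber_eq_card_place`: `#{primes of F above ℓ} = #(Place ℓ F)`;
* `herbrand_sUnitRep_sum`: the Herbrand quotient of helper2's `sUnitRep K L S` for a cyclic extension
  of odd prime degree `p`: `h(L_S) = p ^ (N - 1)`, `N` the number of places of `K` over `S` which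
  do not split in `L`.
-/

set_option autoImplicit false

open IsDedekindDomain NumberField

namespace Fermat.Agent.CFT

open SUnit Coh

section Bridge

variable {F : Type} [Field F] [NumberField F]

/-- lead's `primesOver` and helper6's `primesOverRat` agree. -/
theorem primesOver_eq_primesOverRat (S : Set Nat.Primes) : primesOver F S = primesOverRat F S := by
  ext P
  rw [mem_primesOver_iff, mem_primesOverRat]
  constructor
  · intro h
    exact ⟨primeBelow P, h, primeBelow_mem P⟩
  · rintro ⟨ℓ, hℓ, hP⟩
    rw [primeBelow_eq hP]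
    exact hℓ

/-- **(D2), counting form**: the number of primes of `F` above `ℓ` is the number of places of `F`
over `ℓ`. -/
theorem ncard_ratFiber_eq_card_place (ℓ : Nat.Primes) :
    (ratFiber F ℓ).ncard = Nat.card (Place (ℓ : ℕ) F) := by
  rw [← Nat.card_coe_set_eq]
  exact (Nat.card_congr (Place.equivPrimesOver (F := F) ℓ)).symm

end Bridge

section Herbrand

variable {K L : Type} [Field K] [NumberField K] [Field L] [NumberField L] [Algebra K L]
  [IsGalois K L]

/-- **Herbrand quotient of the idelic `S`-units** of a cyclic extension of odd prime degree `p`: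
`h(L_S) = p ^ (N - 1)`, where `N` is the number of places of `K` over `S` that do not split. -/
theorem herbrand_sUnitRep_sum {p : ℕ} (hp : p.Prime) (hp2 : p ≠ 2)
    (hcard : Nat.card (L ≃ₐ[K] L) = p) {g : L ≃ₐ[K] L} (hg : ∀ σ, σ ∈ Subgroup.zpowers g)
    (S : Finset Nat.Primes) :
    HerbrandFinite (sUnitRep K L (S : Set Nat.Primes)) ∧
      herbrand (sUnitRep K L (S : Set Nat.Primes)) =
        (p : ℚ) ^ ((∑ ℓ ∈ S, (Nat.card (nonsplitPlaces K L (ℓ : ℕ)) : ℤ)) - 1) := by
  have hfin : (S : Set Nat.Primes).Finite := S.finite_toSet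
  have htf : hfin.toFinset = S := Finset.finite_toSet_toFinset S
  refine herbrand_sUnits_rat (K := K) (L := L) (sUnits L (S : Set Nat.Primes)).subtype hp hp2 hcard
    hg (S : Set Nat.Primes) hfin (Subgroup.subtype_injective _) (fun _ _ => rfl)
    (range_subtype_sUnits _) _ ?_
  rw [htf, sub_add_cancel, Finset.mul_sum, Finset.mul_sum, ← Finset.sum_sub_distrib]
  refine Finset.sum_congr rfl fun ℓ _ => ?_
  rw [ncard_ratFiber_eq_card_place, ncard_ratFiber_eq_card_place]
  have h := card_place_add (K := K) (L := L) (ℓ := (ℓ : ℕ)) hp hcard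
  have h' := congrArg (Nat.cast (R := ℤ)) h
  rw [Nat.cast_add, Nat.cast_mul, Nat.cast_mul, Nat.cast_sub hp.one_le, Nat.cast_one] at h'
  linear_combination h'

end Herbrand

end Fermat.Agent.CFT
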