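import Fermat.Agent.CFT.Global.G2a_helper6_Galois

/-!
# CFT (G2a): counting primes above and unit ranks in a cyclic extension of odd prime degree
-/

set_option autoImplicit false

open IsDedekindDomain NumberField

namespace Fermat.Agent.CFT.SUnit

section Count

variable (K L : Type*) [Field K] [NumberField K] [Field L] [NumberField L] [Algebra K L]

/-- The primes of `L` above a prime `v` of `K`. -/
def fiber (v : HeightOneSpectrum (𝓞 K)) : Set (HeightOneSpectrum (𝓞 L)) :=
  {w | w.under (𝓞 K) = v}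

variable {K L}

omit [NumberField K] [NumberField L] in
lemma mem_fiber {v : HeightOneSpectrum (𝓞 K)} {w : HeightOneSpectrum (𝓞 L)} :
    w ∈ fiber K L v ↔ w.under (𝓞 K) = v := Iff.rfl

/-- The fibre is in bijection with `Ideal.primesOver`. -/
noncomputable def fiberEquivPrimesOver (v : HeightOneSpectrum (𝓞 K)) :
    fiber K L v ≃ v.asIdeal.primesOver (𝓞 L) where
  toFun w := ⟨w.1.asIdeal, w.1.isPrime, ⟨congrArg HeightOneSpectrum.asIdeal w.2.symm⟩⟩
  invFun Q := ⟨⟨Q.1, Q.2.1, by
      intro h0
      have h1 : v.asIdeal = Q.1.under (𝓞 K) := Q.2.2.over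
      rw [h0] at h1
      apply v.ne_bot
      rw [h1]
      exact Ideal.comap_bot_of_injective _ (FaithfulSMul.algebraMap_injective (𝓞 K) (𝓞 L))⟩,
    HeightOneSpectrum.ext Q.2.2.over.symm⟩
  left_inv w := rfl
  right_inv Q := rfl

lemma fiber_finite (v : HeightOneSpectrum (𝓞 K)) : (fiber K L v).Finite := by
  have : Finite (v.asIdeal.primesOver (𝓞 L)) :=
    (IsDedekindDomain.primesOver_finite v.asIdeal (𝓞 L)).to_subtype
  exact Set.finite_coe_iff.mp (Finite.of_equiv _ (fiberEquivPrimesOver v).symm)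

end Count

section Count2

variable {K L : Type*} [Field K] [NumberField K] [Field L] [NumberField L] [Algebra K L]

omit [NumberField K] [NumberField L] in
lemma ncard_fiber_eq (v : HeightOneSpectrum (𝓞 K)) :
    (fiber K L v).ncard = (v.asIdeal.primesOver (𝓞 L)).ncard := by
  rw [← Nat.card_coe_set_eq, ← Nat.card_coe_set_eq]
  exact Nat.card_congr (fiberEquivPrimesOver v)

/-- In a Galois extension of prime degree, there are `1` or `p` primes above a given prime. -/
lemma ncard_fiber_eq_one_or [IsGalois K L] {p : ℕ} (hp : p.Prime)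
    (hcard : Nat.card (L ≃ₐ[K] L) = p) (v : HeightOneSpectrum (𝓞 K)) :
    (fiber K L v).ncard = 1 ∨ (fiber K L v).ncard = p := by
  have h := Ideal.ncard_primesOver_mul_ramificationIdxIn_mul_inertiaDegIn v.asIdeal (𝓞 L)
    (L ≃ₐ[K] L)
  rw [hcard, ← ncard_fiber_eq] at h
  exact (Nat.dvd_prime hp).mp ⟨_, h.symm⟩

omit [NumberField K] [NumberField L] in
lemma primesAbove_eq_biUnion (S : Set (HeightOneSpectrum (𝓞 K))) :
    primesAbove K L S = ⋃ v ∈ S, fiber K L v := by
  ext w
  simp only [Set.mem_iUnion, exists_prop, mem_fiber, mem_primesAbove]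
  constructor
  · intro h
    exact ⟨_, h, rfl⟩
  · rintro ⟨v, hv, rfl⟩
    exact hv

lemma primesAbove_finite {S : Set (HeightOneSpectrum (𝓞 K))} (hS : S.Finite) :
    (primesAbove K L S).Finite := by
  rw [primesAbove_eq_biUnion]
  exact hS.biUnion fun v _ => fiber_finite v

/-- `#S_L = ∑_{v ∈ S} #{w | v}`. -/
lemma ncard_primesAbove {S : Set (HeightOneSpectrum (𝓞 K))} (hS : S.Finite) :
    (primesAbove K L S).ncard = ∑ v ∈ hS.toFinset, (fiber K L v).ncard := by
  classical
  have h1 : primesAbove K L S =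
      ↑(hS.toFinset.biUnion fun v => (fiber_finite (L := L) v).toFinset) := by
    rw [primesAbove_eq_biUnion]
    ext w
    simp
  rw [h1, Set.ncard_coe_finset, Finset.card_biUnion]
  · refine Finset.sum_congr rfl fun v _ => ?_
    rw [Set.ncard_eq_toFinset_card _ (fiber_finite v)]
  · intro v _ v' _ hvv'
    show Disjoint (fiber_finite (L := L) v).toFinset (fiber_finite (L := L) v').toFinset
    rw [Finset.disjoint_left]
    intro w hw hw'
    rw [Set.Finite.mem_toFinset, mem_fiber] at hw hw'
    exact hvv' (hw.symm.trans hw')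

/-- The counting formula `#S_L = n₁ + p * n_p`, `#S = n₁ + n_p`. -/
lemma ncard_primesAbove_of_prime [IsGalois K L] {p : ℕ} (hp : p.Prime)
    (hcard : Nat.card (L ≃ₐ[K] L) = p) {S : Set (HeightOneSpectrum (𝓞 K))} (hS : S.Finite) :
    (primesAbove K L S).ncard + (p - 1) * {v | v ∈ S ∧ (fiber K L v).ncard = 1}.ncard =
      p * S.ncard := by
  classical
  rw [ncard_primesAbove hS]
  have hS1 : {v | v ∈ S ∧ (fiber K L v).ncard = 1} =
      ↑(hS.toFinset.filter fun v => (fiber K L v).ncard = 1) := by
    ext v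
    simp
  rw [hS1, Set.ncard_coe_finset, Set.ncard_eq_toFinset_card _ hS]
  rw [← Finset.sum_filter_add_sum_filter_not hS.toFinset (fun v => (fiber K L v).ncard = 1),
    ← Finset.card_filter_add_card_filter_not (s := hS.toFinset)
      (fun v => (fiber K L v).ncard = 1)]
  have e1 : ∑ v ∈ hS.toFinset.filter (fun v => (fiber K L v).ncard = 1), (fiber K L v).ncard =
      (hS.toFinset.filter fun v => (fiber K L v).ncard = 1).card := by
    rw [Finset.card_eq_sum_ones]
    exact Finset.sum_congr rfl fun v hv => (Finset.mem_filter.mp hv).2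
  have e2 : ∑ v ∈ hS.toFinset.filter (fun v => ¬ (fiber K L v).ncard = 1),
      (fiber K L v).ncard =
      p * (hS.toFinset.filter fun v => ¬ (fiber K L v).ncard = 1).card := by
    rw [mul_comm, ← smul_eq_mul, ← Finset.sum_const]
    refine Finset.sum_congr rfl fun v hv => ?_
    exact (ncard_fiber_eq_one_or hp hcard v).resolve_left (Finset.mem_filter.mp hv).2
  rw [e1, e2]
  obtain ⟨q, rfl⟩ : ∃ q, p = q + 1 := ⟨p - 1, (Nat.sub_add_cancel hp.one_le).symm⟩
  rw [Nat.add_sub_cancel]
  ring

/-- Unit ranks in a Galois extension of odd degree: `r_L + 1 = [L:K] (r_K + 1)`. -/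
lemma rank_add_one_eq [IsGalois K L] (hodd : Odd (Nat.card (L ≃ₐ[K] L))) :
    Units.rank L + 1 = Nat.card (L ≃ₐ[K] L) * (Units.rank K + 1) := by
  have := IsUnramifiedAtInfinitePlaces_of_odd_card_aut (k := K) (K := L) hodd
  have h1 := IsUnramifiedAtInfinitePlaces.card_infinitePlace K L
  have h2 : 0 < Fintype.card (InfinitePlace K) := Fintype.card_pos
  have h3 : 0 < Fintype.card (InfinitePlace L) := Fintype.card_pos
  rw [IsGalois.card_aut_eq_finrank]
  unfold Units.rank
  rw [Nat.sub_add_cancel h2, Nat.sub_add_cancel h3, h1, mul_comm]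

end Count2

end Fermat.Agent.CFT.SUnit
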