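import Fermat.Agent.CFT.Global.G2a_helper6_Count
import Fermat.Agent.CFT.Coh.Cyclic_helper6_Rank

/-!
# CFT (G2a): the Herbrand quotient of the `S`-units in a cyclic extension of odd prime degree

`h(L_S) = p ^ (#{v ∈ S nonsplit} - 1)` for `L/K` cyclic of odd prime degree `p`, `S` a finite set of
primes of `K` and `L_S` the group of `S_L`-units (presented by any equivariant injection
`ι : U →* Lˣ` with range the `S_L`-units).
-/

set_option autoImplicit false

open IsDedekindDomain NumberField

namespace Fermat.Agent.CFT.SUnit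

open Fermat.Agent.CFT.Coh

section Final

variable {K L : Type} [Field K] [NumberField K] [Field L] [NumberField L] [Algebra K L]
  (S : Set (HeightOneSpectrum (𝓞 K)))
  {U : Type} [CommGroup U] (ι : U →* Lˣ)

/-- The identification of `U` with the `S_L`-units. -/
noncomputable def equivSUnit (hι : Function.Injective ι)
    (hrange : ι.range = (primesAbove K L S).unit L) : U ≃* (primesAbove K L S).unit L :=
  (MonoidHom.ofInjective hι).trans (MulEquiv.subgroupCongr hrange)

omit [NumberField K] in
lemma coe_equivSUnit (hι : Function.Injective ι)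
    (hrange : ι.range = (primesAbove K L S).unit L) (u : U) :
    ((equivSUnit S ι hι hrange u : (primesAbove K L S).unit L) : Lˣ) = ι u := rfl

/-- `U` is finitely generated of rank `r_L + #S_L`. -/
theorem finite_and_finrank_of_range_eq (hS : S.Finite) (hι : Function.Injective ι)
    (hrange : ι.range = (primesAbove K L S).unit L) :
    Module.Finite ℤ (Additive U) ∧
      Module.finrank ℤ (Additive U) = Units.rank L + (primesAbove K L S).ncard := by
  obtain ⟨hfin, hrk⟩ := sUnit_finite_and_finrank (primesAbove K L S) (primesAbove_finite hS)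
  let eL : Additive U ≃ₗ[ℤ] Additive ((primesAbove K L S).unit L) :=
    (MulEquiv.toAdditive (equivSUnit S ι hι hrange)).toIntLinearEquiv
  exact ⟨Module.Finite.equiv eL.symm, by rw [eL.finrank_eq, hrk]⟩

/-- The map `K_S → U`. -/
noncomputable def baseToU (hι : Function.Injective ι)
    (hrange : ι.range = (primesAbove K L S).unit L) : Additive (S.unit K) →ₗ[ℤ] Additive U :=
  (MonoidHom.toAdditive
    ((equivSUnit S ι hι hrange).symm.toMonoidHom.comp (sUnitMap (L := L) S))).toIntLinearMap

lemma ι_baseToU (hι : Function.Injective ι)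
    (hrange : ι.range = (primesAbove K L S).unit L) (x : Additive (S.unit K)) :
    ι (Additive.toMul (baseToU S ι hι hrange x)) =
      Units.map (algebraMap K L : K →* L) ((Additive.toMul x : S.unit K) : Kˣ) := by
  have h1 : Additive.toMul (baseToU S ι hι hrange x) =
      (equivSUnit S ι hι hrange).symm (sUnitMap (L := L) S (Additive.toMul x)) := rfl
  rw [h1, ← coe_equivSUnit S ι hι hrange, MulEquiv.apply_symm_apply, coe_sUnitMap]

lemma baseToU_injective (hι : Function.Injective ι)
    (hrange : ι.range = (primesAbove K L S).unit L) :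
    Function.Injective (baseToU S ι hι hrange) := by
  intro x y h
  have h1 : (equivSUnit S ι hι hrange).symm (sUnitMap (L := L) S (Additive.toMul x)) =
      (equivSUnit S ι hι hrange).symm (sUnitMap (L := L) S (Additive.toMul y)) := h
  exact sUnitMap_injective S ((equivSUnit S ι hι hrange).symm.injective h1)

/-- The invariants of `U` are the `S`-units of `K`. -/
theorem range_baseToU [IsGalois K L] [MulDistribMulAction (L ≃ₐ[K] L) U] (hι : Function.Injective ι)
    (hequiv : ∀ (σ : L ≃ₐ[K] L) (u : U), ι (σ • u) = σ • ι u)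
    (hrange : ι.range = (primesAbove K L S).unit L) :
    LinearMap.range (baseToU S ι hι hrange) =
      (Representation.ofMulDistribMulAction (L ≃ₐ[K] L) U).invariants := by
  ext u
  constructor
  · rintro ⟨x, rfl⟩ σ
    rw [Representation.ofMulDistribMulAction_apply_apply]
    have ht := ι_baseToU S ι hι hrange x
    have : σ • Additive.toMul (baseToU S ι hι hrange x) =
        Additive.toMul (baseToU S ι hι hrange x) := by
      apply hι
      rw [hequiv, ht]
      apply Units.ext
      exact σ.commutes _
    exact congrArg Additive.ofMul this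
  · intro hu
    have hfix : ∀ σ : L ≃ₐ[K] L, σ ((ι (Additive.toMul u) : Lˣ) : L) = (ι (Additive.toMul u) : Lˣ) := by
      intro σ
      have h1 := hu σ
      rw [Representation.ofMulDistribMulAction_apply_apply] at h1
      have h2 : σ • Additive.toMul u = Additive.toMul u := congrArg Additive.toMul h1
      have h3 := congrArg ι h2
      rw [hequiv] at h3
      exact congrArg Units.val h3
    obtain ⟨y, hy⟩ := IntermediateField.mem_bot.mp ((IsGalois.mem_bot_iff_fixed _).mpr hfix)
    have hy0 : y ≠ 0 := by
      rintro rfl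
      rw [map_zero] at hy
      exact (Units.ne_zero _) hy.symm
    have hyu : Units.map (algebraMap K L : K →* L) (Units.mk0 y hy0) = ι (Additive.toMul u) :=
      Units.ext hy
    have hmem : Units.mk0 y hy0 ∈ S.unit K := by
      rw [← map_mem_unit_primesAbove_iff (L := L), hyu, ← hrange]
      exact ⟨_, rfl⟩
    refine ⟨Additive.ofMul ⟨Units.mk0 y hy0, hmem⟩, ?_⟩
    have h4 := ι_baseToU S ι hι hrange (Additive.ofMul ⟨Units.mk0 y hy0, hmem⟩)
    have h5 : Additive.toMul (baseToU S ι hι hrange (Additive.ofMul ⟨Units.mk0 y hy0, hmem⟩)) =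
        Additive.toMul u := hι (h4.trans hyu)
    exact congrArg Additive.ofMul h5

end Final

section Final2

variable {K L : Type} [Field K] [NumberField K] [Field L] [NumberField L] [Algebra K L]
  [IsGalois K L] (S : Set (HeightOneSpectrum (𝓞 K)))
  {U : Type} [CommGroup U] [MulDistribMulAction (L ≃ₐ[K] L) U] (ι : U →* Lˣ)

/-- The rank of the invariants of `U` is `r_K + #S`. -/
theorem finrank_invariants_of_range_eq (hS : S.Finite) (hι : Function.Injective ι)
    (hequiv : ∀ (σ : L ≃ₐ[K] L) (u : U), ι (σ • u) = σ • ι u)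
    (hrange : ι.range = (primesAbove K L S).unit L) :
    Module.finrank ℤ (Representation.ofMulDistribMulAction (L ≃ₐ[K] L) U).invariants =
      Units.rank K + S.ncard := by
  rw [← range_baseToU S ι hι hequiv hrange,
    LinearMap.finrank_range_of_inj (baseToU_injective S ι hι hrange)]
  exact (sUnit_finite_and_finrank S hS).2

/-- **The Herbrand quotient of the `S`-units** in a cyclic extension `L/K` of odd prime degree `p`:
`h(L_S) = p ^ (n - 1)`, `n` the number of primes in `S` with exactly one prime of `L` above them. -/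
theorem herbrand_sUnits {p : ℕ} (hp : p.Prime) (hp2 : p ≠ 2)
    (hcard : Nat.card (L ≃ₐ[K] L) = p) {g : L ≃ₐ[K] L} (hg : ∀ σ, σ ∈ Subgroup.zpowers g)
    (hS : S.Finite) (hι : Function.Injective ι)
    (hequiv : ∀ (σ : L ≃ₐ[K] L) (u : U), ι (σ • u) = σ • ι u)
    (hrange : ι.range = (primesAbove K L S).unit L) :
    HerbrandFinite (Rep.ofMulDistribMulAction (L ≃ₐ[K] L) U) ∧
      herbrand (Rep.ofMulDistribMulAction (L ≃ₐ[K] L) U) =
        (p : ℚ) ^ (({v | v ∈ S ∧ (fiber K L v).ncard = 1}.ncard : ℤ) - 1) := by
  obtain ⟨hfin, hrk⟩ := finite_and_finrank_of_range_eq S ι hS hι hrange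
  have hinv := finrank_invariants_of_range_eq S ι hS hι hequiv hrange
  have hodd : Odd (Nat.card (L ≃ₐ[K] L)) := by
    rw [hcard]
    exact hp.odd_of_ne_two hp2
  have hr := rank_add_one_eq (K := K) (L := L) hodd
  rw [hcard] at hr
  have hT := ncard_primesAbove_of_prime (K := K) (L := L) hp hcard hS
  have hm : (p : ℤ) * Module.finrank ℤ
      (Representation.ofMulDistribMulAction (L ≃ₐ[K] L) U).invariants -
      Module.finrank ℤ (Additive U) =
      ((p : ℤ) - 1) * (({v | v ∈ S ∧ (fiber K L v).ncard = 1}.ncard : ℤ) - 1) := by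
    rw [hinv, hrk]
    have hr' : (Units.rank L : ℤ) + 1 = p * ((Units.rank K : ℤ) + 1) := by exact_mod_cast hr
    have hT' : ((primesAbove K L S).ncard : ℤ) +
        ((p : ℤ) - 1) * ({v | v ∈ S ∧ (fiber K L v).ncard = 1}.ncard : ℤ) = p * S.ncard := by
      have := congrArg (Nat.cast (R := ℤ)) hT
      rw [Nat.cast_add, Nat.cast_mul, Nat.cast_mul, Nat.cast_sub hp.one_le, Nat.cast_one] at this
      exact this
    push_cast
    linear_combination -hr' - hT'
  exact ⟨(herbrand_rank_formula hg hp hcard
      (Representation.ofMulDistribMulAction (L ≃ₐ[K] L) U)).1,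
    herbrand_eq_zpow_of_rank hg hp hcard (Representation.ofMulDistribMulAction (L ≃ₐ[K] L) U) _ hm⟩

end Final2


section Canonical

variable {K L : Type} [Field K] [NumberField K] [Field L] [NumberField L] [Algebra K L]
  (S : Set (HeightOneSpectrum (𝓞 K)))

/-- The action of `Gal(L/K)` on the `S_L`-units (a reducible def, not a global instance). -/
@[reducible] noncomputable def setUnitAction :
    MulDistribMulAction (L ≃ₐ[K] L) ((primesAbove K L S).unit L) where
  smul σ x := ⟨σ • (x : Lˣ), smul_mem_unit_primesAbove S σ x.2⟩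
  one_smul _ := Subtype.ext (one_smul _ _)
  mul_smul _ _ _ := Subtype.ext (mul_smul _ _ _)
  smul_mul _ _ _ := Subtype.ext (smul_mul' _ _ _)
  smul_one _ := Subtype.ext (smul_one _)

/-- The `S_L`-units as a representation of `Gal(L/K)`. -/
noncomputable def setUnitRep : Rep ℤ (L ≃ₐ[K] L) :=
  @Rep.ofMulDistribMulAction (L ≃ₐ[K] L) ((primesAbove K L S).unit L) _ _ (setUnitAction S)

/-- The Herbrand quotient of `setUnitRep`. -/
theorem herbrand_setUnitRep [IsGalois K L] {p : ℕ} (hp : p.Prime) (hp2 : p ≠ 2)
    (hcard : Nat.card (L ≃ₐ[K] L) = p) {g : L ≃ₐ[K] L} (hg : ∀ σ, σ ∈ Subgroup.zpowers g)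
    (hS : S.Finite) :
    HerbrandFinite (setUnitRep (L := L) S) ∧ herbrand (setUnitRep (L := L) S) =
      (p : ℚ) ^ (({v | v ∈ S ∧ (fiber K L v).ncard = 1}.ncard : ℤ) - 1) := by
  let _ := setUnitAction (L := L) S
  exact herbrand_sUnits S ((primesAbove K L S).unit L).subtype hp hp2 hcard hg hS
    Subtype.val_injective (fun _ _ => rfl) (Subgroup.range_subtype _)

end Canonical

end Fermat.Agent.CFT.SUnit
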