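import Fermat.Agent.CFT.Global.G2a_helper6_Herbrand

/-!
# CFT (G2a): `S`-units for `S` a set of rational primes

`primesOverRat F S` is the set of primes of `F` above a set `S` of rational primes; counting and
the Herbrand quotient formula in the shape needed for the first inequality:
`h(L_S) = p ^ m` whenever `(p - 1) (m + 1) = p #S_K - #S_L`.
-/

set_option autoImplicit false

open IsDedekindDomain NumberField

namespace Fermat.Agent.CFT.SUnit

open Fermat.Agent.CFT.Coh

section Rational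

variable (F : Type*) [Field F] [NumberField F]

/-- The primes of `F` above the rational prime `ℓ`. -/
def ratFiber (ℓ : Nat.Primes) : Set (HeightOneSpectrum (𝓞 F)) :=
  {w | ((ℓ : ℕ) : 𝓞 F) ∈ w.asIdeal}

/-- The primes of `F` above a set of rational primes. -/
def primesOverRat (S : Set Nat.Primes) : Set (HeightOneSpectrum (𝓞 F)) :=
  {w | ∃ ℓ ∈ S, ((ℓ : ℕ) : 𝓞 F) ∈ w.asIdeal}

variable {F}

omit [NumberField F] in
lemma mem_ratFiber {ℓ : Nat.Primes} {w : HeightOneSpectrum (𝓞 F)} :
    w ∈ ratFiber F ℓ ↔ ((ℓ : ℕ) : 𝓞 F) ∈ w.asIdeal := Iff.rfl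

omit [NumberField F] in
lemma mem_primesOverRat {S : Set Nat.Primes} {w : HeightOneSpectrum (𝓞 F)} :
    w ∈ primesOverRat F S ↔ ∃ ℓ ∈ S, ((ℓ : ℕ) : 𝓞 F) ∈ w.asIdeal := Iff.rfl

lemma ratFiber_finite (ℓ : Nat.Primes) : (ratFiber F ℓ).Finite := by
  have hne : Ideal.span {((ℓ : ℕ) : 𝓞 F)} ≠ 0 := by
    rw [Ne, Ideal.zero_eq_bot, Ideal.span_singleton_eq_bot]
    exact_mod_cast ℓ.2.ne_zero
  refine (Ideal.finite_factors hne).subset ?_
  intro w hw
  show w.asIdeal ∣ _
  rw [Ideal.dvd_iff_le, Ideal.span_singleton_le_iff_mem]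
  exact hw

omit [NumberField F] in
lemma primesOverRat_eq_biUnion (S : Set Nat.Primes) :
    primesOverRat F S = ⋃ ℓ ∈ S, ratFiber F ℓ := by
  ext w
  simp only [Set.mem_iUnion, exists_prop, mem_ratFiber, mem_primesOverRat]

lemma primesOverRat_finite {S : Set Nat.Primes} (hS : S.Finite) : (primesOverRat F S).Finite := by
  rw [primesOverRat_eq_biUnion]
  exact hS.biUnion fun ℓ _ => ratFiber_finite ℓ

omit [NumberField F] in
/-- A prime of `F` lies above at most one rational prime. -/
lemma ratFiber_disjoint {ℓ ℓ' : Nat.Primes} (h : ℓ ≠ ℓ') :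
    Disjoint (ratFiber F ℓ) (ratFiber F ℓ') := by
  rw [Set.disjoint_left]
  intro w hw hw'
  have hcop : Nat.Coprime (ℓ : ℕ) (ℓ' : ℕ) :=
    (Nat.coprime_primes ℓ.2 ℓ'.2).mpr fun h' => h (Subtype.ext h')
  have h1 : ((Nat.gcd (ℓ : ℕ) (ℓ' : ℕ) : ℤ) : 𝓞 F) ∈ w.asIdeal := by
    rw [Nat.gcd_eq_gcd_ab]
    push_cast
    exact Ideal.add_mem _ (Ideal.mul_mem_right _ _ hw) (Ideal.mul_mem_right _ _ hw')
  rw [hcop.gcd_eq_one] at h1
  apply w.isPrime.ne_top
  rw [Ideal.eq_top_iff_one]
  simpa using h1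

/-- `#S_F = ∑_{ℓ ∈ S} #{w | ℓ}`. -/
lemma ncard_primesOverRat {S : Set Nat.Primes} (hS : S.Finite) :
    (primesOverRat F S).ncard = ∑ ℓ ∈ hS.toFinset, (ratFiber F ℓ).ncard := by
  classical
  have h1 : primesOverRat F S =
      ↑(hS.toFinset.biUnion fun ℓ => (ratFiber_finite (F := F) ℓ).toFinset) := by
    rw [primesOverRat_eq_biUnion]
    ext w
    simp
  rw [h1, Set.ncard_coe_finset, Finset.card_biUnion]
  · refine Finset.sum_congr rfl fun ℓ _ => ?_
    rw [Set.ncard_eq_toFinset_card _ (ratFiber_finite ℓ)]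
  · intro ℓ _ ℓ' _ hne
    show Disjoint (ratFiber_finite (F := F) ℓ).toFinset (ratFiber_finite (F := F) ℓ').toFinset
    rw [Finset.disjoint_left]
    intro w hw hw'
    rw [Set.Finite.mem_toFinset] at hw hw'
    exact Set.disjoint_left.mp (ratFiber_disjoint hne) hw hw'

end Rational

section Relative

variable {K L : Type*} [Field K] [NumberField K] [Field L] [NumberField L] [Algebra K L]

omit [NumberField K] [NumberField L] in
lemma under_mem_ratFiber_iff (ℓ : Nat.Primes) (w : HeightOneSpectrum (𝓞 L)) :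
    w.under (𝓞 K) ∈ ratFiber K ℓ ↔ w ∈ ratFiber L ℓ := by
  show algebraMap (𝓞 K) (𝓞 L) ((ℓ : ℕ) : 𝓞 K) ∈ w.asIdeal ↔ _
  rw [map_natCast]
  rfl

omit [NumberField K] [NumberField L] in
/-- The primes of `L` above the primes of `K` above `S` are the primes of `L` above `S`. -/
lemma primesAbove_primesOverRat (S : Set Nat.Primes) :
    primesAbove K L (primesOverRat K S) = primesOverRat L S := by
  ext w
  rw [mem_primesAbove, mem_primesOverRat, mem_primesOverRat]
  refine exists_congr fun ℓ => and_congr_right fun _ => ?_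
  exact under_mem_ratFiber_iff ℓ w

end Relative

section Shape

/-- `S`-unit theorem for any presentation `ι : U →* Fˣ` of the `T`-units. -/
theorem finite_and_finrank_of_range_eq_unit {F : Type*} [Field F] [NumberField F]
    (T : Set (HeightOneSpectrum (𝓞 F))) (hT : T.Finite) {U : Type*} [CommGroup U] (ι : U →* Fˣ)
    (hι : Function.Injective ι) (hrange : ι.range = T.unit F) :
    Module.Finite ℤ (Additive U) ∧
      Module.finrank ℤ (Additive U) = Units.rank F + T.ncard := by
  obtain ⟨hfin, hrk⟩ := sUnit_finite_and_finrank T hT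
  let e : U ≃* T.unit F := (MonoidHom.ofInjective hι).trans (MulEquiv.subgroupCongr hrange)
  let eL : Additive U ≃ₗ[ℤ] Additive (T.unit F) := (MulEquiv.toAdditive e).toIntLinearEquiv
  exact ⟨Module.Finite.equiv eL.symm, by rw [eL.finrank_eq, hrk]⟩

/-- `S`-unit theorem for a finite set `S` of rational primes. -/
theorem finite_and_finrank_of_range_eq_rat {F : Type*} [Field F] [NumberField F]
    (S : Set Nat.Primes) (hS : S.Finite) {U : Type*} [CommGroup U] (ι : U →* Fˣ)
    (hι : Function.Injective ι) (hrange : ι.range = (primesOverRat F S).unit F) :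
    Module.Finite ℤ (Additive U) ∧
      Module.finrank ℤ (Additive U) =
        Units.rank F + ∑ ℓ ∈ hS.toFinset, (ratFiber F ℓ).ncard := by
  rw [← ncard_primesOverRat hS]
  exact finite_and_finrank_of_range_eq_unit _ (primesOverRat_finite hS) ι hι hrange

variable {K L : Type} [Field K] [NumberField K] [Field L] [NumberField L] [Algebra K L]
  [IsGalois K L] {U : Type} [CommGroup U] [MulDistribMulAction (L ≃ₐ[K] L) U] (ι : U →* Lˣ)

/-- **Herbrand quotient of the `S`-units**, `S` a finite set of rational primes, in the shape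
`h(L_S) = p ^ m` with `(p - 1) (m + 1) = p #S_K - #S_L`. -/
theorem herbrand_sUnits_rat {p : ℕ} (hp : p.Prime) (hp2 : p ≠ 2)
    (hcard : Nat.card (L ≃ₐ[K] L) = p) {g : L ≃ₐ[K] L} (hg : ∀ σ, σ ∈ Subgroup.zpowers g)
    (S : Set Nat.Primes) (hS : S.Finite) (hι : Function.Injective ι)
    (hequiv : ∀ (σ : L ≃ₐ[K] L) (u : U), ι (σ • u) = σ • ι u)
    (hrange : ι.range = (primesOverRat L S).unit L) (m : ℤ)
    (hm : ((p : ℤ) - 1) * (m + 1) = p * ∑ ℓ ∈ hS.toFinset, ((ratFiber K ℓ).ncard : ℤ) -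
      ∑ ℓ ∈ hS.toFinset, ((ratFiber L ℓ).ncard : ℤ)) :
    HerbrandFinite (Rep.ofMulDistribMulAction (L ≃ₐ[K] L) U) ∧
      herbrand (Rep.ofMulDistribMulAction (L ≃ₐ[K] L) U) = (p : ℚ) ^ m := by
  have hSK : (primesOverRat K S).Finite := primesOverRat_finite hS
  rw [← primesAbove_primesOverRat (K := K)] at hrange
  obtain ⟨h1, h2⟩ := herbrand_sUnits (primesOverRat K S) ι hp hp2 hcard hg hSK hι hequiv hrange
  refine ⟨h1, ?_⟩
  rw [h2]
  congr 1
  have hT := ncard_primesAbove_of_prime (K := K) (L := L) hp hcard hSK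
  rw [primesAbove_primesOverRat, ncard_primesOverRat hS, ncard_primesOverRat hS] at hT
  have hT' := congrArg (Nat.cast (R := ℤ)) hT
  rw [Nat.cast_add, Nat.cast_mul, Nat.cast_mul, Nat.cast_sub hp.one_le, Nat.cast_one,
    Nat.cast_sum, Nat.cast_sum] at hT'
  have hp1 : ((p : ℤ) - 1) ≠ 0 := by
    have := hp.two_le
    have : (2 : ℤ) ≤ p := by exact_mod_cast this
    omega
  have : ((p : ℤ) - 1) * (({v | v ∈ primesOverRat K S ∧ (fiber K L v).ncard = 1}.ncard : ℤ) - 1) =
      ((p : ℤ) - 1) * m := by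
    linear_combination hT' - hm
  exact mul_left_cancel₀ hp1 this


/-- The rank of the invariants, `S` a finite set of rational primes. -/
theorem finrank_invariants_of_range_eq_rat (S : Set Nat.Primes) (hS : S.Finite)
    (hι : Function.Injective ι) (hequiv : ∀ (σ : L ≃ₐ[K] L) (u : U), ι (σ • u) = σ • ι u)
    (hrange : ι.range = (primesOverRat L S).unit L) :
    Module.finrank ℤ (Representation.ofMulDistribMulAction (L ≃ₐ[K] L) U).invariants =
      Units.rank K + ∑ ℓ ∈ hS.toFinset, (ratFiber K ℓ).ncard := by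
  rw [← primesAbove_primesOverRat (K := K)] at hrange
  rw [finrank_invariants_of_range_eq (primesOverRat K S) ι (primesOverRat_finite hS) hι hequiv
    hrange, ncard_primesOverRat hS]

end Shape

end Fermat.Agent.CFT.SUnit
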