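/-
CFT global part (G3c) (helper8): the linear algebra step of the second inequality, in pure
group-theoretic form.  `G` abelian, `H i` subgroups of index `1` or `p` with intersection `N` of
index `p ^ n`: then `n` of the `H i` already have intersection `N`, each of them has index `p`,
and `G → ∏ G ⧸ H i` (over these `n` indices) is surjective.
-/
import Mathlib

set_option autoImplicit false

namespace Fermat.Agent.CFT

section Hyperplanes

variable {G : Type*} [CommGroup G] {p : ℕ} {I : Type*} (H : I → Subgroup G)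

/-- one greedy step -/
theorem index_inf_eq_mul_of_not_le (hp : p.Prime) {M K : Subgroup G} (hK : K.index ∣ p)
    (hMK : ¬ M ≤ K) : K.index = p ∧ (K ⊓ M).index = p * M.index := by
  have h1 : K.relIndex M ∣ K.index := Subgroup.relIndex_dvd_index_of_normal K M
  have h2 : K.relIndex M ≠ 1 := fun h => hMK (Subgroup.relIndex_eq_one.mp h)
  have h3 : K.relIndex M = p := by
    rcases (Nat.dvd_prime hp).mp (h1.trans hK) with h | h
    · exact absurd h h2
    · exact h
  have h4 : K.index = p := by
    rcases (Nat.dvd_prime hp).mp hK with h | h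
    · rw [h] at h1
      exact absurd (Nat.dvd_one.mp h1) h2
    · exact h
  refine ⟨h4, ?_⟩
  have h5 := Subgroup.relIndex_mul_index (inf_le_right : K ⊓ M ≤ M)
  rw [Subgroup.inf_relIndex_right, h3] at h5
  exact h5.symm

theorem exists_finset_card_eq_index_iInf (hp : p.Prime) (hidx : ∀ i, (H i).index ∣ p)
    {N : Subgroup G} (hN : ⨅ i, H i = N) {n : ℕ} (hn : N.index = p ^ n) (k : ℕ) (hk : k ≤ n) :
    ∃ T : Finset I, T.card = k ∧ (⨅ i ∈ T, H i).index = p ^ k ∧ ∀ i ∈ T, (H i).index = p := by
  classical
  induction k with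
  | zero =>
    refine ⟨∅, rfl, ?_, fun i hi => absurd hi (Finset.notMem_empty i)⟩
    simp
  | succ k ih =>
    obtain ⟨T, hT, hidxT, hTp⟩ := ih (Nat.le_of_succ_le hk)
    set M := ⨅ i ∈ T, H i with hM
    have hNM : N ≤ M := by
      rw [← hN]
      exact le_iInf₂ fun i _ => iInf_le H i
    have hne : M ≠ N := by
      intro h
      rw [h, hn] at hidxT
      have := Nat.pow_right_injective hp.two_le hidxT
      omega
    have hex : ∃ i, ¬ M ≤ H i := by
      by_contra hcon
      replace hcon : ∀ i, M ≤ H i := fun i => by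
        by_contra h
        exact hcon ⟨i, h⟩
      apply hne
      apply le_antisymm _ hNM
      rw [← hN]
      exact le_iInf hcon
    obtain ⟨i, hi⟩ := hex
    have hiT : i ∉ T := fun h => hi (iInf₂_le i h)
    obtain ⟨h1, h2⟩ := index_inf_eq_mul_of_not_le hp (hidx i) hi
    refine ⟨insert i T, ?_, ?_, ?_⟩
    · rw [Finset.card_insert_of_notMem hiT, hT]
    · rw [Finset.iInf_insert, h2, hidxT, pow_succ, mul_comm]
    · intro j hj
      rcases Finset.mem_insert.mp hj with rfl | hj
      · exact h1
      · exact hTp j hj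

/-- **Hyperplane lemma.** -/
theorem exists_finset_iInf_eq (hp : p.Prime) (hidx : ∀ i, (H i).index ∣ p)
    {N : Subgroup G} (hN : ⨅ i, H i = N) {n : ℕ} (hn : N.index = p ^ n) :
    ∃ T : Finset I, T.card = n ∧ (⨅ i ∈ T, H i) = N ∧ (∀ i ∈ T, (H i).index = p) ∧
      Function.Surjective (fun (g : G) (i : T) => (QuotientGroup.mk g : G ⧸ H i)) := by
  classical
  obtain ⟨T, hT, hidxT, hTp⟩ := exists_finset_card_eq_index_iInf H hp hidx hN hn n le_rfl
  have hNM : N ≤ ⨅ i ∈ T, H i := by
    rw [← hN]
    exact le_iInf₂ fun i _ => iInf_le H i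
  have hpn : p ^ n ≠ 0 := pow_ne_zero _ hp.ne_zero
  have hMN : (⨅ i ∈ T, H i) = N := by
    apply le_antisymm _ hNM
    have h1 := Subgroup.relIndex_mul_index hNM
    rw [hidxT, hn] at h1
    have h2 : N.relIndex (⨅ i ∈ T, H i) = 1 := by
      have : N.relIndex (⨅ i ∈ T, H i) * p ^ n = 1 * p ^ n := by rw [h1, one_mul]
      exact Nat.eq_of_mul_eq_mul_right (Nat.pos_of_ne_zero hpn) this
    exact Subgroup.relIndex_eq_one.mp h2
  refine ⟨T, hT, hMN, hTp, ?_⟩
  -- surjectivity by counting
  let f : G →* (∀ i : T, G ⧸ H i) := MonoidHom.pi fun i => QuotientGroup.mk' (H i)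
  have hfin : ∀ i : T, Finite (G ⧸ H i) := by
    intro i
    rw [← not_infinite_iff_finite, ← Subgroup.index_eq_zero_iff_infinite, hTp i i.2]
    exact hp.ne_zero
  have hker : f.ker = ⨅ i ∈ T, H i := by
    ext g
    rw [MonoidHom.mem_ker]
    simp only [Subgroup.mem_iInf]
    constructor
    · intro hg i hi
      have := congrFun hg ⟨i, hi⟩
      change (QuotientGroup.mk g : G ⧸ H i) = 1 at this
      rwa [QuotientGroup.eq_one_iff] at this
    · intro hg
      funext i
      change (QuotientGroup.mk g : G ⧸ H i) = 1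
      rw [QuotientGroup.eq_one_iff]
      exact hg i i.2
  have hcard : Nat.card f.range = Nat.card (∀ i : T, G ⧸ H i) := by
    rw [← Subgroup.index_ker, hker, hidxT, Nat.card_pi]
    have : ∀ i : T, Nat.card (G ⧸ H i) = p := fun i => by
      rw [← Subgroup.index_eq_card]; exact hTp i i.2
    rw [Finset.prod_congr rfl fun i _ => this i, Finset.prod_const, Finset.card_univ,
      Fintype.card_coe, hT]
  have : Finite (∀ i : T, G ⧸ H i) := inferInstance
  have htop : f.range = ⊤ := Subgroup.eq_top_of_card_eq _ hcard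
  intro y
  have : y ∈ f.range := by rw [htop]; trivial
  obtain ⟨g, hg⟩ := this
  exact ⟨g, hg⟩

end Hyperplanes

end Fermat.Agent.CFT
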