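/-
CFT global part (G3d) (helper8): the abstract counting step of the second inequality.

`φ : Q →* X` surjective, killing `p`-th powers and the image of `r : Y →* Q`; if
`r⁻¹(Q^p) = Y^p`, `[Q : Q^p] ≤ p^m` and `[Y : Y^p] = p^n`, then `|X| ≤ p^(m - n)`.
-/
import Fermat.Agent.CFT.Global.G3b_helper8_PowIndex

set_option autoImplicit false

namespace Fermat.Agent.CFT

section Counting

variable {Q X Y : Type*} [CommGroup Q] [CommGroup X] [CommGroup Y]

/-- **Counting step of the second inequality.** -/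
theorem card_le_pow_of_surjective_of_key {p : ℕ} (hp : p.Prime) (φ : Q →* X)
    (hφ : Function.Surjective φ) (hφp : ∀ q : Q, φ (q ^ p) = 1)
    (r : Y →* Q) (hr : ∀ y : Y, φ (r y) = 1)
    (hkey : ∀ y : Y, (∃ q : Q, q ^ p = r y) → ∃ z : Y, z ^ p = y)
    {m n : ℕ}
    (hQfin : Finite (Q ⧸ (powMonoidHom p : Q →* Q).range))
    (hQ : Nat.card (Q ⧸ (powMonoidHom p : Q →* Q).range) ≤ p ^ m)
    (hY : (powMonoidHom p : Y →* Y).range.index = p ^ n) :
    Finite X ∧ Nat.card X ≤ p ^ (m - n) ∧ n ≤ m := by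
  classical
  -- the induced map on `Q / Q^p`
  let φ' : Q ⧸ (powMonoidHom p : Q →* Q).range →* X :=
    QuotientGroup.lift _ φ (by
      rintro _ ⟨q, rfl⟩
      exact hφp q)
  have hφ' : Function.Surjective φ' := by
    intro x
    obtain ⟨q, rfl⟩ := hφ x
    exact ⟨QuotientGroup.mk q, rfl⟩
  have hXfin : Finite X := Finite.of_surjective φ' hφ'
  -- the image of `Y` in `Q / Q^p`
  let r' : Y →* Q ⧸ (powMonoidHom p : Q →* Q).range := (QuotientGroup.mk' _).comp r
  have hker : r'.ker = (powMonoidHom p : Y →* Y).range := by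
    ext y
    rw [MonoidHom.mem_ker]
    change (QuotientGroup.mk (r y) : Q ⧸ (powMonoidHom p : Q →* Q).range) = 1 ↔ _
    rw [QuotientGroup.eq_one_iff]
    constructor
    · rintro ⟨q, hq⟩
      obtain ⟨z, hz⟩ := hkey y ⟨q, hq⟩
      exact ⟨z, hz⟩
    · rintro ⟨z, rfl⟩
      exact ⟨r z, by simp⟩
  have hR : Nat.card r'.range = p ^ n := by
    rw [← Subgroup.index_ker, hker, hY]
  have hRle : r'.range ≤ φ'.ker := by
    rintro _ ⟨y, rfl⟩
    rw [MonoidHom.mem_ker]
    exact hr y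
  have h1 := card_mul_card_le_of_surjective φ' hφ' r'.range hRle
  rw [hR] at h1
  have h2 : Nat.card X * p ^ n ≤ p ^ m := h1.trans hQ
  have hXpos : 0 < Nat.card X := Nat.card_pos
  have hnm : n ≤ m := by
    by_contra h
    have hlt : m < n := by omega
    have h3 : p ^ m < p ^ n := Nat.pow_lt_pow_right hp.one_lt hlt
    have h4 : p ^ n ≤ Nat.card X * p ^ n := Nat.le_mul_of_pos_left _ hXpos
    omega
  refine ⟨hXfin, ?_, hnm⟩
  have h5 : p ^ m = p ^ (m - n) * p ^ n := by rw [← pow_add, Nat.sub_add_cancel hnm]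
  rw [h5] at h2
  exact Nat.le_of_mul_le_mul_right h2 (pow_pos hp.pos n)

end Counting

end Fermat.Agent.CFT
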