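/-
CFT global part (G3g) (helper8): the KEY LEMMA of the second inequality (helper1's statement).
An element `y` of `K^×` which is a unit outside `S ∪ T` and a `p`-th power at all places over
`S` is a `p`-th power in `K`, provided `J_K = K^× J_{K,S}` and `K_S → ∏_T U_w / U_w^p` is
surjective: otherwise `N = K(y^{1/p})` would have `J_K = K^× N J_N`, contradicting the first
inequality.
-/
import Fermat.Agent.CFT.Global.T2_helper1_Defs
import Fermat.Agent.CFT.Global.T2_helper1_Kummer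
import Fermat.Agent.CFT.Global.T2_helper1_LocalNorm
import Fermat.Agent.CFT.Global.G4_helper9_IdeleCoh

set_option autoImplicit false

open scoped TensorProduct NumberField RestrictedProduct

namespace Fermat.Agent.CFT.T2

open Fermat.Agent.CFT Fermat.Agent.CFT.Place Fermat.Agent.CFT.Coh

variable {K : Type} [Field K] [NumberField K] {p : ℕ} [hp : Fact p.Prime]

/-- the first inequality implies `Ĥ⁰(G, C_N) ≠ 0` for cyclic `N/K` of prime degree `p` -/
theorem not_subsingleton_tateH0_of_firstInequality (h1 : FirstInequality p) (N : Type) [Field N]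
    [NumberField N] [Algebra K N] [IsGalois K N] (hcard : Nat.card (N ≃ₐ[K] N) = p) :
    ¬ Subsingleton (TateH0 (ideleClassRep K N)) := by
  intro hsub
  obtain ⟨hfin, hh⟩ := h1 K N hcard
  rw [herbrand_eq_iff hfin] at hh
  have : Finite (TateHm1 (ideleClassRep K N)) := hfin.2
  have hpos : 0 < Nat.card (TateHm1 (ideleClassRep K N)) := Nat.card_pos
  rw [Nat.card_unique] at hh
  have h2 : (1 : ℚ) = ((p * Nat.card (TateHm1 (ideleClassRep K N)) : ℕ) : ℚ) := by
    push_cast
    exact_mod_cast hh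
  have h3 : 1 = p * Nat.card (TateHm1 (ideleClassRep K N)) := by exact_mod_cast h2
  have h4 : p ∣ 1 := ⟨_, h3⟩
  exact hp.out.one_lt.ne' (Nat.dvd_one.mp h4)

/-- **KEY LEMMA of the second inequality.** -/
theorem exists_pow_eq_of_forall_local (h1 : FirstInequality p) {ζ : K}
    (hζ : IsPrimitiveRoot ζ p) (S : Set Nat.Primes) (hpS : (⟨p, hp.out⟩ : Nat.Primes) ∈ S)
    (hgenS : IdelesGeneratedBy K S) (T : Set (FinPlace K))
    (happrox : ∀ x ∈ sIdeles K S, ∃ b ∈ sUnits K S, ∀ t ∈ T, ∃ z : t.2.Completionˣ,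
      z ^ p = t.2.unitsProj ((x / FinIdele.diag K b) t.1))
    (y : Kˣ) (hy : y ∈ placeUnits K S T)
    (hyS : ∀ ℓ ∈ S, ∀ w : Place ((ℓ : Nat.Primes) : ℕ) K, ∃ e : w.Completion,
      e ^ p = w.embed (y : K)) :
    ∃ z : Kˣ, z ^ p = y := by
  classical
  by_contra hcon
  have hx : ¬ ∃ c : K, c ^ p = (y : K) := by
    rintro ⟨c, hc⟩
    have hc0 : c ≠ 0 := by
      rintro rfl
      rw [zero_pow hp.out.ne_zero] at hc
      exact y.ne_zero hc.symm
    exact hcon ⟨Units.mk0 c hc0, Units.ext hc⟩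
  obtain ⟨N, _, _, _, _, hcard, β, hβ, hgen⟩ :=
    GlobalKummer.exists_kummer_extension K hζ (y : K) hx
  apply not_subsingleton_tateH0_of_firstInequality h1 N hcard
  rw [subsingleton_tateH0_ideleClassRep_iff]
  intro x
  obtain ⟨c₁, hc₁⟩ := hgenS x
  obtain ⟨b, hb, hbT⟩ := happrox _ hc₁
  refine ⟨b / c₁, ?_⟩
  have hxeq : x / FinIdele.diag K (b / c₁) = FinIdele.diag K c₁ * x / FinIdele.diag K b := by
    rw [map_div]
    rw [div_div_eq_mul_div, mul_comm]
  rw [hxeq]
  refine isIdeleNorm_of_kummerLocalCond hcard hζ y.ne_zero hβ hgen _ ?_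
  intro ℓ w
  by_cases hℓS : ℓ ∈ S
  · exact Or.inr (Or.inl (hyS ℓ hℓS w))
  · by_cases hwT : (⟨ℓ, w⟩ : FinPlace K) ∈ T
    · obtain ⟨z, hz⟩ := hbT ⟨ℓ, w⟩ hwT
      exact Or.inl ⟨z, hz⟩
    · refine Or.inr (Or.inr ⟨?_, ⟨Units.map (w.embed : K →* w.Completion) y, hy ℓ w hℓS hwT, rfl⟩,
        ?_⟩)
      · intro hℓp
        apply hℓS
        have : ℓ = ⟨p, hp.out⟩ := Subtype.ext hℓp
        rw [this]
        exact hpS
      · have h2 : (FinIdele.diag K c₁ * x / FinIdele.diag K b) ℓ ∈ SemiLocal.unitGroup ℓ K := by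
          have h3 : (FinIdele.diag K c₁ * x) ℓ ∈ SemiLocal.unitGroup ℓ K := hc₁ ℓ hℓS
          have h4 : (FinIdele.diag K b) ℓ ∈ SemiLocal.unitGroup ℓ K := hb ℓ hℓS
          exact (SemiLocal.unitGroup ℓ K).div_mem h3 h4
        exact SemiLocal.mem_unitGroup_iff_forall.mp h2 w

end Fermat.Agent.CFT.T2
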