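/-
CFT global part (G5p), helper7: the semi-local computation at `p` in Tate's crossing argument.
`K = ℚ(ζ_p)`, `L/K` cyclic of degree `p` in which the primes over `p` split completely,
`M = L(ζ)`, `E = K(ζ)`.  If `c ∈ K^×` is a norm from `M` to `L`, then `c` is a norm from
`ℚ_p ⊗ E` to `ℚ_p ⊗ K` (`exists_semiLocal_prod_eq`): glue the conjugates of a preimage with the
split idempotent of `L/K`.
-/
import Fermat.Agent.CFT.Global.Crossing_helper3_Bij
import Fermat.Agent.CFT.Global.G02_helper5_Idempotent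
import Fermat.Agent.CFT.Global.G01_helper7_Invariants

set_option autoImplicit false
set_option linter.unusedSectionVars false
set_option linter.style.haveILetI false

open scoped NumberField Pointwise
open IsDedekindDomain
open Fermat.Agent.CFT.Coh Fermat.Agent.CFT.Local

namespace Fermat.Agent.CFT.Crossing

/- Everything in this file lives in the sub-namespace `G5pH7`, so that it cannot clash with
helper3's parallel file `G5p_helper3.lean`. -/
namespace G5pH7

/-- product of sums against orthogonal idempotents (helper5's lemma). -/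
theorem prod_sum_orthogonal_idempotents_g5p {R ι κ : Type*} [CommRing R] [Fintype ι]
    [DecidableEq ι] (ε : ι → R) (hε : ∀ t, ε t * ε t = ε t)
    (horth : ∀ t t', t ≠ t' → ε t * ε t' = 0) (hsum : ∑ t, ε t = 1) (s : Finset κ)
    (a : ι → κ → R) : ∏ h ∈ s, ∑ t, ε t * a t h = ∑ t, ε t * ∏ h ∈ s, a t h := by
  classical
  induction s using Finset.induction_on with
  | empty => simp [hsum]
  | insert h s hh ih =>
    rw [Finset.prod_insert hh, ih, Finset.sum_mul_sum]
    refine Finset.sum_congr rfl fun t _ => ?_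
    rw [Finset.sum_eq_single t]
    · rw [Finset.prod_insert hh]
      linear_combination (a t h * ∏ h ∈ s, a t h) * hε t
    · intro t' _ hne
      have := horth t t' (Ne.symm hne)
      linear_combination (a t h * ∏ h ∈ s, a t' h) * this
    · intro h; exact absurd (Finset.mem_univ t) h

section generic

variable (p : ℕ) [Fact p.Prime]
variable {K F M : Type} [Field K] [Field F] [Field M] [CharZero M] [Algebra K F] [Algebra K M]
  [Algebra F M] [IsScalarTower K F M] [Normal K M]

/-- compatibility of the actions of `Gal(M/F)` and `Gal(M/K)` on `ℚ_p ⊗ M`. -/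
lemma galIncl_smul_semiLocal (σ : M ≃ₐ[F] M) (x : SemiLocal p M) :
    galIncl K F M σ • x = σ • x := by
  rw [SemiLocal.smul_def, SemiLocal.smul_def]
  congr 2
  ext z
  exact galIncl_apply K F M σ z

end generic

section rho

variable (p : ℕ) [Fact p.Prime]
variable {K L M : Type} [Field K] [Field L] [CharZero L] [Field M] [CharZero M] [Algebra K L]
  [Algebra K M] [Algebra L M] [IsScalarTower K L M] [Normal K L]

lemma smul_map_algebraMap_rho (t : M ≃ₐ[K] M) (e : SemiLocal p L) :
    t • SemiLocal.map p (algebraMap L M) e =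
      SemiLocal.map p (algebraMap L M) (rho K L t • e) := by
  rw [SemiLocal.smul_def, SemiLocal.smul_def, SemiLocal.map_map, SemiLocal.map_map]
  congr 2
  ext z
  exact (rho_apply t z).symm

end rho

section restrict

variable (p : ℕ) [Fact p.Prime]
variable {K M : Type} [Field K] [Field M] [CharZero M] [Algebra K M]

/-- if `h ∈ Aut(M)` restricts to `γ` on the intermediate field `E`, then
`ℚ_p ⊗ E → ℚ_p ⊗ M` intertwines `γ` and `h`. -/
lemma map_smul_of_restrict {G : Type*} [Group G] [MulSemiringAction G M]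
    (E : IntermediateField K M) (γ : E ≃ₐ[K] E) (h : G)
    (hh : ∀ x : E, h • (x : M) = ((γ x : E) : M)) (x : SemiLocal p E) :
    SemiLocal.map p (algebraMap E M) (γ • x) = h • SemiLocal.map p (algebraMap E M) x := by
  rw [SemiLocal.smul_def, SemiLocal.smul_def, SemiLocal.map_map, SemiLocal.map_map]
  congr 2
  ext z
  exact (hh z).symm

end restrict

section main

variable {p : ℕ} [hp : Fact p.Prime] {r : ℕ}
variable {K L M : Type} [Field K] [NumberField K] [Field L] [NumberField L] [Field M]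
  [NumberField M] [Algebra K L] [Algebra K M] [Algebra L M] [IsScalarTower K L M]
  [IsGalois K L] [IsGalois K M] [IsCyclotomicExtension {p} ℚ K]
variable {ζ : M} (hζ : IsPrimitiveRoot ζ (p ^ (r + 1)))

include hζ in
/-- the conjugates under `Gal(M/K(ζ))` of the (image in `ℚ_p ⊗ M` of the) split idempotent of
`L/K` are orthogonal idempotents with sum `1`, fixed by `Gal(M/L)`. -/
lemma exists_idempotent_family (htop : IntermediateField.adjoin L {ζ} = ⊤)
    (hcard : Nat.card (L ≃ₐ[K] L) = p)
    (hsplit : ∀ Q : Ideal (𝓞 L), Q.IsPrime → (p : 𝓞 L) ∈ Q →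
      ∀ σ : L ≃ₐ[K] L, (∀ x ∈ Q, σ • x ∈ Q) → σ = 1) :
    ∃ e' : SemiLocal p M,
      (∀ t : M ≃ₐ[IntermediateField.adjoin K {ζ}] M, (t • e') * (t • e') = t • e') ∧
      (∀ t t' : M ≃ₐ[IntermediateField.adjoin K {ζ}] M, t ≠ t' → (t • e') * (t' • e') = 0) ∧
      (∑ t : M ≃ₐ[IntermediateField.adjoin K {ζ}] M, t • e' = 1) ∧
      (∀ (h : M ≃ₐ[L] M) (t : M ≃ₐ[IntermediateField.adjoin K {ζ}] M),
        h • (t • e') = t • e') := by
  classical
  have hsp : ∃ e : SemiLocal p L, e * e = e ∧ (∀ σ : L ≃ₐ[K] L, σ ≠ 1 → σ • e * e = 0) ∧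
      ∑ σ : L ≃ₐ[K] L, σ • e = 1 := by
    obtain ⟨e, h1, h2, h3, -⟩ := splitIdempotent K L ⟨p, hp.out⟩ hsplit
    exact ⟨e, h1, h2, h3⟩
  obtain ⟨e, hee, horth, hsum⟩ := hsp
  have hbij := bijective_rho_galIncl_adjoin hζ htop hcard hsplit
  set E : IntermediateField K M := IntermediateField.adjoin K {ζ} with hE
  set φ : (M ≃ₐ[E] M) → (L ≃ₐ[K] L) := fun t => rho K L (galIncl K E M t) with hφ
  have hε : ∀ t : M ≃ₐ[E] M, t • SemiLocal.map p (algebraMap L M) e =
      SemiLocal.map p (algebraMap L M) (φ t • e) := by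
    intro t
    rw [← galIncl_smul_semiLocal (K := K) p t, smul_map_algebraMap_rho]
  refine ⟨SemiLocal.map p (algebraMap L M) e, ?_, ?_, ?_, ?_⟩
  · intro t
    rw [← smul_mul', ← map_mul, hee]
  · intro t t' htt'
    rw [hε t, hε t', ← map_mul]
    have h1 : (φ t')⁻¹ * φ t ≠ 1 := by
      intro h
      apply htt'
      apply hbij.1
      exact (inv_mul_eq_one.mp h).symm
    have h2 := horth _ h1
    have h3 : φ t • e * φ t' • e = φ t' • (((φ t')⁻¹ * φ t) • e * e) := by
      rw [smul_mul', smul_smul, mul_inv_cancel_left]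
    rw [h3, h2, smul_zero, map_zero]
  · rw [Finset.sum_congr rfl (fun t _ => hε t), ← map_sum]
    have : ∑ t : M ≃ₐ[E] M, φ t • e = ∑ σ : L ≃ₐ[K] L, σ • e :=
      Fintype.sum_bijective φ hbij _ _ (fun _ => rfl)
    rw [this, hsum, map_one]
  · intro h t
    rw [hε t]
    exact SemiLocal.smul_map_algebraMap p L M h _

include hζ in
/-- **The semi-local computation at `p`** in the crossing argument. -/
theorem exists_semiLocal_prod_eq (htop : IntermediateField.adjoin L {ζ} = ⊤)
    (hcard : Nat.card (L ≃ₐ[K] L) = p)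
    (hsplit : ∀ Q : Ideal (𝓞 L), Q.IsPrime → (p : 𝓞 L) ∈ Q →
      ∀ σ : L ≃ₐ[K] L, (∀ x ∈ Q, σ • x ∈ Q) → σ = 1)
    (c : Kˣ) (y : Mˣ)
    (hy : ∏ σ : M ≃ₐ[L] M, σ • y = Units.map (algebraMap K M : K →* M) c) :
    ∃ y' : (SemiLocal p (IntermediateField.adjoin K {ζ}))ˣ,
      ∏ γ : (IntermediateField.adjoin K {ζ}) ≃ₐ[K] (IntermediateField.adjoin K {ζ}),
        γ • (y' : SemiLocal p (IntermediateField.adjoin K {ζ})) =
      SemiLocal.of p (IntermediateField.adjoin K {ζ})
        (algebraMap K (IntermediateField.adjoin K {ζ}) (c : K)) := by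
  classical
  obtain ⟨e', hidem, horth, hsum, hfix⟩ := exists_idempotent_family hζ htop hcard hsplit
  set E : IntermediateField K M := IntermediateField.adjoin K {ζ} with hE
  have hex : ∀ γ : E ≃ₐ[K] E, ∃! h : M ≃ₐ[L] M, ∀ x : E, h (x : M) = ((γ x : E) : M) :=
    existsUnique_restrict_eq hζ htop hcard hsplit
  choose f hf0 hfuniq0 using hex
  have hf : ∀ (γ : E ≃ₐ[K] E) (x : E), f γ • (x : M) = ((γ x : E) : M) := hf0
  have hfuniq : ∀ (γ : E ≃ₐ[K] E) (h : M ≃ₐ[L] M),
      (∀ x : E, h (x : M) = ((γ x : E) : M)) → h = f γ := hfuniq0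
  -- `E/K` is normal
  haveI hcyc : IsCyclotomicExtension {p ^ (r + 1)} K E :=
    (IntermediateField.isCyclotomicExtension_singleton_iff_eq_adjoin _ K M E hζ).mpr rfl
  haveI hgalE : IsGalois K E := IsCyclotomicExtension.isGalois {p ^ (r + 1)} K E
  -- commutativity of `Gal(M/K)`
  have hcommL : ∀ σ τ : L ≃ₐ[K] L, σ * τ = τ * σ := by
    haveI : Fact (Nat.card (L ≃ₐ[K] L)).Prime := ⟨hcard.symm ▸ hp.out⟩
    haveI := isCyclic_of_prime_card (α := L ≃ₐ[K] L) rfl
    intro σ τ
    exact (IsCyclic.commGroup (α := L ≃ₐ[K] L)).mul_comm σ τ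
  have hcomm := gal_comm (K := K) (L := L) hζ htop hcommL
  set ε : (M ≃ₐ[E] M) → SemiLocal p M := fun t => t • e' with hε
  set z : SemiLocal p M := SemiLocal.of p M (y : M) with hz
  set z' : SemiLocal p M := SemiLocal.of p M ((y⁻¹ : Mˣ) : M) with hz'
  have hzz' : z * z' = 1 := by rw [hz, hz', ← map_mul, Units.mul_inv, map_one]
  set Y : SemiLocal p M := ∑ t : M ≃ₐ[E] M, ε t * (t • z) with hY
  set Y' : SemiLocal p M := ∑ t : M ≃ₐ[E] M, ε t * (t • z') with hY'
  have hYY' : Y * Y' = 1 := by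
    rw [hY, hY', Finset.sum_mul_sum, ← hsum]
    refine Finset.sum_congr rfl fun t _ => ?_
    rw [Finset.sum_eq_single t]
    · have h1 : t • z * t • z' = 1 := by rw [← smul_mul', hzz', smul_one]
      have h2 := hidem t
      linear_combination (t • z * t • z') * h2 + (t • e') * h1
    · intro t' _ hne
      have h2 := horth t t' (Ne.symm hne)
      linear_combination (t • z * t' • z') * h2
    · intro h; exact absurd (Finset.mem_univ t) h
  have hinv : ∀ (w : SemiLocal p M) (s : M ≃ₐ[E] M),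
      s • (∑ t : M ≃ₐ[E] M, ε t * (t • w)) = ∑ t : M ≃ₐ[E] M, ε t * (t • w) := by
    intro w s
    rw [Finset.smul_sum]
    refine Fintype.sum_equiv (Equiv.mulLeft s) _ _ (fun t => ?_)
    simp only [hε, smul_mul', smul_smul, Equiv.coe_mulLeft]
  set Yu : (SemiLocal p M)ˣ := ⟨Y, Y', hYY', by rw [mul_comm]; exact hYY'⟩ with hYu
  have hYufix : ∀ s : M ≃ₐ[E] M, s • Yu = Yu := fun s => Units.ext (hinv z s)
  obtain ⟨y'', hy''⟩ := (SemiLocal.units_mem_range_unitsMap_iff_fixed p E M).mpr hYufix
  have hmapy : SemiLocal.map p (algebraMap E M) (y'' : SemiLocal p E) = Y :=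
    congrArg Units.val hy''
  refine ⟨y'', ?_⟩
  apply SemiLocal.map_injective p (algebraMap E M)
  rw [map_prod]
  have hstep1 : ∀ γ : E ≃ₐ[K] E,
      SemiLocal.map p (algebraMap E M) (γ • (y'' : SemiLocal p E)) = f γ • Y := by
    intro γ
    rw [map_smul_of_restrict p E γ (f γ) (hf γ), hmapy]
  rw [Finset.prod_congr rfl (fun γ _ => hstep1 γ)]
  -- `f` is bijective
  have hfbij : Function.Bijective f := by
    constructor
    · intro γ γ' h
      ext x
      have h1 := hf γ x
      rw [h, hf γ' x] at h1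
      exact h1.symm
    · intro h
      refine ⟨(galIncl K L M h).restrictNormal E, (hfuniq _ h ?_).symm⟩
      intro x
      rw [← galIncl_apply K L M h]
      exact (AlgEquiv.restrictNormal_commutes (galIncl K L M h) E x).symm
  rw [Fintype.prod_bijective f hfbij (fun γ => f γ • Y) (fun h => h • Y) (fun _ => rfl)]
  have hstep2 : ∀ h : M ≃ₐ[L] M, h • Y = ∑ t : M ≃ₐ[E] M, ε t * (h • (t • z)) := by
    intro h
    rw [hY, Finset.smul_sum]
    refine Finset.sum_congr rfl fun t _ => ?_
    rw [smul_mul', hfix h t]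
  rw [Finset.prod_congr rfl (fun h _ => hstep2 h)]
  rw [prod_sum_orthogonal_idempotents_g5p ε hidem horth hsum Finset.univ
    (fun t h => h • (t • z))]
  have hprodz : ∏ h : M ≃ₐ[L] M, h • z = SemiLocal.of p M (algebraMap K M (c : K)) := by
    have h1 := congrArg Units.val hy
    rw [Units.coe_prod] at h1
    rw [hz]
    simp only [SemiLocal.smul_of]
    rw [← map_prod]
    congr 1
  have hstep3 : ∀ t : M ≃ₐ[E] M, ∏ h : M ≃ₐ[L] M, h • (t • z) =
      SemiLocal.of p M (algebraMap K M (c : K)) := by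
    intro t
    have h1 : ∀ h : M ≃ₐ[L] M, h • (t • z) = t • (h • z) := by
      intro h
      rw [← galIncl_smul_semiLocal (K := K) p h, ← galIncl_smul_semiLocal (K := K) p t,
        smul_smul, hcomm, ← smul_smul, galIncl_smul_semiLocal, galIncl_smul_semiLocal]
    rw [Finset.prod_congr rfl (fun h _ => h1 h), ← Finset.smul_prod', hprodz, SemiLocal.smul_of]
    congr 1
    rw [IsScalarTower.algebraMap_apply K E M]
    exact t.commutes _
  rw [Finset.sum_congr rfl (fun t _ => by rw [hstep3 t]), ← Finset.sum_mul, hsum, one_mul,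
    SemiLocal.map_of]
  congr 1

end main

end G5pH7

end Fermat.Agent.CFT.Crossing
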