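/-
CFT global part, S55 package PT8 (LG'), helper2: the finite levels of `(ℚ_ℓ ⊗ ℚ_S)ˣ`.

For a level `F` (finite Galois over `ℚ`, unramified outside `S`), `V = Gal(Ω/F)`:
* `galQuot F : Γ ⧸ V ≃* Gal(F/ℚ)` (restriction of automorphisms);
* `semiLocalLevelEquiv : (ℚ_ℓ ⊗ F)ˣ ≃ ((ℚ_ℓ ⊗ ℚ_S)ˣ)^V`;
* `semiLocalLevelIso n : Hⁿ(Γ ⧸ V, ((ℚ_ℓ ⊗ ℚ_S)ˣ)^V) ≅ Hⁿ(Gal(F/ℚ), (ℚ_ℓ ⊗ F)ˣ)`.
-/
import Fermat.Agent.CFT.Global.LG_helper2_Finite
import Fermat.Agent.CFT.Arith.SmObjects_helper7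
import Fermat.Agent.CFT.Sm.FL_helper4_Nat

set_option autoImplicit false
set_option linter.unusedSectionVars false
set_option linter.style.haveILetI false

open scoped NumberField TensorProduct
open CategoryTheory groupCohomology

namespace Fermat.Agent.CFT.PT4

open Fermat.Agent.CFT.Arith Fermat.Agent.CFT.Sm

/-- `Ω = AlgebraicClosure ℚ`. -/
local notation "Ω" => AlgebraicClosure ℚ
/-- `Γ = Gal(Ω/ℚ)`. -/
local notation "Γ" => (AlgebraicClosure ℚ ≃ₐ[ℚ] AlgebraicClosure ℚ)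

section galQuot

variable (F : IntermediateField ℚ Ω) [Normal ℚ F] [hN : (F.fixingSubgroup).Normal]

lemma restrictNormalHom_ker_eq :
    (AlgEquiv.restrictNormalHom (F := ℚ) (K₁ := Ω) F).ker = F.fixingSubgroup := by
  ext σ
  rw [MonoidHom.mem_ker, IntermediateField.mem_fixingSubgroup_iff]
  constructor
  · intro h1 x hx
    have := AlgEquiv.restrictNormal_commutes σ F ⟨x, hx⟩
    change algebraMap F Ω (AlgEquiv.restrictNormalHom F σ ⟨x, hx⟩) = σ x at this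
    rw [h1] at this
    exact this.symm
  · intro h1
    ext x
    have := AlgEquiv.restrictNormal_commutes σ F x
    change algebraMap F Ω (AlgEquiv.restrictNormalHom F σ x) = σ x at this
    rw [h1 x x.2] at this
    exact this

/-- `Γ ⧸ Gal(Ω/F) ≃* Gal(F/ℚ)`, restriction of automorphisms. -/
noncomputable def galQuot : Γ ⧸ F.fixingSubgroup ≃* (F ≃ₐ[ℚ] F) :=
  (QuotientGroup.quotientMulEquivOfEq (restrictNormalHom_ker_eq F).symm).trans
    (QuotientGroup.quotientKerEquivOfSurjective (AlgEquiv.restrictNormalHom (F := ℚ) (K₁ := Ω) F)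
      (AlgEquiv.restrictNormalHom_surjective Ω))

@[simp] lemma galQuot_mk (σ : Γ) :
    galQuot F (σ : Γ ⧸ F.fixingSubgroup) = AlgEquiv.restrictNormalHom F σ := rfl

lemma galQuot_symm_restrictNormalHom (σ : Γ) :
    (galQuot F).symm (AlgEquiv.restrictNormalHom F σ) = (σ : Γ ⧸ F.fixingSubgroup) := by
  rw [← galQuot_mk, MulEquiv.symm_apply_apply]

end galQuot

section equivariance

variable (ℓ : ℕ) [Fact ℓ.Prime] (F : IntermediateField ℚ Ω) [Normal ℚ F]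

/-- the inclusion `(ℚ_ℓ ⊗ F)ˣ → (ℚ_ℓ ⊗ Ω)ˣ` is equivariant along restriction. -/
theorem unitsMap_restrictNormalHom_smul (σ : Γ) (y : (SemiLocal ℓ F)ˣ) :
    SemiLocal.unitsMap ℓ (algebraMap F Ω) (AlgEquiv.restrictNormalHom F σ • y) =
      σ • SemiLocal.unitsMap ℓ (algebraMap F Ω) y := by
  apply Units.ext
  rw [SemiLocal.coe_unitsMap, SemiLocal.coe_smul_units, SemiLocal.coe_smul_units,
    SemiLocal.coe_unitsMap, SemiLocal.smul_def, SemiLocal.smul_def, SemiLocal.map_map,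
    SemiLocal.map_map]
  congr 2
  ext x
  exact AlgEquiv.restrictNormal_commutes σ F x

theorem unitsMap_algebraMap_injective :
    Function.Injective (SemiLocal.unitsMap ℓ (algebraMap F Ω)) := by
  intro x y h
  apply Units.ext
  apply SemiLocal.map_injective ℓ (algebraMap F Ω)
  exact congrArg Units.val h

end equivariance

section level

variable (S : Finset Nat.Primes) (ℓ : Nat.Primes) (F : IntermediateField ℚ Ω) [NumberField F]
  [Normal ℚ F] [hN : (F.fixingSubgroup).Normal] (hF : F.IsUnramifiedOutside S)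

/-- `(ℚ_ℓ ⊗ F)ˣ → ((ℚ_ℓ ⊗ ℚ_S)ˣ)^{Gal(Ω/F)}`, as an additive map. -/
noncomputable def semiLocalLevelHom :
    (semiLocalRep ℚ F ℓ).V →+ (levelRep (JSlSm S (ℓ : ℕ)) F.fixingSubgroup).V where
  toFun y := ⟨Additive.ofMul (⟨SemiLocal.unitsMap (ℓ : ℕ) (algebraMap F Ω) (Additive.toMul y),
      F, hF, Additive.toMul y, rfl⟩ : JSl S (ℓ : ℕ)), fun s => by
    apply congrArg Additive.ofMul
    apply Subtype.ext
    exact (units_mem_range_unitsMap_iff_fixed (ℓ : ℕ) F _).mp ⟨Additive.toMul y, rfl⟩ s.1 s.2⟩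
  map_zero' := by
    apply Subtype.ext
    apply congrArg Additive.ofMul
    apply Subtype.ext
    exact map_one _
  map_add' x y := by
    apply Subtype.ext
    apply congrArg Additive.ofMul
    apply Subtype.ext
    exact map_mul _ _ _

lemma semiLocalLevelHom_coe (y : (semiLocalRep ℚ F ℓ).V) :
    ((Additive.toMul (α := JSl S (ℓ : ℕ))
      (semiLocalLevelHom S ℓ F hF y).1 : JSl S (ℓ : ℕ)) : (SemiLocal (ℓ : ℕ) Ω)ˣ) =
      SemiLocal.unitsMap (ℓ : ℕ) (algebraMap F Ω) (Additive.toMul y) := rfl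

lemma semiLocalLevelHom_injective : Function.Injective (semiLocalLevelHom S ℓ F hF) := by
  intro x y h
  have h1 := congrArg (fun z : (levelRep (JSlSm S (ℓ : ℕ)) F.fixingSubgroup).V =>
    ((Additive.toMul (α := JSl S (ℓ : ℕ)) z.1 : JSl S (ℓ : ℕ)) :
      (SemiLocal (ℓ : ℕ) Ω)ˣ)) h
  dsimp only at h1
  rw [semiLocalLevelHom_coe, semiLocalLevelHom_coe] at h1
  exact congrArg Additive.ofMul (unitsMap_algebraMap_injective (ℓ : ℕ) F h1)

lemma semiLocalLevelHom_surjective : Function.Surjective (semiLocalLevelHom S ℓ F hF) := by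
  rintro ⟨a, ha⟩
  have hfix : ∀ σ ∈ F.fixingSubgroup,
      σ • ((Additive.toMul (α := JSl S (ℓ : ℕ)) a : JSl S (ℓ : ℕ)) : (SemiLocal (ℓ : ℕ) Ω)ˣ) =
        ((Additive.toMul (α := JSl S (ℓ : ℕ)) a : JSl S (ℓ : ℕ)) : (SemiLocal (ℓ : ℕ) Ω)ˣ) := by
    intro σ hσ
    have := ha ⟨σ, hσ⟩
    exact congrArg (fun z : (JSlRep S (ℓ : ℕ)).V =>
      ((Additive.toMul (α := JSl S (ℓ : ℕ)) z : JSl S (ℓ : ℕ)) : (SemiLocal (ℓ : ℕ) Ω)ˣ)) this
  obtain ⟨y, hy⟩ := (units_mem_range_unitsMap_iff_fixed (ℓ : ℕ) F _).mpr hfix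
  refine ⟨Additive.ofMul y, ?_⟩
  apply Subtype.ext
  apply congrArg Additive.ofMul
  apply Subtype.ext
  exact hy

/-- `(ℚ_ℓ ⊗ F)ˣ ≃ ((ℚ_ℓ ⊗ ℚ_S)ˣ)^{Gal(Ω/F)}`. -/
noncomputable def semiLocalLevelEquiv :
    (semiLocalRep ℚ F ℓ).V ≃ₗ[ℤ] (levelRep (JSlSm S (ℓ : ℕ)) F.fixingSubgroup).V :=
  LinearEquiv.ofBijective (semiLocalLevelHom S ℓ F hF).toIntLinearMap
    ⟨semiLocalLevelHom_injective S ℓ F hF, semiLocalLevelHom_surjective S ℓ F hF⟩

lemma semiLocalLevelEquiv_apply (y : (semiLocalRep ℚ F ℓ).V) :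
    semiLocalLevelEquiv S ℓ F hF y = semiLocalLevelHom S ℓ F hF y := rfl

/-- equivariance of `semiLocalLevelHom` along `Γ → Gal(F/ℚ)`. -/
lemma semiLocalLevelHom_smul (σ : Γ) (y : (semiLocalRep ℚ F ℓ).V) :
    semiLocalLevelHom S ℓ F hF ((semiLocalRep ℚ F ℓ).ρ (AlgEquiv.restrictNormalHom F σ) y) =
      (levelRep (JSlSm S (ℓ : ℕ)) F.fixingSubgroup).ρ (σ : Γ ⧸ F.fixingSubgroup)
        (semiLocalLevelHom S ℓ F hF y) := by
  apply Subtype.ext
  apply congrArg Additive.ofMul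
  apply Subtype.ext
  exact unitsMap_restrictNormalHom_smul (ℓ : ℕ) F σ (Additive.toMul y)

/-- The morphism of `Γ ⧸ V`-representations `(ℚ_ℓ ⊗ F)ˣ ⟶ ((ℚ_ℓ ⊗ ℚ_S)ˣ)^V`
(the source restricted along `Γ ⧸ V ≃* Gal(F/ℚ)`). -/
noncomputable def semiLocalLevelMor :
    Rep.res (galQuot F).toMonoidHom (semiLocalRep ℚ F ℓ) ⟶
      levelRep (JSlSm S (ℓ : ℕ)) F.fixingSubgroup :=
  Rep.ofHom
    { toLinearMap := (semiLocalLevelEquiv S ℓ F hF).toLinearMap
      isIntertwining' := fun g => LinearMap.ext fun y => by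
        induction g using QuotientGroup.induction_on with | H σ =>
        exact semiLocalLevelHom_smul S ℓ F hF σ y }

lemma semiLocalLevelMor_hom_apply (y : (semiLocalRep ℚ F ℓ).V) :
    (semiLocalLevelMor S ℓ F hF).hom y = semiLocalLevelHom S ℓ F hF y := rfl

/-- **`Hⁿ(Gal(F/ℚ), (ℚ_ℓ ⊗ F)ˣ) ≅ Hⁿ(Γ ⧸ V, ((ℚ_ℓ ⊗ ℚ_S)ˣ)^V)`**. -/
noncomputable def semiLocalLevelIso (n : ℕ) :
    groupCohomology (semiLocalRep ℚ F ℓ) n ≅
      groupCohomology (levelRep (JSlSm S (ℓ : ℕ)) F.fixingSubgroup) n :=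
  groupCohomology.mapIso (galQuot F).symm (semiLocalLevelEquiv S ℓ F hF) (by
    intro g
    obtain ⟨σ, rfl⟩ := AlgEquiv.restrictNormalHom_surjective (F := ℚ) (K₁ := F) Ω g
    rw [galQuot_symm_restrictNormalHom]
    exact LinearMap.ext fun y => semiLocalLevelHom_smul S ℓ F hF σ y) n

lemma semiLocalLevelIso_hom (n : ℕ) :
    (semiLocalLevelIso S ℓ F hF n).hom =
      groupCohomology.map (galQuot F).toMonoidHom (semiLocalLevelMor S ℓ F hF) n := rfl

lemma map_semiLocalLevelMor_bijective (n : ℕ) :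
    Function.Bijective
      (groupCohomology.map (galQuot F).toMonoidHom (semiLocalLevelMor S ℓ F hF) n).hom := by
  rw [← semiLocalLevelIso_hom]
  exact ConcreteCategory.bijective_of_isIso (semiLocalLevelIso S ℓ F hF n).hom

end level

end Fermat.Agent.CFT.PT4
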