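/-
CFT global part, S55 package PT4 (c), helper3: the tower isomorphisms for idele class groups.  For
`K ⊆ E ⊆ L` (`L/K` and `E/K` Galois) and `S = Gal(L/E) ≤ Gal(L/K)`:
`Hⁿ(S, C_L) ≅ Hⁿ(Gal(L/E), C_L)` (`classResIso`) and `Hⁿ(Gal(E/K), C_E) ≅ Hⁿ(Gal(L/K)/S, C_L^S)`
(`classInflIso`), in the pattern of `Local/BrExact.lean`.
-/
import Fermat.Agent.CFT.Global.PT4b_helper3_SecondIneq
import Fermat.Agent.CFT.Local.BrExact

set_option autoImplicit false
set_option linter.unusedSectionVars false
set_option linter.style.haveILetI false

open scoped NumberField Pointwise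
open CategoryTheory groupCohomology Rep
open Fermat.Agent.CFT.Coh Fermat.Agent.CFT.Local

namespace Fermat.Agent.CFT.PT4

section classmap

variable {F F' : Type*} [Field F] [CharZero F] [Algebra.IsAlgebraic ℚ F] [Field F'] [CharZero F']
  [Algebra.IsAlgebraic ℚ F'] {G G' : Type*} [Group G] [Group G']

/-- Functoriality of the idele class group. -/
noncomputable def classMap (f : F →+* F') : FinIdeleClass F →* FinIdeleClass F' :=
  QuotientGroup.map (principalIdeles F) (principalIdeles F') (FinIdele.map f) (by
    rintro _ ⟨a, rfl⟩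
    rw [Subgroup.mem_comap, FinIdele.map_diag]
    exact ⟨_, rfl⟩)

@[simp] lemma classMap_mk (f : F →+* F') (x : FinIdele F) :
    classMap f (FinIdeleClass.mk x) = FinIdeleClass.mk (FinIdele.map f x) := rfl

lemma class_smul_congr [MulSemiringAction G F] [MulSemiringAction G' F] (g : G) (g' : G')
    (h : ∀ a : F, g • a = g' • a) (c : FinIdeleClass F) : g • c = g' • c := by
  obtain ⟨x, rfl⟩ := FinIdeleClass.mk_surjective c
  rw [FinIdeleClass.smul_mk, FinIdeleClass.smul_mk, finIdele_smul_congr g g' h]

lemma classMap_smul [MulSemiringAction G F] [MulSemiringAction G' F'] (f : F →+* F') (g : G)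
    (g' : G') (h : ∀ a : F, f (g • a) = g' • f a) (c : FinIdeleClass F) :
    classMap f (g • c) = g' • classMap f c := by
  obtain ⟨x, rfl⟩ := FinIdeleClass.mk_surjective c
  rw [FinIdeleClass.smul_mk, classMap_mk, classMap_mk, FinIdeleClass.smul_mk,
    finIdele_map_smul f g g' h]

end classmap

section Res

variable (K E L : Type) [Field K] [NumberField K] [Field E] [NumberField E] [Field L]
  [NumberField L] [Algebra K E] [Algebra K L] [Algebra E L] [IsScalarTower K E L] [IsGalois K L]

/-- The identity of `C_L`, between the carriers of the `S`-module and the `Gal(L/E)`-module. -/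
noncomputable def classResLinEquiv :
    (res (galIncl K E L).range.subtype (ideleClassRep K L)).V ≃ₗ[ℤ] (ideleClassRep E L).V :=
  LinearEquiv.refl ℤ (ideleClassRep E L).V

/-- **`Hⁿ(S, C_L) ≅ Hⁿ(Gal(L/E), C_L)`** for `S` the image of `Gal(L/E)` in `Gal(L/K)`. -/
noncomputable def classResIso (n : ℕ) :
    groupCohomology (res (galIncl K E L).range.subtype (ideleClassRep K L)) n ≅
      groupCohomology (ideleClassRep E L) n :=
  groupCohomology.mapIso (galInclEquiv K E L).symm (classResLinEquiv K E L) (by
    intro s
    refine LinearMap.ext fun v => ?_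
    change Additive.ofMul (((galIncl K E L).range.subtype s) •
        (Additive.toMul (α := FinIdeleClass L) v)) =
      Additive.ofMul (((galInclEquiv K E L).symm s) • (Additive.toMul (α := FinIdeleClass L) v))
    congr 1
    apply class_smul_congr
    intro a
    change ((galIncl K E L).range.subtype s) a = ((galInclEquiv K E L).symm s) a
    rw [← galIncl_apply K E L, galIncl_galInclEquiv_symm]
    rfl) n

end Res

section Infl

variable (K E L : Type) [Field K] [NumberField K] [Field E] [NumberField E] [Field L]
  [NumberField L] [Algebra K E] [Algebra K L] [Algebra E L] [IsScalarTower K E L] [IsGalois K L]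
  [IsGalois K E]

/-- additive form of `C_E → C_L` -/
noncomputable def classLin : (ideleClassRep K E).V →ₗ[ℤ] (ideleClassRep K L).V :=
  (MonoidHom.toAdditive (classMap (algebraMap E L))).toIntLinearMap

lemma classLin_apply (v : (ideleClassRep K E).V) :
    classLin K E L v = Additive.ofMul (classMap (algebraMap E L)
      (Additive.toMul (α := FinIdeleClass E) v)) := rfl

lemma classLin_mem_invariants (v : (ideleClassRep K E).V) :
    classLin K E L v ∈ Representation.invariants ((ideleClassRep K L).ρ.comp
      (galIncl K E L).range.subtype) := by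
  rintro ⟨_, τ, rfl⟩
  obtain ⟨x, hx⟩ := FinIdeleClass.mk_surjective (Additive.toMul (α := FinIdeleClass E) v)
  haveI : IsGalois E L := IsGalois.tower_top_of_isGalois K E L
  change Additive.ofMul ((galIncl K E L τ) • classMap (algebraMap E L)
    (Additive.toMul (α := FinIdeleClass E) v)) = _
  rw [classLin_apply, ← hx, classMap_mk, FinIdeleClass.smul_mk,
    finIdele_smul_congr (galIncl K E L τ) τ (fun a => galIncl_apply K E L τ a),
    (FinIdele.mem_range_map_iff_fixed E L).mp ⟨x, rfl⟩ τ]

/-- `C_E → (C_L)^S`. -/
noncomputable def classToInvLin : (ideleClassRep K E).V →ₗ[ℤ]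
    ((ideleClassRep K L).quotientToInvariants (galIncl K E L).range).V :=
  (classLin K E L).codRestrict _ (classLin_mem_invariants K E L)

lemma coe_classToInvLin (v : (ideleClassRep K E).V) :
    ((classToInvLin K E L v : ((ideleClassRep K L).quotientToInvariants
      (galIncl K E L).range).V) : (ideleClassRep K L).V) = classLin K E L v := rfl

lemma classToInvLin_injective : Function.Injective (classToInvLin K E L) := by
  rw [← LinearMap.ker_eq_bot, LinearMap.ker_eq_bot']
  intro v hv
  haveI : IsGalois E L := IsGalois.tower_top_of_isGalois K E L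
  obtain ⟨x, hx⟩ := FinIdeleClass.mk_surjective (Additive.toMul (α := FinIdeleClass E) v)
  have h1 : classLin K E L v = 0 := by
    rw [← coe_classToInvLin, hv]; rfl
  rw [classLin_apply, ← hx, classMap_mk] at h1
  have h2 : classInvHom E L (Additive.ofMul x) = 0 := by
    apply Subtype.ext
    rw [coe_classInvHom]
    exact h1
  obtain ⟨a, ha⟩ := (classInvHom_eq_zero_iff E L _).mp h2
  have h3 : FinIdeleClass.mk x = 1 := FinIdeleClass.mk_eq_one_iff.mpr ⟨a, ha⟩
  rw [hx] at h3
  exact congrArg Additive.ofMul h3

lemma classToInvLin_surjective : Function.Surjective (classToInvLin K E L) := by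
  rintro ⟨w, hw⟩
  haveI : IsGalois E L := IsGalois.tower_top_of_isGalois K E L
  have hw' : w ∈ (ideleClassRep E L).ρ.invariants := by
    intro τ
    have h1 := hw ⟨galIncl K E L τ, τ, rfl⟩
    refine Eq.trans ?_ h1
    change Additive.ofMul (τ • (Additive.toMul (α := FinIdeleClass L) w)) =
      Additive.ofMul ((galIncl K E L τ) • (Additive.toMul (α := FinIdeleClass L) w))
    congr 1
    exact class_smul_congr τ (galIncl K E L τ) (fun a => (galIncl_apply K E L τ a).symm) _
  obtain ⟨x, hx⟩ := classInvHom_surjective E L ⟨w, hw'⟩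
  refine ⟨Additive.ofMul (FinIdeleClass.mk (Additive.toMul x)), Subtype.ext ?_⟩
  have h2 := congrArg Subtype.val hx
  rw [coe_classInvHom] at h2
  exact h2

/-- `C_E ≃ (C_L)^S`. -/
noncomputable def classToInvLinEquiv : (ideleClassRep K E).V ≃ₗ[ℤ]
    ((ideleClassRep K L).quotientToInvariants (galIncl K E L).range).V :=
  LinearEquiv.ofBijective (classToInvLin K E L)
    ⟨classToInvLin_injective K E L, classToInvLin_surjective K E L⟩

/-- **`Hⁿ(Gal(E/K), C_E) ≅ Hⁿ(Gal(L/K)/S, (C_L)^S)`**. -/
noncomputable def classInflIso (n : ℕ) :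
    groupCohomology (ideleClassRep K E) n ≅
      groupCohomology ((ideleClassRep K L).quotientToInvariants (galIncl K E L).range) n :=
  groupCohomology.mapIso (galQuotEquiv K E L).symm (classToInvLinEquiv K E L) (by
    intro τ
    obtain ⟨σ, rfl⟩ := galProj_surjective K E L τ
    rw [galQuotEquiv_symm_galProj]
    refine LinearMap.ext fun v => ?_
    apply Subtype.ext
    change Additive.ofMul (classMap (algebraMap E L) ((galProj K E L σ) •
      (Additive.toMul (α := FinIdeleClass E) v))) =
      Additive.ofMul (σ • classMap (algebraMap E L) (Additive.toMul (α := FinIdeleClass E) v))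
    congr 1
    exact classMap_smul (algebraMap E L) (galProj K E L σ) σ
      (fun a => galProj_commutes K E L σ a) _) n

end Infl

end Fermat.Agent.CFT.PT4
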