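/-
CFT global part, S55 package PT4 (c), helper3: dévissage.  For a Galois extension `L/K` of number
fields whose group is a `p`-group (`p` odd): `H¹(Gal(L/K), C_L) = 0` and `|H²(Gal(L/K), C_L)|`
divides `[L:K]` (`isZero_H1_and_card_H2_dvd`).
-/
import Fermat.Agent.CFT.Global.PT4c_helper3_Tower
import Fermat.Agent.CFT.Coh.Torsion_helper9

set_option autoImplicit false
set_option linter.unusedSectionVars false
set_option linter.style.haveILetI false

open scoped NumberField Pointwise
open CategoryTheory groupCohomology Rep
open Fermat.Agent.CFT.Coh Fermat.Agent.CFT.Local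

namespace Fermat.Agent.CFT.PT4

section abstractdev

lemma card_dvd_of_exact {X₁ X₂ X₃ : Type*} [AddCommGroup X₁] [AddCommGroup X₂] [AddCommGroup X₃]
    [Finite X₁] [Finite X₃] (f : X₁ →+ X₂) (g : X₂ →+ X₃) (hf : Function.Injective f)
    (hex : ∀ x, g x = 0 → ∃ y, f y = x) (hzero : ∀ y, g (f y) = 0) :
    Nat.card X₂ ∣ Nat.card X₁ * Nat.card X₃ := by
  have h1 : g.ker = f.range := by
    ext x
    rw [AddMonoidHom.mem_ker, AddMonoidHom.mem_range]
    constructor
    · exact hex x
    · rintro ⟨y, rfl⟩
      exact hzero y
  have h2 : Nat.card g.ker = Nat.card X₁ := by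
    rw [h1]
    exact (Nat.card_congr (AddMonoidHom.ofInjective hf).toEquiv).symm
  have h3 : Nat.card (X₂ ⧸ g.ker) = Nat.card g.range :=
    Nat.card_congr (QuotientAddGroup.quotientKerEquivRange g).toEquiv
  have h4 : Nat.card g.range ∣ Nat.card X₃ := AddSubgroup.card_addSubgroup_dvd_card _
  rw [AddSubgroup.card_eq_card_quotient_mul_card_addSubgroup g.ker, h2, h3, mul_comm]
  exact Nat.mul_dvd_mul_left _ h4

variable {G : Type} [Group G] (A : Rep ℤ G) (S : Subgroup G) [S.Normal]

/-- dévissage step for `H¹` -/
lemma isZero_H1_of_normal (h1 : Limits.IsZero (groupCohomology (A.quotientToInvariants S) 1))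
    (h2 : Limits.IsZero (groupCohomology (res S.subtype A) 1)) :
    Limits.IsZero (groupCohomology A 1) := by
  have hex := H1InfRes_exact A S
  rw [ShortComplex.moduleCat_exact_iff] at hex
  rw [ModuleCat.isZero_iff_subsingleton]
  haveI s1 : Subsingleton (H1InfRes A S).X₁ := ModuleCat.isZero_iff_subsingleton.mp h1
  haveI s3 : Subsingleton (H1InfRes A S).X₃ := ModuleCat.isZero_iff_subsingleton.mp h2
  refine ⟨fun a b => ?_⟩
  suffices h0 : ∀ x : (H1InfRes A S).X₂, x = 0 by exact (h0 a).trans (h0 b).symm
  intro x
  obtain ⟨y, rfl⟩ := hex x (Subsingleton.elim _ _)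
  rw [Subsingleton.elim y 0, map_zero]

/-- dévissage step for `H²` -/
lemma card_H2_dvd_of_normal (h2 : Limits.IsZero (groupCohomology (res S.subtype A) 1))
    {a b : ℕ} (ha : a ≠ 0) (hb : b ≠ 0)
    (hA : Nat.card (groupCohomology (A.quotientToInvariants S) 2) ∣ a)
    (hB : Nat.card (groupCohomology (res S.subtype A) 2) ∣ b) :
    Nat.card (groupCohomology A 2) ∣ a * b := by
  haveI : Finite (groupCohomology (A.quotientToInvariants S) 2) :=
    Nat.finite_of_card_ne_zero (fun h => ha (by rw [h] at hA; exact Nat.eq_zero_of_zero_dvd hA))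
  haveI : Finite (groupCohomology (res S.subtype A) 2) :=
    Nat.finite_of_card_ne_zero (fun h => hb (by rw [h] at hB; exact Nat.eq_zero_of_zero_dvd hB))
  have hex := H2InfRes_exact A S h2
  rw [ShortComplex.moduleCat_exact_iff] at hex
  have hinj := H2inf_injective A S h2
  have hzero := (H2InfRes A S).zero
  have key := card_dvd_of_exact (H2inf A S).hom.toAddMonoidHom (H2res A S).hom.toAddMonoidHom
    hinj (fun x hx => hex x hx) (fun y => by
      have := congrArg (fun φ => φ.hom y) hzero
      exact this)
  exact key.trans (Nat.mul_dvd_mul hA hB)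

end abstractdev

section devissage

lemma subsingleton_groupCohomology_of_card_eq_one {G : Type} [Group G] [Finite G] (A : Rep ℤ G)
    (h : Nat.card G = 1) (n : ℕ) : Subsingleton (groupCohomology A (n + 1)) := by
  refine ⟨fun a b => ?_⟩
  have h0 : ∀ x : groupCohomology A (n + 1), x = 0 := fun x => by
    have := card_nsmul_groupCohomology_eq_zero A n x
    rwa [h, one_smul] at this
  rw [h0 a, h0 b]

/-- **Dévissage**: for a Galois extension `L/K` of number fields of degree `p ^ n`, `p` odd,
`H¹(Gal(L/K), C_L) = 0` and `|H²(Gal(L/K), C_L)|` divides `p ^ n`. -/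
theorem isZero_H1_and_card_H2_dvd {p : ℕ} (hp : p.Prime) (hp2 : p ≠ 2) (n : ℕ) :
    ∀ (K L : Type) [Field K] [NumberField K] [Field L] [NumberField L] [Algebra K L]
      [IsGalois K L], Nat.card (L ≃ₐ[K] L) = p ^ n →
      Limits.IsZero (groupCohomology (ideleClassRep K L) 1) ∧
        Nat.card (groupCohomology (ideleClassRep K L) 2) ∣ p ^ n := by
  haveI : Fact p.Prime := ⟨hp⟩
  induction n with
  | zero =>
    intro K L _ _ _ _ _ _ hcard
    rw [pow_zero] at hcard
    haveI h1 := subsingleton_groupCohomology_of_card_eq_one (ideleClassRep K L) hcard 0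
    haveI h2 := subsingleton_groupCohomology_of_card_eq_one (ideleClassRep K L) hcard 1
    refine ⟨ModuleCat.isZero_of_subsingleton _, ?_⟩
    rw [pow_zero, Nat.dvd_one]
    exact Nat.card_of_subsingleton 0
  | succ n ih =>
    intro K L _ _ _ _ _ _ hcard
    -- a normal subgroup of index `p`
    obtain ⟨H, hH⟩ := Sylow.exists_subgroup_card_pow_prime p (n := n) (G := L ≃ₐ[K] L)
      (by rw [hcard]; exact pow_dvd_pow p (Nat.le_succ n))
    have hidx : H.index = p := by
      have h1 := H.card_mul_index
      rw [hH, hcard, pow_succ] at h1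
      exact Nat.eq_of_mul_eq_mul_left (pow_pos hp.pos n) h1
    haveI : H.Normal := Subgroup.normal_of_index_eq_minFac_card
      (by rw [hidx, hcard, Nat.Prime.pow_minFac hp (Nat.succ_ne_zero n)])
    -- the fixed field
    haveI : IsGalois K (IntermediateField.fixedField H) :=
      IsGalois.of_fixedField_normal_subgroup H
    have hLE : Nat.card (L ≃ₐ[IntermediateField.fixedField H] L) = p ^ n := by
      rw [IsGalois.card_aut_eq_finrank, IntermediateField.finrank_fixedField_eq_card, hH]
    have hEK : Nat.card ((IntermediateField.fixedField H) ≃ₐ[K] (IntermediateField.fixedField H))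
        = p := by
      rw [IsGalois.card_aut_eq_finrank]
      have h1 := Module.finrank_mul_finrank K (IntermediateField.fixedField H) L
      rw [← IsGalois.card_aut_eq_finrank K L, hcard,
        ← IsGalois.card_aut_eq_finrank (IntermediateField.fixedField H) L, hLE, pow_succ,
        mul_comm] at h1
      exact Nat.eq_of_mul_eq_mul_left (pow_pos hp.pos n) h1
    obtain ⟨hE1, hE2⟩ := cyclic_prime_classFormation hp hp2 K (IntermediateField.fixedField H) hEK
    obtain ⟨hL1, hL2⟩ := ih (IntermediateField.fixedField H) L hLE
    have hres1 : Limits.IsZero (groupCohomology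
        (res (galIncl K (IntermediateField.fixedField H) L).range.subtype
          (ideleClassRep K L)) 1) :=
      hL1.of_iso (classResIso K (IntermediateField.fixedField H) L 1)
    have hinf1 : Limits.IsZero (groupCohomology ((ideleClassRep K L).quotientToInvariants
        (galIncl K (IntermediateField.fixedField H) L).range) 1) :=
      hE1.of_iso (classInflIso K (IntermediateField.fixedField H) L 1).symm
    refine ⟨isZero_H1_of_normal _ _ hinf1 hres1, ?_⟩
    have hA : Nat.card (groupCohomology ((ideleClassRep K L).quotientToInvariants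
        (galIncl K (IntermediateField.fixedField H) L).range) 2) ∣ p := by
      rw [← hE2, Nat.card_congr
        (classInflIso K (IntermediateField.fixedField H) L 2).toLinearEquiv.toEquiv]
    have hB : Nat.card (groupCohomology
        (res (galIncl K (IntermediateField.fixedField H) L).range.subtype
          (ideleClassRep K L)) 2) ∣ p ^ n := by
      rw [Nat.card_congr
        (classResIso K (IntermediateField.fixedField H) L 2).toLinearEquiv.toEquiv]
      exact hL2
    have key := card_H2_dvd_of_normal _ _ hres1 hp.ne_zero (pow_pos hp.pos n).ne' hA hB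
    rwa [mul_comm, ← pow_succ] at key

/-- **Subgroup form**: for every `p`-subgroup `S` of `Gal(L/K)` (`p` odd), `H¹(S, C_L) = 0` and
`|H²(S, C_L)|` divides `|S|`. -/
theorem isZero_H1_and_card_H2_dvd_of_isPGroup {p : ℕ} (hp : p.Prime) (hp2 : p ≠ 2)
    (K L : Type) [Field K] [NumberField K] [Field L] [NumberField L] [Algebra K L]
    [IsGalois K L] (S : Subgroup (L ≃ₐ[K] L)) (hS : IsPGroup p S) :
    Limits.IsZero (groupCohomology (res S.subtype (ideleClassRep K L)) 1) ∧
      Nat.card (groupCohomology (res S.subtype (ideleClassRep K L)) 2) ∣ Nat.card S := by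
  haveI : Fact p.Prime := ⟨hp⟩
  obtain ⟨k, hk⟩ := IsPGroup.iff_card.mp hS
  have hrange : (galIncl K (IntermediateField.fixedField S) L).range = S := by
    ext σ
    rw [mem_range_galIncl_iff]
    conv_rhs => rw [← IntermediateField.fixingSubgroup_fixedField S]
    rw [IntermediateField.mem_fixingSubgroup_iff]
    constructor
    · intro h x hx
      exact h ⟨x, hx⟩
    · intro h x
      exact h x x.2
  have hLE : Nat.card (L ≃ₐ[IntermediateField.fixedField S] L) = p ^ k := by
    rw [IsGalois.card_aut_eq_finrank, IntermediateField.finrank_fixedField_eq_card, hk]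
  obtain ⟨h1, h2⟩ := isZero_H1_and_card_H2_dvd hp hp2 k (IntermediateField.fixedField S) L hLE
  have key : Limits.IsZero (groupCohomology
      (res (galIncl K (IntermediateField.fixedField S) L).range.subtype (ideleClassRep K L)) 1) ∧
      Nat.card (groupCohomology
        (res (galIncl K (IntermediateField.fixedField S) L).range.subtype
          (ideleClassRep K L)) 2) ∣ p ^ k := by
    refine ⟨h1.of_iso (classResIso K (IntermediateField.fixedField S) L 1), ?_⟩
    rw [Nat.card_congr
      (classResIso K (IntermediateField.fixedField S) L 2).toLinearEquiv.toEquiv]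
    exact h2
  rw [hrange, ← hk] at key
  exact key

end devissage

end Fermat.Agent.CFT.PT4
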