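/-
CFT global part, S55 package PT4 (d), helper3: functoriality of `Hⁿ(Gal(M/K), C_M)` in the pair
`(K, M)` (pattern of `Local/BrMap.lean`, `Local/BrExact.lean`): for `K ⊆ F`, `M/K` normal,
`j : M →ₐ[K] M'` with `M'` an `F`-algebra, the map
`classCoh K F j n : Hⁿ(Gal(M/K), C_M) ⟶ Hⁿ(Gal(M'/F), C_{M'})`; it specialises to restriction
(`classRes`) and inflation (`classInfl`), is functorial (`classCoh_comp`), compatible with the tower
isomorphisms `classResIso`, `classInflIso`, and with the cup products `a ∪ δχ`.
Inflation is injective and the inflation-restriction sequence is exact in degree 2 when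
`H¹(Gal(L/E), C_L) = 0`.
-/
import Fermat.Agent.CFT.Global.PT4c_helper3_Tower
import Fermat.Agent.CFT.Coh.Cup_helper2_Nat

set_option autoImplicit false
set_option linter.unusedSectionVars false
set_option linter.style.haveILetI false

open scoped NumberField Pointwise
open CategoryTheory groupCohomology Rep
open Fermat.Agent.CFT.Coh Fermat.Agent.CFT.Local

namespace Fermat.Agent.CFT.PT4

lemma finIdele_map_id {F : Type*} [Field F] [CharZero F] (x : FinIdele F) :
    FinIdele.map (RingHom.id F) x = x := by
  apply RestrictedProduct.ext
  intro ℓ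
  apply Units.ext
  exact SemiLocal.map_id_apply (ℓ : ℕ) _

section ClassCoh

variable (K F : Type) {M M' : Type} [Field K] [Field F] [Field M] [NumberField M] [Field M']
  [NumberField M'] [Algebra K F] [Algebra K M] [Algebra F M'] [Algebra K M']
  [IsScalarTower K F M'] [Normal K M] (j : M →ₐ[K] M')

/-- The additive map `C_M → C_{M'}` induced by `j`, on the carriers of the representations. -/
noncomputable def classCohLin : (ideleClassRep K M).V →ₗ[ℤ] (ideleClassRep F M').V :=
  (MonoidHom.toAdditive (classMap (j : M →+* M'))).toIntLinearMap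

lemma classCohLin_apply (v : (ideleClassRep K M).V) :
    classCohLin K F j v = Additive.ofMul (classMap (j : M →+* M')
      (Additive.toMul (α := FinIdeleClass M) v)) := rfl

/-- `j : M → M'` as a morphism of `Gal(M'/F)`-representations `res (galRes j) C_M ⟶ C_{M'}`. -/
noncomputable def classCohHom :
    res (galRes K F j) (ideleClassRep K M) ⟶ ideleClassRep F M' :=
  ofHom ⟨classCohLin K F j, fun σ => by
    refine LinearMap.ext fun v => ?_
    change Additive.ofMul (classMap (j : M →+* M') ((galRes K F j σ) •
      (Additive.toMul (α := FinIdeleClass M) v))) =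
      Additive.ofMul (σ • classMap (j : M →+* M') (Additive.toMul (α := FinIdeleClass M) v))
    congr 1
    exact classMap_smul (j : M →+* M') (galRes K F j σ) σ
      (fun a => galRes_commutes K F j σ a) _⟩

@[simp] lemma classCohHom_hom_apply (v : (ideleClassRep K M).V) :
    (classCohHom K F j).hom v = classCohLin K F j v := rfl

/-- **Functoriality of `Hⁿ(Gal(M/K), C_M)`** in the pair `(K, M)`. -/
noncomputable def classCoh (n : ℕ) :
    groupCohomology (ideleClassRep K M) n ⟶ groupCohomology (ideleClassRep F M') n :=
  groupCohomology.map (galRes K F j) (classCohHom K F j) n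

end ClassCoh

section Functoriality

variable (K F F' : Type) {M M' M'' : Type} [Field K] [Field F] [Field F'] [Field M]
  [NumberField M] [Field M'] [NumberField M'] [Field M''] [NumberField M'']
  [Algebra K F] [Algebra F F'] [Algebra K F']
  [Algebra K M] [Normal K M]
  [Algebra F M'] [Algebra K M'] [IsScalarTower K F M'] [Normal F M']
  [Algebra F' M''] [Algebra F M''] [Algebra K M''] [IsScalarTower F F' M'']
  [IsScalarTower K F' M''] [IsScalarTower K F M'']
  (j : M →ₐ[K] M') (j' : M' →ₐ[F] M'')

/-- **Functoriality**: `classCoh` of a composite is the composite of the `classCoh`s. -/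
theorem classCoh_comp (n : ℕ) :
    classCoh K F' ((j'.restrictScalars K).comp j) n = classCoh K F j n ≫ classCoh F F' j' n := by
  unfold classCoh
  rw [← groupCohomology.map_comp]
  refine groupCohomology.map_congr (galRes_comp K F F' j j') ?_ n
  refine LinearMap.ext fun v => ?_
  obtain ⟨x, hx⟩ := FinIdeleClass.mk_surjective (Additive.toMul (α := FinIdeleClass M) v)
  change Additive.ofMul (classMap (((j'.restrictScalars K).comp j : M →ₐ[K] M'') : M →+* M'')
      (Additive.toMul (α := FinIdeleClass M) v)) =
    Additive.ofMul (classMap (j' : M' →+* M'') (classMap (j : M →+* M')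
      (Additive.toMul (α := FinIdeleClass M) v)))
  rw [← hx, classMap_mk, classMap_mk, classMap_mk, finIdele_map_map]
  rfl

end Functoriality

section Res

variable (K E L : Type) [Field K] [NumberField K] [Field E] [NumberField E] [Field L]
  [NumberField L] [Algebra K E] [Algebra K L] [Algebra E L] [IsScalarTower K E L] [IsGalois K L]

/-- The restriction map `Hⁿ(Gal(L/K), C_L) ⟶ Hⁿ(Gal(L/E), C_L)`. -/
noncomputable abbrev classRes (n : ℕ) :
    groupCohomology (ideleClassRep K L) n ⟶ groupCohomology (ideleClassRep E L) n :=
  classCoh K E (AlgHom.id K L) n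

/-- Restriction to the subgroup `S = Gal(L/E)`, followed by `classResIso`, is `classRes`. -/
theorem res_comp_classResIso_hom (n : ℕ) :
    groupCohomology.map (galIncl K E L).range.subtype (𝟙 _) n ≫ (classResIso K E L n).hom =
      classRes K E L n := by
  unfold classResIso classRes classCoh
  change groupCohomology.map _ _ n ≫ groupCohomology.map _ _ n = _
  rw [← groupCohomology.map_comp]
  refine groupCohomology.map_congr ?_ ?_ n
  · ext σ : 1
    rfl
  · refine LinearMap.ext fun v => ?_
    obtain ⟨x, hx⟩ := FinIdeleClass.mk_surjective (Additive.toMul (α := FinIdeleClass L) v)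
    change v = Additive.ofMul (classMap ((AlgHom.id K L : L →ₐ[K] L) : L →+* L)
      (Additive.toMul (α := FinIdeleClass L) v))
    rw [← hx, classMap_mk]
    have : FinIdele.map ((AlgHom.id K L : L →ₐ[K] L) : L →+* L) x = x := by
      exact finIdele_map_id x
    rw [this, hx]
    rfl

end Res

section Infl

variable (K E L : Type) [Field K] [NumberField K] [Field E] [NumberField E] [Field L]
  [NumberField L] [Algebra K E] [Algebra K L] [Algebra E L] [IsScalarTower K E L] [IsGalois K L]
  [IsGalois K E]

/-- The inflation map `Hⁿ(Gal(E/K), C_E) ⟶ Hⁿ(Gal(L/K), C_L)`. -/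
noncomputable abbrev classInfl (n : ℕ) :
    groupCohomology (ideleClassRep K E) n ⟶ groupCohomology (ideleClassRep K L) n :=
  classCoh K K (IsScalarTower.toAlgHom K E L) n

/-- `classInflIso` followed by the abstract inflation is the field-theoretic inflation. -/
theorem classInflIso_hom_comp_H2inf :
    (classInflIso K E L 2).hom ≫ H2inf (ideleClassRep K L) (galIncl K E L).range =
      classInfl K E L 2 := by
  unfold classInflIso classInfl classCoh H2inf
  change groupCohomology.map _ _ 2 ≫ groupCohomology.map _ _ 2 = _
  rw [← groupCohomology.map_comp]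
  refine groupCohomology.map_congr ?_ ?_ 2
  · ext σ : 1
    rfl
  · rfl

/-- **Inflation `H²(Gal(E/K), C_E) → H²(Gal(L/K), C_L)` is injective** when
`H¹(Gal(L/E), C_L) = 0`. -/
theorem classInfl_injective
    (h1 : Limits.IsZero (groupCohomology (ideleClassRep E L) 1)) :
    Function.Injective (classInfl K E L 2) := by
  rw [← classInflIso_hom_comp_H2inf]
  have h2 : Function.Injective (classInflIso K E L 2).hom :=
    (ModuleCat.mono_iff_injective _).1 inferInstance
  have h3 := H2inf_injective (ideleClassRep K L) (galIncl K E L).range
    (h1.of_iso (classResIso K E L 1))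
  intro x y hxy
  rw [ModuleCat.comp_apply, ModuleCat.comp_apply] at hxy
  exact h2 (h3 hxy)

/-- **Exactness at `H²(Gal(L/K), C_L)`**: a class which restricts to `0` on `Gal(L/E)` is
inflated from `Gal(E/K)`, when `H¹(Gal(L/E), C_L) = 0`. -/
theorem exists_classInfl_eq_of_classRes_eq_zero
    (h1 : Limits.IsZero (groupCohomology (ideleClassRep E L) 1))
    (x : groupCohomology (ideleClassRep K L) 2) (hx : classRes K E L 2 x = 0) :
    ∃ y, classInfl K E L 2 y = x := by
  rw [← res_comp_classResIso_hom, ModuleCat.comp_apply] at hx
  have h2 : Function.Injective (classResIso K E L 2).hom :=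
    (ModuleCat.mono_iff_injective _).1 inferInstance
  have hx' : H2res (ideleClassRep K L) (galIncl K E L).range x = 0 :=
    h2 (by rw [hx, map_zero])
  obtain ⟨y', hy'⟩ := exists_H2inf_eq_of_H2res_eq_zero (ideleClassRep K L)
    (galIncl K E L).range (h1.of_iso (classResIso K E L 1)) x hx'
  refine ⟨(classInflIso K E L 2).inv y', ?_⟩
  rw [← classInflIso_hom_comp_H2inf, ModuleCat.comp_apply]
  have : (classInflIso K E L 2).hom ((classInflIso K E L 2).inv y') = y' := by
    rw [← ModuleCat.comp_apply, Iso.inv_hom_id, ModuleCat.id_apply]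
  rw [this, hy']

end Infl

section Cup

variable (K F : Type) {M M' : Type} [Field K] [NumberField K] [Field F] [NumberField F] [Field M]
  [NumberField M] [Field M'] [NumberField M'] [Algebra K F] [Algebra K M] [Algebra F M']
  [Algebra K M'] [IsScalarTower K F M'] [IsGalois K M] [IsGalois F M'] (j : M →ₐ[K] M')

/-- The class of `x ∈ J_K` in `C_M^{Gal(M/K)}` maps to the class of `ι x ∈ J_F` in
`C_{M'}^{Gal(M'/F)}`. -/
lemma invPull_classInvHom (x : FinIdele K) :
    invPull (galRes K F j) (classCohHom K F j) (classInvHom K M (Additive.ofMul x)) =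
      classInvHom F M' (Additive.ofMul (FinIdele.map (algebraMap K F) x)) := by
  apply Subtype.ext
  rw [coe_invPull, coe_classInvHom, classCohHom_hom_apply, classCohLin_apply, coe_classInvHom]
  congr 1
  change classMap (j : M →+* M') (FinIdeleClass.mk (FinIdele.map (algebraMap K M) x)) =
    FinIdeleClass.mk (FinIdele.map (algebraMap F M') (FinIdele.map (algebraMap K F) x))
  rw [classMap_mk, finIdele_map_map, finIdele_map_map]
  have h1 : (j : M →+* M').comp (algebraMap K M) = (algebraMap F M').comp (algebraMap K F) := by
    refine RingHom.ext fun a => ?_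
    rw [RingHom.comp_apply, RingHom.comp_apply]
    change j (algebraMap K M a) = _
    rw [j.commutes, IsScalarTower.algebraMap_apply K F M']
  rw [h1]

/-- **Naturality of `[x] ∪ δχ`** under `classCoh`. -/
theorem classCoh_cupδInv (x : FinIdele K) (χ : QZChar (M ≃ₐ[K] M)) :
    classCoh K F j 2 (cupδInv (ideleClassRep K M) (classInvHom K M (Additive.ofMul x)) χ) =
      cupδInv (ideleClassRep F M')
        (classInvHom F M' (Additive.ofMul (FinIdele.map (algebraMap K F) x)))
        (χ.comp (galRes K F j)) := by
  rw [← invPull_classInvHom K F j]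
  exact map_cupδInv (galRes K F j) (classCohHom K F j) _ χ

end Cup

end Fermat.Agent.CFT.PT4
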