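/-
CFT global part, S55 package PT4 (e), helper3: (L3) `H³(Gal(L/K), C_L)` has no `p`-torsion
(`p` odd, `L/K` Galois number fields, `ζ_p ∈ L`):
* `exists_isFundamentalCocycle_of_zeta_top`: fundamental cocycles for `p`-extensions with `ζ_p ∈ L`;
* `isZero_H3_of_isPGroup`: `H³(S, C_L) = 0` for every `p`-subgroup `S` of `Gal(L/K)`;
* `eq_zero_of_pow_nsmul_H3`: `H³(Gal(L/K), C_L)` has no `p`-torsion.
-/
import Fermat.Agent.CFT.Global.PT4d_helper3_Final
import Fermat.Agent.CFT.Coh.TateH3_helper3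

set_option autoImplicit false
set_option linter.unusedSectionVars false
set_option linter.style.haveILetI false

open scoped NumberField Pointwise
open CategoryTheory groupCohomology Rep
open Fermat.Agent.CFT.Coh Fermat.Agent.CFT.Local Fermat.Agent.CFT.Crossing

namespace Fermat.Agent.CFT.PT4

section h3

variable {p : ℕ} [hp : Fact p.Prime]

variable (hp2 : p ≠ 2) (K L : Type) [Field K] [NumberField K] [Field L] [NumberField L]
  [Algebra K L] [IsGalois K L]

include hp2 in
/-- **Fundamental cocycles for `p`-extensions** (`ζ_p ∈ L`, `p` odd). -/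
theorem exists_isFundamentalCocycle_of_zeta_top (hPG : IsPGroup p (L ≃ₐ[K] L))
    (hη : ∃ η : L, IsPrimitiveRoot η p) :
    ∃ f : cocycles₂ (ideleClassRep K L), IsFundamentalCocycle (ideleClassRep K L) f := by
  obtain ⟨γ, hγ⟩ := exists_globalClass hp2 K L hη
  obtain ⟨f, rfl⟩ := H2π_surjective' (ideleClassRep K L) γ
  refine ⟨f, isFundamentalCocycle_of_card (ideleClassRep K L) f
    (fun S => (isZero_H1_and_card_H2_dvd_of_isPGroup hp.out hp2 K L S (hPG.to_subgroup S)).1)
    (fun S => card_H2_of_isPGroup hp2 K L hη S (hPG.to_subgroup S)) ?_⟩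
  have htop : IsPGroup p (⊤ : Subgroup (L ≃ₐ[K] L)) := hPG.to_subgroup ⊤
  have hcardG : Nat.card (groupCohomology (ideleClassRep K L) 2) =
      Nat.card (⊤ : Subgroup (L ≃ₐ[K] L)) := by
    rw [← card_groupCohomology_res_top (ideleClassRep K L) 2,
      card_H2_of_isPGroup hp2 K L hη ⊤ htop]
  have hy : ∀ k : ℕ, k • (H2π (ideleClassRep K L)).hom f = 0 →
      Nat.card (⊤ : Subgroup (L ≃ₐ[K] L)) ∣ k := by
    intro k hk
    apply hγ ⊤ htop k
    rw [← map_nsmul, hk, map_zero]
  obtain ⟨-, -, hgen⟩ := card_eq_and_zmultiples_eq_top (Nat.card (⊤ : Subgroup (L ≃ₐ[K] L)))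
    Nat.card_pos.ne' hcardG.dvd _ hy
  intro x
  have hx : x ∈ AddSubgroup.zmultiples ((H2π (ideleClassRep K L)).hom f) := by
    rw [hgen]; exact AddSubgroup.mem_top x
  obtain ⟨m, hm⟩ := AddSubgroup.mem_zmultiples_iff.mp hx
  exact ⟨m, hm.symm⟩

include hp2 in
/-- `H³(Gal(L/K), C_L) = 0` for a Galois `p`-extension with `ζ_p ∈ L`. -/
theorem isZero_H3_of_isPGroup_top (hPG : IsPGroup p (L ≃ₐ[K] L))
    (hη : ∃ η : L, IsPrimitiveRoot η p) :
    Limits.IsZero (groupCohomology (ideleClassRep K L) 3) := by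
  obtain ⟨f, hf⟩ := exists_isFundamentalCocycle_of_zeta_top hp2 K L hPG hη
  have h := isZero_H3_of_isFundamentalCocycle hf p ⊤ (hPG.to_subgroup ⊤)
  exact h.of_iso (mapIso (A := res (⊤ : Subgroup (L ≃ₐ[K] L)).subtype (ideleClassRep K L))
    (B := ideleClassRep K L) (Subgroup.topEquiv (G := (L ≃ₐ[K] L))).symm
    (LinearEquiv.refl ℤ _) (fun g => rfl) 3)

include hp2 in
/-- **Subgroup form**: `H³(S, C_L) = 0` for every `p`-subgroup `S` of `Gal(L/K)` (`ζ_p ∈ L`). -/
theorem isZero_H3_of_isPGroup (hη : ∃ η : L, IsPrimitiveRoot η p) (S : Subgroup (L ≃ₐ[K] L))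
    (hS : IsPGroup p S) :
    Limits.IsZero (groupCohomology (res S.subtype (ideleClassRep K L)) 3) := by
  obtain ⟨k, hk⟩ := IsPGroup.iff_card.mp hS
  have hrange : (galIncl K (IntermediateField.fixedField S) L).range = S := by
    ext σ
    rw [mem_range_galIncl_iff]
    conv_rhs => rw [← IntermediateField.fixingSubgroup_fixedField S]
    rw [IntermediateField.mem_fixingSubgroup_iff]
    constructor
    · intro h x hx
      exact h ⟨x, hx⟩
    · intro h x
      exact h x x.2
  have hLE : Nat.card (L ≃ₐ[IntermediateField.fixedField S] L) = p ^ k := by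
    rw [IsGalois.card_aut_eq_finrank, IntermediateField.finrank_fixedField_eq_card, hk]
  have hPG : IsPGroup p (L ≃ₐ[IntermediateField.fixedField S] L) := IsPGroup.of_card hLE
  have h3 := isZero_H3_of_isPGroup_top hp2 (IntermediateField.fixedField S) L hPG hη
  have key : Limits.IsZero (groupCohomology
      (res (galIncl K (IntermediateField.fixedField S) L).range.subtype (ideleClassRep K L)) 3) :=
    h3.of_iso (classResIso K (IntermediateField.fixedField S) L 3)
  rw [hrange] at key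
  exact key

include hp2 in
/-- **(L3)** `H³(Gal(L/K), C_L)` has no `p`-torsion (any Galois extension of number fields with
`ζ_p ∈ L`). -/
theorem eq_zero_of_pow_nsmul_H3 (hη : ∃ η : L, IsPrimitiveRoot η p)
    (x : groupCohomology (ideleClassRep K L) 3) (k : ℕ) (hx : p ^ k • x = 0) : x = 0 := by
  obtain ⟨P⟩ : Nonempty (Sylow p (L ≃ₐ[K] L)) := inferInstance
  have h1 := isZero_H3_of_isPGroup hp2 K L hη (P : Subgroup _) P.isPGroup'
  haveI : Subsingleton (groupCohomology
      (res (P : Subgroup (L ≃ₐ[K] L)).subtype (ideleClassRep K L)) 3) :=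
    ModuleCat.isZero_iff_subsingleton.mp h1
  have h2 : (resMap (P : Subgroup (L ≃ₐ[K] L)) (ideleClassRep K L) 3).hom x = 0 :=
    Subsingleton.elim _ _
  have h3 := index_nsmul_eq_zero_of_res_eq_zero (P : Subgroup (L ≃ₐ[K] L)) 2
    (ideleClassRep K L) x h2
  exact eq_zero_of_pow_nsmul_of_nsmul x k _ hx h3 P.not_dvd_index

end h3

end Fermat.Agent.CFT.PT4
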