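/-
CFT global part, S55 package PT4 (f), helper3: the idele class module of a Galois extension `L/K`
of number fields with `ζ_p ∈ L` (`p` odd) carries a `p`-primary fundamental class
(`IsPFundamental`, helper4's finite-level interface), and `H¹`, `H³` of all subgroups have no
`p`-torsion:
* `galIncl_range_fixedField`, `card_gal_fixedField`;
* `eq_zero_of_pow_nsmul_H1_res`, `eq_zero_of_pow_nsmul_H3_res`: subgroup forms of (L1), (L3);
* `exists_pPrimary_generator_res`: subgroup form of (L2);
* `exists_isPFundamental`.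
-/
import Fermat.Agent.CFT.Global.PT4e_helper3_H3
import Fermat.Agent.CFT.Coh.PFund_helper4

set_option autoImplicit false
set_option linter.unusedSectionVars false
set_option linter.style.haveILetI false

open scoped NumberField Pointwise
open CategoryTheory groupCohomology Rep
open Fermat.Agent.CFT.Coh Fermat.Agent.CFT.Local Fermat.Agent.CFT.Crossing

namespace Fermat.Agent.CFT.PT4

section abstract

/-- In a cyclic group `⟨g⟩` of order `N`, an element whose order is a multiple of `N` generates. -/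
lemma zmultiples_eq_of_dvd_of_zsmul_eq_zero {X : Type*} [AddCommGroup X] (g y : X) (N : ℕ)
    (hN : N ≠ 0) (hg : addOrderOf g = N) (hy : y ∈ AddSubgroup.zmultiples g)
    (hord : ∀ m : ℤ, m • y = 0 → (N : ℤ) ∣ m) :
    AddSubgroup.zmultiples y = AddSubgroup.zmultiples g := by
  have hle : AddSubgroup.zmultiples y ≤ AddSubgroup.zmultiples g :=
    AddSubgroup.zmultiples_le_of_mem hy
  have hcg : Nat.card (AddSubgroup.zmultiples g) = N := by rw [Nat.card_zmultiples, hg]
  haveI : Finite (AddSubgroup.zmultiples g) := Nat.finite_of_card_ne_zero (hcg ▸ hN)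
  obtain ⟨t, ht⟩ := AddSubgroup.mem_zmultiples_iff.mp hy
  have h1 : N • y = 0 := by
    rw [← ht, smul_comm, ← hg, addOrderOf_nsmul_eq_zero, smul_zero]
  have h2 : addOrderOf y ∣ N := addOrderOf_dvd_of_nsmul_eq_zero h1
  have h3 : N ∣ addOrderOf y := by
    have := hord (addOrderOf y) (by rw [natCast_zsmul, addOrderOf_nsmul_eq_zero])
    exact_mod_cast this
  have h4 : addOrderOf y = N := Nat.dvd_antisymm h2 h3
  apply AddSubgroup.eq_of_le_of_card_ge hle
  rw [Nat.card_zmultiples, Nat.card_zmultiples, h4, hg]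

end abstract

section fixed

variable (K L : Type) [Field K] [NumberField K] [Field L] [NumberField L]
  [Algebra K L] [IsGalois K L]

/-- The image of `Gal(L/L^S)` in `Gal(L/K)` is `S`. -/
lemma galIncl_range_fixedField (S : Subgroup (L ≃ₐ[K] L)) :
    (galIncl K (IntermediateField.fixedField S) L).range = S := by
  ext σ
  rw [mem_range_galIncl_iff]
  conv_rhs => rw [← IntermediateField.fixingSubgroup_fixedField S]
  rw [IntermediateField.mem_fixingSubgroup_iff]
  constructor
  · intro h x hx
    exact h ⟨x, hx⟩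
  · intro h x
    exact h x x.2

/-- `|Gal(L/L^S)| = |S|`. -/
lemma card_gal_fixedField (S : Subgroup (L ≃ₐ[K] L)) :
    Nat.card (L ≃ₐ[IntermediateField.fixedField S] L) = Nat.card S := by
  rw [IsGalois.card_aut_eq_finrank, IntermediateField.finrank_fixedField_eq_card]

end fixed

section pfund

variable {p : ℕ} [hp : Fact p.Prime]

variable (hp2 : p ≠ 2) (K L : Type) [Field K] [NumberField K] [Field L] [NumberField L]
  [Algebra K L] [IsGalois K L]

include hp2 in
/-- **(L1), subgroup form**: `H¹(S, C_L)` has no `p`-torsion for every subgroup `S ≤ Gal(L/K)`. -/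
theorem eq_zero_of_pow_nsmul_H1_res (S : Subgroup (L ≃ₐ[K] L))
    (x : groupCohomology (res S.subtype (ideleClassRep K L)) 1) (k : ℕ)
    (hx : p ^ k • x = 0) : x = 0 := by
  have key : ∀ x : groupCohomology
      (res (galIncl K (IntermediateField.fixedField S) L).range.subtype (ideleClassRep K L)) 1,
      p ^ k • x = 0 → x = 0 := by
    intro x hx
    obtain ⟨e, he⟩ : ∃ e, e = (classResIso K (IntermediateField.fixedField S) L 1).toLinearEquiv :=
      ⟨_, rfl⟩
    have h1 : e x = 0 := by
      apply eq_zero_of_pow_nsmul_H1 hp2 (IntermediateField.fixedField S) L (e x) k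
      rw [← map_nsmul, hx, map_zero]
    exact e.map_eq_zero_iff.mp h1
  rw [galIncl_range_fixedField] at key
  exact key x hx

include hp2 in
/-- **(L3), subgroup form**: `H³(S, C_L)` has no `p`-torsion for every subgroup `S ≤ Gal(L/K)`
(`ζ_p ∈ L`). -/
theorem eq_zero_of_pow_nsmul_H3_res (hη : ∃ η : L, IsPrimitiveRoot η p)
    (S : Subgroup (L ≃ₐ[K] L))
    (x : groupCohomology (res S.subtype (ideleClassRep K L)) 3) (k : ℕ)
    (hx : p ^ k • x = 0) : x = 0 := by
  have key : ∀ x : groupCohomology
      (res (galIncl K (IntermediateField.fixedField S) L).range.subtype (ideleClassRep K L)) 3,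
      p ^ k • x = 0 → x = 0 := by
    intro x hx
    obtain ⟨e, he⟩ : ∃ e, e = (classResIso K (IntermediateField.fixedField S) L 3).toLinearEquiv :=
      ⟨_, rfl⟩
    have h1 : e x = 0 := by
      apply eq_zero_of_pow_nsmul_H3 hp2 (IntermediateField.fixedField S) L hη (e x) k
      rw [← map_nsmul, hx, map_zero]
    exact e.map_eq_zero_iff.mp h1
  rw [galIncl_range_fixedField] at key
  exact key x hx

include hp2 in
/-- **(L2), subgroup form**: `H²(S, C_L)(p)` is cyclic of order `|S|_p` (`ζ_p ∈ L`). -/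
theorem exists_pPrimary_generator_res (hη : ∃ η : L, IsPrimitiveRoot η p)
    (S : Subgroup (L ≃ₐ[K] L)) :
    ∃ γ : groupCohomology (res S.subtype (ideleClassRep K L)) 2,
      addOrderOf γ = p ^ (Nat.card S).factorization p ∧
      ∀ x : groupCohomology (res S.subtype (ideleClassRep K L)) 2, (∃ k : ℕ, p ^ k • x = 0) →
        x ∈ AddSubgroup.zmultiples γ := by
  have key : ∃ γ : groupCohomology
      (res (galIncl K (IntermediateField.fixedField S) L).range.subtype (ideleClassRep K L)) 2,
      addOrderOf γ = p ^ (Nat.card S).factorization p ∧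
      ∀ x : groupCohomology
        (res (galIncl K (IntermediateField.fixedField S) L).range.subtype (ideleClassRep K L)) 2,
        (∃ k : ℕ, p ^ k • x = 0) → x ∈ AddSubgroup.zmultiples γ := by
    obtain ⟨e, he⟩ : ∃ e, e = (classResIso K (IntermediateField.fixedField S) L 2).toLinearEquiv :=
      ⟨_, rfl⟩
    obtain ⟨γ, hγ1, hγ2⟩ := exists_pPrimary_generator hp2 (IntermediateField.fixedField S) L hη
    rw [card_gal_fixedField] at hγ1
    refine ⟨e.symm γ, ?_, ?_⟩
    · rw [← hγ1]
      exact e.symm.toAddEquiv.addOrderOf_eq γ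
    · rintro x ⟨k, hk⟩
      have h1 : e x ∈ AddSubgroup.zmultiples γ := hγ2 (e x) ⟨k, by rw [← map_nsmul, hk, map_zero]⟩
      obtain ⟨j, hj⟩ := AddSubgroup.mem_zmultiples_iff.mp h1
      refine AddSubgroup.mem_zmultiples_iff.mpr ⟨j, ?_⟩
      rw [← map_zsmul, hj, LinearEquiv.symm_apply_apply]
  rw [galIncl_range_fixedField] at key
  exact key

include hp2 in
/-- **The `p`-primary fundamental class** of `C_L` as a `Gal(L/K)`-module (`p` odd, `ζ_p ∈ L`, `L/K`
any Galois extension of number fields). -/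
theorem exists_isPFundamental (hη : ∃ η : L, IsPrimitiveRoot η p) :
    ∃ γ : groupCohomology (ideleClassRep K L) 2, IsPFundamental p (ideleClassRep K L) γ := by
  obtain ⟨γ, hγ1, hγ2⟩ := exists_pPrimary_generator hp2 K L hη
  obtain ⟨a, ha⟩ : ∃ a : ℕ, a = (Nat.card (L ≃ₐ[K] L)).factorization p := ⟨_, rfl⟩
  rw [← ha] at hγ1
  -- the order statement
  have hord : ∀ (S : Subgroup (L ≃ₐ[K] L)) (m : ℤ),
      m • (H2res (ideleClassRep K L) S).hom γ = 0 →
        ((p ^ (Nat.card S).factorization p : ℕ) : ℤ) ∣ m := by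
    intro S m hm
    have h2 : (resMap S (ideleClassRep K L) 2).hom (m • γ) = 0 := by
      rw [map_zsmul]; exact hm
    have h3 := index_nsmul_eq_zero_of_res_eq_zero S 1 (ideleClassRep K L) (m • γ) h2
    rw [← natCast_zsmul, smul_smul] at h3
    have h4 := (addOrderOf_dvd_iff_zsmul_eq_zero).2 h3
    rw [hγ1] at h4
    obtain ⟨b, hb⟩ : ∃ b : ℕ, b = (Nat.card S).factorization p := ⟨_, rfl⟩
    obtain ⟨c, hc⟩ : ∃ c : ℕ, c = S.index.factorization p := ⟨_, rfl⟩
    have hSne : Nat.card S ≠ 0 := Nat.card_pos.ne'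
    have hine : S.index ≠ 0 := S.index_ne_zero_of_finite
    have hab : a = b + c := by
      rw [ha, hb, hc, ← S.card_mul_index, Nat.factorization_mul hSne hine]
      rfl
    obtain ⟨i', hi'⟩ : ∃ i' : ℕ, i' = S.index / p ^ c := ⟨_, rfl⟩
    have hidx : p ^ c * i' = S.index := by
      rw [hi', hc]; exact Nat.ordProj_mul_ordCompl_eq_self S.index p
    have hnd : ¬ p ∣ i' := by
      rw [hi', hc]; exact Nat.not_dvd_ordCompl hp.out hine
    rw [← hb]
    rw [hab, ← hidx] at h4
    push_cast at h4
    have h5 : ((p : ℤ) ^ b) ∣ (i' : ℤ) * m := by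
      apply Int.dvd_of_mul_dvd_mul_left (a := (p : ℤ) ^ c)
        (pow_ne_zero _ (by exact_mod_cast hp.out.ne_zero))
      rw [← mul_assoc, mul_comm ((p : ℤ) ^ c) ((p : ℤ) ^ b), ← pow_add]
      exact h4
    have hcop : IsCoprime ((p : ℤ) ^ b) (i' : ℤ) := by
      apply IsCoprime.pow_left
      exact Nat.isCoprime_iff_coprime.mpr ((Nat.Prime.coprime_iff_not_dvd hp.out).mpr hnd)
    push_cast
    exact hcop.dvd_of_dvd_mul_left h5
  refine ⟨γ, ⟨?_, ?_, hord⟩⟩
  · intro S x hx
    exact eq_zero_of_pow_nsmul_H1_res hp2 K L S x 1 (by rw [pow_one]; exact hx)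
  · intro S x hx
    obtain ⟨g, hg1, hg2⟩ := exists_pPrimary_generator_res hp2 K L hη S
    have hy : (H2res (ideleClassRep K L) S).hom γ ∈ AddSubgroup.zmultiples g := by
      apply hg2
      refine ⟨a, ?_⟩
      rw [← map_nsmul, ← hγ1, addOrderOf_nsmul_eq_zero, map_zero]
    have hz := zmultiples_eq_of_dvd_of_zsmul_eq_zero g _ _
      (pow_pos hp.out.pos _).ne' hg1 hy (hord S)
    have hx' := hg2 x hx
    rw [← hz] at hx'
    obtain ⟨m, hm⟩ := AddSubgroup.mem_zmultiples_iff.mp hx'
    exact ⟨m, hm.symm⟩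

end pfund

end Fermat.Agent.CFT.PT4
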