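/-
CFT global part, S55 package PT8 (P3), helper3: the cofinal family of levels containing `ζ_p`
(`p ∈ S`) and its `p`-cofinality (`pcof` of helper4's `PLevelFormation`):
* `zetaLevelFamily hp hpS : Sm.LevelFamily (levelBasis S)`, `mem_zetaLevelFamily_lev_iff`;
* `zetaLevelFamily_pcof`: every level `V` of the family contains a level `W` of the family with
  `p ∣ [V : W]`.
-/
import Fermat.Agent.CFT.Arith.CycloLevel_helper7
import Fermat.Agent.CFT.Arith.Basis_helper7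
import Fermat.Agent.CFT.Sm.FL_helper4_Lift

set_option autoImplicit false
set_option linter.unusedSectionVars false
set_option linter.style.haveILetI false

open Fermat.Agent.CFT Fermat.Agent.CFT.Arith Fermat.Agent.CFT.Sm

namespace Fermat.Agent.CFT.PT4

section pcof

/-- `Ω = AlgebraicClosure ℚ`. -/
local notation "Ω" => AlgebraicClosure ℚ
/-- `Γ = Gal(Ω/ℚ)`. -/
local notation "Γ" => (AlgebraicClosure ℚ ≃ₐ[ℚ] AlgebraicClosure ℚ)

variable {S : Finset Nat.Primes} {p : ℕ}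

/-- Primitive `p^n`-th roots of unity exist in `Ω`. -/
lemma exists_isPrimitiveRoot_omega (hp : p.Prime) (n : ℕ) :
    ∃ ζ : Ω, IsPrimitiveRoot ζ (p ^ n) := by
  haveI : NeZero (p ^ n) := ⟨(pow_pos hp.pos n).ne'⟩
  exact HasEnoughRootsOfUnity.exists_primitiveRoot Ω (p ^ n)

/-- `[ℚ(ζ_{p^(n+1)}) : ℚ] = p^n (p - 1)`. -/
lemma finrank_adjoin_primitiveRoot (hp : p.Prime) (n : ℕ) (ζ : Ω)
    (hζ : IsPrimitiveRoot ζ (p ^ (n + 1))) :
    Module.finrank ℚ (IntermediateField.adjoin ℚ {ζ}) = p ^ n * (p - 1) := by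
  have hint : IsIntegral ℚ ζ := (Algebra.IsAlgebraic.isAlgebraic ζ).isIntegral
  rw [IntermediateField.adjoin.finrank hint,
    ← Polynomial.cyclotomic_eq_minpoly_rat hζ (pow_pos hp.pos _),
    Polynomial.natDegree_cyclotomic, Nat.totient_prime_pow_succ hp]

/-- The levels containing `ζ_p`, as a cofinal family of levels of `𝒰_S` (`p ∈ S`). -/
def zetaLevelFamily (hp : p.Prime) (hpS : (⟨p, hp⟩ : Nat.Primes) ∈ S) :
    LevelFamily (levelBasis S) where
  lev := {V | ∃ F : IntermediateField ℚ Ω, IsLevel S F ∧ (∃ ζ : F, IsPrimitiveRoot ζ p) ∧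
    V = F.fixingSubgroup}
  lev_sub := by
    rintro _ ⟨F, hF, -, rfl⟩
    exact fixingSubgroup_mem_levelBasis hF
  cofinal := by
    rintro _ ⟨F, hF, rfl⟩
    obtain ⟨ζ, hζ⟩ := exists_isPrimitiveRoot_omega hp 1
    have hK : IsLevel S (IntermediateField.adjoin ℚ {ζ}) :=
      isLevel_of_le_adjoin_of_pow_pow_eq_one' hp hpS 1 hζ.pow_eq_one le_rfl
    have hmem : ζ ∈ F ⊔ IntermediateField.adjoin ℚ {ζ} :=
      (le_sup_right : IntermediateField.adjoin ℚ {ζ} ≤ _)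
        (IntermediateField.mem_adjoin_simple_self ℚ ζ)
    refine ⟨_, ⟨F ⊔ IntermediateField.adjoin ℚ {ζ}, hF.sup hK, ⟨⟨ζ, hmem⟩, ?_⟩, rfl⟩,
      IntermediateField.fixingSubgroup_antitone le_sup_left⟩
    rw [pow_one] at hζ
    exact IsPrimitiveRoot.coe_submonoidClass_iff.mp hζ

lemma mem_zetaLevelFamily_lev_iff (hp : p.Prime) (hpS : (⟨p, hp⟩ : Nat.Primes) ∈ S)
    {V : Subgroup Γ} :
    V ∈ (zetaLevelFamily hp hpS).lev ↔
      ∃ F : IntermediateField ℚ Ω, IsLevel S F ∧ (∃ ζ : F, IsPrimitiveRoot ζ p) ∧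
        V = F.fixingSubgroup := Iff.rfl

lemma fixingSubgroup_mem_zetaLevelFamily (hp : p.Prime) (hpS : (⟨p, hp⟩ : Nat.Primes) ∈ S)
    {F : IntermediateField ℚ Ω} (hF : IsLevel S F) (hζ : ∃ ζ : F, IsPrimitiveRoot ζ p) :
    F.fixingSubgroup ∈ (zetaLevelFamily hp hpS).lev := ⟨F, hF, hζ, rfl⟩

/-- **`pcof`**: every level of the family contains a level of the family of relative index
divisible by `p` (adjoin `ζ_{p^n}` for `n` large). -/
theorem zetaLevelFamily_pcof (hp : p.Prime) (hpS : (⟨p, hp⟩ : Nat.Primes) ∈ S) :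
    ∀ V ∈ (zetaLevelFamily hp hpS).lev, ∃ W ∈ (zetaLevelFamily hp hpS).lev,
      W ≤ V ∧ p ∣ W.index / V.index := by
  rintro _ ⟨F, hF, ⟨ζ₀, hζ₀⟩, rfl⟩
  haveI := hF.finiteDimensional
  obtain ⟨d, hd⟩ : ∃ d : ℕ, d = F.fixingSubgroup.index := ⟨_, rfl⟩
  have hd0 : d ≠ 0 := by
    rw [hd, ← IntermediateField.finrank_eq_fixingSubgroup_index]
    exact Module.finrank_pos.ne'
  obtain ⟨n, hn⟩ : ∃ n : ℕ, n = d.factorization p + 1 := ⟨_, rfl⟩
  obtain ⟨ζ, hζ⟩ := exists_isPrimitiveRoot_omega hp (n + 1)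
  have hK : IsLevel S (IntermediateField.adjoin ℚ {ζ}) :=
    isLevel_of_le_adjoin_of_pow_pow_eq_one' hp hpS (n + 1) hζ.pow_eq_one le_rfl
  have hF' : IsLevel S (F ⊔ IntermediateField.adjoin ℚ {ζ}) := hF.sup hK
  have hle : (F ⊔ IntermediateField.adjoin ℚ {ζ}).fixingSubgroup ≤ F.fixingSubgroup :=
    IntermediateField.fixingSubgroup_antitone le_sup_left
  have hle' : (F ⊔ IntermediateField.adjoin ℚ {ζ}).fixingSubgroup ≤
      (IntermediateField.adjoin ℚ {ζ}).fixingSubgroup :=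
    IntermediateField.fixingSubgroup_antitone le_sup_right
  refine ⟨_, ⟨F ⊔ IntermediateField.adjoin ℚ {ζ}, hF', ⟨⟨ζ₀.1, le_sup_left (a := F) ζ₀.2⟩, ?_⟩,
    rfl⟩, hle, ?_⟩
  · have h0 : IsPrimitiveRoot (ζ₀ : Ω) p := IsPrimitiveRoot.coe_submonoidClass_iff.mpr hζ₀
    exact IsPrimitiveRoot.coe_submonoidClass_iff.mp h0
  · -- the index computation
    obtain ⟨w, hw⟩ : ∃ w : ℕ, w = (F ⊔ IntermediateField.adjoin ℚ {ζ}).fixingSubgroup.index :=
      ⟨_, rfl⟩
    rw [← hw, ← hd]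
    have h1 : d ∣ w := by
      rw [hd, hw]; exact Subgroup.index_dvd_of_le hle
    have h2 : p ^ n ∣ w := by
      have h3 : (IntermediateField.adjoin ℚ {ζ}).fixingSubgroup.index ∣ w := by
        rw [hw]; exact Subgroup.index_dvd_of_le hle'
      rw [← IntermediateField.finrank_eq_fixingSubgroup_index,
        finrank_adjoin_primitiveRoot hp n ζ hζ] at h3
      exact (Dvd.intro _ rfl).trans h3
    obtain ⟨q, rfl⟩ := h1
    rw [Nat.mul_div_cancel_left q (Nat.pos_of_ne_zero hd0)]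
    -- `d = p^(n-1) d'` with `p ∤ d'`
    obtain ⟨e, he⟩ : ∃ e : ℕ, e = d.factorization p := ⟨_, rfl⟩
    have h4 : p ^ e * (d / p ^ e) = d := by
      rw [he]; exact Nat.ordProj_mul_ordCompl_eq_self d p
    have h5 : ¬ p ∣ d / p ^ e := by
      rw [he]; exact Nat.not_dvd_ordCompl hp hd0
    obtain ⟨d', hd'⟩ : ∃ d' : ℕ, d' = d / p ^ e := ⟨_, rfl⟩
    rw [← hd'] at h4 h5
    rw [hn, ← he, ← h4, pow_succ, mul_assoc] at h2
    have h6 : p ∣ d' * q :=
      Nat.dvd_of_mul_dvd_mul_left (pow_pos hp.pos _) h2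
    rcases (Nat.Prime.dvd_mul hp).mp h6 with h | h
    · exact absurd h h5
    · exact h

end pcof

end Fermat.Agent.CFT.PT4
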