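/-
CFT global part, S55 package PT8 (H7.3-core), helper3: Galois invariants of the `S`-idele class
group `J_L / (L^× U^S_L)` for a Galois extension `L/K` of number fields unramified outside `S ≠ ∅`:
* `principalIdeles_inf_exUnits`: `L^× ∩ U^S_L = 1`;
* `exists_exUnits_coboundary`: `H¹(Gal(L/K), U^S_L) = 0` in cocycle form (from helper8's (UT5));
* `exists_map_div_mem_of_forall_smul_div_mem`: a class of `J_L / (L^× U^S_L)` fixed by `Gal(L/K)` comes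
  from `J_K`;
* `mem_of_map_mem`: `J_K / (K^× U^S_K) → J_L / (L^× U^S_L)` is injective.
-/
import Fermat.Agent.CFT.PT8.UT_helper8_Global
import Fermat.Agent.CFT.Global.PT6_helper1_Indices
import Fermat.Agent.CFT.Global.G01_helper7_Invariants
import Fermat.Agent.CFT.Coh.CohTriv_helper1_PGroup

set_option autoImplicit false
set_option linter.unusedSectionVars false
set_option linter.style.haveILetI false

open scoped NumberField
open CategoryTheory groupCohomology Rep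
open Fermat.Agent.CFT Fermat.Agent.CFT.PT6 Fermat.Agent.CFT.Coh

namespace Fermat.Agent.CFT.PT4

section core

variable {K L : Type} [Field K] [NumberField K] [Field L] [NumberField L]
  [Algebra K L] [IsGalois K L] {S : Set Nat.Primes}

/-- `L^× ∩ U^S_L = 1` when `S ≠ ∅`. -/
lemma principalIdeles_inf_exUnits (hS : S.Nonempty) :
    principalIdeles L ⊓ exUnits L S = ⊥ := by
  rw [eq_bot_iff]
  rintro x ⟨⟨a, rfl⟩, hx⟩
  obtain ⟨ℓ, hℓ⟩ := hS
  have h1 : SemiLocal.ofUnits (ℓ : ℕ) a = 1 := hx.2 ℓ hℓ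
  have h2 : a = 1 := SemiLocal.ofUnits_injective (ℓ : ℕ) (h1.trans (map_one _).symm)
  rw [Subgroup.mem_bot, h2, map_one]

/-- Uniqueness of the decomposition in `L^× · U^S_L`. -/
lemma eq_and_eq_of_diag_mul_eq (hS : S.Nonempty) {a b : Lˣ} {u v : FinIdele L}
    (hu : u ∈ exUnits L S) (hv : v ∈ exUnits L S)
    (h : FinIdele.diag L a * u = FinIdele.diag L b * v) : a = b ∧ u = v := by
  have h1 : FinIdele.diag L (a / b) = v / u := by
    rw [map_div, div_eq_div_iff_mul_eq_mul, h, mul_comm]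
  have h2 : v / u ∈ principalIdeles L ⊓ exUnits L S :=
    ⟨⟨a / b, h1⟩, (exUnits L S).div_mem hv hu⟩
  rw [principalIdeles_inf_exUnits hS, Subgroup.mem_bot, div_eq_one] at h2
  refine ⟨?_, h2.symm⟩
  rw [h2, div_self', ← map_one (FinIdele.diag L)] at h1
  exact div_eq_one.mp (FinIdele.diag_injective h1)

lemma smul_diag_units (σ : L ≃ₐ[K] L) (a : Lˣ) :
    σ • FinIdele.diag L a = FinIdele.diag L (σ • a) := by
  rw [FinIdele.smul_diag]
  rfl

lemma smul_mem_exUnits (σ : L ≃ₐ[K] L) {u : FinIdele L} (hu : u ∈ exUnits L S) :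
    σ • u ∈ exUnits L S := by
  refine ⟨fun ℓ hℓ => ?_, fun ℓ hℓ => ?_⟩
  · rw [FinIdele.smul_apply]
    exact (SemiLocal.smul_mem_unitGroup_iff (ℓ : ℕ) σ).mpr (hu.1 ℓ hℓ)
  · rw [FinIdele.smul_apply, hu.2 ℓ hℓ, smul_one]

/-- `map x ∈ U^S_L ↔ x ∈ U^S_K`. -/
lemma map_mem_exUnits_iff {x : FinIdele K} :
    FinIdele.map (algebraMap K L) x ∈ exUnits L S ↔ x ∈ exUnits K S := by
  rw [mem_exUnits_iff, mem_exUnits_iff]
  refine and_congr (forall₂_congr fun ℓ _ => ?_) (forall₂_congr fun ℓ _ => ?_)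
  · rw [FinIdele.map_apply]
    exact SemiLocal.unitsMap_mem_unitGroup_iff (ℓ : ℕ) K L
  · rw [FinIdele.map_apply]
    constructor
    · intro h
      apply SemiLocal.unitsMap_injective (ℓ : ℕ) K L
      rw [h, map_one]
    · intro h
      rw [h, map_one]

/-- `H¹(Gal(L/K), U^S_L) = 0` in cocycle form, when `L/K` is unramified outside `S` (inertia
form, as in helper8's (UT5')). -/
theorem exists_exUnits_coboundary
    (hin : ∀ ℓ : Nat.Primes, ℓ ∉ S → ∀ Q : Ideal (𝓞 L), Q.IsPrime → (((ℓ : ℕ) : ℕ) : 𝓞 L) ∈ Q →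
      ∀ σ : L ≃ₐ[K] L, (∀ x : 𝓞 L, σ • x - x ∈ Q) → σ = 1)
    (u : (L ≃ₐ[K] L) → FinIdele L) (hu : ∀ σ, u σ ∈ exUnits L S)
    (hc : ∀ σ τ, u (σ * τ) = σ • u τ * u σ) :
    ∃ v ∈ exUnits L S, ∀ σ, σ • v / v = u σ := by
  classical
  have h1 := PT8.isZero_groupCohomology_pi_unitGroup_of_inertia (K := K) (L := L) S hin 0
  -- the cocycle with values in the product
  obtain ⟨c, hcdef⟩ : ∃ c : (L ≃ₐ[K] L) →
      Additive (∀ ℓ : {ℓ : Nat.Primes // ℓ ∉ S}, SemiLocal.unitGroup ((ℓ : Nat.Primes) : ℕ) L),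
      ∀ (σ : L ≃ₐ[K] L) (ℓ : {ℓ : Nat.Primes // ℓ ∉ S}),
        ((Additive.toMul (c σ) ℓ : SemiLocal.unitGroup ((ℓ : Nat.Primes) : ℕ) L) :
        (SemiLocal ((ℓ : Nat.Primes) : ℕ) L)ˣ) = u σ ℓ.1 :=
    ⟨fun σ => Additive.ofMul (fun ℓ => ⟨u σ ℓ.1, (hu σ).1 ℓ.1 ℓ.2⟩), fun σ ℓ => rfl⟩
  obtain ⟨v', hv'⟩ := exists_eq_sub_of_isZero_H1 _ h1 c (by
    intro σ τ
    apply congrArg Additive.ofMul (a₁ := Additive.toMul (c (σ * τ)))
      (a₂ := σ • Additive.toMul (c τ) * Additive.toMul (c σ))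
    funext ℓ
    apply Subtype.ext
    rw [hcdef]
    have h2 := congrArg (fun x : FinIdele L => x ℓ.1) (hc σ τ)
    refine h2.trans ?_
    show σ • u τ ℓ.1 * u σ ℓ.1 = σ • ((Additive.toMul (c τ) ℓ :
      SemiLocal.unitGroup ((ℓ : Nat.Primes) : ℕ) L) : (SemiLocal ((ℓ : Nat.Primes) : ℕ) L)ˣ) *
        ((Additive.toMul (c σ) ℓ : SemiLocal.unitGroup ((ℓ : Nat.Primes) : ℕ) L) :
          (SemiLocal ((ℓ : Nat.Primes) : ℕ) L)ˣ)
    rw [hcdef, hcdef])
  -- the idele `v`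
  obtain ⟨v, hv⟩ : ∃ v : FinIdele L, ∀ ℓ : Nat.Primes,
      v ℓ = if h : ℓ ∈ S then 1 else
        ((Additive.toMul v' ⟨ℓ, h⟩ : SemiLocal.unitGroup (ℓ : ℕ) L) : (SemiLocal (ℓ : ℕ) L)ˣ) :=
    ⟨⟨fun ℓ => if h : ℓ ∈ S then 1 else
        ((Additive.toMul v' ⟨ℓ, h⟩ : SemiLocal.unitGroup (ℓ : ℕ) L) : (SemiLocal (ℓ : ℕ) L)ˣ),
      Filter.Eventually.of_forall fun ℓ => by
        by_cases h : ℓ ∈ S
        · simp only [h, dif_pos]
          exact (SemiLocal.unitGroup (ℓ : ℕ) L).one_mem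
        · simp only [h, dif_neg, not_false_eq_true]
          exact (Additive.toMul v' ⟨ℓ, h⟩).2⟩, fun ℓ => rfl⟩
  refine ⟨v, ⟨fun ℓ hℓ => ?_, fun ℓ hℓ => ?_⟩, fun σ => ?_⟩
  · rw [hv, dif_neg hℓ]
    exact (Additive.toMul v' ⟨ℓ, hℓ⟩).2
  · rw [hv, dif_pos hℓ]
  · apply RestrictedProduct.ext
    intro ℓ
    show σ • v ℓ / v ℓ = u σ ℓ
    by_cases h : ℓ ∈ S
    · rw [hv, dif_pos h, smul_one, div_one, (hu σ).2 ℓ h]
    · rw [hv, dif_neg h, ← hcdef σ (⟨ℓ, h⟩ : {ℓ : Nat.Primes // ℓ ∉ S}), hv' σ]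
      rfl

/-- Hilbert 90 for `L^×`, cocycle form. -/
lemma exists_units_coboundary (a : (L ≃ₐ[K] L) → Lˣ)
    (ha : ∀ σ τ, a (σ * τ) = σ • a τ * a σ) : ∃ b : Lˣ, ∀ σ, σ • b / b = a σ :=
  groupCohomology.isMulCoboundary₁_of_isMulCocycle₁_of_aut_to_units a ha

lemma div_mul_eq_of_div_eq_aux {A : Type*} [CommGroup A] (x x' B B' V V' : A)
    (h : x' / x = B' / B * (V' / V)) : x' / (B' * V') = x / (B * V) := by
  rw [div_eq_div_iff_mul_eq_mul, div_eq_iff_eq_mul.mp h]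
  calc B' / B * (V' / V) * x * (B * V) = x * (B' * V') * ((B⁻¹ * B) * (V⁻¹ * V)) := by
        simp only [div_eq_mul_inv]; ac_rfl
    _ = x * (B' * V') := by rw [inv_mul_cancel, inv_mul_cancel, one_mul, mul_one]

/-- **Invariants, surjectivity**: if `L/K` is unramified outside `S ≠ ∅` and the class of `x ∈ J_L`
in `J_L / (L^× U^S_L)` is fixed by `Gal(L/K)`, then it is the class of an idele of `K`. -/
theorem exists_map_div_mem_of_forall_smul_div_mem (hS : S.Nonempty)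
    (hin : ∀ ℓ : Nat.Primes, ℓ ∉ S → ∀ Q : Ideal (𝓞 L), Q.IsPrime → (((ℓ : ℕ) : ℕ) : 𝓞 L) ∈ Q →
      ∀ σ : L ≃ₐ[K] L, (∀ x : 𝓞 L, σ • x - x ∈ Q) → σ = 1)
    (x : FinIdele L)
    (hx : ∀ σ : L ≃ₐ[K] L, σ • x / x ∈ principalIdeles L ⊔ exUnits L S) :
    ∃ y : FinIdele K,
      x / FinIdele.map (algebraMap K L) y ∈ principalIdeles L ⊔ exUnits L S := by
  have h1 : ∀ σ : L ≃ₐ[K] L, ∃ a : Lˣ, ∃ u ∈ exUnits L S,
      σ • x / x = FinIdele.diag L a * u := by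
    intro σ
    obtain ⟨_, ⟨a, rfl⟩, u, hu, h⟩ := Subgroup.mem_sup.mp (hx σ)
    exact ⟨a, u, hu, h.symm⟩
  choose a u hu hau using h1
  have hcoc : ∀ σ τ : L ≃ₐ[K] L, (σ * τ) • x / x = σ • (τ • x / x) * (σ • x / x) := by
    intro σ τ
    rw [mul_smul, smul_div', div_mul_div_cancel]
  have h2 : ∀ σ τ : L ≃ₐ[K] L,
      a (σ * τ) = σ • a τ * a σ ∧ u (σ * τ) = σ • u τ * u σ := by
    intro σ τ
    apply eq_and_eq_of_diag_mul_eq hS (hu _)
      ((exUnits L S).mul_mem (smul_mem_exUnits σ (hu τ)) (hu σ))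
    rw [← hau, hcoc, hau τ, hau σ, smul_mul', smul_diag_units, map_mul]
    exact mul_mul_mul_comm _ _ _ _
  obtain ⟨b, hb⟩ := exists_units_coboundary a (fun σ τ => (h2 σ τ).1)
  obtain ⟨v, hv, hv'⟩ := exists_exUnits_coboundary hin u hu (fun σ τ => (h2 σ τ).2)
  have hfix : ∀ σ : L ≃ₐ[K] L,
      σ • (x / (FinIdele.diag L b * v)) = x / (FinIdele.diag L b * v) := by
    intro σ
    rw [smul_div', smul_mul', smul_diag_units]
    apply div_mul_eq_of_div_eq_aux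
    rw [hau σ, ← hb σ, ← hv' σ, map_div]
  obtain ⟨y, hy⟩ := (FinIdele.mem_range_map_iff_fixed K L).mpr hfix
  refine ⟨y, ?_⟩
  rw [hy, div_div_cancel]
  exact Subgroup.mul_mem_sup ⟨b, rfl⟩ hv

/-- **Invariants, injectivity**: `J_K / (K^× U^S_K) → J_L / (L^× U^S_L)` is injective (`S ≠ ∅`). -/
theorem mem_of_map_mem (hS : S.Nonempty) (y : FinIdele K)
    (hy : FinIdele.map (algebraMap K L) y ∈ principalIdeles L ⊔ exUnits L S) :
    y ∈ principalIdeles K ⊔ exUnits K S := by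
  obtain ⟨_, ⟨a, rfl⟩, u, hu, h⟩ := Subgroup.mem_sup.mp hy
  have hfix : ∀ σ : L ≃ₐ[K] L, σ • a = a ∧ σ • u = u := by
    intro σ
    have h1 : σ • (FinIdele.diag L a * u) = FinIdele.diag L a * u := by
      rw [h]; exact (FinIdele.mem_range_map_iff_fixed K L).mp ⟨y, rfl⟩ σ
    rw [smul_mul', smul_diag_units] at h1
    exact eq_and_eq_of_diag_mul_eq hS (smul_mem_exUnits σ hu) hu h1
  obtain ⟨k, hk⟩ : ∃ k : K, algebraMap K L k = (a : L) := by
    apply (IsGalois.mem_range_algebraMap_iff_fixed (F := K) (E := L) (a : L)).mpr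
    intro σ
    exact congrArg (fun z : Lˣ => (z : L)) (hfix σ).1
  have hk0 : k ≠ 0 := by
    rintro rfl
    rw [map_zero] at hk
    exact a.ne_zero hk.symm
  have ha' : Units.map (algebraMap K L : K →* L) (Units.mk0 k hk0) = a := Units.ext hk
  obtain ⟨u', hu'⟩ := (FinIdele.mem_range_map_iff_fixed K L).mpr (fun σ => (hfix σ).2)
  have hu'mem : u' ∈ exUnits K S := map_mem_exUnits_iff.mp (hu'.symm ▸ hu)
  have hy' : y = FinIdele.diag K (Units.mk0 k hk0) * u' := by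
    apply FinIdele.map_algebraMap_injective K L
    rw [map_mul, FinIdele.map_diag, hu', ← h, ha']
  rw [hy']
  exact Subgroup.mul_mem_sup ⟨_, rfl⟩ hu'mem

end core

end Fermat.Agent.CFT.PT4
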