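/-
CFT global part, S55 package PT8 (E-LCD), helper3: the finite levels of `𝔻 = 𝕁/(ℚ_Sˣ 𝕌^S)`.

For a level `F` (finite Galois over `ℚ`, unramified outside `S`), `V = Gal(Ω/F)`:
* `finIdeleToIdS : J_F →* 𝕁`, `sClassGroupToDS : B_F = J_F/(Fˣ U^S_F) →* 𝔻`;
* `sClassLevelMor : B_F ⟶ 𝔻^V` as a morphism of `Γ ⧸ V`-representations (along `galQuot F`);
* `sClassLevelIso`: it is an isomorphism, given the elementwise statements (ker), (surj);
* `levelClassDataDSm`: helper2's `LevelClassData` for `D = 𝔻`.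
-/
import Fermat.Agent.CFT.Global.LG_helper2_Main
import Fermat.Agent.CFT.Arith.DSm_helper7
import Fermat.Agent.CFT.PT8.SC_helper8_Main
import Fermat.Agent.CFT.Arith.Unr_lead

set_option autoImplicit false
set_option linter.unusedSectionVars false
set_option linter.style.haveILetI false

open scoped NumberField TensorProduct
open CategoryTheory groupCohomology

namespace Fermat.Agent.CFT.PT4

open Fermat.Agent.CFT.Arith Fermat.Agent.CFT.Sm Fermat.Agent.CFT.PT8 Fermat.Agent.CFT.PT6

/-- `Ω = AlgebraicClosure ℚ`. -/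
local notation "Ω" => AlgebraicClosure ℚ
/-- `Γ = Gal(Ω/ℚ)`. -/
local notation "Γ" => (AlgebraicClosure ℚ ≃ₐ[ℚ] AlgebraicClosure ℚ)

section toIdS

variable (S : Finset Nat.Primes) (F : IntermediateField ℚ Ω) [NumberField F]
  (hF : F.IsUnramifiedOutside S)

/-- `J_F → 𝕁`. -/
noncomputable def finIdeleToIdS : FinIdele F →* IdS S where
  toFun y := ⟨FinIdele.map (algebraMap F Ω) y, map_mem_IdS hF y⟩
  map_one' := Subtype.ext (map_one _)
  map_mul' x y := Subtype.ext (map_mul _ x y)

@[simp] lemma coe_finIdeleToIdS (y : FinIdele F) :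
    ((finIdeleToIdS S F hF y : IdS S) : FinIdele Ω) = FinIdele.map (algebraMap F Ω) y := rfl

lemma finIdeleToIdS_injective : Function.Injective (finIdeleToIdS S F hF) := by
  intro x y h
  exact FinIdele.map_algebraMap_injective F Ω (congrArg Subtype.val h)

/-- the elements of `𝕁` coming from `J_F` are fixed by `Gal(Ω/F)`. -/
lemma smul_finIdeleToIdS_of_mem (y : FinIdele F) (σ : Γ) (hσ : σ ∈ F.fixingSubgroup) :
    σ • finIdeleToIdS S F hF y = finIdeleToIdS S F hF y :=
  Subtype.ext ((finIdele_mem_range_map_iff_fixed F _).mp ⟨y, rfl⟩ σ hσ)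

lemma finIdeleToIdS_diag_mem_PS (a : Fˣ) :
    finIdeleToIdS S F hF (FinIdele.diag F a) ∈ PS S := by
  refine ⟨⟨Units.map (algebraMap F Ω : F →* Ω) a, le_QS hF (a : F).2⟩, ?_⟩
  apply Subtype.ext
  exact (FinIdele.map_diag (algebraMap F Ω) a).symm

lemma finIdeleToIdS_mem_US {u : FinIdele F} (hu : u ∈ exUnits F (S : Set Nat.Primes)) :
    finIdeleToIdS S F hF u ∈ US S :=
  (FinIdele.map_mem_unitsOutside_iff F Ω (S := (S : Set Nat.Primes))).mpr hu

lemma finIdeleToIdS_mem_of_mem_sClassSubgroup {y : FinIdele F}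
    (hy : y ∈ sClassSubgroup F (S : Set Nat.Primes)) :
    finIdeleToIdS S F hF y ∈ PS S ⊔ US S := by
  obtain ⟨a, u, hu, rfl⟩ := mem_sClassSubgroup_iff.mp hy
  rw [map_mul]
  exact Subgroup.mul_mem_sup (finIdeleToIdS_diag_mem_PS S F hF a) (finIdeleToIdS_mem_US S F hF hu)

/-- `B_F = J_F / (Fˣ U^S_F) → 𝔻`. -/
noncomputable def sClassGroupToDS : SClassGroup F (S : Set Nat.Primes) →* DS S :=
  QuotientGroup.lift (sClassSubgroup F (S : Set Nat.Primes))
    ((mkDS S).comp (finIdeleToIdS S F hF)) (fun y hy => by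
      rw [MonoidHom.mem_ker, MonoidHom.comp_apply, mkDS_eq_one_iff]
      exact finIdeleToIdS_mem_of_mem_sClassSubgroup S F hF hy)

@[simp] lemma sClassGroupToDS_mk (y : FinIdele F) :
    sClassGroupToDS S F hF (SClassGroup.mk y) = mkDS S (finIdeleToIdS S F hF y) := rfl

/-- the image of `B_F` in `𝔻` is fixed by `Gal(Ω/F)`. -/
lemma smul_sClassGroupToDS_of_mem (c : SClassGroup F (S : Set Nat.Primes)) (σ : Γ)
    (hσ : σ ∈ F.fixingSubgroup) : σ • sClassGroupToDS S F hF c = sClassGroupToDS S F hF c := by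
  obtain ⟨y, rfl⟩ := SClassGroup.mk_surjective c
  rw [sClassGroupToDS_mk]
  change mkDS S (σ • finIdeleToIdS S F hF y) = _
  rw [smul_finIdeleToIdS_of_mem S F hF y σ hσ]

variable [Normal ℚ F]

/-- `J_F → 𝕁` is equivariant along restriction of automorphisms. -/
lemma finIdeleToIdS_restrictNormalHom_smul (σ : Γ) (y : FinIdele F) :
    finIdeleToIdS S F hF (AlgEquiv.restrictNormalHom F σ • y) = σ • finIdeleToIdS S F hF y := by
  apply Subtype.ext
  apply RestrictedProduct.ext
  intro ℓ
  exact unitsMap_restrictNormalHom_smul (ℓ : ℕ) F σ (y ℓ)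

lemma sClassGroupToDS_restrictNormalHom_smul (σ : Γ) (c : SClassGroup F (S : Set Nat.Primes)) :
    sClassGroupToDS S F hF (AlgEquiv.restrictNormalHom F σ • c) = σ • sClassGroupToDS S F hF c := by
  obtain ⟨y, rfl⟩ := SClassGroup.mk_surjective c
  rw [SClassGroup.smul_mk, sClassGroupToDS_mk, sClassGroupToDS_mk, finIdeleToIdS_restrictNormalHom_smul]
  rfl

end toIdS


section level

variable (S : Finset Nat.Primes) (F : IntermediateField ℚ Ω) [NumberField F] [Normal ℚ F]
  [hN : (F.fixingSubgroup).Normal] (hF : F.IsUnramifiedOutside S)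

/-- `B_F → 𝔻^{Gal(Ω/F)}`, as an additive map. -/
noncomputable def sClassLevelHom :
    (sClassRep ℚ F (S : Set Nat.Primes)).V →+ (levelRep (DSm S) F.fixingSubgroup).V where
  toFun c := ⟨Additive.ofMul (sClassGroupToDS S F hF (Additive.toMul c)), fun s => by
    apply congrArg Additive.ofMul
    exact smul_sClassGroupToDS_of_mem S F hF _ s.1 s.2⟩
  map_zero' := Subtype.ext (congrArg Additive.ofMul (map_one (sClassGroupToDS S F hF)))
  map_add' x y := Subtype.ext (congrArg Additive.ofMul (map_mul (sClassGroupToDS S F hF) _ _))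

lemma sClassLevelHom_coe (c : (sClassRep ℚ F (S : Set Nat.Primes)).V) :
    ((sClassLevelHom S F hF c : (levelRep (DSm S) F.fixingSubgroup).V) : (DSm S).obj.V) =
      Additive.ofMul (sClassGroupToDS S F hF (Additive.toMul c)) := rfl

/-- equivariance of `sClassLevelHom` along `Γ → Gal(F/ℚ)`. -/
lemma sClassLevelHom_smul (σ : Γ) (c : (sClassRep ℚ F (S : Set Nat.Primes)).V) :
    sClassLevelHom S F hF
        ((sClassRep ℚ F (S : Set Nat.Primes)).ρ (AlgEquiv.restrictNormalHom F σ) c) =
      (levelRep (DSm S) F.fixingSubgroup).ρ (σ : Γ ⧸ F.fixingSubgroup)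
        (sClassLevelHom S F hF c) := by
  apply Subtype.ext
  apply congrArg Additive.ofMul
  exact sClassGroupToDS_restrictNormalHom_smul S F hF σ (Additive.toMul c)

/-- The morphism of `Γ ⧸ V`-representations `B_F ⟶ 𝔻^V` (the source restricted along
`Γ ⧸ V ≃* Gal(F/ℚ)`). -/
noncomputable def sClassLevelMor :
    Rep.res (galQuot F).toMonoidHom (sClassRep ℚ F (S : Set Nat.Primes)) ⟶
      levelRep (DSm S) F.fixingSubgroup :=
  Rep.ofHom
    { toLinearMap := (sClassLevelHom S F hF).toIntLinearMap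
      isIntertwining' := fun g => LinearMap.ext fun c => by
        induction g using QuotientGroup.induction_on with | H σ =>
        exact sClassLevelHom_smul S F hF σ c }

lemma sClassLevelMor_hom_apply (c : (sClassRep ℚ F (S : Set Nat.Primes)).V) :
    (sClassLevelMor S F hF).hom c = sClassLevelHom S F hF c := rfl

/-- injectivity of `B_F → 𝔻^V` from the elementwise statement (ker). -/
lemma sClassLevelHom_injective
    (hker : ∀ z : FinIdele F, mkDS S (finIdeleToIdS S F hF z) = 1 →
      z ∈ principalIdeles F ⊔ FinIdele.unitsOutside F (S : Set Nat.Primes)) :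
    Function.Injective (sClassLevelHom S F hF) := by
  rw [injective_iff_map_eq_zero]
  intro c hc
  obtain ⟨y, hy⟩ := SClassGroup.mk_surjective
    (Additive.toMul (α := SClassGroup F (S : Set Nat.Primes)) c)
  have h1 : sClassGroupToDS S F hF (Additive.toMul (α := SClassGroup F (S : Set Nat.Primes)) c) = 1 :=
    congrArg (fun z : (levelRep (DSm S) F.fixingSubgroup).V =>
      Additive.toMul (α := DS S) (z : (DSm S).obj.V)) hc
  rw [← hy, sClassGroupToDS_mk] at h1
  have h2 : y ∈ sClassSubgroup F (S : Set Nat.Primes) := hker y h1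
  have h3 : Additive.toMul (α := SClassGroup F (S : Set Nat.Primes)) c = 1 := by
    rw [← hy]; exact SClassGroup.mk_eq_one_iff.mpr h2
  exact congrArg Additive.ofMul h3

/-- surjectivity of `B_F → 𝔻^V` from the elementwise statement (surj). -/
lemma sClassLevelHom_surjective
    (hsurj : ∀ c : DS S, (∀ σ ∈ F.fixingSubgroup, σ • c = c) →
      ∃ z : FinIdele F, mkDS S (finIdeleToIdS S F hF z) = c) :
    Function.Surjective (sClassLevelHom S F hF) := by
  rintro ⟨a, ha⟩
  obtain ⟨z, hz⟩ := hsurj (Additive.toMul (α := DS S) a) (fun σ hσ =>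
    congrArg (Additive.toMul (α := DS S)) (ha ⟨σ, hσ⟩))
  refine ⟨Additive.ofMul (SClassGroup.mk z), ?_⟩
  apply Subtype.ext
  exact congrArg Additive.ofMul hz

/-- **(H7.2), Rep form**: `B_F ≅ 𝔻^{Gal(Ω/F)}` along `Γ ⧸ Gal(Ω/F) ≃* Gal(F/ℚ)`, from the
elementwise statements (ker) and (surj). -/
noncomputable def sClassLevelIso
    (hker : ∀ z : FinIdele F, mkDS S (finIdeleToIdS S F hF z) = 1 →
      z ∈ principalIdeles F ⊔ FinIdele.unitsOutside F (S : Set Nat.Primes))
    (hsurj : ∀ c : DS S, (∀ σ ∈ F.fixingSubgroup, σ • c = c) →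
      ∃ z : FinIdele F, mkDS S (finIdeleToIdS S F hF z) = c) :
    Rep.res (galQuot F).toMonoidHom (sClassRep ℚ F (S : Set Nat.Primes)) ≅
      levelRep (DSm S) F.fixingSubgroup :=
  Rep.mkIso
    { (sClassLevelMor S F hF).hom, Equiv.ofBijective _
        ⟨sClassLevelHom_injective S F hF hker, sClassLevelHom_surjective S F hF hsurj⟩ with }

lemma sClassLevelIso_hom
    (hker : ∀ z : FinIdele F, mkDS S (finIdeleToIdS S F hF z) = 1 →
      z ∈ principalIdeles F ⊔ FinIdele.unitsOutside F (S : Set Nat.Primes))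
    (hsurj : ∀ c : DS S, (∀ σ ∈ F.fixingSubgroup, σ • c = c) →
      ∃ z : FinIdele F, mkDS S (finIdeleToIdS S F hF z) = c) :
    (sClassLevelIso S F hF hker hsurj).hom = sClassLevelMor S F hF := rfl

end level


section lcd

variable {S : Finset Nat.Primes} (ℓ : S) (F : IntermediateField ℚ Ω) [NumberField F]
  [IsGalois ℚ F] [hN : (F.fixingSubgroup).Normal] (hF : F.IsUnramifiedOutside S)

/-- the single-idele computation: `J_{S,ℓ} → J_S → 𝕁` on `(ℚ_ℓ ⊗ F)ˣ` is `J_F → 𝕁` on the idele
concentrated at `ℓ`. -/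
lemma extJS_single_unitsMap (y : (SemiLocal ((ℓ : Nat.Primes) : ℕ) F)ˣ) :
    extJS S (JS.single S ℓ
      (⟨SemiLocal.unitsMap ((ℓ : Nat.Primes) : ℕ) (algebraMap F Ω) y, F, hF, y, rfl⟩ :
        JSl S ((ℓ : Nat.Primes) : ℕ))) =
      finIdeleToIdS S F hF (FinIdele.single (ℓ : Nat.Primes) y) := by
  apply Subtype.ext
  apply RestrictedProduct.ext
  intro ℓ'
  rw [coe_extJS, coe_finIdeleToIdS, map_single]
  by_cases h : ℓ' ∈ S
  · rw [extFun_apply_of_mem _ h]
    by_cases h' : (⟨ℓ', h⟩ : S) = ℓ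
    · subst h'
      rw [JS.single_apply_same, FinIdele.single_apply_same]
    · have hne : ℓ' ≠ (ℓ : Nat.Primes) := fun e => h' (Subtype.ext e)
      rw [JS.single_apply_of_ne h', FinIdele.single_apply_of_ne hne]
      rfl
  · have hne : ℓ' ≠ (ℓ : Nat.Primes) := fun e => h (e ▸ ℓ.2)
    rw [extFun_apply_of_not_mem _ h, FinIdele.single_apply_of_ne hne]

include hF in
/-- a level is unramified outside `S` in helper8's inertia form. -/
lemma unramifiedOutsideSet_of_isUnramifiedOutside :
    UnramifiedOutsideSet ℚ F (S : Set Nat.Primes) := fun q hq Q hQ hqQ σ hσ =>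
  inertia_eq_one_of_isUnramifiedOutside hF q (fun h => hq (Finset.mem_coe.mpr h)) Q hQ hqQ σ hσ

include hF in
/-- `H²(Gal(F/ℚ), C_F) → H²(Gal(F/ℚ), B_F)` is injective for a level `F` (`S ≠ ∅`). -/
lemma map_classToSClassHom_injective (hS : S.Nonempty) :
    Function.Injective (groupCohomology.map (MonoidHom.id (F ≃ₐ[ℚ] F))
      (A := ideleClassRep ℚ F) (B := sClassRep ℚ F (S : Set Nat.Primes))
      (classToSClassHom ℚ F (S : Set Nat.Primes)) 2).hom := by
  have hS' : (S : Set Nat.Primes).Nonempty := hS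
  have hin := unramifiedOutsideSet_of_isUnramifiedOutside F hF
  obtain ⟨h, hX⟩ := exists_shortExact_sClass ℚ F (S : Set Nat.Primes) hS'
  exact (map_g_bijective hX 2 (isZero_groupCohomology_exUnitsRep hin 1)
    (isZero_groupCohomology_exUnitsRep hin 2)).1

/-- **(E-LCD)** helper2's finite-level datum for `D = 𝔻` at the level `F`, from the elementwise
statements (ker) and (surj) of (H7.2). -/
noncomputable def levelClassDataDSm (hS : S.Nonempty)
    (hker : ∀ z : FinIdele F, mkDS S (finIdeleToIdS S F hF z) = 1 →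
      z ∈ principalIdeles F ⊔ FinIdele.unitsOutside F (S : Set Nat.Primes))
    (hsurj : ∀ c : DS S, (∀ σ ∈ F.fixingSubgroup, σ • c = c) →
      ∃ z : FinIdele F, mkDS S (finIdeleToIdS S F hF z) = c) :
    LevelClassData S (ℓ : Nat.Primes) (inclJSlSm S ℓ ≫ piSm S) F hF :=
  LevelClassData.ofIso (classToSClassHom ℚ F (S : Set Nat.Primes))
    (map_classToSClassHom_injective F hF hS) (sClassLevelIso S F hF hker hsurj) (by
      apply Rep.hom_ext
      apply Representation.IntertwiningMap.ext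
      apply LinearMap.ext
      intro y
      apply Subtype.ext
      change Additive.ofMul (mkDS S (extJS S (JS.single S ℓ
        (⟨SemiLocal.unitsMap ((ℓ : Nat.Primes) : ℕ) (algebraMap F Ω) (Additive.toMul y), F, hF,
          Additive.toMul y, rfl⟩ : JSl S ((ℓ : Nat.Primes) : ℕ))))) =
        Additive.ofMul (mkDS S (finIdeleToIdS S F hF
          (FinIdele.single (ℓ : Nat.Primes) (Additive.toMul y))))
      rw [extJS_single_unitsMap])

end lcd

end Fermat.Agent.CFT.PT4
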