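/-
CFT global part, S55 package PT8 (E-LCD), helper3: unconditional forms.
* `sClassLevelIso'`: `B_F ≅ 𝔻^{Gal(Ω/F)}` as `Γ ⧸ Gal(Ω/F)`-representations, for every level `F`
  (from helper7's (ker)/(surj) and helper8's `unitsCocyclesSplit`);
* `nonempty_levelClassData_DSm`: helper2's `LevelClassData` for `D = 𝔻`, in the literal shape of
  the hypothesis `hD` of helper6's `lg_of_levelClassData`.
-/
import Fermat.Agent.CFT.Global.PT4i_helper3_LevelD
import Fermat.Agent.CFT.Arith.DSInv_helper7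
import Fermat.Agent.CFT.PT8.UnitsSplit_helper8

set_option autoImplicit false
set_option linter.unusedSectionVars false
set_option linter.style.haveILetI false

open scoped NumberField TensorProduct
open CategoryTheory groupCohomology

namespace Fermat.Agent.CFT.PT4

open Fermat.Agent.CFT.Arith Fermat.Agent.CFT.Sm Fermat.Agent.CFT.PT8 Fermat.Agent.CFT.PT6

/-- `Ω = AlgebraicClosure ℚ`. -/
local notation "Ω" => AlgebraicClosure ℚ
/-- `Γ = Gal(Ω/ℚ)`. -/
local notation "Γ" => (AlgebraicClosure ℚ ≃ₐ[ℚ] AlgebraicClosure ℚ)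

section final

variable {S : Finset Nat.Primes} (F : IntermediateField ℚ Ω) [NumberField F]
  [IsGalois ℚ F] [hN : (F.fixingSubgroup).Normal] (hF : F.IsUnramifiedOutside S)

include hF in
/-- (ker) for the level `F` (helper7). -/
lemma mem_of_mkDS_finIdeleToIdS_eq_one (hS : S.Nonempty) (z : FinIdele F)
    (hz : mkDS S (finIdeleToIdS S F hF z) = 1) :
    z ∈ principalIdeles F ⊔ FinIdele.unitsOutside F (S : Set Nat.Primes) :=
  (mkDS_mapIdS_eq_one_iff hS hF z).mp hz

include hF in
/-- (surj) for the level `F` (helper7 + helper8). -/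
lemma exists_mkDS_finIdeleToIdS_eq (hS : S.Nonempty) (c : DS S)
    (hc : ∀ σ ∈ F.fixingSubgroup, σ • c = c) :
    ∃ z : FinIdele F, mkDS S (finIdeleToIdS S F hF z) = c :=
  exists_mkDS_mapIdS_eq hS (unitsCocyclesSplit (S : Set Nat.Primes)) hF c hc

/-- **(H7.2), Rep form, unconditional**: `B_F ≅ 𝔻^{Gal(Ω/F)}` along
`Γ ⧸ Gal(Ω/F) ≃* Gal(F/ℚ)`. -/
noncomputable def sClassLevelIso' (hS : S.Nonempty) :
    Rep.res (galQuot F).toMonoidHom (sClassRep ℚ F (S : Set Nat.Primes)) ≅
      levelRep (DSm S) F.fixingSubgroup :=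
  sClassLevelIso S F hF (mem_of_mkDS_finIdeleToIdS_eq_one F hF hS)
    (exists_mkDS_finIdeleToIdS_eq F hF hS)

lemma sClassLevelIso'_hom (hS : S.Nonempty) :
    (sClassLevelIso' F hF hS).hom = sClassLevelMor S F hF := rfl

end final

/-- **(E-LCD), unconditional**: every level `F` carries helper2's finite-level datum for
`D = 𝔻`, `j = (J_{S,v} → J_S → 𝔻)`. -/
theorem nonempty_levelClassData_DSm {S : Finset Nat.Primes} (hS : S.Nonempty) (v : S)
    (F : IntermediateField ℚ Ω) [NumberField F] [IsGalois ℚ F] [(F.fixingSubgroup).Normal]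
    (hF : IsLevel S F) :
    Nonempty (LevelClassData S (v : Nat.Primes) (inclJSlSm S v ≫ piSm S) F hF.1) :=
  ⟨levelClassDataDSm v F hF.1 hS (mem_of_mkDS_finIdeleToIdS_eq_one F hF.1 hS)
    (exists_mkDS_finIdeleToIdS_eq F hF.1 hS)⟩

end Fermat.Agent.CFT.PT4
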