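/-
S55 / CFT (PT4k) — helper3.
Closes helper8's single hypothesis `PT8.LevelIsoHyp S` of the (P6) assembly with the
identification (H7.2) `sClassLevelIso'`, and records the resulting UNCONDITIONAL global
`p`-class formation on `DSm S` (input (A) of the final chain).
-/
import Fermat.Agent.CFT.PT8.Assembly_helper8
import Fermat.Agent.CFT.Global.PT4j_helper3_LCD

set_option autoImplicit false

open scoped NumberField
open CategoryTheory groupCohomology

namespace Fermat.Agent.CFT.PT4

open Fermat.Agent.CFT Fermat.Agent.CFT.Arith Fermat.Agent.CFT.Sm Fermat.Agent.CFT.Coh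

/-- `Ω = AlgebraicClosure ℚ`. -/
local notation "Ω" => AlgebraicClosure ℚ

variable {S : Finset Nat.Primes}

/-- **(H7.2)**: helper8's hypothesis `LevelIsoHyp S` holds (for nonempty `S`). -/
theorem levelIsoHyp (hS : S.Nonempty) : PT8.LevelIsoHyp S := by
  intro F hF _ _ _
  have : IsGalois ℚ ↥F := hF.isGalois
  exact ⟨sClassLevelIso' F hF.1 hS⟩

variable {p : ℕ} [hp : Fact p.Prime]

/-- **Input (A), unconditional**: the global `p`-class formation on `DSm S`. -/
noncomputable def dsmFormationU (hp2 : p ≠ 2) (hpS : (⟨p, hp.out⟩ : Nat.Primes) ∈ S) :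
    PClassFormation (levelBasis S) p (DSm S) :=
  PT8.dsmFormation hp2 hpS (levelIsoHyp ⟨_, hpS⟩)

/-- **Input (A), unconditional**: the formation on `DSm S` is global below
`Gal(Ω/ℚ(ζ_p))`. -/
theorem dsmFormationU_isGlobalBelow (hp2 : p ≠ 2) (hpS : (⟨p, hp.out⟩ : Nat.Primes) ∈ S) :
    (dsmFormationU hp2 hpS).IsGlobalBelow (PT8.zetaSubgroup p) :=
  PT8.dsmFormation_isGlobalBelow hp2 hpS (levelIsoHyp ⟨_, hpS⟩)

end Fermat.Agent.CFT.PT4
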