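import Fermat.Agent.CFT.Global.UnitsAcyclic_lead

/-!
# CFT: semi-local Hilbert 90 (lead)

For a finite Galois extension `L/K` of number fields and any rational prime `ℓ`:
`H¹(Gal(L/K), (ℚ_ℓ ⊗ L)ˣ) = 0`.
-/

set_option autoImplicit false
set_option linter.unusedSectionVars false
set_option linter.style.haveILetI false

open scoped TensorProduct NumberField
open CategoryTheory groupCohomology

namespace Fermat.Agent.CFT

open Coh
open scoped SemiLocalRel

section H90

variable {ℓ : ℕ} [Fact ℓ.Prime] {K L : Type} [Field K] [NumberField K] [Field L] [NumberField L]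
  [Algebra K L] [FiniteDimensional K L] [IsGalois K L]

/-- the decomposition group of `W` acts on the units of `L_W` through `Gal(L_W/K_w)`. -/
noncomputable abbrev decompUnitsAction (W : Place ℓ L) :
    MulDistribMulAction (MulAction.stabilizer (L ≃ₐ[K] L) W) W.Completionˣ :=
  MulDistribMulAction.compHom _ (Place.decompHom (K := K) W)

/-- LOCAL Hilbert 90 for the decomposition group. -/
theorem isZero_H1_decomp_units (W : Place ℓ L) :
    letI := decompUnitsAction (K := K) W
    Limits.IsZero (groupCohomology (Rep.ofMulDistribMulAction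
      (MulAction.stabilizer (L ≃ₐ[K] L) W) W.Completionˣ) 1) := by
  letI := decompUnitsAction (K := K) W
  suffices h : ∀ a : H1 (Rep.ofMulDistribMulAction
      (MulAction.stabilizer (L ≃ₐ[K] L) W) W.Completionˣ), a = 0 by
    have : Subsingleton (H1 (Rep.ofMulDistribMulAction
        (MulAction.stabilizer (L ≃ₐ[K] L) W) W.Completionˣ)) := ⟨fun x y => by rw [h x, h y]⟩
    exact ModuleCat.isZero_of_subsingleton _
  intro a
  refine H1_induction_on a fun x => (H1π_eq_zero_iff _).2 ?_
  have hcoc := isMulCocycle₁_of_mem_cocycles₁ _ x.2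
  -- transport the cocycle to `Gal(L_W/K_w)`
  let e := Place.decompEquiv (K := K) W
  let f' : (W.Completion ≃ₐ[(W.under (K := K)).Completion] W.Completion) → W.Completionˣ :=
    fun τ => Additive.toMul (α := W.Completionˣ) (x.1 (e.symm τ))
  have hf' : IsMulCocycle₁ f' := by
    intro τ τ'
    have h1 := hcoc (e.symm τ) (e.symm τ')
    change Additive.toMul (α := W.Completionˣ) (x.1 (e.symm (τ * τ'))) = τ • Additive.toMul (α := W.Completionˣ) (x.1 (e.symm τ')) *
      Additive.toMul (α := W.Completionˣ) (x.1 (e.symm τ))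
    rw [map_mul]
    have h2 : (e.symm τ) • Additive.toMul (α := W.Completionˣ) (x.1 (e.symm τ')) =
        τ • Additive.toMul (α := W.Completionˣ) (x.1 (e.symm τ')) := by
      change Place.decompHom (K := K) W (e.symm τ) •
        Additive.toMul (α := W.Completionˣ) (x.1 (e.symm τ')) = _
      rw [← Place.decompEquiv_apply, MulEquiv.apply_symm_apply]
    rw [← h2]
    exact h1
  obtain ⟨β, hβ⟩ := isMulCoboundary₁_of_isMulCocycle₁_of_aut_to_units f' hf'
  refine (coboundariesOfIsMulCoboundary₁ (f := (Additive.toMul (α := W.Completionˣ)) ∘ x.1) ⟨β, fun d => ?_⟩).2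
  have h3 := hβ (e d)
  change Place.decompHom (K := K) W d • β / β = Additive.toMul (α := W.Completionˣ) (x.1 d)
  rw [← Place.decompEquiv_apply, h3]
  change Additive.toMul (α := W.Completionˣ) (x.1 (e.symm (e d))) = _
  rw [MulEquiv.symm_apply_apply]

/-- projection of a block onto the units of one completion. -/
noncomputable def blockToUnits (W : Place ℓ L) :
    SemiLocal.blockUnits (L := L) (W.under (K := K)) →* W.Completionˣ :=
  W.unitsProj.comp (Subgroup.subtype _)

/-- inclusion of the units of one completion into the block. -/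
noncomputable def unitsToBlock (W : Place ℓ L) :
    W.Completionˣ →* SemiLocal.blockUnits (L := L) (W.under (K := K)) where
  toFun z := ⟨Place.singleOf W z,
    SemiLocal.supportedAt_le_blockUnits W (Place.singleOf_mem_supportedAt W _)⟩
  map_one' := Subtype.ext (map_one (Place.singleOf W))
  map_mul' _ _ := Subtype.ext (map_mul (Place.singleOf W) _ _)

/-- BLOCK: `H¹` of a block of `(ℚ_ℓ ⊗ L)ˣ` vanishes. -/
theorem isZero_H1_blockUnits (W : Place ℓ L) :
    Limits.IsZero (groupCohomology (Rep.ofMulDistribMulAction (L ≃ₐ[K] L)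
      (SemiLocal.blockUnits (L := L) (W.under (K := K)))) 1) := by
  letI := decompUnitsAction (K := K) W
  refine isZero_groupCohomology_of_mulComponents (MulAction.stabilizer (L ≃ₐ[K] L) W)
    (blockToUnits W) (unitsToBlock W) ?_ ?_ ?_ ?_ 1 (isZero_H1_decomp_units W)
  · intro d m
    exact Units.ext rfl
  · intro z
    exact Place.unitsProj_singleOf_self W _
  · intro g z hg
    change W.unitsProj (g • Place.singleOf W z) = 1
    have h1 : g • Place.singleOf W z ∈ Place.supportedAt (g • W) :=
      (Place.smul_mem_supportedAt_iff g W _).2 (Place.singleOf_mem_supportedAt W _)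
    apply h1 W
    intro h2
    exact hg (MulAction.mem_stabilizer_iff.2 h2.symm)
  · intro m hm
    apply Subtype.ext
    apply SemiLocal.units_ext_proj
    intro W'
    rw [Subgroup.coe_one, map_one]
    by_cases h : W'.under (K := K) = W.under
    · obtain ⟨σ, hσ⟩ := Place.exists_smul_eq_of_under_eq h
      exact (Place.unitsProj_smul_eq_one_iff σ hσ _).1 (hm σ)
    · exact m.2 W' h

/-- projection of `(ℚ_ℓ ⊗ L)ˣ` onto a block, as a morphism of representations. -/
noncomputable def unitsToBlockRep (w : Place ℓ K) :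
    Rep.ofMulDistribMulAction (L ≃ₐ[K] L) (SemiLocal ℓ L)ˣ ⟶
      Rep.ofMulDistribMulAction (L ≃ₐ[K] L) (SemiLocal.blockUnits (L := L) w) :=
  Rep.ofHom
    { toLinearMap := (MonoidHom.toAdditive
        ((Pi.evalMonoidHom _ w).comp
          (SemiLocal.blockEquiv (K := K) (L := L) (ℓ := ℓ)).toMonoidHom)).toIntLinearMap
      isIntertwining' := fun σ => LinearMap.ext fun v =>
        congrArg Additive.ofMul (SemiLocal.blockEquiv_smul σ (Additive.toMul v) w) }

/-- inclusion of a block into `(ℚ_ℓ ⊗ L)ˣ`, as a morphism of representations. -/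
noncomputable def blockToUnitsRep (w : Place ℓ K) :
    Rep.ofMulDistribMulAction (L ≃ₐ[K] L) (SemiLocal.blockUnits (L := L) w) ⟶
      Rep.ofMulDistribMulAction (L ≃ₐ[K] L) (SemiLocal ℓ L)ˣ :=
  Rep.ofHom
    { toLinearMap := (MonoidHom.toAdditive
        (Subgroup.subtype (SemiLocal.blockUnits (L := L) w))).toIntLinearMap
      isIntertwining' := fun _ => LinearMap.ext fun _ => rfl }

/-- **Semi-local Hilbert 90**: `H¹(Gal(L/K), (ℚ_ℓ ⊗ L)ˣ) = 0` for every finite Galois extension
`L/K` of number fields and every rational prime `ℓ`. -/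
theorem isZero_H1_semiLocalUnits :
    Limits.IsZero (groupCohomology (Rep.ofMulDistribMulAction (L ≃ₐ[K] L) (SemiLocal ℓ L)ˣ) 1) := by
  classical
  letI : Fintype (Place ℓ K) := Fintype.ofFinite _
  refine Coh.isZero_groupCohomology_of_sum_comp_eq_id _
    (fun w : Place ℓ K => Rep.ofMulDistribMulAction (L ≃ₐ[K] L)
      (SemiLocal.blockUnits (L := L) w))
    (fun w => unitsToBlockRep w) (fun w => blockToUnitsRep w) ?_ 1 ?_
  · apply Rep.hom_ext
    rw [Rep.sum_hom]
    apply Representation.IntertwiningMap.ext
    rw [Representation.IntertwiningMap.toLinearMap_sum]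
    apply LinearMap.ext
    intro v
    rw [LinearMap.sum_apply]
    let u : (SemiLocal ℓ L)ˣ := Additive.toMul (α := (SemiLocal ℓ L)ˣ) v
    change (∑ w : Place ℓ K, Additive.ofMul
        ((SemiLocal.blockEquiv (K := K) u w : SemiLocal.blockUnits (L := L) w) :
          (SemiLocal ℓ L)ˣ)) = Additive.ofMul u
    rw [← ofMul_prod]
    congr 1
    exact SemiLocal.prod_blockPart (K := K) u
  · intro w
    obtain ⟨W, rfl⟩ := Place.under_surjective (K := K) (L := L) w
    exact isZero_H1_blockUnits W

end H90

end Fermat.Agent.CFT
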