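import Mathlib

/-!
# CFT (G3): abstract group theory for the second inequality

* `exists_finset_iInf_eq`: greedy choice of finitely many "hyperplanes" (subgroups of index `p`)
  cutting out the intersection of a family of subgroups of index `1` or `p`;
* `index_eq_one_or_eq_of_pow_mem`, `exists_forall_div_mem` (simultaneous approximation by
  counting), `exists_finset_approx` (the combination);
* `relIndex_le_of_forall_exists_zpow`: `[⟨a⟩ N : N] ≤ p` if `a ^ p ∈ N`.
-/

set_option autoImplicit false
set_option linter.unusedSectionVars false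

namespace Fermat.Agent.CFT.T2

section Greedy

variable {Γ : Type*} [CommGroup Γ] {I : Type*} [DecidableEq I] (H : I → Subgroup Γ) (p : ℕ)
  [hp : Fact p.Prime]

/-- Greedy choice of finitely many hyperplanes cutting out the total intersection. -/
theorem exists_finset_iInf_eq (hH : ∀ w, (H w).index = 1 ∨ (H w).index = p)
    (hfin : (⨅ w, H w).index ≠ 0) :
    ∃ T : Finset I, (⨅ w ∈ T, H w) = ⨅ w, H w ∧ (⨅ w, H w).index = p ^ T.card ∧
      ∀ w ∈ T, (H w).index = p := by
  set Z := ⨅ w, H w with hZ
  have key : ∀ m : ℕ, ∀ T : Finset I, (⨅ w ∈ T, H w).index = p ^ T.card →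
      (∀ w ∈ T, (H w).index = p) → Z.relIndex (⨅ w ∈ T, H w) = m →
      ∃ T' : Finset I, (⨅ w ∈ T', H w) = Z ∧ Z.index = p ^ T'.card ∧
        ∀ w ∈ T', (H w).index = p := by
    intro m
    induction m using Nat.strong_induction_on with
    | _ m ih =>
      intro T hT hTp hm
      have hZle : Z ≤ ⨅ w ∈ T, H w := le_iInf₂ fun w _ => iInf_le H w
      by_cases hB : (⨅ w ∈ T, H w) ≤ Z
      · have heq : (⨅ w ∈ T, H w) = Z := le_antisymm hB hZle
        exact ⟨T, heq, by rw [← heq, hT], hTp⟩
      · -- pick b ∈ B \ Z and w with b ∉ H w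
        obtain ⟨b, hbB, hbZ⟩ := SetLike.not_le_iff_exists.mp hB
        rw [hZ, Subgroup.mem_iInf, not_forall] at hbZ
        obtain ⟨w, hw⟩ := hbZ
        have hwT : w ∉ T := by
          intro hwT
          apply hw
          have := (Subgroup.mem_iInf.mp hbB) w
          exact (Subgroup.mem_iInf.mp this) hwT
        have hwp : (H w).index = p := by
          rcases hH w with h | h
          · rw [Subgroup.index_eq_one] at h
            exact absurd (h ▸ Subgroup.mem_top b) hw
          · exact h
        set B := ⨅ w ∈ T, H w with hBdef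
        have hB' : (⨅ v ∈ insert w T, H v) = H w ⊓ B := by
          rw [Finset.iInf_insert]
        have hrel : (H w ⊓ B).relIndex B = p := by
          rw [Subgroup.inf_relIndex_right]
          have h1 : (H w).relIndex B ∣ (H w).index := Subgroup.relIndex_dvd_index_of_normal _ _
          rw [hwp] at h1
          rcases (Nat.dvd_prime hp.out).mp h1 with h | h
          · rw [Subgroup.relIndex_eq_one] at h
            exact absurd (h hbB) hw
          · exact h
        have hidx : (H w ⊓ B).index = p ^ (insert w T).card := by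
          rw [← Subgroup.relIndex_mul_index (inf_le_right : H w ⊓ B ≤ B), hrel, hT,
            Finset.card_insert_of_notMem hwT, pow_succ']
        have hZle' : Z ≤ H w ⊓ B := le_inf (iInf_le H w) hZle
        have hmul : Z.relIndex (H w ⊓ B) * (H w ⊓ B).relIndex B = Z.relIndex B :=
          Subgroup.relIndex_mul_relIndex _ _ _ hZle' inf_le_right
        rw [hrel, hm] at hmul
        have hm0 : m ≠ 0 := by
          rw [← hm]
          intro h0
          have := Subgroup.relIndex_mul_index hZle
          rw [h0, zero_mul] at this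
          exact hfin this.symm
        have hlt : Z.relIndex (H w ⊓ B) < m := by
          have hpos : 0 < Z.relIndex (H w ⊓ B) := by
            rcases Nat.eq_zero_or_pos (Z.relIndex (H w ⊓ B)) with h | h
            · rw [h, zero_mul] at hmul; exact absurd hmul.symm hm0
            · exact h
          calc Z.relIndex (H w ⊓ B) < Z.relIndex (H w ⊓ B) * p :=
                lt_mul_of_one_lt_right hpos hp.out.one_lt
            _ = m := hmul
        refine ih _ hlt (insert w T) (by rw [hB']; exact hidx) ?_ (by rw [hB'])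
        intro v hv
        rcases Finset.mem_insert.mp hv with rfl | hv
        · exact hwp
        · exact hTp v hv
  exact key _ ∅ (by simp) (by simp) rfl

end Greedy

section Abstract

variable {p : ℕ} [hp : Fact p.Prime]

/-- a subgroup of index `≤ p` containing all `p`-th powers has index `1` or `p`. -/
theorem index_eq_one_or_eq_of_pow_mem {G : Type*} [CommGroup G] (H : Subgroup G)
    (hpow : ∀ x : G, x ^ p ∈ H) (hle : H.index ≤ p) (h0 : H.index ≠ 0) :
    H.index = 1 ∨ H.index = p := by
  have : H.FiniteIndex := ⟨h0⟩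
  have hpg : IsPGroup p (G ⧸ H) := by
    intro x
    obtain ⟨y, rfl⟩ := QuotientGroup.mk_surjective x
    refine ⟨1, ?_⟩
    rw [pow_one, ← QuotientGroup.mk_pow, QuotientGroup.eq_one_iff]
    exact hpow y
  rcases hpg.card_eq_or_dvd with h | h
  · left
    rw [Subgroup.index_eq_card]
    exact h
  · right
    rw [← Subgroup.index_eq_card] at h
    exact le_antisymm hle (Nat.le_of_dvd (Nat.pos_of_ne_zero h0) h)

/-- simultaneous approximation: if the kernel of `Γ → ∏ U_t/P_t` has index `p ^ #ι` and every
`U_t/P_t` has order at most `p`, then `Γ → ∏ U_t/P_t` is surjective. -/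
theorem exists_forall_div_mem {Γ : Type*} [CommGroup Γ] {ι : Type*} [Fintype ι]
    {U : ι → Type*} [∀ t, CommGroup (U t)] (P : ∀ t, Subgroup (U t)) (g : ∀ t, Γ →* U t)
    (hP : ∀ t, (P t).index ≤ p ∧ (P t).index ≠ 0)
    (hidx : (⨅ t, (P t).comap (g t)).index = p ^ Fintype.card ι) (u : ∀ t, U t) :
    ∃ b : Γ, ∀ t, u t / g t b ∈ P t := by
  classical
  have : ∀ t, (P t).FiniteIndex := fun t => ⟨(hP t).2⟩
  let F : Γ →* ∀ t, U t ⧸ P t := MonoidHom.pi fun t => (QuotientGroup.mk' (P t)).comp (g t)
  have hker : F.ker = ⨅ t, (P t).comap (g t) := by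
    ext x
    rw [MonoidHom.mem_ker, Subgroup.mem_iInf]
    constructor
    · intro h t
      have := congrFun h t
      change QuotientGroup.mk' (P t) (g t x) = 1 at this
      rwa [QuotientGroup.mk'_apply, QuotientGroup.eq_one_iff] at this
    · intro h
      funext t
      change QuotientGroup.mk' (P t) (g t x) = 1
      rw [QuotientGroup.mk'_apply, QuotientGroup.eq_one_iff]
      exact h t
  have h1 : Nat.card F.range = p ^ Fintype.card ι := by
    rw [← Subgroup.index_ker, hker, hidx]
  have h2 : Nat.card (∀ t, U t ⧸ P t) ≤ p ^ Fintype.card ι := by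
    rw [Nat.card_pi]
    calc ∏ t, Nat.card (U t ⧸ P t) ≤ ∏ _t : ι, p := by
          apply Finset.prod_le_prod'
          intro t _
          rw [← Subgroup.index_eq_card]
          exact (hP t).1
      _ = p ^ Fintype.card ι := by rw [Finset.prod_const, Finset.card_univ]
  have h3 : F.range = ⊤ := by
    apply Subgroup.eq_top_of_le_card
    rw [h1]
    exact h2
  have h4 : Function.Surjective F := MonoidHom.range_eq_top.mp h3
  obtain ⟨b, hb⟩ := h4 fun t => QuotientGroup.mk (u t)
  refine ⟨b, fun t => ?_⟩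
  have := congrFun hb t
  change QuotientGroup.mk' (P t) (g t b) = QuotientGroup.mk (u t) at this
  rw [QuotientGroup.mk'_apply, QuotientGroup.eq] at this
  rwa [← div_eq_inv_mul] at this

/-- **Greedy choice + simultaneous approximation**: for a family of homomorphisms
`g i : Γ → U i` and subgroups `P i ≤ U i` of index `≤ p` containing the `p`-th powers, such that
`⋂ g i ⁻¹ (P i)` has finite index, there is a finite set `T` of indices with
`[Γ : ⋂ g i ⁻¹ (P i)] = p ^ #T` and `Γ → ∏_{t ∈ T} U t / P t` surjective. -/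
theorem exists_finset_approx {Γ : Type*} [CommGroup Γ] {I : Type*} {U : I → Type*}
    [∀ i, CommGroup (U i)] (P : ∀ i, Subgroup (U i)) (g : ∀ i, Γ →* U i)
    (hP : ∀ i, (P i).index ≤ p ∧ (P i).index ≠ 0) (hpow : ∀ i (u : U i), u ^ p ∈ P i)
    (hfin : (⨅ i, (P i).comap (g i)).index ≠ 0) :
    ∃ T : Finset I, (⨅ i, (P i).comap (g i)).index = p ^ T.card ∧
      ∀ u : ∀ i, U i, ∃ b : Γ, ∀ t ∈ T, u t / g t b ∈ P t := by
  classical
  have hH : ∀ i, ((P i).comap (g i)).index = 1 ∨ ((P i).comap (g i)).index = p := by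
    intro i
    have h1 : ((P i).comap (g i)).index ∣ (P i).index := by
      rw [Subgroup.index_comap]
      exact Subgroup.relIndex_dvd_index_of_normal _ _
    rcases index_eq_one_or_eq_of_pow_mem (P i) (hpow i) (hP i).1 (hP i).2 with h | h
    · left
      rw [h] at h1
      exact Nat.dvd_one.mp h1
    · rw [h] at h1
      exact (Nat.dvd_prime hp.out).mp h1
  obtain ⟨T, hT1, hT2, -⟩ := exists_finset_iInf_eq (fun i => (P i).comap (g i)) p hH hfin
  refine ⟨T, hT2, fun u => ?_⟩
  have hidx : (⨅ t : T, (P t.1).comap (g t.1)).index = p ^ Fintype.card T := by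
    rw [Fintype.card_coe, ← hT2, ← hT1]
    congr 1
    exact (iInf_subtype' (p := fun i => i ∈ T) (f := fun i _ => (P i).comap (g i))).symm
  obtain ⟨b, hb⟩ := exists_forall_div_mem (p := p) (fun t : T => P t.1) (fun t : T => g t.1)
    (fun t => hP t.1) hidx (fun t => u t.1)
  exact ⟨b, fun t ht => hb ⟨t, ht⟩⟩

theorem relIndex_le_of_forall_exists_zpow {G : Type*} [CommGroup G] (N H : Subgroup G) (a : G)
    (ha : a ∈ H) (hap : a ^ p ∈ N) (hH : ∀ h ∈ H, ∃ k : ℤ, h / a ^ k ∈ N) :
    N.relIndex H ≤ p := by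
  have hp0 : p ≠ 0 := hp.out.ne_zero
  have : NeZero p := ⟨hp0⟩
  let f : Fin p → H ⧸ N.subgroupOf H := fun k => QuotientGroup.mk ((⟨a, ha⟩ : H) ^ (k : ℕ))
  have hf : Function.Surjective f := by
    intro x
    obtain ⟨h, rfl⟩ := QuotientGroup.mk_surjective x
    obtain ⟨k, hk⟩ := hH h.1 h.2
    have hr0 : 0 ≤ k % (p : ℤ) := Int.emod_nonneg k (by exact_mod_cast hp0)
    have hrlt : k % (p : ℤ) < p := Int.emod_lt_of_pos k (by exact_mod_cast Nat.pos_of_ne_zero hp0)
    obtain ⟨r, hr⟩ := Int.eq_ofNat_of_zero_le hr0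
    have hrp : r < p := by
      rw [hr] at hrlt
      exact_mod_cast hrlt
    refine ⟨⟨r, hrp⟩, ?_⟩
    change QuotientGroup.mk ((⟨a, ha⟩ : H) ^ r) = QuotientGroup.mk h
    rw [QuotientGroup.eq, Subgroup.mem_subgroupOf]
    have hk' : k = (p : ℤ) * (k / p) + r := by
      rw [← hr]
      exact (Int.mul_ediv_add_emod k p).symm
    have h1 : a ^ k = (a ^ p) ^ (k / (p : ℤ)) * a ^ r := by
      conv_lhs => rw [hk']
      rw [zpow_add, zpow_mul, zpow_natCast, zpow_natCast]
    have h2 : (((⟨a, ha⟩ : H) ^ r)⁻¹ * h : H) = (h.1 / a ^ k) * (a ^ p) ^ (k / (p : ℤ)) := by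
      rw [h1]
      push_cast
      rw [div_eq_mul_inv, mul_inv]
      rw [mul_comm ((a ^ p) ^ (k / (p : ℤ)))⁻¹, mul_assoc, mul_assoc, inv_mul_cancel, mul_one,
        mul_comm]
    rw [h2]
    exact N.mul_mem hk (N.zpow_mem hap _)
  have h3 : Nat.card (H ⧸ N.subgroupOf H) ≤ Nat.card (Fin p) :=
    Nat.card_le_card_of_surjective f hf
  rw [Nat.card_fin] at h3
  rwa [Subgroup.relIndex, Subgroup.index_eq_card]

end Abstract

end Fermat.Agent.CFT.T2
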