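import Mathlib
import Fermat.Agent.CFT.Global.T2_helper1_Places
import Fermat.Agent.CFT.Global.T2_helper1_Greedy
import Fermat.Agent.CFT.Global.T2_helper1_Kummer

/-!
# CFT (G3): choice of the auxiliary places `T` for the second inequality

* `exists_eq_pow_mul_pow_of_forall_local` (spanning claim): an `S`-unit which is a local `p`-th
  power wherever `a` is lies in `⟨a⟩ K^{×p}` (uses `ExistsNonNorm p` for `L(x^{1/p})/L`);
* `exists_finset_places`: finite set `T` of places outside `S` at which `a` is a `p`-th power, with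
  `d ≤ #T + 1` (`[K_S : K_S^p] = p^d`) and `K_S → ∏_T U_t/U_t^p` surjective.
-/

set_option autoImplicit false
set_option linter.unusedSectionVars false

open scoped TensorProduct NumberField RestrictedProduct IntermediateField

namespace Fermat.Agent.CFT.T2

open scoped SemiLocalRel
open scoped Fermat.Agent.CFT.Local.PadicBridge
open Fermat.Agent.CFT Fermat.Agent.CFT.Local Fermat.Agent.CFT.Place Fermat.Agent.CFT.GlobalKummer

section ChooseT

variable {K : Type} [Field K] [NumberField K] {p : ℕ} [hp : Fact p.Prime]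

/-- **Choice of the auxiliary places `T`** (abstract form, with the spanning claim as a
hypothesis). -/
theorem exists_finset_places (S : Set Nat.Primes) (hpS : (⟨p, hp.out⟩ : Nat.Primes) ∈ S)
    (a : sUnits K S) (d : ℕ)
    (hidx : (powMonoidHom p : sUnits K S →* _).range.index = p ^ d)
    (hspan : ∀ x : sUnits K S,
      (∀ (ℓ : Nat.Primes) (w : Place (ℓ : ℕ) K), ℓ ∉ S →
        (∃ e : w.Completion, e ^ p = w.embed ((a : Kˣ) : K)) →
        ∃ e' : w.Completion, e' ^ p = w.embed ((x : Kˣ) : K)) →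
      ∃ (k : ℤ) (c : Kˣ), (x : Kˣ) = (a : Kˣ) ^ k * c ^ p) :
    ∃ T : Finset (FinPlace K),
      (∀ t ∈ T, t.1 ∉ S ∧ ∃ e : t.2.Completion, e ^ p = t.2.embed ((a : Kˣ) : K)) ∧
      d ≤ T.card + 1 ∧
      ∀ x ∈ sIdeles K S, ∃ b ∈ sUnits K S,
        ∀ t ∈ T, ∃ z : t.2.Completionˣ, z ^ p = t.2.unitsProj ((x / FinIdele.diag K b) t.1) := by
  classical
  let I := {i : FinPlace K // i.1 ∉ S ∧ ∃ e : i.2.Completion, e ^ p = i.2.embed ((a : Kˣ) : K)}
  have hmemS : ∀ i : I, i.1.1 ∉ S := fun i => i.2.1
  have hne : ∀ i : I, ((i.1.1 : Nat.Primes) : ℕ) ≠ p := by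
    intro i h
    apply i.2.1
    have : i.1.1 = ⟨p, hp.out⟩ := Subtype.ext h
    rw [this]
    exact hpS
  let g : ∀ i : I, (sUnits K S) →* i.1.2.integerUnits := fun i =>
    sUnitsToLocal S i.1.1 i.1.2 (hmemS i)
  let P : ∀ i : I, Subgroup i.1.2.integerUnits := fun i => powUnits p i.1.2
  set N : Subgroup (sUnits K S) := (powMonoidHom p : (sUnits K S) →* (sUnits K S)).range with hN
  have hNle : N ≤ ⨅ i, (P i).comap (g i) := by
    rintro _ ⟨y, rfl⟩
    rw [Subgroup.mem_iInf]
    intro i
    rw [Subgroup.mem_comap]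
    change g i (y ^ p) ∈ _
    rw [map_pow]
    exact pow_mem_powUnits p _ _
  have hp1 : 1 < p := hp.out.one_lt
  have hN0 : N.index ≠ 0 := by
    rw [hidx]
    exact pow_ne_zero _ hp.out.ne_zero
  have hfin : (⨅ i, (P i).comap (g i)).index ≠ 0 := by
    intro h0
    have := Subgroup.index_dvd_of_le hNle
    rw [h0, zero_dvd_iff] at this
    exact hN0 this
  obtain ⟨T₀, hT1, hT2⟩ := exists_finset_approx (p := p) P g
    (fun i => index_powUnits_le p i.1.2 (hne i)) (fun i u => pow_mem_powUnits p i.1.2 u) hfin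
  refine ⟨T₀.map ⟨Subtype.val, Subtype.val_injective⟩, ?_, ?_, ?_⟩
  · intro t ht
    rw [Finset.mem_map] at ht
    obtain ⟨i, -, rfl⟩ := ht
    exact ⟨i.2.1, i.2.2⟩
  · rw [Finset.card_map]
    -- the subgroup `⟨a⟩ (sUnits K S)^p`
    let H₀ : Subgroup (sUnits K S) :=
      { carrier := {x | ∃ k : ℤ, x / a ^ k ∈ N}
        mul_mem' := by
          rintro x y ⟨k, hk⟩ ⟨m, hm⟩
          refine ⟨k + m, ?_⟩
          have : x * y / a ^ (k + m) = (x / a ^ k) * (y / a ^ m) := by
            rw [zpow_add, div_mul_div_comm]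
          rw [this]
          exact N.mul_mem hk hm
        one_mem' := ⟨0, by rw [zpow_zero, div_one]; exact N.one_mem⟩
        inv_mem' := by
          rintro x ⟨k, hk⟩
          refine ⟨-k, ?_⟩
          have : x⁻¹ / a ^ (-k) = (x / a ^ k)⁻¹ := by
            rw [zpow_neg, inv_div, div_eq_mul_inv, inv_inv, div_eq_mul_inv, mul_comm]
          rw [this]
          exact N.inv_mem hk }
    have hNH : N ≤ H₀ := fun x hx => ⟨0, by rw [zpow_zero, div_one]; exact hx⟩
    have haH : a ∈ H₀ := ⟨1, by rw [zpow_one, div_self']; exact N.one_mem⟩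
    have hle : (⨅ i, (P i).comap (g i)) ≤ H₀ := by
      intro x hx
      rw [Subgroup.mem_iInf] at hx
      obtain ⟨k, c, hc⟩ := hspan x (by
        intro ℓ w hℓ hw
        have := hx ⟨⟨ℓ, w⟩, ⟨hℓ, hw⟩⟩
        rw [Subgroup.mem_comap, mem_powUnits_iff] at this
        obtain ⟨z, hz⟩ := this
        refine ⟨(z : w.Completion), ?_⟩
        rw [← Units.val_pow_eq_pow_val, hz]
        rfl)
      have hcS : c ∈ (sUnits K S) := by
        apply mem_sUnits_of_pow_mem _ hp.out.pos
        have : c ^ p = (x : Kˣ) / (a : Kˣ) ^ k := by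
          rw [hc, mul_div_cancel_left]
        rw [this]
        exact (sUnits K S).div_mem x.2 ((sUnits K S).zpow_mem a.2 k)
      refine ⟨k, ⟨⟨c, hcS⟩, ?_⟩⟩
      apply Subtype.ext
      change c ^ p = (x : Kˣ) / ((a ^ k : (sUnits K S)) : Kˣ)
      rw [hc, Subgroup.coe_zpow, mul_div_cancel_left]
    have hrel : N.relIndex H₀ ≤ p :=
      relIndex_le_of_forall_exists_zpow N H₀ a haH ⟨a, rfl⟩ (fun h hh => hh)
    have h1 : N.relIndex H₀ * H₀.index = p ^ d := by
      rw [Subgroup.relIndex_mul_index hNH, hidx]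
    have h2 : H₀.index ∣ p ^ T₀.card := by
      rw [← hT1]
      exact Subgroup.index_dvd_of_le hle
    have h3 : H₀.index ≤ p ^ T₀.card :=
      Nat.le_of_dvd (pow_pos hp.out.pos _) h2
    have h4 : p ^ d ≤ p ^ (T₀.card + 1) := by
      rw [← h1, pow_succ, mul_comm]
      exact Nat.mul_le_mul h3 hrel
    exact (Nat.pow_le_pow_iff_right hp1).mp h4
  · intro x hx
    obtain ⟨b, hb⟩ := hT2 fun i => ⟨i.1.2.unitsProj (x i.1.1),
      (SemiLocal.mem_unitGroup_iff_forall.mp (hx i.1.1 (hmemS i))) i.1.2⟩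
    refine ⟨b.1, b.2, ?_⟩
    intro t ht
    rw [Finset.mem_map] at ht
    obtain ⟨i, hi, rfl⟩ := ht
    have := hb i hi
    rw [mem_powUnits_iff] at this
    obtain ⟨z, hz⟩ := this
    refine ⟨z, ?_⟩
    rw [hz]
    rfl

end ChooseT

section Spanning

variable {K L : Type} [Field K] [NumberField K] [Field L] [NumberField L] [Algebra K L]
  [IsGalois K L] {p : ℕ} [hp : Fact p.Prime]

/-- **Spanning claim**: an `S`-unit `x` which is a local `p`-th power at all places outside `S`
where `a` is a local `p`-th power lies in `⟨a⟩ K^{×p}` (`L = K(a^{1/p})`, `S ∋ p`, `a` an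
`S`-unit). -/
theorem exists_eq_pow_mul_pow_of_forall_local (hNN : ExistsNonNorm p)
    (hcard : Nat.card (L ≃ₐ[K] L) = p) {ζ : K} (hζ : IsPrimitiveRoot ζ p) {a : K} {α : L}
    (ha0 : a ≠ 0) (hα : α ^ p = algebraMap K L a) (hgen : K⟮α⟯ = ⊤)
    (S : Finset Nat.Primes) (hpS : (⟨p, hp.out⟩ : Nat.Primes) ∈ S)
    (haS : Units.mk0 a ha0 ∈ sUnits K (S : Set Nat.Primes)) (x : Kˣ)
    (hxS : x ∈ sUnits K (S : Set Nat.Primes))
    (hx : ∀ (ℓ : Nat.Primes) (w : Place (ℓ : ℕ) K), ℓ ∉ S →
      (∃ e : w.Completion, e ^ p = w.embed a) → ∃ e' : w.Completion, e' ^ p = w.embed (x : K)) :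
    ∃ (k : ℕ) (c : K), (x : K) = a ^ k * c ^ p := by
  by_contra hcon
  have hxL : ¬ ∃ γ : L, γ ^ p = algebraMap K L x := fun ⟨γ, hγ⟩ =>
    hcon (exists_eq_pow_mul_pow_of_pow_eq hcard hζ ha0 hα hgen hγ)
  have hζL : IsPrimitiveRoot (algebraMap K L ζ) p :=
    hζ.map_of_injective (algebraMap K L).injective
  obtain ⟨L', _, _, _, _, hcard', β, hβ, hgen'⟩ :=
    exists_kummer_extension L hζL (algebraMap K L x) hxL
  obtain ⟨ℓ, hℓS, b, hb⟩ := hNN L L' hcard' S
  apply hb
  have hx0 : algebraMap K L (x : K) ≠ 0 := by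
    rw [Ne, map_eq_zero]
    exact x.ne_zero
  have hα0 : α ≠ 0 := by
    rintro rfl
    rw [zero_pow hp.out.ne_zero] at hα
    exact ha0 ((map_eq_zero _).mp hα.symm)
  have key : ∀ W : Place (ℓ : ℕ) L,
      ∃ e : W.Completion, e ^ p = W.embed (algebraMap K L (x : K)) := by
    intro W
    by_cases hw : ∃ e : (W.under (K := K)).Completion, e ^ p = (W.under (K := K)).embed a
    · obtain ⟨e', he'⟩ := hx ℓ (W.under (K := K)) hℓS hw
      exact ⟨algebraMap (W.under (K := K)).Completion W.Completion e', by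
        rw [← map_pow, he', algebraMap_completion_embed]⟩
    · have hℓp : ((ℓ : Nat.Primes) : ℕ) ≠ p := by
        intro h
        apply hℓS
        have : ℓ = ⟨p, hp.out⟩ := Subtype.ext h
        rw [this]
        exact hpS
      have hℓS' : ℓ ∉ (S : Set Nat.Primes) := by rwa [Finset.mem_coe]
      set w := W.under (K := K) with hwdef
      have hau : Units.map (w.embed : K →* w.Completion) (Units.mk0 a ha0) ∈ w.integerUnits :=
        (SemiLocal.mem_unitGroup_iff_forall.mp (haS ℓ hℓS')) w
      have hxu : Units.map (w.embed : K →* w.Completion) x ∈ w.integerUnits :=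
        (SemiLocal.mem_unitGroup_iff_forall.mp (hxS ℓ hℓS')) w
      have hua : ¬ ∃ y : (w.integers)ˣ, y ^ p = w.toIntegersUnit _ hau := by
        rintro ⟨y, hy⟩
        apply hw
        refine ⟨((y : w.integers) : w.Completion), ?_⟩
        have := congrArg (fun u : (w.integers)ˣ => ((u : w.integers) : w.Completion)) hy
        simpa using this
      obtain ⟨k, y, hky⟩ := LocalKummer.exists_eq_zpow_mul_pow p
        (isUnit_natCast_integers w hp.out hℓp) (w.toIntegersUnit _ hau) (w.toIntegersUnit _ hxu) hua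
      have h1 : w.embed (x : K) = (w.embed a) ^ k * ((y : w.integers) : w.Completion) ^ p := by
        have := congrArg (fun u : (w.integers)ˣ => (w.ofIntegersUnit u : w.Completion)) hky
        simp only [map_mul, map_zpow, map_pow, Units.val_mul, Units.val_zpow_eq_zpow_val,
          Units.val_pow_eq_pow_val, coe_ofIntegersUnit, coe_toIntegersUnit] at this
        simpa using this
      refine ⟨(W.embed α) ^ k * algebraMap w.Completion W.Completion
        ((y : w.integers) : w.Completion), ?_⟩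
      have hβp : (W.embed α) ^ p = algebraMap w.Completion W.Completion (w.embed a) := by
        rw [← map_pow, hα, algebraMap_completion_embed]
      calc ((W.embed α) ^ k * algebraMap w.Completion W.Completion
            ((y : w.integers) : w.Completion)) ^ p
          = ((W.embed α) ^ p) ^ k * (algebraMap w.Completion W.Completion
            ((y : w.integers) : w.Completion)) ^ p := by
            rw [mul_pow]
            congr 1
            rw [← zpow_natCast ((W.embed α) ^ k), ← zpow_mul, mul_comm, zpow_mul, zpow_natCast]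
        _ = algebraMap w.Completion W.Completion
              ((w.embed a) ^ k * ((y : w.integers) : w.Completion) ^ p) := by
            rw [hβp, map_mul, map_zpow₀, map_pow]
        _ = W.embed (algebraMap K L (x : K)) := by
            rw [← h1, algebraMap_completion_embed]
  obtain ⟨y, -, hy⟩ := exists_prod_smul_eq_of_kummerLocalCond hcard' hζL hx0 hβ hgen' b
    (fun W => Or.inr (Or.inl (key W)))
  exact ⟨y, hy⟩

end Spanning

end Fermat.Agent.CFT.T2
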