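import Mathlib
import Fermat.Agent.CFT.Global.T2_helper1_ChooseT
import Fermat.Agent.CFT.Global.G3e_helper8_Final
import Fermat.Agent.CFT.Global.G3f_helper8_SUnitIndex
import Fermat.Agent.CFT.Global.G04_lead_Content
import Fermat.Agent.CFT.Global.T5_helper9_NonNorm

/-!
# CFT (G3) = (T2): the second inequality, assembly

`secondInequality_of_keyLemma (hp2 : p ≠ 2) (h1 : FirstInequality p) (hkey : KeyLemmaStatement p) :
SecondInequality p`.
-/

set_option autoImplicit false
set_option linter.unusedSectionVars false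

open scoped TensorProduct NumberField RestrictedProduct IntermediateField

namespace Fermat.Agent.CFT.T2

open scoped SemiLocalRel
open scoped Fermat.Agent.CFT.Local.PadicBridge
open Fermat.Agent.CFT Fermat.Agent.CFT.Local Fermat.Agent.CFT.Place Fermat.Agent.CFT.GlobalKummer
open Fermat.Agent.CFT.Coh

/-- **Key lemma** of the second inequality (statement): an element of `K^×` which is a unit
outside `S ∪ T` and a local `p`-th power at the places over `S` is a `p`-th power, provided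
`K_S → ∏_T U_t/U_t^p` is surjective. -/
def KeyLemmaStatement (p : ℕ) [hp : Fact p.Prime] : Prop :=
  ∀ (K : Type) [Field K] [NumberField K] {ζ : K}, IsPrimitiveRoot ζ p →
    ∀ (S : Set Nat.Primes), (⟨p, hp.out⟩ : Nat.Primes) ∈ S → IdelesGeneratedBy K S →
    ∀ (T : Set (FinPlace K)),
    (∀ x ∈ sIdeles K S, ∃ b ∈ sUnits K S, ∀ t ∈ T,
      ∃ z : t.2.Completionˣ, z ^ p = t.2.unitsProj ((x / FinIdele.diag K b) t.1)) →
    ∀ y : Kˣ, y ∈ placeUnits K S T →
    (∀ ℓ ∈ S, ∀ w : Place ((ℓ : Nat.Primes) : ℕ) K, ∃ e : w.Completion, e ^ p = w.embed (y : K)) →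
    ∃ z : Kˣ, z ^ p = y

section Main

variable {K : Type} [Field K] [NumberField K] {p : ℕ} [hp : Fact p.Prime]

theorem mem_placeUnits_of_pow_mem {S : Set Nat.Primes} {T : Set (FinPlace K)} {c : Kˣ} {n : ℕ}
    (hn : 0 < n) (h : c ^ n ∈ placeUnits K S T) : c ∈ placeUnits K S T := by
  intro ℓ w hℓ hw
  have h1 := h ℓ w hℓ hw
  change w.unitsProj (SemiLocal.ofUnits ℓ (c ^ n)) ∈ w.integerUnits at h1
  rw [map_pow, map_pow] at h1
  exact mem_integerUnits_of_pow_mem w hn h1

/-- **(h2)**: ideles which are units outside `S ∪ T` and `p`-th powers over `S` are norms from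
`L = K(a^{1/p})` if `a` is an `S`-unit which is a local `p`-th power at the places of `T`. -/
theorem isIdeleNorm_of_mem_placeIdeles {L : Type} [Field L] [NumberField L] [Algebra K L]
    [IsGalois K L] (hcard : Nat.card (L ≃ₐ[K] L) = p) {ζ : K} (hζ : IsPrimitiveRoot ζ p) {a : K}
    (ha0 : a ≠ 0) {α : L} (hα : α ^ p = algebraMap K L a) (hgen : Algebra.adjoin K {α} = ⊤)
    (S : Finset Nat.Primes) (hpS : (⟨p, hp.out⟩ : Nat.Primes) ∈ S)
    (haS : Units.mk0 a ha0 ∈ sUnits K (S : Set Nat.Primes)) (T : Set (FinPlace K))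
    (hT : ∀ t ∈ T, ∃ e : t.2.Completion, e ^ p = t.2.embed a)
    (x : FinIdele K) (hx : x ∈ placeIdeles K (S : Set Nat.Primes) T)
    (hxS : FinIdele.projSModPow K S p x = 1) : IsIdeleNorm K L x := by
  classical
  rw [FinIdele.projSModPow_eq_one_iff] at hxS
  obtain ⟨z, hz⟩ := hxS
  refine isIdeleNorm_of_kummerLocalCond hcard hζ ha0 hα hgen x fun ℓ w => ?_
  by_cases hℓ : ℓ ∈ S
  · left
    have h1 : (z ⟨ℓ, hℓ⟩) ^ p = x ℓ := hz ⟨ℓ, hℓ⟩
    exact ⟨w.unitsProj (z ⟨ℓ, hℓ⟩),
      (map_pow w.unitsProj (z ⟨ℓ, hℓ⟩) p).symm.trans (congrArg w.unitsProj h1)⟩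
  · by_cases hw : (⟨ℓ, w⟩ : FinPlace K) ∈ T
    · right; left
      exact hT ⟨ℓ, w⟩ hw
    · right; right
      have hℓ' : ℓ ∉ (S : Set Nat.Primes) := by rwa [Finset.mem_coe]
      refine ⟨?_, ⟨Units.map (w.embed : K →* w.Completion) (Units.mk0 a ha0),
        (SemiLocal.mem_unitGroup_iff_forall.mp (haS ℓ hℓ')) w, rfl⟩, hx ℓ w hℓ' hw⟩
      intro h
      apply hℓ
      have : ℓ = ⟨p, hp.out⟩ := Subtype.ext h
      rw [this]
      exact hpS

end Main

section Assembly

variable {p : ℕ} [hp : Fact p.Prime]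

/-- **(T2) Second inequality**, from the first inequality and the key lemma. -/
theorem secondInequality_of_keyLemma (hp2 : p ≠ 2) (h1 : FirstInequality p)
    (hkey : KeyLemmaStatement p) : SecondInequality p := by
  classical
  intro K L _ _ _ _ _ _ hcard hζ'
  obtain ⟨ζ, hζ⟩ := hζ'
  have hNN : ExistsNonNorm p := existsNonNorm_of_firstInequality p hp.out h1
  obtain ⟨a, α, ha0, hα, hgen⟩ := exists_kummer_generator hcard hζ
  have hgen' : Algebra.adjoin K {α} = ⊤ := algebra_adjoin_eq_top_of_adjoin_eq_top hgen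
  -- choice of `S`
  obtain ⟨S₀, hS₀⟩ := exists_finset_idelesGeneratedBy (F := K)
  have hfin : {ℓ : Nat.Primes | ¬ SemiLocal.ofUnits ℓ (Units.mk0 a ha0) ∈
      SemiLocal.unitGroup ℓ K}.Finite :=
    Filter.eventually_cofinite.mp (eventually_ofUnits_mem_unitGroup (Units.mk0 a ha0))
  set S : Finset Nat.Primes := (S₀ ∪ {⟨p, hp.out⟩}) ∪ hfin.toFinset with hS
  have hpS : (⟨p, hp.out⟩ : Nat.Primes) ∈ S := by
    rw [hS]
    exact Finset.mem_union_left _ (Finset.mem_union_right _ (Finset.mem_singleton_self _))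
  have hpS' : (⟨p, hp.out⟩ : Nat.Primes) ∈ (S : Set Nat.Primes) := Finset.mem_coe.mpr hpS
  have hS₀S : (S₀ : Set Nat.Primes) ⊆ (S : Set Nat.Primes) := by
    intro ℓ hℓ
    rw [Finset.mem_coe] at hℓ ⊢
    rw [hS]
    exact Finset.mem_union_left _ (Finset.mem_union_left _ hℓ)
  have hgenS : IdelesGeneratedBy K (S : Set Nat.Primes) := fun x => by
    obtain ⟨c, hc⟩ := hS₀ x
    exact ⟨c, sIdeles_mono hS₀S hc⟩
  have haS : Units.mk0 a ha0 ∈ sUnits K (S : Set Nat.Primes) := by
    intro ℓ hℓ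
    by_contra h
    apply hℓ
    rw [Finset.mem_coe, hS]
    exact Finset.mem_union_right _ (hfin.mem_toFinset.mpr h)
  -- the index of the `p`-th powers in the `S`-units
  obtain ⟨d, hd2, hdidx⟩ := sUnitIndexStatement hp.out hp2 K ⟨ζ, hζ⟩ S ∅ (by simp)
  have hdidx' : (powMonoidHom p : sUnits K (S : Set Nat.Primes) →* _).range.index = p ^ d := by
    have h0 : placeUnits K (S : Set Nat.Primes) ((∅ : Finset (FinPlace K)) : Set (FinPlace K)) =
        sUnits K (S : Set Nat.Primes) := by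
      rw [Finset.coe_empty, placeUnits_empty]
    rw [← hdidx]
    exact (index_range_powMonoidHom_congr (MulEquiv.subgroupCongr h0) p)
  -- choice of `T`
  obtain ⟨T, hT1, hT2, hT3⟩ := exists_finset_places (p := p) (S : Set Nat.Primes) hpS'
    ⟨Units.mk0 a ha0, haS⟩ d hdidx' (by
      intro x hx
      obtain ⟨k, c, hc⟩ := exists_eq_pow_mul_pow_of_forall_local hNN hcard hζ ha0 hα hgen S hpS
        haS x.1 x.2 (fun ℓ w hℓ hw => hx ℓ w (by rwa [Finset.mem_coe]) hw)
      have hc0 : c ≠ 0 := by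
        rintro rfl
        rw [zero_pow hp.out.ne_zero, mul_zero] at hc
        exact x.1.ne_zero hc
      refine ⟨(k : ℤ), Units.mk0 c hc0, Units.ext ?_⟩
      rw [zpow_natCast]
      push_cast
      exact hc)
  have hT1' : ∀ t ∈ T, t.1 ∉ S := fun t ht => by
    have := (hT1 t ht).1
    rwa [Finset.mem_coe] at this
  obtain ⟨k, hk2, hkidx⟩ := sUnitIndexStatement hp.out hp2 K ⟨ζ, hζ⟩ S T hT1'
  refine card_tateH0_le_prime K L hp.out S (placeIdeles K (S : Set Nat.Primes) (T : Set (FinPlace K)))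
    (placeUnits K (S : Set Nat.Primes) (T : Set (FinPlace K))) k ?_ ?_ (fun y hy => hy) ?_
    (by rw [hkidx]) ?_
  · intro x
    obtain ⟨c, hc⟩ := hgenS x
    exact ⟨c, sIdeles_le_placeIdeles K _ _ hc⟩
  · intro x hx hxS
    exact isIdeleNorm_of_mem_placeIdeles hcard hζ ha0 hα hgen' S hpS haS _
      (fun t ht => (hT1 t (Finset.mem_coe.mp ht)).2) x hx hxS
  · intro y hy hyS
    rw [FinIdele.projSModPow_eq_one_iff] at hyS
    obtain ⟨z, hz⟩ := hyS
    obtain ⟨c, hc⟩ := hkey K hζ (S : Set Nat.Primes) hpS' hgenS (T : Set (FinPlace K))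
      (fun x hx => by
        obtain ⟨b, hb, hb'⟩ := hT3 x hx
        exact ⟨b, hb, fun t ht => hb' t (Finset.mem_coe.mp ht)⟩) y hy
      (fun ℓ hℓ w => by
        have hℓ' : ℓ ∈ S := Finset.mem_coe.mp hℓ
        have h3 : (z ⟨ℓ, hℓ'⟩) ^ p = SemiLocal.ofUnits ℓ y := hz ⟨ℓ, hℓ'⟩
        refine ⟨((w.unitsProj (z ⟨ℓ, hℓ'⟩) : w.Completionˣ) : w.Completion), ?_⟩
        have h4 := congrArg (fun u : w.Completionˣ => (u : w.Completion))
          ((map_pow w.unitsProj (z ⟨ℓ, hℓ'⟩) p).symm.trans (congrArg w.unitsProj h3))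
        have h5 : ((w.unitsProj (SemiLocal.ofUnits ℓ y) : w.Completionˣ) : w.Completion) =
            w.embed (y : K) := rfl
        rw [← h5]
        simpa using h4)
    refine ⟨c, mem_placeUnits_of_pow_mem hp.out.pos ?_, hc⟩
    rw [hc]
    exact hy
  · simp only [Finset.card_empty, add_zero] at hd2
    omega

end Assembly

end Fermat.Agent.CFT.T2
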