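import Mathlib
import Fermat.Agent.CFT.Global.T2_helper1_Main
import Fermat.Agent.CFT.Global.G3g_helper8_KeyLemma
import Fermat.Agent.CFT.Global.G2_helper2_FirstInequality

/-!
# CFT (G3) = (T2): the second inequality

`secondInequality (hp : p.Prime) (hp2 : p ≠ 2) : SecondInequality p`: for a cyclic extension
`L/K` of number fields of odd prime degree `p` with `ζ_p ∈ K`, `|Ĥ⁰(Gal(L/K), C_L)| ≤ p`.
-/

set_option autoImplicit false

namespace Fermat.Agent.CFT.T2

open Fermat.Agent.CFT

/-- the key lemma (helper8) in the packaged form -/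
theorem keyLemmaStatement {p : ℕ} [hp : Fact p.Prime] (h1 : FirstInequality p) :
    KeyLemmaStatement p :=
  fun _ _ _ _ hζ S hpS hgenS T happrox y hy hyS =>
    exists_pow_eq_of_forall_local h1 hζ S hpS hgenS T happrox y hy hyS

/-- (T2) from (T1) -/
theorem secondInequality_of_firstInequality {p : ℕ} [hp : Fact p.Prime] (hp2 : p ≠ 2)
    (h1 : FirstInequality p) : SecondInequality p :=
  secondInequality_of_keyLemma hp2 h1 (keyLemmaStatement h1)

end Fermat.Agent.CFT.T2

namespace Fermat.Agent.CFT

/-- **(T2) The second inequality** for cyclic extensions of odd prime degree `p` with `ζ_p` in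
the base field. -/
theorem secondInequality {p : ℕ} (hp : p.Prime) (hp2 : p ≠ 2) : SecondInequality p := by
  have : Fact p.Prime := ⟨hp⟩
  exact T2.secondInequality_of_firstInequality hp2 (firstInequality hp hp2)

end Fermat.Agent.CFT
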