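import Fermat.Agent.CFT.Global.G2_helper2_SemiLocalHerbrand
import Fermat.Agent.CFT.Coh.CoindComponents_lead
import Fermat.Agent.CFT.Coh.CyclicVanish_lead
import Fermat.Agent.CFT.Coh.Torsion_helper9
import Fermat.Agent.CFT.Local.L1b_helper7

/-!
# CFT (PT3.f.4): acyclicity of the unramified semi-local unit groups (lead)

For a finite Galois extension `L/K` of number fields and a rational prime `ℓ` such that all places
of `L` over `ℓ` are unramified over `K`:
`Hⁿ(Gal(L/K), SemiLocal.unitGroup ℓ L) = 0` for all `n ≥ 1`.
-/

set_option autoImplicit false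
set_option linter.unusedSectionVars false
set_option linter.style.haveILetI false

open scoped TensorProduct NumberField
open CategoryTheory

namespace Fermat.Agent.CFT

open Coh
open scoped SemiLocalRel
open scoped Fermat.Agent.CFT.Local.PadicBridge

namespace Coh

section sumId

variable {k G : Type} [CommRing k] [Group G]

lemma map_id_sum {A B : Rep.{0} k G} {ι : Type} (s : Finset ι) (φ : ι → (A ⟶ B)) (n : ℕ) :
    groupCohomology.map (MonoidHom.id G) (∑ i ∈ s, φ i) n =
      ∑ i ∈ s, groupCohomology.map (MonoidHom.id G) (φ i) n := by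
  classical
  induction s using Finset.induction_on with
  | empty =>
    simp only [Finset.sum_empty]
    exact (groupCohomology.functor k G n).map_zero _ _
  | insert a s ha ih => rw [Finset.sum_insert ha, Finset.sum_insert ha, map_id_add, ih]

/-- If `𝟙 A = ∑ i, p i ≫ s i` with `Hⁿ(G, B i) = 0` for all `i` then `Hⁿ(G, A) = 0`. -/
theorem isZero_groupCohomology_of_sum_comp_eq_id (A : Rep.{0} k G) {ι : Type} [Fintype ι]
    (B : ι → Rep.{0} k G) (p : ∀ i, A ⟶ B i) (s : ∀ i, B i ⟶ A)
    (h : ∑ i, p i ≫ s i = 𝟙 A) (n : ℕ)
    (hB : ∀ i, Limits.IsZero (groupCohomology (B i) n)) :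
    Limits.IsZero (groupCohomology A n) := by
  rw [Limits.IsZero.iff_id_eq_zero]
  have h1 : groupCohomology.map (MonoidHom.id G) (𝟙 A) n = 𝟙 _ := groupCohomology.map_id n
  rw [← h1, ← h, map_id_sum]
  refine Finset.sum_eq_zero fun i _ => ?_
  rw [groupCohomology.map_id_comp,
    (hB i).eq_of_tgt (groupCohomology.map (MonoidHom.id G) (p i) n) 0, Limits.zero_comp]

end sumId

end Coh

section Blocks

variable {ℓ : ℕ} [Fact ℓ.Prime] {K L : Type} [Field K] [NumberField K] [Field L] [NumberField L]
  [Algebra K L] [FiniteDimensional K L] [IsGalois K L]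

/-- the decomposition group of `W` acts on the units of the valuation ring of `L_W` through
`Gal(L_W/K_w)`. -/
noncomputable abbrev decompIntegerUnitsAction (W : Place ℓ L) :
    MulDistribMulAction (MulAction.stabilizer (L ≃ₐ[K] L) W) W.integerUnits :=
  MulDistribMulAction.compHom _ (Place.decompHom (K := K) W)

/-- LOCAL: the units of the valuation ring of an unramified completion are acyclic for the
decomposition group. -/
theorem isZero_groupCohomology_decomp_integerUnits (W : Place ℓ L)
    (hunr : Local.ramIdx (W.under (K := K)).integers W.integers = 1) (n : ℕ) :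
    letI := decompIntegerUnitsAction (K := K) W
    Limits.IsZero (groupCohomology (Rep.ofMulDistribMulAction
      (MulAction.stabilizer (L ≃ₐ[K] L) W) W.integerUnits) (n + 1)) := by
  letI := decompIntegerUnitsAction (K := K) W
  obtain ⟨φ, hφ, -⟩ := Local.exists_frobenius_of_ramIdx_eq_one (W.under (K := K)).integers
    (W.under (K := K)).Completion W.Completion W.integers hunr
  obtain ⟨h0, h1⟩ := Local.padic_tate_intUnits_of_unramified ℓ (W.under (K := K)).Completion
    W.Completion hunr hφ
  let E : RepSemiEquiv (Rep.ofMulDistribMulAction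
      (MulAction.stabilizer (L ≃ₐ[K] L) W) W.integerUnits)
      (Rep.ofMulDistribMulAction
        (W.Completion ≃ₐ[(W.under (K := K)).Completion] W.Completion)
        (Local.padicIntUnits ℓ W.Completion)) :=
    RepSemiEquiv.ofMulEquiv (Place.decompEquiv (K := K) W) (MulEquiv.refl _) (fun σ m => rfl)
  have hg : ∀ x, x ∈ Subgroup.zpowers ((Place.decompEquiv (K := K) W).symm φ) := by
    intro x
    obtain ⟨j, hj⟩ := Subgroup.mem_zpowers_iff.1 (hφ (Place.decompEquiv (K := K) W x))
    rw [Subgroup.mem_zpowers_iff]
    refine ⟨j, ?_⟩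
    apply (Place.decompEquiv (K := K) W).injective
    rw [map_zpow, MulEquiv.apply_symm_apply, hj]
  exact isZero_groupCohomology_succ_of_cyclic _ hg
    (E.tateH0Equiv.toEquiv.subsingleton) (E.tateHm1Equiv.toEquiv.subsingleton) n

/-- projection of an integral block onto the integral units of one completion. -/
noncomputable def blockToIntegerUnits (W : Place ℓ L) :
    SemiLocal.blockIntegerUnits (L := L) (W.under (K := K)) →* W.integerUnits where
  toFun u := ⟨W.unitsProj (u : (SemiLocal ℓ L)ˣ),
    SemiLocal.mem_unitGroup_iff_forall.mp (SemiLocal.mem_blockIntegerUnits_iff.mp u.2).2 W⟩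
  map_one' := Subtype.ext (map_one W.unitsProj)
  map_mul' _ _ := Subtype.ext (map_mul W.unitsProj _ _)

/-- inclusion of the integral units of one completion into the integral block. -/
noncomputable def integerUnitsToBlock (W : Place ℓ L) :
    W.integerUnits →* SemiLocal.blockIntegerUnits (L := L) (W.under (K := K)) where
  toFun z := ⟨Place.singleOf W (z : W.Completionˣ), SemiLocal.mem_blockIntegerUnits_iff.mpr
    ⟨SemiLocal.supportedAt_le_blockUnits W (Place.singleOf_mem_supportedAt W _),
      (SemiLocal.singleOf_mem_unitGroup_iff W _).mpr z.2⟩⟩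
  map_one' := Subtype.ext (map_one (Place.singleOf W))
  map_mul' _ _ := Subtype.ext (map_mul (Place.singleOf W) _ _)

/-- BLOCK: the integral block over an unramified place is acyclic. -/
theorem isZero_groupCohomology_blockIntegerUnits (W : Place ℓ L)
    (hunr : Local.ramIdx (W.under (K := K)).integers W.integers = 1) (n : ℕ) :
    Limits.IsZero (groupCohomology (Rep.ofMulDistribMulAction (L ≃ₐ[K] L)
      (SemiLocal.blockIntegerUnits (L := L) (W.under (K := K)))) (n + 1)) := by
  letI := decompIntegerUnitsAction (K := K) W
  refine isZero_groupCohomology_of_mulComponents (MulAction.stabilizer (L ≃ₐ[K] L) W)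
    (blockToIntegerUnits W) (integerUnitsToBlock W) ?_ ?_ ?_ ?_ (n + 1)
    (isZero_groupCohomology_decomp_integerUnits W hunr n)
  · intro d m
    exact Subtype.ext (Units.ext rfl)
  · intro z
    exact Subtype.ext (Place.unitsProj_singleOf_self W _)
  · intro g z hg
    apply Subtype.ext
    change W.unitsProj (g • Place.singleOf W (z : W.Completionˣ)) = 1
    have h1 : g • Place.singleOf W (z : W.Completionˣ) ∈ Place.supportedAt (g • W) :=
      (Place.smul_mem_supportedAt_iff g W _).2 (Place.singleOf_mem_supportedAt W _)
    apply h1 W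
    intro h2
    exact hg (MulAction.mem_stabilizer_iff.2 h2.symm)
  · intro m hm
    apply Subtype.ext
    apply SemiLocal.units_ext_proj
    intro W'
    rw [Subgroup.coe_one, map_one]
    by_cases h : W'.under (K := K) = W.under
    · obtain ⟨σ, hσ⟩ := Place.exists_smul_eq_of_under_eq h
      have h2 := congrArg (fun x : W.integerUnits => (x : W.Completionˣ)) (hm σ)
      exact (Place.unitsProj_smul_eq_one_iff σ hσ _).1 h2
    · exact (SemiLocal.mem_blockIntegerUnits_iff.mp m.2).1 W' h

/-- projection of the unit group onto an integral block, as a morphism of representations. -/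
noncomputable def unitGroupToBlock (w : Place ℓ K) :
    Rep.ofMulDistribMulAction (L ≃ₐ[K] L) (SemiLocal.unitGroup ℓ L) ⟶
      Rep.ofMulDistribMulAction (L ≃ₐ[K] L) (SemiLocal.blockIntegerUnits (L := L) w) :=
  Rep.ofHom
    { toLinearMap := (MonoidHom.toAdditive
        ((Pi.evalMonoidHom _ w).comp
          (SemiLocal.integerBlockEquiv (K := K) (L := L) (ℓ := ℓ)).toMonoidHom)).toIntLinearMap
      isIntertwining' := fun σ => LinearMap.ext fun v =>
        congrArg Additive.ofMul (SemiLocal.integerBlockEquiv_smul σ (Additive.toMul v) w) }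

/-- inclusion of an integral block into the unit group, as a morphism of representations. -/
noncomputable def blockToUnitGroup (w : Place ℓ K) :
    Rep.ofMulDistribMulAction (L ≃ₐ[K] L) (SemiLocal.blockIntegerUnits (L := L) w) ⟶
      Rep.ofMulDistribMulAction (L ≃ₐ[K] L) (SemiLocal.unitGroup ℓ L) :=
  Rep.ofHom
    { toLinearMap := (MonoidHom.toAdditive
        (Subgroup.inclusion (inf_le_right :
          SemiLocal.blockIntegerUnits (L := L) w ≤ SemiLocal.unitGroup ℓ L))).toIntLinearMap
      isIntertwining' := fun _ => LinearMap.ext fun _ => rfl }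

/-- **(f.4) Acyclicity of the unramified semi-local unit groups**: if all places of `L` over `ℓ`
are unramified over `K` then `Hⁿ(Gal(L/K), unitGroup ℓ L) = 0` for all `n ≥ 1`. -/
theorem isZero_groupCohomology_unitGroup
    (hunr : ∀ W : Place ℓ L, Local.ramIdx (W.under (K := K)).integers W.integers = 1) (n : ℕ) :
    Limits.IsZero (groupCohomology (Rep.ofMulDistribMulAction (L ≃ₐ[K] L)
      (SemiLocal.unitGroup ℓ L)) (n + 1)) := by
  classical
  letI : Fintype (Place ℓ K) := Fintype.ofFinite _
  refine Coh.isZero_groupCohomology_of_sum_comp_eq_id _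
    (fun w : Place ℓ K => Rep.ofMulDistribMulAction (L ≃ₐ[K] L)
      (SemiLocal.blockIntegerUnits (L := L) w))
    (fun w => unitGroupToBlock w) (fun w => blockToUnitGroup w) ?_ (n + 1) ?_
  · apply Rep.hom_ext
    rw [Rep.sum_hom]
    apply Representation.IntertwiningMap.ext
    rw [Representation.IntertwiningMap.toLinearMap_sum]
    apply LinearMap.ext
    intro v
    rw [LinearMap.sum_apply]
    let u : SemiLocal.unitGroup ℓ L := Additive.toMul (α := SemiLocal.unitGroup ℓ L) v
    change (∑ w : Place ℓ K, Additive.ofMul (Subgroup.inclusion (inf_le_right :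
        SemiLocal.blockIntegerUnits (L := L) w ≤ SemiLocal.unitGroup ℓ L)
        (SemiLocal.integerBlockEquiv (K := K) u w))) = Additive.ofMul u
    rw [← ofMul_prod]
    congr 1
    apply Subtype.ext
    rw [Subgroup.val_finsetProd]
    exact SemiLocal.prod_blockPart (K := K) (u : (SemiLocal ℓ L)ˣ)
  · intro w
    obtain ⟨W, rfl⟩ := Place.under_surjective (K := K) (L := L) w
    exact isZero_groupCohomology_blockIntegerUnits W (hunr W) n

end Blocks

end Fermat.Agent.CFT
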