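/-
CFT global part (G2), helper2: weak approximation.  Simultaneous approximation of finitely many
`ℓ`-adic numbers by a rational number, and of finitely many elements of `ℚ_ℓ ⊗ F` by an element of
the number field `F`.
-/
import Fermat.Agent.CFT.Global.Defs_helper3

set_option autoImplicit false
set_option linter.unusedSectionVars false

open scoped TensorProduct NumberField

namespace Fermat.Agent.CFT

namespace WeakApprox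

section Padic

variable (p : ℕ) [Fact p.Prime]

/-- some power of `p` makes a `p`-adic number integral -/
lemma exists_norm_pow_mul_le_one (y : ℚ_[p]) : ∃ k : ℕ, ‖(p : ℚ_[p]) ^ k * y‖ ≤ 1 := by
  have hp1 : (1 : ℝ) < p := by exact_mod_cast (Fact.out : p.Prime).one_lt
  obtain ⟨k, hk⟩ := pow_unbounded_of_one_lt ‖y‖ hp1
  refine ⟨k, ?_⟩
  rw [norm_mul, Padic.norm_p_pow, zpow_neg, zpow_natCast]
  have hpos : (0 : ℝ) < (p : ℝ) ^ k := by positivity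
  rw [inv_mul_le_iff₀ hpos, mul_one]
  exact hk.le

/-- `ℤ[1/p]` is dense in `ℚ_[p]` -/
lemma exists_int_div_pow_approx (y : ℚ_[p]) (n : ℕ) :
    ∃ (m : ℤ) (k : ℕ), ‖(m : ℚ_[p]) / (p : ℚ_[p]) ^ k - y‖ ≤ (p : ℝ) ^ (-(n : ℤ)) := by
  obtain ⟨k, hk⟩ := exists_norm_pow_mul_le_one p y
  let z : ℤ_[p] := ⟨(p : ℚ_[p]) ^ k * y, hk⟩
  have h1 := PadicInt.appr_spec (n + k) z
  rw [← PadicInt.norm_le_pow_iff_mem_span_pow] at h1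
  refine ⟨(z.appr (n + k) : ℕ), k, ?_⟩
  have hpk : (p : ℚ_[p]) ^ k ≠ 0 := pow_ne_zero _ (by exact_mod_cast (Fact.out : p.Prime).ne_zero)
  have h2 : ((z.appr (n + k) : ℕ) : ℤ) / (p : ℚ_[p]) ^ k - y =
      -(((z - (z.appr (n + k) : ℕ) : ℤ_[p]) : ℚ_[p])) / (p : ℚ_[p]) ^ k := by
    have hz : ((z : ℤ_[p]) : ℚ_[p]) = (p : ℚ_[p]) ^ k * y := rfl
    push_cast
    rw [hz]
    field_simp
    ring
  rw [h2, norm_div, norm_neg, Padic.norm_p_pow, zpow_neg, zpow_natCast, div_inv_eq_mul]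
  have h3 : ‖((z - (z.appr (n + k) : ℕ) : ℤ_[p]) : ℚ_[p])‖ ≤ (p : ℝ) ^ (-((n + k : ℕ) : ℤ)) := h1
  have hpos : (0 : ℝ) < (p : ℝ) ^ k :=
    pow_pos (by exact_mod_cast (Fact.out : p.Prime).pos) k
  calc ‖((z - (z.appr (n + k) : ℕ) : ℤ_[p]) : ℚ_[p])‖ * (p : ℝ) ^ k
      ≤ (p : ℝ) ^ (-((n + k : ℕ) : ℤ)) * (p : ℝ) ^ k := by gcongr
    _ = (p : ℝ) ^ (-(n : ℤ)) := by
        have hp0 : (p : ℝ) ≠ 0 := by exact_mod_cast (Fact.out : p.Prime).ne_zero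
        rw [← zpow_natCast, ← zpow_add₀ hp0]
        congr 1
        push_cast
        ring

end Padic

/-- **Simultaneous approximation** of finitely many `ℓ`-adic numbers (for distinct primes `ℓ`) by a
rational number. -/
theorem exists_rat_approx (S : Finset Nat.Primes) (c : ∀ ℓ : Nat.Primes, ℚ_[ℓ]) (n : ℕ) :
    ∃ q : ℚ, ∀ ℓ ∈ S, ‖(q : ℚ_[ℓ]) - c ℓ‖ ≤ ((ℓ : ℕ) : ℝ) ^ (-(n : ℤ)) := by
  classical
  induction S using Finset.induction_on with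
  | empty => exact ⟨0, fun ℓ hℓ => absurd hℓ (Finset.notMem_empty ℓ)⟩
  | insert ℓ₀ S' hℓ₀ ih =>
    obtain ⟨q', hq'⟩ := ih
    let M : ℕ := ∏ ℓ ∈ S', (ℓ : ℕ) ^ n
    have hM0 : M ≠ 0 := Finset.prod_ne_zero_iff.mpr fun ℓ _ => pow_ne_zero _ ℓ.2.ne_zero
    have hM0' : (M : ℚ_[ℓ₀]) ≠ 0 := by exact_mod_cast hM0
    obtain ⟨m, k, hmk⟩ := exists_int_div_pow_approx ℓ₀ ((c ℓ₀ - (q' : ℚ_[ℓ₀])) / (M : ℚ_[ℓ₀])) n
    refine ⟨q' + M * ((m : ℚ) / ((ℓ₀ : ℕ) : ℚ) ^ k), fun ℓ hℓ => ?_⟩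
    rcases Finset.mem_insert.mp hℓ with rfl | hℓS
    · have h1 : ((q' + M * ((m : ℚ) / ((ℓ : ℕ) : ℚ) ^ k) : ℚ) : ℚ_[ℓ]) - c ℓ =
          (M : ℚ_[ℓ]) * ((m : ℚ_[ℓ]) / ((ℓ : ℕ) : ℚ_[ℓ]) ^ k -
            (c ℓ - (q' : ℚ_[ℓ])) / (M : ℚ_[ℓ])) := by
        push_cast
        field_simp
        ring
      rw [h1, norm_mul]
      have h2 : ‖(M : ℚ_[ℓ])‖ ≤ 1 := by
        have := Padic.norm_int_le_one (p := ℓ) (M : ℤ)
        simpa using this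
      calc ‖(M : ℚ_[ℓ])‖ * ‖(m : ℚ_[ℓ]) / ((ℓ : ℕ) : ℚ_[ℓ]) ^ k -
            (c ℓ - (q' : ℚ_[ℓ])) / (M : ℚ_[ℓ])‖
          ≤ 1 * ((ℓ : ℕ) : ℝ) ^ (-(n : ℤ)) := by gcongr
        _ = _ := one_mul _
    · have hne : ℓ ≠ ℓ₀ := fun h => hℓ₀ (h ▸ hℓS)
      have h1 : ((q' + M * ((m : ℚ) / ((ℓ₀ : ℕ) : ℚ) ^ k) : ℚ) : ℚ_[ℓ]) - c ℓ =
          ((q' : ℚ_[ℓ]) - c ℓ) + (M : ℚ_[ℓ]) * ((m : ℚ_[ℓ]) / ((ℓ₀ : ℕ) : ℚ_[ℓ]) ^ k) := by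
        push_cast
        ring
      rw [h1]
      refine (Padic.nonarchimedean _ _).trans (max_le (hq' ℓ hℓS) ?_)
      rw [norm_mul, norm_div, norm_pow]
      have h2 : ‖(M : ℚ_[ℓ])‖ ≤ ((ℓ : ℕ) : ℝ) ^ (-(n : ℤ)) := by
        have h3 : ((ℓ : ℕ) : ℤ) ^ n ∣ (M : ℤ) := by
          have : (ℓ : ℕ) ^ n ∣ M := Finset.dvd_prod_of_mem (fun ℓ : Nat.Primes => (ℓ : ℕ) ^ n) hℓS
          exact_mod_cast this
        have := (Padic.norm_int_le_pow_iff_dvd (p := ℓ) (M : ℤ) n).mpr h3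
        simpa using this
      have h4 : ‖((ℓ₀ : ℕ) : ℚ_[ℓ])‖ = 1 := by
        rw [Padic.norm_natCast_eq_one_iff]
        exact (Nat.coprime_primes ℓ.2 ℓ₀.2).mpr fun h => hne (Subtype.ext h)
      have h5 : ‖(m : ℚ_[ℓ])‖ ≤ 1 := Padic.norm_int_le_one m
      rw [h4, one_pow, div_one]
      calc ‖(M : ℚ_[ℓ])‖ * ‖(m : ℚ_[ℓ])‖ ≤ ((ℓ : ℕ) : ℝ) ^ (-(n : ℤ)) * 1 := by gcongr
        _ = _ := mul_one _

section NumberField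

variable (F : Type*) [Field F] [NumberField F] (ℓ : ℕ) [Fact ℓ.Prime]

/-- the `ℚ_ℓ`-basis `1 ⊗ b i` of `ℚ_ℓ ⊗ F` attached to an integral basis `b` of `F`. -/
noncomputable def tBasis :
    Module.Basis (Module.Free.ChooseBasisIndex ℤ (𝓞 F)) ℚ_[ℓ] (SemiLocal ℓ F) :=
  Algebra.TensorProduct.basis ℚ_[ℓ] (NumberField.integralBasis F)

lemma tBasis_apply (i : Module.Free.ChooseBasisIndex ℤ (𝓞 F)) :
    tBasis F ℓ i = SemiLocal.of ℓ F (NumberField.integralBasis F i) :=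
  Algebra.TensorProduct.basis_apply _ i

lemma tBasis_mem_integers (i : Module.Free.ChooseBasisIndex ℤ (𝓞 F)) :
    tBasis F ℓ i ∈ SemiLocal.integers ℓ F := by
  rw [tBasis_apply, NumberField.integralBasis_apply]
  exact SemiLocal.of_mem_integers_of_isIntegral ℓ (NumberField.RingOfIntegers.isIntegral_coe _)

/-- a combination of the `1 ⊗ b i` with integral coefficients is integral. -/
lemma sum_smul_tBasis_mem_integers (e : Module.Free.ChooseBasisIndex ℤ (𝓞 F) → ℚ_[ℓ])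
    (he : ∀ i, ‖e i‖ ≤ 1) : ∑ i, e i • tBasis F ℓ i ∈ SemiLocal.integers ℓ F := by
  refine Subalgebra.sum_mem _ fun i _ => ?_
  let z : ℤ_[ℓ] := ⟨e i, he i⟩
  have h1 : e i • tBasis F ℓ i = z • tBasis F ℓ i := by
    rw [← IsScalarTower.algebraMap_smul ℚ_[ℓ] z (tBasis F ℓ i)]
    rfl
  rw [h1]
  exact Subalgebra.smul_mem _ (tBasis_mem_integers F ℓ i) _

/-- some power of `ℓ` makes an element of `ℚ_ℓ ⊗ F` integral. -/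
theorem exists_pow_mul_mem_integers (y : SemiLocal ℓ F) :
    ∃ k : ℕ, algebraMap ℚ_[ℓ] (SemiLocal ℓ F) ((ℓ : ℚ_[ℓ]) ^ k) * y ∈ SemiLocal.integers ℓ F := by
  classical
  have hk : ∀ i, ∃ k : ℕ, ‖(ℓ : ℚ_[ℓ]) ^ k * (tBasis F ℓ).repr y i‖ ≤ 1 :=
    fun i => exists_norm_pow_mul_le_one ℓ _
  choose k hk using hk
  refine ⟨Finset.univ.sup k, ?_⟩
  have h1 : algebraMap ℚ_[ℓ] (SemiLocal ℓ F) ((ℓ : ℚ_[ℓ]) ^ Finset.univ.sup k) * y =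
      ∑ i, ((ℓ : ℚ_[ℓ]) ^ Finset.univ.sup k * (tBasis F ℓ).repr y i) • tBasis F ℓ i := by
    conv_lhs => rw [← (tBasis F ℓ).sum_repr y]
    rw [← Algebra.smul_def, Finset.smul_sum]
    exact Finset.sum_congr rfl fun i _ => by rw [smul_smul]
  rw [h1]
  apply sum_smul_tBasis_mem_integers
  intro i
  have hle : k i ≤ Finset.univ.sup k := Finset.le_sup (Finset.mem_univ i)
  obtain ⟨j, hj⟩ := Nat.exists_eq_add_of_le hle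
  rw [hj, pow_add, mul_comm ((ℓ : ℚ_[ℓ]) ^ k i), mul_assoc, norm_mul]
  have h2 : ‖(ℓ : ℚ_[ℓ]) ^ j‖ ≤ 1 := by
    rw [norm_pow]
    exact pow_le_one₀ (norm_nonneg _) (by
      have := Padic.norm_int_le_one (p := ℓ) (ℓ : ℤ)
      simpa using this)
  calc ‖(ℓ : ℚ_[ℓ]) ^ j‖ * ‖(ℓ : ℚ_[ℓ]) ^ k i * (tBasis F ℓ).repr y i‖ ≤ 1 * 1 := by
        gcongr
        exact hk i
    _ = 1 := one_mul 1

end NumberField

/-- **Weak approximation**: finitely many elements `x ℓ ∈ ℚ_ℓ ⊗ F` (for distinct primes `ℓ`) are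
simultaneously approximated by an element of `F`, up to `ℓ ^ n` times an integral element. -/
theorem exists_approx (F : Type*) [Field F] [NumberField F] (S : Finset Nat.Primes)
    (x : ∀ ℓ : Nat.Primes, SemiLocal ℓ F) (n : ℕ) :
    ∃ a : F, ∀ ℓ ∈ S, ∃ c ∈ SemiLocal.integers ℓ F,
      SemiLocal.of ℓ F a - x ℓ = algebraMap ℚ_[ℓ] (SemiLocal ℓ F) (((ℓ : ℕ) : ℚ_[ℓ]) ^ n) * c := by
  classical
  have hq : ∀ i : Module.Free.ChooseBasisIndex ℤ (𝓞 F), ∃ q : ℚ, ∀ ℓ ∈ S,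
      ‖(q : ℚ_[ℓ]) - (tBasis F ℓ).repr (x ℓ) i‖ ≤ ((ℓ : ℕ) : ℝ) ^ (-(n : ℤ)) :=
    fun i => exists_rat_approx S (fun ℓ => (tBasis F ℓ).repr (x ℓ) i) n
  choose q hq using hq
  refine ⟨∑ i, q i • NumberField.integralBasis F i, fun ℓ hℓ => ?_⟩
  have hℓ0 : (((ℓ : ℕ) : ℚ_[ℓ]) ^ n) ≠ 0 := pow_ne_zero _ (by exact_mod_cast ℓ.2.ne_zero)
  refine ⟨∑ i, (((q i : ℚ_[ℓ]) - (tBasis F ℓ).repr (x ℓ) i) / ((ℓ : ℕ) : ℚ_[ℓ]) ^ n) • tBasis F ℓ i,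
    ?_, ?_⟩
  · apply sum_smul_tBasis_mem_integers
    intro i
    rw [norm_div, Padic.norm_p_pow, zpow_neg, zpow_natCast, div_inv_eq_mul]
    have h1 := hq i ℓ hℓ
    rw [zpow_neg, zpow_natCast] at h1
    have hpos : (0 : ℝ) < ((ℓ : ℕ) : ℝ) ^ n := pow_pos (by exact_mod_cast ℓ.2.pos) n
    calc ‖(q i : ℚ_[ℓ]) - (tBasis F ℓ).repr (x ℓ) i‖ * ((ℓ : ℕ) : ℝ) ^ n
        ≤ (((ℓ : ℕ) : ℝ) ^ n)⁻¹ * ((ℓ : ℕ) : ℝ) ^ n := by gcongr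
      _ = 1 := inv_mul_cancel₀ hpos.ne'
  · rw [← Algebra.smul_def, Finset.smul_sum]
    have h1 : SemiLocal.of ℓ F (∑ i, q i • NumberField.integralBasis F i) =
        ∑ i, (q i : ℚ_[ℓ]) • tBasis F ℓ i := by
      rw [map_sum]
      refine Finset.sum_congr rfl fun i _ => ?_
      rw [map_smul, tBasis_apply, ← algebraMap_smul ℚ_[ℓ] (q i), eq_ratCast]
    conv_lhs => rw [h1, ← (tBasis F ℓ).sum_repr (x ℓ)]
    rw [← Finset.sum_sub_distrib]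
    refine Finset.sum_congr rfl fun i _ => ?_
    rw [← sub_smul, smul_smul, mul_div_cancel₀ _ hℓ0]

/-- weak approximation by a NONZERO element. -/
theorem exists_approx_ne_zero (F : Type*) [Field F] [NumberField F] (S : Finset Nat.Primes)
    (x : ∀ ℓ : Nat.Primes, SemiLocal ℓ F) (n : ℕ) :
    ∃ a : F, a ≠ 0 ∧ ∀ ℓ ∈ S, ∃ c ∈ SemiLocal.integers ℓ F,
      SemiLocal.of ℓ F a - x ℓ = algebraMap ℚ_[ℓ] (SemiLocal ℓ F) (((ℓ : ℕ) : ℚ_[ℓ]) ^ n) * c := by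
  classical
  obtain ⟨a, ha⟩ := exists_approx F S x n
  by_cases ha0 : a ≠ 0
  · exact ⟨a, ha0, ha⟩
  · rw [not_not] at ha0
    subst ha0
    let N : ℕ := ∏ ℓ ∈ S, (ℓ : ℕ) ^ n
    have hN0 : N ≠ 0 := Finset.prod_ne_zero_iff.mpr fun ℓ _ => pow_ne_zero _ ℓ.2.ne_zero
    refine ⟨(N : F), by exact_mod_cast hN0, fun ℓ hℓ => ?_⟩
    obtain ⟨c, hc, hc'⟩ := ha ℓ hℓ
    let Nℓ : ℕ := ∏ ℓ' ∈ S.erase ℓ, (ℓ' : ℕ) ^ n
    have hN : N = (ℓ : ℕ) ^ n * Nℓ := (Finset.mul_prod_erase S (fun ℓ' : Nat.Primes => (ℓ' : ℕ) ^ n)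
      hℓ).symm
    refine ⟨c + (Nℓ : SemiLocal ℓ F), Subalgebra.add_mem _ hc (natCast_mem _ _), ?_⟩
    rw [mul_add, ← hc', map_zero, zero_sub, map_natCast, hN]
    push_cast
    ring

/-- **Weak approximation, multiplicative form**: finitely many units `x ℓ ∈ (ℚ_ℓ ⊗ F)ˣ` are
simultaneously approximated by an element `a ∈ Fˣ`: `a / x ℓ ∈ 1 + ℓ ^ m · (integers)`. -/
theorem exists_units_approx (F : Type*) [Field F] [NumberField F] (S : Finset Nat.Primes)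
    (x : ∀ ℓ : Nat.Primes, (SemiLocal ℓ F)ˣ) (m : ℕ) :
    ∃ a : Fˣ, ∀ ℓ ∈ S, ∃ c ∈ SemiLocal.integers ℓ F,
      ((SemiLocal.ofUnits ℓ a / x ℓ : (SemiLocal ℓ F)ˣ) : SemiLocal ℓ F) =
        1 + algebraMap ℚ_[ℓ] (SemiLocal ℓ F) (((ℓ : ℕ) : ℚ_[ℓ]) ^ m) * c := by
  classical
  have hk : ∀ ℓ : Nat.Primes, ∃ k : ℕ, algebraMap ℚ_[ℓ] (SemiLocal ℓ F) (((ℓ : ℕ) : ℚ_[ℓ]) ^ k) *
      (((x ℓ)⁻¹ : (SemiLocal ℓ F)ˣ) : SemiLocal ℓ F) ∈ SemiLocal.integers ℓ F :=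
    fun ℓ => exists_pow_mul_mem_integers F ℓ _
  choose k hk using hk
  obtain ⟨a, ha0, ha⟩ := exists_approx_ne_zero F S (fun ℓ => (x ℓ : SemiLocal ℓ F)) (m + S.sup k)
  refine ⟨Units.mk0 a ha0, fun ℓ hℓ => ?_⟩
  obtain ⟨c, hc, hc'⟩ := ha ℓ hℓ
  have hle : k ℓ ≤ S.sup k := Finset.le_sup hℓ
  obtain ⟨j, hj⟩ := Nat.exists_eq_add_of_le hle
  refine ⟨algebraMap ℚ_[ℓ] (SemiLocal ℓ F) (((ℓ : ℕ) : ℚ_[ℓ]) ^ j) * c *
    (algebraMap ℚ_[ℓ] (SemiLocal ℓ F) (((ℓ : ℕ) : ℚ_[ℓ]) ^ k ℓ) *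
      (((x ℓ)⁻¹ : (SemiLocal ℓ F)ˣ) : SemiLocal ℓ F)), ?_, ?_⟩
  · refine Subalgebra.mul_mem _ (Subalgebra.mul_mem _ ?_ hc) (hk ℓ)
    have h1 : algebraMap ℚ_[ℓ] (SemiLocal ℓ F) (((ℓ : ℕ) : ℚ_[ℓ]) ^ j) =
        algebraMap ℤ_[ℓ] (SemiLocal ℓ F) (((ℓ : ℕ) : ℤ_[ℓ]) ^ j) := by
      rw [IsScalarTower.algebraMap_apply ℤ_[ℓ] ℚ_[ℓ] (SemiLocal ℓ F)]
      congr 1
    rw [h1]
    exact Subalgebra.algebraMap_mem _ _
  · have h1 : ((SemiLocal.ofUnits ℓ (Units.mk0 a ha0) / x ℓ : (SemiLocal ℓ F)ˣ) : SemiLocal ℓ F) =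
        1 + (SemiLocal.of ℓ F a - (x ℓ : SemiLocal ℓ F)) *
          (((x ℓ)⁻¹ : (SemiLocal ℓ F)ˣ) : SemiLocal ℓ F) := by
      rw [div_eq_mul_inv, Units.val_mul, sub_mul, Units.mul_inv]
      change SemiLocal.of ℓ F a * _ = _
      ring
    rw [h1, hc', hj, pow_add, pow_add, map_mul, map_mul]
    ring

end WeakApprox

end Fermat.Agent.CFT
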